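import Mathlib

/-!
# S16, case `ℓ = 2`, `p ≡ 7 (mod 8)`: the pure-algebra core (helper903)

`isIntegral_div_prime_pow`  (Lemma X): over an integrally closed domain `B`, if `b` is prime,
`b ∤ a`, and `y`, `z` are integral with `a • y = b ^ m • z`, then `y = b ^ m • w` with `w` integral.

`deuring_core`: there are no `γ δ` integral over `ℤ[t]` with
`8 δ = γ c₄(t) - c c₆(t)`, `c` odd, where `c₄ = t⁴ - 24 t`, `c₆ = -t⁶ + 36 t³ - 216`
are the invariants of the Deuring family `y² + t x y + y = x³`.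

`deuring_core_poly`: the polynomial form used after specialising level-one modular forms.
-/

namespace Fermat.Agent.S16.helper903

open Polynomial

/-- **Lemma X.** Normality in codimension two, in the only shape needed. -/
theorem isIntegral_div_prime_pow {B K : Type*} [CommRing B] [IsDomain B] [IsIntegrallyClosed B]
    [Field K] [Algebra B K] [FaithfulSMul B K] {a b : B} (hb : Prime b) (hab : ¬ b ∣ a) (m : ℕ)
    {y z : K} (hy : IsIntegral B y) (hz : IsIntegral B z)
    (h : algebraMap B K a * y = algebraMap B K b ^ m * z) :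
    ∃ w : K, IsIntegral B w ∧ y = algebraMap B K b ^ m * w := by
  have hinj : Function.Injective (algebraMap B K) := FaithfulSMul.algebraMap_injective B K
  have ha0 : a ≠ 0 := by
    rintro rfl
    exact hab (dvd_zero b)
  have hbm0 : b ^ m ≠ 0 := pow_ne_zero m hb.ne_zero
  -- the two minimal polynomials, scaled, agree
  have hscale : (minpoly B y).scaleRoots a = (minpoly B z).scaleRoots (b ^ m) := by
    rw [← IsIntegrallyClosed.minpoly_smul ha0 hy, ← IsIntegrallyClosed.minpoly_smul hbm0 hz]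
    congr 1
    rw [Algebra.smul_def, Algebra.smul_def, map_pow]
    exact h
  set f := minpoly B y with hf
  set g := minpoly B z with hg
  have hdeg : f.natDegree = g.natDegree := by
    have := congrArg natDegree hscale
    simpa [natDegree_scaleRoots] using this
  -- divisibility of the coefficients
  have hdiv : ∀ i, (b ^ m) ^ (f.natDegree - i) ∣ f.coeff i := by
    intro i
    have hc := congrArg (fun p => p.coeff i) hscale
    simp only [coeff_scaleRoots] at hc
    rw [← hdeg] at hc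
    have h1 : b ^ (m * (f.natDegree - i)) ∣ a ^ (f.natDegree - i) * f.coeff i := by
      rw [mul_comm (a ^ _), hc, pow_mul]
      exact dvd_mul_left _ _
    have h2 : ¬ b ∣ a ^ (f.natDegree - i) := fun hd => hab (hb.dvd_of_dvd_pow hd)
    have := hb.pow_dvd_of_dvd_mul_left _ h2 h1
    rwa [pow_mul] at this
  -- the scaled polynomial over `K`
  set u : K := algebraMap B K b ^ m with hu
  have hu0 : u ≠ 0 := by
    rw [hu, ← map_pow]
    exact fun h0 => hbm0 (hinj (h0.trans (map_zero _).symm))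
  have hfm : f.Monic := minpoly.monic hy
  set fK : K[X] := f.map (algebraMap B K) with hfK
  have hfKm : fK.Monic := hfm.map _
  set G : K[X] := fK.scaleRoots u⁻¹ with hG
  have hGm : G.Monic := (monic_scaleRoots_iff _).2 hfKm
  have hGroot : G.eval (u⁻¹ * y) = 0 := by
    have h0 : fK.eval y = 0 := by
      rw [hfK, eval_map, ← aeval_def]
      exact minpoly.aeval B y
    rw [hG, scaleRoots_eval_mul, h0, mul_zero]
  have hGlift : G ∈ lifts (algebraMap B K) := by
    rw [lifts_iff_coeff_lifts]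
    intro i
    obtain ⟨q, hq⟩ := hdiv i
    refine ⟨q, ?_⟩
    rw [hG, coeff_scaleRoots, hfK, coeff_map, hfm.natDegree_map, hq, map_mul, map_pow, map_pow,
      ← hu, inv_pow]
    field_simp
  obtain ⟨F, hFmap, -, hFm⟩ := lifts_and_natDegree_eq_and_monic hGlift hGm
  refine ⟨u⁻¹ * y, ⟨F, hFm, ?_⟩, ?_⟩
  · rw [← eval_map, hFmap]
    exact hGroot
  · rw [← mul_assoc, mul_inv_cancel₀ hu0, one_mul]

/-- The `c₄`-invariant of the Deuring family `y² + t x y + y = x³`. -/
noncomputable def deuringC4 : ℤ[X] := X ^ 4 - 24 * X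

/-- The `c₆`-invariant of the Deuring family `y² + t x y + y = x³`. -/
noncomputable def deuringC6 : ℤ[X] := -X ^ 6 + 36 * X ^ 3 - 216

/-- The discriminant of the Deuring family. -/
noncomputable def deuringDelta : ℤ[X] := X ^ 3 - 27

theorem deuringC4_cube_sub_deuringC6_sq :
    deuringC4 ^ 3 - deuringC6 ^ 2 = 1728 * deuringDelta := by
  unfold deuringC4 deuringC6 deuringDelta
  ring

theorem prime_two_polyInt : Prime (2 : ℤ[X]) := by
  have h : (2 : ℤ[X]) = C (2 : ℤ) := (map_ofNat C 2).symm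
  rw [h, prime_C_iff]
  exact Int.prime_two

theorem two_not_dvd_X_pow (n : ℕ) : ¬ (2 : ℤ[X]) ∣ X ^ n := by
  intro hd
  have h : (2 : ℤ[X]) = C (2 : ℤ) := (map_ofNat C 2).symm
  rw [h, C_dvd_iff_dvd_coeff] at hd
  have := hd n
  rw [coeff_X_pow, if_pos rfl] at this
  norm_num at this

/-- **Core lemma.** No pair of elements integral over `ℤ[t]` satisfies
`8 δ = γ c₄ - c c₆` with `c` odd. -/
theorem deuring_core {K : Type*} [Field K] [Algebra ℤ[X] K] [FaithfulSMul ℤ[X] K]
    (c : ℤ) (hc : Odd c) (γ δ : K) (hγ : IsIntegral ℤ[X] γ) (hδ : IsIntegral ℤ[X] δ)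
    (h : 8 * δ = γ * algebraMap ℤ[X] K deuringC4 - (c : K) * algebraMap ℤ[X] K deuringC6) :
    False := by
  have hinj : Function.Injective (algebraMap ℤ[X] K) := FaithfulSMul.algebraMap_injective _ K
  set t : K := algebraMap ℤ[X] K X with ht
  have htI : IsIntegral ℤ[X] t := isIntegral_algebraMap
  have hcI : IsIntegral ℤ[X] (c : K) := by
    have : (c : K) = algebraMap ℤ[X] K (C c) := by simp
    rw [this]; exact isIntegral_algebraMap
  have hnI : ∀ n : ℕ, IsIntegral ℤ[X] (n : K) := fun n => by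
    have : (n : K) = algebraMap ℤ[X] K (n : ℤ[X]) := by simp
    rw [this]; exact isIntegral_algebraMap
  have h2K : algebraMap ℤ[X] K 2 = 2 := map_ofNat (algebraMap ℤ[X] K) 2
  have h4 : (4 : K) ≠ 0 := by
    have : (4 : K) = algebraMap ℤ[X] K 4 := (map_ofNat (algebraMap ℤ[X] K) 4).symm
    rw [this]
    intro h0
    have := hinj (h0.trans (map_zero _).symm)
    have h4' := congrArg (fun p : ℤ[X] => p.coeff 0) this
    simp at h4'
  have hc4 : algebraMap ℤ[X] K deuringC4 = t ^ 4 - 24 * t := by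
    simp only [deuringC4, ht, map_sub, map_mul, map_pow, map_ofNat]
  have hc6 : algebraMap ℤ[X] K deuringC6 = -t ^ 6 + 36 * t ^ 3 - 216 := by
    simp only [deuringC6, ht, map_sub, map_add, map_neg, map_mul, map_pow, map_ofNat]
  rw [hc4, hc6] at h
  -- first cancellation of `t ^ 3`
  have hy1 : IsIntegral ℤ[X] (γ * t + c * t ^ 3 + 4 * c) :=
    ((hγ.mul htI).add (hcI.mul (htI.pow 3))).add ((hnI 4).mul hcI)
  have hz1 : IsIntegral ℤ[X] (δ + 3 * t * γ + 5 * c * t ^ 3 - 27 * c) :=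
    (((hδ.add (((hnI 3).mul htI).mul hγ)).add (((hnI 5).mul hcI).mul (htI.pow 3)))).sub
      ((hnI 27).mul hcI)
  have he1 : algebraMap ℤ[X] K (X ^ 3) * (γ * t + c * t ^ 3 + 4 * c) =
      algebraMap ℤ[X] K 2 ^ 3 * (δ + 3 * t * γ + 5 * c * t ^ 3 - 27 * c) := by
    rw [map_pow, ← ht, h2K]
    linear_combination (-1 : K) * h
  obtain ⟨w, hwI, hw⟩ := isIntegral_div_prime_pow prime_two_polyInt (two_not_dvd_X_pow 3) 3
    hy1 hz1 he1
  rw [h2K] at hw
  -- second cancellation of `t`
  have hy2 : IsIntegral ℤ[X] (γ + c * t ^ 2) := hγ.add (hcI.mul (htI.pow 2))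
  have hz2 : IsIntegral ℤ[X] (2 * w - c) := ((hnI 2).mul hwI).sub hcI
  have he2 : algebraMap ℤ[X] K X * (γ + c * t ^ 2) = algebraMap ℤ[X] K 2 ^ 2 * (2 * w - c) := by
    rw [← ht, h2K]
    linear_combination hw
  have hX : ¬ (2 : ℤ[X]) ∣ X := by
    have := two_not_dvd_X_pow 1
    simpa using this
  obtain ⟨β, hβI, hβ⟩ := isIntegral_div_prime_pow prime_two_polyInt hX 2 hy2 hz2 he2
  rw [h2K] at hβ
  have he3 : t * β = 2 * w - c := by
    have : (4 : K) * (t * β) = 4 * (2 * w - c) := by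
      rw [← ht, h2K] at he2
      linear_combination he2 - t * hβ
    exact mul_left_cancel₀ h4 this
  obtain ⟨c', rfl⟩ := hc
  -- `1 = 2 (w - c') - t β` lies in every prime above `(2, t)`
  have hone : (1 : K) = 2 * (w - c') - t * β := by
    rw [he3]; push_cast; ring
  let φ : ℤ[X] →+* ZMod 2 := eval₂RingHom (Int.castRingHom (ZMod 2)) 0
  have hφ2 : φ 2 = 0 := by
    simp only [φ, map_ofNat]
    rfl
  have hφX : φ X = 0 := by simp [φ]
  let R := integralClosure ℤ[X] K
  have hker : RingHom.ker (algebraMap ℤ[X] R) ≤ RingHom.ker φ := by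
    intro x hx
    have hx' : algebraMap ℤ[X] R x = 0 := hx
    have : algebraMap ℤ[X] K x = 0 := by
      have := congrArg (fun r : R => (r : K)) hx'
      simpa using this
    have hx0 : x = 0 := hinj (this.trans (map_zero _).symm)
    rw [hx0]; exact Ideal.zero_mem _
  have hcomap : (⊥ : Ideal R).comap (algebraMap ℤ[X] R) ≤ RingHom.ker φ := by
    rw [← RingHom.ker_eq_comap_bot]; exact hker
  have hPprime : (RingHom.ker φ).IsPrime := RingHom.ker_isPrime φ
  obtain ⟨Q, -, hQp, hQ⟩ := Ideal.exists_ideal_over_prime_of_isIntegral (RingHom.ker φ)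
    (⊥ : Ideal R) hcomap
  have h2Q : algebraMap ℤ[X] R 2 ∈ Q := by
    have : (2 : ℤ[X]) ∈ Q.comap (algebraMap ℤ[X] R) := by rw [hQ]; exact hφ2
    exact this
  have hXQ : algebraMap ℤ[X] R X ∈ Q := by
    have : (X : ℤ[X]) ∈ Q.comap (algebraMap ℤ[X] R) := by rw [hQ]; exact hφX
    exact this
  have hc'I : IsIntegral ℤ[X] ((c' : ℤ) : K) := by
    have : ((c' : ℤ) : K) = algebraMap ℤ[X] K (C c') := by simp
    rw [this]; exact isIntegral_algebraMap
  let w' : R := ⟨w - c', hwI.sub hc'I⟩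
  let β' : R := ⟨β, hβI⟩
  have hone' : (1 : R) = algebraMap ℤ[X] R 2 * w' - algebraMap ℤ[X] R X * β' := by
    apply Subtype.ext
    show (1 : K) = algebraMap ℤ[X] K 2 * (w - c') - algebraMap ℤ[X] K X * β
    rw [h2K, ← ht]
    exact hone
  have : (1 : R) ∈ Q := by
    rw [hone']
    exact Q.sub_mem (Q.mul_mem_right _ h2Q) (Q.mul_mem_right _ hXQ)
  exact hQp.ne_top ((Ideal.eq_top_iff_one Q).2 this)

/-- The monic polynomial `∑ₖ (-1)ᵏ eₖ X^(N-k)` attached to a sequence of "elementary symmetric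
functions" `e 0 = 1, e 1, …, e N`. -/
noncomputable def seqPoly {A : Type*} [CommRing A] (N : ℕ) (e : ℕ → A) : A[X] :=
  ∑ k ∈ Finset.range (N + 1), C ((-1) ^ k * e k) * X ^ (N - k)

theorem seqPoly_eq {A : Type*} [CommRing A] (N : ℕ) (e : ℕ → A) (he : e 0 = 1) :
    seqPoly N e = X ^ N + ∑ k ∈ Finset.range N, C ((-1) ^ (k + 1) * e (k + 1)) * X ^ (N - (k + 1)) := by
  unfold seqPoly
  rw [Finset.sum_range_succ', add_comm]
  simp [he]

theorem seqPoly_degree_lt {A : Type*} [CommRing A] (N : ℕ) (e : ℕ → A) :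
    (∑ k ∈ Finset.range N, C ((-1) ^ (k + 1) * e (k + 1)) * X ^ (N - (k + 1))).degree <
      (N : WithBot ℕ) := by
  refine lt_of_le_of_lt (degree_sum_le _ _) ?_
  refine (Finset.sup_lt_iff (WithBot.bot_lt_coe N)).2 ?_
  intro k hk
  have hk' : k < N := Finset.mem_range.1 hk
  refine lt_of_le_of_lt (degree_C_mul_X_pow_le _ _) ?_
  exact WithBot.coe_lt_coe.2 (by omega : N - (k + 1) < N)

theorem seqPoly_monic {A : Type*} [CommRing A] (N : ℕ) (e : ℕ → A) (he : e 0 = 1) :
    (seqPoly N e).Monic := by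
  rw [seqPoly_eq N e he]
  exact monic_X_pow_add (seqPoly_degree_lt N e)

theorem seqPoly_natDegree {A : Type*} [CommRing A] [Nontrivial A] (N : ℕ) (e : ℕ → A)
    (he : e 0 = 1) : (seqPoly N e).natDegree = N := by
  rw [seqPoly_eq N e he, natDegree_add_eq_left_of_degree_lt, natDegree_X_pow]
  rw [degree_X_pow]
  exact seqPoly_degree_lt N e

theorem seqPoly_eval₂ {A L : Type*} [CommRing A] [CommRing L] (f : A →+* L) (x : L) (N : ℕ)
    (e : ℕ → A) :
    (seqPoly N e).eval₂ f x = ∑ k ∈ Finset.range (N + 1), (-1) ^ k * f (e k) * x ^ (N - k) := by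
  unfold seqPoly
  rw [eval₂_finsetSum]
  refine Finset.sum_congr rfl fun k _ => ?_
  rw [eval₂_mul, eval₂_C, eval₂_pow, eval₂_X, map_mul, map_pow, map_neg, map_one]

/-- **Core lemma, polynomial form.** Let `N ≥ 1`, `c` odd, and let `e, d : ℕ → ℤ[t]` be two
sequences with `e 0 = d 0 = 1` such that, in `ℤ[t][Y]`,
`8 ^ N * ∑ₖ (-1)ᵏ dₖ Y^(N-k) = ∑ₖ (-1)ᵏ eₖ c₄ᵏ (8 Y + c c₆)^(N-k)`.
This is impossible.  (In the application `eₖ`, `dₖ` are the specialisations along the Deuring
family of the elementary symmetric functions of the conjugates `Ĥᵢ` and of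
`Dᵢ = (Ĥᵢ E₄ - c E₆) / 8`.) -/
theorem deuring_core_poly (N : ℕ) (hN : 0 < N) (c : ℤ) (hc : Odd c) (e d : ℕ → ℤ[X])
    (he : e 0 = 1) (hd : d 0 = 1)
    (h : ∑ k ∈ Finset.range (N + 1), C ((-1) ^ k * 8 ^ N * d k) * (X : ℤ[X][X]) ^ (N - k) =
      ∑ k ∈ Finset.range (N + 1), C ((-1) ^ k * e k * deuringC4 ^ k) *
        (C 8 * (X : ℤ[X][X]) + C (C c * deuringC6)) ^ (N - k)) : False := by
  let F := FractionRing ℤ[X]
  let K := AlgebraicClosure F
  have hinj : Function.Injective (algebraMap ℤ[X] K) := by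
    rw [IsScalarTower.algebraMap_eq ℤ[X] F K]
    exact (algebraMap F K).injective.comp (IsFractionRing.injective ℤ[X] F)
  have hfaith : FaithfulSMul ℤ[X] K := (faithfulSMul_iff_algebraMap_injective ℤ[X] K).2 hinj
  -- a root of `P`
  have hPm : (seqPoly N e).Monic := seqPoly_monic N e he
  have hPK : ((seqPoly N e).map (algebraMap ℤ[X] K)).degree ≠ 0 := by
    intro h0
    have h1 := natDegree_eq_zero_iff_degree_le_zero.2 h0.le
    rw [hPm.natDegree_map, seqPoly_natDegree N e he] at h1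
    omega
  obtain ⟨γ, hγroot⟩ := IsAlgClosed.exists_root _ hPK
  have hγ0 : (seqPoly N e).eval₂ (algebraMap ℤ[X] K) γ = 0 := by
    rw [← eval_map]; exact hγroot
  have hγ : IsIntegral ℤ[X] γ := ⟨seqPoly N e, hPm, hγ0⟩
  have h8 : (8 : K) ≠ 0 := by
    have : (8 : K) = algebraMap ℤ[X] K 8 := (map_ofNat (algebraMap ℤ[X] K) 8).symm
    rw [this]
    intro h0
    have := hinj (h0.trans (map_zero _).symm)
    have h8' := congrArg (fun p : ℤ[X] => p.coeff 0) this
    simp at h8'
  set c4 : K := algebraMap ℤ[X] K deuringC4 with hc4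
  set c6 : K := algebraMap ℤ[X] K deuringC6 with hc6
  set δ : K := (γ * c4 - (c : K) * c6) / 8 with hδdef
  have hrel : 8 * δ = γ * c4 - (c : K) * c6 := by
    rw [mul_comm]
    exact ((div_eq_iff h8).1 hδdef.symm).symm
  -- evaluate the identity at `δ`
  have hev := congrArg (fun p : ℤ[X][X] => p.eval₂ (algebraMap ℤ[X] K) δ) h
  simp only [eval₂_finsetSum, eval₂_mul, eval₂_C, eval₂_pow, eval₂_X, eval₂_add, map_mul,
    map_pow, map_neg, map_one, map_ofNat, eval₂_neg, eval₂_one, eval₂_ofNat] at hev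
  have hCc : algebraMap ℤ[X] K (C c) = (c : K) := by simp
  rw [hCc, ← hc4, ← hc6] at hev
  have hR : ∑ k ∈ Finset.range (N + 1), (-1) ^ k * algebraMap ℤ[X] K (e k) * c4 ^ k *
      (8 * δ + (c : K) * c6) ^ (N - k) = 0 := by
    have hstep : ∀ k ∈ Finset.range (N + 1), (-1) ^ k * algebraMap ℤ[X] K (e k) * c4 ^ k *
        (8 * δ + (c : K) * c6) ^ (N - k) =
        c4 ^ N * ((-1) ^ k * algebraMap ℤ[X] K (e k) * γ ^ (N - k)) := by
      intro k hk
      have hk' : k ≤ N := Nat.lt_succ_iff.1 (Finset.mem_range.1 hk)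
      have : 8 * δ + (c : K) * c6 = γ * c4 := by rw [hrel]; ring
      rw [this, mul_pow]
      have hN' : c4 ^ N = c4 ^ k * c4 ^ (N - k) := by rw [← pow_add]; congr 1; omega
      rw [hN']; ring
    rw [Finset.sum_congr rfl hstep, ← Finset.mul_sum, ← seqPoly_eval₂, hγ0, mul_zero]
  rw [hR] at hev
  have hS0 : (seqPoly N d).eval₂ (algebraMap ℤ[X] K) δ = 0 := by
    rw [seqPoly_eval₂]
    have : ∑ k ∈ Finset.range (N + 1), (-1) ^ k * 8 ^ N * algebraMap ℤ[X] K (d k) * δ ^ (N - k) =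
        8 ^ N * ∑ k ∈ Finset.range (N + 1), (-1) ^ k * algebraMap ℤ[X] K (d k) * δ ^ (N - k) := by
      rw [Finset.mul_sum]
      refine Finset.sum_congr rfl fun k _ => ?_
      ring
    rw [this] at hev
    exact (mul_eq_zero.1 hev).resolve_left (pow_ne_zero N h8)
  have hδ : IsIntegral ℤ[X] δ := ⟨seqPoly N d, seqPoly_monic N d hd, hS0⟩
  exact deuring_core c hc γ δ hγ hδ hrel

end Fermat.Agent.S16.helper903
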