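/-
S16 shared leaf (helper8794): the weight-2 Eisenstein series of prime level `p`,
`E_p(z) = (p·E₂(pz) − E₂(z))/24 ∈ M₂(Γ₀(p))`, built from Mathlib's `EisensteinSeries.E2`.
-/
import Mathlib
import Fermat.Prelude.Def_ModularForm_HeckeOperatorForms
import Fermat.Prelude.Def_FLTPrelim_Modularity
import Fermat.Prelude.Thm_UpperHalfPlane_qCoeff_heckeT
import Fermat.Prelude.Thm_UpperHalfPlane_qCoeff_heckeU
import Fermat.Prelude.Thm_UpperHalfPlane_eq_of_forall_qCoeff_eq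
import Fermat.Prelude.Thm_ModularFormClass_qCoeff_heckeT
import Fermat.Prelude.Thm_ModularFormClass_qCoeff_heckeU
import Fermat.Prelude.Thm_CongruenceSubgroup_one_mem_strictPeriods_Gamma0

set_option autoImplicit false

open UpperHalfPlane ModularForm EisensteinSeries CongruenceSubgroup Matrix.SpecialLinearGroup
open scoped MatrixGroups ModularForm Real Manifold

namespace Fermat.Agent.S16.helper8794

noncomputable section

/-- `D2 γ` is bounded at `i∞`. -/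
theorem isBoundedAtImInfty_D2 (γ : SL(2, ℤ)) : IsBoundedAtImInfty (D2 γ) := by
  rw [UpperHalfPlane.isBoundedAtImInfty_iff]
  refine ⟨2 * π, 1, fun z hz => ?_⟩
  by_cases hc : γ 1 0 = 0
  · simp [D2, hc, Real.pi_pos.le]
  · have h1 : |((γ 1 0 : ℤ) : ℝ)| * z.im ≤ ‖denom γ z‖ := by
      have := Complex.abs_im_le_norm (denom γ z)
      simpa [denom, abs_mul, abs_of_pos z.im_pos] using this
    have h2 : (0 : ℝ) < |((γ 1 0 : ℤ) : ℝ)| := by
      have : (γ 1 0 : ℝ) ≠ 0 := by exact_mod_cast hc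
      positivity
    have h3 : |((γ 1 0 : ℤ) : ℝ)| ≤ ‖denom γ z‖ := by nlinarith
    have hpos : 0 < ‖denom γ z‖ := lt_of_lt_of_le h2 h3
    have hnorm : ‖D2 γ z‖ = 2 * π * |((γ 1 0 : ℤ) : ℝ)| / ‖denom γ z‖ := by
      simp [D2, abs_of_pos Real.pi_pos]
    rw [hnorm, div_le_iff₀ hpos]
    have := Real.pi_pos
    nlinarith

/-- Bezout: for a nonzero integer column `(A, C)` there is `δ ∈ SL(2,ℤ)` whose second row kills
it. -/
theorem exists_SL2_row_kill (A C : ℤ) (h : A ≠ 0 ∨ C ≠ 0) :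
    ∃ δ : SL(2, ℤ), δ 1 0 * A + δ 1 1 * C = 0 := by
  have hg : (Int.gcd A C : ℤ) ≠ 0 := by
    intro h0
    have h0' : Int.gcd A C = 0 := by exact_mod_cast h0
    rw [Int.gcd_eq_zero_iff] at h0'
    rcases h with h | h
    · exact h h0'.1
    · exact h h0'.2
  obtain ⟨a', ha'⟩ := Int.gcd_dvd_left A C
  obtain ⟨c', hc'⟩ := Int.gcd_dvd_right A C
  have hbez := Int.gcd_eq_gcd_ab A C
  generalize (Int.gcd A C : ℤ) = g at hg ha' hc' hbez
  generalize Int.gcdA A C = x at hbez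
  generalize Int.gcdB A C = y at hbez
  have hdet : x * a' + y * c' = 1 := by
    have : g * (x * a' + y * c') = g * 1 := by
      rw [mul_one]
      calc g * (x * a' + y * c') = (g * a') * x + (g * c') * y := by ring
        _ = g := by rw [← ha', ← hc', ← hbez]
    exact mul_left_cancel₀ hg this
  refine ⟨⟨!![x, y; -c', a'], ?_⟩, ?_⟩
  · rw [Matrix.det_fin_two_of]; linarith
  · show -c' * A + a' * C = 0
    rw [ha', hc']
    ring

theorem sub_slash_GL (k : ℤ) (g : GL (Fin 2) ℝ) (f f' : ℍ → ℂ) :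
    (f - f') ∣[k] g = f ∣[k] g - f' ∣[k] g := by
  rw [sub_eq_add_neg, SlashAction.add_slash, SlashAction.neg_slash, ← sub_eq_add_neg]

theorem sub_slash_SL (k : ℤ) (g : SL(2, ℤ)) (f f' : ℍ → ℂ) :
    (f - f') ∣[k] g = f ∣[k] g - f' ∣[k] g := by
  rw [sub_eq_add_neg, SlashAction.add_slash, SlashAction.neg_slash, ← sub_eq_add_neg]

theorem mapGL_coe_apply (γ : SL(2, ℤ)) (i j : Fin 2) :
    ((mapGL ℝ γ : GL (Fin 2) ℝ) : Matrix (Fin 2) (Fin 2) ℝ) i j = ((γ i j : ℤ) : ℝ) := by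
  simp [mapGL]

/-- `E₂ ∣[2] g` is bounded at `i∞` for every `g ∈ GL(2,ℝ)` with integer entries. -/
theorem isBoundedAtImInfty_E2_slash (g : GL (Fin 2) ℝ) (A B C D : ℤ)
    (hg : (g : Matrix (Fin 2) (Fin 2) ℝ) = !![(A : ℝ), (B : ℝ); (C : ℝ), (D : ℝ)]) :
    IsBoundedAtImInfty (E2 ∣[(2 : ℤ)] g) := by
  have hAC : A ≠ 0 ∨ C ≠ 0 := by
    by_contra hcon
    push Not at hcon
    have hdet : (g : Matrix (Fin 2) (Fin 2) ℝ).det ≠ 0 := g.det_ne_zero
    rw [hg, Matrix.det_fin_two_of, hcon.1, hcon.2] at hdet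
    simp at hdet
  obtain ⟨δ, hδ⟩ := exists_SL2_row_kill A C hAC
  set M : GL (Fin 2) ℝ := mapGL ℝ δ * g with hM
  have hM10 : M 1 0 = 0 := by
    have : (M : Matrix (Fin 2) (Fin 2) ℝ) 1 0 = ((δ 1 0 * A + δ 1 1 * C : ℤ) : ℝ) := by
      rw [hM, Matrix.GeneralLinearGroup.coe_mul, Matrix.mul_apply, Fin.sum_univ_two, hg,
        mapGL_coe_apply, mapGL_coe_apply]
      simp
    rw [this, hδ]; simp
  have hgM : g = mapGL ℝ δ⁻¹ * M := by
    rw [hM, ← mul_assoc, ← map_mul, inv_mul_cancel, map_one, one_mul]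
  have hSL : E2 ∣[(2 : ℤ)] (mapGL ℝ δ⁻¹ : GL (Fin 2) ℝ) = E2 ∣[(2 : ℤ)] δ⁻¹ := rfl
  rw [hgM, SlashAction.slash_mul, hSL, E2_slash_action]
  exact IsBoundedAtImInfty.slash 2 hM10
    (isBoundedAtImInfty_E2.sub ((isBoundedAtImInfty_D2 δ⁻¹).const_smul_left _))

/-- Conjugating `Γ₀(p)` by `diag(p,1)` lands in `SL(2,ℤ)`. -/
theorem exists_conj_Gamma0 {p : ℕ} (hp : p ≠ 0) (γ : SL(2, ℤ)) (hγ : γ ∈ Gamma0 p) :
    ∃ γ' : SL(2, ℤ), heckeDiagMatrix p * mapGL ℝ γ = mapGL ℝ γ' * heckeDiagMatrix p ∧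
      (p : ℤ) * γ' 1 0 = γ 1 0 ∧ γ' 1 1 = γ 1 1 := by
  have hc : (p : ℤ) ∣ γ 1 0 := (ZMod.intCast_zmod_eq_zero_iff_dvd _ _).mp (Gamma0_mem.mp hγ)
  obtain ⟨c', hc'⟩ := hc
  have hdet : γ 0 0 * γ 1 1 - γ 0 1 * γ 1 0 = 1 := by
    have := γ.det_coe
    rwa [Matrix.det_fin_two] at this
  obtain ⟨γ', h00, h01, h10, h11⟩ : ∃ γ' : SL(2, ℤ), γ' 0 0 = γ 0 0 ∧
      γ' 0 1 = (p : ℤ) * γ 0 1 ∧ γ' 1 0 = c' ∧ γ' 1 1 = γ 1 1 :=
    ⟨⟨!![γ 0 0, (p : ℤ) * γ 0 1; c', γ 1 1], by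
      rw [Matrix.det_fin_two_of]
      rw [hc'] at hdet
      linarith⟩, rfl, rfl, rfl, rfl⟩
  refine ⟨γ', ?_, ?_, h11⟩
  · apply Matrix.GeneralLinearGroup.ext
    intro i j
    simp only [Matrix.GeneralLinearGroup.coe_mul, Matrix.mul_apply, Fin.sum_univ_two,
      val_heckeDiagMatrix hp, mapGL_coe_apply]
    fin_cases i <;> fin_cases j <;> simp [h00, h01, h10, h11, hc'] <;> ring
  · rw [h10, hc']

theorem D2_slash_diag {p : ℕ} (hp : p ≠ 0) (γ γ' : SL(2, ℤ))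
    (h10 : (p : ℤ) * γ' 1 0 = γ 1 0) (h11 : γ' 1 1 = γ 1 1) :
    (D2 γ') ∣[(2 : ℤ)] heckeDiagMatrix p = D2 γ := by
  ext z
  rw [slash_heckeDiagMatrix_apply 2 hp]
  have hp' : (p : ℂ) ≠ 0 := by exact_mod_cast hp
  have e10 : ((γ 1 0 : ℤ) : ℂ) = (p : ℂ) * ((γ' 1 0 : ℤ) : ℂ) := by
    rw [← h10]; push_cast; ring
  have e11 : ((γ 1 1 : ℤ) : ℂ) = ((γ' 1 1 : ℤ) : ℂ) := by rw [h11]
  have hden : denom (γ' : GL (Fin 2) ℝ) ((heckeDiagMatrix p • z : ℍ) : ℂ) =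
      denom (γ : GL (Fin 2) ℝ) (z : ℂ) := by
    simp only [denom, coe_heckeDiagMatrix_smul hp]
    simp [e10, e11]
    ring
  simp only [D2, hden, e10]
  norm_num
  ring

/-- The transformation law of `z ↦ p·E₂(pz)` under `Γ₀(p)`. -/
theorem E2_diag_slash {p : ℕ} (hp : p ≠ 0) (γ : SL(2, ℤ)) (hγ : γ ∈ Gamma0 p) :
    (E2 ∣[(2 : ℤ)] heckeDiagMatrix p) ∣[(2 : ℤ)] γ =
      E2 ∣[(2 : ℤ)] heckeDiagMatrix p - (1 / (2 * riemannZeta 2)) • D2 γ := by
  obtain ⟨γ', hmat, h10, h11⟩ := exists_conj_Gamma0 hp γ hγ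
  have h1 : (E2 ∣[(2 : ℤ)] heckeDiagMatrix p) ∣[(2 : ℤ)] γ =
      (E2 ∣[(2 : ℤ)] γ') ∣[(2 : ℤ)] heckeDiagMatrix p := by
    show (E2 ∣[(2 : ℤ)] heckeDiagMatrix p) ∣[(2 : ℤ)] (mapGL ℝ γ : GL (Fin 2) ℝ) =
      (E2 ∣[(2 : ℤ)] (mapGL ℝ γ' : GL (Fin 2) ℝ)) ∣[(2 : ℤ)] heckeDiagMatrix p
    rw [← SlashAction.slash_mul, ← SlashAction.slash_mul, hmat]
  rw [h1, E2_slash_action, sub_slash_GL, ModularForm.smul_slash,
    D2_slash_diag hp γ γ' h10 h11, σ_heckeDiagMatrix]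
  rfl

/-- `E_p(z) = (p·E₂(pz) − E₂(z))/24` as a function on `ℍ`. -/
def eisFun (p : ℕ) : ℍ → ℂ := (24 : ℂ)⁻¹ • (E2 ∣[(2 : ℤ)] heckeDiagMatrix p - E2)

theorem eisFun_apply {p : ℕ} (hp : p ≠ 0) (z : ℍ) :
    eisFun p z = ((p : ℂ) * E2 (heckeDiagMatrix p • z) - E2 z) / 24 := by
  simp only [eisFun, Pi.smul_apply, Pi.sub_apply, slash_heckeDiagMatrix_apply 2 hp, smul_eq_mul]
  norm_num
  ring

theorem eisFun_slash {p : ℕ} (hp : p ≠ 0) (γ : SL(2, ℤ)) (hγ : γ ∈ Gamma0 p) :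
    eisFun p ∣[(2 : ℤ)] γ = eisFun p := by
  rw [eisFun, SL_smul_slash, sub_slash_SL, E2_diag_slash hp γ hγ, E2_slash_action]
  congr 1
  abel

theorem eisFun_mdifferentiable (p : ℕ) : MDiff (eisFun p) :=
  ((E2_mdifferentiable.slash 2 (heckeDiagMatrix p)).sub E2_mdifferentiable).const_smul _

theorem eisFun_isBoundedAtImInfty_slash {p : ℕ} (hp : p ≠ 0) (γ : SL(2, ℤ)) :
    IsBoundedAtImInfty (eisFun p ∣[(2 : ℤ)] γ) := by
  rw [eisFun, SL_smul_slash, sub_slash_SL]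
  have hA : IsBoundedAtImInfty ((E2 ∣[(2 : ℤ)] heckeDiagMatrix p) ∣[(2 : ℤ)] γ) := by
    have h1 : (E2 ∣[(2 : ℤ)] heckeDiagMatrix p) ∣[(2 : ℤ)] γ =
        E2 ∣[(2 : ℤ)] (heckeDiagMatrix p * mapGL ℝ γ) := by
      rw [SlashAction.slash_mul]; rfl
    rw [h1]
    refine isBoundedAtImInfty_E2_slash _ ((p : ℤ) * γ 0 0) ((p : ℤ) * γ 0 1) (γ 1 0) (γ 1 1) ?_
    ext i j
    simp only [Matrix.GeneralLinearGroup.coe_mul, Matrix.mul_apply, Fin.sum_univ_two,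
      val_heckeDiagMatrix hp, mapGL_coe_apply]
    fin_cases i <;> fin_cases j <;> simp
  have hB : IsBoundedAtImInfty (E2 ∣[(2 : ℤ)] γ) := by
    rw [E2_slash_action]
    exact isBoundedAtImInfty_E2.sub ((isBoundedAtImInfty_D2 γ).const_smul_left _)
  exact (hA.sub hB).const_smul_left _

/-- The weight-2 Eisenstein series of level `Γ₀(p)`:
`E_p(z) = (p·E₂(pz) − E₂(z))/24 = (p-1)/24 + ∑ σ'(n) qⁿ`. -/
def eisP (p : ℕ) [NeZero p] : ModularForm (Gamma0 p) 2 where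
  toFun := eisFun p
  slash_action_eq' := by
    rintro _ ⟨γ, hγ, rfl⟩
    exact eisFun_slash (NeZero.ne p) γ hγ
  holo' := eisFun_mdifferentiable p
  bdd_at_cusps' := fun {c} hc => by
    have hc' : IsCusp c 𝒮ℒ := hc.mono (Subgroup.map_le_range _ _)
    rw [OnePoint.isBoundedAt_iff_forall_SL2Z hc']
    intro γ _
    exact eisFun_isBoundedAtImInfty_slash (NeZero.ne p) γ

@[simp] theorem coe_eisP (p : ℕ) [NeZero p] : ⇑(eisP p) = eisFun p := rfl

/-! ### The `q`-expansion -/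

/-- `σ'(n)`: the sum of the divisors of `n` that are prime to `p` (not divisible by `p`). -/
def sigmaPrime (p n : ℕ) : ℕ := ∑ d ∈ n.divisors with ¬ p ∣ d, d

theorem sum_divisors_filter_dvd {p : ℕ} (hp : p ≠ 0) (n : ℕ) :
    ∑ d ∈ n.divisors with p ∣ d, d = if p ∣ n then p * ∑ d ∈ (n / p).divisors, d else 0 := by
  split_ifs with h
  · obtain ⟨m, rfl⟩ := h
    rw [Nat.mul_div_cancel_left _ (Nat.pos_of_ne_zero hp), Finset.mul_sum]
    rcases Nat.eq_zero_or_pos m with rfl | hm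
    · simp
    have himg : (p * m).divisors.filter (fun d => p ∣ d) = m.divisors.image (fun d => p * d) := by
      ext d
      simp only [Finset.mem_filter, Nat.mem_divisors, Finset.mem_image]
      constructor
      · rintro ⟨⟨hd, hne⟩, ⟨e, rfl⟩⟩
        exact ⟨e, ⟨(Nat.mul_dvd_mul_iff_left (Nat.pos_of_ne_zero hp)).mp hd, hm.ne'⟩, rfl⟩
      · rintro ⟨e, ⟨he, _⟩, rfl⟩
        exact ⟨⟨Nat.mul_dvd_mul_left p he, mul_ne_zero hp hm.ne'⟩, Dvd.intro e rfl⟩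
    rw [himg, Finset.sum_image]
    intro a _ b _ hab
    exact Nat.eq_of_mul_eq_mul_left (Nat.pos_of_ne_zero hp) hab
  · apply Finset.sum_eq_zero
    intro d hd
    rw [Finset.mem_filter, Nat.mem_divisors] at hd
    exact absurd (hd.2.trans hd.1.1) h

/-- `σ(n) = σ'(n) + [p ∣ n]·p·σ(n/p)`. -/
theorem sigma_eq_sigmaPrime_add {p : ℕ} (hp : p ≠ 0) (n : ℕ) :
    ArithmeticFunction.sigma 1 n =
      sigmaPrime p n + if p ∣ n then p * ArithmeticFunction.sigma 1 (n / p) else 0 := by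
  rw [ArithmeticFunction.sigma_one_apply, ArithmeticFunction.sigma_one_apply, sigmaPrime,
    ← sum_divisors_filter_dvd hp n, add_comm]
  exact (Finset.sum_filter_add_sum_filter_not _ _ _).symm

theorem cexp_diag_smul {p : ℕ} (hp : p ≠ 0) (τ : ℍ) :
    Complex.exp (2 * π * Complex.I * ((heckeDiagMatrix p • τ : ℍ) : ℂ)) =
      Complex.exp (2 * π * Complex.I * (τ : ℂ)) ^ p := by
  rw [coe_heckeDiagMatrix_smul hp, ← Complex.exp_nat_mul]
  congr 1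
  ring

theorem hasSum_dilate {c : ℕ → ℂ} {q s : ℂ} {d : ℕ} (hd : d ≠ 0)
    (h : HasSum (fun m : ℕ => c m • (q ^ d) ^ m) s) :
    HasSum (fun m : ℕ => (if d ∣ m then c (m / d) else 0) • q ^ m) s := by
  have hinj : Function.Injective (fun n : ℕ => d * n) :=
    fun a b h => Nat.eq_of_mul_eq_mul_left (Nat.pos_of_ne_zero hd) h
  have h3 : ∀ x ∉ Set.range (fun n : ℕ => d * n),
      (fun m : ℕ => (if d ∣ m then c (m / d) else 0) • q ^ m) x = 0 := by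
    intro x hx
    have : ¬ d ∣ x := fun ⟨c, hc⟩ => hx ⟨c, hc.symm⟩
    simp only
    rw [if_neg this, zero_smul]
  have h2 : ((fun m : ℕ => (if d ∣ m then c (m / d) else 0) • q ^ m) ∘ fun n : ℕ => d * n) =
      fun n : ℕ => c n • (q ^ d) ^ n := by
    funext n
    simp only [Function.comp_apply]
    rw [if_pos (Dvd.intro n rfl), Nat.mul_div_cancel_left _ (Nat.pos_of_ne_zero hd), pow_mul]
  exact (Function.Injective.hasSum_iff hinj h3).mp (by rw [h2]; exact h)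

/-- The `q`-expansion coefficients of `E_p`: `(p-1)/24` and `σ'(n)` for `n ≥ 1`. -/
def eisCoeff (p : ℕ) (n : ℕ) : ℂ := if n = 0 then ((p : ℂ) - 1) / 24 else (sigmaPrime p n : ℂ)

@[simp] theorem eisCoeff_zero (p : ℕ) : eisCoeff p 0 = ((p : ℂ) - 1) / 24 := if_pos rfl

theorem eisCoeff_of_ne_zero (p : ℕ) {n : ℕ} (hn : n ≠ 0) :
    eisCoeff p n = (sigmaPrime p n : ℂ) := if_neg hn

theorem hasSum_eisFun {p : ℕ} (hp : p ≠ 0) (τ : ℍ) :
    HasSum (fun m : ℕ => eisCoeff p m • Function.Periodic.qParam 1 (τ : ℂ) ^ m)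
      (eisFun p τ) := by
  have h1 := hasSum_qExpansion_E2 (z := heckeDiagMatrix p • τ)
  have h2 := hasSum_qExpansion_E2 (z := τ)
  rw [cexp_diag_smul hp] at h1
  have h1' := hasSum_dilate hp h1
  have h3 := ((h1'.mul_left (p : ℂ)).sub h2).div_const 24
  rw [eisFun_apply hp]
  simp only [Function.Periodic.qParam, Complex.ofReal_one, div_one]
  refine (congrArg (fun f => HasSum f _) (funext fun m => ?_)).mpr h3
  rcases Nat.eq_zero_or_pos m with rfl | hm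
  · simp
  · have hσ := sigma_eq_sigmaPrime_add hp m
    rw [eisCoeff_of_ne_zero p hm.ne', if_neg hm.ne']
    by_cases hpm : p ∣ m
    · have hmp : m / p ≠ 0 := by
        obtain ⟨e, rfl⟩ := hpm
        rw [Nat.mul_div_cancel_left _ (Nat.pos_of_ne_zero hp)]
        rintro rfl
        simp at hm
      rw [if_pos hpm] at hσ ⊢
      rw [if_neg hmp]
      have hσ' : ((ArithmeticFunction.sigma 1 m : ℕ) : ℂ) =
          (sigmaPrime p m : ℂ) + (p : ℂ) * ((ArithmeticFunction.sigma 1 (m / p) : ℕ) : ℂ) := by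
        exact_mod_cast congrArg (Nat.cast : ℕ → ℂ) hσ
      rw [hσ']
      simp only [smul_eq_mul]
      ring
    · rw [if_neg hpm] at hσ ⊢
      rw [add_zero] at hσ
      rw [hσ]
      simp only [smul_eq_mul, zero_mul, mul_zero, zero_sub]
      ring

/-- The `q`-expansion of `E_p`. -/
theorem qExpansion_eisP_coeff (p : ℕ) [NeZero p] (n : ℕ) :
    (qExpansion 1 (eisP p)).coeff n = eisCoeff p n :=
  (ModularFormClass.qExpansion_coeff_unique one_pos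
    (CongruenceSubgroup.one_mem_strictPeriods_Gamma0 p) (f := eisP p) (c := eisCoeff p)
    (fun τ => hasSum_eisFun (NeZero.ne p) τ) n).symm

theorem qCoeff_eisP (p : ℕ) [NeZero p] (n : ℕ) :
    ModularFormClass.qCoeff (eisP p) n = eisCoeff p n :=
  qExpansion_eisP_coeff p n

theorem qCoeff_eisP_zero (p : ℕ) [NeZero p] :
    ModularFormClass.qCoeff (eisP p) 0 = ((p : ℂ) - 1) / 24 := by
  rw [qCoeff_eisP, eisCoeff_zero]

theorem qCoeff_eisP_of_ne_zero (p : ℕ) [NeZero p] {n : ℕ} (hn : n ≠ 0) :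
    ModularFormClass.qCoeff (eisP p) n = (sigmaPrime p n : ℂ) := by
  rw [qCoeff_eisP, eisCoeff_of_ne_zero p hn]

theorem qExpansion_eisP_coeff_zero (p : ℕ) [NeZero p] :
    (qExpansion 1 (eisP p)).coeff 0 = ((p : ℂ) - 1) / 24 := by
  rw [qExpansion_eisP_coeff, eisCoeff_zero]

theorem qExpansion_eisP_coeff_of_pos (p : ℕ) [NeZero p] {n : ℕ} (hn : 1 ≤ n) :
    (qExpansion 1 (eisP p)).coeff n = ((∑ d ∈ n.divisors with ¬ p ∣ d, d : ℕ) : ℂ) := by
  rw [qExpansion_eisP_coeff, eisCoeff_of_ne_zero p (by omega)]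
  rfl

theorem qExpansion_eisP (p : ℕ) [NeZero p] :
    qExpansion 1 (eisP p) = PowerSeries.mk (fun n : ℕ =>
      if n = 0 then ((p : ℂ) - 1) / 24 else ((∑ d ∈ n.divisors with ¬ p ∣ d, d : ℕ) : ℂ)) := by
  ext n
  rw [PowerSeries.coeff_mk, qExpansion_eisP_coeff]
  rfl

/-- Existence form (the shape consumed by the one-trace leaves). -/
theorem eisExists (p : ℕ) [NeZero p] :
    ∃ E : ModularForm (Gamma0 p) 2, (qExpansion 1 E).coeff 0 = ((p : ℂ) - 1) / 24 ∧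
      ∀ n : ℕ, 1 ≤ n →
        (qExpansion 1 E).coeff n = ((∑ d ∈ n.divisors with ¬ p ∣ d, d : ℕ) : ℂ) :=
  ⟨eisP p, qExpansion_eisP_coeff_zero p, fun _ hn => qExpansion_eisP_coeff_of_pos p hn⟩

/-! ### Hecke recursions for `σ'` -/

theorem sigmaPrime_eq_sum_ite (p n : ℕ) :
    sigmaPrime p n = ∑ d ∈ n.divisors, if p ∣ d then 0 else d := by
  rw [sigmaPrime, Finset.sum_filter]
  refine Finset.sum_congr rfl fun d _ => ?_
  by_cases h : p ∣ d <;> simp [h]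

theorem divisors_mul_prime {ℓ : ℕ} (hℓ : ℓ.Prime) {n : ℕ} (hn : n ≠ 0) :
    (n * ℓ).divisors = n.divisors ∪ n.divisors.image (fun d => ℓ * d) := by
  ext d
  simp only [Nat.mem_divisors, Finset.mem_union, Finset.mem_image]
  constructor
  · rintro ⟨hd, _⟩
    by_cases hℓd : ℓ ∣ d
    · obtain ⟨e, rfl⟩ := hℓd
      right
      refine ⟨e, ⟨?_, hn⟩, rfl⟩
      rw [mul_comm n ℓ] at hd
      exact (Nat.mul_dvd_mul_iff_left hℓ.pos).mp hd
    · left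
      exact ⟨(Nat.Coprime.dvd_mul_right
        ((Nat.Prime.coprime_iff_not_dvd hℓ).mpr hℓd).symm).mp hd, hn⟩
  · rintro (⟨hd, _⟩ | ⟨e, ⟨he, _⟩, rfl⟩)
    · exact ⟨hd.mul_right ℓ, mul_ne_zero hn hℓ.ne_zero⟩
    · exact ⟨by rw [mul_comm n ℓ]; exact Nat.mul_dvd_mul_left ℓ he, mul_ne_zero hn hℓ.ne_zero⟩

theorem divisors_inter_image {ℓ : ℕ} (hℓ : ℓ ≠ 0) {n : ℕ} (hn : n ≠ 0) :
    n.divisors ∩ n.divisors.image (fun d => ℓ * d) =
      if ℓ ∣ n then (n / ℓ).divisors.image (fun d => ℓ * d) else ∅ := by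
  split_ifs with h
  · obtain ⟨m, rfl⟩ := h
    have hm : m ≠ 0 := by rintro rfl; simp at hn
    rw [Nat.mul_div_cancel_left _ (Nat.pos_of_ne_zero hℓ)]
    ext d
    simp only [Finset.mem_inter, Nat.mem_divisors, Finset.mem_image]
    constructor
    · rintro ⟨⟨hd, _⟩, e, _, rfl⟩
      exact ⟨e, ⟨(Nat.mul_dvd_mul_iff_left (Nat.pos_of_ne_zero hℓ)).mp hd, hm⟩, rfl⟩
    · rintro ⟨e, ⟨he, _⟩, rfl⟩
      exact ⟨⟨Nat.mul_dvd_mul_left ℓ he, hn⟩, e, ⟨he.mul_left ℓ, hn⟩, rfl⟩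
  · ext d
    simp only [Finset.mem_inter, Nat.mem_divisors, Finset.mem_image, Finset.notMem_empty,
      iff_false]
    rintro ⟨⟨hd, _⟩, e, _, rfl⟩
    exact h ((Dvd.intro e rfl).trans hd)

/-- The `T_ℓ`-recursion for `σ'`: `σ'(nℓ) + [ℓ ∣ n]·ℓ·σ'(n/ℓ) = (1+ℓ)·σ'(n)` for a prime
`ℓ` coprime to `p`. -/
theorem sigmaPrime_mul_prime {p ℓ : ℕ} (hℓ : ℓ.Prime) (hℓp : ¬ ℓ ∣ p) {n : ℕ} (hn : n ≠ 0) :
    sigmaPrime p (n * ℓ) + (if ℓ ∣ n then ℓ * sigmaPrime p (n / ℓ) else 0) =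
      (1 + ℓ) * sigmaPrime p n := by
  have hcop : Nat.Coprime p ℓ := ((Nat.Prime.coprime_iff_not_dvd hℓ).mpr hℓp).symm
  set g : ℕ → ℕ := fun d => if p ∣ d then 0 else d with hg
  have hgmul : ∀ d, g (ℓ * d) = ℓ * g d := by
    intro d
    simp only [hg]
    by_cases h : p ∣ d
    · rw [if_pos h, if_pos (h.mul_left ℓ), mul_zero]
    · rw [if_neg h, if_neg (fun h' => h (hcop.dvd_of_dvd_mul_left h'))]
  have hinj : ∀ s : Finset ℕ, ∑ d ∈ s.image (fun d => ℓ * d), g d = ℓ * ∑ d ∈ s, g d := by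
    intro s
    rw [Finset.sum_image (fun a _ b _ hab => Nat.eq_of_mul_eq_mul_left hℓ.pos hab),
      Finset.mul_sum]
    exact Finset.sum_congr rfl fun d _ => hgmul d
  have h1 := Finset.sum_union_inter (s₁ := n.divisors)
    (s₂ := n.divisors.image (fun d => ℓ * d)) (f := g)
  rw [← divisors_mul_prime hℓ hn, divisors_inter_image hℓ.ne_zero hn, hinj] at h1
  simp only [sigmaPrime_eq_sum_ite]
  rw [← hg]
  split_ifs at h1 ⊢ with h
  · rw [hinj] at h1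
    rw [h1]; ring
  · rw [Finset.sum_empty] at h1
    rw [h1]; ring

/-- The `U_p`-recursion for `σ'`: `σ'(np) = σ'(n)` for `p` prime. -/
theorem sigmaPrime_mul_self {p : ℕ} (hp : p.Prime) {n : ℕ} (hn : n ≠ 0) :
    sigmaPrime p (n * p) = sigmaPrime p n := by
  rw [sigmaPrime, sigmaPrime]
  congr 1
  ext d
  simp only [Finset.mem_filter, Nat.mem_divisors]
  constructor
  · rintro ⟨⟨hd, _⟩, hpd⟩
    exact ⟨⟨(Nat.Coprime.dvd_mul_right
      ((Nat.Prime.coprime_iff_not_dvd hp).mpr hpd).symm).mp hd, hn⟩, hpd⟩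
  · rintro ⟨⟨hd, _⟩, hpd⟩
    exact ⟨⟨hd.mul_right p, mul_ne_zero hn hp.ne_zero⟩, hpd⟩

theorem sigmaPrime_one (p : ℕ) (hp : p ≠ 1) : sigmaPrime p 1 = 1 := by
  simp [sigmaPrime, Finset.filter_singleton, hp]

/-! ### Hecke eigen-relations of `E_p` -/

theorem coeffHeckeT_eisCoeff {p ℓ : ℕ} (hℓ : ℓ.Prime) (hℓp : ¬ ℓ ∣ p) (n : ℕ) :
    ModularForm.coeffHeckeT 2 ℓ (eisCoeff p) n = (1 + (ℓ : ℂ)) * eisCoeff p n := by
  rw [ModularForm.coeffHeckeT_apply]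
  have hpow : ((ℓ : ℂ)) ^ ((2 : ℤ) - 1) = (ℓ : ℂ) := by norm_num
  rw [hpow]
  rcases Nat.eq_zero_or_pos n with rfl | hn
  · simp
    ring
  · have h := sigmaPrime_mul_prime (p := p) hℓ hℓp hn.ne'
    rw [eisCoeff_of_ne_zero p (mul_ne_zero hn.ne' hℓ.ne_zero), eisCoeff_of_ne_zero p hn.ne']
    by_cases hd : ℓ ∣ n
    · have hne : n / ℓ ≠ 0 := by
        obtain ⟨e, rfl⟩ := hd
        rw [Nat.mul_div_cancel_left _ hℓ.pos]
        rintro rfl
        simp at hn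
      rw [if_pos hd] at h ⊢
      rw [eisCoeff_of_ne_zero p hne]
      have h' := congrArg (Nat.cast : ℕ → ℂ) h
      push_cast at h'
      exact h'
    · rw [if_neg hd] at h ⊢
      have h' := congrArg (Nat.cast : ℕ → ℂ) h
      push_cast at h'
      exact h'

theorem coeffHeckeU_eisCoeff {p : ℕ} (hp : p.Prime) (n : ℕ) :
    ModularForm.coeffHeckeU p (eisCoeff p) n = eisCoeff p n := by
  rw [ModularForm.coeffHeckeU_apply]
  rcases Nat.eq_zero_or_pos n with rfl | hn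
  · simp
  · rw [eisCoeff_of_ne_zero p (mul_ne_zero hn.ne' hp.ne_zero), eisCoeff_of_ne_zero p hn.ne',
      sigmaPrime_mul_self hp hn.ne']

/-- Two modular forms on `Γ₀(N)` with the same `q`-coefficients are equal. -/
theorem modularForm_ext_qCoeff {N : ℕ} {k : ℤ} (f g : ModularForm (Gamma0 N) k)
    (h : ∀ n, ModularFormClass.qCoeff f n = ModularFormClass.qCoeff g n) : f = g := by
  have hΓ := CongruenceSubgroup.one_mem_strictPeriods_Gamma0 N
  have : Fact (IsCusp OnePoint.infty (Subgroup.map (mapGL ℝ) (Gamma0 N))) :=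
    ⟨Subgroup.isCusp_of_mem_strictPeriods one_pos hΓ⟩
  apply DFunLike.coe_injective
  exact UpperHalfPlane.eq_of_forall_qCoeff_eq
    (SlashInvariantFormClass.periodic_comp_ofComplex f hΓ) (ModularFormClass.holo f)
    (ModularFormClass.bdd_at_infty f)
    (SlashInvariantFormClass.periodic_comp_ofComplex g hΓ) (ModularFormClass.holo g)
    (ModularFormClass.bdd_at_infty g) h

theorem qCoeff_smul_eisP (p : ℕ) [NeZero p] (c : ℂ) (n : ℕ) :
    ModularFormClass.qCoeff (⇑(c • eisP p)) n = c * eisCoeff p n := by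
  have h := ModularForm.qExpansion_smul one_pos
    (CongruenceSubgroup.one_mem_strictPeriods_Gamma0 p) c (eisP p)
  show (qExpansion 1 (c • eisP p)).coeff n = _
  rw [h, PowerSeries.coeff_smul, qExpansion_eisP_coeff, smul_eq_mul]

/-- `T_ℓ E_p = (1 + ℓ) E_p` for a prime `ℓ ∤ p`. -/
theorem heckeTLin_eisP (p : ℕ) [NeZero p] {ℓ : ℕ} (hℓ : ℓ.Prime) (hℓp : ¬ ℓ ∣ p) :
    ModularForm.heckeTLin 2 hℓ hℓp (eisP p) = (1 + (ℓ : ℂ)) • eisP p := by
  apply modularForm_ext_qCoeff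
  intro n
  rw [qCoeff_smul_eisP, ModularForm.coe_heckeTLin_apply,
    ModularFormClass.qCoeff_heckeT (eisP p) (CongruenceSubgroup.one_mem_strictPeriods_Gamma0 p)
      hℓ.ne_zero n,
    show ModularFormClass.qCoeff (eisP p) = eisCoeff p from funext (qCoeff_eisP p),
    coeffHeckeT_eisCoeff hℓ hℓp]

/-- `U_p E_p = E_p` for `p` prime. -/
theorem heckeULin_eisP (p : ℕ) [NeZero p] (hp : p.Prime) :
    ModularForm.heckeULin 2 (dvd_refl p) (eisP p) = eisP p := by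
  apply modularForm_ext_qCoeff
  intro n
  rw [ModularForm.coe_heckeULin_apply,
    ModularFormClass.qCoeff_heckeU (eisP p) (CongruenceSubgroup.one_mem_strictPeriods_Gamma0 p)
      hp.ne_zero n,
    show ModularFormClass.qCoeff (eisP p) = eisCoeff p from funext (qCoeff_eisP p),
    coeffHeckeU_eisCoeff hp]

end

end Fermat.Agent.S16.helper8794
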