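/-
helper2138 — S16 lower bound, leaf (H): coset-transfer Hecke operators on `Hom(Γ, A)`.

* `Corr Γ ι` : an abstract Hecke correspondence on `Γ ≤ SL(2,ℤ)`: finitely many matrices
  `α i : GL (Fin 2) ℝ` in distinct left `Γ`-cosets with `α i * γ ∈ Γ * α j`.
* `Corr.σ`, `Corr.g`, `Corr.rel` : `α i * γ = g i γ * α (σ γ i)`; uniqueness `Corr.uniq`;
  cocycle identities `σ_mul`, `g_mul`.
* `Corr.op A φ` : `(op φ) γ = ∑ i, φ (g i γ)` (an additive hom again), additive in `φ`,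
  natural in `A` (`Corr.op_comp`), linear (`Corr.opLin`).
* `Corr.op_conj` : commutation with an involution of `Γ` induced by conjugation.
-/
import Mathlib
import Fermat.Prelude.Def_ModularCurve_PeriodHomPair
import Fermat.Prelude.Sol.S_ModularForm_heckeT_slash_eq_self_of_mem_Gamma0

set_option autoImplicit false

open CongruenceSubgroup Matrix.SpecialLinearGroup
open scoped MatrixGroups

namespace Fermat.Agent.S16.helper2138

/-- A Hecke correspondence on `Γ ≤ SL(2,ℤ)`: matrices `α i` lying in pairwise distinct left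
`Γ`-cosets such that `α i * γ ∈ Γ * α j` for some `j`. -/
structure Corr (Γ : Subgroup SL(2, ℤ)) (ι : Type) [Fintype ι] where
  /-- the coset representatives -/
  α : ι → GL (Fin 2) ℝ
  ex : ∀ (i : ι) (γ : Γ), ∃ (j : ι) (h : Γ),
    α i * mapGL ℝ (γ : SL(2, ℤ)) = mapGL ℝ (h : SL(2, ℤ)) * α j
  inj : ∀ (i j : ι) (h : Γ), mapGL ℝ (h : SL(2, ℤ)) * α i = α j → i = j

namespace Corr

variable {Γ : Subgroup SL(2, ℤ)} {ι : Type} [Fintype ι] (C : Corr Γ ι)

/-- the permutation of the cosets induced by right multiplication by `γ` -/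
noncomputable def σ (γ : Γ) (i : ι) : ι := (C.ex i γ).choose

/-- the `Γ`-component: `α i * γ = g i γ * α (σ γ i)` -/
noncomputable def g (i : ι) (γ : Γ) : Γ := (C.ex i γ).choose_spec.choose

theorem rel (i : ι) (γ : Γ) :
    C.α i * mapGL ℝ (γ : SL(2, ℤ)) = mapGL ℝ (C.g i γ : SL(2, ℤ)) * C.α (C.σ γ i) :=
  (C.ex i γ).choose_spec.choose_spec

theorem uniq {i j : ι} {γ h : Γ}
    (H : C.α i * mapGL ℝ (γ : SL(2, ℤ)) = mapGL ℝ (h : SL(2, ℤ)) * C.α j) :
    j = C.σ γ i ∧ h = C.g i γ := by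
  have h1 := C.rel i γ
  rw [H] at h1
  have h2 : mapGL ℝ (((C.g i γ)⁻¹ * h : Γ) : SL(2, ℤ)) * C.α j = C.α (C.σ γ i) := by
    rw [Subgroup.coe_mul, map_mul, mul_assoc, h1, ← mul_assoc, ← map_mul, Subgroup.coe_inv,
      inv_mul_cancel, map_one, one_mul]
  have hj := C.inj _ _ _ h2
  refine ⟨hj, ?_⟩
  rw [← hj] at h1
  have h3 := mul_right_cancel h1
  exact Subtype.ext (mapGL_injective h3)

theorem σ_one (i : ι) : C.σ 1 i = i := by
  have H : C.α i * mapGL ℝ ((1 : Γ) : SL(2, ℤ)) = mapGL ℝ ((1 : Γ) : SL(2, ℤ)) * C.α i := by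
    simp
  exact (C.uniq H).1.symm

theorem g_one (i : ι) : C.g i 1 = 1 := by
  have H : C.α i * mapGL ℝ ((1 : Γ) : SL(2, ℤ)) = mapGL ℝ ((1 : Γ) : SL(2, ℤ)) * C.α i := by
    simp
  exact (C.uniq H).2.symm

theorem σ_g_mul (γ δ : Γ) (i : ι) :
    C.σ (γ * δ) i = C.σ δ (C.σ γ i) ∧ C.g i (γ * δ) = C.g i γ * C.g (C.σ γ i) δ := by
  have H : C.α i * mapGL ℝ ((γ * δ : Γ) : SL(2, ℤ)) =
      mapGL ℝ ((C.g i γ * C.g (C.σ γ i) δ : Γ) : SL(2, ℤ)) * C.α (C.σ δ (C.σ γ i)) := by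
    rw [Subgroup.coe_mul, map_mul, ← mul_assoc, C.rel i γ, mul_assoc, C.rel (C.σ γ i) δ,
      ← mul_assoc, Subgroup.coe_mul, map_mul]
  obtain ⟨h1, h2⟩ := C.uniq H
  exact ⟨h1.symm, h2.symm⟩

theorem σ_mul (γ δ : Γ) (i : ι) : C.σ (γ * δ) i = C.σ δ (C.σ γ i) := (C.σ_g_mul γ δ i).1

theorem g_mul (γ δ : Γ) (i : ι) : C.g i (γ * δ) = C.g i γ * C.g (C.σ γ i) δ :=
  (C.σ_g_mul γ δ i).2

/-- `σ γ` as a permutation. -/
noncomputable def σEquiv (γ : Γ) : ι ≃ ι where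
  toFun := C.σ γ
  invFun := C.σ γ⁻¹
  left_inv i := by rw [← C.σ_mul, mul_inv_cancel, C.σ_one]
  right_inv i := by rw [← C.σ_mul, inv_mul_cancel, C.σ_one]

@[simp] theorem σEquiv_apply (γ : Γ) (i : ι) : C.σEquiv γ i = C.σ γ i := rfl

/-- The coset-transfer operator on `Hom(Γ, A)`: `(op φ) γ = ∑ i, φ (g i γ)`. -/
noncomputable def op (A : Type*) [AddCommGroup A] (φ : Additive Γ →+ A) : Additive Γ →+ A where
  toFun γ := ∑ i, φ (Additive.ofMul (C.g i (Additive.toMul γ)))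
  map_zero' := by
    simp [g_one]
  map_add' γ δ := by
    simp only [toMul_add, g_mul, ofMul_mul, map_add, Finset.sum_add_distrib]
    congr 1
    exact Equiv.sum_comp (C.σEquiv (Additive.toMul γ))
      (fun i => φ (Additive.ofMul (C.g i (Additive.toMul δ))))

theorem op_apply (A : Type*) [AddCommGroup A] (φ : Additive Γ →+ A) (γ : Γ) :
    C.op A φ (Additive.ofMul γ) = ∑ i, φ (Additive.ofMul (C.g i γ)) := rfl

theorem op_add (A : Type*) [AddCommGroup A] (φ ψ : Additive Γ →+ A) :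
    C.op A (φ + ψ) = C.op A φ + C.op A ψ := by
  refine AddMonoidHom.ext fun γ => ?_
  obtain ⟨γ, rfl⟩ := Additive.ofMul.surjective γ
  simp [op_apply, Finset.sum_add_distrib]

theorem op_zero (A : Type*) [AddCommGroup A] : C.op A (0 : Additive Γ →+ A) = 0 := by
  refine AddMonoidHom.ext fun γ => ?_
  obtain ⟨γ, rfl⟩ := Additive.ofMul.surjective γ
  simp [op_apply]

/-- Naturality in the coefficient group. -/
theorem op_comp {A B : Type*} [AddCommGroup A] [AddCommGroup B] (f : A →+ B)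
    (φ : Additive Γ →+ A) : C.op B (f.comp φ) = f.comp (C.op A φ) := by
  refine AddMonoidHom.ext fun γ => ?_
  obtain ⟨γ, rfl⟩ := Additive.ofMul.surjective γ
  simp [op_apply]

/-- `op` as a linear map. -/
noncomputable def opLin (R : Type*) [Semiring R] (A : Type*) [AddCommGroup A] [Module R A] :
    (Additive Γ →+ A) →ₗ[R] (Additive Γ →+ A) where
  toFun := C.op A
  map_add' := C.op_add A
  map_smul' c φ := by
    refine AddMonoidHom.ext fun γ => ?_
    obtain ⟨γ, rfl⟩ := Additive.ofMul.surjective γ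
    simp [op_apply, Finset.smul_sum]

@[simp] theorem opLin_apply (R : Type*) [Semiring R] (A : Type*) [AddCommGroup A] [Module R A]
    (φ : Additive Γ →+ A) : C.opLin R A φ = C.op A φ := rfl

/-- Commutation of `op` with an involution `θ` of `Γ` induced by conjugation with `ε`,
provided `ε` permutes the cosets `Γ α i`. -/
theorem op_conj (θ : Γ →* Γ) (hθ : ∀ γ, θ (θ γ) = γ) (ε : GL (Fin 2) ℝ)
    (hε : ∀ γ : Γ, mapGL ℝ ((θ γ : Γ) : SL(2, ℤ)) = ε * mapGL ℝ (γ : SL(2, ℤ)) * ε⁻¹)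
    (hα : ∀ i, ∃ (j : ι) (τ : Γ), ε * C.α i * ε⁻¹ = mapGL ℝ (τ : SL(2, ℤ)) * C.α j)
    (A : Type*) [AddCommGroup A] (φ : Additive Γ →+ A) :
    C.op A (φ.comp (MonoidHom.toAdditive θ)) = (C.op A φ).comp (MonoidHom.toAdditive θ) := by
  classical
  choose π τ hπ using hα
  have c2 : ∀ x : Γ, ε⁻¹ * mapGL ℝ (x : SL(2, ℤ)) * ε = mapGL ℝ ((θ x : Γ) : SL(2, ℤ)) := by
    intro x
    have h := hε (θ x)
    rw [hθ] at h
    rw [h]; group
  have hπinj : Function.Injective π := by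
    intro i i' hii
    have h1 := hπ i
    have h2 := hπ i'
    rw [← hii] at h2
    have e1 : C.α i = ε⁻¹ * (mapGL ℝ ((τ i : Γ) : SL(2, ℤ)) * C.α (π i)) * ε := by
      rw [← h1]; group
    have e2 : C.α i' = ε⁻¹ * (mapGL ℝ ((τ i' : Γ) : SL(2, ℤ)) * C.α (π i)) * ε := by
      rw [← h2]; group
    have h3 : mapGL ℝ (((θ (τ i' * (τ i)⁻¹) : Γ)) : SL(2, ℤ)) * C.α i = C.α i' := by
      rw [← c2, Subgroup.coe_mul, map_mul, Subgroup.coe_inv, map_inv, e2]
      rw [e1]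
      group
    exact C.inj _ _ _ h3
  have hπbij : Function.Bijective π := Finite.injective_iff_bijective.mp hπinj
  let πe : ι ≃ ι := Equiv.ofBijective π hπbij
  -- the key relation
  have key : ∀ (i : ι) (γ : Γ),
      C.g (π i) (θ γ) = (τ i)⁻¹ * θ (C.g i γ) * τ (C.σ γ i) := by
    intro i γ
    have hrel := C.rel i γ
    have H : C.α (π i) * mapGL ℝ ((θ γ : Γ) : SL(2, ℤ)) =
        mapGL ℝ ((((τ i)⁻¹ * θ (C.g i γ) * τ (C.σ γ i) : Γ)) : SL(2, ℤ)) *
          C.α (π (C.σ γ i)) := by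
      have e1 : C.α (π i) = (mapGL ℝ ((τ i : Γ) : SL(2, ℤ)))⁻¹ * (ε * C.α i * ε⁻¹) := by
        rw [hπ i]; group
      have e3 : mapGL ℝ ((τ (C.σ γ i) : Γ) : SL(2, ℤ)) * C.α (π (C.σ γ i)) =
          ε * C.α (C.σ γ i) * ε⁻¹ := (hπ _).symm
      rw [Subgroup.coe_mul, Subgroup.coe_mul, map_mul, map_mul, Subgroup.coe_inv, map_inv,
        mul_assoc, mul_assoc, e3, hε (C.g i γ), hε γ, e1]
      have e4 : ε * C.α i * ε⁻¹ * (ε * mapGL ℝ (γ : SL(2, ℤ)) * ε⁻¹) =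
          ε * (C.α i * mapGL ℝ (γ : SL(2, ℤ))) * ε⁻¹ := by group
      rw [mul_assoc, e4, hrel]
      group
    exact (C.uniq H).2.symm
  refine AddMonoidHom.ext fun γ => ?_
  obtain ⟨γ, rfl⟩ := Additive.ofMul.surjective γ
  show ∑ i, φ (Additive.ofMul (θ (C.g i γ))) = ∑ i, φ (Additive.ofMul (C.g i (θ γ)))
  rw [← Equiv.sum_comp πe (fun i => φ (Additive.ofMul (C.g i (θ γ))))]
  have hterm : ∀ i, φ (Additive.ofMul (C.g (πe i) (θ γ))) =
      φ (Additive.ofMul (θ (C.g i γ))) + (φ (Additive.ofMul (τ (C.σ γ i)))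
        - φ (Additive.ofMul (τ i))) := by
    intro i
    show φ (Additive.ofMul (C.g (π i) (θ γ))) = _
    rw [key i γ, ofMul_mul, ofMul_mul, ofMul_inv, map_add, map_add, map_neg]
    abel
  rw [Finset.sum_congr rfl (fun i _ => hterm i), Finset.sum_add_distrib,
    Finset.sum_sub_distrib]
  have hperm : ∑ i, φ (Additive.ofMul (τ (C.σ γ i))) = ∑ i, φ (Additive.ofMul (τ i)) :=
    Equiv.sum_comp (C.σEquiv γ) (fun i => φ (Additive.ofMul (τ i)))
  rw [hperm, sub_self, add_zero]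

end Corr

/-! ### The concrete correspondences `T_l` (`l ∤ N`) and `U_q` (`q ∣ N`) on `Γ₀(N)` -/

section Concrete

open ModularForm (heckeMatrix heckeDiagMatrix val_heckeMatrix val_heckeDiagMatrix)
open P2MW.S_ModularForm_heckeT_slash_eq_self_of_mem_Gamma0.ModularForm.HeckeSlashInvariance
  (heckeRep heckeRep_mul heckeMatrix_mul_of_dvd redMatrix affinePerm)

/-- Coset representatives for `T_l`: `!![1, j; 0, l]` (`j : ZMod l`) and `!![l, 0; 0, 1]` (`∞`). -/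
noncomputable def repT (l : ℕ) (x : OnePoint (ZMod l)) : GL (Fin 2) ℝ :=
  x.elim (heckeDiagMatrix l) (fun j => heckeMatrix l j.val)

@[simp] theorem repT_infty (l : ℕ) : repT l OnePoint.infty = heckeDiagMatrix l := rfl

@[simp] theorem repT_coe (l : ℕ) (j : ZMod l) : repT l (j : OnePoint (ZMod l)) = heckeMatrix l j.val :=
  rfl

theorem mapGL_val (g : SL(2, ℤ)) (i j : Fin 2) :
    ((mapGL ℝ g : GL (Fin 2) ℝ) : Matrix (Fin 2) (Fin 2) ℝ) i j = ((g i j : ℤ) : ℝ) := by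
  simp

theorem mem_Gamma0_iff_dvd {N : ℕ} {A : SL(2, ℤ)} : A ∈ Gamma0 N ↔ (N : ℤ) ∣ A 1 0 := by
  rw [Gamma0_mem, ZMod.intCast_zmod_eq_zero_iff_dvd]

/-- the four entry equations of `h * !![1, j; 0, l] = M`. -/
theorem entries_mul_heckeMatrix {l : ℕ} (hl : l ≠ 0) (j : ℕ) (h : SL(2, ℤ)) (M : GL (Fin 2) ℝ)
    (H : mapGL ℝ h * heckeMatrix l j = M) :
    ((h 0 0 : ℤ) : ℝ) = (M : Matrix (Fin 2) (Fin 2) ℝ) 0 0 ∧
    ((h 0 0 : ℤ) : ℝ) * j + ((h 0 1 : ℤ) : ℝ) * l = (M : Matrix (Fin 2) (Fin 2) ℝ) 0 1 ∧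
    ((h 1 0 : ℤ) : ℝ) = (M : Matrix (Fin 2) (Fin 2) ℝ) 1 0 ∧
    ((h 1 0 : ℤ) : ℝ) * j + ((h 1 1 : ℤ) : ℝ) * l = (M : Matrix (Fin 2) (Fin 2) ℝ) 1 1 := by
  subst H
  simp only [Matrix.GeneralLinearGroup.coe_mul, val_heckeMatrix hl, Matrix.mul_apply,
    Fin.sum_univ_two, mapGL_val]
  simp

theorem entries_mul_heckeDiagMatrix {l : ℕ} (hl : l ≠ 0) (h : SL(2, ℤ)) (M : GL (Fin 2) ℝ)
    (H : mapGL ℝ h * heckeDiagMatrix l = M) :
    ((h 0 0 : ℤ) : ℝ) * l = (M : Matrix (Fin 2) (Fin 2) ℝ) 0 0 ∧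
    ((h 0 1 : ℤ) : ℝ) = (M : Matrix (Fin 2) (Fin 2) ℝ) 0 1 ∧
    ((h 1 0 : ℤ) : ℝ) * l = (M : Matrix (Fin 2) (Fin 2) ℝ) 1 0 ∧
    ((h 1 1 : ℤ) : ℝ) = (M : Matrix (Fin 2) (Fin 2) ℝ) 1 1 := by
  subst H
  simp only [Matrix.GeneralLinearGroup.coe_mul, val_heckeDiagMatrix hl, Matrix.mul_apply,
    Fin.sum_univ_two, mapGL_val]
  simp

theorem det_SL (h : SL(2, ℤ)) : h 0 0 * h 1 1 - h 0 1 * h 1 0 = 1 := by
  have := h.det_coe
  rwa [Matrix.det_fin_two] at this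

theorem heckeMatrix_inj {l : ℕ} [NeZero l] (j j' : ZMod l) (h : SL(2, ℤ))
    (H : mapGL ℝ h * heckeMatrix l j.val = heckeMatrix l j'.val) : j = j' := by
  have hl : l ≠ 0 := NeZero.ne l
  obtain ⟨e00, e01, -, -⟩ := entries_mul_heckeMatrix hl j.val h _ H
  rw [val_heckeMatrix hl] at e00 e01
  simp only [Matrix.of_apply, Matrix.cons_val_zero, Matrix.cons_val_one] at e00 e01
  have h00 : h 0 0 = 1 := by exact_mod_cast e00
  have h01 : (h 0 0) * (j.val : ℤ) + h 0 1 * (l : ℤ) = (j'.val : ℤ) := by exact_mod_cast e01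
  rw [h00, one_mul] at h01
  have hj := ZMod.val_lt j
  have hj' := ZMod.val_lt j'
  have hb : h 0 1 = 0 := by
    by_contra hne
    rcases lt_or_gt_of_ne hne with hneg | hpos
    · have : h 0 1 ≤ -1 := by omega
      nlinarith
    · have : 1 ≤ h 0 1 := by omega
      nlinarith
  rw [hb, zero_mul, add_zero] at h01
  exact ZMod.val_injective l (by exact_mod_cast h01)

theorem two_le_of_prime (l : ℕ) [Fact l.Prime] : 2 ≤ l := (Fact.out : l.Prime).two_le

theorem repT_inj {l : ℕ} [Fact l.Prime] (x y : OnePoint (ZMod l)) (h : SL(2, ℤ))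
    (H : mapGL ℝ h * repT l x = repT l y) : x = y := by
  have hl : l ≠ 0 := (Fact.out : l.Prime).ne_zero
  have hl2 := two_le_of_prime l
  have : NeZero l := ⟨hl⟩
  induction x using OnePoint.rec with
  | infty =>
    induction y using OnePoint.rec with
    | infty => rfl
    | coe j' =>
      exfalso
      rw [repT_infty, repT_coe] at H
      obtain ⟨e00, -, -, -⟩ := entries_mul_heckeDiagMatrix hl h _ H
      rw [val_heckeMatrix hl] at e00
      simp only [Matrix.of_apply, Matrix.cons_val_zero] at e00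
      have h00 : h 0 0 * (l : ℤ) = 1 := by exact_mod_cast e00
      have := Int.eq_one_or_neg_one_of_mul_eq_one' h00
      omega
  | coe j =>
    induction y using OnePoint.rec with
    | infty =>
      exfalso
      rw [repT_infty, repT_coe] at H
      obtain ⟨e00, -, e10, -⟩ := entries_mul_heckeMatrix hl j.val h _ H
      rw [val_heckeDiagMatrix hl] at e00 e10
      simp only [Matrix.of_apply, Matrix.cons_val_zero, Matrix.cons_val_one] at e00 e10
      have h00 : h 0 0 = (l : ℤ) := by exact_mod_cast e00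
      have h10 : h 1 0 = 0 := by exact_mod_cast e10
      have hdet := det_SL h
      rw [h00, h10, mul_zero, sub_zero] at hdet
      have := Int.eq_one_or_neg_one_of_mul_eq_one' hdet
      omega
    | coe j' =>
      rw [repT_coe, repT_coe] at H
      rw [heckeMatrix_inj j j' h H]

/-- The correspondence `T_l` on `Γ₀(N)` for a prime `l ∤ N`. -/
noncomputable def corrT (N l : ℕ) [Fact l.Prime] (hlN : ¬ l ∣ N) :
    Corr (Gamma0 N) (OnePoint (ZMod l)) where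
  α := repT l
  ex x γ := by
    obtain ⟨g', hg', hmul⟩ := heckeRep_mul hlN (γ : SL(2, ℤ)) (mem_Gamma0_iff_dvd.mp γ.2) x
    exact ⟨_, ⟨g', mem_Gamma0_iff_dvd.mpr hg'⟩, hmul⟩
  inj x y h H := repT_inj x y h H

/-- The correspondence `U_q` on `Γ₀(N)` for `q ∣ N`. -/
noncomputable def corrU (N q : ℕ) [NeZero q] (hqN : q ∣ N) : Corr (Gamma0 N) (ZMod q) where
  α := fun j => heckeMatrix q j.val
  ex x γ := by
    have hγ : (q : ℤ) ∣ (γ : SL(2, ℤ)) 1 0 :=
      (Int.natCast_dvd_natCast.mpr hqN).trans (mem_Gamma0_iff_dvd.mp γ.2)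
    obtain ⟨g', hg', hmul⟩ := heckeMatrix_mul_of_dvd (γ : SL(2, ℤ)) hγ x
    refine ⟨_, ⟨g', mem_Gamma0_iff_dvd.mpr ?_⟩, hmul⟩
    rw [hg']
    exact Dvd.dvd.mul_left (mem_Gamma0_iff_dvd.mp γ.2) _
  inj x y h H := heckeMatrix_inj x y h H

@[simp] theorem corrT_α (N l : ℕ) [Fact l.Prime] (hlN : ¬ l ∣ N) (x : OnePoint (ZMod l)) :
    (corrT N l hlN).α x = repT l x := rfl

@[simp] theorem corrU_α (N q : ℕ) [NeZero q] (hqN : q ∣ N) (j : ZMod q) :
    (corrU N q hqN).α j = heckeMatrix q j.val := rfl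

/-- The Hecke operator `T_l` on `Hom(Γ₀(N), A)`. -/
noncomputable def heckeHomT (N l : ℕ) [Fact l.Prime] (hlN : ¬ l ∣ N) (A : Type*) [AddCommGroup A]
    (φ : Additive (Gamma0 N) →+ A) : Additive (Gamma0 N) →+ A :=
  (corrT N l hlN).op A φ

/-- The Hecke operator `U_q` on `Hom(Γ₀(N), A)`. -/
noncomputable def heckeHomU (N q : ℕ) [NeZero q] (hqN : q ∣ N) (A : Type*) [AddCommGroup A]
    (φ : Additive (Gamma0 N) →+ A) : Additive (Gamma0 N) →+ A :=
  (corrU N q hqN).op A φ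

/-! ### Entry relations (input of the Shimura-class eigen-computation) -/

/-- lower-right entry of the representative `repT l x`: `1` at `∞`, `l` at `j`. -/
def eT (l : ℕ) (x : OnePoint (ZMod l)) : ℤ := x.elim 1 (fun _ => (l : ℤ))

/-- upper-right entry of the representative `repT l x`: `0` at `∞`, `j.val` at `j`. -/
def bT (l : ℕ) (x : OnePoint (ZMod l)) : ℤ := x.elim 0 (fun j => (j.val : ℤ))

@[simp] theorem eT_infty (l : ℕ) : eT l OnePoint.infty = 1 := rfl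
@[simp] theorem eT_coe (l : ℕ) (j : ZMod l) : eT l (j : OnePoint (ZMod l)) = l := rfl
@[simp] theorem bT_infty (l : ℕ) : bT l OnePoint.infty = 0 := rfl
@[simp] theorem bT_coe (l : ℕ) (j : ZMod l) : bT l (j : OnePoint (ZMod l)) = j.val := rfl

theorem repT_val_one {l : ℕ} (hl : l ≠ 0) (x : OnePoint (ZMod l)) :
    (repT l x : Matrix (Fin 2) (Fin 2) ℝ) 1 0 = 0 ∧
    (repT l x : Matrix (Fin 2) (Fin 2) ℝ) 1 1 = (eT l x : ℝ) ∧
    (repT l x : Matrix (Fin 2) (Fin 2) ℝ) 0 1 = (bT l x : ℝ) := by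
  induction x using OnePoint.rec with
  | infty => simp [val_heckeDiagMatrix hl]
  | coe j => simp [val_heckeMatrix hl]

/-- The `(1,1)`-entry relation of `α x * γ = g x γ * α (σ γ x)` for `T_l`, over `ℤ`. -/
theorem corrT_entry (N l : ℕ) [Fact l.Prime] (hlN : ¬ l ∣ N) (x : OnePoint (ZMod l))
    (γ : Gamma0 N) :
    eT l x * (γ : SL(2, ℤ)) 1 1 =
      ((corrT N l hlN).g x γ : SL(2, ℤ)) 1 0 * bT l ((corrT N l hlN).σ γ x) +
        ((corrT N l hlN).g x γ : SL(2, ℤ)) 1 1 * eT l ((corrT N l hlN).σ γ x) := by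
  have hl : l ≠ 0 := (Fact.out : l.Prime).ne_zero
  have hrel := (corrT N l hlN).rel x γ
  have h11 := congrArg (fun M : GL (Fin 2) ℝ => (M : Matrix (Fin 2) (Fin 2) ℝ) 1 1) hrel
  simp only [corrT_α, Matrix.GeneralLinearGroup.coe_mul, Matrix.mul_apply, Fin.sum_univ_two,
    mapGL_val] at h11
  obtain ⟨a1, a2, -⟩ := repT_val_one hl x
  obtain ⟨-, b2, b3⟩ := repT_val_one hl ((corrT N l hlN).σ γ x)
  rw [a1, a2, b2, b3, zero_mul, zero_add] at h11
  exact_mod_cast h11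

/-- **`d`-relation for `T_l`**: the lower-right entries satisfy
`d(g x γ) * e(σ γ x) = d(γ) * e(x)` in `ZMod N`. -/
theorem corrT_d_rel (N l : ℕ) [Fact l.Prime] (hlN : ¬ l ∣ N) (x : OnePoint (ZMod l))
    (γ : Gamma0 N) :
    ((((corrT N l hlN).g x γ : SL(2, ℤ)) 1 1 : ℤ) : ZMod N) *
        ((eT l ((corrT N l hlN).σ γ x) : ℤ) : ZMod N) =
      (((γ : SL(2, ℤ)) 1 1 : ℤ) : ZMod N) * ((eT l x : ℤ) : ZMod N) := by
  have h := congrArg (Int.cast : ℤ → ZMod N) (corrT_entry N l hlN x γ)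
  have h0 : ((((corrT N l hlN).g x γ : SL(2, ℤ)) 1 0 : ℤ) : ZMod N) = 0 :=
    Gamma0_mem.mp ((corrT N l hlN).g x γ).2
  push_cast at h
  rw [h0, zero_mul, zero_add] at h
  rw [← h, mul_comm]

/-- **`d`-relation for `U_q`** (`q ∣ N`): `d(g j γ) = d(γ)` in `ZMod N`. -/
theorem corrU_d_rel (N q : ℕ) [NeZero q] (hqN : q ∣ N) (j : ZMod q) (γ : Gamma0 N) :
    ((((corrU N q hqN).g j γ : SL(2, ℤ)) 1 1 : ℤ) : ZMod N) =
      (((γ : SL(2, ℤ)) 1 1 : ℤ) : ZMod N) := by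
  have hq : q ≠ 0 := NeZero.ne q
  have hrel := (corrU N q hqN).rel j γ
  have h10 := congrArg (fun M : GL (Fin 2) ℝ => (M : Matrix (Fin 2) (Fin 2) ℝ) 1 0) hrel
  have h11 := congrArg (fun M : GL (Fin 2) ℝ => (M : Matrix (Fin 2) (Fin 2) ℝ) 1 1) hrel
  simp only [corrU_α, Matrix.GeneralLinearGroup.coe_mul, Matrix.mul_apply, Fin.sum_univ_two,
    mapGL_val, val_heckeMatrix hq, Matrix.of_apply, Matrix.cons_val_zero, Matrix.cons_val_one,
    zero_mul, zero_add, mul_one, mul_zero, add_zero] at h10 h11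
  set g' := ((corrU N q hqN).g j γ : SL(2, ℤ)) with hg'
  set j' := (corrU N q hqN).σ γ j with hj'
  have e10 : (q : ℤ) * (γ : SL(2, ℤ)) 1 0 = g' 1 0 := by exact_mod_cast h10
  have e11 : (q : ℤ) * (γ : SL(2, ℤ)) 1 1 = g' 1 0 * (j'.val : ℤ) + g' 1 1 * (q : ℤ) := by
    exact_mod_cast h11
  have hq' : (q : ℤ) ≠ 0 := by exact_mod_cast hq
  have e : g' 1 1 = (γ : SL(2, ℤ)) 1 1 - (γ : SL(2, ℤ)) 1 0 * (j'.val : ℤ) := by
    apply mul_left_cancel₀ hq'
    rw [← e10] at e11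
    linear_combination -e11
  have h0 : ((((γ : SL(2, ℤ)) 1 0 : ℤ)) : ZMod N) = 0 := Gamma0_mem.mp γ.2
  rw [e]
  push_cast
  rw [h0, zero_mul, sub_zero]

/-! ### Commutation with the Prelude involution `charInvolution` -/

open ModularCurve.Period

/-- `ε = diag(1, -1)`. -/
noncomputable def epsGL : GL (Fin 2) ℝ :=
  Matrix.GeneralLinearGroup.mkOfDetNeZero !![1, 0; 0, -1] (by simp [Matrix.det_fin_two_of])

@[simp] theorem epsGL_val : (epsGL : Matrix (Fin 2) (Fin 2) ℝ) = !![1, 0; 0, -1] := rfl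

theorem epsGL_mul_self : epsGL * epsGL = 1 := by
  apply Matrix.GeneralLinearGroup.ext
  intro i j
  fin_cases i <;> fin_cases j <;>
    simp [Matrix.mul_apply, Fin.sum_univ_two]

theorem epsGL_inv : epsGL⁻¹ = epsGL := inv_eq_of_mul_eq_one_left epsGL_mul_self

theorem mapGL_jConj (N : ℕ) (γ : Gamma0 N) :
    mapGL ℝ ((jConjGamma0 N γ : Gamma0 N) : SL(2, ℤ)) =
      epsGL * mapGL ℝ (γ : SL(2, ℤ)) * epsGL⁻¹ := by
  rw [epsGL_inv]
  apply Matrix.GeneralLinearGroup.ext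
  intro i j
  simp only [Matrix.GeneralLinearGroup.coe_mul, Matrix.mul_apply, Fin.sum_univ_two, mapGL_val,
    jConjGamma0_coe, jConjSL_coe, epsGL_val]
  fin_cases i <;> fin_cases j <;> simp [jConjMat]

theorem T_zpow_mem_Gamma0 (N : ℕ) (k : ℤ) : ModularGroup.T ^ k ∈ Gamma0 N := by
  rw [Gamma0_mem, ModularGroup.coe_T_zpow]
  simp

theorem eps_heckeMatrix_conj (N : ℕ) {l : ℕ} [NeZero l] (j : ZMod l) :
    ∃ τ : Gamma0 N, epsGL * heckeMatrix l j.val * epsGL⁻¹ =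
      mapGL ℝ (τ : SL(2, ℤ)) * heckeMatrix l (-j).val := by
  have hl : l ≠ 0 := NeZero.ne l
  obtain ⟨k, hk⟩ : (l : ℤ) ∣ (j.val : ℤ) + ((-j).val : ℤ) := by
    rw [← ZMod.intCast_zmod_eq_zero_iff_dvd]
    push_cast
    rw [ZMod.natCast_zmod_val, ZMod.natCast_zmod_val, add_neg_cancel]
  refine ⟨⟨ModularGroup.T ^ (-k), T_zpow_mem_Gamma0 N _⟩, ?_⟩
  rw [epsGL_inv]
  have hk' : ((j.val : ℝ)) + (((-j).val : ℕ) : ℝ) = (l : ℝ) * (k : ℝ) := by exact_mod_cast hk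
  apply Matrix.GeneralLinearGroup.ext
  intro a b
  simp only [Matrix.GeneralLinearGroup.coe_mul, Matrix.mul_apply, Fin.sum_univ_two, mapGL_val,
    epsGL_val, val_heckeMatrix hl, ModularGroup.coe_T_zpow]
  fin_cases a <;> fin_cases b <;> simp [-ZMod.natCast_val]
  linear_combination -hk'

theorem eps_repT_conj (N : ℕ) {l : ℕ} [Fact l.Prime] (x : OnePoint (ZMod l)) :
    ∃ (y : OnePoint (ZMod l)) (τ : Gamma0 N), epsGL * repT l x * epsGL⁻¹ =
      mapGL ℝ (τ : SL(2, ℤ)) * repT l y := by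
  have hl : l ≠ 0 := (Fact.out : l.Prime).ne_zero
  have : NeZero l := ⟨hl⟩
  induction x using OnePoint.rec with
  | infty =>
    refine ⟨OnePoint.infty, 1, ?_⟩
    rw [epsGL_inv]
    apply Matrix.GeneralLinearGroup.ext
    intro a b
    simp only [Matrix.GeneralLinearGroup.coe_mul, Matrix.mul_apply, Fin.sum_univ_two, mapGL_val,
      epsGL_val, repT_infty, val_heckeDiagMatrix hl]
    fin_cases a <;> fin_cases b <;> simp
  | coe j =>
    obtain ⟨τ, hτ⟩ := eps_heckeMatrix_conj N j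
    exact ⟨((-j : ZMod l) : OnePoint (ZMod l)), τ, hτ⟩

/-- `T_l` on `Hom(Γ₀(N), A)` commutes with the Prelude involution. -/
theorem heckeHomT_charInvolution (N l : ℕ) [Fact l.Prime] (hlN : ¬ l ∣ N) (R : Type*)
    [Semiring R] (A : Type*) [AddCommGroup A] [Module R A] (φ : Additive (Gamma0 N) →+ A) :
    heckeHomT N l hlN A (charInvolution N R A φ) =
      charInvolution N R A (heckeHomT N l hlN A φ) :=
  (corrT N l hlN).op_conj (jConjGamma0 N) (jConjGamma0_jConjGamma0 N) epsGL (mapGL_jConj N)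
    (fun x => eps_repT_conj N x) A φ

/-- `U_q` on `Hom(Γ₀(N), A)` commutes with the Prelude involution. -/
theorem heckeHomU_charInvolution (N q : ℕ) [NeZero q] (hqN : q ∣ N) (R : Type*)
    [Semiring R] (A : Type*) [AddCommGroup A] [Module R A] (φ : Additive (Gamma0 N) →+ A) :
    heckeHomU N q hqN A (charInvolution N R A φ) =
      charInvolution N R A (heckeHomU N q hqN A φ) :=
  (corrU N q hqN).op_conj (jConjGamma0 N) (jConjGamma0_jConjGamma0 N) epsGL (mapGL_jConj N)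
    (fun j => ⟨-j, eps_heckeMatrix_conj N j⟩) A φ

/-- Naturality of `T_l` in the coefficients. -/
theorem heckeHomT_comp (N l : ℕ) [Fact l.Prime] (hlN : ¬ l ∣ N) {A B : Type*} [AddCommGroup A]
    [AddCommGroup B] (f : A →+ B) (φ : Additive (Gamma0 N) →+ A) :
    heckeHomT N l hlN B (f.comp φ) = f.comp (heckeHomT N l hlN A φ) :=
  (corrT N l hlN).op_comp f φ

/-- Naturality of `U_q` in the coefficients. -/
theorem heckeHomU_comp (N q : ℕ) [NeZero q] (hqN : q ∣ N) {A B : Type*} [AddCommGroup A]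
    [AddCommGroup B] (f : A →+ B) (φ : Additive (Gamma0 N) →+ A) :
    heckeHomU N q hqN B (f.comp φ) = f.comp (heckeHomU N q hqN A φ) :=
  (corrU N q hqN).op_comp f φ

theorem heckeHomT_apply (N l : ℕ) [Fact l.Prime] (hlN : ¬ l ∣ N) (A : Type*) [AddCommGroup A]
    (φ : Additive (Gamma0 N) →+ A) (γ : Gamma0 N) :
    heckeHomT N l hlN A φ (Additive.ofMul γ) =
      ∑ x, φ (Additive.ofMul ((corrT N l hlN).g x γ)) := rfl

theorem heckeHomU_apply (N q : ℕ) [NeZero q] (hqN : q ∣ N) (A : Type*) [AddCommGroup A]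
    (φ : Additive (Gamma0 N) →+ A) (γ : Gamma0 N) :
    heckeHomU N q hqN A φ (Additive.ofMul γ) =
      ∑ j, φ (Additive.ofMul ((corrU N q hqN).g j γ)) := rfl

end Concrete

end Fermat.Agent.S16.helper2138
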