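/-
helper2138 — S16 lower bound, leaf (EQ): Hecke-equivariance of the Prelude period map.

* `period_corr` : abstract statement for a correspondence `C : Corr (Gamma0 N) ι` whose
  representatives act on `ℍ` with the expected analytic properties.
* `periodMap_heckeT` : `periodMap N (T_l f) = heckeHomT N l hlN ℂ (periodMap N f)` (`l ∤ N` prime).
* `periodMap_heckeU` : `periodMap N (U_q f) = heckeHomU N q hqN ℂ (periodMap N f)` (`q ∣ N` prime).
-/
import Fermat.Agent.S16.helper2138_HeckeHom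
import Fermat.Agent.S21.helper21_Primitive
import Fermat.Prelude.Def_ModularForm_HeckeOperatorForms

set_option autoImplicit false

open CongruenceSubgroup Matrix.SpecialLinearGroup UpperHalfPlane Filter Topology
open ModularCurve ModularCurve.Period
open scoped MatrixGroups ModularForm

namespace Fermat.Agent.S16.helper2138

open ModularForm (heckeMatrix heckeDiagMatrix val_heckeMatrix val_heckeDiagMatrix)
open P2MW.S_ModularForm_heckeT_slash_eq_self_of_mem_Gamma0.ModularForm.HeckeSlashInvariance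
  (heckeRep heckeRep_mul heckeT_eq_sum_onePoint heckeU_eq_sum_zmod)

/-- Abstract Hecke-equivariance of the period map. -/
theorem period_corr {N : ℕ} {ι : Type} [Fintype ι] (C : Corr (Gamma0 N) ι)
    (f f' : CuspForm (Gamma0 N) 2) {F : ℍ → ℂ} (hF : HasEquivariantPrimitive N f F)
    (hderiv : ∀ τ : ℍ, HasDerivAt ((fun z : ℍ => ∑ i, F (C.α i • z)) ∘ ofComplex) (f' τ) (τ : ℂ))
    (hlim0 : ∀ i, Tendsto (fun z : ℍ => C.α i • z) atImInfty atImInfty)
    (hcusp : ∀ (i : ι) (δ : SL(2, ℤ)), ∃ (δ' : SL(2, ℤ)) (β : GL (Fin 2) ℝ),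
      Tendsto (fun z : ℍ => β • z) atImInfty atImInfty ∧
        ∀ w : ℍ, C.α i • (δ • w) = δ' • (β • w)) :
    periodMap N f' = C.op ℂ (periodMap N f) := by
  classical
  have hkey : ∀ (γ : Gamma0 N) (z : ℍ),
      (∑ i, F (C.α i • ((γ : SL(2, ℤ)) • z))) - ∑ i, F (C.α i • z) =
        ∑ i, hF.2.2.1.period (C.g i γ) := by
    intro γ z
    have h1 : ∀ i, F (C.α i • ((γ : SL(2, ℤ)) • z)) =
        F (C.α (C.σ γ i) • z) + hF.2.2.1.period (C.g i γ) := by
      intro i
      have e1 : C.α i • ((γ : SL(2, ℤ)) • z) =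
          ((C.g i γ : Gamma0 N) : SL(2, ℤ)) • (C.α (C.σ γ i) • z) := by
        show C.α i • (mapGL ℝ (γ : SL(2, ℤ)) • z) =
          mapGL ℝ ((C.g i γ : Gamma0 N) : SL(2, ℤ)) • (C.α (C.σ γ i) • z)
        rw [← mul_smul, ← mul_smul, C.rel i γ]
      rw [e1]
      have := hF.2.2.1.sub_eq_period (C.g i γ) (C.α (C.σ γ i) • z)
      linear_combination this
    rw [Finset.sum_congr rfl (fun i _ => h1 i), Finset.sum_add_distrib]
    have h2 : ∑ i, F (C.α (C.σ γ i) • z) = ∑ i, F (C.α i • z) :=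
      Equiv.sum_comp (C.σEquiv γ) (fun i => F (C.α i • z))
    rw [h2]; ring
  have hG : HasEquivariantPrimitive N f' (fun z : ℍ => ∑ i, F (C.α i • z)) := by
    refine ⟨hderiv, ?_, ?_, ?_⟩
    · have h := tendsto_finsetSum (Finset.univ : Finset ι)
        (fun i _ => hF.2.1.comp (hlim0 i))
      simpa using h
    · intro γ
      exact ⟨∑ i, hF.2.2.1.period (C.g i γ), fun z => hkey γ z⟩
    · intro δ
      have h : ∀ i, ∃ L : ℂ, Tendsto (fun w : ℍ => F (C.α i • (δ • w))) atImInfty (𝓝 L) := by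
        intro i
        obtain ⟨δ', β, hβ, hw⟩ := hcusp i δ
        obtain ⟨L, hL⟩ := hF.2.2.2 δ'
        refine ⟨L, ?_⟩
        have := hL.comp hβ
        refine this.congr fun w => ?_
        simp only [Function.comp_apply]
        rw [hw w]
      choose L hL using h
      exact ⟨∑ i, L i, tendsto_finsetSum _ (fun i _ => hL i)⟩
  refine AddMonoidHom.ext fun γ => ?_
  obtain ⟨γ, rfl⟩ := Additive.ofMul.surjective γ
  rw [Fermat.Agent.S21.helper921.periodMap_apply_of_primitive hG γ, Corr.op_apply, hkey γ UpperHalfPlane.I]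
  refine Finset.sum_congr rfl fun i _ => ?_
  rw [Fermat.Agent.S21.helper921.periodMap_apply_of_primitive hF (C.g i γ)]
  rfl

/-! ### Analytic properties of the representatives -/

theorem tendsto_heckeMatrix_smul {l : ℕ} (hl : l ≠ 0) (v : ℕ) :
    Tendsto (fun z : ℍ => heckeMatrix l v • z) atImInfty atImInfty := by
  rw [atImInfty, tendsto_comap_iff]
  have him : ∀ z : ℍ, (heckeMatrix l v • z).im = z.im / l := by
    intro z
    have h := congrArg Complex.im (ModularForm.coe_heckeMatrix_smul hl v z)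
    rw [UpperHalfPlane.coe_im] at h
    rw [h]
    have : (((z : ℂ) + (v : ℂ)) / (l : ℂ)).im = (z : ℂ).im / l := by
      rw [show ((l : ℂ)) = ((l : ℝ) : ℂ) by push_cast; rfl, Complex.div_ofReal_im]
      simp
    rw [this, UpperHalfPlane.coe_im]
  have hfun : (UpperHalfPlane.im ∘ fun z : ℍ => heckeMatrix l v • z) = fun z : ℍ => z.im / l :=
    funext him
  rw [hfun]
  have hl' : (0 : ℝ) < l := by exact_mod_cast Nat.pos_of_ne_zero hl
  exact (tendsto_comap (f := UpperHalfPlane.im) (x := atTop)).atTop_div_const hl'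

theorem tendsto_heckeDiagMatrix_smul {l : ℕ} (hl : l ≠ 0) :
    Tendsto (fun z : ℍ => heckeDiagMatrix l • z) atImInfty atImInfty := by
  rw [atImInfty, tendsto_comap_iff]
  have him : ∀ z : ℍ, (heckeDiagMatrix l • z).im = l * z.im := by
    intro z
    have h := congrArg Complex.im (ModularForm.coe_heckeDiagMatrix_smul hl z)
    rw [UpperHalfPlane.coe_im] at h
    rw [h]
    have : ((l : ℂ) * (z : ℂ)).im = l * (z : ℂ).im := by
      rw [show ((l : ℂ)) = ((l : ℝ) : ℂ) by push_cast; rfl, Complex.im_ofReal_mul]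
    rw [this, UpperHalfPlane.coe_im]
  have hfun : (UpperHalfPlane.im ∘ fun z : ℍ => heckeDiagMatrix l • z) = fun z : ℍ => l * z.im :=
    funext him
  rw [hfun]
  have hl' : (0 : ℝ) < l := by exact_mod_cast Nat.pos_of_ne_zero hl
  exact (tendsto_comap (f := UpperHalfPlane.im) (x := atTop)).const_mul_atTop hl'

theorem tendsto_repT_smul {l : ℕ} (hl : l ≠ 0) (x : OnePoint (ZMod l)) :
    Tendsto (fun z : ℍ => repT l x • z) atImInfty atImInfty := by
  induction x using OnePoint.rec with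
  | infty => exact tendsto_heckeDiagMatrix_smul hl
  | coe j => exact tendsto_heckeMatrix_smul hl j.val

/-- chain rule for `z ↦ (z + v) / l`. -/
theorem hasDerivAt_heckeMatrix {F f : ℍ → ℂ}
    (hF : ∀ τ : ℍ, HasDerivAt (F ∘ ofComplex) (f τ) (τ : ℂ)) {l : ℕ} (hl : l ≠ 0) (v : ℕ) (τ : ℍ) :
    HasDerivAt ((fun z : ℍ => F (heckeMatrix l v • z)) ∘ ofComplex)
      ((f ∣[(2 : ℤ)] heckeMatrix l v) τ) (τ : ℂ) := by
  have hl' : (l : ℂ) ≠ 0 := by exact_mod_cast hl
  have hm : HasDerivAt (fun z : ℂ => (z + (v : ℂ)) / (l : ℂ)) (1 / (l : ℂ)) (τ : ℂ) := by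
    have h1 : HasDerivAt (fun z : ℂ => z + (v : ℂ)) 1 (τ : ℂ) := (hasDerivAt_id _).add_const _
    exact h1.div_const _
  have hval : ((τ : ℂ) + (v : ℂ)) / (l : ℂ) = ((heckeMatrix l v • τ : ℍ) : ℂ) :=
    (ModularForm.coe_heckeMatrix_smul hl v τ).symm
  have hF' : HasDerivAt (F ∘ ofComplex) (f (heckeMatrix l v • τ))
      (((τ : ℂ) + (v : ℂ)) / (l : ℂ)) := by
    rw [hval]; exact hF _
  have hcomp := hF'.comp (τ : ℂ) hm
  rw [ModularForm.slash_heckeMatrix_apply 2 hl v f τ]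
  have hcomp' : HasDerivAt ((F ∘ ofComplex) ∘ fun z : ℂ => (z + (v : ℂ)) / (l : ℂ))
      ((l : ℂ)⁻¹ * f (heckeMatrix l v • τ)) (τ : ℂ) :=
    hcomp.congr_deriv (by rw [one_div, mul_comm])
  refine hcomp'.congr_of_eventuallyEq ?_
  filter_upwards [isOpen_upperHalfPlaneSet.mem_nhds τ.im_pos] with z hz
  simp only [Function.comp_apply]
  rw [ofComplex_apply_of_im_pos hz]
  have := ModularForm.coe_heckeMatrix_smul hl v ⟨z, hz⟩
  simp only at this
  rw [← this, ofComplex_apply]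

/-- chain rule for `z ↦ l * z`. -/
theorem hasDerivAt_heckeDiagMatrix {F f : ℍ → ℂ}
    (hF : ∀ τ : ℍ, HasDerivAt (F ∘ ofComplex) (f τ) (τ : ℂ)) {l : ℕ} (hl : l ≠ 0) (τ : ℍ) :
    HasDerivAt ((fun z : ℍ => F (heckeDiagMatrix l • z)) ∘ ofComplex)
      ((f ∣[(2 : ℤ)] heckeDiagMatrix l) τ) (τ : ℂ) := by
  have hm : HasDerivAt (fun z : ℂ => (l : ℂ) * z) (l : ℂ) (τ : ℂ) := by
    simpa using (hasDerivAt_id (τ : ℂ)).const_mul (l : ℂ)
  have hval : (l : ℂ) * (τ : ℂ) = ((heckeDiagMatrix l • τ : ℍ) : ℂ) :=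
    (ModularForm.coe_heckeDiagMatrix_smul hl τ).symm
  have hF' : HasDerivAt (F ∘ ofComplex) (f (heckeDiagMatrix l • τ)) ((l : ℂ) * (τ : ℂ)) := by
    rw [hval]; exact hF _
  have hcomp := hF'.comp (τ : ℂ) hm
  rw [ModularForm.slash_heckeDiagMatrix_apply 2 hl f τ]
  have hcomp' : HasDerivAt ((F ∘ ofComplex) ∘ fun z : ℂ => (l : ℂ) * z)
      ((l : ℂ) ^ ((2 : ℤ) - 1) * f (heckeDiagMatrix l • τ)) (τ : ℂ) :=
    hcomp.congr_deriv (by rw [show (2 : ℤ) - 1 = 1 by norm_num, zpow_one, mul_comm])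
  refine hcomp'.congr_of_eventuallyEq ?_
  filter_upwards [isOpen_upperHalfPlaneSet.mem_nhds τ.im_pos] with z hz
  simp only [Function.comp_apply]
  rw [ofComplex_apply_of_im_pos hz]
  have := ModularForm.coe_heckeDiagMatrix_smul hl ⟨z, hz⟩
  simp only at this
  rw [← this, ofComplex_apply]

theorem hasDerivAt_repT {F f : ℍ → ℂ}
    (hF : ∀ τ : ℍ, HasDerivAt (F ∘ ofComplex) (f τ) (τ : ℂ)) {l : ℕ} (hl : l ≠ 0)
    (x : OnePoint (ZMod l)) (τ : ℍ) :
    HasDerivAt ((fun z : ℍ => F (repT l x • z)) ∘ ofComplex)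
      ((f ∣[(2 : ℤ)] repT l x) τ) (τ : ℂ) := by
  induction x using OnePoint.rec with
  | infty => exact hasDerivAt_heckeDiagMatrix hF hl τ
  | coe j => exact hasDerivAt_heckeMatrix hF hl j.val τ

/-- cusp decomposition: `repT l x * δ = δ' * repT l x'` for every `δ ∈ SL(2,ℤ)`. -/
theorem repT_cusp {l : ℕ} [Fact l.Prime] (x : OnePoint (ZMod l)) (δ : SL(2, ℤ)) :
    ∃ (δ' : SL(2, ℤ)) (β : GL (Fin 2) ℝ),
      Tendsto (fun z : ℍ => β • z) atImInfty atImInfty ∧
        ∀ w : ℍ, repT l x • (δ • w) = δ' • (β • w) := by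
  have hl : l ≠ 0 := (Fact.out : l.Prime).ne_zero
  have hl1 : ¬ l ∣ 1 := (Fact.out : l.Prime).one_lt.ne' ∘ Nat.dvd_one.mp
  obtain ⟨x', g', hmul⟩ : ∃ (x' : OnePoint (ZMod l)) (g' : SL(2, ℤ)),
      repT l x * mapGL ℝ δ = mapGL ℝ g' * repT l x' := by
    obtain ⟨g', -, hmul⟩ := heckeRep_mul (N := 1) hl1 δ (by simp) x
    exact ⟨_, g', hmul⟩
  refine ⟨g', repT l x', tendsto_repT_smul hl x', fun w => ?_⟩
  show repT l x • (mapGL ℝ δ • w) = mapGL ℝ g' • (repT l x' • w)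
  rw [← mul_smul, ← mul_smul, hmul]

/-! ### The equivariance theorems -/

/-- **(EQ) for `T_l`.** -/
theorem periodMap_heckeT (N l : ℕ) [NeZero N] [Fact l.Prime] (hl : l.Prime) (hlN : ¬ l ∣ N)
    (f : CuspForm (Gamma0 N) 2) :
    periodMap N (CuspForm.heckeTLin 2 hl hlN f) = heckeHomT N l hlN ℂ (periodMap N f) := by
  have hl0 : l ≠ 0 := hl.ne_zero
  obtain ⟨F, hF⟩ := Fermat.Agent.S21.helper21.stmtA N f
  refine period_corr (corrT N l hlN) f (CuspForm.heckeTLin 2 hl hlN f) hF ?_ ?_ ?_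
  · intro τ
    have hsum : ((fun z : ℍ => ∑ x, F ((corrT N l hlN).α x • z)) ∘ ofComplex) =
        fun w : ℂ => ∑ x : OnePoint (ZMod l), ((fun z : ℍ => F (repT l x • z)) ∘ ofComplex) w := by
      funext w
      simp [Function.comp_apply]
    have hval : (CuspForm.heckeTLin 2 hl hlN f) τ = ∑ x : OnePoint (ZMod l), ((⇑f) ∣[(2 : ℤ)] repT l x) τ := by
      show ModularForm.heckeT 2 l (⇑f) τ = _
      rw [heckeT_eq_sum_onePoint, Finset.sum_apply]
      rfl
    rw [hsum, hval]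
    exact HasDerivAt.fun_sum fun x _ => hasDerivAt_repT hF.1 hl0 x τ
  · intro x
    exact tendsto_repT_smul hl0 x
  · intro x δ
    exact repT_cusp x δ

/-- **(EQ) for `U_q`** (`q ∣ N` prime). -/
theorem periodMap_heckeU (N q : ℕ) [NeZero N] [Fact q.Prime] (hqN : q ∣ N)
    (f : CuspForm (Gamma0 N) 2) :
    periodMap N (CuspForm.heckeULin 2 hqN f) = heckeHomU N q hqN ℂ (periodMap N f) := by
  have hq0 : q ≠ 0 := (Fact.out : q.Prime).ne_zero
  obtain ⟨F, hF⟩ := Fermat.Agent.S21.helper21.stmtA N f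
  refine period_corr (corrU N q hqN) f (CuspForm.heckeULin 2 hqN f) hF ?_ ?_ ?_
  · intro τ
    have hsum : ((fun z : ℍ => ∑ j, F ((corrU N q hqN).α j • z)) ∘ ofComplex) =
        fun w : ℂ => ∑ j : ZMod q, ((fun z : ℍ => F (heckeMatrix q j.val • z)) ∘ ofComplex) w := by
      funext w
      simp [Function.comp_apply]
    have hval : (CuspForm.heckeULin 2 hqN f) τ =
        ∑ j : ZMod q, ((⇑f) ∣[(2 : ℤ)] heckeMatrix q j.val) τ := by
      show ModularForm.heckeU 2 q (⇑f) τ = _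
      rw [heckeU_eq_sum_zmod, Finset.sum_apply]
    rw [hsum, hval]
    exact HasDerivAt.fun_sum fun j _ => hasDerivAt_heckeMatrix hF.1 hq0 j.val τ
  · intro j
    exact tendsto_heckeMatrix_smul hq0 j.val
  · intro j δ
    exact repT_cusp (l := q) (j : OnePoint (ZMod q)) δ

end Fermat.Agent.S16.helper2138
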