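import Fermat.Agent.S16.helper262_PeriodTelescope
import Fermat.Agent.S16.helper2138_HeckeHom

/-!
# S16 (lower bound), leaf (EQ): the period map intertwines `T_ℓ`, `U_q` on cusp forms with the
coset-transfer operators `helper2138.heckeHomT`, `helper2138.heckeHomU` on `Hom(Γ₀(N), ℂ)`.
-/

set_option autoImplicit false

open ModularCurve ModularCurve.Period CongruenceSubgroup UpperHalfPlane
open scoped MatrixGroups ModularForm

namespace Fermat.Agent.S16.helper262

open Fermat.Agent.S16.helper2138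

/-- **(EQ) for `T_ℓ`**: `periodMap N (T_ℓ f) = heckeHomT (periodMap N f)`. -/
theorem periodMap_heckeTLin (N l : ℕ) [NeZero N] [Fact l.Prime] (hlN : ¬ l ∣ N)
    (f : CuspForm (Gamma0 N) 2) :
    periodMap N (CuspForm.heckeTLin 2 (Fact.out : l.Prime) hlN f)
      = heckeHomT N l hlN ℂ (periodMap N f) := by
  refine AddMonoidHom.ext fun γ' => ?_
  obtain ⟨γ, rfl⟩ : ∃ γ : Gamma0 N, Additive.ofMul γ = γ' := ⟨Additive.toMul γ', rfl⟩
  rw [heckeHomT_apply]
  exact periodMap_heckeT_eq_sum N Fact.out hlN γ ((corrT N l hlN).σ γ)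
    ((corrT N l hlN).σEquiv γ).bijective (fun x => (corrT N l hlN).g x γ)
    (fun x => (corrT N l hlN).rel x γ) f

/-- **(EQ) for `U_q`**: `periodMap N (U_q f) = heckeHomU (periodMap N f)`. -/
theorem periodMap_heckeULin (N q : ℕ) [NeZero N] [Fact q.Prime] (hqN : q ∣ N)
    (f : CuspForm (Gamma0 N) 2) :
    haveI : NeZero q := ⟨(Fact.out : q.Prime).ne_zero⟩
    periodMap N (CuspForm.heckeULin 2 hqN f) = heckeHomU N q hqN ℂ (periodMap N f) := by
  have : NeZero q := ⟨(Fact.out : q.Prime).ne_zero⟩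
  refine AddMonoidHom.ext fun γ' => ?_
  obtain ⟨γ, rfl⟩ : ∃ γ : Gamma0 N, Additive.ofMul γ = γ' := ⟨Additive.toMul γ', rfl⟩
  rw [heckeHomU_apply]
  exact periodMap_heckeU_eq_sum N Fact.out hqN γ ((corrU N q hqN).σ γ)
    ((corrU N q hqN).σEquiv γ).bijective (fun x => (corrU N q hqN).g x γ)
    (fun x => (corrU N q hqN).rel x γ) f

end Fermat.Agent.S16.helper262
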