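/-
S16 (Eisenstein ideal index) : TOP-LEVEL SPEC + FINAL ASSEMBLY (helper312, S16 architect).

The frozen statement follows from SIX leaf statements (all `Prop`-valued, hypothesis-passing):

  * `Stmt_LB p`   : a Hecke polynomial killing the integral lattice has Eisenstein value in `nℤ`
                    (cohomological route: Shimura class + S21/S22).
  * `Stmt_Dual p` : Hecke duality (`a₁`-pairing): if `M` divides every Eisenstein value of the
                    kernel, some cusp form is congruent to `δ = ∑ σ'(k) q^k` modulo `M`.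
  * `Stmt_Eis p`  : the weight-2 Eisenstein series `E_p = (p-1)/24 + ∑ σ'(k) q^k` on `Γ₀(p)`.
  * `Stmt_HC p`   : Hecke-commutator bound: `G ∈ M₂(Γ₀ p)`, `a₀ = c ∈ ℤ`, `a_k ∈ Mℤ (k ≥ 1)`
                    implies `M ∣ 24 c`.
  * `Stmt_A1 p`   : one-trace bound: `G ∈ M₂(Γ₀ p)`, `a_k ∈ ℤ (k ≥ 1)` implies `(p+1) a₀ ∈ ℤ`.
  * `Stmt_T8 p`   : 2-adic norm case: for `p ≡ 7 mod 8` there is no `G ∈ M₂(Γ₀ p)` with `a₀ = 1`
                    and `a_k ∈ 8 ℤ_(2)` for `k ≥ 1`.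

`result_of_leaves` assembles them (for `5 ≤ p`; `p = 2, 3` are `helper969.frozen_of_five_le`).
The arithmetic glue `arith_glue` is elementary.
-/
import Mathlib
import Fermat.Prelude.Def_CuspForm_HeckeLocal
import Fermat.Prelude.Def_CuspForm_HeckeEvalForms
import Fermat.Prelude.Def_HeckeGalois_EichlerShimura
import Fermat.Prelude.Def_ModularCurve_ModularUnit
import Fermat.Prelude.Thm_CongruenceSubgroup_one_mem_strictPeriods_Gamma0
import Fermat.Agent.S16.helper2246_Adapters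

set_option autoImplicit false

open ModularCurve CuspForm ModularFormClass UpperHalfPlane CongruenceSubgroup

namespace Fermat.Agent.S16.helper312

noncomputable section

/-- `σ'(k)`: the sum of the divisors of `k` that are prime to `p`. -/
def sigmaP (p k : ℕ) : ℕ := ∑ d ∈ k.divisors with ¬ p ∣ d, d

/-- LOWER BOUND leaf. -/
def Stmt_LB (p : ℕ) [Fact p.Prime] : Prop :=
  ∀ t : HeckeAlg, helper2246.phi p t = 0 → (eisensteinNumerator p : ℤ) ∣ helper2246.eis p t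

/-- DUALITY leaf. -/
def Stmt_Dual (p : ℕ) [Fact p.Prime] : Prop :=
  ∀ M : ℕ, (∀ t : HeckeAlg, helper2246.phi p t = 0 → (M : ℤ) ∣ helper2246.eis p t) →
    ∃ g : CuspForm (Gamma0 p) 2, ∀ k : ℕ, 1 ≤ k →
      ∃ c : ℤ, qCoeff g k = (((sigmaP p k : ℤ) + (M : ℤ) * c : ℤ) : ℂ)

/-- EISENSTEIN SERIES leaf. -/
def Stmt_Eis (p : ℕ) : Prop :=
  ∃ E : ModularForm (Gamma0 p) 2, qCoeff E 0 = ((p : ℂ) - 1) / 24 ∧
    ∀ k : ℕ, 1 ≤ k → qCoeff E k = (sigmaP p k : ℂ)

/-- HECKE-COMMUTATOR leaf. -/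
def Stmt_HC (p : ℕ) : Prop :=
  ∀ (G : ModularForm (Gamma0 p) 2) (c : ℤ) (M : ℕ), qCoeff G 0 = (c : ℂ) →
    (∀ k : ℕ, 1 ≤ k → ∃ z : ℤ, qCoeff G k = (((M : ℤ) * z : ℤ) : ℂ)) → (M : ℤ) ∣ 24 * c

/-- ONE-TRACE leaf. -/
def Stmt_A1 (p : ℕ) : Prop :=
  ∀ G : ModularForm (Gamma0 p) 2, (∀ k : ℕ, 1 ≤ k → ∃ z : ℤ, qCoeff G k = (z : ℂ)) →
    ∃ z : ℤ, ((p : ℂ) + 1) * qCoeff G 0 = (z : ℂ)

/-- 2-ADIC NORM leaf (`p ≡ 7 mod 8`). -/
def Stmt_T8 (p : ℕ) : Prop :=
  p % 8 = 7 → ∀ G : ModularForm (Gamma0 p) 2, qCoeff G 0 = 1 →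
    (∀ k : ℕ, 1 ≤ k → ∃ a b : ℤ, Odd b ∧ qCoeff G k = 8 * (a : ℂ) / (b : ℂ)) → False

/-! ### Arithmetic glue -/

/-- Pure arithmetic: the three bounds give `M ∣ (p-1)/gcd(p-1,12)`. -/
theorem arith_glue (p M : ℕ) (hp : p.Prime) (h5 : 5 ≤ p) (h1 : M ∣ p - 1)
    (h2 : 24 * M ∣ (p - 1) * (p + 1)) (h3 : p % 8 = 7 → ¬ 2 ∣ M) :
    M ∣ (p - 1) / Nat.gcd (p - 1) 12 := by
  obtain ⟨y, hy⟩ := h1
  have hM0 : 0 < M := by
    rcases Nat.eq_zero_or_pos M with h | h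
    · subst h; omega
    · exact h
  have hodd : p % 2 = 1 := by
    rcases hp.eq_two_or_odd with h | h
    · omega
    · exact h
  have h3' : p % 3 ≠ 0 := by
    intro h
    have : 3 ∣ p := Nat.dvd_of_mod_eq_zero h
    rcases (Nat.dvd_prime hp).mp this with h' | h' <;> omega
  have h24 : 24 ∣ y * (p + 1) := by
    have : M * 24 ∣ M * (y * (p + 1)) := by
      rw [← mul_assoc, ← hy, mul_comm M 24]; exact h2
    exact Nat.dvd_of_mul_dvd_mul_left hM0 this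
  -- the 3-part
  have hg3 : Nat.gcd (p - 1) 3 ∣ y := by
    by_cases h : 3 ∣ p - 1
    · rw [Nat.gcd_eq_right h]
      have h3y : 3 ∣ y * (p + 1) := Dvd.dvd.trans (by norm_num) h24
      rcases (Nat.Prime.dvd_mul Nat.prime_three).mp h3y with h' | h'
      · exact h'
      · omega
    · have : Nat.Coprime (p - 1) 3 :=
        ((Nat.Prime.coprime_iff_not_dvd Nat.prime_three).mpr h).symm
      rw [this.gcd_eq_one]; exact one_dvd _
  -- the 2-part
  have hg4 : Nat.gcd (p - 1) 4 ∣ y := by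
    have h8 : 8 ∣ y * (p + 1) := Dvd.dvd.trans (by norm_num) h24
    rcases (show p % 4 = 1 ∨ p % 4 = 3 by omega) with h | h
    · have h4 : 4 ∣ p - 1 := by omega
      rw [Nat.gcd_eq_right h4]
      obtain ⟨j, hj⟩ : ∃ j, p + 1 = 2 * (2 * j + 1) := ⟨p / 4, by omega⟩
      rw [hj] at h8
      have h4' : 4 ∣ y * (2 * j + 1) := by
        have : 2 * 4 ∣ 2 * (y * (2 * j + 1)) := by
          have e : 2 * (y * (2 * j + 1)) = y * (2 * (2 * j + 1)) := by ring
          rw [e]; exact h8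
        exact Nat.dvd_of_mul_dvd_mul_left (by norm_num) this
      have hc : Nat.Coprime 4 (2 * j + 1) := by
        have : Nat.Coprime 2 (2 * j + 1) := by
          rw [Nat.coprime_two_left]; exact ⟨j, rfl⟩
        exact Nat.Coprime.pow_left 2 this
      exact hc.dvd_of_dvd_mul_right h4'
    · obtain ⟨j, hj⟩ : ∃ j, p - 1 = 2 * (2 * j + 1) := ⟨p / 4, by omega⟩
      have hgcd : Nat.gcd (p - 1) 4 = 2 := by
        rw [hj, show (4 : ℕ) = 2 * 2 by norm_num, Nat.gcd_mul_left]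
        have : Nat.Coprime (2 * j + 1) 2 := by
          rw [Nat.coprime_two_right]; exact ⟨j, rfl⟩
        rw [this.gcd_eq_one]
      rw [hgcd]
      by_contra hy2
      have hyodd : y % 2 = 1 := by omega
      have hM2 : 2 ∣ M := by
        have h2My : 2 ∣ M * y := by rw [← hy, hj]; exact Dvd.intro _ rfl
        rcases (Nat.Prime.dvd_mul Nat.prime_two).mp h2My with h' | h'
        · exact h'
        · omega
      have hp8 : p % 8 ≠ 7 := fun h7 => h3 h7 hM2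
      have hc : Nat.Coprime 8 y := by
        have : Nat.Coprime 2 y := by
          rw [Nat.coprime_two_left]; exact Nat.odd_iff.mpr hyodd
        exact Nat.Coprime.pow_left 3 this
      have : 8 ∣ p + 1 := hc.dvd_of_dvd_mul_left h8
      omega
  have hg : Nat.gcd (p - 1) 12 ∣ y := by
    have h12 : (12 : ℕ) = 4 * 3 := by norm_num
    have hc : Nat.Coprime 4 3 := by norm_num
    rw [h12, Nat.Coprime.gcd_mul _ hc]
    exact Nat.Coprime.mul_dvd_of_dvd_of_dvd (Nat.Coprime.gcd_both _ _ hc) hg4 hg3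
  apply Nat.dvd_div_of_mul_dvd
  have hfin : Nat.gcd (p - 1) 12 * M ∣ y * M := Nat.mul_dvd_mul hg (dvd_refl M)
  have hyM : y * M = p - 1 := by rw [hy, mul_comm]
  rw [hyM] at hfin
  exact hfin

/-! ### q-coefficient bookkeeping -/

lemma qCoeff_smul_mf (p : ℕ) (a : ℂ) (D : ModularForm (Gamma0 p) 2) (k : ℕ) :
    qCoeff (a • D : ModularForm (Gamma0 p) 2) k = a * qCoeff D k := by
  unfold qCoeff
  have h := ModularForm.qExpansion_smul one_pos (one_mem_strictPeriods_Gamma0 p) a D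
  have e : (⇑(a • D : ModularForm (Gamma0 p) 2) : ℍ → ℂ) = a • (⇑D : ℍ → ℂ) := rfl
  rw [e, h, PowerSeries.coeff_smul, smul_eq_mul]

lemma qCoeff_sub_cusp (p : ℕ) (E : ModularForm (Gamma0 p) 2) (g : CuspForm (Gamma0 p) 2)
    (k : ℕ) :
    qCoeff (E - CuspForm.toModularFormₗ g : ModularForm (Gamma0 p) 2) k
      = qCoeff E k - qCoeff g k := by
  unfold qCoeff
  have h := ModularForm.qExpansion_sub one_pos (one_mem_strictPeriods_Gamma0 p) E g
  have e : (⇑(E - CuspForm.toModularFormₗ g : ModularForm (Gamma0 p) 2) : ℍ → ℂ)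
      = (⇑E : ℍ → ℂ) - (⇑g : ℍ → ℂ) := rfl
  rw [e, h, map_sub]

lemma qCoeff_cusp_zero (p : ℕ) (g : CuspForm (Gamma0 p) 2) : qCoeff g 0 = 0 := by
  unfold qCoeff
  exact CuspFormClass.qExpansion_coeff_zero g one_pos (one_mem_strictPeriods_Gamma0 p)

/-! ### Upper bound from the leaves -/

/-- A cusp form congruent to `δ` modulo `M` forces `M ∣ n` (given the four form-level leaves). -/
theorem dvd_of_congruent_form (p : ℕ) [Fact p.Prime] (h5 : 5 ≤ p)
    (hEis : Stmt_Eis p) (hHC : Stmt_HC p) (hA1 : Stmt_A1 p) (hT8 : Stmt_T8 p)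
    (M : ℕ) (g : CuspForm (Gamma0 p) 2)
    (hg : ∀ k : ℕ, 1 ≤ k → ∃ c : ℤ, qCoeff g k = (((sigmaP p k : ℤ) + (M : ℤ) * c : ℤ) : ℂ)) :
    M ∣ eisensteinNumerator p := by
  have hp : p.Prime := Fact.out
  obtain ⟨E, hE0, hEk⟩ := hEis
  set D : ModularForm (Gamma0 p) 2 := E - CuspForm.toModularFormₗ g with hD
  have hD0 : qCoeff D 0 = ((p : ℂ) - 1) / 24 := by
    rw [hD, qCoeff_sub_cusp, hE0, qCoeff_cusp_zero, sub_zero]
  have hDk : ∀ k : ℕ, 1 ≤ k → ∃ c : ℤ, qCoeff D k = -((M : ℂ) * (c : ℂ)) := by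
    intro k hk
    obtain ⟨c, hc⟩ := hg k hk
    refine ⟨c, ?_⟩
    rw [hD, qCoeff_sub_cusp, hEk k hk, hc]
    push_cast; ring
  have hp1 : (1 : ℕ) ≤ p := by omega
  -- (i) HC : M ∣ p - 1
  have hi : M ∣ p - 1 := by
    have h := hHC ((24 : ℂ) • D) ((p : ℤ) - 1) (24 * M)
      (by rw [qCoeff_smul_mf, hD0]; push_cast; ring)
      (by
        intro k hk
        obtain ⟨c, hc⟩ := hDk k hk
        refine ⟨-c, ?_⟩
        rw [qCoeff_smul_mf, hc]; push_cast; ring)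
    have h' : ((24 * M : ℕ) : ℤ) ∣ ((24 * (p - 1) : ℕ) : ℤ) := by
      have e : ((24 * (p - 1) : ℕ) : ℤ) = 24 * ((p : ℤ) - 1) := by
        push_cast [Nat.cast_sub hp1]; ring
      rw [e]; exact h
    have h'' : 24 * M ∣ 24 * (p - 1) := Int.natCast_dvd_natCast.mp h'
    exact Nat.dvd_of_mul_dvd_mul_left (by norm_num) h''
  have hM0 : M ≠ 0 := by
    rintro rfl
    have := Nat.eq_zero_of_zero_dvd hi
    omega
  have hMC : (M : ℂ) ≠ 0 := Nat.cast_ne_zero.mpr hM0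
  -- (ii) A1 : 24 M ∣ (p-1)(p+1)
  have hii : 24 * M ∣ (p - 1) * (p + 1) := by
    obtain ⟨z, hz⟩ := hA1 ((M : ℂ)⁻¹ • D) (by
      intro k hk
      obtain ⟨c, hc⟩ := hDk k hk
      refine ⟨-c, ?_⟩
      rw [qCoeff_smul_mf, hc]; push_cast; field_simp)
    rw [qCoeff_smul_mf, hD0] at hz
    have hz' : (((p : ℤ) - 1) * ((p : ℤ) + 1) : ℤ) = 24 * (M : ℤ) * z := by
      have : ((((p : ℤ) - 1) * ((p : ℤ) + 1) : ℤ) : ℂ) = ((24 * (M : ℤ) * z : ℤ) : ℂ) := by
        push_cast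
        rw [← hz]; field_simp
      exact_mod_cast this
    have h' : ((24 * M : ℕ) : ℤ) ∣ (((p - 1) * (p + 1) : ℕ) : ℤ) := by
      have e : (((p - 1) * (p + 1) : ℕ) : ℤ) = ((p : ℤ) - 1) * ((p : ℤ) + 1) := by
        push_cast [Nat.cast_sub hp1]; ring
      rw [e, hz']; exact ⟨z, by push_cast; ring⟩
    exact Int.natCast_dvd_natCast.mp h'
  -- (iii) T8 : p ≡ 7 mod 8 → M odd
  have hiii : p % 8 = 7 → ¬ 2 ∣ M := by
    intro h7 h2
    obtain ⟨M', rfl⟩ := h2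
    have hpC : ((p : ℂ) - 1) ≠ 0 := by
      have : (p : ℂ) ≠ 1 := by
        have : p ≠ 1 := by omega
        exact_mod_cast this
      exact sub_ne_zero.mpr this
    obtain ⟨m, hm⟩ : ∃ m : ℕ, p - 1 = 2 * m := ⟨(p - 1) / 2, by omega⟩
    have hmodd : Odd (m : ℤ) := by
      have : m % 2 = 1 := by omega
      exact_mod_cast Nat.odd_iff.mpr this
    have hpm : (p : ℂ) - 1 = 2 * (m : ℂ) := by
      have : ((p - 1 : ℕ) : ℂ) = ((2 * m : ℕ) : ℂ) := by rw [hm]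
      rw [Nat.cast_sub hp1] at this
      push_cast at this
      exact this
    have hmC : (m : ℂ) ≠ 0 := by
      intro h; rw [h, mul_zero] at hpm; exact hpC hpm
    refine hT8 h7 ((24 / ((p : ℂ) - 1)) • D) ?_ ?_
    · rw [qCoeff_smul_mf, hD0]; field_simp
    · intro k hk
      obtain ⟨c, hc⟩ := hDk k hk
      refine ⟨-(3 * (M' : ℤ) * c), (m : ℤ), hmodd, ?_⟩
      rw [qCoeff_smul_mf, hc, hpm]
      push_cast
      field_simp
      ring
  exact arith_glue p M hp h5 hi hii hiii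

/-- UPPER BOUND in the gcd form consumed by `helper2246.result_of_gcd`. -/
theorem ub_of_leaves (p : ℕ) [Fact p.Prime] (h5 : 5 ≤ p) (hDual : Stmt_Dual p)
    (hEis : Stmt_Eis p) (hHC : Stmt_HC p) (hA1 : Stmt_A1 p) (hT8 : Stmt_T8 p) :
    ∀ M : ℕ, (∀ t : HeckeAlg, helper2246.phi p t = 0 → (M : ℤ) ∣ helper2246.eis p t) →
      M ∣ eisensteinNumerator p := by
  intro M hM
  obtain ⟨g, hg⟩ := hDual M hM
  exact dvd_of_congruent_form p h5 hEis hHC hA1 hT8 M g hg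

/-- **S16 for `5 ≤ p` from the six leaves.** -/
theorem result_of_leaves (p : ℕ) [Fact p.Prime] (h5 : 5 ≤ p)
    (hLB : Stmt_LB p) (hDual : Stmt_Dual p) (hEis : Stmt_Eis p) (hHC : Stmt_HC p)
    (hA1 : Stmt_A1 p) (hT8 : Stmt_T8 p) :
    Nat.card (↥(heckeLatticeAlgebra p ∅) ⧸
        Ideal.map ((latticeRestrictHom p ∅).toRingHom.comp (heckeEvalForms p 2))
          (eisensteinIdeal p)) =
      eisensteinNumerator p :=
  helper2246.result_of_gcd p hLB (ub_of_leaves p h5 hDual hEis hHC hA1 hT8)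

end

end Fermat.Agent.S16.helper312
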