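import Mathlib
import Fermat.Prelude.Def_CuspForm_HeckeLocal
import Fermat.Prelude.Def_CuspForm_HeckeEvalForms
import Fermat.Prelude.Def_HeckeGalois_EichlerShimura
import Fermat.Prelude.Def_ModularCurve_ModularUnit

/-!
# S16: reduction of the frozen statement to two bounds on the Eisenstein character

`T = heckeLatticeAlgebra p ∅` is a quotient of `HeckeAlg = ℤ[X_ℓ]` via
`phi p = latticeRestrictHom ∘ heckeEvalForms`, and the Eisenstein ideal is the kernel of the
Eisenstein character `eis p : HeckeAlg →+* ℤ`.  Hence `T ⧸ I ≃ ℤ ⧸ eis (ker phi)` and the frozen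
statement is equivalent to `eis (ker phi) = n ℤ`, `n = eisensteinNumerator p`:

* lower bound: every `t` acting as `0` on the integral lattice has `n ∣ eis t`;
* upper bound: some `t` acting as `0` on the integral lattice has `eis t = n`.
-/

set_option autoImplicit false

namespace Fermat.Agent.S16.helper2246

open ModularCurve CuspForm

noncomputable section

/-- The surjection `ℤ[X_ℓ] → T` of the frozen statement. -/
def phi (p : ℕ) [Fact p.Prime] : HeckeAlg →+* ↥(heckeLatticeAlgebra p ∅) :=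
  (latticeRestrictHom p ∅).toRingHom.comp (heckeEvalForms p 2)

/-- The Eisenstein character `X_ℓ ↦ 1 + ℓ (ℓ ≠ p)`, `X_p ↦ 1`. -/
def eis (p : ℕ) : HeckeAlg →+* ℤ :=
  (MvPolynomial.aeval (R := ℤ) (eisensteinSystem p)).toRingHom

lemma eisensteinIdeal_eq_ker (p : ℕ) : eisensteinIdeal p = RingHom.ker (eis p) := rfl

lemma eis_surjective (p : ℕ) : Function.Surjective (eis p) := fun z =>
  ⟨MvPolynomial.C z, by simp [eis]⟩

lemma heckeEvalForms_surjective (N : ℕ) [NeZero N] (k : ℤ) :
    Function.Surjective (heckeEvalForms N k) := by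
  rintro ⟨t, ht⟩
  have hgen : ∀ T ∈ heckeGenerators N k ∅,
      ∃ x : HeckeAlg, ((heckeEvalForms N k x : heckeAlgebra N k ∅) :
        Module.End ℂ (CuspForm (CongruenceSubgroup.Gamma0 N) k)) = T := by
    rintro T (⟨ℓ, hℓ, hℓN, -, rfl⟩ | ⟨q, hqN, hq, -, rfl⟩)
    · exact ⟨heckeGen ⟨ℓ, hℓ⟩, by
        rw [heckeEvalForms_heckeGen_of_not_dvd (N := N) (k := k) (ℓ := ⟨ℓ, hℓ⟩) hℓN]; rfl⟩
    · exact ⟨heckeGen ⟨q, hq⟩, by
        rw [heckeEvalForms_heckeGen_of_dvd (N := N) (k := k) (q := ⟨q, hq⟩) hqN]; rfl⟩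
  have key : ∀ s ∈ heckeAlgebra N k ∅,
      ∃ x : HeckeAlg, ((heckeEvalForms N k x : heckeAlgebra N k ∅) :
        Module.End ℂ (CuspForm (CongruenceSubgroup.Gamma0 N) k)) = s := by
    intro s hs
    refine Algebra.adjoin_induction (p := fun s _ => ∃ x : HeckeAlg,
      ((heckeEvalForms N k x : heckeAlgebra N k ∅) :
        Module.End ℂ (CuspForm (CongruenceSubgroup.Gamma0 N) k)) = s) ?_ ?_ ?_ ?_ hs
    · intro T hT; exact hgen T hT
    · intro r
      exact ⟨MvPolynomial.C r, by rw [heckeEvalForms_C]; rfl⟩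
    · rintro a b - - ⟨x, rfl⟩ ⟨y, rfl⟩
      exact ⟨x + y, by rw [map_add]; rfl⟩
    · rintro a b - - ⟨x, rfl⟩ ⟨y, rfl⟩
      exact ⟨x * y, by rw [map_mul]; rfl⟩
  obtain ⟨x, hx⟩ := key t ht
  exact ⟨x, Subtype.ext hx⟩

lemma phi_surjective (p : ℕ) [Fact p.Prime] : Function.Surjective (phi p) :=
  (latticeRestrictHom_surjective p ∅).comp (heckeEvalForms_surjective p 2)

/-- `phi t = 0` iff the Hecke polynomial `t` kills every cusp form with integral `q`-expansion. -/
lemma phi_eq_zero_iff (p : ℕ) [Fact p.Prime] (t : HeckeAlg) :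
    phi p t = 0 ↔ ∀ f ∈ intLattice p 2,
      ((heckeEvalForms p 2 t : heckeAlgebra p 2 ∅) :
        Module.End ℂ (CuspForm (CongruenceSubgroup.Gamma0 p) 2)) f = 0 := by
  constructor
  · intro h f hf
    have h1 : ((phi p t : ↥(heckeLatticeAlgebra p ∅)) : Module.End ℤ ↥(intLattice p 2)) = 0 := by
      rw [h]; rfl
    have h2 := LinearMap.congr_fun h1 ⟨f, hf⟩
    exact congrArg Subtype.val h2
  · intro h
    apply Subtype.ext
    refine LinearMap.ext fun f => Subtype.ext ?_
    exact h f.1 f.2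

/-- Both quotients are quotients of `HeckeAlg` by the same ideal. -/
lemma card_quotient_eq (p : ℕ) [Fact p.Prime] :
    Nat.card (↥(heckeLatticeAlgebra p ∅) ⧸ Ideal.map (phi p) (eisensteinIdeal p)) =
      Nat.card (ℤ ⧸ Ideal.map (eis p) (RingHom.ker (phi p))) := by
  have hφ := phi_surjective p
  have ha := eis_surjective p
  set I : Ideal (↥(heckeLatticeAlgebra p ∅)) := Ideal.map (phi p) (eisensteinIdeal p) with hI
  set J : Ideal ℤ := Ideal.map (eis p) (RingHom.ker (phi p)) with hJ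
  let f₁ : HeckeAlg →+* (↥(heckeLatticeAlgebra p ∅) ⧸ I) := (Ideal.Quotient.mk I).comp (phi p)
  let f₂ : HeckeAlg →+* (ℤ ⧸ J) := (Ideal.Quotient.mk J).comp (eis p)
  have hf₁ : Function.Surjective f₁ := Ideal.Quotient.mk_surjective.comp hφ
  have hf₂ : Function.Surjective f₂ := Ideal.Quotient.mk_surjective.comp ha
  have hk₁ : RingHom.ker f₁ = eisensteinIdeal p ⊔ RingHom.ker (phi p) := by
    have : RingHom.ker f₁ = Ideal.comap (phi p) I := by
      ext x
      rw [RingHom.mem_ker, Ideal.mem_comap]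
      exact Ideal.Quotient.eq_zero_iff_mem
    rw [this, hI, Ideal.comap_map_of_surjective _ hφ]
    rfl
  have hk₂ : RingHom.ker f₂ = eisensteinIdeal p ⊔ RingHom.ker (phi p) := by
    have : RingHom.ker f₂ = Ideal.comap (eis p) J := by
      ext x
      rw [RingHom.mem_ker, Ideal.mem_comap]
      exact Ideal.Quotient.eq_zero_iff_mem
    rw [this, hJ, Ideal.comap_map_of_surjective _ ha, sup_comm]
    rfl
  have e₁ := RingHom.quotientKerEquivOfSurjective hf₁
  have e₂ := RingHom.quotientKerEquivOfSurjective hf₂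
  rw [← Nat.card_congr e₁.toEquiv, ← Nat.card_congr e₂.toEquiv]
  rw [hk₁, hk₂]

/-- If `eis (ker phi) = m ℤ` then `#(T ⧸ I) = m`. -/
theorem card_of_map_ker (p : ℕ) [Fact p.Prime] (m : ℕ)
    (h : Ideal.map (eis p) (RingHom.ker (phi p)) = Ideal.span {(m : ℤ)}) :
    Nat.card (↥(heckeLatticeAlgebra p ∅) ⧸ Ideal.map (phi p) (eisensteinIdeal p)) = m := by
  rw [card_quotient_eq, h, Nat.card_congr (Int.quotientSpanNatEquivZMod m).toEquiv, Nat.card_zmod]

/-- **Reduction of S16.**  Lower bound: every Hecke polynomial killing the integral lattice has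
Eisenstein value divisible by `n`.  Upper bound: some Hecke polynomial killing the integral lattice
has Eisenstein value exactly `n`. -/
theorem result_of_bounds (p : ℕ) [Fact p.Prime]
    (hLB : ∀ t : HeckeAlg, phi p t = 0 → (eisensteinNumerator p : ℤ) ∣ eis p t)
    (hUB : ∃ t : HeckeAlg, phi p t = 0 ∧ eis p t = (eisensteinNumerator p : ℤ)) :
    Nat.card (↥(heckeLatticeAlgebra p ∅) ⧸
        Ideal.map ((latticeRestrictHom p ∅).toRingHom.comp (heckeEvalForms p 2))
          (eisensteinIdeal p)) =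
      eisensteinNumerator p := by
  apply card_of_map_ker p (eisensteinNumerator p)
  apply le_antisymm
  · rw [Ideal.map_le_iff_le_comap]
    intro t ht
    rw [Ideal.mem_comap, Ideal.mem_span_singleton]
    exact hLB t (RingHom.mem_ker.mp ht)
  · rw [Ideal.span_singleton_le_iff_mem]
    obtain ⟨t, ht, hn⟩ := hUB
    rw [← hn]
    exact Ideal.mem_map_of_mem _ (RingHom.mem_ker.mpr ht)

/-- The same reduction with the hypotheses phrased on forms: `t` acts as `0` on every cusp form
with integral `q`-expansion. -/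
theorem result_of_bounds' (p : ℕ) [Fact p.Prime]
    (hLB : ∀ t : HeckeAlg,
      (∀ f ∈ intLattice p 2, ((heckeEvalForms p 2 t : heckeAlgebra p 2 ∅) :
        Module.End ℂ (CuspForm (CongruenceSubgroup.Gamma0 p) 2)) f = 0) →
      (eisensteinNumerator p : ℤ) ∣ eis p t)
    (hUB : ∃ t : HeckeAlg,
      (∀ f ∈ intLattice p 2, ((heckeEvalForms p 2 t : heckeAlgebra p 2 ∅) :
        Module.End ℂ (CuspForm (CongruenceSubgroup.Gamma0 p) 2)) f = 0) ∧
      eis p t = (eisensteinNumerator p : ℤ)) :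
    Nat.card (↥(heckeLatticeAlgebra p ∅) ⧸
        Ideal.map ((latticeRestrictHom p ∅).toRingHom.comp (heckeEvalForms p 2))
          (eisensteinIdeal p)) =
      eisensteinNumerator p := by
  refine result_of_bounds p (fun t ht => hLB t ((phi_eq_zero_iff p t).mp ht)) ?_
  obtain ⟨t, ht, hn⟩ := hUB
  exact ⟨t, (phi_eq_zero_iff p t).mpr ht, hn⟩

end

end Fermat.Agent.S16.helper2246
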