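import Mathlib
import Fermat.Agent.S21
import Fermat.Agent.S23
import Fermat.Agent.S21.helper21_Assembly
import Fermat.Agent.S16.helper2246_Reduction

/-!
# S16, lower bound: Spec and wiring (helper9058)

Route: Shimura class (findings #1421 / #1743 / #1756).

`n := eisensteinNumerator p`.  The lower bound of `helper2246.result_of_bounds`,

  `∀ t : HeckeAlg, phi p t = 0 → (n : ℤ) ∣ eis p t`,

is deduced here (`lowerBound_of`, `lowerBound_of_TU`) from three leaf inputs about a homomorphism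
`ψ0 : Γ₀(p) → ZMod n` (the Shimura class `γ ↦ class of the lower right entry`):

* (ONE)  `ψ0` takes the value `1`;
* (LIFT) `ψ0` is the reduction mod `n` of an integral parabolic homomorphism;
* (GEN)  for every prime `ℓ` there is a *natural additive operator* `Θ` on `Hom(Γ₀(p), A)`
  (`NatOp p`: one additive operator for every abelian group `A`, commuting with change of
  coefficients) such that
  - (EQ)  `Θ (periodMap f) = periodMap (T_ℓ f)` resp. `periodMap (U_p f)`,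
  - (INV) `Θ` commutes with the Prelude `charInvolution` on `ℂ`-valued homomorphisms,
  - (EIG) `Θ ψ0 = (ℓ + 1) • ψ0` resp. `Θ ψ0 = ψ0`.

No commutativity of the operators `Θ` is needed: the induction over `MvPolynomial` is run on the
statement "some natural operator realises `t`" (`exists_realises`), and `t ↦ T_t` is transported
through the S21 bijection `periodHomPair`.  Inputs used: landed S21 (range of `periodHomPair` is
the space of parabolic homomorphisms), landed S23 (integral structure, so that `phi p t = 0`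
forces `T_t = 0` on `S₂`).
-/

set_option autoImplicit false

namespace Fermat.Agent.S16.helper9058

open ModularCurve ModularCurve.Period CuspForm CongruenceSubgroup
open scoped MatrixGroups

noncomputable section

/-- A natural additive operator on `Hom(Γ₀(p), A)`: an additive endomorphism of
`Additive (Gamma0 p) →+ A` for every abelian group `A`, compatible with change of coefficients. -/
structure NatOp (p : ℕ) where
  /-- the operator on `A`-valued homomorphisms -/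
  op : ∀ (A : Type) [AddCommGroup A], (Additive (Gamma0 p) →+ A) →+ (Additive (Gamma0 p) →+ A)
  /-- naturality in the coefficient group -/
  nat : ∀ (A B : Type) [AddCommGroup A] [AddCommGroup B] (f : A →+ B)
    (φ : Additive (Gamma0 p) →+ A), op B (f.comp φ) = f.comp (op A φ)

namespace NatOp

variable {p : ℕ}

/-- Multiplication by an integer. -/
def const (p : ℕ) (a : ℤ) : NatOp p where
  op A _ :=
    { toFun := fun φ => a • φ
      map_zero' := smul_zero a
      map_add' := fun φ ψ => smul_add a φ ψ }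
  nat A B _ _ f φ := by
    refine AddMonoidHom.ext fun γ => ?_
    simp

/-- Sum of two natural operators. -/
def add (Θ₁ Θ₂ : NatOp p) : NatOp p where
  op A _ := Θ₁.op A + Θ₂.op A
  nat A B _ _ f φ := by
    simp only [AddMonoidHom.add_apply, Θ₁.nat, Θ₂.nat]
    refine AddMonoidHom.ext fun γ => ?_
    simp

/-- Composition of two natural operators. -/
def comp (Θ₁ Θ₂ : NatOp p) : NatOp p where
  op A _ := (Θ₁.op A).comp (Θ₂.op A)
  nat A B _ _ f φ := by
    simp only [AddMonoidHom.comp_apply, Θ₁.nat, Θ₂.nat]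

@[simp] lemma const_op (a : ℤ) (A : Type) [AddCommGroup A] (φ : Additive (Gamma0 p) →+ A) :
    (const p a).op A φ = a • φ := rfl

@[simp] lemma add_op (Θ₁ Θ₂ : NatOp p) (A : Type) [AddCommGroup A]
    (φ : Additive (Gamma0 p) →+ A) : (Θ₁.add Θ₂).op A φ = Θ₁.op A φ + Θ₂.op A φ := rfl

@[simp] lemma comp_op (Θ₁ Θ₂ : NatOp p) (A : Type) [AddCommGroup A]
    (φ : Additive (Gamma0 p) →+ A) : (Θ₁.comp Θ₂).op A φ = Θ₁.op A (Θ₂.op A φ) := rfl

end NatOp

/-- The natural operator `Θ` realises the Hecke polynomial `t`: it is the Hecke operator `T_t`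
on periods (EQ), commutes with the involution (INV), and has the Eisenstein eigenvalue on `ψ0`
(EIG). -/
structure Realises (p : ℕ) [Fact p.Prime]
    (ψ0 : Additive (Gamma0 p) →+ ZMod (eisensteinNumerator p)) (t : HeckeAlg) (Θ : NatOp p) :
    Prop where
  eq : ∀ f : CuspForm (Gamma0 p) 2, Θ.op ℂ (periodMap p f) =
    periodMap p (((heckeEvalForms p 2 t : heckeAlgebra p 2 ∅) :
      Module.End ℂ (CuspForm (Gamma0 p) 2)) f)
  inv : ∀ φ : Additive (Gamma0 p) →+ ℂ,
    Θ.op ℂ (charInvolution p ℂ ℂ φ) = charInvolution p ℂ ℂ (Θ.op ℂ φ)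
  eig : Θ.op (ZMod (eisensteinNumerator p)) ψ0 = helper2246.eis p t • ψ0

/-- The period map is additive and `ℤ`-homogeneous (from S21, statement (A)). -/
lemma exists_pml (p : ℕ) [Fact p.Prime] :
    ∃ pml : CuspForm (Gamma0 p) 2 →ₗ[ℂ] (Additive (Gamma0 p) →+ ℂ), ∀ f, pml f = periodMap p f :=
  Fermat.Agent.S21.helper921.existsPeriodMapLinear_of_A (Fermat.Agent.S21.helper21.stmtA p)

/-- **Induction over Hecke polynomials** (no commutativity of the operators needed). -/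
theorem exists_realises (p : ℕ) [Fact p.Prime]
    (ψ0 : Additive (Gamma0 p) →+ ZMod (eisensteinNumerator p))
    (hgen : ∀ ℓ : Nat.Primes, ∃ Θ : NatOp p, Realises p ψ0 (heckeGen ℓ) Θ) :
    ∀ t : HeckeAlg, ∃ Θ : NatOp p, Realises p ψ0 t Θ := by
  obtain ⟨pml, hpml⟩ := exists_pml p
  intro t
  induction t using MvPolynomial.induction_on with
  | C a =>
    refine ⟨NatOp.const p a, ⟨?_, ?_, ?_⟩⟩
    · intro f
      rw [heckeEvalForms_C, NatOp.const_op, ← hpml, ← hpml]
      have : (((algebraMap ℤ (heckeAlgebra p 2 ∅) a : heckeAlgebra p 2 ∅) :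
          Module.End ℂ (CuspForm (Gamma0 p) 2)) f) = a • f := by
        rw [Subalgebra.coe_algebraMap, Algebra.algebraMap_eq_smul_one, LinearMap.smul_apply]
        rfl
      rw [this, map_zsmul]
    · intro φ
      simp only [NatOp.const_op]
      refine AddMonoidHom.ext fun γ => ?_
      simp
    · have : helper2246.eis p (MvPolynomial.C a) = a := by simp [helper2246.eis]
      rw [NatOp.const_op, this]
  | add s t hs ht =>
    obtain ⟨Θs, hΘs⟩ := hs
    obtain ⟨Θt, hΘt⟩ := ht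
    refine ⟨Θs.add Θt, ⟨?_, ?_, ?_⟩⟩
    · intro f
      rw [NatOp.add_op, hΘs.eq, hΘt.eq, map_add, Subalgebra.coe_add, LinearMap.add_apply,
        ← hpml, ← hpml, ← hpml, map_add]
    · intro φ
      rw [NatOp.add_op, NatOp.add_op, hΘs.inv, hΘt.inv, map_add]
    · rw [NatOp.add_op, hΘs.eig, hΘt.eig, map_add, add_smul]
  | mul_X t ℓ ht =>
    obtain ⟨Θt, hΘt⟩ := ht
    obtain ⟨Θℓ, hΘℓ⟩ := hgen ℓ
    refine ⟨Θt.comp Θℓ, ⟨?_, ?_, ?_⟩⟩
    · intro f
      rw [NatOp.comp_op, hΘℓ.eq, hΘt.eq, map_mul, Subalgebra.coe_mul]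
      rfl
    · intro φ
      rw [NatOp.comp_op, NatOp.comp_op, hΘℓ.inv, hΘt.inv]
    · rw [NatOp.comp_op, hΘℓ.eig, map_zsmul, hΘt.eig, smul_smul, map_mul, mul_comm]
      rfl

/-- **S16, lower bound (wiring).**  See the module docstring. -/
theorem lowerBound_of (p : ℕ) [Fact p.Prime]
    (ψ0 : Additive (Gamma0 p) →+ ZMod (eisensteinNumerator p))
    (hone : ∃ γ, ψ0 γ = 1)
    (hlift : ∃ ψ : Additive (Gamma0 p) →+ ℤ, ψ ∈ parabolicHoms ℤ (Gamma0 p) ℤ ∧
      ∀ γ, ((ψ γ : ℤ) : ZMod (eisensteinNumerator p)) = ψ0 γ)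
    (hgen : ∀ ℓ : Nat.Primes, ∃ Θ : NatOp p, Realises p ψ0 (heckeGen ℓ) Θ) :
    ∀ t : HeckeAlg, helper2246.phi p t = 0 →
      (eisensteinNumerator p : ℤ) ∣ helper2246.eis p t := by
  intro t ht
  obtain ⟨pml, hpml⟩ := exists_pml p
  -- `T_t = 0` on all of `S₂` (S23)
  have hT : heckeEvalForms p 2 t = 0 := by
    have hbij := latticeRestrictHom_bijective p ∅ (Fermat.Agent.S23.result p)
    apply hbij.1
    rw [map_zero]
    exact ht
  obtain ⟨Θ, hΘ⟩ := exists_realises p ψ0 hgen t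
  have h0 : ∀ f : CuspForm (Gamma0 p) 2, Θ.op ℂ (periodMap p f) = 0 := by
    intro f
    rw [hΘ.eq, hT, ← hpml]
    simp
  -- `Θ` kills all parabolic `ℂ`-valued homomorphisms (S21)
  have hpar : ∀ φ ∈ parabolicHoms ℂ (Gamma0 p) ℂ, Θ.op ℂ φ = 0 := by
    intro φ hφ
    rw [← (Fermat.Agent.S21.result p).2] at hφ
    obtain ⟨⟨f, g⟩, rfl⟩ := hφ
    rw [Fermat.Agent.S21.helper21.periodHomPair_apply, map_add, map_add, map_sub, hΘ.inv,
      hΘ.inv, h0, h0]
    simp
  obtain ⟨ψ, hψpar, hψ⟩ := hlift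
  have hψC : Θ.op ℂ ((Int.castAddHom ℂ).comp ψ) = 0 := by
    apply hpar
    rw [mem_parabolicHoms_iff] at hψpar ⊢
    intro γ hγ
    simp [hψpar γ hγ]
  have hψZ : Θ.op ℤ ψ = 0 := by
    rw [Θ.nat] at hψC
    refine AddMonoidHom.ext fun γ => ?_
    have h := DFunLike.congr_fun hψC γ
    simpa using h
  have hψ0 : ψ0 = (Int.castAddHom (ZMod (eisensteinNumerator p))).comp ψ := by
    refine AddMonoidHom.ext fun γ => ?_
    simp [hψ]
  have hkey : helper2246.eis p t • ψ0 = 0 := by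
    rw [← hΘ.eig, hψ0, Θ.nat, hψZ]
    simp
  obtain ⟨γ, hγ⟩ := hone
  have h := DFunLike.congr_fun hkey γ
  rw [AddMonoidHom.smul_apply, hγ, AddMonoidHom.zero_apply, zsmul_one] at h
  exact (ZMod.intCast_zmod_eq_zero_iff_dvd _ _).mp h

/-- (GEN) from its `T_ℓ` (`ℓ ≠ p`) and `U_p` halves, in the shapes the leaf owners prove. -/
theorem hgen_of_TU (p : ℕ) [Fact p.Prime]
    (ψ0 : Additive (Gamma0 p) →+ ZMod (eisensteinNumerator p))
    (hT : ∀ (l : ℕ) (hl : l.Prime) (hlp : ¬ l ∣ p), ∃ Θ : NatOp p,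
      (∀ f : CuspForm (Gamma0 p) 2,
        Θ.op ℂ (periodMap p f) = periodMap p (heckeTLin 2 hl hlp f)) ∧
      (∀ φ : Additive (Gamma0 p) →+ ℂ,
        Θ.op ℂ (charInvolution p ℂ ℂ φ) = charInvolution p ℂ ℂ (Θ.op ℂ φ)) ∧
      Θ.op (ZMod (eisensteinNumerator p)) ψ0 = ((l : ℤ) + 1) • ψ0)
    (hU : ∃ Θ : NatOp p,
      (∀ f : CuspForm (Gamma0 p) 2,
        Θ.op ℂ (periodMap p f) = periodMap p (heckeULin 2 (dvd_refl p) f)) ∧
      (∀ φ : Additive (Gamma0 p) →+ ℂ,
        Θ.op ℂ (charInvolution p ℂ ℂ φ) = charInvolution p ℂ ℂ (Θ.op ℂ φ)) ∧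
      Θ.op (ZMod (eisensteinNumerator p)) ψ0 = ψ0) :
    ∀ ℓ : Nat.Primes, ∃ Θ : NatOp p, Realises p ψ0 (heckeGen ℓ) Θ := by
  intro ℓ
  by_cases h : (ℓ : ℕ) ∣ p
  · obtain ⟨Θ, h1, h2, h3⟩ := hU
    refine ⟨Θ, ⟨?_, h2, ?_⟩⟩
    · intro f
      have hℓp : (ℓ : ℕ) = p :=
        (Nat.prime_dvd_prime_iff_eq ℓ.2 (Fact.out : p.Prime)).mp h
      rw [h1, heckeEvalForms_heckeGen_of_dvd (N := p) (k := 2) (q := ℓ) h, heckeAlgebra.coe_U]
      obtain ⟨l, hl⟩ := ℓ
      simp only at hℓp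
      subst hℓp
      rfl
    · have : helper2246.eis p (heckeGen ℓ) = 1 := by
        simp [helper2246.eis, heckeGen, eisensteinSystem_of_dvd h]
      rw [h3, this, one_smul]
  · obtain ⟨Θ, h1, h2, h3⟩ := hT ℓ ℓ.2 h
    refine ⟨Θ, ⟨?_, h2, ?_⟩⟩
    · intro f
      rw [h1, heckeEvalForms_heckeGen_of_not_dvd (N := p) (k := 2) (ℓ := ℓ) h,
        heckeAlgebra.coe_T]
    · have : helper2246.eis p (heckeGen ℓ) = (ℓ : ℕ) + 1 := by
        simp [helper2246.eis, heckeGen, eisensteinSystem_of_not_dvd h, add_comm]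
      rw [h3, this]

/-- **S16, lower bound** from the leaf statements in `T_ℓ` / `U_p` form. -/
theorem lowerBound_of_TU (p : ℕ) [Fact p.Prime]
    (ψ0 : Additive (Gamma0 p) →+ ZMod (eisensteinNumerator p))
    (hone : ∃ γ, ψ0 γ = 1)
    (hlift : ∃ ψ : Additive (Gamma0 p) →+ ℤ, ψ ∈ parabolicHoms ℤ (Gamma0 p) ℤ ∧
      ∀ γ, ((ψ γ : ℤ) : ZMod (eisensteinNumerator p)) = ψ0 γ)
    (hT : ∀ (l : ℕ) (hl : l.Prime) (hlp : ¬ l ∣ p), ∃ Θ : NatOp p,
      (∀ f : CuspForm (Gamma0 p) 2,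
        Θ.op ℂ (periodMap p f) = periodMap p (heckeTLin 2 hl hlp f)) ∧
      (∀ φ : Additive (Gamma0 p) →+ ℂ,
        Θ.op ℂ (charInvolution p ℂ ℂ φ) = charInvolution p ℂ ℂ (Θ.op ℂ φ)) ∧
      Θ.op (ZMod (eisensteinNumerator p)) ψ0 = ((l : ℤ) + 1) • ψ0)
    (hU : ∃ Θ : NatOp p,
      (∀ f : CuspForm (Gamma0 p) 2,
        Θ.op ℂ (periodMap p f) = periodMap p (heckeULin 2 (dvd_refl p) f)) ∧
      (∀ φ : Additive (Gamma0 p) →+ ℂ,
        Θ.op ℂ (charInvolution p ℂ ℂ φ) = charInvolution p ℂ ℂ (Θ.op ℂ φ)) ∧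
      Θ.op (ZMod (eisensteinNumerator p)) ψ0 = ψ0) :
    ∀ t : HeckeAlg, helper2246.phi p t = 0 →
      (eisensteinNumerator p : ℤ) ∣ helper2246.eis p t :=
  lowerBound_of p ψ0 hone hlift (hgen_of_TU p ψ0 hT hU)

end

end Fermat.Agent.S16.helper9058
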