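/-
helper1461 — S16 LOWER BOUND, final glue: `helper312.Stmt_LB p` for every prime `p`.

Inputs (all on main): `helper9058.lowerBound_of_TU` (wiring through S21/S23),
`helper2138.heckeHomT/U` (coset-transfer operators, naturality, commutation with the involution,
`d`-relations), `helper262.periodMap_heckeTLin/ULin` (equivariance of the period map),
`helper8671.shimuraHom` (Shimura class, telescoping eigen-lemma),
`helper1461.shimura_lift_helper8671` (integral parabolic lift).
-/
import Fermat.Agent.S16.helper1461_ShimuraLift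
import Fermat.Agent.S16.helper9058_LBSpec
import Fermat.Agent.S16.helper262_PeriodHeckeHom
import Fermat.Agent.S16.helper312_Spec

set_option autoImplicit false

open CongruenceSubgroup ModularCurve ModularCurve.Period CuspForm
open scoped MatrixGroups

namespace Fermat.Agent.S16.helper1461

open Fermat.Agent.S16

/-- `T_l` (`l ∤ p`) as a natural operator. -/
noncomputable def natOpT (p l : ℕ) [Fact l.Prime] (hlp : ¬ l ∣ p) : helper9058.NatOp p where
  op A _ :=
    { toFun := helper2138.heckeHomT p l hlp A
      map_zero' := (helper2138.corrT p l hlp).op_zero A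
      map_add' := (helper2138.corrT p l hlp).op_add A }
  nat A B _ _ f φ := helper2138.heckeHomT_comp p l hlp f φ

/-- `U_p` as a natural operator. -/
noncomputable def natOpU (p : ℕ) [NeZero p] : helper9058.NatOp p where
  op A _ :=
    { toFun := helper2138.heckeHomU p p (dvd_refl p) A
      map_zero' := (helper2138.corrU p p (dvd_refl p)).op_zero A
      map_add' := (helper2138.corrU p p (dvd_refl p)).op_add A }
  nat A B _ _ f φ := helper2138.heckeHomU_comp p p (dvd_refl p) f φ

/-- The unit of `ZMod p` attached to the lower-right entry of the `T_l` representative. -/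
noncomputable def unitT (p l : ℕ) (hcop : Nat.Coprime l p) (x : OnePoint (ZMod l)) : (ZMod p)ˣ :=
  x.elim 1 (fun _ => ZMod.unitOfCoprime l hcop)

theorem coe_unitT (p l : ℕ) (hcop : Nat.Coprime l p) (x : OnePoint (ZMod l)) :
    ((unitT p l hcop x : (ZMod p)ˣ) : ZMod p) = ((helper2138.eT l x : ℤ) : ZMod p) := by
  induction x using OnePoint.rec with
  | infty => simp [unitT]
  | coe j => simp [unitT]

/-- (EIG) for `T_l`: the Shimura class is an eigenvector with eigenvalue `l + 1`. -/
theorem heckeHomT_shimuraHom (p l : ℕ) [Fact p.Prime] [Fact l.Prime] (hlp : ¬ l ∣ p) :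
    helper2138.heckeHomT p l hlp (ZMod (eisensteinNumerator p)) (helper8671.shimuraHom p)
      = ((l : ℤ) + 1) • helper8671.shimuraHom p := by
  have hl : l.Prime := Fact.out
  have hp : p.Prime := Fact.out
  have hcop : Nat.Coprime l p := by
    rw [Nat.coprime_primes hl hp]
    rintro rfl
    exact hlp (dvd_refl _)
  refine AddMonoidHom.ext fun γ' => ?_
  obtain ⟨γ, rfl⟩ : ∃ γ : Gamma0 p, Additive.ofMul γ = γ' := ⟨Additive.toMul γ', rfl⟩
  rw [helper2138.heckeHomT_apply]
  have key := helper8671.sum_shimuraHom_of_units p (unitT p l hcop) γ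
    (fun x => (helper2138.corrT p l hlp).g x γ) ((helper2138.corrT p l hlp).σEquiv γ) (by
      intro x
      apply Units.ext
      rw [Units.val_mul, Units.val_mul, helper8671.dUnit_coe, helper8671.dUnit_coe, coe_unitT,
        coe_unitT]
      have h := helper2138.corrT_d_rel p l hlp x γ
      rw [helper2138.Corr.σEquiv_apply, h, mul_comm])
  rw [key]
  have hcard : Fintype.card (OnePoint (ZMod l)) = l + 1 := by
    have h1 : Fintype.card (Option (ZMod l)) = Fintype.card (ZMod l) + 1 := Fintype.card_option
    rw [ZMod.card] at h1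
    exact h1
  rw [hcard, AddMonoidHom.smul_apply]
  have e : ((l : ℤ) + 1) = ((l + 1 : ℕ) : ℤ) := by push_cast; rfl
  rw [e, natCast_zsmul]

/-- (EIG) for `U_p`: the Shimura class is fixed. -/
theorem heckeHomU_shimuraHom (p : ℕ) [Fact p.Prime] :
    haveI : NeZero p := ⟨(Fact.out : p.Prime).ne_zero⟩
    helper2138.heckeHomU p p (dvd_refl p) (ZMod (eisensteinNumerator p)) (helper8671.shimuraHom p)
      = helper8671.shimuraHom p := by
  haveI : NeZero p := ⟨(Fact.out : p.Prime).ne_zero⟩
  refine AddMonoidHom.ext fun γ' => ?_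
  obtain ⟨γ, rfl⟩ : ∃ γ : Gamma0 p, Additive.ofMul γ = γ' := ⟨Additive.toMul γ', rfl⟩
  rw [helper2138.heckeHomU_apply]
  rw [Finset.sum_congr rfl (fun j _ => helper8671.shimuraHom_eq_of_entry_eq p
    (helper2138.corrU_d_rel p p (dvd_refl p) j γ))]
  rw [Finset.sum_const, Finset.card_univ, ZMod.card, helper8671.prime_nsmul_eq]

/-- **The lower bound of S16**: a Hecke polynomial killing the integral cusp forms has Eisenstein
value divisible by `n = (p - 1) / gcd (p - 1, 12)`. -/
theorem stmt_LB (p : ℕ) [Fact p.Prime] : helper312.Stmt_LB p := by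
  haveI : NeZero p := ⟨(Fact.out : p.Prime).ne_zero⟩
  refine helper9058.lowerBound_of_TU p (helper8671.shimuraHom p)
    (helper8671.shimuraHom_surjective p 1) (shimura_lift_helper8671 p) ?_ ?_
  · intro l hl hlp
    haveI : Fact l.Prime := ⟨hl⟩
    refine ⟨natOpT p l hlp, ?_, ?_, ?_⟩
    · intro f
      exact (helper262.periodMap_heckeTLin p l hlp f).symm
    · intro φ
      exact helper2138.heckeHomT_charInvolution p l hlp ℂ ℂ φ
    · exact heckeHomT_shimuraHom p l hlp
  · refine ⟨natOpU p, ?_, ?_, ?_⟩
    · intro f
      exact (helper262.periodMap_heckeULin p p (dvd_refl p) f).symm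
    · intro φ
      exact helper2138.heckeHomU_charInvolution p p (dvd_refl p) ℂ ℂ φ
    · exact heckeHomU_shimuraHom p

end Fermat.Agent.S16.helper1461
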