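/-
helper4369 — S16 leaf HC (Hecke commutator upper bound).

Main result `dvd_of_congruent_const`: if `G ∈ M_2(Γ₀(N))` has integral constant term `c` and all
higher `q`-coefficients divisible by `M`, then `M ∣ 24 * c`.

Proof: with `D = Δ` restricted to `Γ₀(N)` and a prime `m ∤ N`, the cusp form
`Φ = T_m(D·G) - T_m(D)·G` of weight 14 has integral coefficients and
`Φ ≡ c·m^11·(m^2-1)·Δ(q^m)  (mod M)`.  The lattice of integral cusp forms of weight 14 is finitely
generated, so only finitely many reductions mod `M` occur, and a reduction vanishing to order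
`> B` vanishes; for `m > B` this gives `M ∣ c·m^11·(m^2-1)`.  Dirichlet's theorem on primes in
progressions (applied to each prime power dividing `M`) then gives `M ∣ 24 c`.
-/
import Mathlib
import Fermat.Prelude.Def_FLTPrelim_Modularity
import Fermat.Prelude.Def_ModularForm_HeckeOperatorForms
import Fermat.Prelude.Def_CuspForm_IntegralStructure
import Fermat.Prelude.Thm_ModularFormClass_qCoeff_heckeT
import Fermat.Prelude.Thm_CongruenceSubgroup_one_mem_strictPeriods_Gamma0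
import Fermat.Prelude.Thm_CuspForm_intLattice_fg
import Fermat.Agent.Lib.helper386_QExpBridge

set_option autoImplicit false

namespace Fermat.Agent.S16.helper4369

open ModularFormClass CongruenceSubgroup UpperHalfPlane

/-! ### Pure integer arithmetic -/

section Arith

/-- Cauchy product coefficient of two integer sequences. -/
def conv (a b : ℕ → ℤ) (n : ℕ) : ℤ := ∑ x ∈ Finset.HasAntidiagonal.antidiagonal n, a x.1 * b x.2

/-- Formal Hecke operator `T_m` in weight `k + 1` on integer sequences. -/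
def hk (k m : ℕ) (a : ℕ → ℤ) (n : ℕ) : ℤ :=
  a (n * m) + if m ∣ n then (m : ℤ) ^ k * a (n / m) else 0

lemma conv_cast_zmod (M : ℕ) (a g : ℕ → ℤ) (hg : ∀ k, 1 ≤ k → (M : ℤ) ∣ g k) (n : ℕ) :
    ((conv a g n : ℤ) : ZMod M) = (a n : ZMod M) * (g 0 : ZMod M) := by
  unfold conv
  rw [Int.cast_sum, Finset.sum_eq_single (n, 0)]
  · rw [Int.cast_mul]
  · intro b hb hne
    have h2 : b.2 ≠ 0 := by
      intro h0
      apply hne
      rw [Finset.HasAntidiagonal.mem_antidiagonal] at hb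
      ext
      · simp only; omega
      · simpa using h0
    have h3 : ((g b.2 : ℤ) : ZMod M) = 0 :=
      (ZMod.intCast_zmod_eq_zero_iff_dvd _ _).mpr (hg _ (Nat.one_le_iff_ne_zero.mpr h2))
    rw [Int.cast_mul, h3, mul_zero]
  · intro h
    exact absurd (Finset.HasAntidiagonal.mem_antidiagonal.mpr (by simp)) h

lemma comm_cast_zmod (M m : ℕ) (τ g : ℕ → ℤ) (hg : ∀ k, 1 ≤ k → (M : ℤ) ∣ g k) (n : ℕ) :
    ((hk 13 m (conv τ g) n - conv (hk 11 m τ) g n : ℤ) : ZMod M) =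
      ((if m ∣ n then g 0 * (m : ℤ) ^ 11 * ((m : ℤ) ^ 2 - 1) * τ (n / m) else 0 : ℤ) : ZMod M) := by
  rw [Int.cast_sub, conv_cast_zmod M _ g hg]
  unfold hk
  split_ifs with h
  · push_cast
    rw [conv_cast_zmod M τ g hg, conv_cast_zmod M τ g hg]
    ring
  · push_cast
    rw [conv_cast_zmod M τ g hg]
    ring

lemma comm_dvd (M m : ℕ) (τ g : ℕ → ℤ) (hg : ∀ k, 1 ≤ k → (M : ℤ) ∣ g k) (n : ℕ) :
    (M : ℤ) ∣ (hk 13 m (conv τ g) n - conv (hk 11 m τ) g n) -
      (if m ∣ n then g 0 * (m : ℤ) ^ 11 * ((m : ℤ) ^ 2 - 1) * τ (n / m) else 0) := by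
  rw [← ZMod.intCast_zmod_eq_zero_iff_dvd, Int.cast_sub, comm_cast_zmod M m τ g hg n, sub_self]

end Arith

/-! ### The forms -/

section Forms

variable (N : ℕ)

/-- The discriminant as a cusp form of level `Γ₀(N)`. -/
noncomputable def deltaLevel [NeZero N] : CuspForm (Gamma0 N) 12 where
  toFun := CuspForm.discriminant
  slash_action_eq' A hA := by
    obtain ⟨γ, -, rfl⟩ := hA
    exact CuspForm.discriminant.slash_action_eq' _ ⟨γ, rfl⟩
  holo' := CuspForm.discriminant.holo'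
  zero_at_cusps' hc := by
    refine CuspForm.discriminant.zero_at_cusps' ?_
    rw [Subgroup.IsArithmetic.isCusp_iff_isCusp_SL2Z] at hc ⊢
    exact hc

/-- Integer coefficients of `Δ`. -/
noncomputable def tau (n : ℕ) : ℤ := PowerSeries.coeff n Fermat.Agent.Lib.helper386.deltaSeries

lemma tau_zero : tau 0 = 0 := Fermat.Agent.Lib.helper386.coeff_zero_deltaSeries

lemma tau_one : tau 1 = 1 := Fermat.Agent.Lib.helper386.coeff_one_deltaSeries

lemma qCoeff_deltaLevel [NeZero N] (n : ℕ) : qCoeff (deltaLevel N) n = (tau n : ℂ) :=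
  Fermat.Agent.Lib.helper386.qExpansion_discriminant_coeff n

end Forms

/-! ### `q`-expansions -/

section QExp

variable {N : ℕ}

/-- The `n`-th `q`-coefficient as a linear functional on cusp forms of level `Γ₀(N)`. -/
noncomputable def qL (N : ℕ) (k : ℤ) (n : ℕ) : CuspForm (Gamma0 N) k →ₗ[ℂ] ℂ where
  toFun f := qCoeff f n
  map_add' f g := by
    change (qExpansion 1 (⇑(f + g))).coeff n = (qExpansion 1 f).coeff n + (qExpansion 1 g).coeff n
    rw [FunLike.coe_add,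
      ModularForm.qExpansion_add one_pos (one_mem_strictPeriods_Gamma0 N) f g, map_add]
  map_smul' c f := by
    change (qExpansion 1 (⇑(c • f))).coeff n = c • (qExpansion 1 f).coeff n
    rw [FunLike.coe_smul,
      ModularForm.qExpansion_smul one_pos (one_mem_strictPeriods_Gamma0 N) c f]
    simp

lemma qL_apply (k : ℤ) (n : ℕ) (f : CuspForm (Gamma0 N) k) : qL N k n f = qCoeff f n := rfl

lemma int_of_mem_intLattice {k : ℤ} {f : CuspForm (Gamma0 N) k}
    (hf : f ∈ CuspForm.intLattice N k) : ∀ n : ℕ, ∃ z : ℤ, qCoeff f n = (z : ℂ) := by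
  unfold CuspForm.intLattice at hf
  induction hf using Submodule.span_induction with
  | mem x hx => exact hx
  | zero => exact fun n => ⟨0, by rw [← qL_apply, map_zero, Int.cast_zero]⟩
  | add x y _ _ hx hy =>
    intro n
    obtain ⟨a, ha⟩ := hx n
    obtain ⟨b, hb⟩ := hy n
    exact ⟨a + b, by rw [← qL_apply, map_add, qL_apply, qL_apply, ha, hb, Int.cast_add]⟩
  | smul c x _ hx =>
    intro n
    obtain ⟨a, ha⟩ := hx n
    exact ⟨c * a, by rw [← qL_apply, map_zsmul, qL_apply, ha, zsmul_eq_mul, Int.cast_mul]⟩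

lemma qCoeff_mulModularForm {k₁ k₂ : ℤ} (f : CuspForm (Gamma0 N) k₁)
    (G : ModularForm (Gamma0 N) k₂) (a g : ℕ → ℤ) (ha : ∀ n, qCoeff f n = (a n : ℂ))
    (hg : ∀ n, qCoeff G n = (g n : ℂ)) (n : ℕ) :
    qCoeff (f.mulModularForm G) n = (conv a g n : ℂ) := by
  change (qExpansion 1 (⇑(f.mulModularForm G))).coeff n = _
  rw [CuspForm.coe_mulModularForm,
    ModularForm.qExpansion_mul_coe one_pos (one_mem_strictPeriods_Gamma0 N) f G,
    PowerSeries.coeff_mul]
  unfold conv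
  rw [Int.cast_sum]
  refine Finset.sum_congr rfl fun x _ => ?_
  rw [Int.cast_mul, ← ha, ← hg]
  rfl

lemma qCoeff_heckeTLin (k : ℤ) (e : ℕ) (he : k - 1 = (e : ℤ)) {m : ℕ} (hm : m.Prime)
    (hmN : ¬ m ∣ N) (f : CuspForm (Gamma0 N) k) (a : ℕ → ℤ)
    (ha : ∀ n, qCoeff f n = (a n : ℂ)) (n : ℕ) :
    qCoeff (CuspForm.heckeTLin k hm hmN f) n = (hk e m a n : ℂ) := by
  rw [CuspForm.coe_heckeTLin_apply,
    ModularFormClass.qCoeff_heckeT f (one_mem_strictPeriods_Gamma0 N) hm.ne_zero n]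
  unfold ModularForm.coeffHeckeT hk
  rw [ha, he, zpow_natCast]
  split_ifs
  · rw [ha]; push_cast; ring
  · push_cast; ring

/-- The Hecke commutator `T_m(Δ·G) - T_m(Δ)·G`. -/
noncomputable def Phi (N : ℕ) [NeZero N] {m : ℕ} (hm : m.Prime) (hmN : ¬ m ∣ N)
    (G : ModularForm (Gamma0 N) 2) : CuspForm (Gamma0 N) (12 + 2) :=
  CuspForm.heckeTLin (12 + 2) hm hmN ((deltaLevel N).mulModularForm G) -
    (CuspForm.heckeTLin 12 hm hmN (deltaLevel N)).mulModularForm G

lemma qCoeff_Phi [NeZero N] {m : ℕ} (hm : m.Prime) (hmN : ¬ m ∣ N) (G : ModularForm (Gamma0 N) 2)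
    (g : ℕ → ℤ) (hg : ∀ n, qCoeff G n = (g n : ℂ)) (n : ℕ) :
    qCoeff (Phi N hm hmN G) n =
      ((hk 13 m (conv tau g) n - conv (hk 11 m tau) g n : ℤ) : ℂ) := by
  rw [← qL_apply, Phi, map_sub, qL_apply, qL_apply, Int.cast_sub]
  congr 1
  · exact qCoeff_heckeTLin (12 + 2) 13 (by norm_num) hm hmN _ _
      (qCoeff_mulModularForm _ G tau g (qCoeff_deltaLevel N) hg) n
  · exact qCoeff_mulModularForm _ G _ g
      (qCoeff_heckeTLin 12 11 (by norm_num) hm hmN _ tau (qCoeff_deltaLevel N)) hg n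

end QExp

/-! ### The lattice bound -/

section Bound

/-- Finiteness of the integral lattice gives, for every modulus `M ≥ 1`, a bound `B` such that an
integral cusp form whose first `B` coefficients vanish mod `M` vanishes mod `M`. -/
lemma exists_bound (N : ℕ) [NeZero N] (k : ℤ) (M : ℕ) [NeZero M] :
    ∃ B : ℕ, ∀ (f : CuspForm (Gamma0 N) k) (a : ℕ → ℤ), (∀ n, qCoeff f n = (a n : ℂ)) →
      (∀ n, n ≤ B → (M : ℤ) ∣ a n) → ∀ n, (M : ℤ) ∣ a n := by
  obtain ⟨r, gen, hgen⟩ :=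
    Submodule.fg_iff_exists_fin_generating_family.mp (CuspForm.intLattice_fg N k)
  have hgen_int : ∀ i, ∀ n : ℕ, ∃ z : ℤ, qCoeff (gen i) n = (z : ℂ) := by
    intro i
    have hi : gen i ∈ CuspForm.intLattice N k :=
      hgen ▸ Submodule.subset_span (Set.mem_range_self i)
    exact int_of_mem_intLattice hi
  choose A hA using hgen_int
  classical
  let s : (Fin r → ZMod M) → ℕ → ZMod M := fun d n => ∑ i, d i * (A i n : ZMod M)
  let Bd : (Fin r → ZMod M) → ℕ := fun d => if h : ∃ n, s d n ≠ 0 then Nat.find h else 0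
  refine ⟨Finset.univ.sup Bd, ?_⟩
  intro f a ha hB
  have hf : f ∈ CuspForm.intLattice N k := Submodule.subset_span (fun n => ⟨a n, ha n⟩)
  rw [← hgen] at hf
  obtain ⟨c, hc⟩ := (Submodule.mem_span_range_iff_exists_fun ℤ).mp hf
  have key : ∀ n, a n = ∑ i, c i * A i n := by
    intro n
    have h1 : qL N k n f = ∑ i, c i • qL N k n (gen i) := by
      rw [← hc, map_sum]
      exact Finset.sum_congr rfl fun i _ => map_zsmul _ _ _
    apply Int.cast_injective (α := ℂ)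
    rw [← ha, ← qL_apply, h1, Int.cast_sum]
    refine Finset.sum_congr rfl fun i _ => ?_
    rw [qL_apply, hA, zsmul_eq_mul, Int.cast_mul]
  have hs : ∀ n, (a n : ZMod M) = s (fun i => (c i : ZMod M)) n := by
    intro n
    rw [key, Int.cast_sum]
    exact Finset.sum_congr rfl fun i _ => Int.cast_mul _ _
  by_contra hcon
  rw [not_forall] at hcon
  obtain ⟨n0, hn0⟩ := hcon
  have hex : ∃ n, s (fun i => (c i : ZMod M)) n ≠ 0 :=
    ⟨n0, by rw [← hs]; rwa [Ne, ZMod.intCast_zmod_eq_zero_iff_dvd]⟩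
  have hle : Nat.find hex ≤ Finset.univ.sup Bd := by
    have h2 : Bd (fun i => (c i : ZMod M)) = Nat.find hex := dif_pos hex
    rw [← h2]
    exact Finset.le_sup (Finset.mem_univ _)
  apply Nat.find_spec hex
  rw [← hs, ZMod.intCast_zmod_eq_zero_iff_dvd]
  exact hB _ hle

end Bound

/-! ### The commutator congruence -/

section Core

/-- For every level `N ≥ 1` and modulus `M ≥ 1` there is a bound `B` such that for every
`G ∈ M_2(Γ₀(N))` with integral `q`-expansion `g`, congruent to the constant `g 0` modulo `M`, and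
every prime `m > B` not dividing `N`, we have `M ∣ g 0 * m^11 * (m^2 - 1)`. -/
theorem commutator_dvd (N : ℕ) [NeZero N] (M : ℕ) [NeZero M] :
    ∃ B : ℕ, ∀ (G : ModularForm (Gamma0 N) 2) (g : ℕ → ℤ), (∀ n, qCoeff G n = (g n : ℂ)) →
      (∀ k, 1 ≤ k → (M : ℤ) ∣ g k) → ∀ m : ℕ, m.Prime → B < m → ¬ m ∣ N →
        (M : ℤ) ∣ g 0 * (m : ℤ) ^ 11 * ((m : ℤ) ^ 2 - 1) := by
  obtain ⟨B, hB⟩ := exists_bound N (12 + 2) M
  refine ⟨B, fun G g hg hgM m hm hBm hmN => ?_⟩
  have h1 := hB (Phi N hm hmN G) (fun n => hk 13 m (conv tau g) n - conv (hk 11 m tau) g n)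
    (qCoeff_Phi hm hmN G g hg) ?_ m
  · have h2 := comm_dvd M m tau g hgM m
    rw [if_pos dvd_rfl, Nat.div_self hm.pos, tau_one, mul_one] at h2
    exact (dvd_sub_right h1).mp h2
  · intro n hn
    have h2 := comm_dvd M m tau g hgM n
    by_cases h0 : n = 0
    · subst h0
      rw [if_pos (dvd_zero m), Nat.zero_div, tau_zero, mul_zero, sub_zero] at h2
      exact h2
    · have h3 : ¬ m ∣ n := fun h => by
        have := Nat.le_of_dvd (Nat.pos_of_ne_zero h0) h
        omega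
      rw [if_neg h3, sub_zero] at h2
      exact h2

end Core

/-! ### Dirichlet and the final statement -/

section Final

/-- Prime power case. -/
lemma dvd_prime_pow (N : ℕ) [NeZero N] (G : ModularForm (Gamma0 N) 2) (c : ℤ) (ℓ t : ℕ)
    (hℓ : ℓ.Prime) (h0 : qCoeff G 0 = (c : ℂ))
    (hk : ∀ k, 1 ≤ k → ∃ z : ℤ, qCoeff G k = ((ℓ ^ t : ℕ) : ℂ) * (z : ℂ)) :
    ((ℓ ^ t : ℕ) : ℤ) ∣ 24 * c := by
  have hq0 : ℓ ^ t ≠ 0 := pow_ne_zero t hℓ.ne_zero
  have : NeZero (ℓ ^ t) := ⟨hq0⟩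
  obtain ⟨B, hB⟩ := commutator_dvd N (ℓ ^ t)
  choose z hz using hk
  classical
  let g : ℕ → ℤ := fun k => if h : 1 ≤ k then ((ℓ ^ t : ℕ) : ℤ) * z k h else c
  have hg : ∀ n, qCoeff G n = (g n : ℂ) := by
    intro n
    by_cases h : 1 ≤ n
    · simp only [g, dif_pos h]
      rw [hz n h]
      push_cast
      ring
    · have hn : n = 0 := by omega
      subst hn
      simp only [g, dif_neg h]
      exact h0
  have hgM : ∀ k, 1 ≤ k → ((ℓ ^ t : ℕ) : ℤ) ∣ g k := by
    intro k hk1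
    simp only [g, dif_pos hk1]
    exact dvd_mul_right _ _
  have hg0 : g 0 = c := by simp [g]
  -- the residue class
  obtain ⟨a, ha_cop, ha_dvd⟩ : ∃ a : ℕ, a.Coprime (ℓ ^ t) ∧
      ∀ x : ℤ, ((ℓ ^ t : ℕ) : ℤ) ∣ x * ((a : ℤ) ^ 2 - 1) → ((ℓ ^ t : ℕ) : ℤ) ∣ 24 * x := by
    by_cases h5 : ℓ = 5
    · refine ⟨7, ?_, ?_⟩
      · rw [h5]
        exact Nat.Coprime.pow_right t (by norm_num)
      · intro x hx
        have hcop : IsCoprime (((ℓ ^ t : ℕ) : ℤ)) (2 : ℤ) := by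
          rw [h5]
          have : Nat.Coprime (5 ^ t) 2 := Nat.Coprime.pow_left t (by norm_num)
          exact_mod_cast Nat.isCoprime_iff_coprime.mpr this
        have hx' : ((ℓ ^ t : ℕ) : ℤ) ∣ (24 * x) * 2 := by
          have : (24 * x) * 2 = x * (((7 : ℕ) : ℤ) ^ 2 - 1) := by push_cast; ring
          rw [this]
          exact hx
        exact hcop.dvd_of_dvd_mul_right hx'
    · refine ⟨5, ?_, ?_⟩
      · exact Nat.Coprime.pow_right t ((Nat.coprime_primes Nat.prime_five hℓ).mpr (Ne.symm h5))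
      · intro x hx
        have : 24 * x = x * (((5 : ℕ) : ℤ) ^ 2 - 1) := by push_cast; ring
        rw [this]
        exact hx
  obtain ⟨m, hm_gt, hm, hm_mod⟩ :=
    Nat.forall_exists_prime_gt_and_modEq (max B (max N ℓ)) hq0 ha_cop
  have hBm : B < m := lt_of_le_of_lt (le_max_left _ _) hm_gt
  have hNm : N < m := lt_of_le_of_lt ((le_max_left _ _).trans (le_max_right _ _)) hm_gt
  have hℓm : ℓ < m := lt_of_le_of_lt ((le_max_right _ _).trans (le_max_right _ _)) hm_gt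
  have hmN : ¬ m ∣ N := fun h => by
    have := Nat.le_of_dvd (Nat.pos_of_ne_zero (NeZero.ne N)) h
    omega
  have h1 := hB G g hg hgM m hm hBm hmN
  rw [hg0] at h1
  -- remove the factor `m ^ 11`
  have hcop : IsCoprime (((ℓ ^ t : ℕ) : ℤ)) ((m : ℤ) ^ 11) := by
    have h2 : Nat.Coprime ℓ m := (Nat.coprime_primes hℓ hm).mpr (by omega)
    have h3 : Nat.Coprime (ℓ ^ t) (m ^ 11) := Nat.Coprime.pow t 11 h2
    exact_mod_cast Nat.isCoprime_iff_coprime.mpr h3
  have h4 : ((ℓ ^ t : ℕ) : ℤ) ∣ (c * ((m : ℤ) ^ 2 - 1)) * (m : ℤ) ^ 11 := by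
    have : (c * ((m : ℤ) ^ 2 - 1)) * (m : ℤ) ^ 11 = c * (m : ℤ) ^ 11 * ((m : ℤ) ^ 2 - 1) := by
      ring
    rw [this]
    exact h1
  have h5 : ((ℓ ^ t : ℕ) : ℤ) ∣ c * ((m : ℤ) ^ 2 - 1) := hcop.dvd_of_dvd_mul_right h4
  -- replace `m` by `a`
  have h6 : ((ℓ ^ t : ℕ) : ℤ) ∣ (m : ℤ) - (a : ℤ) := by
    have := (Int.natCast_modEq_iff.mpr hm_mod).symm
    exact (Int.modEq_iff_dvd.mp this)
  have h7 : ((ℓ ^ t : ℕ) : ℤ) ∣ c * ((a : ℤ) ^ 2 - 1) := by
    have : c * ((a : ℤ) ^ 2 - 1) =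
        c * ((m : ℤ) ^ 2 - 1) - ((m : ℤ) - (a : ℤ)) * (c * ((m : ℤ) + (a : ℤ))) := by ring
    rw [this]
    exact dvd_sub h5 (Dvd.dvd.mul_right h6 _)
  exact ha_dvd c h7

/-- **Hecke commutator bound** (level `N ≥ 1`).  If `G ∈ M_2(Γ₀(N))` has integral constant term
`c` and all its higher `q`-coefficients lie in `M ℤ`, then `M ∣ 24 c`. -/
theorem dvd_of_congruent_const_level (N : ℕ) [NeZero N] (G : ModularForm (Gamma0 N) 2) (c : ℤ)
    (M : ℕ) (h0 : qCoeff G 0 = (c : ℂ))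
    (hk : ∀ k, 1 ≤ k → ∃ z : ℤ, qCoeff G k = (M : ℂ) * (z : ℂ)) : (M : ℤ) ∣ 24 * c := by
  rw [Int.natCast_dvd, Nat.dvd_iff_prime_pow_dvd_dvd]
  intro ℓ t hℓ hdvd
  rw [← Int.natCast_dvd]
  refine dvd_prime_pow N G c ℓ t hℓ h0 fun k hk1 => ?_
  obtain ⟨z, hz⟩ := hk k hk1
  obtain ⟨u, hu⟩ := hdvd
  refine ⟨(u : ℤ) * z, ?_⟩
  rw [hz, hu]
  push_cast
  ring

/-- **Hecke commutator bound** (prime level).  If `G ∈ M_2(Γ₀(p))` has integral constant term `c`
and all its higher `q`-coefficients lie in `M ℤ`, then `M ∣ 24 c`. -/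
theorem dvd_of_congruent_const (p : ℕ) [Fact p.Prime] (G : ModularForm (Gamma0 p) 2) (c : ℤ)
    (M : ℕ) (h0 : qCoeff G 0 = (c : ℂ))
    (hk : ∀ k, 1 ≤ k → ∃ z : ℤ, qCoeff G k = (M : ℂ) * (z : ℂ)) : (M : ℤ) ∣ 24 * c :=
  haveI : NeZero p := ⟨(Fact.out : p.Prime).ne_zero⟩
  dvd_of_congruent_const_level p G c M h0 hk

end Final

end Fermat.Agent.S16.helper4369
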