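/-
S16 shared leaf (helper7249): conjugates of modular forms on `Γ₀(p)` under `SL(2, ℤ)`.

For `F : ModularForm (Gamma0 p) k` (`p` prime):
* `wp F : ModularForm (Gamma0 p) k`, the Atkin–Lehner translate `F ∣[k] W`, `W = !![0, -1; p, 0]`;
* `slash_ST_eq`      : `F ∣[k] (S * T ^ j) = p^(2-k) • (F ∣[k] W) ∣[k] heckeMatrix p j`;
* `coe_trace_eq`     : `trace 𝒮ℒ F = F + p^(2-k) • heckeU k p (wp F)`;
* weight two         : `heckeU 2 p (wp F) = -F`, `wp F = -heckeU 2 p F`.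
-/
import Mathlib
import Fermat.Prelude.Def_ModularForm_HeckeOperator

set_option autoImplicit false

noncomputable section

open UpperHalfPlane ModularForm CongruenceSubgroup Matrix.SpecialLinearGroup
open scoped MatrixGroups ModularForm Manifold

namespace Fermat.Agent.S16.helper7249

/-! ### Scalar matrices -/

/-- The scalar matrix `a • 1` as an element of `GL(2, ℝ)`. -/
def scalarGL (a : ℝ) (ha : a ≠ 0) : GL (Fin 2) ℝ :=
  Matrix.GeneralLinearGroup.mkOfDetNeZero !![a, 0; 0, a]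
    (by rw [Matrix.det_fin_two_of]; simpa using mul_self_ne_zero.mpr ha)

@[simp] lemma val_scalarGL (a : ℝ) (ha : a ≠ 0) :
    ((scalarGL a ha : GL (Fin 2) ℝ) : Matrix (Fin 2) (Fin 2) ℝ) = !![a, 0; 0, a] := rfl

lemma det_scalarGL (a : ℝ) (ha : a ≠ 0) : ((scalarGL a ha).det : ℝ) = a * a := by
  rw [Matrix.GeneralLinearGroup.val_det_apply, val_scalarGL, Matrix.det_fin_two_of]
  ring

lemma det_scalarGL_pos (a : ℝ) (ha : a ≠ 0) : 0 < ((scalarGL a ha).det : ℝ) := by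
  rw [det_scalarGL]; exact mul_self_pos.mpr ha

lemma scalarGL_smul (a : ℝ) (ha : a ≠ 0) (τ : ℍ) : scalarGL a ha • τ = τ := by
  apply UpperHalfPlane.ext
  rw [UpperHalfPlane.coe_smul_of_det_pos (det_scalarGL_pos a ha)]
  have ha' : (a : ℂ) ≠ 0 := by exact_mod_cast ha
  simp [UpperHalfPlane.num, UpperHalfPlane.denom, ha']

lemma slash_scalarGL (k : ℤ) (a : ℝ) (ha : a ≠ 0) (f : ℍ → ℂ) :
    f ∣[k] scalarGL a ha = (((a * a : ℝ) : ℂ) ^ (k - 1) * (a : ℂ) ^ (-k)) • f := by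
  ext τ
  rw [ModularForm.slash_apply, UpperHalfPlane.σ, if_pos (det_scalarGL_pos a ha), scalarGL_smul,
    det_scalarGL, abs_of_pos (mul_self_pos.mpr ha)]
  simp only [ContinuousAlgEquiv.refl_apply, Pi.smul_apply, smul_eq_mul]
  have : UpperHalfPlane.denom (scalarGL a ha) τ = a := by
    simp [UpperHalfPlane.denom]
  rw [this]
  ring

/-! ### The Atkin–Lehner matrix -/

variable (p : ℕ) [NeZero p]

/-- The Atkin–Lehner matrix `!![0, -1; p, 0]`. -/
def wMat : GL (Fin 2) ℝ :=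
  Matrix.GeneralLinearGroup.mkOfDetNeZero !![0, -1; (p : ℝ), 0]
    (by rw [Matrix.det_fin_two_of]; simpa using NeZero.ne p)

@[simp] lemma val_wMat :
    ((wMat p : GL (Fin 2) ℝ) : Matrix (Fin 2) (Fin 2) ℝ) = !![0, -1; (p : ℝ), 0] := rfl

lemma det_wMat : ((wMat p).det : ℝ) = p := by
  rw [Matrix.GeneralLinearGroup.val_det_apply, val_wMat, Matrix.det_fin_two_of]
  ring

lemma det_wMat_pos : 0 < ((wMat p).det : ℝ) := by
  rw [det_wMat]; exact_mod_cast Nat.pos_of_ne_zero (NeZero.ne p)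

lemma natCast_ne_zero' : ((p : ℕ) : ℝ) ≠ 0 := by exact_mod_cast NeZero.ne p

lemma val_mapGL (g : SL(2, ℤ)) (i j : Fin 2) :
    ((mapGL ℝ g : GL (Fin 2) ℝ) : Matrix (Fin 2) (Fin 2) ℝ) i j = ((g.1 i j : ℤ) : ℝ) := by
  simp [mapGL_coe_matrix]

lemma val_S_mul_T_pow (j : ℕ) :
    ((ModularGroup.S * ModularGroup.T ^ j : SL(2, ℤ)) : Matrix (Fin 2) (Fin 2) ℤ)
      = !![0, -1; 1, (j : ℤ)] := by
  have h := ModularGroup.coe_T_zpow (j : ℤ)
  rw [zpow_natCast] at h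
  rw [Matrix.SpecialLinearGroup.coe_mul, h, ModularGroup.coe_S]
  ext a b
  fin_cases a <;> fin_cases b <;> simp [Matrix.mul_apply, Fin.sum_univ_two]

lemma wMat_mul_heckeMatrix (j : ℕ) :
    wMat p * heckeMatrix p j =
      scalarGL p (natCast_ne_zero' p) * mapGL ℝ (ModularGroup.S * ModularGroup.T ^ j) := by
  apply Matrix.GeneralLinearGroup.ext
  intro a b
  rw [Matrix.GeneralLinearGroup.coe_mul, Matrix.GeneralLinearGroup.coe_mul,
    val_heckeMatrix (NeZero.ne p), val_wMat, val_scalarGL, Matrix.mul_apply, Matrix.mul_apply,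
    Fin.sum_univ_two, Fin.sum_univ_two]
  simp only [val_mapGL, val_S_mul_T_pow]
  fin_cases a <;> fin_cases b <;> simp


lemma SL_slash_eq_mapGL (k : ℤ) (f : ℍ → ℂ) (γ : SL(2, ℤ)) :
    f ∣[k] γ = f ∣[k] (mapGL ℝ γ : GL (Fin 2) ℝ) := rfl

lemma σ_mapGL (γ : SL(2, ℤ)) : UpperHalfPlane.σ (mapGL ℝ γ : GL (Fin 2) ℝ) = .refl ℝ ℂ := by
  rw [UpperHalfPlane.σ, if_pos]
  simp

lemma natCast_zpow_scalar (k : ℤ) :
    (((p : ℝ) * (p : ℝ) : ℝ) : ℂ) ^ (k - 1) * ((p : ℝ) : ℂ) ^ (-k) = (p : ℂ) ^ (k - 2) := by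
  have hp : (p : ℂ) ≠ 0 := by exact_mod_cast NeZero.ne p
  push_cast
  rw [mul_zpow, ← zpow_add₀ hp, ← zpow_add₀ hp]
  congr 1
  ring

lemma slash_wMat_heckeMatrix (k : ℤ) (f : ℍ → ℂ) (j : ℕ) :
    (f ∣[k] wMat p) ∣[k] heckeMatrix p j =
      ((p : ℂ) ^ (k - 2)) • (f ∣[k] (ModularGroup.S * ModularGroup.T ^ j)) := by
  rw [← SlashAction.slash_mul, wMat_mul_heckeMatrix, SlashAction.slash_mul, slash_scalarGL,
    ModularForm.smul_slash, σ_mapGL, natCast_zpow_scalar, SL_slash_eq_mapGL]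
  rfl


/-! ### `W` normalises `Γ₀(p)` -/

lemma exists_wMat_conj (g : SL(2, ℤ)) (hg : g ∈ Gamma0 p) :
    ∃ g' ∈ Gamma0 p, wMat p * mapGL ℝ g = mapGL ℝ g' * wMat p := by
  rw [Gamma0_mem, ZMod.intCast_zmod_eq_zero_iff_dvd] at hg
  obtain ⟨c', hc'⟩ := hg
  have hdet : g.1 0 0 * g.1 1 1 - g.1 0 1 * g.1 1 0 = 1 := by
    have := g.det_coe
    rwa [Matrix.det_fin_two] at this
  obtain ⟨g', h00, h01, h10, h11⟩ : ∃ g' : SL(2, ℤ), g'.1 0 0 = g.1 1 1 ∧ g'.1 0 1 = -c' ∧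
      g'.1 1 0 = -(p : ℤ) * g.1 0 1 ∧ g'.1 1 1 = g.1 0 0 := by
    refine ⟨⟨!![g.1 1 1, -c'; -(p : ℤ) * g.1 0 1, g.1 0 0], ?_⟩, rfl, rfl, rfl, rfl⟩
    rw [Matrix.det_fin_two_of]
    rw [hc'] at hdet
    linear_combination hdet
  refine ⟨g', ?_, ?_⟩
  · rw [Gamma0_mem, h10]
    simp
  · apply Matrix.GeneralLinearGroup.ext
    intro a b
    rw [Matrix.GeneralLinearGroup.coe_mul, Matrix.GeneralLinearGroup.coe_mul, val_wMat,
      Matrix.mul_apply, Matrix.mul_apply, Fin.sum_univ_two, Fin.sum_univ_two]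
    simp only [val_mapGL]
    fin_cases a <;> fin_cases b <;> simp [hc', h00, h01, h10, h11, mul_comm]

lemma wMat_conj_mem {γ : GL (Fin 2) ℝ} (hγ : γ ∈ (Gamma0 p : Subgroup (GL (Fin 2) ℝ))) :
    wMat p * γ * (wMat p)⁻¹ ∈ (Gamma0 p : Subgroup (GL (Fin 2) ℝ)) := by
  obtain ⟨g, hg, rfl⟩ := hγ
  obtain ⟨g', hg', h⟩ := exists_wMat_conj p g hg
  rw [h, mul_inv_cancel_right]
  exact ⟨g', hg', rfl⟩

open ConjAct Pointwise in
lemma le_conj_wMat :
    (Gamma0 p : Subgroup (GL (Fin 2) ℝ)) ≤ toConjAct (wMat p)⁻¹ • (Gamma0 p : Subgroup (GL (Fin 2) ℝ)) := by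
  intro γ hγ
  rw [Subgroup.mem_pointwise_smul_iff_inv_smul_mem, ← map_inv, inv_inv, toConjAct_smul]
  exact wMat_conj_mem p hγ

/-- The Atkin–Lehner translate `F ∣[k] W` of a modular form on `Γ₀(p)`, again a modular form on
`Γ₀(p)`. -/
def wp {k : ℤ} (F : ModularForm (Gamma0 p) k) : ModularForm (Gamma0 p) k where
  toFun := ⇑F ∣[k] wMat p
  slash_action_eq' γ hγ := by
    obtain ⟨g, hg, rfl⟩ := hγ
    obtain ⟨g', hg', h⟩ := exists_wMat_conj p g hg
    have hmem : (mapGL ℝ g' : GL (Fin 2) ℝ) ∈ (Gamma0 p : Subgroup (GL (Fin 2) ℝ)) :=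
      ⟨g', hg', rfl⟩
    rw [← SlashAction.slash_mul, h, SlashAction.slash_mul,
      SlashInvariantFormClass.slash_action_eq F (mapGL ℝ g') hmem]
  holo' := (ModularForm.translate F (wMat p)).holo'
  bdd_at_cusps' hc := (ModularForm.translate F (wMat p)).bdd_at_cusps' (hc.mono (le_conj_wMat p))

@[simp] lemma coe_wp {k : ℤ} (F : ModularForm (Gamma0 p) k) : ⇑(wp p F) = ⇑F ∣[k] wMat p := rfl


/-! ### `W² = -p` and weight two -/

lemma wMat_mul_wMat :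
    wMat p * wMat p = scalarGL (-(p : ℝ)) (neg_ne_zero.mpr (natCast_ne_zero' p)) := by
  apply Matrix.GeneralLinearGroup.ext
  intro a b
  rw [Matrix.GeneralLinearGroup.coe_mul, val_wMat, val_scalarGL, Matrix.mul_apply,
    Fin.sum_univ_two]
  fin_cases a <;> fin_cases b <;> simp

lemma slash_wMat_wMat (k : ℤ) (f : ℍ → ℂ) :
    (f ∣[k] wMat p) ∣[k] wMat p = ((-1 : ℂ) ^ k * (p : ℂ) ^ (k - 2)) • f := by
  have hp : (p : ℂ) ≠ 0 := by exact_mod_cast NeZero.ne p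
  rw [← SlashAction.slash_mul, wMat_mul_wMat, slash_scalarGL]
  congr 1
  have h1 : (((-(p : ℝ)) * (-(p : ℝ)) : ℝ) : ℂ) = (p : ℂ) * (p : ℂ) := by push_cast; ring
  have h2 : ((-(p : ℝ) : ℝ) : ℂ) = (-1) * (p : ℂ) := by push_cast; ring
  have h3 : ((-1 : ℂ)) ^ (-k) = (-1) ^ k := by rw [zpow_neg, ← inv_zpow]; norm_num
  rw [h1, h2, mul_zpow, mul_zpow, ← zpow_add₀ hp, h3, mul_left_comm, ← zpow_add₀ hp]
  congr 2
  ring

lemma slash_wMat_wMat_two (f : ℍ → ℂ) : (f ∣[(2 : ℤ)] wMat p) ∣[(2 : ℤ)] wMat p = f := by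
  rw [slash_wMat_wMat]
  simp

lemma wp_wp_two (F : ModularForm (Gamma0 p) 2) : wp p (wp p F) = F := by
  ext τ
  rw [coe_wp, coe_wp, slash_wMat_wMat_two]

/-! ### Coset representatives of `Γ₀(p)` in `SL(2, ℤ)` -/

/-- `SL(2, ℤ)` as the subgroup `𝒮ℒ` of `GL(2, ℝ)`. -/
def slToSL : SL(2, ℤ) →* (𝒮ℒ : Subgroup (GL (Fin 2) ℝ)) := (mapGL ℝ).rangeRestrict

lemma coe_slToSL (g : SL(2, ℤ)) : ((slToSL g : 𝒮ℒ) : GL (Fin 2) ℝ) = mapGL ℝ g := rfl

lemma slToSL_surjective : Function.Surjective slToSL := (mapGL ℝ).rangeRestrict_surjective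

/-- The coset space `SL(2, ℤ) / Γ₀(p)` in the form used by `ModularForm.trace` and
`ModularForm.norm`. -/
abbrev Q : Type := (𝒮ℒ : Subgroup (GL (Fin 2) ℝ)) ⧸
  ((Gamma0 p : Subgroup (GL (Fin 2) ℝ)).subgroupOf 𝒮ℒ)

omit [NeZero p] in
lemma mk_slToSL_eq_iff (x y : SL(2, ℤ)) :
    ((slToSL x : 𝒮ℒ) : Q p) = ((slToSL y : 𝒮ℒ) : Q p) ↔ x⁻¹ * y ∈ Gamma0 p := by
  rw [QuotientGroup.eq, Subgroup.mem_subgroupOf, ← map_inv, ← map_mul, coe_slToSL]
  exact Subgroup.mem_map_iff_mem mapGL_injective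

lemma mul_inv_apply_one_zero (x y : SL(2, ℤ)) :
    (x * y⁻¹).1 1 0 = x.1 1 0 * y.1 1 1 - x.1 1 1 * y.1 1 0 := by
  rw [Matrix.SpecialLinearGroup.coe_mul, Matrix.SpecialLinearGroup.coe_inv,
    Matrix.adjugate_fin_two, Matrix.mul_apply, Fin.sum_univ_two]
  simp
  ring

lemma mul_apply_one_zero (x y : SL(2, ℤ)) :
    (x * y).1 1 0 = x.1 1 0 * y.1 0 0 + x.1 1 1 * y.1 1 0 := by
  rw [Matrix.SpecialLinearGroup.coe_mul, Matrix.mul_apply, Fin.sum_univ_two]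

lemma ST_apply_one_zero (j : ℕ) : (ModularGroup.S * ModularGroup.T ^ j).1 1 0 = 1 := by
  rw [val_S_mul_T_pow]; rfl

lemma ST_apply_one_one (j : ℕ) : (ModularGroup.S * ModularGroup.T ^ j).1 1 1 = j := by
  rw [val_S_mul_T_pow]; rfl

/-- Coset representatives: `1` and `(S T^j)⁻¹`, `j < p`. -/
def cosetRep : Option (Fin p) → SL(2, ℤ)
  | none => 1
  | some j => (ModularGroup.S * ModularGroup.T ^ (j : ℕ))⁻¹

variable [Fact p.Prime]

lemma cosetRep_injective :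
    Function.Injective (fun o : Option (Fin p) => ((slToSL (cosetRep p o) : 𝒮ℒ) : Q p)) := by
  have hp : p.Prime := Fact.out
  have hnot : ¬ (p : ℤ) ∣ 1 := by
    intro h
    have := Int.natCast_dvd_natCast.mp (by simpa using h : ((p : ℕ) : ℤ) ∣ ((1 : ℕ) : ℤ))
    exact hp.one_lt.ne' (Nat.dvd_one.mp this)
  intro o o' h
  simp only [mk_slToSL_eq_iff, Gamma0_mem, ZMod.intCast_zmod_eq_zero_iff_dvd] at h
  rcases o with _ | i <;> rcases o' with _ | j
  · rfl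
  · exfalso
    simp only [cosetRep, inv_one, one_mul] at h
    have h2 := mul_inv_apply_one_zero 1 (ModularGroup.S * ModularGroup.T ^ (j : ℕ))
    rw [one_mul] at h2
    rw [h2, ST_apply_one_zero] at h
    simp at h
    exact hnot h
  · exfalso
    simp only [cosetRep, inv_inv, mul_one] at h
    rw [ST_apply_one_zero] at h
    exact hnot h
  · simp only [cosetRep, inv_inv] at h
    rw [mul_inv_apply_one_zero, ST_apply_one_zero, ST_apply_one_one, ST_apply_one_zero,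
      ST_apply_one_one] at h
    have h3 : (p : ℤ) ∣ ((j : ℕ) : ℤ) - ((i : ℕ) : ℤ) := by simpa using h
    have h4 : (i : ℕ) ≡ (j : ℕ) [MOD p] :=
      Int.natCast_modEq_iff.mp (Int.modEq_iff_dvd.mpr h3)
    have h5 : (i : ℕ) = j := Nat.ModEq.eq_of_lt_of_lt h4 i.2 j.2
    exact congrArg some (Fin.ext h5)

lemma cosetRep_surjective :
    Function.Surjective (fun o : Option (Fin p) => ((slToSL (cosetRep p o) : 𝒮ℒ) : Q p)) := by
  have hp : p.Prime := Fact.out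
  intro q
  induction q using QuotientGroup.induction_on with
  | H x =>
    obtain ⟨g, rfl⟩ := slToSL_surjective x
    by_cases hg : g ∈ Gamma0 p
    · refine ⟨none, ?_⟩
      simp only [mk_slToSL_eq_iff, cosetRep, inv_one, one_mul]
      exact hg
    · rw [Gamma0_mem] at hg
      set j : ZMod p := -((g.1 0 0 : ℤ) : ZMod p) * (((g.1 1 0 : ℤ) : ZMod p))⁻¹ with hj
      refine ⟨some ⟨j.val, ZMod.val_lt j⟩, ?_⟩
      simp only [mk_slToSL_eq_iff, cosetRep, inv_inv]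
      rw [Gamma0_mem, mul_apply_one_zero, ST_apply_one_zero, ST_apply_one_one]
      push_cast
      rw [ZMod.natCast_val, ZMod.cast_id', id, hj, one_mul, neg_mul, neg_mul,
        inv_mul_cancel_right₀ hg]
      ring

/-- The explicit enumeration of the coset space by `Option (Fin p)`. -/
def cosetEquiv : Option (Fin p) ≃ Q p :=
  Equiv.ofBijective _ ⟨cosetRep_injective p, cosetRep_surjective p⟩

lemma cosetEquiv_apply (o : Option (Fin p)) :
    cosetEquiv p o = ((slToSL (cosetRep p o) : 𝒮ℒ) : Q p) := rfl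

lemma card_Q : Nat.card (Q p) = p + 1 := by
  rw [← Nat.card_congr (cosetEquiv p), Nat.card_eq_fintype_card, Fintype.card_option,
    Fintype.card_fin]


/-! ### Trace and norm over explicit coset representatives -/

lemma quotientFunc_cosetEquiv {k : ℤ} (F : ModularForm (Gamma0 p) k) (o : Option (Fin p)) :
    SlashInvariantForm.quotientFunc F (cosetEquiv p o) =
      ⇑F ∣[k] (cosetRep p o)⁻¹ := by
  rw [cosetEquiv_apply]
  show ⇑F ∣[k] ((slToSL (cosetRep p o) : 𝒮ℒ) : GL (Fin 2) ℝ)⁻¹ = _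
  rw [coe_slToSL, ← map_inv]
  rfl

/-- The trace to level one over the explicit coset representatives `1, S T^j`. -/
theorem coe_trace_eq_sum {k : ℤ} (F : ModularForm (Gamma0 p) k) :
    ⇑(ModularForm.trace 𝒮ℒ F) =
      ⇑F + ∑ j : Fin p, ⇑F ∣[k] (ModularGroup.S * ModularGroup.T ^ (j : ℕ)) := by
  let _ := Fintype.ofFinite (Q p)
  rw [ModularForm.coe_trace, ← Equiv.sum_comp (cosetEquiv p), Fintype.sum_option]
  simp only [quotientFunc_cosetEquiv, cosetRep, inv_one, inv_inv]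
  congr 1
  exact SlashAction.slash_one k _

/-- The norm to level one over the explicit coset representatives `1, S T^j`. -/
theorem coe_norm_eq_prod {k : ℤ} (F : ModularForm (Gamma0 p) k) :
    ⇑(ModularForm.norm 𝒮ℒ F) =
      ⇑F * ∏ j : Fin p, ⇑F ∣[k] (ModularGroup.S * ModularGroup.T ^ (j : ℕ)) := by
  let _ := Fintype.ofFinite (Q p)
  rw [ModularForm.coe_norm, ← Equiv.prod_comp (cosetEquiv p), Fintype.prod_option]
  simp only [quotientFunc_cosetEquiv, cosetRep, inv_one, inv_inv]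
  congr 1
  exact SlashAction.slash_one k _

omit [Fact p.Prime] in
lemma slash_ST_eq (k : ℤ) (f : ℍ → ℂ) (j : ℕ) :
    f ∣[k] (ModularGroup.S * ModularGroup.T ^ j) =
      ((p : ℂ) ^ (2 - k)) • ((f ∣[k] wMat p) ∣[k] heckeMatrix p j) := by
  have hp : (p : ℂ) ≠ 0 := by exact_mod_cast NeZero.ne p
  rw [slash_wMat_heckeMatrix, smul_smul, ← zpow_add₀ hp, show (2 - k) + (k - 2) = 0 by ring,
    zpow_zero, one_smul]

/-- `Tr F = F + p^(2-k) U_p (F ∣ W)`. -/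
theorem coe_trace_eq {k : ℤ} (F : ModularForm (Gamma0 p) k) :
    ⇑(ModularForm.trace 𝒮ℒ F) = ⇑F + ((p : ℂ) ^ (2 - k)) • heckeU k p ⇑(wp p F) := by
  rw [coe_trace_eq_sum, heckeU_def, Finset.smul_sum, coe_wp, ← Fin.sum_univ_eq_sum_range
    (fun j => ((p : ℂ) ^ (2 - k)) • ((⇑F ∣[k] wMat p) ∣[k] heckeMatrix p j))]
  congr 1
  exact Finset.sum_congr rfl fun j _ => slash_ST_eq p k _ _


/-! ### Weight two: `F ∣ W = -U_p F` -/

omit [Fact p.Prime] in
lemma trace_weight_two (F : ModularForm (Gamma0 p) 2) : ModularForm.trace 𝒮ℒ F = 0 :=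
  rank_zero_iff_forall_zero.mp levelOne_weight_two_rank_zero _

/-- In weight two, `U_p (F ∣ W) = -F`. -/
theorem heckeU_wp_two (F : ModularForm (Gamma0 p) 2) : heckeU 2 p ⇑(wp p F) = -⇑F := by
  have h := coe_trace_eq p F
  rw [trace_weight_two, sub_self, zpow_zero, one_smul] at h
  have h0 : ⇑(0 : ModularForm 𝒮ℒ 2) = 0 := rfl
  rw [h0] at h
  exact eq_neg_of_add_eq_zero_right h.symm

/-- In weight two, `F ∣ W = -U_p F`. -/
theorem coe_wp_two (F : ModularForm (Gamma0 p) 2) : ⇑(wp p F) = -heckeU 2 p ⇑F := by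
  have h := heckeU_wp_two p (wp p F)
  rw [wp_wp_two] at h
  rw [h, neg_neg]

/-- In weight two the conjugates of `F` are `F ∣ S T^j = -(U_p F) ∣ [1, j; 0, p]`. -/
theorem slash_ST_two (F : ModularForm (Gamma0 p) 2) (j : ℕ) :
    ⇑F ∣[(2 : ℤ)] (ModularGroup.S * ModularGroup.T ^ j) =
      -((heckeU 2 p ⇑F) ∣[(2 : ℤ)] heckeMatrix p j) := by
  rw [slash_ST_eq p, sub_self, zpow_zero, one_smul, ← coe_wp, coe_wp_two, SlashAction.neg_slash]

theorem slash_ST_two_apply (F : ModularForm (Gamma0 p) 2) (j : ℕ) (τ : ℍ) :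
    (⇑F ∣[(2 : ℤ)] (ModularGroup.S * ModularGroup.T ^ j)) τ =
      -((p : ℂ)⁻¹ * heckeU 2 p ⇑F (heckeMatrix p j • τ)) := by
  rw [slash_ST_two, Pi.neg_apply, slash_heckeMatrix_apply 2 (NeZero.ne p)]


end Fermat.Agent.S16.helper7249
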