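/-
S16 (helper7249): discharge of the two modular hypotheses of `helper1566.onetrace`
(the one-trace bound A1): `helper1566.UpInvol p` and `helper1566.TraceFour p`,
from the conjugates module `helper7249_Conjugates`.

Also exported, for functions `f : ℍ → ℂ` that are 1-periodic, holomorphic and bounded at `i∞`
(`Nice f`): the `q`-expansion calculus `qExpansion_heckeU`, `qExpansion_mul'`, ...
-/
import Fermat.Agent.S16.helper7249_Conjugates
import Fermat.Agent.S16.helper1566_OneTrace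
import Fermat.Prelude.Thm_UpperHalfPlane_qCoeff_heckeU
import Fermat.Prelude.Thm_ModularForm_mdifferentiable_heckeU
import Fermat.Prelude.Thm_ModularForm_isBoundedAtImInfty_heckeU
import Fermat.Prelude.Thm_ModularForm_periodic_heckeU_comp_ofComplex

set_option autoImplicit false

noncomputable section

open UpperHalfPlane ModularForm CongruenceSubgroup Matrix.SpecialLinearGroup
open scoped MatrixGroups ModularForm Manifold

namespace Fermat.Agent.S16.helper7249

open Fermat.Agent.S16.helper1566 (Up coeff_Up)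

/-! ### Nice functions: 1-periodic, holomorphic, bounded at infinity -/

/-- A function on the upper half plane that is `1`-periodic, holomorphic and bounded at `i∞`. -/
structure Nice (f : ℍ → ℂ) : Prop where
  per : Function.Periodic (f ∘ UpperHalfPlane.ofComplex) 1
  hol : MDiff f
  bdd : IsBoundedAtImInfty f

lemma Nice.analytic {f : ℍ → ℂ} (hf : Nice f) : AnalyticAt ℂ (cuspFunction 1 f) 0 :=
  UpperHalfPlane.analyticAt_cuspFunction_zero one_pos hf.per hf.hol hf.bdd

lemma nice_of_modularForm {Γ : Subgroup (GL (Fin 2) ℝ)} {k : ℤ} [Γ.IsArithmetic]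
    (hΓ : (1 : ℝ) ∈ Γ.strictPeriods) (F : ModularForm Γ k) : Nice ⇑F :=
  ⟨SlashInvariantFormClass.periodic_comp_ofComplex F hΓ, ModularFormClass.holo F,
    ModularFormClass.bdd_at_infty F⟩

lemma one_mem_strictPeriods_Gamma0 (p : ℕ) :
    (1 : ℝ) ∈ (Gamma0 p : Subgroup (GL (Fin 2) ℝ)).strictPeriods := by
  rw [CongruenceSubgroup.strictPeriods_Gamma0]
  exact AddSubgroup.mem_zmultiples 1

lemma nice_Gamma0 (p : ℕ) [NeZero p] {k : ℤ} (F : ModularForm (Gamma0 p) k) : Nice ⇑F :=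
  nice_of_modularForm (one_mem_strictPeriods_Gamma0 p) F

lemma Nice.heckeU {f : ℍ → ℂ} (hf : Nice f) (k : ℤ) (p : ℕ) : Nice (heckeU k p f) :=
  ⟨periodic_heckeU_comp_ofComplex hf.per k p, mdifferentiable_heckeU hf.hol k p,
    isBoundedAtImInfty_heckeU hf.bdd k p⟩

lemma Nice.mul {f g : ℍ → ℂ} (hf : Nice f) (hg : Nice g) : Nice (f * g) :=
  ⟨fun z => by
      have h1 := hf.per z
      have h2 := hg.per z
      simp only [Function.comp_apply, Pi.mul_apply] at h1 h2 ⊢
      rw [h1, h2],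
    hf.hol.mul hg.hol, hf.bdd.mul hg.bdd⟩

lemma Nice.smul {f : ℍ → ℂ} (hf : Nice f) (a : ℂ) : Nice (a • f) :=
  ⟨fun z => by
      have h1 := hf.per z
      simp only [Function.comp_apply, Pi.smul_apply] at h1 ⊢
      rw [h1],
    hf.hol.const_smul a, hf.bdd.const_smul_left a⟩

lemma Nice.neg {f : ℍ → ℂ} (hf : Nice f) : Nice (-f) := by
  simpa using hf.smul (-1)

lemma Nice.add {f g : ℍ → ℂ} (hf : Nice f) (hg : Nice g) : Nice (f + g) :=
  ⟨fun z => by
      have h1 := hf.per z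
      have h2 := hg.per z
      simp only [Function.comp_apply, Pi.add_apply] at h1 h2 ⊢
      rw [h1, h2],
    hf.hol.add hg.hol, hf.bdd.add hg.bdd⟩

/-- The `q`-expansion of `U_p f` is `a_n ↦ a_{pn}`. -/
theorem qExpansion_heckeU {f : ℍ → ℂ} (hf : Nice f) (k : ℤ) {p : ℕ} (hp : p ≠ 0) :
    qExpansion 1 (heckeU k p f) = Up p (qExpansion 1 f) := by
  ext n
  have h := UpperHalfPlane.qCoeff_heckeU hf.per hf.hol hf.bdd k hp n
  rw [coeff_Up, mul_comm]
  exact h

lemma qExpansion_mul' {f g : ℍ → ℂ} (hf : Nice f) (hg : Nice g) :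
    qExpansion 1 (f * g) = qExpansion 1 f * qExpansion 1 g :=
  UpperHalfPlane.qExpansion_mul hf.analytic hg.analytic

lemma qExpansion_add' {f g : ℍ → ℂ} (hf : Nice f) (hg : Nice g) :
    qExpansion 1 (f + g) = qExpansion 1 f + qExpansion 1 g :=
  UpperHalfPlane.qExpansion_add hf.analytic hg.analytic

lemma qExpansion_smul' {f : ℍ → ℂ} (hf : Nice f) (a : ℂ) :
    qExpansion 1 (a • f) = a • qExpansion 1 f :=
  UpperHalfPlane.qExpansion_smul hf.analytic a

lemma qExpansion_neg' {f : ℍ → ℂ} (hf : Nice f) :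
    qExpansion 1 (-f) = -qExpansion 1 f :=
  UpperHalfPlane.qExpansion_neg hf.analytic

/-! ### `U_p` is an involution in weight two; the trace of a product -/

lemma heckeU_neg (k : ℤ) (p : ℕ) (f : ℍ → ℂ) : heckeU k p (-f) = -heckeU k p f := by
  have h := heckeU_smul k p (-1) f
  simpa using h

/-- `heckeU k p f` does not depend on the weight `k`. -/
lemma heckeU_weight (k k' : ℤ) (p : ℕ) (f : ℍ → ℂ) : heckeU k p f = heckeU k' p f := by
  rcases eq_or_ne p 0 with rfl | hp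
  · simp
  · ext τ
    rw [heckeU_apply k hp, heckeU_apply k' hp]

variable (p : ℕ) [NeZero p]

lemma slash_wMat_mul (k1 k2 : ℤ) (f g : ℍ → ℂ) :
    (f * g) ∣[k1 + k2] wMat p = (p : ℂ) • (f ∣[k1] wMat p * g ∣[k2] wMat p) := by
  rw [ModularForm.mul_slash, det_wMat, abs_of_pos (by exact_mod_cast Nat.pos_of_ne_zero (NeZero.ne p))]
  ext τ
  simp

variable [Fact p.Prime]

/-- In weight two, `U_p (U_p G) = G` on `M_2(Γ₀(p))`. -/
theorem heckeU_heckeU_two (G : ModularForm (Gamma0 p) 2) :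
    heckeU 2 p (heckeU 2 p ⇑G) = ⇑G := by
  have h1 := heckeU_wp_two p G
  rw [coe_wp_two, heckeU_neg] at h1
  exact neg_injective h1

/-- `helper1566.UpInvol p`: `a_{p² n}(G) = a_n(G)` for `G ∈ M_2(Γ₀(p))`. -/
theorem upInvol : helper1566.UpInvol p := by
  intro G
  have hG := nice_Gamma0 p G
  rw [← qExpansion_heckeU hG 2 (NeZero.ne p), ← qExpansion_heckeU (hG.heckeU 2 p) 2 (NeZero.ne p),
    heckeU_heckeU_two]

/-- The trace to level one of a product of two weight 2 forms on `Γ₀(p)`: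
`Tr(G H) = G H + p⁻¹ U_p (U_p G * U_p H)`. -/
theorem coe_trace_mul (G H : ModularForm (Gamma0 p) 2) :
    ⇑(ModularForm.trace 𝒮ℒ (ModularForm.mcast (show (2 : ℤ) + 2 = 4 by norm_num) (G.mul H))) =
      ⇑G * ⇑H + (p : ℂ)⁻¹ • heckeU 4 p (heckeU 2 p ⇑G * heckeU 2 p ⇑H) := by
  have hp : (p : ℂ) ≠ 0 := by exact_mod_cast NeZero.ne p
  set X : ModularForm (Gamma0 p) 4 :=
    ModularForm.mcast (show (2 : ℤ) + 2 = 4 by norm_num) (G.mul H) with hX
  have hcoe : ⇑X = ⇑G * ⇑H := rfl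
  have hwp : ⇑(wp p X) = (p : ℂ) • (heckeU 2 p ⇑G * heckeU 2 p ⇑H) := by
    rw [coe_wp, hcoe]
    have h4 : (⇑G * ⇑H) ∣[(4 : ℤ)] wMat p = (⇑G * ⇑H) ∣[(2 : ℤ) + 2] wMat p := rfl
    rw [h4, slash_wMat_mul, ← coe_wp, ← coe_wp, coe_wp_two, coe_wp_two, neg_mul_neg]
  rw [coe_trace_eq p X, hwp, heckeU_smul, smul_smul, hcoe]
  congr 2
  rw [show (2 : ℤ) - 4 = -2 by norm_num, zpow_neg, zpow_ofNat]
  field_simp

/-- `helper1566.TraceFour p`. -/
theorem traceFour : helper1566.TraceFour p := by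
  intro G H
  refine ⟨ModularForm.trace 𝒮ℒ (ModularForm.mcast (show (2 : ℤ) + 2 = 4 by norm_num) (G.mul H)),
    ?_⟩
  have hG := nice_Gamma0 p G
  have hH := nice_Gamma0 p H
  have hp : p ≠ 0 := NeZero.ne p
  have hUU : Nice (heckeU 2 p ⇑G * heckeU 2 p ⇑H) := (hG.heckeU 2 p).mul (hH.heckeU 2 p)
  rw [coe_trace_mul, qExpansion_add' (hG.mul hH) ((hUU.heckeU 4 p).smul _), qExpansion_mul' hG hH,
    qExpansion_smul' (hUU.heckeU 4 p), qExpansion_heckeU hUU 4 hp,
    qExpansion_mul' (hG.heckeU 2 p) (hH.heckeU 2 p), qExpansion_heckeU hG 2 hp,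
    qExpansion_heckeU hH 2 hp]


/-- `helper1566.UpInvol p` with only `[Fact p.Prime]`. -/
theorem upInvol_of_prime (p : ℕ) [Fact p.Prime] : helper1566.UpInvol p :=
  haveI : NeZero p := ⟨(Fact.out : p.Prime).ne_zero⟩
  upInvol p

/-- `helper1566.TraceFour p` with only `[Fact p.Prime]`. -/
theorem traceFour_of_prime (p : ℕ) [Fact p.Prime] : helper1566.TraceFour p :=
  haveI : NeZero p := ⟨(Fact.out : p.Prime).ne_zero⟩
  traceFour p

/-- The one-trace bound A1 with its two modular hypotheses discharged: only the Eisenstein series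
is still an input. -/
theorem onetrace_of_eis (p : ℕ) [Fact p.Prime] (hp5 : 5 ≤ p) (hEIS : helper1566.EisExists p)
    (G : ModularForm (Gamma0 p) 2)
    (hG : ∀ n, 1 ≤ n → ∃ z : ℤ, (qExpansion 1 G).coeff n = z) :
    ∃ z : ℤ, ((p : ℂ) + 1) * (qExpansion 1 G).coeff 0 = z :=
  helper1566.onetrace p hp5 (traceFour_of_prime p) (upInvol_of_prime p) hEIS G hG

end Fermat.Agent.S16.helper7249
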