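import Fermat.Agent.S16.helper9562_Duality
import Fermat.Agent.S16.helper312_Spec

/-!
# S16: the DUALITY leaf of the Spec

`stmt_Dual p : helper312.Stmt_Dual p` — the duality leaf of `helper312_Spec`, proved
unconditionally from `helper9562.duality`.
-/

set_option autoImplicit false

namespace Fermat.Agent.S16.helper9562

/-- The DUALITY leaf of the S16 Spec (`helper312.Stmt_Dual`), unconditionally. -/
theorem stmt_Dual (p : ℕ) [Fact p.Prime] : Fermat.Agent.S16.helper312.Stmt_Dual p := by
  intro M hM
  obtain ⟨g, -, hg⟩ := duality p M hM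
  exact ⟨g, hg⟩

end Fermat.Agent.S16.helper9562
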