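/-
S16 WIRING (helper312): the Spec leaves `Stmt_HC`, `Stmt_Eis`, `Stmt_Dual`, `Stmt_A1` discharged
from the landed leaf files, and the frozen statement for `5 ≤ p` from the two remaining leaves
(`Stmt_LB`, `Stmt_T8`).
-/
import Fermat.Agent.S16.helper312_Spec
import Fermat.Agent.S16.helper4369_HeckeCommutator
import Fermat.Agent.S16.helper8794_EisensteinP
import Fermat.Agent.S16.helper9562_DualSpec
import Fermat.Agent.S16.helper7249_TraceFour

set_option autoImplicit false

open ModularCurve CuspForm ModularFormClass UpperHalfPlane CongruenceSubgroup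

namespace Fermat.Agent.S16.helper312

/-- `Stmt_HC` from helper4369's Hecke-commutator bound. -/
theorem stmt_HC (p : ℕ) [Fact p.Prime] : Stmt_HC p := by
  intro G c M h0 hk
  refine helper4369.dvd_of_congruent_const p G c M h0 ?_
  intro k hk1
  obtain ⟨z, hz⟩ := hk k hk1
  exact ⟨z, by rw [hz]; push_cast; ring⟩

/-- `Stmt_Eis` from helper8794's Eisenstein series `eisP`. -/
theorem stmt_Eis (p : ℕ) [Fact p.Prime] : Stmt_Eis p := by
  have : NeZero p := ⟨(Fact.out : p.Prime).ne_zero⟩
  refine ⟨helper8794.eisP p, helper8794.qCoeff_eisP_zero p, ?_⟩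
  intro k hk
  rw [helper8794.qCoeff_eisP_of_ne_zero p (by omega : k ≠ 0)]
  rfl

/-- `Stmt_Dual` (helper9562; also helper5941). -/
theorem stmt_Dual (p : ℕ) [Fact p.Prime] : Stmt_Dual p := helper9562.stmt_Dual p

/-- `Stmt_A1` from helper1566's one-trace bound, helper7249's trace formula and helper8794's
Eisenstein series. -/
theorem stmt_A1 (p : ℕ) [Fact p.Prime] (h5 : 5 ≤ p) : Stmt_A1 p := by
  have : NeZero p := ⟨(Fact.out : p.Prime).ne_zero⟩
  intro G hG
  exact helper7249.onetrace_of_eis p h5 (helper8794.eisExists p) G hG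

/-- **S16 for `5 ≤ p` from the two remaining leaves.** -/
theorem result_of_two (p : ℕ) [Fact p.Prime] (h5 : 5 ≤ p)
    (hLB : Stmt_LB p) (hT8 : Stmt_T8 p) :
    Nat.card (↥(heckeLatticeAlgebra p ∅) ⧸
        Ideal.map ((latticeRestrictHom p ∅).toRingHom.comp (heckeEvalForms p 2))
          (eisensteinIdeal p)) =
      eisensteinNumerator p :=
  result_of_leaves p h5 hLB (stmt_Dual p) (stmt_Eis p) (stmt_HC p) (stmt_A1 p h5) hT8

end Fermat.Agent.S16.helper312
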