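/-
helper144 — S16 shared leaf S16-CONJ, part 1 (cosets).  Mathlib only.

The `p + 1` conjugates of a form of level `Γ₀(p)` (`p` prime) under `SL(2, ℤ)`:

* `cosetEquiv p : Option (Fin p) ≃ 𝒮ℒ ⧸ (Γ₀(p)).subgroupOf 𝒮ℒ` with
  `quotientFunc F (cosetEquiv p none) = F`, `quotientFunc F (cosetEquiv p (some j)) = F ∣[k] (S * T ^ j)`;
  hence formulas for Mathlib's `ModularForm.trace 𝒮ℒ F` and `ModularForm.norm 𝒮ℒ F`
  (`coe_trace_eq`, `coe_norm_eq`), and `card_coset : Nat.card (𝒮ℒ ⧸ Γ₀(p)) = p + 1`.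
-/
import Mathlib

set_option autoImplicit false

open UpperHalfPlane ModularForm SlashInvariantForm CongruenceSubgroup Matrix.SpecialLinearGroup
open scoped MatrixGroups Manifold ModularForm

namespace Fermat.Agent.S16.helper144

noncomputable section

/-! ### Coset representatives of `Γ₀(p)` in `SL(2, ℤ)` -/

/-- The representatives `1`, `S * T ^ j` (`j < p`) of `Γ₀(p) \ SL(2, ℤ)`. -/
def rep (p : ℕ) : Option (Fin p) → SL(2, ℤ)
  | none => 1
  | some j => ModularGroup.S * ModularGroup.T ^ ((j : ℕ) : ℤ)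

@[simp] lemma rep_none (p : ℕ) : rep p none = 1 := rfl

@[simp] lemma rep_some (p : ℕ) (j : Fin p) :
    rep p (some j) = ModularGroup.S * ModularGroup.T ^ ((j : ℕ) : ℤ) := rfl

/-- An element of `SL(2, ℤ)` as an element of the subgroup `𝒮ℒ` of `GL(2, ℝ)`. -/
def toSL (γ : SL(2, ℤ)) : ↥𝒮ℒ := ⟨mapGL ℝ γ, γ, rfl⟩

@[simp] lemma coe_toSL (γ : SL(2, ℤ)) : ((toSL γ : ↥𝒮ℒ) : GL (Fin 2) ℝ) = mapGL ℝ γ := rfl

lemma toSL_surjective : Function.Surjective toSL := by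
  rintro ⟨_, γ, rfl⟩
  exact ⟨γ, rfl⟩

lemma toSL_mul (a b : SL(2, ℤ)) : toSL (a * b) = toSL a * toSL b :=
  Subtype.ext (map_mul _ a b)

lemma toSL_inv (a : SL(2, ℤ)) : toSL a⁻¹ = (toSL a)⁻¹ :=
  Subtype.ext (map_inv _ a)

lemma mapGL_mem_Gamma0_iff (p : ℕ) (γ : SL(2, ℤ)) :
    mapGL ℝ γ ∈ (Gamma0 p : Subgroup (GL (Fin 2) ℝ)) ↔ γ ∈ Gamma0 p :=
  Subgroup.mem_map_iff_mem mapGL_injective

lemma mk_toSL_eq_iff (p : ℕ) (a b : SL(2, ℤ)) :
    (QuotientGroup.mk (toSL a) : ↥𝒮ℒ ⧸ (Gamma0 p : Subgroup (GL (Fin 2) ℝ)).subgroupOf 𝒮ℒ) =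
      QuotientGroup.mk (toSL b) ↔ a⁻¹ * b ∈ Gamma0 p := by
  rw [QuotientGroup.eq, Subgroup.mem_subgroupOf, ← toSL_inv, ← toSL_mul, coe_toSL,
    mapGL_mem_Gamma0_iff]

/-- Entries of `S * T ^ n * γ`. -/
lemma S_mul_T_zpow_mul_apply_one_zero (n : ℤ) (γ : SL(2, ℤ)) :
    (ModularGroup.S * ModularGroup.T ^ n * γ).1 1 0 = γ.1 0 0 + n * γ.1 1 0 := by
  rw [Matrix.SpecialLinearGroup.coe_mul, Matrix.SpecialLinearGroup.coe_mul,
    ModularGroup.coe_T_zpow, ModularGroup.coe_S]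
  simp [Matrix.mul_apply, Fin.sum_univ_two]

lemma S_mul_T_zpow_apply_one_zero (n : ℤ) :
    (ModularGroup.S * ModularGroup.T ^ n).1 1 0 = 1 := by
  have := S_mul_T_zpow_mul_apply_one_zero n 1
  simpa using this

lemma rep_mul_rep_inv_apply_one_zero (m n : ℤ) :
    ((ModularGroup.S * ModularGroup.T ^ m) * (ModularGroup.S * ModularGroup.T ^ n)⁻¹).1 1 0
      = n - m := by
  have h1 : (ModularGroup.S * ModularGroup.T ^ m) * (ModularGroup.S * ModularGroup.T ^ n)⁻¹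
      = ModularGroup.S * ModularGroup.T ^ (m - n) * ModularGroup.S⁻¹ := by
    rw [mul_inv_rev, zpow_sub]; group
  rw [h1, S_mul_T_zpow_mul_apply_one_zero]
  rw [Matrix.SpecialLinearGroup.SL2_inv_expl]
  simp [ModularGroup.coe_S]

/-- The coset map `Option (Fin p) → 𝒮ℒ ⧸ Γ₀(p)`, `i ↦ [(rep i)⁻¹]`. -/
def cosetMap (p : ℕ) (i : Option (Fin p)) :
    ↥𝒮ℒ ⧸ (Gamma0 p : Subgroup (GL (Fin 2) ℝ)).subgroupOf 𝒮ℒ :=
  QuotientGroup.mk (toSL (rep p i)⁻¹)

lemma cosetMap_injective (p : ℕ) [Fact p.Prime] : Function.Injective (cosetMap p) := by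
  have hp : p.Prime := Fact.out
  intro i j hij
  rw [cosetMap, cosetMap, mk_toSL_eq_iff, inv_inv] at hij
  rw [Gamma0_mem] at hij
  rcases i with _ | i <;> rcases j with _ | j
  · rfl
  · exfalso
    rw [rep_none, one_mul, rep_some, Matrix.SpecialLinearGroup.SL2_inv_expl] at hij
    have h1 := S_mul_T_zpow_apply_one_zero ((j : ℕ) : ℤ)
    simp only [Matrix.cons_val_one, Matrix.cons_val_zero, Matrix.cons_val',
      Matrix.cons_val_fin_one] at hij
    rw [h1] at hij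
    simp only [Int.cast_neg, Int.cast_one, neg_eq_zero] at hij
    have : Fact (1 < p) := ⟨hp.one_lt⟩
    exact one_ne_zero hij
  · exfalso
    rw [rep_none, inv_one, mul_one, rep_some, S_mul_T_zpow_apply_one_zero] at hij
    have : Fact (1 < p) := ⟨hp.one_lt⟩
    simp only [Int.cast_one] at hij
    exact one_ne_zero hij
  · rw [rep_some, rep_some, rep_mul_rep_inv_apply_one_zero] at hij
    rw [ZMod.intCast_zmod_eq_zero_iff_dvd] at hij
    have hi := i.2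
    have hj := j.2
    congr 1
    apply Fin.ext
    obtain ⟨c, hc⟩ := hij
    have : (j : ℤ) - (i : ℤ) = 0 := by
      by_contra hne
      have hc0 : c ≠ 0 := by rintro rfl; simp at hc; exact hne hc
      have h1 : |(j : ℤ) - (i : ℤ)| < p := by
        rw [abs_lt]; constructor <;> omega
      rw [hc, abs_mul] at h1
      have h2 : (1 : ℤ) ≤ |c| := Int.one_le_abs hc0
      have h3 : (0 : ℤ) ≤ |(p : ℤ)| := abs_nonneg _
      have h4 : |(p : ℤ)| = p := abs_of_nonneg (by positivity)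
      nlinarith
    omega

lemma cosetMap_surjective (p : ℕ) [Fact p.Prime] : Function.Surjective (cosetMap p) := by
  have hp : p.Prime := Fact.out
  intro x
  induction x using QuotientGroup.induction_on with
  | H g =>
    obtain ⟨γ, rfl⟩ := toSL_surjective g
    by_cases hc : ((γ.1 1 0 : ℤ) : ZMod p) = 0
    · refine ⟨none, ?_⟩
      rw [cosetMap, mk_toSL_eq_iff, rep_none, inv_one, inv_one, one_mul, Gamma0_mem]
      exact hc
    · set j : ZMod p := -((γ.1 0 0 : ℤ) : ZMod p) * ((γ.1 1 0 : ℤ) : ZMod p)⁻¹ with hj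
      have : NeZero p := ⟨hp.ne_zero⟩
      refine ⟨some ⟨j.val, ZMod.val_lt j⟩, ?_⟩
      rw [cosetMap, mk_toSL_eq_iff, inv_inv, rep_some, Gamma0_mem,
        S_mul_T_zpow_mul_apply_one_zero]
      push_cast
      rw [ZMod.natCast_zmod_val, hj, neg_mul, neg_mul, inv_mul_cancel_right₀ hc, add_neg_cancel]

/-- The `p + 1` cosets of `Γ₀(p)` in `SL(2, ℤ)`, `p` prime. -/
def cosetEquiv (p : ℕ) [Fact p.Prime] :
    Option (Fin p) ≃ ↥𝒮ℒ ⧸ (Gamma0 p : Subgroup (GL (Fin 2) ℝ)).subgroupOf 𝒮ℒ :=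
  Equiv.ofBijective (cosetMap p) ⟨cosetMap_injective p, cosetMap_surjective p⟩

lemma cosetEquiv_apply (p : ℕ) [Fact p.Prime] (i : Option (Fin p)) :
    cosetEquiv p i = cosetMap p i := rfl

lemma card_coset (p : ℕ) [Fact p.Prime] :
    Nat.card (↥𝒮ℒ ⧸ (Gamma0 p : Subgroup (GL (Fin 2) ℝ)).subgroupOf 𝒮ℒ) = p + 1 := by
  rw [← Nat.card_congr (cosetEquiv p), Nat.card_eq_fintype_card, Fintype.card_option,
    Fintype.card_fin]

/-! ### Translates, trace and norm in terms of the representatives -/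

section Translates

variable {F : Type*} [FunLike F ℍ ℂ] {k : ℤ}

lemma quotientFunc_cosetMap (p : ℕ) (f : F)
    [SlashInvariantFormClass F (Gamma0 p : Subgroup (GL (Fin 2) ℝ)) k] (i : Option (Fin p)) :
    quotientFunc f (cosetMap p i) = ⇑f ∣[k] (rep p i) := by
  show quotientFunc f ⟦toSL (rep p i)⁻¹⟧ = _
  rw [quotientFunc_mk, coe_toSL, map_inv, inv_inv]
  rfl

lemma quotientFunc_cosetEquiv_none (p : ℕ) [Fact p.Prime] (f : F)
    [SlashInvariantFormClass F (Gamma0 p : Subgroup (GL (Fin 2) ℝ)) k] :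
    quotientFunc f (cosetEquiv p none) = ⇑f := by
  rw [cosetEquiv_apply, quotientFunc_cosetMap, rep_none]
  exact SlashAction.slash_one k _

lemma quotientFunc_cosetEquiv_some (p : ℕ) [Fact p.Prime] (f : F)
    [SlashInvariantFormClass F (Gamma0 p : Subgroup (GL (Fin 2) ℝ)) k] (j : Fin p) :
    quotientFunc f (cosetEquiv p (some j)) =
      ⇑f ∣[k] (ModularGroup.S * ModularGroup.T ^ ((j : ℕ) : ℤ)) := by
  rw [cosetEquiv_apply, quotientFunc_cosetMap, rep_some]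

/-- The trace to level one of a form of level `Γ₀(p)`. -/
theorem coe_trace_eq (p : ℕ) [Fact p.Prime] (f : F)
    [ModularFormClass F (Gamma0 p : Subgroup (GL (Fin 2) ℝ)) k] :
    ⇑(ModularForm.trace 𝒮ℒ f) =
      ⇑f + ∑ j : Fin p, ⇑f ∣[k] (ModularGroup.S * ModularGroup.T ^ ((j : ℕ) : ℤ)) := by
  rw [ModularForm.coe_trace]
  let _ := Fintype.ofFinite (↥𝒮ℒ ⧸ (Gamma0 p : Subgroup (GL (Fin 2) ℝ)).subgroupOf 𝒮ℒ)
  rw [← Equiv.sum_comp (cosetEquiv p), Fintype.sum_option, quotientFunc_cosetEquiv_none]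
  congr 1
  exact Finset.sum_congr rfl fun j _ => quotientFunc_cosetEquiv_some p f j

/-- The norm to level one of a form of level `Γ₀(p)`. -/
theorem coe_norm_eq (p : ℕ) [Fact p.Prime] (f : F)
    [ModularFormClass F (Gamma0 p : Subgroup (GL (Fin 2) ℝ)) k] :
    ⇑(ModularForm.norm 𝒮ℒ f) =
      ⇑f * ∏ j : Fin p, ⇑f ∣[k] (ModularGroup.S * ModularGroup.T ^ ((j : ℕ) : ℤ)) := by
  rw [ModularForm.coe_norm]
  let _ := Fintype.ofFinite (↥𝒮ℒ ⧸ (Gamma0 p : Subgroup (GL (Fin 2) ℝ)).subgroupOf 𝒮ℒ)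
  rw [← Equiv.prod_comp (cosetEquiv p), Fintype.prod_option, quotientFunc_cosetEquiv_none]
  congr 1
  exact Finset.prod_congr rfl fun j _ => quotientFunc_cosetEquiv_some p f j

end Translates

end

end Fermat.Agent.S16.helper144
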