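/-
helper144 — S16 shared leaf S16-CONJ, part 2 (`W_p = -U_p`).  Mathlib only.

For a modular form `f` of weight `2` and level `Γ₀(p)` (`p` prime) the conjugates
`f ∣[2] (S * T ^ j)` have `q^(1/p)`-expansions

  `(qExpansion p (f ∣[2] (S * T ^ j))).coeff n = -(1/p) * ζ ^ (j n) * (qExpansion 1 f).coeff (p n)`.
-/
import Mathlib
import Fermat.Agent.S16.helper144_Cosets

set_option autoImplicit false

open ModularForm SlashInvariantForm CongruenceSubgroup Matrix.SpecialLinearGroup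
open Function Complex Filter
open UpperHalfPlane hiding I
open scoped MatrixGroups Manifold ModularForm Real Topology

namespace Fermat.Agent.S16.helper144

noncomputable section

local notation "𝕢" => Periodic.qParam

/-! ### Nice functions: periodic, holomorphic, bounded at infinity -/

/-- A function on `ℍ` that is `h`-periodic, holomorphic and bounded at `i∞`. -/
structure IsNice (h : ℝ) (f : ℍ → ℂ) : Prop where
  per : Periodic (f ∘ ofComplex) h
  hol : MDiff f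
  bdd : IsBoundedAtImInfty f

/-- A wrapper making a plain function `FunLike` (only used to call Mathlib lemmas stated for
`FunLike` types). -/
structure FunWrap where
  /-- the underlying function -/
  toFun : ℍ → ℂ

instance : FunLike FunWrap ℍ ℂ := ⟨FunWrap.toFun, fun a b h => by cases a; cases b; congr⟩

namespace IsNice

variable {h : ℝ} {f : ℍ → ℂ}

lemma analyticAt (hf : IsNice h f) (hh : 0 < h) : AnalyticAt ℂ (cuspFunction h f) 0 :=
  analyticAt_cuspFunction_zero hh hf.per hf.hol hf.bdd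

lemma hasSum (hf : IsNice h f) (hh : 0 < h) (τ : ℍ) :
    HasSum (fun m : ℕ => (qExpansion h f).coeff m • 𝕢 h τ ^ m) (f τ) :=
  hasSum_qExpansion hh hf.per hf.hol hf.bdd τ

lemma coeff_unique (hf : IsNice h f) (hh : 0 < h) {c : ℕ → ℂ}
    (hc : ∀ τ : ℍ, HasSum (fun m : ℕ => c m • 𝕢 h τ ^ m) (f τ)) (m : ℕ) :
    (qExpansion h f).coeff m = c m :=
  (qExpansion_coeff_unique (FunWrap.mk f) hh (hf.analyticAt hh) hc m).symm

end IsNice

/-! ### Translates of forms of level `Γ₀(p)` -/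

lemma sl_mul_apply (g h : SL(2, ℤ)) (i j : Fin 2) :
    (g * h).1 i j = g.1 i 0 * h.1 0 j + g.1 i 1 * h.1 1 j := by
  rw [Matrix.SpecialLinearGroup.coe_mul, Matrix.mul_apply, Fin.sum_univ_two]

lemma sl_inv_apply_zero_zero (g : SL(2, ℤ)) : (g⁻¹).1 0 0 = g.1 1 1 := by
  rw [Matrix.SpecialLinearGroup.SL2_inv_expl g]; rfl

lemma sl_inv_apply_one_zero (g : SL(2, ℤ)) : (g⁻¹).1 1 0 = - g.1 1 0 := by
  rw [Matrix.SpecialLinearGroup.SL2_inv_expl g]; rfl

lemma conj_T_zpow_apply_one_zero (n : ℤ) (γ : SL(2, ℤ)) :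
    (γ * ModularGroup.T ^ n * γ⁻¹).1 1 0 = -n * (γ.1 1 0) ^ 2 := by
  rw [sl_mul_apply, sl_mul_apply, sl_mul_apply, sl_inv_apply_zero_zero, sl_inv_apply_one_zero,
    ModularGroup.coe_T_zpow]
  simp
  ring

lemma conj_T_pow_mem_Gamma0 (p : ℕ) (γ : SL(2, ℤ)) :
    γ * ModularGroup.T ^ (p : ℤ) * γ⁻¹ ∈ Gamma0 p := by
  rw [Gamma0_mem, conj_T_zpow_apply_one_zero]
  simp

lemma upperRightHom_intCast (n : ℤ) :
    Matrix.GeneralLinearGroup.upperRightHom (n : ℝ) = mapGL ℝ (ModularGroup.T ^ n) := by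
  rw [Units.ext_iff, mapGL_coe_matrix, map_apply_coe, ModularGroup.coe_T_zpow]
  ext i j
  fin_cases i <;> fin_cases j <;> simp [Matrix.GeneralLinearGroup.upperRightHom]

open ConjAct Pointwise in
lemma natCast_mem_strictPeriods_conj (p : ℕ) (γ : SL(2, ℤ)) :
    (p : ℝ) ∈ (toConjAct (mapGL ℝ γ)⁻¹ •
      (Gamma0 p : Subgroup (GL (Fin 2) ℝ))).strictPeriods := by
  rw [Subgroup.mem_strictPeriods_iff, map_inv, Subgroup.mem_inv_pointwise_smul_iff,
    toConjAct_smul]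
  have h : Matrix.GeneralLinearGroup.upperRightHom (p : ℝ) =
      mapGL ℝ (ModularGroup.T ^ (p : ℤ)) := by
    rw [← upperRightHom_intCast, Int.cast_natCast]
  rw [h, ← map_inv, ← map_mul, ← map_mul, mapGL_mem_Gamma0_iff]
  exact conj_T_pow_mem_Gamma0 p γ

variable {F : Type*} [FunLike F ℍ ℂ] {k : ℤ}

/-- Every `SL(2, ℤ)`-translate of a form of level `Γ₀(p)` is `p`-periodic, holomorphic and bounded
at `i∞`. -/
theorem isNice_slash (p : ℕ) [NeZero p] (f : F)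
    [ModularFormClass F (Gamma0 p : Subgroup (GL (Fin 2) ℝ)) k] (γ : SL(2, ℤ)) :
    IsNice (p : ℝ) (⇑f ∣[k] γ) where
  per := SlashInvariantFormClass.periodic_comp_ofComplex
    (ModularForm.translate f (mapGL ℝ γ)) (natCast_mem_strictPeriods_conj p γ)
  hol := (ModularFormClass.holo f).slash k _
  bdd := ModularFormClass.bdd_at_infty_slash f γ

lemma T_mem_Gamma0 (p : ℕ) : ModularGroup.T ∈ Gamma0 p := by
  rw [Gamma0_mem]
  simp [ModularGroup.T]

lemma one_mem_strictPeriods_Gamma0 (p : ℕ) :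
    (1 : ℝ) ∈ (Gamma0 p : Subgroup (GL (Fin 2) ℝ)).strictPeriods := by
  rw [Subgroup.strictPeriods_eq_zmultiples_one_of_T_mem (T_mem_Gamma0 p)]
  exact AddSubgroup.mem_zmultiples 1

/-- A form of level `Γ₀(p)` is `1`-periodic, holomorphic and bounded at `i∞`. -/
theorem isNice_one (p : ℕ) [NeZero p] (f : F)
    [ModularFormClass F (Gamma0 p : Subgroup (GL (Fin 2) ℝ)) k] : IsNice 1 ⇑f where
  per := SlashInvariantFormClass.periodic_comp_ofComplex f (one_mem_strictPeriods_Gamma0 p)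
  hol := ModularFormClass.holo f
  bdd := ModularFormClass.bdd_at_infty f

/-! ### Expansions in `q^(1/p)` -/

lemma natCast_pos_real (p : ℕ) [NeZero p] : (0 : ℝ) < (p : ℝ) :=
  Nat.cast_pos.mpr (NeZero.pos p)

lemma qParam_pow_natCast (p : ℕ) [NeZero p] (z : ℂ) : 𝕢 (p : ℝ) z ^ p = 𝕢 (1 : ℝ) z := by
  simp only [Periodic.qParam]
  rw [← Complex.exp_nat_mul]
  congr 1
  have hp : (p : ℂ) ≠ 0 := Nat.cast_ne_zero.mpr (NeZero.ne p)
  push_cast
  field_simp

lemma IsNice.natCast {f : ℍ → ℂ} (hf : IsNice 1 f) (p : ℕ) : IsNice (p : ℝ) f :=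
  ⟨by simpa using hf.per.nat_mul p, hf.hol, hf.bdd⟩

/-- The expansion in `q^(1/p)` of a `1`-periodic function. -/
lemma hasSum_scale (p : ℕ) [NeZero p] {f : ℍ → ℂ} (hf : IsNice 1 f) (τ : ℍ) :
    HasSum (fun n : ℕ => (if p ∣ n then (qExpansion 1 f).coeff (n / p) else 0) •
      𝕢 (p : ℝ) τ ^ n) (f τ) := by
  have h1 := hf.hasSum one_pos τ
  rw [← qParam_pow_natCast p] at h1
  have hp : 0 < p := NeZero.pos p
  have hinj : Function.Injective (fun m : ℕ => p * m) :=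
    fun a b h => Nat.eq_of_mul_eq_mul_left hp h
  refine (hinj.hasSum_iff ?_).mp ?_
  · intro n hn
    have : ¬ p ∣ n := fun ⟨m, hm⟩ => hn ⟨m, hm.symm⟩
    simp [this]
  · convert h1 using 2 with m
    simp [Function.comp, pow_mul, Nat.mul_div_cancel_left _ hp]

/-- `qExpansion p f` is `qExpansion 1 f` with `q` replaced by `t ^ p`. -/
theorem qExpansion_scale_coeff (p : ℕ) [NeZero p] {f : ℍ → ℂ} (hf : IsNice 1 f) (n : ℕ) :
    (qExpansion (p : ℝ) f).coeff n =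
      if p ∣ n then (qExpansion 1 f).coeff (n / p) else 0 :=
  (hf.natCast p).coeff_unique (natCast_pos_real p) (hasSum_scale p hf) n

theorem qExpansion_scale_coeff_mul (p : ℕ) [NeZero p] {f : ℍ → ℂ} (hf : IsNice 1 f) (m : ℕ) :
    (qExpansion (p : ℝ) f).coeff (p * m) = (qExpansion 1 f).coeff m := by
  rw [qExpansion_scale_coeff p hf, if_pos (dvd_mul_right p m),
    Nat.mul_div_cancel_left _ (NeZero.pos p)]

lemma slash_T_zpow_apply (g : ℍ → ℂ) (k n : ℤ) (τ : ℍ) :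
    (g ∣[k] (ModularGroup.T ^ n)) τ = g ((n : ℝ) +ᵥ τ) := by
  rw [SL_slash_apply, modular_T_zpow_smul]
  have h : denom ((ModularGroup.T ^ n : SL(2, ℤ)) : GL (Fin 2) ℝ) τ = 1 := by
    rw [ModularGroup.denom_apply, ModularGroup.coe_T_zpow]
    simp
  rw [h, one_zpow, mul_one]

lemma qParam_vadd (h : ℝ) (x : ℝ) (τ : ℍ) :
    𝕢 h ((x +ᵥ τ : ℍ) : ℂ) = 𝕢 h τ * Complex.exp (2 * π * I * x / h) := by
  rw [UpperHalfPlane.coe_vadd]
  simp only [Periodic.qParam]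
  rw [← Complex.exp_add]
  congr 1
  ring

/-- The expansion of a translate by `T ^ j` of a `p`-periodic function. -/
theorem hasSum_slash_T_zpow (p : ℕ) [NeZero p] {g : ℍ → ℂ} (hg : IsNice (p : ℝ) g) (k j : ℤ)
    (τ : ℍ) :
    HasSum (fun n : ℕ => ((qExpansion (p : ℝ) g).coeff n *
      Complex.exp (2 * π * I * j / p) ^ n) • 𝕢 (p : ℝ) τ ^ n) ((g ∣[k] (ModularGroup.T ^ j)) τ) := by
  rw [slash_T_zpow_apply]
  have h := hg.hasSum (natCast_pos_real p) ((j : ℝ) +ᵥ τ)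
  rw [qParam_vadd] at h
  convert h using 2 with n
  push_cast
  rw [smul_eq_mul, smul_eq_mul, mul_pow]
  ring

/-- Coefficients of `f ∣[k] (γ * T ^ j)` in terms of those of `f ∣[k] γ`. -/
theorem qExpansion_slash_mul_T_zpow_coeff (p : ℕ) [NeZero p] (f : F)
    [ModularFormClass F (Gamma0 p : Subgroup (GL (Fin 2) ℝ)) k] (γ : SL(2, ℤ)) (j : ℤ) (n : ℕ) :
    (qExpansion (p : ℝ) (⇑f ∣[k] (γ * ModularGroup.T ^ j))).coeff n =
      (qExpansion (p : ℝ) (⇑f ∣[k] γ)).coeff n * Complex.exp (2 * π * I * j / p) ^ n := by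
  refine (isNice_slash p f (γ * ModularGroup.T ^ j)).coeff_unique (natCast_pos_real p)
    (c := fun n => (qExpansion (p : ℝ) (⇑f ∣[k] γ)).coeff n *
      Complex.exp (2 * π * I * j / p) ^ n) (fun τ => ?_) n
  rw [SlashAction.slash_mul]
  exact hasSum_slash_T_zpow p (isNice_slash p f γ) k j τ

/-! ### The trace to level one vanishes in weight 2 -/

theorem trace_eq_zero (p : ℕ) [Fact p.Prime] (f : F)
    [ModularFormClass F (Gamma0 p : Subgroup (GL (Fin 2) ℝ)) 2] :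
    ⇑f + ∑ j : Fin p, ⇑f ∣[(2 : ℤ)] (ModularGroup.S * ModularGroup.T ^ ((j : ℕ) : ℤ)) = 0 := by
  rw [← coe_trace_eq]
  have h : ModularForm.trace 𝒮ℒ f = 0 :=
    rank_zero_iff_forall_zero.mp levelOne_weight_two_rank_zero _
  rw [h]
  rfl

lemma exp_pow_mul_eq_one (p : ℕ) [NeZero p] (j : ℤ) (m : ℕ) :
    Complex.exp (2 * π * I * j / p) ^ (p * m) = 1 := by
  rw [← Complex.exp_nat_mul]
  have hp : (p : ℂ) ≠ 0 := Nat.cast_ne_zero.mpr (NeZero.ne p)
  have h : ((p * m : ℕ) : ℂ) * (2 * π * I * j / p) = ((j * m : ℤ) : ℂ) * (2 * π * I) := by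
    push_cast
    field_simp
  rw [h, Complex.exp_int_mul_two_pi_mul_I]

/-- **Key relation** (from the vanishing of the trace): `a_m(f) = -p * b_{p m}(f ∣ S)`. -/
theorem coeff_eq_neg_mul_coeff_slash_S (p : ℕ) [Fact p.Prime] (f : F)
    [ModularFormClass F (Gamma0 p : Subgroup (GL (Fin 2) ℝ)) 2] (m : ℕ) :
    (qExpansion 1 f).coeff m =
      -(p : ℂ) * (qExpansion (p : ℝ) (⇑f ∣[(2 : ℤ)] ModularGroup.S)).coeff (p * m) := by
  have hnice1 : IsNice 1 ⇑f := isNice_one p f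
  have hniceS : IsNice (p : ℝ) (⇑f ∣[(2 : ℤ)] ModularGroup.S) := isNice_slash p f _
  have key : ∀ τ : ℍ, HasSum (fun n : ℕ =>
      (-(∑ j : Fin p, (qExpansion (p : ℝ) (⇑f ∣[(2 : ℤ)] ModularGroup.S)).coeff n *
        Complex.exp (2 * π * I * (((j : ℕ) : ℤ) : ℂ) / p) ^ n)) • 𝕢 (p : ℝ) τ ^ n) (f τ) := by
    intro τ
    have h0 := congrFun (trace_eq_zero p f) τ
    have hsum := hasSum_sum (s := (Finset.univ : Finset (Fin p)))
      (fun j _ => hasSum_slash_T_zpow p hniceS 2 ((j : ℕ) : ℤ) τ)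
    have h1 : f τ = -(∑ j : Fin p,
        ((⇑f ∣[(2 : ℤ)] ModularGroup.S) ∣[(2 : ℤ)] (ModularGroup.T ^ ((j : ℕ) : ℤ))) τ) := by
      simp only [Pi.add_apply, Finset.sum_apply, Pi.zero_apply, SlashAction.slash_mul] at h0
      exact eq_neg_of_add_eq_zero_left h0
    have hfun : (fun n : ℕ =>
        (-(∑ j : Fin p, (qExpansion (p : ℝ) (⇑f ∣[(2 : ℤ)] ModularGroup.S)).coeff n *
          Complex.exp (2 * π * I * (((j : ℕ) : ℤ) : ℂ) / p) ^ n)) • 𝕢 (p : ℝ) τ ^ n) =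
        fun n : ℕ => -(∑ j : Fin p,
          ((qExpansion (p : ℝ) (⇑f ∣[(2 : ℤ)] ModularGroup.S)).coeff n *
            Complex.exp (2 * π * I * (((j : ℕ) : ℤ) : ℂ) / p) ^ n) • 𝕢 (p : ℝ) τ ^ n) := by
      funext n
      rw [_root_.neg_smul, Finset.sum_smul]
    rw [h1, hfun]
    exact hsum.neg
  have h1 := (hnice1.natCast p).coeff_unique (natCast_pos_real p) key (p * m)
  rw [qExpansion_scale_coeff_mul p hnice1] at h1
  rw [h1]
  simp only [exp_pow_mul_eq_one, mul_one, Finset.sum_const, Finset.card_univ, Fintype.card_fin,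
    nsmul_eq_mul]
  ring

/-! ### The Fricke involution -/

/-- The matrix `W_p = [[0, -1], [p, 0]]`. -/
def frickeW (p : ℕ) [NeZero p] : GL (Fin 2) ℝ :=
  Matrix.GeneralLinearGroup.mkOfDetNeZero !![0, -1; (p : ℝ), 0] (by
    rw [Matrix.det_fin_two_of]
    simpa using NeZero.ne p)

lemma frickeW_val (p : ℕ) [NeZero p] : (frickeW p).val = !![0, -1; (p : ℝ), 0] := rfl

lemma frickeW_det (p : ℕ) [NeZero p] : (frickeW p).det.val = (p : ℝ) := by
  rw [Matrix.GeneralLinearGroup.val_det_apply, frickeW_val, Matrix.det_fin_two_of]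
  simp

lemma mapGL_val_apply (γ : SL(2, ℤ)) (i j : Fin 2) :
    (mapGL ℝ γ).val i j = ((γ.1 i j : ℤ) : ℝ) := rfl

/-- `W_p` normalises `Γ₀(p)`. -/
lemma frickeW_mul_mapGL (p : ℕ) [NeZero p] {γ : SL(2, ℤ)} (hγ : γ ∈ Gamma0 p) :
    ∃ γ' ∈ Gamma0 p, frickeW p * mapGL ℝ γ = mapGL ℝ γ' * frickeW p := by
  rw [Gamma0_mem, ZMod.intCast_zmod_eq_zero_iff_dvd] at hγ
  obtain ⟨c', hc'⟩ := hγ
  have hdet : γ.1 0 0 * γ.1 1 1 - γ.1 0 1 * γ.1 1 0 = 1 := by
    have := γ.2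
    rwa [Matrix.det_fin_two] at this
  let γ' : SL(2, ℤ) := ⟨!![γ.1 1 1, -c'; -(p : ℤ) * γ.1 0 1, γ.1 0 0], by
    rw [Matrix.det_fin_two_of]
    rw [hc'] at hdet
    linarith⟩
  have h00 : γ'.1 0 0 = γ.1 1 1 := rfl
  have h01 : γ'.1 0 1 = -c' := rfl
  have h10 : γ'.1 1 0 = -(p : ℤ) * γ.1 0 1 := rfl
  have h11 : γ'.1 1 1 = γ.1 0 0 := rfl
  refine ⟨γ', ?_, ?_⟩
  · rw [Gamma0_mem, h10]
    simp
  · apply Units.ext
    rw [Units.val_mul, Units.val_mul, frickeW_val]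
    ext i j
    fin_cases i <;> fin_cases j <;>
      simp [Matrix.mul_apply, Fin.sum_univ_two, h00, h01, h10, h11, hc', mul_comm]

open ConjAct Pointwise in
lemma Gamma0_le_conj_frickeW (p : ℕ) [NeZero p] :
    (Gamma0 p : Subgroup (GL (Fin 2) ℝ)) ≤
      toConjAct (frickeW p)⁻¹ • (Gamma0 p : Subgroup (GL (Fin 2) ℝ)) := by
  rintro _ ⟨γ, hγ, rfl⟩
  rw [map_inv, Subgroup.mem_inv_pointwise_smul_iff, toConjAct_smul]
  obtain ⟨γ', hγ', h⟩ := frickeW_mul_mapGL p hγ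
  rw [h, mul_inv_cancel_right]
  exact (mapGL_mem_Gamma0_iff p γ').mpr hγ'

/-- The Fricke transform `f ∣[k] W_p` of a modular form of level `Γ₀(p)`, again of level
`Γ₀(p)`. -/
def fricke (p : ℕ) [NeZero p] (f : F)
    [ModularFormClass F (Gamma0 p : Subgroup (GL (Fin 2) ℝ)) k] :
    ModularForm (Gamma0 p : Subgroup (GL (Fin 2) ℝ)) k where
  toFun := ⇑f ∣[k] (frickeW p)
  slash_action_eq' γ hγ :=
    (ModularForm.translate f (frickeW p)).slash_action_eq' γ (Gamma0_le_conj_frickeW p hγ)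
  holo' := (ModularForm.translate f (frickeW p)).holo'
  bdd_at_cusps' hc :=
    (ModularForm.translate f (frickeW p)).bdd_at_cusps' (hc.mono (Gamma0_le_conj_frickeW p))

lemma coe_fricke (p : ℕ) [NeZero p] (f : F)
    [ModularFormClass F (Gamma0 p : Subgroup (GL (Fin 2) ℝ)) k] :
    ⇑(fricke p f) = ⇑f ∣[k] (frickeW p) := rfl

/-- The point `p τ` of the upper half plane. -/
def mulPt (p : ℕ) [NeZero p] (τ : ℍ) : ℍ :=
  ⟨(p : ℂ) * τ, by
    have h : ((p : ℂ) * (τ : ℂ)).im = (p : ℝ) * τ.im := by simp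
    rw [h]
    exact mul_pos (natCast_pos_real p) τ.im_pos⟩

/-- The point `τ / p` of the upper half plane. -/
def divPt (p : ℕ) [NeZero p] (τ : ℍ) : ℍ :=
  ⟨(τ : ℂ) / (p : ℂ), by
    have h : ((τ : ℂ) / (p : ℂ)).im = τ.im / (p : ℝ) := by simp [Complex.div_natCast_im]
    rw [h]
    exact div_pos τ.im_pos (natCast_pos_real p)⟩

@[simp] lemma coe_mulPt (p : ℕ) [NeZero p] (τ : ℍ) : ((mulPt p τ : ℍ) : ℂ) = (p : ℂ) * τ := rfl

@[simp] lemma coe_divPt (p : ℕ) [NeZero p] (τ : ℍ) : ((divPt p τ : ℍ) : ℂ) = (τ : ℂ) / (p : ℂ) := rfl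

lemma frickeW_smul (p : ℕ) [NeZero p] (τ : ℍ) :
    frickeW p • τ = ModularGroup.S • mulPt p τ := by
  apply UpperHalfPlane.ext
  rw [coe_smul_of_det_pos (by rw [frickeW_det]; exact natCast_pos_real p), modular_S_smul]
  simp [num, denom, frickeW_val, neg_div, inv_neg]

lemma denom_frickeW (p : ℕ) [NeZero p] (τ : ℍ) : denom (frickeW p) τ = (p : ℂ) * τ := by
  simp [denom, frickeW_val]

lemma σ_frickeW (p : ℕ) [NeZero p] (z : ℂ) : σ (frickeW p) z = z := by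
  have h : 0 < ((frickeW p : GL (Fin 2) ℝ) : Matrix (Fin 2) (Fin 2) ℝ).det := by
    rw [frickeW_val, Matrix.det_fin_two_of]
    simpa using natCast_pos_real p
  simp [σ, h]

/-- `(f ∣[k] W_p)(τ) = p^(k-1) (f ∣[k] S)(p τ)`. -/
lemma slash_frickeW_apply (p : ℕ) [NeZero p] (f : ℍ → ℂ) (k : ℤ) (τ : ℍ) :
    (f ∣[k] (frickeW p)) τ = (p : ℂ) ^ (k - 1) * (f ∣[k] ModularGroup.S) (mulPt p τ) := by
  rw [ModularForm.slash_apply, SL_slash_apply, σ_frickeW, frickeW_smul, denom_frickeW,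
    ModularGroup.denom_S, coe_mulPt, frickeW_det, abs_of_pos (natCast_pos_real p)]
  push_cast
  ring

lemma qParam_mulPt (p : ℕ) [NeZero p] (τ : ℍ) : 𝕢 (p : ℝ) (mulPt p τ) = 𝕢 (1 : ℝ) τ := by
  simp only [Periodic.qParam, coe_mulPt]
  congr 1
  have hp : (p : ℂ) ≠ 0 := Nat.cast_ne_zero.mpr (NeZero.ne p)
  push_cast
  field_simp

lemma qParam_divPt (p : ℕ) [NeZero p] (τ : ℍ) : 𝕢 (1 : ℝ) (divPt p τ) = 𝕢 (p : ℝ) τ := by
  simp only [Periodic.qParam, coe_divPt]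
  congr 1
  push_cast
  ring

/-- The `q`-expansion of the Fricke transform is `p^(k-1)` times the `q^(1/p)`-expansion of
`f ∣[k] S`. -/
theorem qExpansion_fricke_coeff (p : ℕ) [NeZero p] (f : F)
    [ModularFormClass F (Gamma0 p : Subgroup (GL (Fin 2) ℝ)) k] (n : ℕ) :
    (qExpansion 1 (fricke p f)).coeff n =
      (p : ℂ) ^ (k - 1) * (qExpansion (p : ℝ) (⇑f ∣[k] ModularGroup.S)).coeff n := by
  refine (isNice_one p (fricke p f)).coeff_unique one_pos
    (c := fun n => (p : ℂ) ^ (k - 1) * (qExpansion (p : ℝ) (⇑f ∣[k] ModularGroup.S)).coeff n)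
    (fun τ => ?_) n
  rw [coe_fricke, slash_frickeW_apply]
  have h := ((isNice_slash p f ModularGroup.S).hasSum (natCast_pos_real p) (mulPt p τ)).mul_left
    ((p : ℂ) ^ (k - 1))
  rw [qParam_mulPt] at h
  simpa only [smul_eq_mul, mul_assoc] using h

lemma fricke_slash_S_apply (p : ℕ) [NeZero p] (f : F)
    [ModularFormClass F (Gamma0 p : Subgroup (GL (Fin 2) ℝ)) 2] (τ : ℍ) :
    (⇑(fricke p f) ∣[(2 : ℤ)] ModularGroup.S) τ = (p : ℂ)⁻¹ * f (divPt p τ) := by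
  have hτ : (τ : ℂ) ≠ 0 := ne_zero τ
  have hp : (p : ℂ) ≠ 0 := Nat.cast_ne_zero.mpr (NeZero.ne p)
  have hpt : ModularGroup.S • mulPt p (ModularGroup.S • τ) = divPt p τ := by
    apply UpperHalfPlane.ext
    rw [modular_S_smul, modular_S_smul]
    simp
    field_simp
  rw [SL_slash_apply, coe_fricke, slash_frickeW_apply, SL_slash_apply, ModularGroup.denom_S,
    ModularGroup.denom_S, coe_mulPt, hpt, modular_S_smul]
  simp
  field_simp

theorem qExpansion_fricke_slash_S_coeff (p : ℕ) [NeZero p] (f : F)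
    [ModularFormClass F (Gamma0 p : Subgroup (GL (Fin 2) ℝ)) 2] (n : ℕ) :
    (qExpansion (p : ℝ) (⇑(fricke p f) ∣[(2 : ℤ)] ModularGroup.S)).coeff n =
      (p : ℂ)⁻¹ * (qExpansion 1 f).coeff n := by
  refine (isNice_slash p (fricke p f) ModularGroup.S).coeff_unique (natCast_pos_real p)
    (c := fun n => (p : ℂ)⁻¹ * (qExpansion 1 f).coeff n) (fun τ => ?_) n
  rw [fricke_slash_S_apply]
  have h := ((isNice_one p f).hasSum one_pos (divPt p τ)).mul_left ((p : ℂ)⁻¹)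
  rw [qParam_divPt] at h
  simpa only [smul_eq_mul, mul_assoc] using h

/-! ### Main results -/

/-- **`W_p = -U_p`**: the expansion at `i∞` of `f ∣[2] S`, for `f` of weight `2` and level
`Γ₀(p)`, in the parameter `q^(1/p)`:
`(f ∣[2] S)(τ) = -(1/p) ∑ a_{p n}(f) exp(2 π i n τ / p)`. -/
theorem qExpansion_slash_S_coeff (p : ℕ) [Fact p.Prime] (f : F)
    [ModularFormClass F (Gamma0 p : Subgroup (GL (Fin 2) ℝ)) 2] (n : ℕ) :
    (qExpansion (p : ℝ) (⇑f ∣[(2 : ℤ)] ModularGroup.S)).coeff n =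
      -(p : ℂ)⁻¹ * (qExpansion 1 f).coeff (p * n) := by
  have hp : (p : ℂ) ≠ 0 := Nat.cast_ne_zero.mpr (NeZero.ne p)
  have h1 := coeff_eq_neg_mul_coeff_slash_S p (fricke p f) n
  rw [qExpansion_fricke_coeff, qExpansion_fricke_slash_S_coeff] at h1
  have h2 : (p : ℂ) ^ ((2 : ℤ) - 1) = p := by norm_num
  rw [h2] at h1
  refine mul_left_cancel₀ hp (h1.trans ?_)
  ring

/-- The expansions at `i∞` of all the conjugates `f ∣[2] (S * T ^ j)`. -/
theorem qExpansion_slash_S_mul_T_zpow_coeff (p : ℕ) [Fact p.Prime] (f : F)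
    [ModularFormClass F (Gamma0 p : Subgroup (GL (Fin 2) ℝ)) 2] (j : ℤ) (n : ℕ) :
    (qExpansion (p : ℝ) (⇑f ∣[(2 : ℤ)] (ModularGroup.S * ModularGroup.T ^ j))).coeff n =
      -(p : ℂ)⁻¹ * (qExpansion 1 f).coeff (p * n) * Complex.exp (2 * π * I * j / p) ^ n := by
  rw [qExpansion_slash_mul_T_zpow_coeff, qExpansion_slash_S_coeff]

end

end Fermat.Agent.S16.helper144
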