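/-
helper3076 — S16, upper bound, the 2-adic core (findings #1752).

`Bpoly E4 E6 X = 27 X^4 - 18 E4 X^2 - 8 E6 X - E4^2`.
Writing `E4 = 1 + 240 s`, `E6 = 1 - 504 (s + 24 r)` and `Δ = Dpoly s r`
(so that `1728 Δ = E4^3 - E6^2` is a polynomial identity), one has for EVERY `h`
  `Bpoly E4 E6 (1 + 8 h) = 256 Δ + 512 Q1`,   `Bpoly E4 E6 (5 + 8 h) = 256 Δ + 512 Q5`
with explicit polynomials `Q1`, `Q5` in `s, r, h` with integer coefficients.

Consequence (used with `R` = power series with 2-integral coefficients): if `H ≡ 1 (mod 8)` is a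
weight-2 form on `Γ₀(p)`, `p ≡ 3 (mod 4)`, every conjugate of `F = Bpoly E₄ E₆ H / 256` is
congruent to `Δ` modulo 2, so the norm of `F` to level one is `≡ Δ^(p+1)` modulo 2, which is
impossible in weight `8 (p+1)`.

This file: the ring identities, the integer series `sS`, `rS`, the `q`-expansions of `E₄`, `E₆`,
`Δ` in the coordinates `(s, r)`, and the coefficientwise congruence statements over a subring
`O ⊆ ℂ` that the norm argument consumes.  Mathlib only.
-/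
import Mathlib

set_option autoImplicit false

namespace Fermat.Agent.S16.helper3076

open UpperHalfPlane ModularForm ModularFormClass EisensteinSeries
open scoped MatrixGroups ArithmeticFunction.sigma

noncomputable section

/-! ## The polynomial identities -/

section Ring

variable {R : Type*} [CommRing R]

/-- `27 X^4 - 18 E4 X^2 - 8 E6 X - E4^2` (27 times the level-one characteristic polynomial of
the weight-2 form `(3 E₂(3z) - E₂(z))/2` of level 3). -/
def Bpoly (E4 E6 X : R) : R := 27 * X ^ 4 - 18 * E4 * X ^ 2 - 8 * E6 * X - E4 ^ 2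

/-- `Δ` in the coordinates `s = ∑ σ₃(n) qⁿ`, `r = (∑ σ₅(n) qⁿ - s)/24`. -/
def Dpoly (s r : R) : R :=
  s - 47 * s ^ 2 + 14 * r + 8000 * s ^ 3 - 7056 * s * r - 84672 * r ^ 2

/-- The witness for `X = 1 + 8 h`. -/
def Q1 (s r h : R) : R :=
  h + 182 * r - 2 * s + 18 * h ^ 2 + 1512 * r * h + 42336 * r ^ 2 - 72 * s * h + 3528 * s * r
    - 89 * s ^ 2 + 108 * h ^ 3 - 540 * s * h ^ 2 - 4000 * s ^ 3 + 216 * h ^ 4

/-- The witness for `X = 5 + 8 h`. -/
def Q5 (s r h : R) : R :=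
  32 + 208 * h + 938 * r - 173 * s + 504 * h ^ 2 + 1512 * r * h + 42336 * r ^ 2 - 612 * s * h
    + 3528 * s * r - 89 * s ^ 2 + 540 * h ^ 3 - 540 * s * h ^ 2 - 4000 * s ^ 3 + 216 * h ^ 4

theorem Dpoly_spec (s r : R) :
    1728 * Dpoly s r = (1 + 240 * s) ^ 3 - (1 - 504 * (s + 24 * r)) ^ 2 := by
  unfold Dpoly; ring

theorem Bpoly_one (s r h : R) :
    Bpoly (1 + 240 * s) (1 - 504 * (s + 24 * r)) (1 + 8 * h) =
      256 * Dpoly s r + 512 * Q1 s r h := by
  unfold Bpoly Dpoly Q1; ring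

theorem Bpoly_five (s r h : R) :
    Bpoly (1 + 240 * s) (1 - 504 * (s + 24 * r)) (5 + 8 * h) =
      256 * Dpoly s r + 512 * Q5 s r h := by
  unfold Bpoly Dpoly Q5; ring

/-- Both cases at once: if `X = 1 + 8 h` or `X = 5 + 8 h` then
`Bpoly E4 E6 X = 256 * (Δ + 2 Q)`. -/
theorem Bpoly_eq (s r X : R) (hX : ∃ h, X = 1 + 8 * h ∨ X = 5 + 8 * h) :
    ∃ Q, Bpoly (1 + 240 * s) (1 - 504 * (s + 24 * r)) X = 256 * (Dpoly s r + 2 * Q) := by
  obtain ⟨h, rfl | rfl⟩ := hX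
  · exact ⟨Q1 s r h, by rw [Bpoly_one]; ring⟩
  · exact ⟨Q5 s r h, by rw [Bpoly_five]; ring⟩

/-- Product form: a product of `n` such values is `256^n * (Δ^n + 2 Q)`. -/
theorem prod_Bpoly_eq {ι : Type*} (t : Finset ι) (s r : R) (X : ι → R)
    (hX : ∀ i ∈ t, ∃ h, X i = 1 + 8 * h ∨ X i = 5 + 8 * h) :
    ∃ Q, ∏ i ∈ t, Bpoly (1 + 240 * s) (1 - 504 * (s + 24 * r)) (X i) =
      256 ^ t.card * (Dpoly s r ^ t.card + 2 * Q) := by
  classical
  induction t using Finset.induction_on with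
  | empty => exact ⟨0, by simp⟩
  | insert a t ha ih =>
    obtain ⟨Q, hQ⟩ := ih (fun i hi => hX i (Finset.mem_insert_of_mem hi))
    obtain ⟨Q', hQ'⟩ := Bpoly_eq s r (X a) (hX a (Finset.mem_insert_self a t))
    refine ⟨Dpoly s r * Q + Q' * Dpoly s r ^ t.card + 2 * Q' * Q, ?_⟩
    rw [Finset.prod_insert ha, Finset.card_insert_of_notMem ha, hQ, hQ']
    ring

end Ring

section Maps

variable {R S : Type*} [CommRing R] [CommRing S]

theorem map_Bpoly (φ : R →+* S) (E4 E6 X : R) :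
    φ (Bpoly E4 E6 X) = Bpoly (φ E4) (φ E6) (φ X) := by
  simp [Bpoly, map_ofNat]

theorem map_Dpoly (φ : R →+* S) (s r : R) : φ (Dpoly s r) = Dpoly (φ s) (φ r) := by
  simp [Dpoly, map_ofNat]

theorem map_Q1 (φ : R →+* S) (s r h : R) : φ (Q1 s r h) = Q1 (φ s) (φ r) (φ h) := by
  simp [Q1, map_ofNat]

theorem map_Q5 (φ : R →+* S) (s r h : R) : φ (Q5 s r h) = Q5 (φ s) (φ r) (φ h) := by
  simp [Q5, map_ofNat]

/-- Subring form of `Bpoly_eq`: the witness stays in the subring. -/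
theorem Bpoly_eq_mem (A : Subring R) {s r X : R} (hs : s ∈ A) (hr : r ∈ A)
    (hX : ∃ h ∈ A, X = 1 + 8 * h ∨ X = 5 + 8 * h) :
    ∃ Q ∈ A, Bpoly (1 + 240 * s) (1 - 504 * (s + 24 * r)) X = 256 * (Dpoly s r + 2 * Q) := by
  obtain ⟨h, hh, rfl | rfl⟩ := hX
  · refine ⟨Q1 s r h, ?_, by rw [Bpoly_one]; ring⟩
    have := map_Q1 A.subtype ⟨s, hs⟩ ⟨r, hr⟩ ⟨h, hh⟩
    simp only [Subring.subtype_apply] at this
    rw [← this]
    exact SetLike.coe_mem _
  · refine ⟨Q5 s r h, ?_, by rw [Bpoly_five]; ring⟩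
    have := map_Q5 A.subtype ⟨s, hs⟩ ⟨r, hr⟩ ⟨h, hh⟩
    simp only [Subring.subtype_apply] at this
    rw [← this]
    exact SetLike.coe_mem _

end Maps

/-! ## The integer series `s`, `r` and the level-one expansions -/

/-- `s = ∑ σ₃(n) qⁿ`. -/
def sS : PowerSeries ℤ := PowerSeries.mk fun n => (σ 3 n : ℤ)

/-- `r = ∑ ((σ₅(n) - σ₃(n))/24) qⁿ` (an integral series). -/
def rS : PowerSeries ℤ := PowerSeries.mk fun n => ((σ 5 n : ℤ) - (σ 3 n : ℤ)) / 24

theorem dvd_pow_five_sub_pow_three (d : ℤ) : (24 : ℤ) ∣ d ^ 5 - d ^ 3 := by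
  have h : ∀ x : ZMod 24, x ^ 5 - x ^ 3 = 0 := by decide
  have h2 := h (d : ZMod 24)
  have h3 := (ZMod.intCast_zmod_eq_zero_iff_dvd (d ^ 5 - d ^ 3) 24).mp (by push_cast; exact h2)
  exact_mod_cast h3

theorem dvd_sigma_five_sub_sigma_three (n : ℕ) : (24 : ℤ) ∣ (σ 5 n : ℤ) - (σ 3 n : ℤ) := by
  rw [ArithmeticFunction.sigma_apply, ArithmeticFunction.sigma_apply]
  push_cast
  rw [← Finset.sum_sub_distrib]
  exact Finset.dvd_sum fun d _ => dvd_pow_five_sub_pow_three d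

theorem coeff_sS (n : ℕ) : PowerSeries.coeff n sS = (σ 3 n : ℤ) := by
  rw [sS, PowerSeries.coeff_mk]

theorem coeff_rS (n : ℕ) : 24 * PowerSeries.coeff n rS = (σ 5 n : ℤ) - (σ 3 n : ℤ) := by
  rw [rS, PowerSeries.coeff_mk]
  exact Int.mul_ediv_cancel' (dvd_sigma_five_sub_sigma_three n)

/-- `s` over `ℂ`. -/
def sC : PowerSeries ℂ := sS.map (Int.castRingHom ℂ)

/-- `r` over `ℂ`. -/
def rC : PowerSeries ℂ := rS.map (Int.castRingHom ℂ)

theorem coeff_sC (n : ℕ) : PowerSeries.coeff n sC = (σ 3 n : ℂ) := by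
  rw [sC, PowerSeries.coeff_map, coeff_sS]
  simp

theorem coeff_rC (n : ℕ) : 24 * PowerSeries.coeff n rC = (σ 5 n : ℂ) - (σ 3 n : ℂ) := by
  rw [rC, PowerSeries.coeff_map]
  have := congrArg (Int.castRingHom ℂ) (coeff_rS n)
  simpa using this

private lemma ofNat_mul_coeff (a : ℕ) [a.AtLeastTwo] (f : PowerSeries ℂ) (n : ℕ) :
    PowerSeries.coeff n ((OfNat.ofNat a : PowerSeries ℂ) * f) =
      (OfNat.ofNat a : ℂ) * PowerSeries.coeff n f := by
  rw [← map_ofNat (PowerSeries.C (R := ℂ)) a, PowerSeries.coeff_C_mul]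

/-- `E₄ = 1 + 240 s`. -/
theorem qExpansion_E₄_eq : qExpansion 1 E₄ = 1 + 240 * sC := by
  ext m
  rw [E_qExpansion_coeff (by norm_num) ⟨2, rfl⟩ m, map_add, ofNat_mul_coeff, coeff_sC,
    PowerSeries.coeff_one]
  split_ifs with h
  · subst h; simp
  · rw [show bernoulli 4 = -1 / 30 by decide +kernel]
    push_cast
    ring

/-- `E₆ = 1 - 504 (s + 24 r)`. -/
theorem qExpansion_E₆_eq : qExpansion 1 E₆ = 1 - 504 * (sC + 24 * rC) := by
  ext m
  rw [E_qExpansion_coeff (by norm_num) ⟨3, rfl⟩ m, map_sub, ofNat_mul_coeff, map_add,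
    ofNat_mul_coeff, coeff_sC, coeff_rC, PowerSeries.coeff_one]
  split_ifs with h
  · subst h; simp
  · rw [show bernoulli 6 = 1 / 42 by decide +kernel]
    push_cast
    ring

/-- `Δ = Dpoly s r`. -/
theorem qExpansion_discriminant_eq : qExpansion 1 discriminant = Dpoly sC rC := by
  -- the level-one form `E₄³ - E₆²`
  let G : ModularForm 𝒮ℒ 12 :=
    ModularForm.mcast (by decide) (E₄.pow 3) - ModularForm.mcast (by decide) (E₆.pow 2)
  have hG : qExpansion 1 G = qExpansion 1 E₄ ^ 3 - qExpansion 1 E₆ ^ 2 := by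
    simp only [G, FunLike.coe_sub, coe_mcast,
      ModularForm.qExpansion_sub one_pos one_mem_strictPeriods_SL,
      ModularForm.qExpansion_pow one_pos one_mem_strictPeriods_SL]
  have hfun : (G : ℍ → ℂ) = (1728 : ℂ) • (CuspForm.discriminant : ℍ → ℂ) := by
    funext z
    have h1 := discriminant_eq_E₄_cube_sub_E₆_sq z
    have h2 : G z = E₄ z ^ 3 - E₆ z ^ 2 := by
      simp only [G, coe_mcast, coe_pow, sub_apply, Pi.pow_apply]
    rw [h2, Pi.smul_apply, smul_eq_mul]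
    change _ = 1728 * discriminant z
    rw [h1]
    ring
  have hsm := ModularForm.qExpansion_smul one_pos one_mem_strictPeriods_SL (1728 : ℂ)
    CuspForm.discriminant
  rw [← hfun, hG, qExpansion_E₄_eq, qExpansion_E₆_eq, ← Dpoly_spec] at hsm
  have h1728 : (1728 : PowerSeries ℂ) * Dpoly sC rC = (1728 : ℂ) • Dpoly sC rC := by
    rw [← map_ofNat (PowerSeries.C (R := ℂ)) 1728, PowerSeries.smul_eq_C_mul]
  rw [h1728] at hsm
  exact (smul_right_injective _ (by norm_num : (1728 : ℂ) ≠ 0) hsm).symm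

/-! ## Coefficientwise congruences over a subring `O ⊆ ℂ` -/

/-- Power series over `ℂ` all of whose coefficients lie in `O`. -/
def coeffRing (O : Subring ℂ) : Subring (PowerSeries ℂ) := (PowerSeries.map O.subtype).range

theorem mem_coeffRing_iff (O : Subring ℂ) (A : PowerSeries ℂ) :
    A ∈ coeffRing O ↔ ∀ n, PowerSeries.coeff n A ∈ O := by
  constructor
  · rintro ⟨B, rfl⟩ n
    rw [PowerSeries.coeff_map]
    exact (PowerSeries.coeff n B).2
  · intro h
    refine ⟨PowerSeries.mk fun n => ⟨PowerSeries.coeff n A, h n⟩, ?_⟩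
    ext n
    simp

theorem map_int_mem_coeffRing (O : Subring ℂ) (A : PowerSeries ℤ) :
    A.map (Int.castRingHom ℂ) ∈ coeffRing O := by
  rw [mem_coeffRing_iff]
  intro n
  rw [PowerSeries.coeff_map, eq_intCast]
  exact intCast_mem O _

theorem expand_mem_coeffRing (O : Subring ℂ) (p : ℕ) (hp : p ≠ 0) {A : PowerSeries ℂ}
    (hA : A ∈ coeffRing O) : PowerSeries.expand p hp A ∈ coeffRing O := by
  rw [mem_coeffRing_iff] at hA ⊢
  intro n
  rw [PowerSeries.coeff_expand]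
  split_ifs
  · exact hA _
  · exact O.zero_mem

/-- **2-adic core, general substitution.**  Let `φ` be a ring endomorphism of `ℂ⟦q⟧` mapping
integral series to series with coefficients in `O` (e.g. the identity, or `q ↦ q^p`).  If
`X = 1 + 8 h` or `X = 5 + 8 h` with `h` having coefficients in `O`, then
`Bpoly (φ E₄) (φ E₆) X = 256 * (φ Δ + 2 Q)` with `Q` having coefficients in `O`. -/
theorem Bpoly_qExpansion_eq (O : Subring ℂ) (φ : PowerSeries ℂ →+* PowerSeries ℂ)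
    (hφ : ∀ A : PowerSeries ℤ, φ (A.map (Int.castRingHom ℂ)) ∈ coeffRing O)
    {X : PowerSeries ℂ} (hX : ∃ h ∈ coeffRing O, X = 1 + 8 * h ∨ X = 5 + 8 * h) :
    ∃ Q ∈ coeffRing O, Bpoly (φ (qExpansion 1 E₄)) (φ (qExpansion 1 E₆)) X =
      256 * (φ (qExpansion 1 discriminant) + 2 * Q) := by
  rw [qExpansion_E₄_eq, qExpansion_E₆_eq, qExpansion_discriminant_eq, map_Dpoly]
  have h4 : φ (1 + 240 * sC) = 1 + 240 * φ sC := by simp [map_ofNat]
  have h6 : φ (1 - 504 * (sC + 24 * rC)) = 1 - 504 * (φ sC + 24 * φ rC) := by simp [map_ofNat]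
  rw [h4, h6]
  exact Bpoly_eq_mem (coeffRing O) (hφ sS) (hφ rS) hX

/-- **2-adic core at the cusp `∞`.**  If `X = 1 + 8 h` or `5 + 8 h` (`h` with coefficients in
`O`) then `Bpoly E₄ E₆ X = 256 * (Δ + 2 Q)`, `Q` with coefficients in `O`. -/
theorem Bpoly_qExpansion_infty (O : Subring ℂ) {X : PowerSeries ℂ}
    (hX : ∃ h ∈ coeffRing O, X = 1 + 8 * h ∨ X = 5 + 8 * h) :
    ∃ Q ∈ coeffRing O, Bpoly (qExpansion 1 E₄) (qExpansion 1 E₆) X =
      256 * (qExpansion 1 discriminant + 2 * Q) :=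
  Bpoly_qExpansion_eq O (RingHom.id _) (fun A => map_int_mem_coeffRing O A) hX

/-- **2-adic core at the cusp `0`** (level-one forms appear as `q ↦ q^p`). -/
theorem Bpoly_qExpansion_expand (O : Subring ℂ) (p : ℕ) (hp : p ≠ 0) {X : PowerSeries ℂ}
    (hX : ∃ h ∈ coeffRing O, X = 1 + 8 * h ∨ X = 5 + 8 * h) :
    ∃ Q ∈ coeffRing O,
      Bpoly (PowerSeries.expand p hp (qExpansion 1 E₄)) (PowerSeries.expand p hp (qExpansion 1 E₆))
        X = 256 * (PowerSeries.expand p hp (qExpansion 1 discriminant) + 2 * Q) :=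
  Bpoly_qExpansion_eq O (PowerSeries.expand p hp : PowerSeries ℂ →ₐ[ℂ] PowerSeries ℂ).toRingHom
    (fun A => expand_mem_coeffRing O p hp (map_int_mem_coeffRing O A)) hX

/-- Coefficient form of `Bpoly_qExpansion_eq`, normalised by `1/256`: every coefficient of
`Bpoly (φ E₄) (φ E₆) X / 256 - φ Δ` is twice an element of `O`. -/
theorem coeff_Bpoly_div_sub (O : Subring ℂ) (φ : PowerSeries ℂ →+* PowerSeries ℂ)
    (hφ : ∀ A : PowerSeries ℤ, φ (A.map (Int.castRingHom ℂ)) ∈ coeffRing O)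
    {X : PowerSeries ℂ} (hX : ∃ h ∈ coeffRing O, X = 1 + 8 * h ∨ X = 5 + 8 * h) (n : ℕ) :
    ∃ c ∈ O, PowerSeries.coeff n ((256 : ℂ)⁻¹ • Bpoly (φ (qExpansion 1 E₄)) (φ (qExpansion 1 E₆)) X)
      - PowerSeries.coeff n (φ (qExpansion 1 discriminant)) = 2 * c := by
  obtain ⟨Q, hQ, hB⟩ := Bpoly_qExpansion_eq O φ hφ hX
  refine ⟨PowerSeries.coeff n Q, (mem_coeffRing_iff O Q).mp hQ n, ?_⟩
  rw [hB, PowerSeries.coeff_smul, ofNat_mul_coeff, map_add, ofNat_mul_coeff]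
  ring

end

end Fermat.Agent.S16.helper3076
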