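import Mathlib
import Fermat.Agent.Lib.helper386_QExpBridge
import Fermat.Agent.Lib.helper1403_LevelOneConj
import Fermat.Prelude.Thm_UpperHalfPlane_qExpansion_coeff_nat_mul

/-!
# Level-one Sturm bound for an additive subgroup (helper5604)

For a level-one modular form `F` of weight `k` and an additive subgroup `I` of `ℂ`
(typically `I = ℓ • O` for a ring `O` of `ℓ`-integral algebraic numbers):
if the `q`-expansion coefficients `a_n(F)` lie in `I` for all `n ≤ k / 12`, then **all**
coefficients lie in `I`.

The proof is the Miller-basis induction: `F - a_0 • E₄^a E₆^b` is a cusp form, hence `Δ * G`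
with `G` of weight `k - 12`, and `Δ = q * (unit of ℤ⟦q⟧)`.
-/

set_option autoImplicit false

namespace Fermat.Agent.S16.helper5604

open UpperHalfPlane ModularForm EisensteinSeries MatrixGroups ModularFormClass
open scoped Manifold

/-- Multiplying by an integral power series preserves "coefficients up to `N` lie in `I`". -/
lemma coeff_intMul_mem (I : AddSubgroup ℂ) (A : PowerSeries ℤ) (s : PowerSeries ℂ) (N : ℕ)
    (hs : ∀ n : ℕ, n ≤ N → PowerSeries.coeff n s ∈ I) :
    ∀ n : ℕ, n ≤ N → PowerSeries.coeff n (A.map (Int.castRingHom ℂ) * s) ∈ I := by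
  intro n hn
  rw [PowerSeries.coeff_mul]
  refine AddSubgroup.sum_mem _ ?_
  rintro ⟨i, j⟩ hij
  have hj : j ≤ N := by
    have := Finset.HasAntidiagonal.mem_antidiagonal.mp hij
    simp only at this
    omega
  rw [PowerSeries.coeff_map, eq_intCast, ← zsmul_eq_mul]
  exact I.zsmul_mem (hs j hj) _

/-- An integral level-one form of every even weight `≥ 4` with constant term `1`
(namely `E₄ ^ a * E₆ ^ b`). -/
lemma exists_intForm_coeff_zero_eq_one {k : ℕ} (hk : 4 ≤ k) (hk2 : Even k) :
    ∃ (Ek : ModularForm 𝒮ℒ (k : ℤ)) (P : PowerSeries ℤ),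
      qExpansion 1 Ek = P.map (Int.castRingHom ℂ) ∧ PowerSeries.coeff 0 P = 1 := by
  obtain ⟨P4, hP4⟩ := Lib.helper1403.qExpansion_E₄_mem
  obtain ⟨P6, hP6⟩ := Lib.helper1403.qExpansion_E₆_mem
  have h40 : PowerSeries.coeff 0 P4 = 1 := by
    have h := E_qExpansion_coeff_zero (by norm_num : 3 ≤ 4) ⟨2, rfl⟩
    rw [← hP4] at h
    have h' : ((PowerSeries.coeff 0 P4 : ℤ) : ℂ) = ((1 : ℤ) : ℂ) := by simpa using h
    exact_mod_cast h'
  have h60 : PowerSeries.coeff 0 P6 = 1 := by
    have h := E_qExpansion_coeff_zero (by norm_num : 3 ≤ 6) ⟨3, rfl⟩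
    rw [← hP6] at h
    have h' : ((PowerSeries.coeff 0 P6 : ℤ) : ℂ) = ((1 : ℤ) : ℂ) := by simpa using h
    exact_mod_cast h'
  obtain ⟨a, b, hab⟩ : ∃ a b : ℕ, 4 * a + 6 * b = k := by
    obtain ⟨t, ht⟩ := hk2
    rcases Nat.even_or_odd t with ⟨u, hu⟩ | ⟨u, hu⟩
    · exact ⟨u, 0, by omega⟩
    · exact ⟨u - 1, 1, by omega⟩
  refine ⟨ModularForm.mcast (by push_cast [← hab]; ring) ((E₄.pow a).mul (E₆.pow b)),
    P4 ^ a * P6 ^ b, ?_, ?_⟩
  · rw [coe_mcast, ModularForm.coe_mul,
      ModularForm.qExpansion_mul_coe one_pos one_mem_strictPeriods_SL,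
      ModularForm.qExpansion_pow one_pos one_mem_strictPeriods_SL,
      ModularForm.qExpansion_pow one_pos one_mem_strictPeriods_SL, map_mul, map_pow, map_pow,
      hP4, hP6]
  · rw [PowerSeries.coeff_zero_eq_constantCoeff_apply, map_mul, map_pow, map_pow,
      ← PowerSeries.coeff_zero_eq_constantCoeff_apply, ← PowerSeries.coeff_zero_eq_constantCoeff_apply,
      h40, h60, one_pow, one_pow, one_mul]

theorem levelOne_coeff_mem_aux (I : AddSubgroup ℂ) (m : ℕ) : ∀ (k : ℤ), k ≤ m →
    ∀ F : ModularForm 𝒮ℒ k,
      (∀ n : ℕ, n ≤ k.toNat / 12 → PowerSeries.coeff n (qExpansion 1 F) ∈ I) →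
      ∀ n : ℕ, PowerSeries.coeff n (qExpansion 1 F) ∈ I := by
  induction m using Nat.strong_induction_on with
  | _ m ih =>
    intro k hk F hF n
    -- negative weight
    rcases lt_trichotomy k 0 with hneg | hzero | hpos
    · have : F = 0 :=
        rank_zero_iff_forall_zero.mp (levelOne_neg_weight_rank_zero hneg) F
      rw [this, FunLike.coe_zero, qExpansion_zero]
      simp
    · subst hzero
      obtain ⟨a, ha⟩ := ModularFormClass.levelOne_weight_zero_const F
      have hq : qExpansion 1 F = PowerSeries.C a := by
        have hF1 : (F : ℍ → ℂ) = ⇑(a • (1 : ModularForm 𝒮ℒ 0)) := by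
          ext z
          simp [ha, one_coe_eq_one]
        rw [hF1, FunLike.coe_smul, ModularForm.qExpansion_smul one_pos one_mem_strictPeriods_SL,
          ModularForm.qExpansion_one]
        ext j
        simp [PowerSeries.coeff_C, PowerSeries.coeff_one]
      have h0 := hF 0 (Nat.zero_le _)
      rw [hq] at h0 ⊢
      rcases Nat.eq_zero_or_pos n with rfl | hn
      · exact h0
      · rw [PowerSeries.coeff_C, if_neg (by omega)]
        exact I.zero_mem
    · -- positive weight
      obtain ⟨k', rfl⟩ : ∃ k' : ℕ, k = (k' : ℤ) := ⟨k.toNat, (Int.toNat_of_nonneg hpos.le).symm⟩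
      have hk'pos : 0 < k' := by exact_mod_cast hpos
      rcases Nat.even_or_odd k' with he | ho
      · by_cases h2 : k' = 2
        · have : F = 0 := Lib.helper1403.eq_zero_of_weight_two (by exact_mod_cast h2) F
          rw [this, FunLike.coe_zero, qExpansion_zero]
          simp
        · have h4 : 4 ≤ k' := by
            obtain ⟨t, ht⟩ := he; omega
          obtain ⟨Ek, P, hEk, hP0⟩ := exists_intForm_coeff_zero_eq_one h4 he
          have hEk0 : PowerSeries.coeff 0 (qExpansion 1 Ek) = 1 := by
            rw [hEk, PowerSeries.coeff_map, hP0]; simp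
          set a := PowerSeries.coeff 0 (qExpansion 1 F) with ha
          have haI : a ∈ I := hF 0 (Nat.zero_le _)
          have hcusp := (isCuspForm_iff_coeffZero_eq_zero _).mp
            (sub_smul_isCuspForm F Ek hEk0)
          set c' := F - a • Ek with hc'
          have hqc' : qExpansion 1 c' = qExpansion 1 F - a • qExpansion 1 Ek := by
            rw [hc', FunLike.coe_sub, ModularForm.qExpansion_sub one_pos one_mem_strictPeriods_SL,
              FunLike.coe_smul, ModularForm.qExpansion_smul one_pos one_mem_strictPeriods_SL]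
          -- coefficients of `a • Ek` lie in `I`
          have haEk : ∀ j : ℕ, PowerSeries.coeff j (a • qExpansion 1 Ek) ∈ I := by
            intro j
            rw [PowerSeries.coeff_smul, hEk, PowerSeries.coeff_map, eq_intCast, smul_eq_mul,
              mul_comm, ← zsmul_eq_mul]
            exact I.zsmul_mem haI _
          have hc'I : ∀ j : ℕ, j ≤ (k' : ℤ).toNat / 12 → PowerSeries.coeff j (qExpansion 1 c') ∈ I := by
            intro j hj
            rw [hqc', map_sub]
            exact I.sub_mem (hF j hj) (haEk j)
          set g := CuspForm.discriminantEquiv (toCuspForm c' hcusp) with hg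
          have hfac : qExpansion 1 c' = qExpansion 1 discriminant * qExpansion 1 g :=
            qExpansion_eq_qExpansion_discriminant_mul c' hcusp
          have hΔ : qExpansion 1 discriminant =
              (PowerSeries.X * ModularCurve.dedekindEtaUnit).map (Int.castRingHom ℂ) := by
            rw [Lib.helper386.qExpansion_discriminant, Lib.helper386.deltaSeries_eq]
          -- it suffices to prove all coefficients of `g` lie in `I`
          suffices hgI : ∀ j : ℕ, PowerSeries.coeff j (qExpansion 1 g) ∈ I by
            have h1 : PowerSeries.coeff n (qExpansion 1 c') ∈ I := by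
              rw [hfac, hΔ]
              exact coeff_intMul_mem I _ _ n (fun j _ => hgI j) n le_rfl
            have h2 : PowerSeries.coeff n (qExpansion 1 F) =
                PowerSeries.coeff n (qExpansion 1 c') + PowerSeries.coeff n (a • qExpansion 1 Ek) := by
              rw [hqc', map_sub, sub_add_cancel]
            rw [h2]
            exact I.add_mem h1 (haEk n)
          by_cases hlt : k' < 12
          · -- weight `k' - 12 < 0`: `g = 0`
            have hg0 : g = 0 :=
              rank_zero_iff_forall_zero.mp
                (levelOne_neg_weight_rank_zero (by omega)) g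
            intro j
            rw [hg0, FunLike.coe_zero, qExpansion_zero]
            simp
          · push Not at hlt
            -- induction hypothesis for `g`, of weight `k' - 12`
            have hwt : ((k' : ℤ) - 12) ≤ ((k' - 12 : ℕ) : ℤ) := by
              rw [Nat.cast_sub hlt]; simp
            refine ih (k' - 12) (by
              have : (k' : ℤ) ≤ (m : ℤ) := hk
              have : k' ≤ m := by exact_mod_cast this
              omega) ((k' : ℤ) - 12) hwt g ?_
            intro j hj
            have htn : ((k' : ℤ) - 12).toNat / 12 + 1 = (k' : ℤ).toNat / 12 := by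
              have h1 : ((k' : ℤ) - 12).toNat = k' - 12 := by omega
              have h2 : ((k' : ℤ)).toNat = k' := by simp
              rw [h1, h2]
              omega
            -- `U * qExp g` has coefficient `j` equal to coefficient `j+1` of `qExp c'`
            set w := (ModularCurve.dedekindEtaUnit.map (Int.castRingHom ℂ)) * qExpansion 1 g with hw
            have hXw : qExpansion 1 c' = PowerSeries.X * w := by
              rw [hfac, hΔ, hw, map_mul, PowerSeries.map_X, mul_assoc]
            have hwI : ∀ i : ℕ, i ≤ ((k' : ℤ) - 12).toNat / 12 → PowerSeries.coeff i w ∈ I := by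
              intro i hi
              have := hc'I (i + 1) (by omega)
              rwa [hXw, PowerSeries.coeff_succ_X_mul] at this
            have hgw : qExpansion 1 g =
                (ModularCurve.dedekindEtaUnitInv.map (Int.castRingHom ℂ)) * w := by
              rw [hw, ← mul_assoc, ← map_mul, mul_comm ModularCurve.dedekindEtaUnitInv,
                ModularCurve.dedekindEtaUnit_mul_inv, map_one, one_mul]
            rw [hgw]
            exact coeff_intMul_mem I _ _ _ hwI j hj
      · have : F = 0 := levelOne_odd_weight_eq_zero (by exact_mod_cast ho) F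
        rw [this, FunLike.coe_zero, qExpansion_zero]
        simp

/-- **Level-one Sturm bound for an additive subgroup.**  If the `q`-expansion coefficients
`a_n` of a level-one modular form of weight `k` lie in an additive subgroup `I ≤ ℂ` for all
`n ≤ k / 12`, then all its coefficients lie in `I`. -/
theorem levelOne_coeff_mem (I : AddSubgroup ℂ) {k : ℤ} (F : ModularForm 𝒮ℒ k)
    (h : ∀ n : ℕ, n ≤ k.toNat / 12 → PowerSeries.coeff n (qExpansion 1 F) ∈ I) :
    ∀ n : ℕ, PowerSeries.coeff n (qExpansion 1 F) ∈ I :=
  levelOne_coeff_mem_aux I k.toNat k (Int.self_le_toNat k) F h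

/-- Period-`M` expansion of a level-one form in terms of its period-`1` expansion. -/
theorem levelOne_qExpansion_period_coeff {k : ℤ} (F : ModularForm 𝒮ℒ k) {M : ℕ} (hM : 0 < M)
    (n : ℕ) :
    PowerSeries.coeff n (qExpansion (M : ℝ) F) =
      if M ∣ n then PowerSeries.coeff (n / M) (qExpansion 1 F) else 0 := by
  have h := UpperHalfPlane.qExpansion_coeff_nat_mul (h := 1) one_pos
    (SlashInvariantFormClass.periodic_comp_ofComplex F one_mem_strictPeriods_SL)
    (ModularFormClass.holo F) (ModularFormClass.bdd_at_infty F) hM n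
  rwa [mul_one] at h

/-- **Level-one Sturm bound for an additive subgroup, period-`M` form** (the shape produced by
norms from level `M`: compare Prelude `ModularForm.levelOne_eq_zero_of_lt_order_qExpansion`).
If the coefficients of the `q^(1/M)`-expansion of a level-one form of weight `k` lie in `I`
up to index `M * (k / 12)`, then all of them lie in `I`. -/
theorem levelOne_coeff_mem_period (I : AddSubgroup ℂ) {k : ℤ} (F : ModularForm 𝒮ℒ k) {M : ℕ}
    (hM : 0 < M)
    (h : ∀ n : ℕ, n ≤ M * (k.toNat / 12) → PowerSeries.coeff n (qExpansion (M : ℝ) F) ∈ I) :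
    ∀ n : ℕ, PowerSeries.coeff n (qExpansion (M : ℝ) F) ∈ I := by
  have h1 : ∀ n : ℕ, PowerSeries.coeff n (qExpansion 1 F) ∈ I := by
    refine levelOne_coeff_mem I F fun j hj => ?_
    have := h (M * j) (Nat.mul_le_mul_left M hj)
    rwa [levelOne_qExpansion_period_coeff F hM, if_pos (Dvd.intro j rfl),
      Nat.mul_div_cancel_left j hM] at this
  intro n
  rw [levelOne_qExpansion_period_coeff F hM]
  split_ifs
  · exact h1 _
  · exact I.zero_mem

/-- Contrapositive form used in the norm arguments: a level-one form of weight `k` whose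
`q`-expansion is `≡ 0 mod I` below `q^N` with `k / 12 < N` cannot have `a_N ∉ I`. -/
theorem levelOne_not_congr_pow (I : AddSubgroup ℂ) {k : ℤ} (F : ModularForm 𝒮ℒ k) (N : ℕ)
    (hN : k.toNat / 12 < N)
    (h : ∀ n : ℕ, n < N → PowerSeries.coeff n (qExpansion 1 F) ∈ I) :
    PowerSeries.coeff N (qExpansion 1 F) ∈ I :=
  levelOne_coeff_mem I F (fun n hn => h n (lt_of_le_of_lt hn hN)) N

end Fermat.Agent.S16.helper5604
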