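/-
helper4426 — S16, upper bound, the 2-adic case T8 (findings #1752): MODULAR GLUE.

For a prime `p ≡ 3 mod 4` (in particular `p ≡ 7 mod 8`) there is NO `H ∈ M₂(Γ₀(p))` whose
`q`-expansion is `≡ 1 mod 8` (2-integrally).  Consumer form: if `G ∈ M₂(Γ₀(p))` has
`a₀(G) = (p-1)/24` and `a_k(G) ∈ m ℤ` for all `k ≥ 1`, then `m` is odd
(`odd_of_forall_coeff_eq_mul`).

Proof (norm route): `F := (27 H⁴ - 18 E₄ H² - 8 E₆ H - E₄²)/256 ∈ M₈(Γ₀(p))`.  Each of the `p + 1`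
conjugates `H ∣ γ` (`γ = 1, S Tʲ`) has a `q^(1/p)`-expansion in `u + 8 O⟦t⟧`, `u ∈ {1, 5}`
(`O` = numbers an odd multiple of which is an algebraic integer), so by the ring identity of
`helper3076_TwoAdic` every conjugate of `F` is `≡ Δ(t^p) mod 2 O`; hence the norm
`N ∈ M_{8(p+1)}(SL₂(ℤ))` has `q`-expansion `≡ Δ^(p+1) = q^(p+1) + … mod 2 O`, contradicting the
level-one Sturm bound `8(p+1)/12 < p+1` (`helper5604_LevelOneSturm`).

The core theorems take the CONJ input `Stmt_Conj p` (the expansion of `H ∣ S Tʲ` at the cusp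
`0`: coefficients `-(1/p) ζⁿ a_{pn}(H)`, `ζ^p = 1`, analytic cusp function for the period `p`) as
a hypothesis; `stmt_Conj` discharges it from `helper144_Conj`, so the primed statements
(`no_unit_mod_eight'`, `no_unit_mod_eight_rat`, `odd_of_forall_coeff_eq_mul'`) are UNCONDITIONAL.
Proved here: the form `F`, its slash-conjugates, the coset product (`helper144_Cosets`), the
period-`p` expansion calculus, the congruences, the Sturm contradiction.
-/
import Mathlib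
import Fermat.Agent.S16.helper3076_TwoAdic
import Fermat.Agent.S16.helper5604_LevelOneSturm
import Fermat.Agent.S16.helper144_Cosets
import Fermat.Agent.S16.helper144_Conj
import Fermat.Prelude.Thm_UpperHalfPlane_qExpansion_prod
import Fermat.Prelude.Thm_UpperHalfPlane_qExpansion_coeff_nat_mul
import Fermat.Prelude.Thm_CongruenceSubgroup_one_mem_strictPeriods_Gamma0

set_option autoImplicit false

open UpperHalfPlane ModularForm ModularFormClass EisensteinSeries CongruenceSubgroup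
open scoped MatrixGroups Manifold Real

noncomputable section

namespace Fermat.Agent.S16.helper4426

/-- Complex numbers an odd multiple of which is an algebraic integer. -/
def oddInt : Subring ℂ where
  carrier := {x | ∃ m : ℕ, Odd m ∧ IsIntegral ℤ ((m : ℂ) * x)}
  mul_mem' := by
    rintro x y ⟨m, hm, hx⟩ ⟨n, hn, hy⟩
    refine ⟨m * n, hm.mul hn, ?_⟩
    have : ((m * n : ℕ) : ℂ) * (x * y) = ((m : ℂ) * x) * ((n : ℂ) * y) := by push_cast; ring
    rw [this]; exact hx.mul hy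
  one_mem' := ⟨1, odd_one, by simpa using isIntegral_one⟩
  add_mem' := by
    rintro x y ⟨m, hm, hx⟩ ⟨n, hn, hy⟩
    refine ⟨m * n, hm.mul hn, ?_⟩
    have : ((m * n : ℕ) : ℂ) * (x + y) = (n : ℂ) * ((m : ℂ) * x) + (m : ℂ) * ((n : ℂ) * y) := by
      push_cast; ring
    rw [this]
    exact ((isIntegral_natCast n).mul hx).add ((isIntegral_natCast m).mul hy)
  zero_mem' := ⟨1, odd_one, by simpa using isIntegral_zero⟩
  neg_mem' := by
    rintro x ⟨m, hm, hx⟩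
    exact ⟨m, hm, by simpa using hx.neg⟩

theorem mem_oddInt_iff (x : ℂ) : x ∈ oddInt ↔ ∃ m : ℕ, Odd m ∧ IsIntegral ℤ ((m : ℂ) * x) := Iff.rfl

theorem two_mul_ne_one_of_mem_oddInt {c : ℂ} (hc : c ∈ oddInt) : 2 * c ≠ 1 := by
  intro h
  obtain ⟨m, hm, hint⟩ := hc
  have hc2 : c = ((1 / 2 : ℚ) : ℂ) := by
    push_cast
    field_simp
    linear_combination h
  have h1 : (m : ℂ) * c = (((m : ℚ) / 2 : ℚ) : ℂ) := by rw [hc2]; push_cast; ring
  rw [h1] at hint
  have h2 : IsIntegral ℤ ((m : ℚ) / 2 : ℚ) :=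
    (isIntegral_algebraMap_iff (algebraMap ℚ ℂ).injective).mp hint
  obtain ⟨z, hz⟩ := IsIntegrallyClosed.isIntegral_iff.mp h2
  have h3 : (m : ℚ) = 2 * (z : ℚ) := by
    have : (z : ℚ) = (m : ℚ) / 2 := by simpa using hz
    rw [this]; ring
  have h4 : (m : ℤ) = 2 * z := by exact_mod_cast h3
  have h5 : Odd (m : ℤ) := by exact_mod_cast hm
  rw [h4] at h5
  exact (Int.not_odd_iff_even.mpr (even_two_mul z)) h5

theorem intCast_div_odd_mem_oddInt (a : ℤ) {b : ℕ} (hb : Odd b) : (a : ℂ) / (b : ℂ) ∈ oddInt := by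
  refine ⟨b, hb, ?_⟩
  have hb0 : (b : ℂ) ≠ 0 := by
    have : b ≠ 0 := fun h => by simp [h] at hb
    exact_mod_cast this
  have : (b : ℂ) * ((a : ℂ) / (b : ℂ)) = (a : ℂ) := by field_simp
  rw [this]
  exact isIntegral_algebraMap (R := ℤ) (A := ℂ) (x := a)

theorem rootOfUnity_mem_oddInt {z : ℂ} {n : ℕ} (hn : 0 < n) (hz : z ^ n = 1) : z ∈ oddInt := by
  refine ⟨1, odd_one, ?_⟩
  rw [Nat.cast_one, one_mul]
  exact IsIntegral.of_pow hn (by rw [hz]; exact isIntegral_one)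

/-! ## The weight-8 form `B(H)/256` on `Γ₀(p)` and its conjugates -/

section Forms

variable (p : ℕ)

/-- A level-one form, viewed on `Γ₀(p)`. -/
def resL {k : ℤ} (f : ModularForm 𝒮ℒ k) : ModularForm (Gamma0 p : Subgroup (GL (Fin 2) ℝ)) k where
  toFun := f
  slash_action_eq' A hA := f.slash_action_eq' A (Subgroup.map_le_range _ _ hA)
  holo' := f.holo'
  bdd_at_cusps' hc := f.bdd_at_cusps' (hc.mono (Subgroup.map_le_range _ _))

@[simp] lemma coe_resL {k : ℤ} (f : ModularForm 𝒮ℒ k) : ⇑(resL p f) = ⇑f := rfl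

/-- `F = (27 H⁴ - 18 E₄ H² - 8 E₆ H - E₄²)/256`, a form of weight 8 on `Γ₀(p)`. -/
def Fform (H : ModularForm (Gamma0 p : Subgroup (GL (Fin 2) ℝ)) 2) :
    ModularForm (Gamma0 p : Subgroup (GL (Fin 2) ℝ)) 8 :=
  (256 : ℂ)⁻¹ • ((27 : ℂ) • mcast (by norm_num) (H.pow 4)
    - (18 : ℂ) • mcast (by norm_num) ((resL p E₄).mul (H.pow 2))
    - (8 : ℂ) • mcast (by norm_num) ((resL p E₆).mul H)
    - mcast (by norm_num) ((resL p E₄).pow 2))

/-- The function-level polynomial `B(X)/256`. -/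
def Bfun (X : ℍ → ℂ) : ℍ → ℂ :=
  (256 : ℂ)⁻¹ • ((27 : ℂ) • X ^ 4 + (-18 : ℂ) • (⇑E₄ * X ^ 2) + (-8 : ℂ) • (⇑E₆ * X)
    + (-1 : ℂ) • ⇑E₄ ^ 2)

lemma coe_Fform (H : ModularForm (Gamma0 p : Subgroup (GL (Fin 2) ℝ)) 2) :
    ⇑(Fform p H) = Bfun ⇑H := by
  funext z
  have e1 : (H.pow 4) z = H z ^ 4 := congrFun (ModularForm.coe_pow H 4) z
  have e2 : ((resL p E₄).mul (H.pow 2)) z = E₄ z * H z ^ 2 := by
    rw [congrFun (ModularForm.coe_mul (resL p E₄) (H.pow 2)) z, Pi.mul_apply,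
      congrFun (ModularForm.coe_pow H 2) z]
    rfl
  have e3 : ((resL p E₆).mul H) z = E₆ z * H z :=
    congrFun (ModularForm.coe_mul (resL p E₆) H) z
  have e4 : ((resL p E₄).pow 2) z = E₄ z ^ 2 := congrFun (ModularForm.coe_pow (resL p E₄) 2) z
  simp [Fform, Bfun, e1, e2, e3, e4]
  ring

end Forms

/-! ## Slash action on `B(X)/256` -/

section Slash

lemma levelOne_slash {k : ℤ} (f : ModularForm 𝒮ℒ k) (γ : SL(2, ℤ)) : ⇑f ∣[k] γ = ⇑f := by
  rw [SL_slash]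
  exact f.slash_action_eq' _ ⟨γ, rfl⟩

lemma sq_slash (X : ℍ → ℂ) (γ : SL(2, ℤ)) : (X ^ 2) ∣[(4 : ℤ)] γ = (X ∣[(2 : ℤ)] γ) ^ 2 := by
  rw [pow_two, show (4 : ℤ) = 2 + 2 from rfl, mul_slash_SL2, pow_two]

lemma Bfun_slash (X : ℍ → ℂ) (γ : SL(2, ℤ)) : Bfun X ∣[(8 : ℤ)] γ = Bfun (X ∣[(2 : ℤ)] γ) := by
  have h4 : (X ^ 4) ∣[(8 : ℤ)] γ = (X ∣[(2 : ℤ)] γ) ^ 4 := by
    rw [show X ^ 4 = X ^ 2 * X ^ 2 by ring, show (8 : ℤ) = 4 + 4 from rfl, mul_slash_SL2, sq_slash]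
    ring
  have h2 : (⇑E₄ * X ^ 2) ∣[(8 : ℤ)] γ = ⇑E₄ * (X ∣[(2 : ℤ)] γ) ^ 2 := by
    rw [show (8 : ℤ) = 4 + 4 from rfl, mul_slash_SL2, sq_slash, levelOne_slash]
  have h1 : (⇑E₆ * X) ∣[(8 : ℤ)] γ = ⇑E₆ * (X ∣[(2 : ℤ)] γ) := by
    rw [show (8 : ℤ) = 6 + 2 from rfl, mul_slash_SL2, levelOne_slash]
  have h0 : (⇑E₄ ^ 2) ∣[(8 : ℤ)] γ = ⇑E₄ ^ 2 := by
    rw [pow_two, show (8 : ℤ) = 4 + 4 from rfl, mul_slash_SL2, levelOne_slash]
  unfold Bfun
  rw [SL_smul_slash, SlashAction.add_slash, SlashAction.add_slash, SlashAction.add_slash,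
    SL_smul_slash, SL_smul_slash, SL_smul_slash, SL_smul_slash, h4, h2, h1, h0]

end Slash

/-! ## `q`-expansions (period `h`) of polynomial combinations -/

section QExp

variable {h : ℝ}

/-- Analyticity of the cusp function at `0` (all that the `q`-expansion calculus needs). -/
def An (h : ℝ) (f : ℍ → ℂ) : Prop := AnalyticAt ℂ (cuspFunction h f) 0

lemma An.mul {f g : ℍ → ℂ} (hf : An h f) (hg : An h g) : An h (f * g) := by
  unfold An at *
  rw [cuspFunction_mul hf.continuousAt hg.continuousAt]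
  exact hf.mul hg

lemma An.smul {f : ℍ → ℂ} (hf : An h f) (a : ℂ) : An h (a • f) := by
  unfold An at *
  rw [cuspFunction_smul hf.continuousAt]
  exact hf.const_smul

lemma An.add {f g : ℍ → ℂ} (hf : An h f) (hg : An h g) : An h (f + g) := by
  unfold An at *
  rw [cuspFunction_add hf.continuousAt hg.continuousAt]
  exact hf.add hg

lemma An.sq {f : ℍ → ℂ} (hf : An h f) : An h (f ^ 2) := by
  rw [pow_two]; exact hf.mul hf

lemma An.pow_four {f : ℍ → ℂ} (hf : An h f) : An h (f ^ 4) := by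
  rw [show f ^ 4 = f ^ 2 * f ^ 2 by ring]; exact hf.sq.mul hf.sq

lemma qExpansion_sq {f : ℍ → ℂ} (hf : An h f) : qExpansion h (f ^ 2) = qExpansion h f ^ 2 := by
  rw [pow_two, qExpansion_mul hf hf, pow_two]

lemma qExpansion_pow_four {f : ℍ → ℂ} (hf : An h f) :
    qExpansion h (f ^ 4) = qExpansion h f ^ 4 := by
  rw [show f ^ 4 = f ^ 2 * f ^ 2 by ring, qExpansion_mul hf.sq hf.sq, qExpansion_sq hf]
  ring

lemma An.Bfun (h4 : An h ⇑E₄) (h6 : An h ⇑E₆) {X : ℍ → ℂ} (hX : An h X) : An h (Bfun X) :=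
  (((((hX.pow_four).smul 27).add ((h4.mul hX.sq).smul (-18))).add ((h6.mul hX).smul (-8))).add
    (h4.sq.smul (-1))).smul _

open Fermat.Agent.S16.helper3076 in
lemma qExpansion_Bfun (h4 : An h ⇑E₄) (h6 : An h ⇑E₆) {X : ℍ → ℂ} (hX : An h X) :
    qExpansion h (Bfun X) =
      (256 : ℂ)⁻¹ • Bpoly (qExpansion h E₄) (qExpansion h E₆) (qExpansion h X) := by
  have e1 := (hX.pow_four).smul 27
  have e2 := (h4.mul hX.sq).smul (-18)
  have e3 := (h6.mul hX).smul (-8)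
  have e4 := h4.sq.smul (-1)
  unfold Bfun
  rw [qExpansion_smul (((e1.add e2).add e3).add e4), qExpansion_add ((e1.add e2).add e3) e4,
    qExpansion_add (e1.add e2) e3, qExpansion_add e1 e2,
    qExpansion_smul hX.pow_four, qExpansion_smul (h4.mul hX.sq), qExpansion_smul (h6.mul hX),
    qExpansion_smul h4.sq, qExpansion_pow_four hX, qExpansion_mul h4 hX.sq, qExpansion_sq hX,
    qExpansion_mul h6 hX, qExpansion_sq h4]
  congr 1
  unfold Bpoly
  simp only [Algebra.smul_def, map_neg, map_ofNat, map_one]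
  ring

end QExp

/-! ## Power-series algebra over a subring -/

section Algebra

open Fermat.Agent.S16.helper3076

/-- A product of `n` elements each `≡ D mod 2A` is `≡ D^n mod 2A`. -/
lemma prod_eq_pow_add_two_mul {R : Type*} [CommRing R] (A : Subring R) {D : R} (hD : D ∈ A)
    {ι : Type*} (s : Finset ι) (Y : ι → R) (hY : ∀ i ∈ s, ∃ Q ∈ A, Y i = D + 2 * Q) :
    ∃ Q ∈ A, ∏ i ∈ s, Y i = D ^ s.card + 2 * Q := by
  classical
  induction s using Finset.induction_on with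
  | empty => exact ⟨0, A.zero_mem, by simp⟩
  | insert a t ha ih =>
    obtain ⟨Q, hQ, hQe⟩ := ih fun i hi => hY i (Finset.mem_insert_of_mem hi)
    obtain ⟨Q', hQ', hQ'e⟩ := hY a (Finset.mem_insert_self a t)
    refine ⟨D * Q + Q' * D ^ t.card + 2 * Q' * Q, ?_, ?_⟩
    · exact A.add_mem (A.add_mem (A.mul_mem hD hQ) (A.mul_mem hQ' (A.pow_mem hD _)))
        (A.mul_mem (A.mul_mem (ofNat_mem A 2) hQ') hQ)
    · rw [Finset.prod_insert ha, Finset.card_insert_of_notMem ha, hQe, hQ'e]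
      ring

/-- A series whose coefficients are `≡ u·δ₀ mod 8 O` is `u + 8 h` with `h` over `O`. -/
lemma exists_eq_C_add_eight_mul (O : Subring ℂ) (u : ℂ) (X : PowerSeries ℂ)
    (h0 : ∃ c ∈ O, PowerSeries.coeff 0 X - u = 8 * c)
    (hn : ∀ n : ℕ, 1 ≤ n → ∃ c ∈ O, PowerSeries.coeff n X = 8 * c) :
    ∃ h ∈ coeffRing O, X = PowerSeries.C u + 8 * h := by
  refine ⟨(8 : ℂ)⁻¹ • (X - PowerSeries.C u), ?_, ?_⟩
  · rw [mem_coeffRing_iff]
    intro n
    rw [PowerSeries.coeff_smul, map_sub, PowerSeries.coeff_C]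
    rcases Nat.eq_zero_or_pos n with rfl | hpos
    · obtain ⟨c, hc, hce⟩ := h0
      rw [if_pos rfl, hce]
      simpa using hc
    · obtain ⟨c, hc, hce⟩ := hn n hpos
      rw [if_neg hpos.ne', hce, sub_zero]
      simpa using hc
  · have h8 : (8 : PowerSeries ℂ) * ((8 : ℂ)⁻¹ • (X - PowerSeries.C u)) = X - PowerSeries.C u := by
      rw [← map_ofNat (PowerSeries.C (R := ℂ)) 8, PowerSeries.smul_eq_C_mul, ← mul_assoc,
        ← map_mul]
      norm_num
    rw [h8]; ring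

end Algebra

/-! ## The main theorem -/

section Main

open Fermat.Agent.S16.helper3076 Fermat.Agent.S16.helper5604 Fermat.Agent.S16.helper144

/-- The `(p : ℝ)`-period expansion of a `1`-periodic function. -/
lemma qExpansion_natCast_eq_expand {F : ℍ → ℂ} (hper : Function.Periodic (F ∘ ofComplex) 1)
    (hhol : MDiff F) (hbdd : IsBoundedAtImInfty F) (p : ℕ) (hp : p ≠ 0) :
    qExpansion (p : ℝ) F = PowerSeries.expand p hp (qExpansion 1 F) := by
  ext n
  have h := UpperHalfPlane.qExpansion_coeff_nat_mul (h := 1) one_pos hper hhol hbdd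
    (Nat.pos_of_ne_zero hp) n
  rw [mul_one] at h
  rw [h, PowerSeries.coeff_expand]

/-- **CONJ input** (the expansions at the cusp `0`): for `H ∈ M₂(Γ₀(p))` the conjugate
`H ∣ S Tʲ` has an analytic cusp function with respect to the period `p`, and its `n`-th
coefficient is `-(1/p) ζⁿ a_{pn}(H)` for some `p`-th root of unity `ζ` (namely
`ζ = exp(2πi j/p)`, but only `ζ^p = 1` is used). -/
def Stmt_Conj (p : ℕ) : Prop :=
  ∀ (H : ModularForm (Gamma0 p : Subgroup (GL (Fin 2) ℝ)) 2) (j : Fin p),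
    AnalyticAt ℂ (cuspFunction (p : ℝ)
      (⇑H ∣[(2 : ℤ)] (ModularGroup.S * ModularGroup.T ^ ((j : ℕ) : ℤ)))) 0 ∧
    ∃ ζ : ℂ, ζ ^ p = 1 ∧ ∀ n : ℕ,
      PowerSeries.coeff n (qExpansion (p : ℝ)
          (⇑H ∣[(2 : ℤ)] (ModularGroup.S * ModularGroup.T ^ ((j : ℕ) : ℤ)))) =
        -(p : ℂ)⁻¹ * ζ ^ n * PowerSeries.coeff (p * n) (qExpansion 1 H)

/-- **The 2-adic case, abstract coefficient ring.**  Let `p ≡ 3 mod 4` be prime and `O ⊆ ℂ` a
subring containing `1/p` and the `p`-th roots of unity, with `1 ∉ 2 O`.  There is no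
`H ∈ M₂(Γ₀(p))` with `a₀(H) = 1` and `a_k(H) ∈ 8 O` for all `k ≥ 1`. -/
theorem no_unit_mod_eight_of_subring (p : ℕ) [Fact p.Prime] (hp4 : p % 4 = 3) (hC : Stmt_Conj p)
    (O : Subring ℂ) (hO2 : ∀ c ∈ O, 2 * c ≠ 1) (hOp : (p : ℂ)⁻¹ ∈ O)
    (hOζ : ∀ ζ : ℂ, ζ ^ p = 1 → ζ ∈ O)
    (H : ModularForm (Gamma0 p : Subgroup (GL (Fin 2) ℝ)) 2)
    (h0 : PowerSeries.coeff 0 (qExpansion 1 H) = 1)
    (hk : ∀ k : ℕ, 1 ≤ k → ∃ c ∈ O, PowerSeries.coeff k (qExpansion 1 H) = 8 * c) : False := by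
  have hp : p.Prime := Fact.out
  have hp0 : p ≠ 0 := hp.ne_zero
  have hpC : (p : ℂ) ≠ 0 := by exact_mod_cast hp0
  have : NeZero p := ⟨hp0⟩
  have hpp : (0 : ℝ) < (p : ℝ) := by exact_mod_cast hp.pos
  -- periods
  have hperSL : (p : ℝ) ∈ (𝒮ℒ : Subgroup (GL (Fin 2) ℝ)).strictPeriods := by
    have := AddSubgroup.nsmul_mem _ one_mem_strictPeriods_SL p
    simpa using this
  have hperG : (p : ℝ) ∈ (Gamma0 p : Subgroup (GL (Fin 2) ℝ)).strictPeriods := by
    have := AddSubgroup.nsmul_mem _ (CongruenceSubgroup.one_mem_strictPeriods_Gamma0 p) p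
    simpa using this
  -- analyticity with period `p`
  have hA4 : An (p : ℝ) ⇑E₄ := ModularFormClass.analyticAt_cuspFunction_zero E₄ hpp hperSL
  have hA6 : An (p : ℝ) ⇑E₆ := ModularFormClass.analyticAt_cuspFunction_zero E₆ hpp hperSL
  have hAH : An (p : ℝ) ⇑H := ModularFormClass.analyticAt_cuspFunction_zero H hpp hperG
  -- expansions with period `p`
  have hE4 : qExpansion (p : ℝ) ⇑E₄ = PowerSeries.expand p hp0 (qExpansion 1 E₄) :=
    qExpansion_natCast_eq_expand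
      (SlashInvariantFormClass.periodic_comp_ofComplex E₄ one_mem_strictPeriods_SL)
      (ModularFormClass.holo E₄) (ModularFormClass.bdd_at_infty E₄) p hp0
  have hE6 : qExpansion (p : ℝ) ⇑E₆ = PowerSeries.expand p hp0 (qExpansion 1 E₆) :=
    qExpansion_natCast_eq_expand
      (SlashInvariantFormClass.periodic_comp_ofComplex E₆ one_mem_strictPeriods_SL)
      (ModularFormClass.holo E₆) (ModularFormClass.bdd_at_infty E₆) p hp0
  have hH : qExpansion (p : ℝ) ⇑H = PowerSeries.expand p hp0 (qExpansion 1 H) :=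
    qExpansion_natCast_eq_expand
      (SlashInvariantFormClass.periodic_comp_ofComplex H
        (CongruenceSubgroup.one_mem_strictPeriods_Gamma0 p))
      (ModularFormClass.holo H) (ModularFormClass.bdd_at_infty H) p hp0
  -- the residue `u ≡ -1/p mod 8`
  obtain ⟨u, e, hu, hue⟩ : ∃ u e : ℤ, (u = 1 ∨ u = 5) ∧ 1 + u * (p : ℤ) = 8 * e := by
    have h8 : p % 8 = 3 ∨ p % 8 = 7 := by omega
    rcases h8 with h8 | h8
    · exact ⟨5, (1 + 5 * (p : ℤ)) / 8, Or.inr rfl, by omega⟩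
    · exact ⟨1, (1 + (p : ℤ)) / 8, Or.inl rfl, by omega⟩
  set D' := PowerSeries.expand p hp0 (qExpansion 1 discriminant) with hD'
  have hD'mem : D' ∈ coeffRing O := by
    rw [hD', Lib.helper386.qExpansion_discriminant]
    exact expand_mem_coeffRing O p hp0 (map_int_mem_coeffRing O _)
  -- the `p + 1` conjugate functions of `H`
  let G : Option (Fin p) → ℍ → ℂ := fun i =>
    i.elim (⇑H) (fun j => ⇑H ∣[(2 : ℤ)] (ModularGroup.S * ModularGroup.T ^ ((j : ℕ) : ℤ)))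
  have hGA : ∀ i, An (p : ℝ) (G i) := by
    rintro (_ | j)
    · exact hAH
    · exact (hC H j).1
  have hGX : ∀ i, ∃ h ∈ coeffRing O, qExpansion (p : ℝ) (G i) = 1 + 8 * h ∨
      qExpansion (p : ℝ) (G i) = 5 + 8 * h := by
    rintro (_ | j)
    · -- the form itself
      obtain ⟨h, hh, hX⟩ := exists_eq_C_add_eight_mul O 1 (qExpansion (p : ℝ) ⇑H)
        ⟨0, O.zero_mem, by
          rw [hH, ← mul_zero p, PowerSeries.coeff_expand_mul, h0]; ring⟩
        (fun n hn => by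
          rw [hH, PowerSeries.coeff_expand]
          split_ifs with hdvd
          · exact hk (n / p) (Nat.div_pos (Nat.le_of_dvd hn hdvd) hp.pos)
          · exact ⟨0, O.zero_mem, by ring⟩)
      exact ⟨h, hh, Or.inl (by rw [show G none = ⇑H from rfl, hX, map_one])⟩
    · obtain ⟨-, ζ, hζ, hco⟩ := hC H j
      have hζO := hOζ ζ hζ
      have hGj : G (some j) = ⇑H ∣[(2 : ℤ)] (ModularGroup.S * ModularGroup.T ^ ((j : ℕ) : ℤ)) :=
        rfl
      obtain ⟨h, hh, hX⟩ := exists_eq_C_add_eight_mul O (u : ℂ) (qExpansion (p : ℝ) (G (some j)))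
        ⟨-(e : ℂ) * (p : ℂ)⁻¹, O.mul_mem (O.neg_mem (intCast_mem O e)) hOp, by
          rw [hGj, hco 0, mul_zero, h0, pow_zero]
          have : (1 : ℂ) + u * p = 8 * e := by exact_mod_cast hue
          field_simp
          linear_combination (-1 : ℂ) * this⟩
        (fun n hn => by
          obtain ⟨c, hc, hce⟩ := hk (p * n) (Nat.mul_pos hp.pos hn)
          refine ⟨-(p : ℂ)⁻¹ * ζ ^ n * c,
            O.mul_mem (O.mul_mem (O.neg_mem hOp) (O.pow_mem hζO n)) hc, ?_⟩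
          rw [hGj, hco n, hce]; ring)
      refine ⟨h, hh, ?_⟩
      rcases hu with rfl | rfl
      · left; rw [hX]; simp
      · right; rw [hX, Int.cast_ofNat, map_ofNat]
  -- expansions of `B/256` at the conjugates
  have hY : ∀ i ∈ (Finset.univ : Finset (Option (Fin p))), ∃ Q ∈ coeffRing O,
      qExpansion (p : ℝ) (Bfun (G i)) = D' + 2 * Q := by
    intro i _
    obtain ⟨Q, hQ, hQe⟩ := Bpoly_qExpansion_expand O p hp0 (hGX i)
    refine ⟨Q, hQ, ?_⟩
    rw [qExpansion_Bfun hA4 hA6 (hGA i), hE4, hE6, hQe,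
      ← map_ofNat (PowerSeries.C (R := ℂ)) 256, PowerSeries.smul_eq_C_mul, ← mul_assoc, ← map_mul,
      show (256 : ℂ)⁻¹ * 256 = 1 by norm_num, map_one, one_mul]
  obtain ⟨Q, hQ, hQe⟩ := prod_eq_pow_add_two_mul (coeffRing O) hD'mem Finset.univ
    (fun i => qExpansion (p : ℝ) (Bfun (G i))) hY
  -- the norm of `B(H)/256`
  set N := ModularForm.norm 𝒮ℒ (Fform p H) with hN
  have hNfun : ⇑N = ∏ i : Option (Fin p), Bfun (G i) := by
    rw [hN, coe_norm_eq, Fintype.prod_option, coe_Fform]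
    congr 1
    exact Finset.prod_congr rfl fun j _ => Bfun_slash _ _
  have hNq : qExpansion (p : ℝ) ⇑N = D' ^ (p + 1) + 2 * Q := by
    rw [hNfun, UpperHalfPlane.qExpansion_prod Finset.univ (fun i _ => An.Bfun hA4 hA6 (hGA i)),
      hQe]
    simp [Finset.card_univ]
  -- coefficients of the norm
  have hcoef : ∀ n : ℕ, ∃ c ∈ O, PowerSeries.coeff n (qExpansion 1 N) =
      PowerSeries.coeff n (qExpansion 1 discriminant ^ (p + 1)) + 2 * c := by
    intro n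
    have h1 := levelOne_qExpansion_period_coeff N hp.pos (p * n)
    rw [if_pos (Dvd.intro n rfl), Nat.mul_div_cancel_left n hp.pos] at h1
    refine ⟨PowerSeries.coeff (p * n) Q, (mem_coeffRing_iff O Q).mp hQ _, ?_⟩
    rw [← h1, hNq, map_add, hD', ← map_pow, PowerSeries.coeff_expand_mul,
      ← map_ofNat (PowerSeries.C (R := ℂ)) 2, PowerSeries.coeff_C_mul]
  -- coefficients of `Δ^(p+1)`
  have hΔ : qExpansion 1 discriminant ^ (p + 1) =
      PowerSeries.X ^ (p + 1) * (ModularCurve.dedekindEtaUnit.map (Int.castRingHom ℂ)) ^ (p + 1) := by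
    rw [Lib.helper386.qExpansion_discriminant, Lib.helper386.deltaSeries_eq, map_mul,
      PowerSeries.map_X, mul_pow]
  have hΔlt : ∀ n : ℕ, n < p + 1 →
      PowerSeries.coeff n (qExpansion 1 discriminant ^ (p + 1)) = 0 := by
    intro n hn
    rw [hΔ, PowerSeries.coeff_X_pow_mul', if_neg (by omega)]
  have hΔeq : PowerSeries.coeff (p + 1) (qExpansion 1 discriminant ^ (p + 1)) = 1 := by
    rw [hΔ, PowerSeries.coeff_X_pow_mul', if_pos le_rfl, Nat.sub_self,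
      PowerSeries.coeff_zero_eq_constantCoeff_apply, map_pow,
      ← PowerSeries.coeff_zero_eq_constantCoeff_apply, PowerSeries.coeff_map,
      PowerSeries.coeff_zero_eq_constantCoeff_apply, ModularCurve.constantCoeff_dedekindEtaUnit]
    simp
  -- level-one Sturm bound modulo `2 O`
  let I : AddSubgroup ℂ := O.toAddSubgroup.map (AddMonoidHom.mulLeft (2 : ℂ))
  have hI : ∀ x : ℂ, x ∈ I ↔ ∃ c ∈ O, 2 * c = x := by
    intro x
    simp [I, AddSubgroup.mem_map]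
  have hmem := levelOne_not_congr_pow I N (p + 1) (by rw [card_coset p]; omega) (fun n hn => by
    obtain ⟨c, hc, hce⟩ := hcoef n
    rw [hce, hΔlt n hn, zero_add]
    exact (hI _).mpr ⟨c, hc, rfl⟩)
  obtain ⟨c₁, hc₁, hc₁e⟩ := (hI _).mp hmem
  obtain ⟨c₂, hc₂, hc₂e⟩ := hcoef (p + 1)
  rw [hc₂e, hΔeq] at hc₁e
  exact hO2 (c₁ - c₂) (O.sub_mem hc₁ hc₂) (by linear_combination hc₁e)

theorem inv_natCast_mem_oddInt {b : ℕ} (hb : Odd b) : ((b : ℂ))⁻¹ ∈ oddInt := by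
  have := intCast_div_odd_mem_oddInt 1 hb
  simpa [one_div] using this

/-- **The 2-adic case (T8).**  Let `p ≡ 3 mod 4` be prime.  There is no `H ∈ M₂(Γ₀(p))` whose
`q`-expansion is `1 + 8 (2-integral)`: `a₀(H) = 1` and `a_k(H) ∈ 8 · oddInt` for `k ≥ 1`. -/
theorem no_unit_mod_eight (p : ℕ) [Fact p.Prime] (hp4 : p % 4 = 3) (hC : Stmt_Conj p)
    (H : ModularForm (Gamma0 p : Subgroup (GL (Fin 2) ℝ)) 2)
    (h0 : PowerSeries.coeff 0 (qExpansion 1 H) = 1)
    (hk : ∀ k : ℕ, 1 ≤ k → ∃ c ∈ oddInt, PowerSeries.coeff k (qExpansion 1 H) = 8 * c) :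
    False := by
  have hp : p.Prime := Fact.out
  have hodd : Odd p := by rw [Nat.odd_iff]; omega
  exact no_unit_mod_eight_of_subring p hp4 hC oddInt
    (fun c hc => two_mul_ne_one_of_mem_oddInt hc) (inv_natCast_mem_oddInt hodd)
    (fun ζ hζ => rootOfUnity_mem_oddInt hp.pos hζ) H h0 hk

/-- **T8, consumer form** (the shape used by the upper-bound assembly).  Let `p ≡ 3 mod 4` be
prime and `G ∈ M₂(Γ₀(p))` with `a₀(G) = (p - 1)/24` and `a_k(G) ∈ m ℤ` for all `k ≥ 1`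
(e.g. `G = E_p - f` for a cusp form `f ≡ ∑ σ'(k) qᵏ mod m`).  Then `m` is odd. -/
theorem odd_of_forall_coeff_eq_mul (p : ℕ) [Fact p.Prime] (hp4 : p % 4 = 3) (hC : Stmt_Conj p)
    (G : ModularForm (Gamma0 p : Subgroup (GL (Fin 2) ℝ)) 2) (m : ℕ)
    (h0 : PowerSeries.coeff 0 (qExpansion 1 G) = ((p : ℂ) - 1) / 24)
    (hk : ∀ k : ℕ, 1 ≤ k → ∃ z : ℤ, PowerSeries.coeff k (qExpansion 1 G) = (m : ℂ) * z) :
    Odd m := by
  by_contra hm
  rw [Nat.not_odd_iff_even] at hm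
  obtain ⟨m', rfl⟩ := hm
  obtain ⟨q, hq, hqodd⟩ : ∃ q : ℕ, p = 2 * q + 1 ∧ Odd q :=
    ⟨(p - 1) / 2, by omega, by rw [Nat.odd_iff]; omega⟩
  have hqC : (q : ℂ) ≠ 0 := by
    have : q ≠ 0 := fun h => by simp [h] at hqodd
    exact_mod_cast this
  have hHq : qExpansion 1 (((12 : ℂ) / q) • G) = ((12 : ℂ) / q) • qExpansion 1 G :=
    ModularForm.qExpansion_smul one_pos (CongruenceSubgroup.one_mem_strictPeriods_Gamma0 p) _ G
  refine no_unit_mod_eight p hp4 hC (((12 : ℂ) / q) • G) ?_ ?_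
  · rw [FunLike.coe_smul, hHq, PowerSeries.coeff_smul, h0, hq, smul_eq_mul]
    push_cast
    field_simp
    ring
  · intro k hk1
    obtain ⟨z, hz⟩ := hk k hk1
    refine ⟨((3 * m' * z : ℤ) : ℂ) / (q : ℂ), intCast_div_odd_mem_oddInt _ hqodd, ?_⟩
    rw [FunLike.coe_smul, hHq, PowerSeries.coeff_smul, hz, smul_eq_mul]
    push_cast
    field_simp
    ring

/-! ## Discharging the CONJ input (from `helper144_Conj`) and the unconditional statements -/

/-- The CONJ input holds for every prime `p` (`helper144_Conj`: `W_p = -U_p`). -/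
theorem stmt_Conj (p : ℕ) [Fact p.Prime] : Stmt_Conj p := by
  intro H j
  have hp : p.Prime := Fact.out
  have : NeZero p := ⟨hp.ne_zero⟩
  refine ⟨(isNice_slash p H _).analyticAt (by exact_mod_cast hp.pos),
    Complex.exp (2 * π * Complex.I * (((j : ℕ) : ℤ) : ℂ) / p), ?_, fun n => ?_⟩
  · have h := exp_pow_mul_eq_one p ((j : ℕ) : ℤ) 1
    rwa [mul_one] at h
  · rw [qExpansion_slash_S_mul_T_zpow_coeff]
    ring

/-- **T8, unconditional (abstract coefficient ring).** -/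
theorem no_unit_mod_eight_of_subring' (p : ℕ) [Fact p.Prime] (hp4 : p % 4 = 3)
    (O : Subring ℂ) (hO2 : ∀ c ∈ O, 2 * c ≠ 1) (hOp : (p : ℂ)⁻¹ ∈ O)
    (hOζ : ∀ ζ : ℂ, ζ ^ p = 1 → ζ ∈ O)
    (H : ModularForm (Gamma0 p : Subgroup (GL (Fin 2) ℝ)) 2)
    (h0 : PowerSeries.coeff 0 (qExpansion 1 H) = 1)
    (hk : ∀ k : ℕ, 1 ≤ k → ∃ c ∈ O, PowerSeries.coeff k (qExpansion 1 H) = 8 * c) : False :=
  no_unit_mod_eight_of_subring p hp4 (stmt_Conj p) O hO2 hOp hOζ H h0 hk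

/-- **T8, unconditional.**  For a prime `p ≡ 3 mod 4` there is no `H ∈ M₂(Γ₀(p))` with
`a₀(H) = 1` and `a_k(H) ∈ 8 · oddInt` for all `k ≥ 1`. -/
theorem no_unit_mod_eight' (p : ℕ) [Fact p.Prime] (hp4 : p % 4 = 3)
    (H : ModularForm (Gamma0 p : Subgroup (GL (Fin 2) ℝ)) 2)
    (h0 : PowerSeries.coeff 0 (qExpansion 1 H) = 1)
    (hk : ∀ k : ℕ, 1 ≤ k → ∃ c ∈ oddInt, PowerSeries.coeff k (qExpansion 1 H) = 8 * c) :
    False :=
  no_unit_mod_eight p hp4 (stmt_Conj p) H h0 hk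

/-- **T8, unconditional, rational form**: no `H ∈ M₂(Γ₀(p))`, `p ≡ 3 mod 4` prime, with
`a₀(H) = 1` and `a_k(H) = 8 a / b`, `b` odd, for all `k ≥ 1`. -/
theorem no_unit_mod_eight_rat (p : ℕ) [Fact p.Prime] (hp4 : p % 4 = 3)
    (H : ModularForm (Gamma0 p : Subgroup (GL (Fin 2) ℝ)) 2)
    (h0 : PowerSeries.coeff 0 (qExpansion 1 H) = 1)
    (hk : ∀ k : ℕ, 1 ≤ k → ∃ (a : ℤ) (b : ℕ), Odd b ∧
      PowerSeries.coeff k (qExpansion 1 H) = 8 * ((a : ℂ) / (b : ℂ))) : False :=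
  no_unit_mod_eight' p hp4 H h0 fun k hk1 => by
    obtain ⟨a, b, hb, hab⟩ := hk k hk1
    exact ⟨(a : ℂ) / (b : ℂ), intCast_div_odd_mem_oddInt a hb, hab⟩

/-- **T8, unconditional consumer form**: for a prime `p ≡ 3 mod 4` and `G ∈ M₂(Γ₀(p))` with
`a₀(G) = (p - 1)/24` and `a_k(G) ∈ m ℤ` for all `k ≥ 1`, the modulus `m` is odd. -/
theorem odd_of_forall_coeff_eq_mul' (p : ℕ) [Fact p.Prime] (hp4 : p % 4 = 3)
    (G : ModularForm (Gamma0 p : Subgroup (GL (Fin 2) ℝ)) 2) (m : ℕ)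
    (h0 : PowerSeries.coeff 0 (qExpansion 1 G) = ((p : ℂ) - 1) / 24)
    (hk : ∀ k : ℕ, 1 ≤ k → ∃ z : ℤ, PowerSeries.coeff k (qExpansion 1 G) = (m : ℂ) * z) :
    Odd m :=
  odd_of_forall_coeff_eq_mul p hp4 (stmt_Conj p) G m h0 hk

end Main

end Fermat.Agent.S16.helper4426
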