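import Mathlib
import Fermat.Prelude.Def_CuspForm_HeckeLocal
import Fermat.Prelude.Def_CuspForm_HeckeEvalForms
import Fermat.Prelude.Def_HeckeGalois_EichlerShimura
import Fermat.Prelude.Def_ModularCurve_ModularUnit
import Fermat.Agent.S07.helper67_Index
import Fermat.Agent.Lib.helper1356_Gamma0Index

/-!
# S16 for the primes `p = 2` and `p = 3` (helper969)

For `p ∈ {2, 3}` the space `S₂(Γ₀(p))` is zero (Sturm bound: `2 * [SL₂(ℤ) : Γ₀(p)] < 12`), so the
integral lattice is trivial, the lattice Hecke algebra is the zero ring and the quotient by the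
Eisenstein ideal has one element, which is `eisensteinNumerator p`.

Main results:
* `card_eq_one_of_cuspForms_eq_zero` : if every weight-2 cusp form of level `Γ₀(p)` vanishes, the
  quotient of the frozen statement has cardinality `1`;
* `frozen_two`, `frozen_three` : the frozen statement at `p = 2`, `p = 3`;
* `frozen_of_five_le` : the frozen statement for all primes follows from the primes `p ≥ 5`.
-/

set_option autoImplicit false
open ModularCurve CuspForm
open ModularCurve

namespace Fermat.Agent.S16.helper969

/-- If all weight-2 cusp forms of level `Γ₀(p)` vanish, the lattice Hecke algebra is the zero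
ring, so its quotient by (the image of) the Eisenstein ideal has exactly one element. -/
theorem card_eq_one_of_cuspForms_eq_zero (p : ℕ) [Fact p.Prime]
    (h : ∀ f : CuspForm (CongruenceSubgroup.Gamma0 p) 2, f = 0) :
    Nat.card (↥(heckeLatticeAlgebra p ∅) ⧸
        Ideal.map ((latticeRestrictHom p ∅).toRingHom.comp (heckeEvalForms p 2))
          (eisensteinIdeal p)) = 1 := by
  have hsub : Subsingleton ↥(intLattice p 2) :=
    ⟨fun a b => Subtype.ext ((h a.1).trans (h b.1).symm)⟩
  have hend : Subsingleton (Module.End ℤ ↥(intLattice p 2)) :=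
    ⟨fun a b => LinearMap.ext fun x => Subsingleton.elim _ _⟩
  have hT : Subsingleton ↥(heckeLatticeAlgebra p ∅) :=
    ⟨fun a b => Subtype.ext (Subsingleton.elim _ _)⟩
  have hQ : Subsingleton (↥(heckeLatticeAlgebra p ∅) ⧸
      Ideal.map ((latticeRestrictHom p ∅).toRingHom.comp (heckeEvalForms p 2))
        (eisensteinIdeal p)) :=
    ⟨fun a b => by
      obtain ⟨a, rfl⟩ := Ideal.Quotient.mk_surjective a
      obtain ⟨b, rfl⟩ := Ideal.Quotient.mk_surjective b
      rw [Subsingleton.elim a b]⟩
  exact Nat.card_unique

/-- The index of `Γ₀(3)` in `SL(2, ℤ)` is `4`. -/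
theorem index_Gamma0_three : (CongruenceSubgroup.Gamma0 3).index = 4 := by
  have h := Fermat.Agent.Lib.helper1356.relIndex_Gamma0_mul_prime (M := 1) (p := 3)
    Nat.prime_three one_ne_zero
  rw [Fermat.Agent.Lib.helper1356.Gamma0_one_eq_top, Subgroup.relIndex_top_right] at h
  simpa using h

/-- Every weight-2 cusp form of level `Γ₀(2)` is zero. -/
theorem cuspForm_two_eq_zero (f : CuspForm (CongruenceSubgroup.Gamma0 2) 2) : f = 0 := by
  refine Fermat.Agent.S07.helper67.cuspForm_eq_zero_of_small 2 ?_ f
  have h := Fermat.Agent.S07.helper67.index_Gamma0_le 2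
  have h2 : ((2 : ℤ) * ((CongruenceSubgroup.Gamma0 2).index : ℤ)).toNat ≤ 8 := by
    have : ((2 : ℤ) * ((CongruenceSubgroup.Gamma0 2).index : ℤ)) ≤ 8 := by
      have : ((CongruenceSubgroup.Gamma0 2).index : ℤ) ≤ 4 := by exact_mod_cast h
      linarith
    omega
  omega

/-- Every weight-2 cusp form of level `Γ₀(3)` is zero. -/
theorem cuspForm_three_eq_zero (f : CuspForm (CongruenceSubgroup.Gamma0 3) 2) : f = 0 := by
  refine Fermat.Agent.S07.helper67.cuspForm_eq_zero_of_small 3 ?_ f
  rw [index_Gamma0_three]
  norm_num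

/-- The frozen statement S16 at `p = 2`. -/
theorem frozen_two [Fact (Nat.Prime 2)] :
    Nat.card (↥(heckeLatticeAlgebra 2 ∅) ⧸
        Ideal.map ((latticeRestrictHom 2 ∅).toRingHom.comp (heckeEvalForms 2 2))
          (eisensteinIdeal 2)) =
      eisensteinNumerator 2 := by
  rw [card_eq_one_of_cuspForms_eq_zero 2 cuspForm_two_eq_zero]
  decide

/-- The frozen statement S16 at `p = 3`. -/
theorem frozen_three [Fact (Nat.Prime 3)] :
    Nat.card (↥(heckeLatticeAlgebra 3 ∅) ⧸
        Ideal.map ((latticeRestrictHom 3 ∅).toRingHom.comp (heckeEvalForms 3 2))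
          (eisensteinIdeal 3)) =
      eisensteinNumerator 3 := by
  rw [card_eq_one_of_cuspForms_eq_zero 3 cuspForm_three_eq_zero]
  decide

/-- The frozen statement S16 for all primes follows from the case `p ≥ 5`. -/
theorem frozen_of_five_le
    (H : ∀ (p : ℕ) [Fact p.Prime], 5 ≤ p →
      Nat.card (↥(heckeLatticeAlgebra p ∅) ⧸
          Ideal.map ((latticeRestrictHom p ∅).toRingHom.comp (heckeEvalForms p 2))
            (eisensteinIdeal p)) =
        eisensteinNumerator p)
    (p : ℕ) [hp : Fact p.Prime] :
    Nat.card (↥(heckeLatticeAlgebra p ∅) ⧸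
        Ideal.map ((latticeRestrictHom p ∅).toRingHom.comp (heckeEvalForms p 2))
          (eisensteinIdeal p)) =
      eisensteinNumerator p := by
  by_cases h5 : 5 ≤ p
  · exact H p h5
  · have h2 := hp.out.two_le
    have hcases : p = 2 ∨ p = 3 := by
      have h4 : p ≠ 4 := by
        rintro rfl
        exact absurd hp.out (by norm_num)
      omega
    rcases hcases with rfl | rfl
    · exact frozen_two
    · exact frozen_three

end Fermat.Agent.S16.helper969
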