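import Mathlib
import Fermat.Prelude.Def_ModularCurve_PeriodMap

/-!
# S16, lower bound: the Shimura class lifts to an integral parabolic homomorphism

For a prime `p`, the "Shimura class" `γ ↦ d(γ) ^ 12 ∈ (ZMod p)ˣ` of `Γ₀(p)` is the reduction of an
integral homomorphism `Γ₀(p) → ℤ` killing every element of trace `± 2`.  Consequently every
`γ ∈ Γ₀(p)` killed by all complex parabolic homomorphisms has `d(γ) ^ 12 = 1`.

The proof is explicit: potentials on `SL(2, ℤ)` with prescribed jumps along `S` and no jump along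
`U = S * T` are constructed as signed counts of Farey geodesics separating `ρ` from `g ρ`.
-/

set_option autoImplicit false

namespace Fermat.Agent.S16.helper1144

open scoped MatrixGroups
open ModularGroup CongruenceSubgroup

/-! ### Generalities -/

/-- A function on a group which is right-invariant under a generating set is constant. -/
theorem const_of_right_invariant {G A : Type*} [Group G] (s : Set G)
    (hs : Subgroup.closure s = ⊤) (δ : G → A)
    (h : ∀ x ∈ s, ∀ g, δ (g * x) = δ g) : ∀ g, δ g = δ 1 := by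
  let P : Subgroup G :=
    { carrier := {x | ∀ g, δ (g * x) = δ g}
      one_mem' := by intro g; simp
      mul_mem' := by
        intro a b ha hb g
        rw [← mul_assoc, hb, ha]
      inv_mem' := by
        intro a ha g
        have := ha (g * a⁻¹)
        simp only [inv_mul_cancel_right] at this
        exact this.symm }
  have hle : Subgroup.closure s ≤ P := (Subgroup.closure_le P).mpr fun x hx => h x hx
  intro g
  have hg : g ∈ P := hle (hs ▸ Subgroup.mem_top g)
  simpa using hg 1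

/-- The element `U = S * T` of order `6`. -/
def U : SL(2, ℤ) := S * T

theorem U_pow_six : U ^ 6 = 1 := by decide
theorem S_pow_four : (S : SL(2, ℤ)) ^ 4 = 1 := by decide
theorem S_mul_S : (S : SL(2, ℤ)) * S = -1 := by decide
theorem S_inv : (S : SL(2, ℤ))⁻¹ = -S := by decide
theorem T_eq : (T : SL(2, ℤ)) = S⁻¹ * U := by simp [U]

theorem closure_S_U : Subgroup.closure ({S, U} : Set SL(2, ℤ)) = ⊤ := by
  rw [eq_top_iff, ← SpecialLinearGroup.SL2Z_generators, Subgroup.closure_le]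
  intro x hx
  rcases hx with rfl | rfl
  · exact Subgroup.subset_closure (by simp)
  · rw [T_eq]
    exact Subgroup.mul_mem _ (Subgroup.inv_mem _ (Subgroup.subset_closure (by simp)))
      (Subgroup.subset_closure (by simp))

/-! ### The side function -/

/-- `q m` is `2 |c ρ + d|² Re (m • ρ)` for `ρ = e^{2πi/3}`; an odd integer. -/
def q (m : SL(2, ℤ)) : ℤ :=
  2 * (m 0 0 * m 1 0 + m 0 1 * m 1 1) - (m 0 0 * m 1 1 + m 0 1 * m 1 0)

/-- The indicator of the side `Re (m • ρ) > 0`. -/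
def pos (m : SL(2, ℤ)) : ℤ := if 0 < q m then 1 else 0

theorem det_eq (m : SL(2, ℤ)) : m 0 0 * m 1 1 - m 0 1 * m 1 0 = 1 := by
  have := m.det_coe
  rwa [Matrix.det_fin_two] at this

theorem mul_S_apply (m : SL(2, ℤ)) :
    (m * S) 0 0 = m 0 1 ∧ (m * S) 0 1 = -m 0 0 ∧ (m * S) 1 0 = m 1 1 ∧ (m * S) 1 1 = -m 1 0 := by
  simp [Matrix.SpecialLinearGroup.coe_mul, coe_S, Matrix.mul_apply, Fin.sum_univ_two]

theorem mul_U_apply (m : SL(2, ℤ)) :
    (m * U) 0 0 = m 0 1 ∧ (m * U) 0 1 = -m 0 0 + m 0 1 ∧ (m * U) 1 0 = m 1 1 ∧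
      (m * U) 1 1 = -m 1 0 + m 1 1 := by
  simp [U, Matrix.SpecialLinearGroup.coe_mul, coe_S, coe_T, Matrix.mul_apply, Fin.sum_univ_two]

theorem q_mul_U (m : SL(2, ℤ)) : q (m * U) = q m := by
  obtain ⟨h1, h2, h3, h4⟩ := mul_U_apply m
  simp only [q, h1, h2, h3, h4]
  ring

theorem q_mul_S (m : SL(2, ℤ)) :
    q (m * S) = 2 * (m 0 0 * m 1 0 + m 0 1 * m 1 1) + (m 0 0 * m 1 1 + m 0 1 * m 1 0) := by
  obtain ⟨h1, h2, h3, h4⟩ := mul_S_apply m
  simp only [q, h1, h2, h3, h4]
  ring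

theorem q_neg (m : SL(2, ℤ)) : q (-m) = q m := by
  simp only [q, Matrix.SpecialLinearGroup.coe_neg, Matrix.neg_apply]
  ring

theorem pos_mul_U (m : SL(2, ℤ)) : pos (m * U) = pos m := by
  simp only [pos, q_mul_U]

theorem pos_neg (m : SL(2, ℤ)) : pos (-m) = pos m := by
  simp only [pos, q_neg]

theorem pos_one : pos 1 = 0 := by decide
theorem pos_S : pos S = 1 := by decide
theorem pos_neg_one : pos (-1) = 0 := by decide
theorem pos_neg_S : pos (-S) = 1 := by decide

/-- The only Farey geodesics separating `ρ` from `ρ + 1` are the two orientations of the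
imaginary axis. -/
theorem eq_of_pos_mul_S_ne (m : SL(2, ℤ)) (h : pos (m * S) ≠ pos m) :
    m = 1 ∨ m = -1 ∨ m = S ∨ m = -S := by
  have hdet := det_eq m
  set a := m 0 0 with ha
  set b := m 0 1 with hb
  set c := m 1 0 with hc
  set d := m 1 1 with hd
  have hq : q m = 2 * (a * c + b * d) - (a * d + b * c) := rfl
  have hqS : q (m * S) = 2 * (a * c + b * d) + (a * d + b * c) := q_mul_S m
  -- the product of the two values is nonpositive
  have hprod : (2 * (a * c + b * d) - (a * d + b * c)) * (2 * (a * c + b * d) + (a * d + b * c))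
      ≤ 0 := by
    unfold pos at h
    rw [hq, hqS] at h
    by_cases h1 : 0 < 2 * (a * c + b * d) - (a * d + b * c)
    · by_cases h2 : 0 < 2 * (a * c + b * d) + (a * d + b * c)
      · rw [if_pos h1, if_pos h2] at h
        exact absurd rfl h
      · exact mul_nonpos_of_nonneg_of_nonpos h1.le (not_lt.mp h2)
    · by_cases h2 : 0 < 2 * (a * c + b * d) + (a * d + b * c)
      · exact mul_nonpos_of_nonpos_of_nonneg (not_lt.mp h1) h2.le
      · rw [if_neg h1, if_neg h2] at h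
        exact absurd rfl h
  -- hence `(2ac + bd)² + 3 (bd)² ≤ 1`
  have hkey : (2 * (a * c) + b * d) ^ 2 + 3 * (b * d) ^ 2 ≤ 1 := by
    nlinarith [hprod, hdet]
  have hbd : b * d = 0 := by
    by_contra hne
    have : 1 ≤ (b * d) ^ 2 := by
      have := sq_nonneg (b * d)
      rcases lt_or_gt_of_ne hne with h1 | h1 <;> nlinarith
    nlinarith [sq_nonneg (2 * (a * c) + b * d)]
  have hac : a * c = 0 := by
    by_contra hne
    have : 1 ≤ (a * c) ^ 2 := by
      rcases lt_or_gt_of_ne hne with h1 | h1 <;> nlinarith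
    rw [hbd] at hkey
    nlinarith
  have hext : ∀ m' : SL(2, ℤ), m' 0 0 = a → m' 0 1 = b → m' 1 0 = c → m' 1 1 = d → m = m' := by
    intro m' h00 h01 h10 h11
    ext i j
    fin_cases i <;> fin_cases j <;> simp_all
  rcases mul_eq_zero.mp hac with ha0 | hc0
  · -- a = 0, so b c = -1 and d = 0
    have hbc : b * c = -1 := by rw [ha0] at hdet; linarith
    have hb0 : b ≠ 0 := by rintro h0; rw [h0] at hbc; simp at hbc
    have hd0 : d = 0 := (mul_eq_zero.mp hbd).resolve_left hb0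
    rcases Int.isUnit_iff.mp (IsUnit.of_mul_eq_one (-c) (by linarith) : IsUnit b) with h1 | h1
    · -- b = 1, c = -1 : m = -S
      have hc1 : c = -1 := by rw [h1] at hbc; linarith
      right; right; right
      exact hext (-S) (by rw [ha0]; decide) (by rw [h1]; decide) (by rw [hc1]; decide)
        (by rw [hd0]; decide)
    · -- b = -1, c = 1 : m = S
      have hc1 : c = 1 := by rw [h1] at hbc; linarith
      right; right; left
      exact hext S (by rw [ha0]; decide) (by rw [h1]; decide) (by rw [hc1]; decide)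
        (by rw [hd0]; decide)
  · -- c = 0, so a d = 1 and b = 0
    have had : a * d = 1 := by rw [hc0] at hdet; linarith
    have hd0 : d ≠ 0 := by rintro h0; rw [h0] at had; simp at had
    have hb0 : b = 0 := (mul_eq_zero.mp hbd).resolve_right hd0
    rcases Int.isUnit_iff.mp (IsUnit.of_mul_eq_one d had : IsUnit a) with h1 | h1
    · have hd1 : d = 1 := by rw [h1] at had; linarith
      left
      exact hext 1 (by rw [h1]; decide) (by rw [hb0]; decide) (by rw [hc0]; decide)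
        (by rw [hd1]; decide)
    · have hd1 : d = -1 := by rw [h1] at had; linarith
      right; left
      exact hext (-1) (by rw [h1]; decide) (by rw [hb0]; decide) (by rw [hc0]; decide)
        (by rw [hd1]; decide)

/-! ### The crossing potential -/

/-- The set of `m` whose side changes under right multiplication by `x`. -/
def chg (x : SL(2, ℤ)) : Set SL(2, ℤ) := {m | pos (m * x) ≠ pos m}

theorem chg_finite (x : SL(2, ℤ)) : (chg x).Finite := by
  have hx : x ∈ Subgroup.closure ({S, U} : Set SL(2, ℤ)) := closure_S_U ▸ Subgroup.mem_top x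
  induction hx using Subgroup.closure_induction with
  | mem x hx =>
    rcases hx with rfl | rfl
    · refine Set.Finite.subset (Set.toFinite {1, -1, S, -S}) ?_
      intro m hm
      simpa using eq_of_pos_mul_S_ne m hm
    · have : chg U = ∅ := by
        ext m
        simp [chg, pos_mul_U]
      rw [this]
      exact Set.finite_empty
  | one =>
    have : chg 1 = ∅ := by
      ext m
      simp [chg]
    rw [this]
    exact Set.finite_empty
  | mul x y _ _ hx hy =>
    refine Set.Finite.subset (hx.union (hy.preimage (f := (· * x))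
      (Set.injOn_of_injective (mul_left_injective x)))) ?_
    intro m hm
    by_cases h1 : pos (m * x) = pos m
    · right
      show pos (m * x * y) ≠ pos (m * x)
      rw [h1, mul_assoc]
      exact hm
    · left
      exact h1
  | inv x _ hx =>
    refine Set.Finite.subset (hx.preimage (f := (· * x⁻¹))
      (Set.injOn_of_injective (mul_left_injective x⁻¹))) ?_
    intro m hm
    show pos (m * x⁻¹ * x) ≠ pos (m * x⁻¹)
    rw [inv_mul_cancel_right]
    exact fun h => hm h.symm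

/-- A half-system of `SL(2, ℤ)` modulo `± 1`. -/
def half (h : SL(2, ℤ)) : Prop := 0 < h 1 0 ∨ (h 1 0 = 0 ∧ 0 < h 1 1)

instance : DecidablePred half := fun h => by
  unfold half
  infer_instance

theorem half_neg_iff (h : SL(2, ℤ)) : half (-h) ↔ ¬ half h := by
  have hdet := det_eq h
  simp only [half, Matrix.SpecialLinearGroup.coe_neg, Matrix.neg_apply]
  constructor
  · rintro (h1 | ⟨h1, h2⟩) (h3 | ⟨h3, h4⟩) <;> omega
  · intro hn
    obtain ⟨hn1, hn2⟩ := not_or.mp hn
    rcases lt_trichotomy (h 1 0) 0 with hc | hc | hc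
    · left
      omega
    · right
      refine ⟨by omega, ?_⟩
      have h2 : ¬ 0 < h 1 1 := fun h0 => hn2 ⟨hc, h0⟩
      have h3 : h 1 1 ≠ 0 := by
        intro h0
        rw [hc, h0] at hdet
        simp at hdet
      omega
    · exact absurd hc hn1

/-- The summand of the crossing potential. -/
def term (κ : SL(2, ℤ) → ℤ) (g h : SL(2, ℤ)) : ℤ := (pos (h⁻¹ * g) - pos h⁻¹) * κ h

theorem term_support_finite (κ : SL(2, ℤ) → ℤ) (g : SL(2, ℤ)) :
    Function.HasFiniteSupport (term κ g) := by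
  refine Set.Finite.subset ((chg_finite g).preimage (f := fun h => h⁻¹)
    (Set.injOn_of_injective inv_injective)) ?_
  intro h hh
  rw [Function.mem_support] at hh
  show pos (h⁻¹ * g) ≠ pos h⁻¹
  intro h0
  apply hh
  simp [term, h0]

/-- The crossing potential: the signed number of Farey geodesics (weighted by `κ`) separating
`ρ` from `g ρ`. -/
noncomputable def pot (κ : SL(2, ℤ) → ℤ) (g : SL(2, ℤ)) : ℤ := ∑ᶠ h, term κ g h

theorem pot_one (κ : SL(2, ℤ) → ℤ) : pot κ 1 = 0 := by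
  simp [pot, term]

theorem pot_mul_U (κ : SL(2, ℤ) → ℤ) (g : SL(2, ℤ)) : pot κ (g * U) = pot κ g := by
  unfold pot
  congr 1
  funext h
  simp only [term, ← mul_assoc, pos_mul_U]

theorem neg_ne_self (g : SL(2, ℤ)) : -g ≠ g := by
  intro h
  have h1 : (-1 : SL(2, ℤ)) = 1 := by
    have := congrArg (· * g⁻¹) h
    simpa using this
  exact absurd h1 (by decide)

theorem mul_S_ne_self (g : SL(2, ℤ)) : g * S ≠ g := by
  intro h
  have h1 : (S : SL(2, ℤ)) = 1 := by
    have := congrArg (g⁻¹ * ·) h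
    simpa using this
  exact absurd h1 (by decide)

theorem mul_S_ne_neg (g : SL(2, ℤ)) : g * S ≠ -g := by
  intro h
  have h1 : (S : SL(2, ℤ)) = -1 := by
    have := congrArg (g⁻¹ * ·) h
    simpa using this
  exact absurd h1 (by decide)

theorem pot_mul_S (κ : SL(2, ℤ) → ℤ) (g : SL(2, ℤ)) :
    pot κ (g * S) - pot κ g = κ g + κ (-g) - κ (g * S) - κ (-(g * S)) := by
  unfold pot
  rw [← finsum_sub_distrib (term_support_finite κ _) (term_support_finite κ _)]
  have hsupp : Function.support (fun h => term κ (g * S) h - term κ g h) ⊆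
      (({g, -g, g * S, -(g * S)} : Finset SL(2, ℤ)) : Set SL(2, ℤ)) := by
    intro h hh
    rw [Function.mem_support] at hh
    have hne : pos (h⁻¹ * g * S) ≠ pos (h⁻¹ * g) := by
      intro h0
      apply hh
      simp [term, ← mul_assoc, h0]
    have hcases := eq_of_pos_mul_S_ne _ hne
    simp only [Finset.coe_insert, Finset.coe_singleton, Set.mem_insert_iff, Set.mem_singleton_iff]
    rcases hcases with h1 | h1 | h1 | h1
    · left
      exact (inv_mul_eq_one.mp h1)
    · right; left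
      have : h⁻¹ * (-g) = 1 := by rw [mul_neg, h1, neg_neg]
      exact (inv_mul_eq_one.mp this)
    · right; right; right
      have : h⁻¹ * (-(g * S)) = 1 := by
        rw [mul_neg, ← mul_assoc, h1, S_mul_S, neg_neg]
      exact (inv_mul_eq_one.mp this)
    · right; right; left
      have : h⁻¹ * (g * S) = 1 := by
        rw [← mul_assoc, h1, neg_mul, S_mul_S, neg_neg]
      exact (inv_mul_eq_one.mp this)
  rw [finsum_eq_sum_of_support_subset _ hsupp]
  have h1 : g ∉ ({-g, g * S, -(g * S)} : Finset SL(2, ℤ)) := by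
    simp only [Finset.mem_insert, Finset.mem_singleton, not_or]
    refine ⟨fun h => neg_ne_self g h.symm, fun h => mul_S_ne_self g h.symm, fun h => ?_⟩
    have h' := congrArg Neg.neg h
    rw [neg_neg] at h'
    exact mul_S_ne_neg g h'.symm
  have h2 : -g ∉ ({g * S, -(g * S)} : Finset SL(2, ℤ)) := by
    simp only [Finset.mem_insert, Finset.mem_singleton, not_or]
    refine ⟨fun h => mul_S_ne_neg g h.symm, fun h => ?_⟩
    exact mul_S_ne_self g (neg_injective h).symm
  have h3 : g * S ∉ ({-(g * S)} : Finset SL(2, ℤ)) := by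
    simp only [Finset.mem_singleton]
    exact fun h => neg_ne_self (g * S) h.symm
  rw [Finset.sum_insert h1, Finset.sum_insert h2, Finset.sum_insert h3, Finset.sum_singleton]
  have e1 : g⁻¹ * (g * S) = S := by group
  have e2 : (-g)⁻¹ * (g * S) = -S := by
    rw [show (-g)⁻¹ = -g⁻¹ by simp, neg_mul, e1]
  have e3 : (-g)⁻¹ * g = -1 := by
    rw [show (-g)⁻¹ = -g⁻¹ by simp, neg_mul, inv_mul_cancel]
  have e4 : (g * S)⁻¹ * g = -S := by
    rw [mul_inv_rev, inv_mul_cancel_right, S_inv]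
  have e5 : (-(g * S))⁻¹ * (g * S) = -1 := by
    rw [show (-(g * S))⁻¹ = -(g * S)⁻¹ by simp, neg_mul, inv_mul_cancel]
  have e6 : (-(g * S))⁻¹ * g = S := by
    rw [show (-(g * S))⁻¹ = -(g * S)⁻¹ by simp, neg_mul, e4, neg_neg]
  simp only [term, e1, e2, e3, e4, e5, e6, inv_mul_cancel, pos_one, pos_S, pos_neg_one, pos_neg_S]
  ring

/-- **Existence of potentials.**  For every even function `κ` on `SL(2, ℤ)` there is a function
`β` with `β 1 = 0`, no jump along `U` and jump `κ g - κ (g S)` along `S`. -/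
theorem exists_potential (κ : SL(2, ℤ) → ℤ) (heven : ∀ h, κ (-h) = κ h) :
    ∃ β : SL(2, ℤ) → ℤ, β 1 = 0 ∧ (∀ g, β (g * U) = β g) ∧
      ∀ g, β (g * S) - β g = κ g - κ (g * S) := by
  have hhalf : ∀ g : SL(2, ℤ),
      (if half g then κ g else 0) + (if half (-g) then κ (-g) else 0) = κ g := by
    intro g
    by_cases hg : half g
    · rw [if_pos hg, if_neg ((half_neg_iff g).not.mpr (not_not.mpr hg)), add_zero]
    · rw [if_neg hg, if_pos ((half_neg_iff g).mpr hg), zero_add, heven]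
  refine ⟨pot fun h => if half h then κ h else 0, pot_one _, pot_mul_U _, fun g => ?_⟩
  rw [pot_mul_S]
  have h1 := hhalf g
  have h2 := hhalf (g * S)
  linarith

/-! ### Equivariant functions on double cosets -/

/-- If a character `ψ` of `Γ` is trivial on all stabilisers of the action of `Γ × E` on `G`
(`(γ, u) • g = γ g u`), then there is a `ψ`-equivariant, right `E`-invariant function on `G`. -/
theorem exists_equivariant {G A : Type*} [Group G] [CommGroup A] (Γ E : Subgroup G) (ψ : Γ →* A)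
    (hstab : ∀ (γ : Γ) (g u : G), u ∈ E → (γ : G) * g * u = g → ψ γ = 1) :
    ∃ β : G → A, (∀ (γ : Γ) (g u : G), u ∈ E → β ((γ : G) * g * u) = ψ γ * β g) ∧
      ∀ g, ∃ γ : Γ, β g = ψ γ := by
  classical
  let r := DoubleCoset.setoid (Γ : Set G) (E : Set G)
  let rep : G → G := fun g => (Quotient.mk r g).out
  have hrep : ∀ g, ∃ γ : Γ, ∃ u ∈ E, g = (γ : G) * rep g * u := by
    intro g
    have h1 : r (rep g) g := Quotient.exact (Quotient.out_eq (Quotient.mk r g))
    obtain ⟨a, ha, b, hb, hab⟩ := DoubleCoset.rel_iff.mp h1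
    exact ⟨⟨a, ha⟩, b, hb, hab⟩
  choose γf uf huf hγf using hrep
  have hrep_eq : ∀ (γ : Γ) (g u : G), u ∈ E → rep ((γ : G) * g * u) = rep g := by
    intro γ g u hu
    have h1 : r g ((γ : G) * g * u) := DoubleCoset.rel_iff.mpr ⟨γ, γ.2, u, hu, rfl⟩
    show (Quotient.mk r _).out = (Quotient.mk r _).out
    rw [Quotient.sound h1]
  have aux : ∀ (R g : G) (γ a a' : Γ) (v v' u : G), v ∈ E → v' ∈ E → u ∈ E →
      g = (a : G) * R * v → (γ : G) * g * u = (a' : G) * R * v' → ψ a' = ψ γ * ψ a := by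
    intro R g γ a a' v v' u hv hv' hu h1 h2
    subst h1
    have key : ((a'⁻¹ * γ * a : Γ) : G) * R * (v * u * v'⁻¹) = R := by
      calc ((a'⁻¹ * γ * a : Γ) : G) * R * (v * u * v'⁻¹)
          = (a' : G)⁻¹ * ((γ : G) * ((a : G) * R * v) * u) * v'⁻¹ := by
            simp only [Subgroup.coe_mul, Subgroup.coe_inv]
            group
        _ = (a' : G)⁻¹ * ((a' : G) * R * v') * v'⁻¹ := by rw [h2]
        _ = R := by group
    have h3 := hstab _ R _ (E.mul_mem (E.mul_mem hv hu) (E.inv_mem hv')) key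
    rw [map_mul, map_mul, map_inv, mul_assoc] at h3
    exact inv_mul_eq_one.mp h3
  refine ⟨fun g => ψ (γf g), ?_, fun g => ⟨γf g, rfl⟩⟩
  intro γ g u hu
  have e1 := hγf ((γ : G) * g * u)
  rw [hrep_eq γ g u hu] at e1
  exact aux (rep g) g γ (γf g) (γf ((γ : G) * g * u)) (uf g) (uf ((γ : G) * g * u)) u
    (huf g) (huf _) hu (hγf g) e1

/-- Potentials with left-invariant jumps restrict to homomorphisms. -/
theorem potential_add (Γ : Subgroup SL(2, ℤ)) (β κ : SL(2, ℤ) → ℤ) (h1 : β 1 = 0)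
    (hU : ∀ g, β (g * U) = β g) (hS : ∀ g, β (g * S) - β g = κ g - κ (g * S))
    (hκ : ∀ γ ∈ Γ, ∀ g, κ (γ * g) = κ g) :
    ∀ γ ∈ Γ, ∀ g, β (γ * g) = β γ + β g := by
  intro γ hγ
  have hconst := const_of_right_invariant ({S, U} : Set SL(2, ℤ)) closure_S_U
    (fun g => β (γ * g) - β g) (by
      intro x hx g
      rcases hx with rfl | rfl
      · show β (γ * (g * S)) - β (g * S) = β (γ * g) - β g
        have e1 := hS (γ * g)
        have e2 := hS g
        rw [mul_assoc] at e1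
        rw [hκ γ hγ g, ← mul_assoc, mul_assoc, hκ γ hγ (g * S)] at e1
        linarith
      · show β (γ * (g * U)) - β (g * U) = β (γ * g) - β g
        rw [← mul_assoc, hU, hU])
  intro g
  have := hconst g
  simp only [mul_one, h1, sub_zero] at this
  linarith

/-! ### Trace `± 2` elements -/

/-- Build an element of `SL(2, ℤ)` with prescribed first column from a Bezout relation. -/
def colMat (x y u v : ℤ) (h : u * x + v * y = 1) : SL(2, ℤ) :=
  ⟨!![x, -v; y, u], by rw [Matrix.det_fin_two_of]; linarith⟩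

theorem conj_apply_one_zero (γ δ : SL(2, ℤ)) :
    (δ⁻¹ * γ * δ) 1 0
      = -(δ 1 0) * (γ 0 0 * δ 0 0 + γ 0 1 * δ 1 0) + δ 0 0 * (γ 1 0 * δ 0 0 + γ 1 1 * δ 1 0) := by
  simp only [Matrix.SpecialLinearGroup.coe_mul, Matrix.SpecialLinearGroup.coe_inv,
    Matrix.adjugate_fin_two, Matrix.mul_apply, Fin.sum_univ_two, Matrix.of_apply,
    Matrix.cons_val_zero, Matrix.cons_val_one]
  ring

/-- A trace `± 2` element of `SL(2, ℤ)` is conjugate to an upper triangular matrix. -/
theorem exists_conj_c_eq_zero (γ : SL(2, ℤ))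
    (h : (γ : Matrix (Fin 2) (Fin 2) ℤ).trace ^ 2 = 4) :
    ∃ δ : SL(2, ℤ), (δ⁻¹ * γ * δ) 1 0 = 0 := by
  have hdet := det_eq γ
  rw [Matrix.trace_fin_two] at h
  by_cases hc : γ 1 0 = 0
  · exact ⟨1, by simpa using hc⟩
  obtain ⟨ε, hε, htr⟩ : ∃ ε : ℤ, ε ^ 2 = 1 ∧ γ 0 0 + γ 1 1 = 2 * ε := by
    have h' : (γ 0 0 + γ 1 1 - 2) * (γ 0 0 + γ 1 1 + 2) = 0 := by linear_combination h
    rcases mul_eq_zero.mp h' with h1 | h1
    · exact ⟨1, by norm_num, by linarith⟩
    · exact ⟨-1, by norm_num, by linarith⟩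
  have hg : 0 < Int.gcd (ε - γ 1 1) (γ 1 0) := Int.gcd_pos_of_ne_zero_right _ hc
  obtain ⟨x, y, hxy, hx, hy⟩ := Int.exists_gcd_one hg
  obtain ⟨u, v, huv⟩ := Int.isCoprime_iff_gcd_eq_one.mpr hxy
  refine ⟨colMat x y u v huv, ?_⟩
  rw [conj_apply_one_zero]
  have e00 : (colMat x y u v huv) 0 0 = x := rfl
  have e10 : (colMat x y u v huv) 1 0 = y := rfl
  rw [e00, e10]
  set g : ℤ := (Int.gcd (ε - γ 1 1) (γ 1 0) : ℤ) with hgdef
  have hg0 : g ≠ 0 := by
    have : (0 : ℤ) < g := by rw [hgdef]; exact_mod_cast hg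
    exact this.ne'
  have key : g ^ 2 * (-y * (γ 0 0 * x + γ 0 1 * y) + x * (γ 1 0 * x + γ 1 1 * y)) = 0 := by
    have hx' : x * g = ε - γ 1 1 := hx.symm
    have hy' : y * g = γ 1 0 := hy.symm
    have : g ^ 2 * (-y * (γ 0 0 * x + γ 0 1 * y) + x * (γ 1 0 * x + γ 1 1 * y))
        = -(y * g) * (γ 0 0 * (x * g) + γ 0 1 * (y * g))
          + (x * g) * (γ 1 0 * (x * g) + γ 1 1 * (y * g)) := by ring
    rw [this, hx', hy']
    have ha : γ 0 0 = 2 * ε - γ 1 1 := by linarith
    rw [ha] at hdet ⊢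
    linear_combination (γ 1 0) * hdet - (γ 1 0) * hε
  exact (mul_eq_zero.mp key).resolve_left (pow_ne_zero 2 hg0)

/-- An upper triangular element of `SL(2, ℤ)` is `± T ^ k`. -/
theorem eq_T_zpow_of_c_eq_zero (m : SL(2, ℤ)) (hc : m 1 0 = 0) :
    ∃ k : ℤ, m = T ^ k ∨ m = -T ^ k := by
  have hdet := det_eq m
  rw [hc, mul_zero, sub_zero] at hdet
  rcases Int.mul_eq_one_iff_eq_one_or_neg_one.mp hdet with ⟨h1, h2⟩ | ⟨h1, h2⟩
  · refine ⟨m 0 1, Or.inl ?_⟩
    ext i j
    rw [coe_T_zpow]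
    fin_cases i <;> fin_cases j <;> simp [h1, h2, hc]
  · refine ⟨-m 0 1, Or.inr ?_⟩
    ext i j
    rw [Matrix.SpecialLinearGroup.coe_neg, coe_T_zpow]
    fin_cases i <;> fin_cases j <;> simp [h1, h2, hc]

theorem mul_T_zpow_apply (m : SL(2, ℤ)) (k : ℤ) :
    (m * T ^ k) 1 0 = m 1 0 ∧ (m * T ^ k) 1 1 = m 1 0 * k + m 1 1 := by
  simp [Matrix.SpecialLinearGroup.coe_mul, coe_T_zpow, Matrix.mul_apply, Fin.sum_univ_two]

theorem conj_T_zpow_apply (δ : SL(2, ℤ)) (k : ℤ) :
    (δ * T ^ k * δ⁻¹) 1 0 = -(k * δ 1 0 ^ 2) := by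
  simp only [Matrix.SpecialLinearGroup.coe_mul, Matrix.SpecialLinearGroup.coe_inv,
    Matrix.adjugate_fin_two, Matrix.mul_apply, Fin.sum_univ_two, Matrix.of_apply,
    Matrix.cons_val_zero, Matrix.cons_val_one, coe_T_zpow]
  ring

theorem mul_inv_apply_one_zero (h' h : SL(2, ℤ)) :
    (h' * h⁻¹) 1 0 = h' 1 0 * h 1 1 - h' 1 1 * h 1 0 := by
  simp only [Matrix.SpecialLinearGroup.coe_mul, Matrix.SpecialLinearGroup.coe_inv,
    Matrix.adjugate_fin_two, Matrix.mul_apply, Fin.sum_univ_two, Matrix.of_apply,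
    Matrix.cons_val_zero, Matrix.cons_val_one]
  ring

theorem S_mul_T_zpow_apply (n : ℤ) : (S * T ^ n) 1 0 = 1 ∧ (S * T ^ n) 1 1 = n := by
  simp [Matrix.SpecialLinearGroup.coe_mul, coe_S, coe_T_zpow, Matrix.mul_apply, Fin.sum_univ_two]

theorem S_mul_T_zpow_mul_S_apply (n : ℤ) :
    (S * T ^ n * S) 1 0 = n ∧ (S * T ^ n * S) 1 1 = -1 := by
  simp [Matrix.SpecialLinearGroup.coe_mul, coe_S, coe_T_zpow, Matrix.mul_apply, Fin.sum_univ_two]

/-! ### Parabolicity of potentials on `Γ₀(p)` -/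

section Parabolic

variable (p : ℕ) [Fact p.Prime]

theorem sum_range_eq_sum_zmod (F : ZMod p → ℤ) :
    ∑ j ∈ Finset.range p, F (j : ZMod p) = ∑ x : ZMod p, F x := by
  refine Finset.sum_nbij' (fun j => (j : ZMod p)) (fun x => x.val) (by simp)
    (fun x _ => Finset.mem_range.mpr (ZMod.val_lt x))
    (fun j hj => ZMod.val_cast_of_lt (Finset.mem_range.mp hj))
    (fun x _ => ZMod.natCast_zmod_val x) (fun j _ => rfl)

variable (β κ : SL(2, ℤ) → ℤ) (h1 : β 1 = 0) (hU : ∀ g, β (g * U) = β g)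
  (hS : ∀ g, β (g * S) - β g = κ g - κ (g * S))
  (hκ : ∀ γ ∈ Gamma0 p, ∀ g, κ (γ * g) = κ g) (hκ1 : κ 1 = κ S)

include hκ in
theorem kappa_eq_of_row (h' h : SL(2, ℤ))
    (hrow : ((h' 1 0 * h 1 1 - h' 1 1 * h 1 0 : ℤ) : ZMod p) = 0) :
    κ h' = κ h ∧ κ (h' * S) = κ (h * S) := by
  have hmem : h' * h⁻¹ ∈ Gamma0 p := by
    rw [Gamma0_mem, mul_inv_apply_one_zero]
    exact hrow
  constructor
  · have := hκ _ hmem h
    rwa [inv_mul_cancel_right] at this
  · have := hκ _ hmem (h * S)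
    rwa [← mul_assoc, inv_mul_cancel_right] at this

/-- The values of `κ` on the standard representatives with bottom row `(1, t)`. -/
def e1 (t : ZMod p) : ℤ := κ (S * T ^ (t.val : ℤ))

/-- The values of `κ` on the standard representatives with bottom row `(t, -1)`. -/
def e2 (t : ZMod p) : ℤ := κ (S * T ^ (t.val : ℤ) * S)

include hκ in
theorem kappa_eq_e1 (h : SL(2, ℤ)) (hc : ((h 1 0 : ℤ) : ZMod p) ≠ 0) :
    κ h = e1 p κ (((h 1 0 : ℤ) : ZMod p)⁻¹ * ((h 1 1 : ℤ) : ZMod p)) ∧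
      κ (h * S) = e2 p κ (((h 1 0 : ℤ) : ZMod p)⁻¹ * ((h 1 1 : ℤ) : ZMod p)) := by
  set t : ZMod p := ((h 1 0 : ℤ) : ZMod p)⁻¹ * ((h 1 1 : ℤ) : ZMod p) with ht
  obtain ⟨r0, r1⟩ := S_mul_T_zpow_apply (t.val : ℤ)
  refine kappa_eq_of_row p κ hκ h (S * T ^ (t.val : ℤ)) ?_
  rw [r0, r1]
  push_cast
  rw [ZMod.natCast_zmod_val, ht, mul_inv_cancel_left₀ hc]
  ring

include hκ in
theorem e2_eq_e1 (t : ZMod p) (ht : t ≠ 0) : e2 p κ t = e1 p κ (-t⁻¹) := by
  obtain ⟨r0, r1⟩ := S_mul_T_zpow_mul_S_apply (t.val : ℤ)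
  have hc : (((S * T ^ (t.val : ℤ) * S) 1 0 : ℤ) : ZMod p) ≠ 0 := by
    rw [r0]
    push_cast
    rwa [ZMod.natCast_zmod_val]
  have := (kappa_eq_e1 p κ hκ (S * T ^ (t.val : ℤ) * S) hc).1
  rw [r0, r1] at this
  push_cast at this
  rw [ZMod.natCast_zmod_val, mul_neg, mul_one] at this
  exact this

include hκ in
theorem kappa_neg (g : SL(2, ℤ)) : κ (-g) = κ g := by
  have := hκ (-1) (by simp [Gamma0_mem]) g
  rwa [neg_one_mul] at this

include hκ hκ1 in
theorem sum_e1_sub_e2 : ∑ x : ZMod p, (e1 p κ x - e2 p κ x) = 0 := by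
  classical
  have h0 : e1 p κ 0 = e2 p κ 0 := by
    simp only [e1, e2, ZMod.val_zero, Nat.cast_zero, zpow_zero, mul_one]
    rw [S_mul_S, kappa_neg p κ hκ, hκ1]
  have hsum : ∑ x ∈ (Finset.univ : Finset (ZMod p)).erase 0, e2 p κ x
      = ∑ x ∈ (Finset.univ : Finset (ZMod p)).erase 0, e1 p κ x := by
    refine Finset.sum_nbij' (fun x => -x⁻¹) (fun x => -x⁻¹) ?_ ?_ ?_ ?_ ?_
    · intro x hx
      have hx0 : x ≠ 0 := Finset.ne_of_mem_erase hx
      simp [hx0]
    · intro x hx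
      have hx0 : x ≠ 0 := Finset.ne_of_mem_erase hx
      simp [hx0]
    · intro x _
      simp
    · intro x _
      simp
    · intro x hx
      exact e2_eq_e1 p κ hκ x (Finset.ne_of_mem_erase hx)
  rw [Finset.sum_sub_distrib, ← Finset.add_sum_erase _ _ (Finset.mem_univ (0 : ZMod p)),
    ← Finset.add_sum_erase _ (e2 p κ) (Finset.mem_univ (0 : ZMod p)), hsum, h0]
  ring

include hκ hκ1 in
theorem sum_kappa_orbit (g : SL(2, ℤ)) (hc : ((g 1 0 : ℤ) : ZMod p) ≠ 0) :
    ∑ j ∈ Finset.range p, (κ (g * T ^ j) - κ (g * T ^ j * S)) = 0 := by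
  set t0 : ZMod p := ((g 1 0 : ℤ) : ZMod p)⁻¹ * ((g 1 1 : ℤ) : ZMod p) with ht0
  have hterm : ∀ j : ℕ, κ (g * T ^ j) - κ (g * T ^ j * S)
      = (fun x : ZMod p => e1 p κ (x + t0) - e2 p κ (x + t0)) (j : ZMod p) := by
    intro j
    obtain ⟨r0, r1⟩ := mul_T_zpow_apply g (j : ℤ)
    rw [zpow_natCast] at r0 r1
    have hc' : (((g * T ^ j) 1 0 : ℤ) : ZMod p) ≠ 0 := by rw [r0]; exact hc
    obtain ⟨k1, k2⟩ := kappa_eq_e1 p κ hκ (g * T ^ j) hc'
    rw [k1, k2, r0, r1]
    have : ((g 1 0 : ℤ) : ZMod p)⁻¹ * (((g 1 0 * (j : ℤ) + g 1 1 : ℤ)) : ZMod p)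
        = (j : ZMod p) + t0 := by
      push_cast
      rw [mul_add, inv_mul_cancel_left₀ hc]
    rw [this]
  rw [Finset.sum_congr rfl fun j _ => hterm j,
    sum_range_eq_sum_zmod p (fun x : ZMod p => e1 p κ (x + t0) - e2 p κ (x + t0))]
  exact (Equiv.sum_comp (Equiv.addRight t0) (fun x : ZMod p => e1 p κ x - e2 p κ x)).trans
    (sum_e1_sub_e2 p κ hκ hκ1)

include h1 hU hS hκ in
theorem potential_neg (g : SL(2, ℤ)) : β (-g) = β g := by
  have hadd := potential_add (Gamma0 p) β κ h1 hU hS hκ (-1) (by simp [Gamma0_mem])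
  have h2 : β (-1) = 0 := by
    have := hadd (-1)
    rw [neg_mul_neg, mul_one, h1] at this
    linarith
  have := hadd g
  rw [neg_one_mul, h2, zero_add] at this
  exact this

include h1 hU hS hκ in
theorem potential_mul_T (g : SL(2, ℤ)) : β (g * T) - β g = κ g - κ (g * S) := by
  have : β (g * T) = β (g * S) := by
    rw [T_eq, ← mul_assoc, hU, S_inv, mul_neg, potential_neg p β κ h1 hU hS hκ]
  rw [this, hS]

include h1 hU hS hκ hκ1 in
theorem potential_mul_T_pow_p (g : SL(2, ℤ)) (hc : ((g 1 0 : ℤ) : ZMod p) ≠ 0) :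
    β (g * T ^ p) = β g := by
  have htel := Finset.sum_range_sub (fun j : ℕ => β (g * T ^ j)) p
  have hterm : ∀ j : ℕ, β (g * T ^ (j + 1)) - β (g * T ^ j)
      = κ (g * T ^ j) - κ (g * T ^ j * S) := by
    intro j
    rw [pow_succ, ← mul_assoc]
    exact potential_mul_T p β κ h1 hU hS hκ (g * T ^ j)
  rw [Finset.sum_congr rfl fun j _ => hterm j, sum_kappa_orbit p κ hκ hκ1 g hc] at htel
  simp only [pow_zero, mul_one] at htel
  linarith

include h1 hU hS hκ hκ1 in
theorem potential_mul_T_zpow_p (g : SL(2, ℤ)) (hc : ((g 1 0 : ℤ) : ZMod p) ≠ 0) (k : ℤ) :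
    β (g * T ^ ((p : ℤ) * k)) = β g := by
  have hstep : ∀ n : ℤ, β (g * T ^ ((p : ℤ) * (n + 1))) = β (g * T ^ ((p : ℤ) * n)) := by
    intro n
    have hc' : (((g * T ^ ((p : ℤ) * n)) 1 0 : ℤ) : ZMod p) ≠ 0 := by
      rw [(mul_T_zpow_apply g _).1]
      exact hc
    have := potential_mul_T_pow_p p β κ h1 hU hS hκ hκ1 _ hc'
    rw [mul_assoc, ← zpow_natCast, ← zpow_add] at this
    rw [← this]
    congr 3
    ring
  induction k using Int.induction_on with
  | zero => simp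
  | succ i ih => rw [hstep, ih]
  | pred i ih =>
    have := hstep (-(i : ℤ) - 1)
    rw [show -(i : ℤ) - 1 + 1 = -(i : ℤ) by ring] at this
    rw [← this, ih]

include h1 hU hS hκ hκ1 in
/-- A potential with left `Γ₀(p)`-invariant jumps and `κ 1 = κ S` vanishes on the trace `± 2`
elements of `Γ₀(p)`. -/
theorem potential_parabolic (γ : SL(2, ℤ)) (hγ : γ ∈ Gamma0 p)
    (htr : (γ : Matrix (Fin 2) (Fin 2) ℤ).trace ^ 2 = 4) : β γ = 0 := by
  obtain ⟨δ, hδ⟩ := exists_conj_c_eq_zero γ htr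
  obtain ⟨k, hk⟩ := eq_T_zpow_of_c_eq_zero _ hδ
  have hadd := potential_add (Gamma0 p) β κ h1 hU hS hκ
  have e : γ * δ = δ * (δ⁻¹ * γ * δ) := by group
  have hβγ : β γ = β (δ * T ^ k) - β δ := by
    have h2 := hadd γ hγ δ
    rw [e] at h2
    rcases hk with hk | hk
    · rw [hk] at h2
      linarith
    · rw [hk, mul_neg, potential_neg p β κ h1 hU hS hκ] at h2
      linarith
  have hlevel : ((k * δ 1 0 ^ 2 : ℤ) : ZMod p) = 0 := by
    have hγ' : γ = δ * (δ⁻¹ * γ * δ) * δ⁻¹ := by group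
    have hmem := Gamma0_mem.mp hγ
    rw [hγ'] at hmem
    rcases hk with hk | hk
    · rw [hk, conj_T_zpow_apply] at hmem
      simpa using hmem
    · rw [hk, mul_neg, neg_mul, Matrix.SpecialLinearGroup.coe_neg, Matrix.neg_apply,
        conj_T_zpow_apply] at hmem
      simpa using hmem
  rw [hβγ, sub_eq_zero]
  by_cases hc : ((δ 1 0 : ℤ) : ZMod p) = 0
  · have hδmem : δ ∈ Gamma0 p := Gamma0_mem.mpr hc
    have hTk : ∀ n : ℤ, T ^ n ∈ Gamma0 p := fun n => by simp [Gamma0_mem, coe_T_zpow]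
    rw [hadd δ hδmem]
    have hT : β T = 0 := by
      have := potential_mul_T p β κ h1 hU hS hκ 1
      rw [one_mul, one_mul, h1, hκ1] at this
      linarith
    have hzero : ∀ n : ℤ, β (T ^ n) = 0 := by
      intro n
      induction n using Int.induction_on with
      | zero => simpa using h1
      | succ i ih => rw [zpow_add_one, hadd _ (hTk i), ih, hT, add_zero]
      | pred i ih =>
        have h3 := hadd (T ^ (-(i : ℤ) - 1)) (hTk _) T
        rw [← zpow_add_one, show -(i : ℤ) - 1 + 1 = -(i : ℤ) by ring, ih, hT, add_zero] at h3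
        exact h3.symm
    rw [hzero, add_zero]
  · have hk0 : ((k : ℤ) : ZMod p) = 0 := by
      push_cast at hlevel
      rcases mul_eq_zero.mp hlevel with h | h
      · exact h
      · exact absurd (pow_eq_zero_iff two_ne_zero |>.mp h) hc
    obtain ⟨k', rfl⟩ := (ZMod.intCast_zmod_eq_zero_iff_dvd k p).mp hk0
    exact potential_mul_T_zpow_p p β κ h1 hU hS hκ hκ1 δ hc k'

end Parabolic

/-! ### The Shimura class -/

section Shimura

variable (p : ℕ) [Fact p.Prime]

/-- The Shimura class `γ ↦ d(γ) ^ 12`. -/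
noncomputable def shim : Gamma0 p →* (ZMod p)ˣ :=
  (powMonoidHom 12).comp (Gamma0Map p).toHomUnits

theorem shim_coe (γ : Gamma0 p) : ((shim p γ : (ZMod p)ˣ) : ZMod p) = (Gamma0Map p γ) ^ 12 := by
  simp [shim]

theorem shim_eq_one_of_pow (γ : Gamma0 p) (h : γ ^ 12 = 1) : shim p γ = 1 := by
  show ((Gamma0Map p).toHomUnits γ) ^ 12 = 1
  rw [← map_pow, h, map_one]

theorem shim_stab (E : Subgroup SL(2, ℤ)) (hE : ∀ u ∈ E, u ^ 12 = 1) (γ : Gamma0 p)
    (g u : SL(2, ℤ)) (hu : u ∈ E) (h : (γ : SL(2, ℤ)) * g * u = g) : shim p γ = 1 := by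
  apply shim_eq_one_of_pow
  have hγ : (γ : SL(2, ℤ)) = g * u⁻¹ * g⁻¹ := by
    rw [eq_mul_inv_iff_mul_eq, eq_mul_inv_iff_mul_eq]
    exact h
  apply Subtype.ext
  rw [Subgroup.coe_pow, hγ, conj_pow, inv_pow, hE u hu]
  simp

theorem pow_twelve_of_mem_zpowers (x : SL(2, ℤ)) (hx : x ^ 12 = 1) :
    ∀ u ∈ Subgroup.zpowers x, u ^ 12 = 1 := by
  intro u hu
  obtain ⟨k, rfl⟩ := Subgroup.mem_zpowers_iff.mp hu
  rw [← zpow_natCast, ← zpow_mul, mul_comm, zpow_mul, zpow_natCast, hx, one_zpow]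

theorem neg_one_mem : (-1 : SL(2, ℤ)) ∈ Gamma0 p := by simp [Gamma0_mem]

theorem T_mem : (T : SL(2, ℤ)) ∈ Gamma0 p := by simp [Gamma0_mem, coe_T]

theorem shim_neg_one : shim p ⟨-1, neg_one_mem p⟩ = 1 := by
  apply shim_eq_one_of_pow
  apply Subtype.ext
  rw [Subgroup.coe_pow]
  show (-1 : SL(2, ℤ)) ^ 12 = 1
  decide

theorem shim_T : shim p ⟨T, T_mem p⟩ = 1 := by
  apply Units.ext
  rw [shim_coe]
  show (((T : SL(2, ℤ)) 1 1 : ℤ) : ZMod p) ^ 12 = ((1 : (ZMod p)ˣ) : ZMod p)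
  simp [coe_T]

/-- **The integral lift of the Shimura class**, as a potential on `SL(2, ℤ)`. -/
theorem exists_integral_potential :
    ∃ (a0 : (ZMod p)ˣ) (β κ : SL(2, ℤ) → ℤ),
      β 1 = 0 ∧ (∀ g, β (g * U) = β g) ∧ (∀ g, β (g * S) - β g = κ g - κ (g * S)) ∧
      (∀ γ ∈ Gamma0 p, ∀ g, κ (γ * g) = κ g) ∧ κ 1 = κ S ∧
      ∀ γ : Gamma0 p, shim p γ = a0 ^ β γ := by
  classical
  obtain ⟨g0, hg0⟩ := IsCyclic.exists_generator (α := (ZMod p)ˣ)
  set a0 : (ZMod p)ˣ := g0 ^ 12 with ha0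
  have h12 : ∀ γ : Gamma0 p, ∃ k : ℤ, shim p γ = a0 ^ k := by
    intro γ
    obtain ⟨k, hk⟩ := Subgroup.mem_zpowers_iff.mp (hg0 ((Gamma0Map p).toHomUnits γ))
    refine ⟨k, ?_⟩
    show ((Gamma0Map p).toHomUnits γ) ^ 12 = a0 ^ k
    rw [← hk, ha0, ← zpow_natCast, ← zpow_mul, mul_comm, zpow_mul, zpow_natCast]
  obtain ⟨βU, hβU, hβU'⟩ := exists_equivariant (Gamma0 p) (Subgroup.zpowers U) (shim p)
    (shim_stab p _ (pow_twelve_of_mem_zpowers U (by decide)))
  obtain ⟨βS, hβS, hβS'⟩ := exists_equivariant (Gamma0 p) (Subgroup.zpowers S) (shim p)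
    (shim_stab p _ (pow_twelve_of_mem_zpowers S (by decide)))
  -- consequences of equivariance
  have hβU_left : ∀ (γ : Gamma0 p) (g : SL(2, ℤ)), βU (γ * g) = shim p γ * βU g := by
    intro γ g
    have := hβU γ g 1 (Subgroup.one_mem _)
    rwa [mul_one] at this
  have hβS_left : ∀ (γ : Gamma0 p) (g : SL(2, ℤ)), βS (γ * g) = shim p γ * βS g := by
    intro γ g
    have := hβS γ g 1 (Subgroup.one_mem _)
    rwa [mul_one] at this
  have hβU_right : ∀ g : SL(2, ℤ), βU (g * U) = βU g := by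
    intro g
    have := hβU 1 g U (Subgroup.mem_zpowers U)
    simpa using this
  have hβS_right : ∀ g : SL(2, ℤ), βS (g * S) = βS g := by
    intro g
    have := hβS 1 g S (Subgroup.mem_zpowers S)
    simpa using this
  set κ0 : SL(2, ℤ) → (ZMod p)ˣ := fun g => βS g / βU g with hκ0
  have hκ0pow : ∀ g, ∃ k : ℤ, κ0 g = a0 ^ k := by
    intro g
    obtain ⟨γ1, h1⟩ := hβS' g
    obtain ⟨γ2, h2⟩ := hβU' g
    obtain ⟨k1, hk1⟩ := h12 γ1
    obtain ⟨k2, hk2⟩ := h12 γ2
    refine ⟨k1 - k2, ?_⟩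
    show βS g / βU g = a0 ^ (k1 - k2)
    rw [zpow_sub, ← hk1, ← hk2, h1, h2, div_eq_mul_inv]
  have hκ0_left : ∀ (γ : Gamma0 p) (g : SL(2, ℤ)), κ0 (γ * g) = κ0 g := by
    intro γ g
    simp only [hκ0, hβS_left, hβU_left]
    rw [mul_div_mul_left_eq_div]
  let s : (ZMod p)ˣ → ℤ := fun x => if h : ∃ k : ℤ, x = a0 ^ k then h.choose else 0
  have hs : ∀ x : (ZMod p)ˣ, (∃ k : ℤ, x = a0 ^ k) → a0 ^ s x = x := by
    intro x hx
    simp only [s, dif_pos hx]
    exact hx.choose_spec.symm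
  set κ : SL(2, ℤ) → ℤ := fun g => s (κ0 g) with hκ
  have hκpow : ∀ g, a0 ^ κ g = κ0 g := fun g => hs _ (hκ0pow g)
  have hκ_left : ∀ γ ∈ Gamma0 p, ∀ g, κ (γ * g) = κ g := by
    intro γ hγ g
    simp only [hκ]
    rw [hκ0_left ⟨γ, hγ⟩ g]
  have hκ_even : ∀ h, κ (-h) = κ h := by
    intro h
    have := hκ_left (-1) (neg_one_mem p) h
    rwa [neg_one_mul] at this
  obtain ⟨β, hβ1, hβU2, hβS2⟩ := exists_potential κ hκ_even
  -- the `S`-jump of `βU`
  have hjump : ∀ g, βU (g * S) * κ0 (g * S) = βU g * κ0 g := by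
    intro g
    simp only [hκ0]
    rw [mul_div_cancel, mul_div_cancel, hβS_right]
  -- comparison
  have hconst := const_of_right_invariant ({S, U} : Set SL(2, ℤ)) closure_S_U
    (fun g => a0 ^ β g * (βU g)⁻¹) (by
      intro x hx g
      rcases hx with rfl | rfl
      · show a0 ^ β (g * S) * (βU (g * S))⁻¹ = a0 ^ β g * (βU g)⁻¹
        have e1 : β (g * S) = β g + κ g - κ (g * S) := by linarith [hβS2 g]
        rw [e1, zpow_sub, zpow_add, hκpow, hκpow]
        have e2 := hjump g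
        rw [mul_assoc, mul_assoc]
        congr 1
        rw [eq_inv_iff_mul_eq_one]
        calc κ0 g * ((κ0 (g * S))⁻¹ * (βU (g * S))⁻¹) * βU g
            = βU g * κ0 g * (βU (g * S) * κ0 (g * S))⁻¹ := by
              rw [mul_inv_rev]
              ac_rfl
          _ = 1 := by rw [← e2, mul_inv_cancel]
      · show a0 ^ β (g * U) * (βU (g * U))⁻¹ = a0 ^ β g * (βU g)⁻¹
        rw [hβU2, hβU_right])
  have hval : ∀ g, a0 ^ β g = (βU 1)⁻¹ * βU g := by
    intro g
    have h := hconst g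
    simp only [hβ1, zpow_zero, one_mul] at h
    rw [← h, inv_mul_cancel_right]
  -- `βU S = βU 1`
  have hβUS : βU S = βU 1 := by
    have h1 : βU T = βU 1 := by
      have := hβU_left ⟨T, T_mem p⟩ 1
      rwa [mul_one, shim_T, one_mul] at this
    have h2 : βU T = βU S := by
      rw [T_eq, hβU_right, S_inv]
      have := hβU_left ⟨-1, neg_one_mem p⟩ S
      rwa [shim_neg_one, one_mul, neg_one_mul] at this
    rw [← h2, h1]
  have hκ0S : κ0 1 = κ0 S := by
    have h := hjump 1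
    rw [one_mul, hβUS] at h
    exact (mul_left_cancel h).symm
  refine ⟨a0, β, κ, hβ1, hβU2, hβS2, hκ_left, ?_, ?_⟩
  · simp only [hκ]
    rw [hκ0S]
  · intro γ
    rw [hval]
    have := hβU_left γ 1
    rw [mul_one] at this
    rw [this, mul_comm, mul_inv_cancel_right]

/-- **The Shimura class lifts to an integral parabolic homomorphism.** -/
theorem exists_parabolic_lift :
    ∃ (a0 : (ZMod p)ˣ) (ψ : Additive (Gamma0 p) →+ ℤ),
      ψ ∈ ModularCurve.Period.parabolicHoms ℤ (Gamma0 p) ℤ ∧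
      ∀ γ : Gamma0 p, shim p γ = a0 ^ ψ (Additive.ofMul γ) := by
  obtain ⟨a0, β, κ, h1, hU, hS, hκ, hκ1, hshim⟩ := exists_integral_potential p
  have hadd := potential_add (Gamma0 p) β κ h1 hU hS hκ
  let ψ : Additive (Gamma0 p) →+ ℤ :=
    { toFun := fun γ => β ((Additive.toMul γ : Gamma0 p) : SL(2, ℤ))
      map_zero' := h1
      map_add' := fun γ γ' => hadd _ (Additive.toMul γ).2 _ }
  refine ⟨a0, ψ, ?_, fun γ => hshim γ⟩
  rw [ModularCurve.Period.mem_parabolicHoms_iff]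
  intro γ hγ
  exact potential_parabolic p β κ h1 hU hS hκ hκ1 γ γ.2 hγ

/-- **S16-LB-LIFT.**  An element of `Γ₀(p)` killed by every complex parabolic homomorphism has
`d(γ) ^ 12 = 1` in `ZMod p`. -/
theorem shimura_pow_twelve_eq_one (γ : Gamma0 p)
    (hγ : ∀ φ ∈ ModularCurve.Period.parabolicHoms ℂ (Gamma0 p) ℂ, φ (Additive.ofMul γ) = 0) :
    (Gamma0Map p γ) ^ 12 = 1 := by
  obtain ⟨a0, ψ, hψ, hshim⟩ := exists_parabolic_lift p
  have hφ : (Int.castAddHom ℂ).comp ψ ∈ ModularCurve.Period.parabolicHoms ℂ (Gamma0 p) ℂ := by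
    rw [ModularCurve.Period.mem_parabolicHoms_iff] at hψ ⊢
    intro γ' hγ'
    show ((ψ (Additive.ofMul γ') : ℤ) : ℂ) = 0
    rw [hψ γ' hγ', Int.cast_zero]
  have h0 : ψ (Additive.ofMul γ) = 0 := by
    have h := hγ _ hφ
    have h' : ((ψ (Additive.ofMul γ) : ℤ) : ℂ) = 0 := h
    exact_mod_cast h'
  have := hshim γ
  rw [h0, zpow_zero] at this
  rw [← shim_coe, this, Units.val_one]

end Shimura

end Fermat.Agent.S16.helper1144
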