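/-
helper1205 — S16 lower bound, leaf LB-HECKE:
Hecke operators `T_l~` (l ∤ N) and `U_p~` (p ∣ N) on `Hom(Γ₀(N), A)` for an arbitrary abelian
group `A`, defined by the coset (transfer) formula, using the coset computations of the Prelude
(`heckeRep_mul`, `heckeMatrix_mul_of_dvd`).

Main declarations (namespace `Fermat.Agent.S16.helper1205`):
* `CosetSys j ι`, `CosetSys.op`: abstract coset systems and their transfer operator;
* `CosetSys.sum_smul_sub`: the abstract period identity;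
* `CosetSys.op_eq_card_nsmul`: the abstract eigen-computation (telescoping);
* `sysT N hlN`, `sysU N hpN`: the coset systems of `T_l` and `U_p` on `Γ₀(N)`;
* `heckeHomT`, `heckeHomU`: the operators on `Additive (Gamma0 N) →+ A`, with naturality in `A`.
-/
import Mathlib
import Fermat.Prelude.Sol.S_ModularForm_heckeT_slash_eq_self_of_mem_Gamma0

set_option autoImplicit false

namespace Fermat.Agent.S16.helper1205

open scoped MatrixGroups
open CongruenceSubgroup Matrix.SpecialLinearGroup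
open P2MW.S_ModularForm_heckeT_slash_eq_self_of_mem_Gamma0.ModularForm.HeckeSlashInvariance

/-! ## Abstract coset systems -/

/-- A coset system: representatives `rep i` in an ambient group `G`, permuted by right
multiplication by `Γ` up to left multiplication by `Γ`. -/
structure CosetSys {Γ G : Type*} [Group Γ] [Group G] (j : Γ →* G) (ι : Type*) where
  /-- the representatives -/
  rep : ι → G
  /-- the permutation of the index set induced by `γ` -/
  σ : Γ → ι → ι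
  /-- the cocycle with values in `Γ` -/
  c : Γ → ι → Γ
  rel : ∀ γ i, rep i * j γ = j (c γ i) * rep (σ γ i)
  σ_one : ∀ i, σ 1 i = i
  σ_mul : ∀ γ δ i, σ (γ * δ) i = σ δ (σ γ i)

namespace CosetSys

variable {Γ G : Type*} [Group Γ] [Group G] {j : Γ →* G} {ι : Type*} (S : CosetSys j ι)

/-- The permutation of the index set attached to `γ`. -/
def perm (γ : Γ) : Equiv.Perm ι where
  toFun := S.σ γ
  invFun := S.σ γ⁻¹
  left_inv i := by rw [← S.σ_mul, mul_inv_cancel, S.σ_one]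
  right_inv i := by rw [← S.σ_mul, inv_mul_cancel, S.σ_one]

@[simp] theorem perm_apply (γ : Γ) (i : ι) : S.perm γ i = S.σ γ i := rfl

theorem c_mul (hj : Function.Injective j) (γ δ : Γ) (i : ι) :
    S.c (γ * δ) i = S.c γ i * S.c δ (S.σ γ i) := by
  apply hj
  have h1 := S.rel (γ * δ) i
  have h2 := S.rel γ i
  have h3 := S.rel δ (S.σ γ i)
  rw [S.σ_mul, map_mul] at h1
  rw [map_mul]
  have h4 : j (S.c (γ * δ) i) * S.rep (S.σ δ (S.σ γ i))
      = j (S.c γ i) * j (S.c δ (S.σ γ i)) * S.rep (S.σ δ (S.σ γ i)) := by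
    rw [← h1, ← mul_assoc, h2, mul_assoc, h3, mul_assoc]
  exact mul_right_cancel h4

/-- uniqueness of the cocycle value. -/
theorem c_eq_of_rel (hj : Function.Injective j) {γ δ : Γ} {i : ι}
    (h : S.rep i * j γ = j δ * S.rep (S.σ γ i)) : S.c γ i = δ := by
  apply hj
  have h1 := S.rel γ i
  rw [h] at h1
  exact (mul_right_cancel h1).symm

variable [Fintype ι]

/-- The transfer operator on `Hom(Γ, A)` attached to a coset system. -/
def op (hj : Function.Injective j) (A : Type*) [AddCommGroup A] :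
    (Additive Γ →+ A) →+ (Additive Γ →+ A) where
  toFun φ := AddMonoidHom.mk' (fun γ => ∑ i, φ (Additive.ofMul (S.c (Additive.toMul γ) i)))
    (by
      intro γ δ
      have h : ∀ i, φ (Additive.ofMul (S.c (Additive.toMul (γ + δ)) i))
          = φ (Additive.ofMul (S.c (Additive.toMul γ) i))
            + φ (Additive.ofMul (S.c (Additive.toMul δ) (S.σ (Additive.toMul γ) i))) := by
        intro i
        rw [toMul_add, S.c_mul hj, ofMul_mul, map_add]
      simp only [h, Finset.sum_add_distrib]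
      congr 1
      exact Equiv.sum_comp (S.perm (Additive.toMul γ))
        (fun i => φ (Additive.ofMul (S.c (Additive.toMul δ) i))))
  map_zero' := by
    refine AddMonoidHom.ext fun γ => ?_
    simp
  map_add' φ ψ := by
    refine AddMonoidHom.ext fun γ => ?_
    simp [Finset.sum_add_distrib]

theorem op_apply (hj : Function.Injective j) (A : Type*) [AddCommGroup A]
    (φ : Additive Γ →+ A) (γ : Γ) :
    S.op hj A φ (Additive.ofMul γ) = ∑ i, φ (Additive.ofMul (S.c γ i)) := rfl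

/-- naturality in the coefficient group. -/
theorem op_comp (hj : Function.Injective j) {A B : Type*} [AddCommGroup A] [AddCommGroup B]
    (g : A →+ B) (φ : Additive Γ →+ A) :
    S.op hj B (g.comp φ) = g.comp (S.op hj A φ) := by
  refine AddMonoidHom.ext fun γ => ?_
  obtain ⟨γ, rfl⟩ := Additive.ofMul.surjective γ
  rw [AddMonoidHom.comp_apply, op_apply, op_apply, map_sum]
  rfl

/-- The abstract period identity: if `F(γ z) - F(z) = φ(γ)` then the "Hecke transform"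
`z ↦ ∑ i, F(rep i • z)` has period homomorphism `op φ`. -/
theorem sum_smul_sub (hj : Function.Injective j) {Z : Type*} [MulAction G Z]
    {B : Type*} [AddCommGroup B] (F : Z → B) (φ : Additive Γ →+ B)
    (hF : ∀ (γ : Γ) (z : Z), F (j γ • z) - F z = φ (Additive.ofMul γ)) (γ : Γ) (z : Z) :
    ∑ i, F (S.rep i • j γ • z) - ∑ i, F (S.rep i • z) = S.op hj B φ (Additive.ofMul γ) := by
  have h : ∀ i, F (S.rep i • j γ • z)
      = F (S.rep (S.σ γ i) • z) + φ (Additive.ofMul (S.c γ i)) := by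
    intro i
    rw [← mul_smul, S.rel, mul_smul, ← hF (S.c γ i) (S.rep (S.σ γ i) • z)]
    abel
  rw [op_apply]
  simp only [h, Finset.sum_add_distrib]
  have h2 : ∑ i, F (S.rep (S.σ γ i) • z) = ∑ i, F (S.rep i • z) :=
    Equiv.sum_comp (S.perm γ) (fun i => F (S.rep i • z))
  rw [h2]
  abel

/-- The abstract eigen-computation: if `ψ (c γ i) = e i + ψ γ - e (σ γ i)` for a "weight"
function `e` on the index set, then `op ψ = (card ι) • ψ`. -/
theorem op_eq_card_nsmul (hj : Function.Injective j) {A : Type*} [AddCommGroup A]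
    (ψ : Additive Γ →+ A) (e : ι → A)
    (h : ∀ γ i, ψ (Additive.ofMul (S.c γ i)) = e i + ψ (Additive.ofMul γ) - e (S.σ γ i)) :
    S.op hj A ψ = Fintype.card ι • ψ := by
  refine AddMonoidHom.ext fun γ => ?_
  obtain ⟨γ, rfl⟩ := Additive.ofMul.surjective γ
  rw [op_apply]
  simp only [h, Finset.sum_sub_distrib, Finset.sum_add_distrib, Finset.sum_const,
    Finset.card_univ, AddMonoidHom.coe_smul, Pi.smul_apply]
  have h2 : ∑ i, e (S.σ γ i) = ∑ i, e i := Equiv.sum_comp (S.perm γ) e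
  rw [h2]
  abel

end CosetSys

/-! ## The coset systems of `T_l` and `U_p` on `Γ₀(N)` -/

section Concrete

variable (N : ℕ)

/-- the inclusion `Γ₀(N) → GL(2, ℝ)`. -/
noncomputable def jGL : Gamma0 N →* GL (Fin 2) ℝ := (mapGL ℝ).comp (Gamma0 N).subtype

@[simp] theorem jGL_apply (γ : Gamma0 N) : jGL N γ = mapGL ℝ (γ : SL(2, ℤ)) := rfl

theorem jGL_injective : Function.Injective (jGL N) :=
  (mapGL_injective (R := ℤ) (S := ℝ)).comp Subtype.coe_injective

variable {N}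

theorem dvd_of_mem_Gamma0 {g : SL(2, ℤ)} (hg : g ∈ Gamma0 N) : (N : ℤ) ∣ g 1 0 :=
  (ZMod.intCast_zmod_eq_zero_iff_dvd _ _).mp (Gamma0_mem.mp hg)

theorem mem_Gamma0_of_dvd {g : SL(2, ℤ)} (hg : (N : ℤ) ∣ g 1 0) : g ∈ Gamma0 N :=
  Gamma0_mem.mpr ((ZMod.intCast_zmod_eq_zero_iff_dvd _ _).mpr hg)

section T

variable {l : ℕ} [Fact l.Prime]

theorem redMatrix_one : redMatrix l 1 = 1 := by
  ext i j
  fin_cases i <;> fin_cases j <;> simp [redMatrix]

theorem redMatrix_mul (g h : SL(2, ℤ)) :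
    redMatrix l (g * h) = redMatrix l h * redMatrix l g := by
  ext i j
  fin_cases i <;> fin_cases j <;>
    simp [redMatrix, Matrix.mul_apply, Fin.sum_univ_two] <;> ring

/-- The coset system of `T_l` on `Γ₀(N)`, `l ∤ N`: representatives `heckeRep l x`,
`x ∈ P¹(𝔽_l)`. -/
noncomputable def sysT (hlN : ¬ l ∣ N) : CosetSys (jGL N) (OnePoint (ZMod l)) where
  rep := heckeRep l
  σ γ x := redMatrix l (γ : SL(2, ℤ)) • x
  c γ x := ⟨Classical.choose (heckeRep_mul hlN (γ : SL(2, ℤ)) (dvd_of_mem_Gamma0 γ.2) x),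
    mem_Gamma0_of_dvd
      (Classical.choose_spec (heckeRep_mul hlN (γ : SL(2, ℤ)) (dvd_of_mem_Gamma0 γ.2) x)).1⟩
  rel γ x :=
    (Classical.choose_spec (heckeRep_mul hlN (γ : SL(2, ℤ)) (dvd_of_mem_Gamma0 γ.2) x)).2
  σ_one x := by
    show redMatrix l ((1 : Gamma0 N) : SL(2, ℤ)) • x = x
    rw [OneMemClass.coe_one, redMatrix_one, one_smul]
  σ_mul γ δ x := by
    show redMatrix l ((γ * δ : Gamma0 N) : SL(2, ℤ)) • x
      = redMatrix l (δ : SL(2, ℤ)) • redMatrix l (γ : SL(2, ℤ)) • x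
    rw [MulMemClass.coe_mul, redMatrix_mul, mul_smul]

theorem sysT_rel (hlN : ¬ l ∣ N) (γ : Gamma0 N) (x : OnePoint (ZMod l)) :
    heckeRep l x * mapGL ℝ (γ : SL(2, ℤ))
      = mapGL ℝ (((sysT hlN).c γ x : Gamma0 N) : SL(2, ℤ))
        * heckeRep l (redMatrix l (γ : SL(2, ℤ)) • x) :=
  (sysT hlN).rel γ x

end T

section U

variable {p : ℕ}

theorem intCast_eq_zero_of_dvd (hpN : p ∣ N) (γ : Gamma0 N) :
    ((((γ : SL(2, ℤ)) 1 0 : ℤ)) : ZMod p) = 0 :=
  (ZMod.intCast_zmod_eq_zero_iff_dvd _ _).mpr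
    ((Int.natCast_dvd_natCast.mpr hpN).trans (dvd_of_mem_Gamma0 γ.2))

theorem natCast_dvd_of_dvd (hpN : p ∣ N) (γ : Gamma0 N) : (p : ℤ) ∣ (γ : SL(2, ℤ)) 1 0 :=
  (Int.natCast_dvd_natCast.mpr hpN).trans (dvd_of_mem_Gamma0 γ.2)

variable [NeZero p]

/-- The coset system of `U_p` on `Γ₀(N)`, `p ∣ N`: representatives `heckeMatrix p x`,
`x ∈ ℤ/p`. -/
noncomputable def sysU (hpN : p ∣ N) : CosetSys (jGL N) (ZMod p) where
  rep x := ModularForm.heckeMatrix p x.val
  σ γ x := affinePerm (γ : SL(2, ℤ)) (intCast_eq_zero_of_dvd hpN γ) x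
  c γ x := ⟨Classical.choose (heckeMatrix_mul_of_dvd (γ : SL(2, ℤ)) (natCast_dvd_of_dvd hpN γ) x),
    mem_Gamma0_of_dvd (by
      rw [(Classical.choose_spec
        (heckeMatrix_mul_of_dvd (γ : SL(2, ℤ)) (natCast_dvd_of_dvd hpN γ) x)).1]
      exact Dvd.dvd.mul_left (dvd_of_mem_Gamma0 γ.2) _)⟩
  rel γ x :=
    (Classical.choose_spec
      (heckeMatrix_mul_of_dvd (γ : SL(2, ℤ)) (natCast_dvd_of_dvd hpN γ) x)).2
  σ_one x := by
    rw [affinePerm_apply]
    simp
  σ_mul γ δ x := by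
    have hu := unit_of_apply_one_zero_eq_zero (p := p) (γ : SL(2, ℤ))
      (intCast_eq_zero_of_dvd hpN γ)
    have hc := intCast_eq_zero_of_dvd hpN γ
    rw [affinePerm_apply, affinePerm_apply, affinePerm_apply]
    simp only [MulMemClass.coe_mul, Matrix.SpecialLinearGroup.coe_mul, Matrix.mul_apply,
      Fin.sum_univ_two, Int.cast_add, Int.cast_mul]
    linear_combination
      ((((δ : SL(2, ℤ)) 1 1 : ℤ) : ZMod p) * (((δ : SL(2, ℤ)) 0 1 : ℤ) : ZMod p)) * hu
      + ((((δ : SL(2, ℤ)) 0 1 : ℤ) : ZMod p) *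
          ((((γ : SL(2, ℤ)) 0 0 : ℤ) : ZMod p) * (((δ : SL(2, ℤ)) 0 1 : ℤ) : ZMod p)
            + (((γ : SL(2, ℤ)) 0 1 : ℤ) : ZMod p) * (((δ : SL(2, ℤ)) 1 1 : ℤ) : ZMod p)
            + ((((γ : SL(2, ℤ)) 1 0 : ℤ) : ZMod p) * (((δ : SL(2, ℤ)) 0 1 : ℤ) : ZMod p)
              + (((γ : SL(2, ℤ)) 1 1 : ℤ) : ZMod p) * (((δ : SL(2, ℤ)) 1 1 : ℤ) : ZMod p)) * x)
          + (((γ : SL(2, ℤ)) 1 1 : ℤ) : ZMod p) * (((δ : SL(2, ℤ)) 1 1 : ℤ) : ZMod p)
            * (((δ : SL(2, ℤ)) 0 1 : ℤ) : ZMod p) * x) * hc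

theorem sysU_rel (hpN : p ∣ N) (γ : Gamma0 N) (x : ZMod p) :
    ModularForm.heckeMatrix p x.val * mapGL ℝ (γ : SL(2, ℤ))
      = mapGL ℝ (((sysU hpN).c γ x : Gamma0 N) : SL(2, ℤ))
        * ModularForm.heckeMatrix p
          (affinePerm (γ : SL(2, ℤ)) (intCast_eq_zero_of_dvd hpN γ) x).val :=
  (sysU hpN).rel γ x

theorem sysU_c_apply_one_zero (hpN : p ∣ N) (γ : Gamma0 N) (x : ZMod p) :
    (((sysU hpN).c γ x : Gamma0 N) : SL(2, ℤ)) 1 0 = p * (γ : SL(2, ℤ)) 1 0 :=
  (Classical.choose_spec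
    (heckeMatrix_mul_of_dvd (γ : SL(2, ℤ)) (natCast_dvd_of_dvd hpN γ) x)).1

end U

end Concrete

/-! ## The Hecke operators on `Hom(Γ₀(N), A)` -/

/-- `T_l~` on `Hom(Γ₀(N), A)`, `l` a prime not dividing `N`. -/
noncomputable def heckeHomT (N : ℕ) {l : ℕ} (hl : l.Prime) (hlN : ¬ l ∣ N)
    (A : Type*) [AddCommGroup A] :
    (Additive (Gamma0 N) →+ A) →+ (Additive (Gamma0 N) →+ A) :=
  haveI : Fact l.Prime := ⟨hl⟩
  (sysT hlN).op (jGL_injective N) A

/-- `U_p~` on `Hom(Γ₀(N), A)`, `p` a prime dividing `N`. -/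
noncomputable def heckeHomU (N : ℕ) {p : ℕ} (hp : p.Prime) (hpN : p ∣ N)
    (A : Type*) [AddCommGroup A] :
    (Additive (Gamma0 N) →+ A) →+ (Additive (Gamma0 N) →+ A) :=
  haveI : NeZero p := ⟨hp.ne_zero⟩
  (sysU hpN).op (jGL_injective N) A

theorem heckeHomT_comp (N : ℕ) {l : ℕ} (hl : l.Prime) (hlN : ¬ l ∣ N)
    {A B : Type*} [AddCommGroup A] [AddCommGroup B] (g : A →+ B)
    (φ : Additive (Gamma0 N) →+ A) :
    heckeHomT N hl hlN B (g.comp φ) = g.comp (heckeHomT N hl hlN A φ) :=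
  haveI : Fact l.Prime := ⟨hl⟩
  (sysT hlN).op_comp (jGL_injective N) g φ

theorem heckeHomU_comp (N : ℕ) {p : ℕ} (hp : p.Prime) (hpN : p ∣ N)
    {A B : Type*} [AddCommGroup A] [AddCommGroup B] (g : A →+ B)
    (φ : Additive (Gamma0 N) →+ A) :
    heckeHomU N hp hpN B (g.comp φ) = g.comp (heckeHomU N hp hpN A φ) :=
  haveI : NeZero p := ⟨hp.ne_zero⟩
  (sysU hpN).op_comp (jGL_injective N) g φ

/-! ## Eigen-computation for `d`-characters -/

/-- The lower-right entry of an element of `Γ₀(N)` as a unit mod `N`. -/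
noncomputable def dUnit (N : ℕ) : Gamma0 N →* (ZMod N)ˣ := (Gamma0Map N).toHomUnits

theorem coe_dUnit (N : ℕ) (γ : Gamma0 N) :
    ((dUnit N γ : (ZMod N)ˣ) : ZMod N) = (((γ : SL(2, ℤ)) 1 1 : ℤ) : ZMod N) := rfl

/-- The homomorphism `γ ↦ χ(d(γ))` on `Γ₀(N)` attached to an additive character `χ` of
`(ℤ/N)ˣ`. -/
noncomputable def dChar {N : ℕ} {A : Type*} [AddCommGroup A] (χ : Additive (ZMod N)ˣ →+ A) :
    Additive (Gamma0 N) →+ A :=
  χ.comp (MonoidHom.toAdditive (dUnit N))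

theorem dChar_apply {N : ℕ} {A : Type*} [AddCommGroup A] (χ : Additive (ZMod N)ˣ →+ A)
    (γ : Gamma0 N) : dChar χ (Additive.ofMul γ) = χ (Additive.ofMul (dUnit N γ)) := rfl

section EigenT

variable {N : ℕ} {l : ℕ} [Fact l.Prime]

/-- lower-right entry of the representative `heckeRep l x`. -/
def lowT (l : ℕ) (x : OnePoint (ZMod l)) : ℕ := x.elim 1 (fun _ => l)

/-- upper-right entry of the representative `heckeRep l x`. -/
def upT (l : ℕ) (x : OnePoint (ZMod l)) : ℕ := x.elim 0 (fun j => j.val)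

theorem heckeRep_apply_one_one (x : OnePoint (ZMod l)) :
    (heckeRep l x : Matrix (Fin 2) (Fin 2) ℝ) 1 1 = (lowT l x : ℝ) := by
  have hl : l ≠ 0 := (Fact.out : l.Prime).ne_zero
  induction x using OnePoint.rec with
  | infty => simp [heckeRep, lowT, ModularForm.val_heckeDiagMatrix hl]
  | coe j => simp [heckeRep, lowT, ModularForm.val_heckeMatrix hl]

theorem heckeRep_apply_one_zero (x : OnePoint (ZMod l)) :
    (heckeRep l x : Matrix (Fin 2) (Fin 2) ℝ) 1 0 = 0 := by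
  have hl : l ≠ 0 := (Fact.out : l.Prime).ne_zero
  induction x using OnePoint.rec with
  | infty => simp [heckeRep, ModularForm.val_heckeDiagMatrix hl]
  | coe j => simp [heckeRep, ModularForm.val_heckeMatrix hl]

theorem heckeRep_apply_zero_one (x : OnePoint (ZMod l)) :
    (heckeRep l x : Matrix (Fin 2) (Fin 2) ℝ) 0 1 = (upT l x : ℝ) := by
  have hl : l ≠ 0 := (Fact.out : l.Prime).ne_zero
  induction x using OnePoint.rec with
  | infty => simp [heckeRep, upT, ModularForm.val_heckeDiagMatrix hl]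
  | coe j => simp [heckeRep, upT, ModularForm.val_heckeMatrix hl]

/-- the integer identity between lower-right entries coming from the coset relation. -/
theorem sysT_entry (hlN : ¬ l ∣ N) (γ : Gamma0 N) (x : OnePoint (ZMod l)) :
    (lowT l x : ℤ) * (γ : SL(2, ℤ)) 1 1
      = (((sysT hlN).c γ x : Gamma0 N) : SL(2, ℤ)) 1 0
          * (upT l (redMatrix l (γ : SL(2, ℤ)) • x) : ℤ)
        + (((sysT hlN).c γ x : Gamma0 N) : SL(2, ℤ)) 1 1
          * (lowT l (redMatrix l (γ : SL(2, ℤ)) • x) : ℤ) := by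
  have h := congrArg (fun M : GL (Fin 2) ℝ => (M : Matrix (Fin 2) (Fin 2) ℝ) 1 1)
    (sysT_rel hlN γ x)
  simp only [Matrix.GeneralLinearGroup.coe_mul, Matrix.mul_apply, Fin.sum_univ_two,
    heckeRep_apply_one_one, heckeRep_apply_one_zero, heckeRep_apply_zero_one] at h
  have e : ∀ (g : SL(2, ℤ)) (i k : Fin 2),
      ((mapGL ℝ g : GL (Fin 2) ℝ) : Matrix (Fin 2) (Fin 2) ℝ) i k = ((g i k : ℤ) : ℝ) := by
    intro g i k
    simp
  rw [e, e, e, e] at h
  have h' : ((lowT l x : ℤ) * (γ : SL(2, ℤ)) 1 1 : ℝ)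
      = (((((sysT hlN).c γ x : Gamma0 N) : SL(2, ℤ)) 1 0
          * (upT l (redMatrix l (γ : SL(2, ℤ)) • x) : ℤ)
        + (((sysT hlN).c γ x : Gamma0 N) : SL(2, ℤ)) 1 1
          * (lowT l (redMatrix l (γ : SL(2, ℤ)) • x) : ℤ) : ℤ) : ℝ) := by
    push_cast
    linear_combination h
  exact_mod_cast h'

/-- the unit mod `N` given by the lower-right entry of `heckeRep l x`. -/
noncomputable def unitT (hlN : ¬ l ∣ N) (x : OnePoint (ZMod l)) : (ZMod N)ˣ :=
  x.elim 1 (fun _ => ZMod.unitOfCoprime l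
    ((Nat.Prime.coprime_iff_not_dvd (Fact.out : l.Prime)).mpr hlN))

theorem coe_unitT (hlN : ¬ l ∣ N) (x : OnePoint (ZMod l)) :
    ((unitT hlN x : (ZMod N)ˣ) : ZMod N) = (lowT l x : ZMod N) := by
  induction x using OnePoint.rec with
  | infty => simp [unitT, lowT]
  | coe j => simp [unitT, lowT]

theorem dUnit_sysT (hlN : ¬ l ∣ N) (γ : Gamma0 N) (x : OnePoint (ZMod l)) :
    dUnit N ((sysT hlN).c γ x) * unitT hlN (redMatrix l (γ : SL(2, ℤ)) • x)
      = unitT hlN x * dUnit N γ := by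
  apply Units.ext
  rw [Units.val_mul, Units.val_mul, coe_dUnit, coe_dUnit, coe_unitT, coe_unitT]
  have h := congrArg (Int.cast : ℤ → ZMod N) (sysT_entry hlN γ x)
  have hc : ((((((sysT hlN).c γ x : Gamma0 N) : SL(2, ℤ)) 1 0 : ℤ)) : ZMod N) = 0 :=
    Gamma0_mem.mp ((sysT hlN).c γ x).2
  push_cast at h
  rw [hc, zero_mul, zero_add] at h
  exact h.symm

/-- **Eigen-computation for `T_l~`**: every `d`-character is an eigenvector with eigenvalue
`l + 1`. -/
theorem heckeHomT_dChar (hl : l.Prime) (hlN : ¬ l ∣ N) {A : Type*} [AddCommGroup A]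
    (χ : Additive (ZMod N)ˣ →+ A) :
    heckeHomT N hl hlN A (dChar χ) = (l + 1) • dChar χ := by
  have hcard : Fintype.card (OnePoint (ZMod l)) = l + 1 := by
    have h : Fintype.card (OnePoint (ZMod l)) = Fintype.card (Option (ZMod l)) :=
      Fintype.card_congr (Equiv.refl _)
    rw [h, Fintype.card_option, ZMod.card]
  rw [← hcard]
  refine (sysT hlN).op_eq_card_nsmul (jGL_injective N) (dChar χ)
    (fun x => χ (Additive.ofMul (unitT hlN x))) (fun γ x => ?_)
  rw [dChar_apply, dChar_apply]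
  have h := dUnit_sysT hlN γ x
  have h2 : dUnit N ((sysT hlN).c γ x)
      = unitT hlN x * dUnit N γ * (unitT hlN (redMatrix l (γ : SL(2, ℤ)) • x))⁻¹ := by
    rw [← h, mul_inv_cancel_right]
  rw [h2, ofMul_mul, ofMul_mul, ofMul_inv, map_add, map_add, map_neg]
  show _ = _ + _ - χ (Additive.ofMul (unitT hlN ((sysT hlN).σ γ x)))
  rw [sub_eq_add_neg]
  rfl

end EigenT

section EigenU

variable {N : ℕ} {p : ℕ} [NeZero p]

theorem dUnit_sysU (hpN : p ∣ N) (γ : Gamma0 N) (x : ZMod p) :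
    dUnit N ((sysU hpN).c γ x) = dUnit N γ := by
  have hp : p ≠ 0 := NeZero.ne p
  apply Units.ext
  rw [coe_dUnit, coe_dUnit]
  have h := congrArg (fun M : GL (Fin 2) ℝ => (M : Matrix (Fin 2) (Fin 2) ℝ) 1 1)
    (sysU_rel hpN γ x)
  simp only [Matrix.GeneralLinearGroup.coe_mul, Matrix.mul_apply, Fin.sum_univ_two,
    ModularForm.val_heckeMatrix hp] at h
  have e : ∀ (g : SL(2, ℤ)) (i k : Fin 2),
      ((mapGL ℝ g : GL (Fin 2) ℝ) : Matrix (Fin 2) (Fin 2) ℝ) i k = ((g i k : ℤ) : ℝ) := by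
    intro g i k
    simp
  rw [e, e, e, e] at h
  simp only [Matrix.of_apply, Matrix.cons_val_one, Matrix.cons_val_zero, zero_mul,
    zero_add] at h
  have h10 := sysU_c_apply_one_zero hpN γ x
  set c := (((sysU hpN).c γ x : Gamma0 N) : SL(2, ℤ)) with hc
  set y := (affinePerm (γ : SL(2, ℤ)) (intCast_eq_zero_of_dvd hpN γ) x).val with hy
  have h' : (p : ℤ) * ((γ : SL(2, ℤ)) 1 1) = (p : ℤ) * (c 1 1 + (γ : SL(2, ℤ)) 1 0 * y) := by
    have h'' : (((p : ℤ) * ((γ : SL(2, ℤ)) 1 1) : ℤ) : ℝ)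
        = (((p : ℤ) * (c 1 1 + (γ : SL(2, ℤ)) 1 0 * y) : ℤ) : ℝ) := by
      have h10' := congrArg (Int.cast : ℤ → ℝ) h10
      push_cast at h10' ⊢
      rw [h10'] at h
      linear_combination h
    exact_mod_cast h''
  have h3 : (γ : SL(2, ℤ)) 1 1 = c 1 1 + (γ : SL(2, ℤ)) 1 0 * y :=
    mul_left_cancel₀ (by exact_mod_cast hp) h'
  have hγ : ((((γ : SL(2, ℤ)) 1 0 : ℤ)) : ZMod N) = 0 := Gamma0_mem.mp γ.2
  have h4 := congrArg (Int.cast : ℤ → ZMod N) h3
  push_cast at h4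
  rw [hγ, zero_mul, add_zero] at h4
  exact h4.symm

/-- **Eigen-computation for `U_p~`**: every `d`-character is an eigenvector with eigenvalue
`p`. -/
theorem heckeHomU_dChar (hp : p.Prime) (hpN : p ∣ N) {A : Type*} [AddCommGroup A]
    (χ : Additive (ZMod N)ˣ →+ A) :
    heckeHomU N hp hpN A (dChar χ) = p • dChar χ := by
  have hcard : Fintype.card (ZMod p) = p := ZMod.card p
  have key := (sysU hpN).op_eq_card_nsmul (jGL_injective N) (dChar χ) (fun _ => (0 : A))
    (fun γ x => by rw [dChar_apply, dChar_apply, dUnit_sysU hpN γ x]; simp)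
  rw [hcard] at key
  exact key

end EigenU

end Fermat.Agent.S16.helper1205
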