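/-
helper1461 — S16 lower bound, leaf LB-LIFT (board #626).

A homomorphism `φ : Γ₀(p) → ℤ/n` (`p` prime) that kills `T` and every element of order dividing
`12` lifts to an INTEGRAL PARABOLIC homomorphism `ψ : Γ₀(p) → ℤ`
(`ψ ∈ ModularCurve.Period.parabolicHoms ℤ (Gamma0 p) ℤ`, `ψ ≡ φ mod n`).

Method: the coset cocycle of `φ` on `Y = SL(2, ℤ) ⧸ Γ₀(p)` has generator data `(κ S, κ (S T))`
satisfying the two norm relations and vanishing at the fixed points; such data lift coordinatewise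
to `ℤ`, and the presentation `PSL(2, ℤ) = C₂ * C₃` (`Lib/helper242`) turns the lifted data into an
integral cocycle.  The value at `T` is corrected by the cocycle with data
`(δ_{y₀} - δ_{S y₀}, 0)`; summing `κ T` over `Y` shows that the value at the other cusp is
minus the value at `T`.
-/
import Mathlib
import Fermat.Prelude.Def_ModularCurve_PeriodMap
import Fermat.Agent.Lib.helper242_SL2ZCocycle
import Fermat.Agent.Lib.helper1761_ParabolicConj
import Fermat.Agent.Lib.helper804_Gamma0Cosets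

set_option autoImplicit false

open CongruenceSubgroup MatrixGroups Matrix
open ModularGroup

namespace Fermat.Agent.S16.helper1461

/-! ## Generic cocycle calculus -/

section Cocycle

variable {X : Type*} [MulAction SL(2, ℤ) X] {A : Type*} [AddCommGroup A]

/-- The cocycle convention of `Lib/helper242`. -/
def IsCoc (κ : SL(2, ℤ) → X → A) : Prop :=
  ∀ g h x, κ (g * h) x = κ g (h • x) + κ h x

theorem IsCoc.one {κ : SL(2, ℤ) → X → A} (hκ : IsCoc κ) (x : X) : κ 1 x = 0 := by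
  have := hκ 1 1 x
  simpa using this

theorem IsCoc.inv {κ : SL(2, ℤ) → X → A} (hκ : IsCoc κ) (g : SL(2, ℤ)) (x : X) :
    κ g⁻¹ x = -κ g (g⁻¹ • x) := by
  have := hκ g g⁻¹ x
  rw [mul_inv_cancel, hκ.one] at this
  rw [eq_neg_iff_add_eq_zero, add_comm]
  exact this.symm

theorem IsCoc.pow_fixed {κ : SL(2, ℤ) → X → A} (hκ : IsCoc κ) (g : SL(2, ℤ)) (x : X)
    (hx : g • x = x) (m : ℕ) : κ (g ^ m) x = m • κ g x := by
  induction m with
  | zero => simp [hκ.one]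
  | succ m ih =>
    rw [pow_succ, hκ, hx, ih, succ_nsmul]

theorem IsCoc.zpow_fixed {κ : SL(2, ℤ) → X → A} (hκ : IsCoc κ) (g : SL(2, ℤ)) (x : X)
    (hx : g • x = x) (m : ℤ) : κ (g ^ m) x = m • κ g x := by
  have hx' : g⁻¹ • x = x := by
    rw [inv_smul_eq_iff, hx]
  cases m with
  | ofNat m =>
    simp only [Int.ofNat_eq_natCast, zpow_natCast, natCast_zsmul]
    exact hκ.pow_fixed g x hx m
  | negSucc m =>
    rw [zpow_negSucc, hκ.inv, negSucc_zsmul]
    have h2 : (g ^ (m + 1))⁻¹ • x = x := by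
      rw [inv_smul_eq_iff]
      clear hx'
      induction m with
      | zero => simpa using hx.symm
      | succ m ih => rw [pow_succ, mul_smul, hx]; exact ih
    rw [h2, hκ.pow_fixed g x hx (m + 1)]

theorem IsCoc.sum_pow {κ : SL(2, ℤ) → X → A} (hκ : IsCoc κ) (g : SL(2, ℤ)) (x : X) (m : ℕ) :
    κ (g ^ m) x = ∑ j ∈ Finset.range m, κ g (g ^ j • x) := by
  induction m with
  | zero => simp [hκ.one]
  | succ m ih =>
    rw [pow_succ', hκ, ih, Finset.sum_range_succ, add_comm]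

theorem IsCoc.conj_fixed {κ : SL(2, ℤ) → X → A} (hκ : IsCoc κ) (g h : SL(2, ℤ)) (x : X)
    (hx : h • x = x) : κ (g * h * g⁻¹) (g • x) = κ h x := by
  rw [hκ (g * h) g⁻¹, inv_smul_smul, hκ g h, hx, hκ.inv, inv_smul_smul]
  abel

theorem IsCoc.add {κ κ' : SL(2, ℤ) → X → A} (hκ : IsCoc κ) (hκ' : IsCoc κ') :
    IsCoc (fun g x => κ g x + κ' g x) := by
  intro g h x
  show κ (g * h) x + κ' (g * h) x = κ g (h • x) + κ' g (h • x) + (κ h x + κ' h x)
  rw [hκ, hκ']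
  abel

end Cocycle

/-! ## Lifting generator data from `ZMod n` to `ℤ` -/

section Lift

variable {X : Type*} [LinearOrder X]

theorem exists_lift_two (σ : X → X) (hσ : ∀ x, σ (σ x) = x) (n : ℕ) (a : X → ZMod n)
    (ha : ∀ x, a (σ x) + a x = 0) (hfix : ∀ x, σ x = x → a x = 0) :
    ∃ a' : X → ℤ, (∀ x, a' (σ x) + a' x = 0) ∧ ∀ x, ((a' x : ℤ) : ZMod n) = a x := by
  have hL : ∀ x, ∃ z : ℤ, (z : ZMod n) = a x := fun x => ZMod.intCast_surjective (a x)
  choose L hLa using hL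
  let μ : X → ℤ := fun y => if σ y < y then 1 else 0
  have hμ : ∀ x, σ x ≠ x → μ x + μ (σ x) = 1 := by
    intro x hx
    show (if σ x < x then (1 : ℤ) else 0) + (if σ (σ x) < σ x then (1 : ℤ) else 0) = 1
    rw [hσ]
    rcases lt_or_gt_of_ne hx with h | h
    · rw [if_pos h, if_neg (not_lt.mpr h.le)]; rfl
    · rw [if_neg (not_lt.mpr h.le), if_pos h]; rfl
  let f : X → ℤ := fun x => if σ x = x then 0 else L x - μ x * (L x + L (σ x))
  have hf0 : ∀ x, σ x = x → f x = 0 := fun x hx => if_pos hx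
  have hf1 : ∀ x, σ x ≠ x → f x = L x - μ x * (L x + L (σ x)) := fun x hx => if_neg hx
  refine ⟨f, ?_, ?_⟩
  · intro x
    by_cases hx : σ x = x
    · rw [hx, hf0 x hx]; rfl
    · have hx' : σ (σ x) ≠ σ x := by
        rw [hσ]; exact fun h => hx h.symm
      rw [hf1 x hx, hf1 (σ x) hx', hσ]
      linear_combination (-(L x + L (σ x))) * hμ x hx
  · intro x
    by_cases hx : σ x = x
    · rw [hf0 x hx, hfix x hx]; simp
    · rw [hf1 x hx]
      push_cast
      rw [hLa, hLa, add_comm (a x), ha]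
      simp

theorem exists_lift_three (σ : X → X) (hσ : ∀ x, σ (σ (σ x)) = x) (n : ℕ) (b : X → ZMod n)
    (hb : ∀ x, b (σ (σ x)) + b (σ x) + b x = 0) (hfix : ∀ x, σ x = x → b x = 0) :
    ∃ b' : X → ℤ, (∀ x, b' (σ (σ x)) + b' (σ x) + b' x = 0) ∧
      ∀ x, ((b' x : ℤ) : ZMod n) = b x := by
  have hL : ∀ x, ∃ z : ℤ, (z : ZMod n) = b x := fun x => ZMod.intCast_surjective (b x)
  choose L hLb using hL
  have hinj : Function.Injective σ := by
    intro x y hxy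
    have := congrArg (fun t => σ (σ t)) hxy
    simpa [hσ] using this
  -- among three distinct points exactly one is the least
  have key : ∀ u v w : X, u ≠ v → v ≠ w → w ≠ u →
      (if u < w ∧ u < v then (1 : ℤ) else 0) + (if v < u ∧ v < w then (1 : ℤ) else 0)
        + (if w < v ∧ w < u then (1 : ℤ) else 0) = 1 := by
    intro u v w huv hvw hwu
    rcases lt_or_gt_of_ne huv with h1 | h1 <;> rcases lt_or_gt_of_ne hvw with h2 | h2 <;>
      rcases lt_or_gt_of_ne hwu with h3 | h3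
    · exact absurd (h1.trans (h2.trans h3)) (lt_irrefl _)
    · rw [if_pos ⟨h3, h1⟩, if_neg (fun h => absurd h.1 (not_lt.mpr h1.le)),
        if_neg (fun h => absurd h.1 (not_lt.mpr h2.le))]; rfl
    · rw [if_neg (fun h => absurd h.1 (not_lt.mpr h3.le)),
        if_neg (fun h => absurd h.1 (not_lt.mpr h1.le)), if_pos ⟨h2, h3⟩]; rfl
    · rw [if_pos ⟨h3, h1⟩, if_neg (fun h => absurd h.1 (not_lt.mpr h1.le)),
        if_neg (fun h => absurd h.2 (not_lt.mpr h3.le))]; rfl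
    · rw [if_neg (fun h => absurd h.2 (not_lt.mpr h1.le)), if_pos ⟨h1, h2⟩,
        if_neg (fun h => absurd h.1 (not_lt.mpr h2.le))]; rfl
    · rw [if_neg (fun h => absurd h.2 (not_lt.mpr h1.le)), if_pos ⟨h1, h2⟩,
        if_neg (fun h => absurd h.1 (not_lt.mpr h2.le))]; rfl
    · rw [if_neg (fun h => absurd h.2 (not_lt.mpr h1.le)),
        if_neg (fun h => absurd h.2 (not_lt.mpr h2.le)), if_pos ⟨h2, h3⟩]; rfl
    · exact absurd (h3.trans (h2.trans h1)) (lt_irrefl _)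
  let μ : X → ℤ := fun y => if σ y < y ∧ σ y < σ (σ y) then 1 else 0
  have hμ : ∀ x, σ x ≠ x → μ x + μ (σ x) + μ (σ (σ x)) = 1 := by
    intro x hx
    have h1 : σ (σ x) ≠ σ x := fun h => hx (hinj h)
    have h3 : x ≠ σ (σ x) := by
      intro h
      apply hx
      have := congrArg σ h
      rw [hσ] at this
      exact this
    have := key (σ x) (σ (σ x)) x (fun h => h1 h.symm) (fun h => h3 h.symm) (fun h => hx h.symm)
    show (if σ x < x ∧ σ x < σ (σ x) then (1 : ℤ) else 0)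
      + (if σ (σ x) < σ x ∧ σ (σ x) < σ (σ (σ x)) then (1 : ℤ) else 0)
      + (if σ (σ (σ x)) < σ (σ x) ∧ σ (σ (σ x)) < σ (σ (σ (σ x))) then (1 : ℤ) else 0) = 1
    rw [hσ]
    exact this
  let f : X → ℤ := fun x =>
    if σ x = x then 0 else L x - μ x * (L x + L (σ x) + L (σ (σ x)))
  have hf0 : ∀ x, σ x = x → f x = 0 := fun x hx => if_pos hx
  have hf1 : ∀ x, σ x ≠ x → f x = L x - μ x * (L x + L (σ x) + L (σ (σ x))) :=
    fun x hx => if_neg hx
  refine ⟨f, ?_, ?_⟩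
  · intro x
    by_cases hx : σ x = x
    · rw [hx, hx, hf0 x hx]; rfl
    · have h1 : σ (σ x) ≠ σ x := fun h => hx (hinj h)
      have h2 : σ (σ (σ x)) ≠ σ (σ x) := fun h => h1 (hinj h)
      rw [hf1 x hx, hf1 (σ x) h1, hf1 (σ (σ x)) h2, hσ]
      linear_combination (-(L x + L (σ x) + L (σ (σ x)))) * hμ x hx
  · intro x
    by_cases hx : σ x = x
    · rw [hf0 x hx, hfix x hx]; simp
    · rw [hf1 x hx]
      push_cast
      rw [hLb, hLb, hLb]
      have h2 : b x + b (σ x) + b (σ (σ x)) = 0 := by rw [← hb x]; ring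
      rw [h2, mul_zero, sub_zero]

end Lift

/-! ## The coset cocycle of a homomorphism -/

section Shapiro

variable (Γ : Subgroup SL(2, ℤ)) {A : Type*} [AddCommGroup A]

/-- Extension by zero of a homomorphism on `Γ` to all of `SL(2, ℤ)`. -/
noncomputable def ext0 (φ : Additive Γ →+ A) (g : SL(2, ℤ)) : A :=
  open scoped Classical in if h : g ∈ Γ then φ (Additive.ofMul ⟨g, h⟩) else 0

theorem ext0_of_mem (φ : Additive Γ →+ A) {g : SL(2, ℤ)} (h : g ∈ Γ) :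
    ext0 Γ φ g = φ (Additive.ofMul ⟨g, h⟩) := dif_pos h

theorem ext0_mul (φ : Additive Γ →+ A) {g h : SL(2, ℤ)} (hg : g ∈ Γ) (hh : h ∈ Γ) :
    ext0 Γ φ (g * h) = ext0 Γ φ g + ext0 Γ φ h := by
  rw [ext0_of_mem Γ φ hg, ext0_of_mem Γ φ hh, ext0_of_mem Γ φ (Γ.mul_mem hg hh), ← map_add]
  rfl

theorem ext0_one (φ : Additive Γ →+ A) : ext0 Γ φ 1 = 0 := by
  rw [ext0_of_mem Γ φ Γ.one_mem]
  exact map_zero φ

theorem ext0_inv (φ : Additive Γ →+ A) {g : SL(2, ℤ)} (hg : g ∈ Γ) :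
    ext0 Γ φ g⁻¹ = -ext0 Γ φ g := by
  have h := ext0_mul Γ φ hg (Γ.inv_mem hg)
  rw [mul_inv_cancel, ext0_one] at h
  rw [eq_neg_iff_add_eq_zero, add_comm]
  exact h.symm

theorem ext0_conj (φ : Additive Γ →+ A) {g c : SL(2, ℤ)} (hg : g ∈ Γ) (hc : c ∈ Γ) :
    ext0 Γ φ (c⁻¹ * (g * c)) = ext0 Γ φ g := by
  rw [ext0_mul Γ φ (Γ.inv_mem hc) (Γ.mul_mem hg hc), ext0_mul Γ φ hg hc, ext0_inv Γ φ hc]
  abel

/-- A coset representative. -/
noncomputable def rep (x : SL(2, ℤ) ⧸ Γ) : SL(2, ℤ) := Quotient.out x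

theorem mk_rep (x : SL(2, ℤ) ⧸ Γ) : (QuotientGroup.mk (rep Γ x) : SL(2, ℤ) ⧸ Γ) = x :=
  QuotientGroup.out_eq' x

theorem rep_mem (g : SL(2, ℤ)) (x : SL(2, ℤ) ⧸ Γ) :
    (rep Γ (g • x))⁻¹ * (g * rep Γ x) ∈ Γ := by
  rw [← QuotientGroup.eq, mk_rep]
  conv_lhs => rw [← mk_rep Γ x]
  rfl

/-- The coset cocycle of `φ`. -/
noncomputable def shapiro (φ : Additive Γ →+ A) (g : SL(2, ℤ)) (x : SL(2, ℤ) ⧸ Γ) : A :=
  ext0 Γ φ ((rep Γ (g • x))⁻¹ * (g * rep Γ x))

theorem shapiro_isCoc (φ : Additive Γ →+ A) : IsCoc (shapiro Γ φ) := by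
  intro g h x
  unfold shapiro
  rw [mul_smul]
  have e : (rep Γ (g • h • x))⁻¹ * (g * h * rep Γ x)
      = ((rep Γ (g • h • x))⁻¹ * (g * rep Γ (h • x))) * ((rep Γ (h • x))⁻¹ * (h * rep Γ x)) := by
    group
  rw [e, ext0_mul Γ φ (rep_mem Γ g (h • x)) (rep_mem Γ h x)]

theorem shapiro_fixed (φ : Additive Γ →+ A) (g : SL(2, ℤ)) (x : SL(2, ℤ) ⧸ Γ) (hx : g • x = x) :
    shapiro Γ φ g x = ext0 Γ φ ((rep Γ x)⁻¹ * (g * rep Γ x)) := by
  unfold shapiro
  rw [hx]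

theorem mem_smul_one {g : SL(2, ℤ)} (hg : g ∈ Γ) :
    g • (QuotientGroup.mk 1 : SL(2, ℤ) ⧸ Γ) = QuotientGroup.mk 1 := by
  show (QuotientGroup.mk (g * 1) : SL(2, ℤ) ⧸ Γ) = QuotientGroup.mk 1
  rw [QuotientGroup.eq, mul_one, mul_one]
  exact Γ.inv_mem hg

theorem rep_one_mem : rep Γ (QuotientGroup.mk 1 : SL(2, ℤ) ⧸ Γ) ∈ Γ := by
  have h := mk_rep Γ (QuotientGroup.mk 1 : SL(2, ℤ) ⧸ Γ)
  rw [QuotientGroup.eq, mul_one] at h
  simpa using Γ.inv_mem h

theorem shapiro_of_mem (φ : Additive Γ →+ A) {g : SL(2, ℤ)} (hg : g ∈ Γ) :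
    shapiro Γ φ g (QuotientGroup.mk 1) = φ (Additive.ofMul ⟨g, hg⟩) := by
  rw [shapiro_fixed Γ φ g _ (mem_smul_one Γ hg), ext0_conj Γ φ hg (rep_one_mem Γ),
    ext0_of_mem Γ φ hg]

theorem conj_pow' (c g : SL(2, ℤ)) (m : ℕ) : (c⁻¹ * (g * c)) ^ m = c⁻¹ * (g ^ m * c) := by
  induction m with
  | zero => simp
  | succ m ih => rw [pow_succ, ih, pow_succ]; group

/-- The homomorphism on `Γ` attached to a cocycle: evaluation at the base coset. -/
def homOfCoc (κ : SL(2, ℤ) → (SL(2, ℤ) ⧸ Γ) → A) (hκ : IsCoc κ) : Additive Γ →+ A where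
  toFun γ := κ ((Additive.toMul γ : Γ) : SL(2, ℤ)) (QuotientGroup.mk 1)
  map_zero' := hκ.one _
  map_add' γ δ := by
    show κ (((Additive.toMul γ * Additive.toMul δ : Γ) : Γ) : SL(2, ℤ)) _ = _
    rw [Subgroup.coe_mul, hκ, mem_smul_one Γ (Additive.toMul δ).2]

theorem homOfCoc_apply (κ : SL(2, ℤ) → (SL(2, ℤ) ⧸ Γ) → A) (hκ : IsCoc κ) (γ : Γ) :
    homOfCoc Γ κ hκ (Additive.ofMul γ) = κ (γ : SL(2, ℤ)) (QuotientGroup.mk 1) := rfl

end Shapiro

/-! ## The cosets of `Γ₀(p)` -/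

section Gamma0

variable (p : ℕ)

theorem neg_one_mem : (-1 : SL(2, ℤ)) ∈ Gamma0 p := by
  rw [Gamma0_mem]
  simp

theorem T_mem : ModularGroup.T ∈ Gamma0 p := by
  rw [Gamma0_mem]
  simp [ModularGroup.T]

theorem neg_one_smul' (x : SL(2, ℤ) ⧸ Gamma0 p) : (-1 : SL(2, ℤ)) • x = x := by
  rw [← Fermat.Agent.Lib.helper242.S_mul_S, ← pow_two]
  exact Fermat.Agent.Lib.helper804.S_sq_smul p x

theorem S_S_smul (x : SL(2, ℤ) ⧸ Gamma0 p) : S • S • x = x := by
  rw [← mul_smul, Fermat.Agent.Lib.helper242.S_mul_S]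
  exact neg_one_smul' p x

theorem U_U_U_smul (x : SL(2, ℤ) ⧸ Gamma0 p) : (S * T) • (S * T) • (S * T) • x = x := by
  have h := Fermat.Agent.Lib.helper804.ST_cube_smul p x
  rw [pow_succ, pow_two, mul_smul, mul_smul] at h
  exact h

theorem S_pow_twelve : (S : SL(2, ℤ)) ^ 12 = 1 := by
  have h : (S : SL(2, ℤ)) ^ 12 = (S * S) ^ 6 := by rw [← pow_two, ← pow_mul]
  rw [h, Fermat.Agent.Lib.helper242.S_mul_S]
  exact Even.neg_one_pow (by decide)

theorem ST_pow_twelve : ((S * T : SL(2, ℤ))) ^ 12 = 1 := by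
  have h : ((S * T : SL(2, ℤ))) ^ 12 = ((S * T) ^ 3) ^ 4 := by rw [← pow_mul]
  rw [h, Fermat.Agent.Lib.helper242.ST_cube]
  exact Even.neg_one_pow (by decide)

/-- The coset enumeration `∞, 0, 1, …, p - 1` of `SL(2, ℤ) ⧸ Γ₀(p)`. -/
def cosetMap : Option (Fin p) → SL(2, ℤ) ⧸ Gamma0 p
  | none => QuotientGroup.mk 1
  | some j => QuotientGroup.mk (Fermat.Agent.Lib.helper804.colMat ((j : ℕ) : ℤ))

theorem one_ne_colMat [hp : Fact p.Prime] (j : ℤ) :
    (QuotientGroup.mk 1 : SL(2, ℤ) ⧸ Gamma0 p)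
      ≠ QuotientGroup.mk (Fermat.Agent.Lib.helper804.colMat j) := by
  intro h
  rw [Fermat.Agent.Lib.helper804.mk_eq_mk_iff, Fermat.Agent.Lib.helper804.colMat_zero_zero,
    Fermat.Agent.Lib.helper804.colMat_one_zero] at h
  have h1 : ((1 : SL(2, ℤ)).1 0 0 : ℤ) = 1 := by simp
  have h2 : ((1 : SL(2, ℤ)).1 1 0 : ℤ) = 0 := by simp
  rw [h1, h2] at h
  have h3 : (p : ℤ) ∣ 1 := by simpa using h
  have h4 : p ∣ 1 := by exact_mod_cast h3
  exact hp.out.one_lt.ne' (Nat.dvd_one.mp h4)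

theorem colMat_eq_iff (i j : ℤ) :
    (QuotientGroup.mk (Fermat.Agent.Lib.helper804.colMat i) : SL(2, ℤ) ⧸ Gamma0 p)
      = QuotientGroup.mk (Fermat.Agent.Lib.helper804.colMat j) ↔ (p : ℤ) ∣ i - j := by
  rw [Fermat.Agent.Lib.helper804.mk_eq_mk_iff, Fermat.Agent.Lib.helper804.colMat_zero_zero,
    Fermat.Agent.Lib.helper804.colMat_one_zero, Fermat.Agent.Lib.helper804.colMat_zero_zero,
    Fermat.Agent.Lib.helper804.colMat_one_zero, mul_one, mul_one]

theorem cosetMap_bijective [hp : Fact p.Prime] : Function.Bijective (cosetMap p) := by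
  haveI : NeZero p := ⟨hp.out.ne_zero⟩
  constructor
  · intro a b hab
    cases a with
    | none =>
      cases b with
      | none => rfl
      | some j => exact absurd hab (one_ne_colMat p _)
    | some i =>
      cases b with
      | none => exact absurd hab.symm (one_ne_colMat p _)
      | some j =>
        have h : (p : ℤ) ∣ ((i : ℕ) : ℤ) - ((j : ℕ) : ℤ) := (colMat_eq_iff p _ _).mp hab
        have h2 : ((j : ℕ) : ℤ) ≡ ((i : ℕ) : ℤ) [ZMOD (p : ℤ)] := (Int.modEq_iff_dvd).mpr h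
        have h3 : (j : ℕ) ≡ (i : ℕ) [MOD p] := Int.natCast_modEq_iff.mp h2
        have h4 : (j : ℕ) = (i : ℕ) := h3.eq_of_lt_of_lt j.2 i.2
        rw [Fin.ext h4]
  · intro x
    obtain ⟨g, rfl⟩ := QuotientGroup.mk_surjective x
    by_cases hc : (p : ℤ) ∣ g.1 1 0
    · refine ⟨none, ?_⟩
      show (QuotientGroup.mk 1 : SL(2, ℤ) ⧸ Gamma0 p) = QuotientGroup.mk g
      rw [Fermat.Agent.Lib.helper804.mk_eq_mk_iff]
      have h1 : ((1 : SL(2, ℤ)).1 0 0 : ℤ) = 1 := by simp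
      have h2 : ((1 : SL(2, ℤ)).1 1 0 : ℤ) = 0 := by simp
      rw [h1, h2]
      simpa using hc
    · set u : ZMod p := ((g.1 0 0 : ℤ) : ZMod p) * ((g.1 1 0 : ℤ) : ZMod p)⁻¹ with hu
      refine ⟨some ⟨u.val, ZMod.val_lt u⟩, ?_⟩
      show (QuotientGroup.mk (Fermat.Agent.Lib.helper804.colMat ((u.val : ℕ) : ℤ))
        : SL(2, ℤ) ⧸ Gamma0 p) = QuotientGroup.mk g
      rw [Fermat.Agent.Lib.helper804.mk_eq_mk_iff, Fermat.Agent.Lib.helper804.colMat_zero_zero,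
        Fermat.Agent.Lib.helper804.colMat_one_zero, ← ZMod.intCast_zmod_eq_zero_iff_dvd]
      have hc' : ((g.1 1 0 : ℤ) : ZMod p) ≠ 0 := by
        rw [Ne, ZMod.intCast_zmod_eq_zero_iff_dvd]
        exact hc
      push_cast
      rw [ZMod.natCast_zmod_val, hu, mul_assoc, inv_mul_cancel₀ hc']
      ring

theorem sum_cosets [Fact p.Prime] [Fintype (SL(2, ℤ) ⧸ Gamma0 p)]
    (F : (SL(2, ℤ) ⧸ Gamma0 p) → ℤ) :
    ∑ x, F x = F (QuotientGroup.mk 1)
      + ∑ j : Fin p, F (QuotientGroup.mk (Fermat.Agent.Lib.helper804.colMat ((j : ℕ) : ℤ))) := by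
  rw [← (Equiv.ofBijective _ (cosetMap_bijective p)).sum_comp, Fintype.sum_option]
  rfl

theorem T_zpow_smul_colMat (k j : ℤ) :
    T ^ k • (QuotientGroup.mk (Fermat.Agent.Lib.helper804.colMat j) : SL(2, ℤ) ⧸ Gamma0 p)
      = QuotientGroup.mk (Fermat.Agent.Lib.helper804.colMat (j + k)) := by
  rw [Fermat.Agent.Lib.helper804.smul_mk, Fermat.Agent.Lib.helper804.mk_eq_mk_iff,
    (Fermat.Agent.Lib.helper804.T_zpow_mul_col k _).1,
    (Fermat.Agent.Lib.helper804.T_zpow_mul_col k _).2,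
    Fermat.Agent.Lib.helper804.colMat_zero_zero, Fermat.Agent.Lib.helper804.colMat_one_zero,
    Fermat.Agent.Lib.helper804.colMat_zero_zero, Fermat.Agent.Lib.helper804.colMat_one_zero]
  exact ⟨0, by ring⟩

theorem S_smul_one :
    S • (QuotientGroup.mk 1 : SL(2, ℤ) ⧸ Gamma0 p)
      = QuotientGroup.mk (Fermat.Agent.Lib.helper804.colMat 0) := by
  rw [Fermat.Agent.Lib.helper804.smul_mk, Fermat.Agent.Lib.helper804.mk_eq_mk_iff,
    (Fermat.Agent.Lib.helper804.S_mul_col _).1, (Fermat.Agent.Lib.helper804.S_mul_col _).2,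
    Fermat.Agent.Lib.helper804.colMat_zero_zero, Fermat.Agent.Lib.helper804.colMat_one_zero]
  have h1 : ((1 : SL(2, ℤ)).1 0 0 : ℤ) = 1 := by simp
  have h2 : ((1 : SL(2, ℤ)).1 1 0 : ℤ) = 0 := by simp
  rw [h1, h2]
  exact ⟨0, by ring⟩

theorem mk_colMat (j : ℤ) :
    (QuotientGroup.mk (Fermat.Agent.Lib.helper804.colMat j) : SL(2, ℤ) ⧸ Gamma0 p)
      = T ^ j • S • QuotientGroup.mk 1 := by
  rw [S_smul_one, T_zpow_smul_colMat, zero_add]

end Gamma0

/-! ## The two cusps -/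

section Cusps

variable (p : ℕ) [hp : Fact p.Prime]

/-- For an integral cocycle on `SL(2, ℤ) ⧸ Γ₀(p)` the values at the two cusps add up to zero. -/
theorem cusp_sum (κ : SL(2, ℤ) → (SL(2, ℤ) ⧸ Gamma0 p) → ℤ) (hκ : IsCoc κ)
    (hS : ∀ x, κ S (S • x) + κ S x = 0)
    (hU : ∀ x, κ (S * T) ((S * T) • (S * T) • x) + κ (S * T) ((S * T) • x) + κ (S * T) x = 0) :
    κ T (QuotientGroup.mk 1) + κ (T ^ p) (S • QuotientGroup.mk 1) = 0 := by
  haveI : Fintype (SL(2, ℤ) ⧸ Gamma0 p) :=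
    Fintype.ofEquiv _ (Equiv.ofBijective _ (cosetMap_bijective p))
  have h1 : ∑ x, κ T x = κ T (QuotientGroup.mk 1) + κ (T ^ p) (S • QuotientGroup.mk 1) := by
    rw [sum_cosets p, hκ.sum_pow T _ p, ← Fin.sum_univ_eq_sum_range]
    congr 1
    refine Finset.sum_congr rfl fun j _ => ?_
    rw [mk_colMat, zpow_natCast]
  have eS : ∀ F : (SL(2, ℤ) ⧸ Gamma0 p) → ℤ, ∀ g : SL(2, ℤ), ∑ x, F (g • x) = ∑ x, F x :=
    fun F g => Equiv.sum_comp (MulAction.toPerm g) F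
  have h2 : ∑ x, κ S x = 0 := by
    have h : ∑ x, κ S (S • x) + ∑ x, κ S x = 0 := by
      rw [← Finset.sum_add_distrib]
      exact Finset.sum_eq_zero fun x _ => hS x
    rw [eS (κ S) S] at h
    omega
  have h3 : ∑ x, κ (S * T) x = 0 := by
    have h : ∑ x, κ (S * T) ((S * T) • (S * T) • x) + ∑ x, κ (S * T) ((S * T) • x)
        + ∑ x, κ (S * T) x = 0 := by
      rw [← Finset.sum_add_distrib, ← Finset.sum_add_distrib]
      exact Finset.sum_eq_zero fun x _ => hU x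
    rw [eS (fun x => κ (S * T) ((S * T) • x)) (S * T), eS (κ (S * T)) (S * T)] at h
    omega
  have h4 : ∑ x, κ T x = 0 := by
    have hT : ∀ x, κ T x = κ S⁻¹ ((S * T) • x) + κ (S * T) x := by
      intro x
      rw [← hκ, inv_mul_cancel_left]
    have hI : ∀ x, κ S⁻¹ x = -κ S (S⁻¹ • x) := fun x => hκ.inv S x
    calc ∑ x, κ T x = ∑ x, (κ S⁻¹ ((S * T) • x) + κ (S * T) x) :=
          Finset.sum_congr rfl fun x _ => hT x
      _ = ∑ x, κ S⁻¹ ((S * T) • x) + ∑ x, κ (S * T) x := Finset.sum_add_distrib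
      _ = ∑ x, κ S⁻¹ x := by rw [h3, add_zero, eS (κ S⁻¹) (S * T)]
      _ = ∑ x, -κ S (S⁻¹ • x) := Finset.sum_congr rfl fun x _ => hI x
      _ = -∑ x, κ S (S⁻¹ • x) := Finset.sum_neg_distrib _
      _ = 0 := by rw [eS (κ S) S⁻¹, h2, neg_zero]
  rw [← h1, h4]

/-- A cocycle with vanishing value at `T` (base coset) vanishes on all parabolic elements. -/
theorem coc_parabolic (κ : SL(2, ℤ) → (SL(2, ℤ) ⧸ Gamma0 p) → ℤ) (hκ : IsCoc κ)
    (hS : ∀ x, κ S (S • x) + κ S x = 0)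
    (hU : ∀ x, κ (S * T) ((S * T) • (S * T) • x) + κ (S * T) ((S * T) • x) + κ (S * T) x = 0)
    (hT : κ T (QuotientGroup.mk 1) = 0)
    (g : SL(2, ℤ)) (k : ℤ) (hmem : g * T ^ k * g⁻¹ ∈ Gamma0 p) :
    κ (g * T ^ k * g⁻¹) (QuotientGroup.mk 1) = 0 := by
  set x0 : SL(2, ℤ) ⧸ Gamma0 p := QuotientGroup.mk 1 with hx0
  set y : SL(2, ℤ) ⧸ Gamma0 p := g⁻¹ • x0 with hy
  have hgy : g • y = x0 := smul_inv_smul g x0
  have hfix : T ^ k • y = y := by
    have h := mem_smul_one (Gamma0 p) hmem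
    rw [mul_smul, mul_smul] at h
    rw [hy, eq_inv_smul_iff]
    exact h
  have hcusp := cusp_sum p κ hκ hS hU
  rw [hT, zero_add] at hcusp
  rw [← hgy, hκ.conj_fixed g (T ^ k) y hfix]
  obtain ⟨i, hi⟩ := (cosetMap_bijective p).2 y
  cases i with
  | none =>
    have hy0 : y = x0 := hi.symm
    rw [hy0, hκ.zpow_fixed T x0 (mem_smul_one (Gamma0 p) (T_mem p)) k, hT, smul_zero]
  | some j =>
    have hyj : y = QuotientGroup.mk (Fermat.Agent.Lib.helper804.colMat ((j : ℕ) : ℤ)) := hi.symm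
    -- `p ∣ k`
    have hk : (p : ℤ) ∣ k := by
      have h := hfix
      rw [hyj, T_zpow_smul_colMat, colMat_eq_iff] at h
      simpa using h
    obtain ⟨m, rfl⟩ := hk
    have hTp : ∀ z : ℤ, T ^ p • (QuotientGroup.mk (Fermat.Agent.Lib.helper804.colMat z)
        : SL(2, ℤ) ⧸ Gamma0 p) = QuotientGroup.mk (Fermat.Agent.Lib.helper804.colMat z) := by
      intro z
      rw [← zpow_natCast, T_zpow_smul_colMat, colMat_eq_iff]
      exact ⟨1, by ring⟩
    have e1 : T ^ ((p : ℤ) * m) = (T ^ p) ^ m := by rw [_root_.zpow_mul, zpow_natCast]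
    rw [e1, hκ.zpow_fixed (T ^ p) y (by rw [hyj]; exact hTp _) m]
    have e2 : κ (T ^ p) y = κ (T ^ p) (S • x0) := by
      have h0 : T ^ p • (S • x0) = S • x0 := by
        rw [hx0, S_smul_one]; exact hTp 0
      have h := hκ.conj_fixed (T ^ ((j : ℕ) : ℤ)) (T ^ p) (S • x0) h0
      have e3 : T ^ ((j : ℕ) : ℤ) * T ^ p * (T ^ ((j : ℕ) : ℤ))⁻¹ = T ^ p := by
        rw [← zpow_natCast T p]; group
      rw [e3] at h
      rw [hyj, mk_colMat, ← hx0, h]
    rw [e2, hcusp, smul_zero]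

end Cusps

/-! ## The lifting theorem -/

/-- **Integral parabolic lift.**  A homomorphism `φ : Γ₀(p) → ℤ/n` (`p` prime) which kills `T` and
every element of order dividing `12` is the reduction mod `n` of an integral homomorphism that
kills every element of trace `±2`. -/
theorem exists_parabolic_lift (p : ℕ) [hp : Fact p.Prime] (n : ℕ)
    (φ : Additive (Gamma0 p) →+ ZMod n)
    (hT : φ (Additive.ofMul (⟨ModularGroup.T, T_mem p⟩ : Gamma0 p)) = 0)
    (h12 : ∀ γ : Gamma0 p, γ ^ 12 = 1 → φ (Additive.ofMul γ) = 0) :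
    ∃ ψ : Additive (Gamma0 p) →+ ℤ,
      ψ ∈ ModularCurve.Period.parabolicHoms ℤ (Gamma0 p) ℤ ∧
        ∀ γ : Additive (Gamma0 p), ((ψ γ : ℤ) : ZMod n) = φ γ := by
  classical
  set x0 : SL(2, ℤ) ⧸ Gamma0 p := QuotientGroup.mk 1 with hx0
  -- killing elements of order dividing 12
  have hext12 : ∀ g : SL(2, ℤ), g ∈ Gamma0 p → g ^ 12 = 1 → ext0 (Gamma0 p) φ g = 0 := by
    intro g hg hpow
    rw [ext0_of_mem _ φ hg]
    apply h12
    apply Subtype.ext
    rw [Subgroup.coe_pow]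
    exact hpow
  -- the coset cocycle of `φ`
  have hκφ : IsCoc (shapiro (Gamma0 p) φ) := shapiro_isCoc (Gamma0 p) φ
  have hneg1 : ∀ x, shapiro (Gamma0 p) φ (-1) x = 0 := by
    intro x
    rw [shapiro_fixed _ φ _ x (neg_one_smul' p x)]
    have e : (rep (Gamma0 p) x)⁻¹ * (-1 * rep (Gamma0 p) x) = -1 := by
      rw [neg_one_mul, mul_neg, inv_mul_cancel]
    rw [e]
    exact hext12 _ (neg_one_mem p) (Even.neg_one_pow (by decide))
  have ha : ∀ x, shapiro (Gamma0 p) φ S (S • x) + shapiro (Gamma0 p) φ S x = 0 := by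
    intro x
    rw [← hκφ S S x, Fermat.Agent.Lib.helper242.S_mul_S]
    exact hneg1 x
  have hb : ∀ x, shapiro (Gamma0 p) φ (S * T) ((S * T) • (S * T) • x)
      + shapiro (Gamma0 p) φ (S * T) ((S * T) • x) + shapiro (Gamma0 p) φ (S * T) x = 0 := by
    intro x
    rw [← hκφ (S * T) (S * T) ((S * T) • x), ← hκφ ((S * T) * (S * T)) (S * T) x, ← pow_two,
      ← pow_succ, Fermat.Agent.Lib.helper242.ST_cube]
    exact hneg1 x
  have hafix : ∀ x : SL(2, ℤ) ⧸ Gamma0 p, S • x = x → shapiro (Gamma0 p) φ S x = 0 := by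
    intro x hx
    rw [shapiro_fixed _ φ _ x hx]
    have hm := rep_mem (Gamma0 p) S x
    rw [hx] at hm
    refine hext12 _ hm ?_
    rw [conj_pow', S_pow_twelve, one_mul, inv_mul_cancel]
  have hbfix : ∀ x : SL(2, ℤ) ⧸ Gamma0 p, (S * T) • x = x →
      shapiro (Gamma0 p) φ (S * T) x = 0 := by
    intro x hx
    rw [shapiro_fixed _ φ _ x hx]
    have hm := rep_mem (Gamma0 p) (S * T) x
    rw [hx] at hm
    refine hext12 _ hm ?_
    rw [conj_pow', ST_pow_twelve, one_mul, inv_mul_cancel]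
  -- lift the generator data to `ℤ`
  letI : LinearOrder (SL(2, ℤ) ⧸ Gamma0 p) := IsWellOrder.linearOrder WellOrderingRel
  obtain ⟨a', ha', ha'c⟩ := exists_lift_two (fun x : SL(2, ℤ) ⧸ Gamma0 p => S • x)
    (fun x => S_S_smul p x) n (shapiro (Gamma0 p) φ S) ha hafix
  obtain ⟨b', hb', hb'c⟩ := exists_lift_three (fun x : SL(2, ℤ) ⧸ Gamma0 p => (S * T) • x)
    (fun x => U_U_U_smul p x) n (shapiro (Gamma0 p) φ (S * T)) hb hbfix
  obtain ⟨κ', hκ', hκ'S, hκ'U⟩ :=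
    Fermat.Agent.Lib.helper242.exists_cocycle (neg_one_smul' p) a' b' ha' hb'
  -- its reduction is the coset cocycle of `φ`
  have hred : (fun g x => ((κ' g x : ℤ) : ZMod n)) = shapiro (Gamma0 p) φ := by
    refine Fermat.Agent.Lib.helper242.cocycle_ext ?_ hκφ ?_ ?_
    · intro g h x
      show ((κ' (g * h) x : ℤ) : ZMod n) = ((κ' g (h • x) : ℤ) : ZMod n) + ((κ' h x : ℤ) : ZMod n)
      rw [hκ' g h x]
      push_cast
      rfl
    · funext x
      show ((κ' S x : ℤ) : ZMod n) = _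
      rw [hκ'S, ha'c]
    · funext x
      show ((κ' (S * T) x : ℤ) : ZMod n) = _
      rw [hκ'U, hb'c]
  have hred' : ∀ g x, ((κ' g x : ℤ) : ZMod n) = shapiro (Gamma0 p) φ g x :=
    fun g x => congrFun (congrFun hred g) x
  -- the correction cocycle
  have hx0S : x0 ≠ S • x0 := by
    rw [hx0, S_smul_one]
    exact one_ne_colMat p 0
  set a1 : (SL(2, ℤ) ⧸ Gamma0 p) → ℤ :=
    fun x => (if x = x0 then 1 else 0) - (if x = S • x0 then 1 else 0) with ha1
  have ha1rel : ∀ x, a1 (S • x) + a1 x = 0 := by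
    intro x
    have e1 : (S • x = x0) ↔ (x = S • x0) :=
      ⟨fun h => by rw [← h, S_S_smul], fun h => by rw [h, S_S_smul]⟩
    have e2 : (S • x = S • x0) ↔ x = x0 := smul_left_cancel_iff S
    show ((if S • x = x0 then (1 : ℤ) else 0) - (if S • x = S • x0 then 1 else 0))
      + ((if x = x0 then 1 else 0) - (if x = S • x0 then 1 else 0)) = 0
    simp only [e1, e2]
    ring
  obtain ⟨κ1, hκ1, hκ1S, hκ1U⟩ :=
    Fermat.Agent.Lib.helper242.exists_cocycle (neg_one_smul' p) a1 (fun _ => (0 : ℤ)) ha1rel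
      (fun x => by simp)
  have hκ1' : IsCoc κ1 := hκ1
  have hTx0 : T • x0 = x0 := mem_smul_one (Gamma0 p) (T_mem p)
  have hκ1T : κ1 T x0 = -1 := by
    have hT' : (T : SL(2, ℤ)) = S⁻¹ * (S * T) := (inv_mul_cancel_left S T).symm
    calc κ1 T x0 = κ1 (S⁻¹ * (S * T)) x0 := by rw [← hT']
      _ = κ1 S⁻¹ ((S * T) • x0) + κ1 (S * T) x0 := hκ1 _ _ _
      _ = κ1 S⁻¹ (S • x0) := by
        rw [hκ1U, mul_smul, hTx0]
        exact add_zero _
      _ = -κ1 S (S⁻¹ • S • x0) := hκ1'.inv S _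
      _ = -a1 x0 := by rw [inv_smul_smul, hκ1S]
      _ = -1 := by
        show -((if x0 = x0 then (1 : ℤ) else 0) - (if x0 = S • x0 then 1 else 0)) = -1
        rw [if_pos rfl, if_neg hx0S]
        ring
  -- the corrected cocycle
  set c : ℤ := κ' T x0 with hc
  have hcn : ((c : ℤ) : ZMod n) = 0 := by
    rw [hc, hred', hx0, shapiro_of_mem (Gamma0 p) φ (T_mem p)]
    exact hT
  set κ : SL(2, ℤ) → (SL(2, ℤ) ⧸ Gamma0 p) → ℤ := fun g x => κ' g x + c * κ1 g x with hκdef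
  have hκ : IsCoc κ := by
    intro g h x
    show κ' (g * h) x + c * κ1 (g * h) x
      = κ' g (h • x) + c * κ1 g (h • x) + (κ' h x + c * κ1 h x)
    rw [hκ' g h x, hκ1 g h x]
    ring
  have hκT : κ T x0 = 0 := by
    show κ' T x0 + c * κ1 T x0 = 0
    rw [hκ1T, ← hc]
    ring
  have hκS : ∀ x, κ S (S • x) + κ S x = 0 := by
    intro x
    show κ' S (S • x) + c * κ1 S (S • x) + (κ' S x + c * κ1 S x) = 0
    rw [hκ'S, hκ1S]
    linear_combination ha' x + c * ha1rel x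
  have hκU : ∀ x, κ (S * T) ((S * T) • (S * T) • x) + κ (S * T) ((S * T) • x)
      + κ (S * T) x = 0 := by
    intro x
    show κ' (S * T) ((S * T) • (S * T) • x) + c * κ1 (S * T) ((S * T) • (S * T) • x)
      + (κ' (S * T) ((S * T) • x) + c * κ1 (S * T) ((S * T) • x))
      + (κ' (S * T) x + c * κ1 (S * T) x) = 0
    rw [hκ'U, hκ1U]
    have := hb' x
    simp only [mul_zero, add_zero]
    exact this
  have hκred : ∀ g x, ((κ g x : ℤ) : ZMod n) = shapiro (Gamma0 p) φ g x := by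
    intro g x
    show ((κ' g x + c * κ1 g x : ℤ) : ZMod n) = _
    push_cast
    rw [hcn, hred', zero_mul, add_zero]
  have hκneg : κ (-1) x0 = 0 := by
    have h := hκ.pow_fixed (-1) x0 (neg_one_smul' p x0) 2
    have e : ((-1 : SL(2, ℤ))) ^ 2 = 1 := Even.neg_one_pow (by decide)
    rw [e, hκ.one] at h
    have h' : (2 : ℤ) * κ (-1) x0 = 0 := by
      rw [two_mul, ← two_nsmul]; exact h.symm
    omega
  refine ⟨homOfCoc (Gamma0 p) κ hκ, ?_, ?_⟩
  · -- parabolic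
    rw [ModularCurve.Period.mem_parabolicHoms_iff]
    intro γ hγ
    rw [homOfCoc_apply]
    obtain ⟨g, k, h | h⟩ :=
      Fermat.Agent.Lib.helper1761.exists_conj_T_zpow_of_trace_sq (γ : SL(2, ℤ)) hγ
    · have hmem : g * T ^ k * g⁻¹ ∈ Gamma0 p := h ▸ γ.2
      rw [h]
      exact coc_parabolic p κ hκ hκS hκU hκT g k hmem
    · have hmem : g * T ^ k * g⁻¹ ∈ Gamma0 p := by
        have h2 : g * T ^ k * g⁻¹ = -1 * (γ : SL(2, ℤ)) := by
          rw [h, neg_one_mul, neg_neg]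
        rw [h2]
        exact (Gamma0 p).mul_mem (neg_one_mem p) γ.2
      have h3 : (γ : SL(2, ℤ)) = -1 * (g * T ^ k * g⁻¹) := by
        rw [h, neg_one_mul]
      rw [h3, hκ, mem_smul_one (Gamma0 p) hmem, hκneg, zero_add]
      exact coc_parabolic p κ hκ hκS hκU hκT g k hmem
  · intro γ
    show ((κ ((Additive.toMul γ : Gamma0 p) : SL(2, ℤ)) x0 : ℤ) : ZMod n) = φ γ
    rw [hκred, hx0, shapiro_of_mem (Gamma0 p) φ (Additive.toMul γ).2]
    rfl

end Fermat.Agent.S16.helper1461
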