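import Mathlib
import Fermat.Prelude.Def_ModularCurve_ModularUnit
import Fermat.Prelude.Def_ModularCurve_PeriodMap

/-!
# S16, lower bound: the Shimura class

Author: helper7452.  Mathlib + Prelude definitions only, no hypotheses.

For a prime `p` put `n = eisensteinNumerator p = (p - 1) / gcd (p - 1) 12`.  The *Shimura class* is
the homomorphism

  `shimuraHom p : Additive (Gamma0 p) →+ ZMod n`,   `γ = [a, b; c, d] ↦ chiSh (d mod p)`,

where `chiSh : Additive (ZMod p)ˣ →+ ZMod n` is a surjective homomorphism whose kernel contains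
every `u` with `u ^ 12 = 1` (a discrete logarithm followed by reduction mod `n`).

Main results:

* `pow_twelve_eq_one_of_isOfFinOrder` : an element of finite order of `SL(2, ℤ)` satisfies
  `γ ^ 12 = 1`;
* `shimuraHom_apply` : `shimuraHom p γ = chiSh p (dUnit p γ)`, with `dUnit p : Gamma0 p →* (ZMod p)ˣ`
  the lower right entry mod `p`;
* `shimuraHom_isParabolicHom` : `shimuraHom p` kills every element of trace `± 2`
  (Prelude `IsParabolicHom`), in particular `shimuraHom_T`;
* `shimuraHom_eq_zero_of_isOfFinOrder` : it kills every element of finite order;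
* `shimuraHom_surjective`, `shimuraHom_exact_order`.
-/

set_option autoImplicit false

open CongruenceSubgroup ModularCurve
open scoped MatrixGroups

namespace Fermat.Agent.S16.helper7452

/-! ## Elements of finite order of `SL(2, ℤ)` -/

section FiniteOrder

variable (M : Matrix (Fin 2) (Fin 2) ℤ)

/-- Cayley–Hamilton for a `2 × 2` integer matrix of determinant one. -/
theorem sq_eq_of_det_eq_one (hM : M.det = 1) : M * M = M.trace • M - 1 := by
  rw [Matrix.det_fin_two] at hM
  ext i j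
  fin_cases i <;> fin_cases j <;>
    simp only [Matrix.mul_apply, Fin.sum_univ_two, Matrix.trace_fin_two, Matrix.sub_apply,
      Matrix.smul_apply, smul_eq_mul, Matrix.one_apply_eq, Matrix.one_apply_ne, Fin.zero_eta,
      Fin.mk_one, ne_eq, zero_ne_one, one_ne_zero, not_false_eq_true, sub_zero] <;>
    first | ring1 | linear_combination (-1 : ℤ) * hM

theorem trace_pow_succ_succ (hM : M.det = 1) (k : ℕ) :
    (M ^ (k + 2)).trace = M.trace * (M ^ (k + 1)).trace - (M ^ k).trace := by
  have h : M ^ (k + 2) = M.trace • M ^ (k + 1) - M ^ k := by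
    rw [pow_add, pow_two, sq_eq_of_det_eq_one M hM, mul_sub, mul_one, Matrix.mul_smul, pow_succ]
  rw [h, Matrix.trace_sub, Matrix.trace_smul, smul_eq_mul]

theorem abs_trace_pow_lt (hM : M.det = 1) (ht : 3 ≤ |M.trace|) (k : ℕ) :
    |(M ^ k).trace| < |(M ^ (k + 1)).trace| := by
  induction k with
  | zero =>
    simp only [pow_zero, zero_add, pow_one, Matrix.trace_one, Fintype.card_fin]
    norm_num
    linarith
  | succ k ih =>
    rw [trace_pow_succ_succ M hM k]
    have h1 : |M.trace * (M ^ (k + 1)).trace| - |(M ^ k).trace|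
        ≤ |M.trace * (M ^ (k + 1)).trace - (M ^ k).trace| := abs_sub_abs_le_abs_sub _ _
    rw [abs_mul] at h1
    have h2 : 3 * |(M ^ (k + 1)).trace| ≤ |M.trace| * |(M ^ (k + 1)).trace| :=
      mul_le_mul_of_nonneg_right ht (abs_nonneg _)
    have h3 : 0 ≤ |(M ^ k).trace| := abs_nonneg _
    linarith

theorem two_lt_abs_trace_pow (hM : M.det = 1) (ht : 3 ≤ |M.trace|) (k : ℕ) (hk : 0 < k) :
    2 < |(M ^ k).trace| := by
  induction k with
  | zero => exact absurd hk (lt_irrefl 0)
  | succ k ih =>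
    rcases Nat.eq_zero_or_pos k with rfl | hk'
    · simp only [zero_add, pow_one]; linarith
    · exact (ih hk').trans (abs_trace_pow_lt M hM ht k)

theorem abs_trace_le_two_of_pow_eq_one (hM : M.det = 1) (m : ℕ) (hm : 0 < m) (h : M ^ m = 1) :
    |M.trace| ≤ 2 := by
  by_contra hcon
  have ht : 3 ≤ |M.trace| := by omega
  have := two_lt_abs_trace_pow M hM ht m hm
  rw [h] at this
  simp at this

/-- Trace `2`, determinant `1`, finite order implies `M = 1`. -/
theorem eq_one_of_trace_eq_two (hM : M.det = 1) (ht : M.trace = 2) (m : ℕ) (hm : 0 < m)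
    (h : M ^ m = 1) : M = 1 := by
  have hsq : M * M = (2 : ℤ) • M - 1 := by rw [← ht]; exact sq_eq_of_det_eq_one M hM
  have hpow : ∀ k : ℕ, M ^ k = 1 + (k : ℤ) • (M - 1) := by
    intro k
    induction k with
    | zero => simp
    | succ k ih =>
      rw [pow_succ, ih, add_mul, one_mul, Matrix.smul_mul, sub_mul, one_mul, hsq]
      push_cast
      module
  have h1 := hpow m
  rw [h] at h1
  have h2 : (m : ℤ) • (M - 1) = 0 := by
    have := h1.symm
    rwa [add_eq_left] at this
  have hm' : (m : ℤ) ≠ 0 := by exact_mod_cast hm.ne'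
  have h3 : M - 1 = 0 := by
    ext i j
    have := congrFun (congrFun h2 i) j
    simp only [Matrix.smul_apply, smul_eq_mul, Matrix.zero_apply, mul_eq_zero] at this
    rcases this with h | h
    · exact absurd h hm'
    · simpa using h
  exact sub_eq_zero.mp h3

/-- A finite-order integer `2 × 2` matrix of determinant one satisfies `M ^ 12 = 1`. -/
theorem matrix_pow_twelve_eq_one (hM : M.det = 1) (m : ℕ) (hm : 0 < m) (h : M ^ m = 1) :
    M ^ 12 = 1 := by
  have hsq := sq_eq_of_det_eq_one M hM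
  have habs := abs_trace_le_two_of_pow_eq_one M hM m hm h
  rw [abs_le] at habs
  obtain ⟨hl, hu⟩ := habs
  have hcases : M.trace = -2 ∨ M.trace = -1 ∨ M.trace = 0 ∨ M.trace = 1 ∨ M.trace = 2 := by omega
  rcases hcases with ht | ht | ht | ht | ht
  · -- trace -2: apply the trace 2 case to `-M`
    have hneg : (-M) = 1 := by
      refine eq_one_of_trace_eq_two (-M) ?_ ?_ (2 * m) (by omega) ?_
      · rw [Matrix.det_neg, hM]; simp
      · rw [Matrix.trace_neg, ht]; norm_num
      · rw [pow_mul, neg_sq, ← pow_mul, mul_comm, pow_mul, h, one_pow]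
    have hM' : M = -1 := by rw [← hneg, neg_neg]
    rw [hM']
    have : (12 : ℕ) = 2 * 6 := rfl
    rw [this, pow_mul, neg_one_sq, one_pow]
  · -- trace -1: M^3 = 1
    rw [ht] at hsq
    have h3 : M ^ 3 = 1 := by
      have : M ^ 3 = M * M * M := by rw [pow_succ, pow_two]
      rw [this, hsq, sub_mul, Matrix.smul_mul, hsq]
      simp
    have : (12 : ℕ) = 3 * 4 := rfl
    rw [this, pow_mul, h3, one_pow]
  · -- trace 0: M^2 = -1
    rw [ht] at hsq
    have h2 : M ^ 2 = -1 := by rw [pow_two, hsq]; simp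
    have : (12 : ℕ) = 2 * 6 := rfl
    rw [this, pow_mul, h2]
    have : (6 : ℕ) = 2 * 3 := rfl
    rw [this, pow_mul, neg_one_sq, one_pow]
  · -- trace 1: M^3 = -1
    rw [ht] at hsq
    have h3 : M ^ 3 = -1 := by
      have : M ^ 3 = M * M * M := by rw [pow_succ, pow_two]
      rw [this, hsq, sub_mul, Matrix.smul_mul, hsq]
      simp
    have : (12 : ℕ) = 3 * 4 := rfl
    rw [this, pow_mul, h3]
    have : (4 : ℕ) = 2 * 2 := rfl
    rw [this, pow_mul, neg_one_sq, one_pow]
  · rw [eq_one_of_trace_eq_two M hM ht m hm h, one_pow]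

end FiniteOrder

/-- An element of finite order of `SL(2, ℤ)` satisfies `γ ^ 12 = 1`. -/
theorem pow_twelve_eq_one_of_isOfFinOrder (γ : SL(2, ℤ)) (hγ : IsOfFinOrder γ) : γ ^ 12 = 1 := by
  obtain ⟨m, hm, hpow⟩ := isOfFinOrder_iff_pow_eq_one.mp hγ
  apply Subtype.ext
  rw [Matrix.SpecialLinearGroup.coe_pow, Matrix.SpecialLinearGroup.coe_one]
  refine matrix_pow_twelve_eq_one _ γ.2 m hm ?_
  rw [← Matrix.SpecialLinearGroup.coe_pow, hpow, Matrix.SpecialLinearGroup.coe_one]

/-! ## The character `chiSh` -/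

section Character

variable (p : ℕ) [Fact p.Prime]

theorem natCard_additive_units : Nat.card (Additive (ZMod p)ˣ) = p - 1 := by
  rw [Nat.card_eq_fintype_card]
  exact (Fintype.card_congr Additive.toMul).trans (ZMod.card_units p)

theorem eisensteinNumerator_dvd_natCard :
    eisensteinNumerator p ∣ Nat.card (Additive (ZMod p)ˣ) := by
  rw [natCard_additive_units]
  exact eisensteinNumerator_dvd p

omit [Fact p.Prime] in
theorem eisensteinNumerator_mul_gcd :
    eisensteinNumerator p * Nat.gcd (p - 1) 12 = p - 1 :=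
  Nat.div_mul_cancel (Nat.gcd_dvd_left _ _)

theorem eisensteinNumerator_pos : 0 < eisensteinNumerator p := by
  have hp : 2 ≤ p := (Fact.out : p.Prime).two_le
  have h := eisensteinNumerator_mul_gcd p
  rcases Nat.eq_zero_or_pos (eisensteinNumerator p) with h0 | h0
  · rw [h0, zero_mul] at h; omega
  · exact h0

instance : NeZero (eisensteinNumerator p) := ⟨(eisensteinNumerator_pos p).ne'⟩

/-- A discrete logarithm `(ℤ/p)ˣ → ℤ/(p-1)` followed by reduction modulo
`n = eisensteinNumerator p`. -/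
noncomputable def chiSh : Additive (ZMod p)ˣ →+ ZMod (eisensteinNumerator p) :=
  (ZMod.castHom (eisensteinNumerator_dvd_natCard p) (ZMod (eisensteinNumerator p))).toAddMonoidHom.comp
    (zmodAddCyclicAddEquiv (G := Additive (ZMod p)ˣ) inferInstance).symm.toAddMonoidHom

theorem chiSh_surjective : Function.Surjective (chiSh p) := by
  intro y
  obtain ⟨x, hx⟩ := ZMod.castHom_surjective (eisensteinNumerator_dvd_natCard p) y
  refine ⟨zmodAddCyclicAddEquiv (G := Additive (ZMod p)ˣ) inferInstance x, ?_⟩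
  simp only [chiSh, AddMonoidHom.coe_comp, Function.comp_apply, AddEquiv.coe_toAddMonoidHom,
    AddEquiv.symm_apply_apply]
  exact hx

/-- `chiSh` kills the `12`-torsion of `(ℤ/p)ˣ`. -/
theorem chiSh_eq_zero_of_pow_twelve (u : (ZMod p)ˣ) (hu : u ^ 12 = 1) :
    chiSh p (Additive.ofMul u) = 0 := by
  have hcard : Nat.card (Additive (ZMod p)ˣ) = p - 1 := natCard_additive_units p
  have hpos : 0 < p - 1 := by
    have hp : 2 ≤ p := (Fact.out : p.Prime).two_le
    omega
  have : NeZero (Nat.card (Additive (ZMod p)ˣ)) := ⟨by rw [hcard]; exact hpos.ne'⟩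
  have hu1 : u ^ (p - 1) = 1 := by
    rw [← ZMod.card_units p]; exact pow_card_eq_one
  have hg : u ^ Nat.gcd (p - 1) 12 = 1 := pow_gcd_eq_one.mpr ⟨hu1, hu⟩
  set e := zmodAddCyclicAddEquiv (G := Additive (ZMod p)ˣ) inferInstance with he
  set k := e.symm (Additive.ofMul u) with hk
  have hgk : (Nat.gcd (p - 1) 12) • k = 0 := by
    rw [hk, ← map_nsmul, ← ofMul_pow, hg, ofMul_one, map_zero]
  have hval : ((Nat.gcd (p - 1) 12 * k.val : ℕ) : ZMod (Nat.card (Additive (ZMod p)ˣ))) = 0 := by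
    rw [Nat.cast_mul, ZMod.natCast_zmod_val, ← nsmul_eq_mul]
    exact hgk
  rw [ZMod.natCast_eq_zero_iff] at hval
  have hcard' : Nat.gcd (p - 1) 12 * eisensteinNumerator p ∣ Nat.card (Additive (ZMod p)ˣ) := by
    rw [hcard, mul_comm, eisensteinNumerator_mul_gcd p]
  have hval' : Nat.gcd (p - 1) 12 * eisensteinNumerator p ∣ Nat.gcd (p - 1) 12 * k.val :=
    hcard'.trans hval
  have hgpos : 0 < Nat.gcd (p - 1) 12 := Nat.gcd_pos_of_pos_right _ (by norm_num)
  have hdvd : eisensteinNumerator p ∣ k.val := Nat.dvd_of_mul_dvd_mul_left hgpos hval'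
  show (ZMod.castHom (eisensteinNumerator_dvd_natCard p) (ZMod (eisensteinNumerator p))) k = 0
  rw [← ZMod.natCast_zmod_val k, map_natCast, ZMod.natCast_eq_zero_iff]
  exact hdvd

end Character

/-! ## The lower right entry modulo `p` and the Shimura class -/

section Shimura

variable (p : ℕ) [Fact p.Prime]

/-- The lower right entry modulo `p` as a homomorphism `Gamma0 p →* (ℤ/p)ˣ`. -/
noncomputable def dUnit : Gamma0 p →* (ZMod p)ˣ := (Gamma0Map p).toHomUnits

theorem coe_dUnit (γ : Gamma0 p) :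
    ((dUnit p γ : (ZMod p)ˣ) : ZMod p) = (((γ : SL(2, ℤ)) 1 1 : ℤ) : ZMod p) := rfl

/-- The Shimura class `Gamma0 p → ℤ/n`, `n = eisensteinNumerator p`. -/
noncomputable def shimuraHom : Additive (Gamma0 p) →+ ZMod (eisensteinNumerator p) :=
  (chiSh p).comp (MonoidHom.toAdditive (dUnit p))

theorem shimuraHom_apply (γ : Gamma0 p) :
    shimuraHom p (Additive.ofMul γ) = chiSh p (Additive.ofMul (dUnit p γ)) := rfl

/-- The value of the Shimura class only depends on the lower right entry modulo `p`. -/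
theorem shimuraHom_eq_of_entry_eq (γ δ : Gamma0 p)
    (h : (((γ : SL(2, ℤ)) 1 1 : ℤ) : ZMod p) = (((δ : SL(2, ℤ)) 1 1 : ℤ) : ZMod p)) :
    shimuraHom p (Additive.ofMul γ) = shimuraHom p (Additive.ofMul δ) := by
  have : dUnit p γ = dUnit p δ := Units.ext (by rw [coe_dUnit, coe_dUnit, h])
  rw [shimuraHom_apply, shimuraHom_apply, this]

theorem shimuraHom_eq_zero_of_dUnit_pow (γ : Gamma0 p) (h : dUnit p γ ^ 12 = 1) :
    shimuraHom p (Additive.ofMul γ) = 0 :=
  chiSh_eq_zero_of_pow_twelve p _ h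

/-- The Shimura class kills every element whose lower right entry is `± 1` modulo `p`. -/
theorem shimuraHom_eq_zero_of_entry_sq (γ : Gamma0 p)
    (h : ((((γ : SL(2, ℤ)) 1 1 : ℤ) : ZMod p)) ^ 2 = 1) :
    shimuraHom p (Additive.ofMul γ) = 0 := by
  apply shimuraHom_eq_zero_of_dUnit_pow
  have h2 : dUnit p γ ^ 2 = 1 := Units.ext (by rw [Units.val_pow_eq_pow_val, coe_dUnit, h]; rfl)
  have : (12 : ℕ) = 2 * 6 := rfl
  rw [this, pow_mul, h2, one_pow]

/-- The Shimura class kills every element of finite order. -/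
theorem shimuraHom_eq_zero_of_isOfFinOrder (γ : Gamma0 p) (hγ : IsOfFinOrder γ) :
    shimuraHom p (Additive.ofMul γ) = 0 := by
  apply shimuraHom_eq_zero_of_dUnit_pow
  have h1 : IsOfFinOrder (γ : SL(2, ℤ)) := by
    obtain ⟨m, hm, hpow⟩ := isOfFinOrder_iff_pow_eq_one.mp hγ
    refine isOfFinOrder_iff_pow_eq_one.mpr ⟨m, hm, ?_⟩
    rw [← SubgroupClass.coe_pow, hpow, OneMemClass.coe_one]
  have h12 : γ ^ 12 = 1 := by
    apply Subtype.ext
    rw [SubgroupClass.coe_pow, OneMemClass.coe_one]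
    exact pow_twelve_eq_one_of_isOfFinOrder _ h1
  rw [← map_pow, h12, map_one]

/-- The Shimura class is a parabolic homomorphism (Prelude form): it kills every element of
trace `± 2`. -/
theorem shimuraHom_isParabolicHom :
    ModularCurve.Period.IsParabolicHom (Gamma0 p) (shimuraHom p) := by
  intro γ hγ
  apply shimuraHom_eq_zero_of_entry_sq
  -- a d - b c = 1, p ∣ c, (a + d)^2 = 4  ⟹  (d^2 - 1)^2 ≡ 0 mod p
  have hdet := Matrix.det_fin_two ((γ : SL(2, ℤ)) : Matrix (Fin 2) (Fin 2) ℤ)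
  rw [(γ : SL(2, ℤ)).2] at hdet
  have hc : ((((γ : SL(2, ℤ)) 1 0 : ℤ)) : ZMod p) = 0 := Gamma0_mem.mp γ.2
  rw [Matrix.trace_fin_two] at hγ
  set a : ℤ := (γ : SL(2, ℤ)) 0 0 with ha
  set b : ℤ := (γ : SL(2, ℤ)) 0 1 with hb
  set c : ℤ := (γ : SL(2, ℤ)) 1 0 with hc'
  set d : ℤ := (γ : SL(2, ℤ)) 1 1 with hd
  have hdet' : ((a : ZMod p)) * (d : ZMod p) = 1 := by
    have : ((a * d - b * c : ℤ) : ZMod p) = ((1 : ℤ) : ZMod p) := by rw [← hdet]
    push_cast at this
    rw [hc, mul_zero, sub_zero] at this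
    exact this
  have htr : ((a : ZMod p) + (d : ZMod p)) ^ 2 = 4 := by
    have : (((a + d) ^ 2 : ℤ) : ZMod p) = ((4 : ℤ) : ZMod p) := by rw [hγ]
    push_cast at this
    exact this
  have hsq : ((d : ZMod p) ^ 2 - 1) ^ 2 = 0 := by
    linear_combination (d : ZMod p) ^ 2 * htr
      - (1 + (a : ZMod p) * (d : ZMod p) + 2 * (d : ZMod p) ^ 2) * hdet'
  have := pow_eq_zero_iff (two_ne_zero) |>.mp hsq
  exact sub_eq_zero.mp this

/-- The translation `T = [1, 1; 0, 1]` as an element of `Gamma0 p`. -/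
def TGamma0 : Gamma0 p := ⟨ModularGroup.T, by
  rw [Gamma0_mem]; simp [ModularGroup.T]⟩

theorem shimuraHom_T : shimuraHom p (Additive.ofMul (TGamma0 p)) = 0 := by
  apply shimuraHom_eq_zero_of_entry_sq
  simp [TGamma0, ModularGroup.T]

/-- The lower right entry map `Gamma0 p → (ℤ/p)ˣ` is surjective. -/
theorem dUnit_surjective : Function.Surjective (dUnit p) := by
  intro u
  have hpp : p.Prime := Fact.out
  set d : ℤ := ((u : ZMod p).val : ℤ) with hd
  have hdu : ((d : ℤ) : ZMod p) = (u : ZMod p) := by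
    rw [hd, Int.cast_natCast, ZMod.natCast_zmod_val]
  have hcop : Int.gcd d (p : ℤ) = 1 := by
    rw [hd, Int.gcd_natCast_natCast]
    have hne : (u : ZMod p).val ≠ 0 := by
      rw [Ne, ZMod.val_eq_zero]; exact u.ne_zero
    have hlt : (u : ZMod p).val < p := ZMod.val_lt _
    exact ((Nat.Prime.coprime_iff_not_dvd hpp).mpr
      (Nat.not_dvd_of_pos_of_lt (Nat.pos_of_ne_zero hne) hlt)).symm
  have hbez := Int.gcd_eq_gcd_ab d (p : ℤ)
  rw [hcop, Nat.cast_one] at hbez
  have hdet : (!![Int.gcdA d (p : ℤ), -Int.gcdB d (p : ℤ); (p : ℤ), d]).det = 1 := by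
    rw [Matrix.det_fin_two_of]
    linear_combination -hbez
  let g : SL(2, ℤ) := ⟨!![Int.gcdA d (p : ℤ), -Int.gcdB d (p : ℤ); (p : ℤ), d], hdet⟩
  have hg10 : (g 1 0 : ℤ) = (p : ℤ) := rfl
  have hg11 : (g 1 1 : ℤ) = d := rfl
  have hmem : g ∈ Gamma0 p := by
    rw [Gamma0_mem, hg10]
    simp
  refine ⟨⟨g, hmem⟩, ?_⟩
  apply Units.ext
  rw [coe_dUnit, ← hdu]
  show ((g 1 1 : ℤ) : ZMod p) = _
  rw [hg11]

theorem shimuraHom_surjective : Function.Surjective (shimuraHom p) := by
  intro y
  obtain ⟨u, hu⟩ := chiSh_surjective p y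
  obtain ⟨γ, hγ⟩ := dUnit_surjective p (Additive.toMul u)
  refine ⟨Additive.ofMul γ, ?_⟩
  rw [shimuraHom_apply, hγ]
  exact hu

/-- The Shimura class has exact order `n`: no proper multiple of it vanishes. -/
theorem shimuraHom_exact_order (c : ZMod (eisensteinNumerator p))
    (h : ∀ γ : Additive (Gamma0 p), c * shimuraHom p γ = 0) : c = 0 := by
  obtain ⟨γ, hγ⟩ := shimuraHom_surjective p 1
  have := h γ
  rwa [hγ, mul_one] at this

end Shimura

end Fermat.Agent.S16.helper7452
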