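/-
S16 lower bound, Shimura class (steps (2),(3) of findings #1421).

For a prime `p` and `n = eisensteinNumerator p = (p-1)/gcd(p-1,12)` we construct the
Shimura class `shimuraHom p : Additive (Gamma0 p) →+ ZMod n`, `γ ↦ χ(d(γ) mod p)`, where
`χ : (ZMod p)ˣ →* Multiplicative (ZMod n)` is onto and kills the 12-torsion, and prove

* it is a parabolic homomorphism (kills every element of trace `±2`),
* it kills every element of finite order,
* it is surjective (hence of exact order `n`),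
* the operator-definition-independent Hecke eigen-equations ("telescoping"):
  whenever `α x * γ = g x * α (s x)` for a permutation `s` of a finite index type,
  `∑ x, shimuraHom (g x) = card X • shimuraHom γ` for matrices `α x` that are upper
  triangular mod `p` with unit lower right entry (the `T_ℓ` representatives), and
  `shimuraHom (g x) = shimuraHom γ` for the `U_p` representatives `!![1, j; 0, p]`.
-/
import Mathlib
import Fermat.Prelude.Def_ModularCurve_PeriodMap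
import Fermat.Prelude.Def_ModularCurve_ModularUnit

set_option autoImplicit false

open CongruenceSubgroup
open scoped MatrixGroups

namespace Fermat.Agent.S16.helper8671

/-! ### Arithmetic of `n = (p-1)/gcd(p-1,12)` -/

theorem card_units_zmod_prime (p : ℕ) [Fact p.Prime] : Nat.card (ZMod p)ˣ = p - 1 := by
  rw [Nat.card_eq_fintype_card, ZMod.card_units_eq_totient, Nat.totient_prime Fact.out]

theorem numerator_dvd_card_units (p : ℕ) [Fact p.Prime] :
    ModularCurve.eisensteinNumerator p ∣ Nat.card (ZMod p)ˣ := by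
  rw [card_units_zmod_prime]
  exact ModularCurve.eisensteinNumerator_dvd p

/-- If `m ∣ 12 * v` then `m / gcd(m,12) ∣ v`. -/
theorem div_gcd_twelve_dvd (m v : ℕ) (h : m ∣ 12 * v) : m / Nat.gcd m 12 ∣ v := by
  have hg : 0 < Nat.gcd m 12 := Nat.gcd_pos_of_pos_right _ (by norm_num)
  have hcop : Nat.Coprime (m / Nat.gcd m 12) (12 / Nat.gcd m 12) :=
    Nat.coprime_div_gcd_div_gcd hg
  have h1 : m / Nat.gcd m 12 ∣ 12 / Nat.gcd m 12 * v := by
    have hm : m = Nat.gcd m 12 * (m / Nat.gcd m 12) :=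
      (Nat.mul_div_cancel' (Nat.gcd_dvd_left m 12)).symm
    have h12 : 12 = Nat.gcd m 12 * (12 / Nat.gcd m 12) :=
      (Nat.mul_div_cancel' (Nat.gcd_dvd_right m 12)).symm
    have h2 : Nat.gcd m 12 * (m / Nat.gcd m 12) ∣ Nat.gcd m 12 * (12 / Nat.gcd m 12 * v) := by
      rw [← hm, ← mul_assoc, ← h12]; exact h
    exact Nat.dvd_of_mul_dvd_mul_left hg h2
  exact hcop.dvd_of_dvd_mul_left h1

/-! ### The character `χ : (ZMod p)ˣ → ZMod n` -/

/-- The surjective character of `(ZMod p)ˣ` onto `ZMod n`, `n = (p-1)/gcd(p-1,12)`; its kernel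
is the `gcd(p-1,12)`-torsion. -/
noncomputable def chiSh (p : ℕ) [Fact p.Prime] :
    (ZMod p)ˣ →* Multiplicative (ZMod (ModularCurve.eisensteinNumerator p)) :=
  (AddMonoidHom.toMultiplicative
      (ZMod.castHom (numerator_dvd_card_units p)
        (ZMod (ModularCurve.eisensteinNumerator p))).toAddMonoidHom).comp
    (zmodCyclicMulEquiv (inferInstance : IsCyclic (ZMod p)ˣ)).symm.toMonoidHom

theorem chiSh_surjective (p : ℕ) [Fact p.Prime] : Function.Surjective (chiSh p) := by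
  intro y
  obtain ⟨x, hx⟩ := ZMod.ringHom_surjective
    (ZMod.castHom (numerator_dvd_card_units p) (ZMod (ModularCurve.eisensteinNumerator p)))
    (Multiplicative.toAdd y)
  refine ⟨zmodCyclicMulEquiv (inferInstance : IsCyclic (ZMod p)ˣ) (Multiplicative.ofAdd x), ?_⟩
  simp only [chiSh, MonoidHom.coe_comp, Function.comp_apply, MulEquiv.coe_toMonoidHom,
    MulEquiv.symm_apply_apply]
  show Multiplicative.ofAdd ((ZMod.castHom (numerator_dvd_card_units p)
    (ZMod (ModularCurve.eisensteinNumerator p))) x) = y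
  rw [hx]; rfl

theorem chiSh_eq_one_of_pow_twelve (p : ℕ) [Fact p.Prime] (u : (ZMod p)ˣ) (hu : u ^ 12 = 1) :
    chiSh p u = 1 := by
  set e := zmodCyclicMulEquiv (inferInstance : IsCyclic (ZMod p)ˣ) with he
  set y : ZMod (Nat.card (ZMod p)ˣ) := Multiplicative.toAdd (e.symm u) with hy
  have : NeZero (Nat.card (ZMod p)ˣ) := ⟨Nat.card_pos.ne'⟩
  have h12 : (12 : ℕ) • y = 0 := by
    have h1 : (e.symm u) ^ 12 = 1 := by rw [← map_pow, hu, map_one]
    have h2 : Multiplicative.toAdd ((e.symm u) ^ 12) = 0 := by rw [h1]; rfl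
    rw [toAdd_pow] at h2
    exact h2
  have hval : ((y.val : ℕ) : ZMod (Nat.card (ZMod p)ˣ)) = y := ZMod.natCast_zmod_val y
  have hdvd : Nat.card (ZMod p)ˣ ∣ 12 * y.val := by
    rw [← ZMod.natCast_eq_zero_iff]
    rw [nsmul_eq_mul] at h12
    push_cast
    rw [hval]; exact h12
  have hn : ModularCurve.eisensteinNumerator p ∣ y.val := by
    have h3 := div_gcd_twelve_dvd _ _ hdvd
    have e : ModularCurve.eisensteinNumerator p
        = Nat.card (ZMod p)ˣ / (Nat.card (ZMod p)ˣ).gcd 12 := by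
      rw [card_units_zmod_prime]; rfl
    rw [e]; exact h3
  show Multiplicative.ofAdd ((ZMod.castHom (numerator_dvd_card_units p)
    (ZMod (ModularCurve.eisensteinNumerator p))) y) = 1
  rw [← hval, map_natCast, (ZMod.natCast_eq_zero_iff _ _).mpr hn]
  rfl

/-! ### The lower right entry as a unit mod `p` -/

/-- The lower right entry of `γ ∈ Γ₀(p)` as a unit of `ZMod p`. -/
noncomputable def dUnit (p : ℕ) : Gamma0 p →* (ZMod p)ˣ := (Gamma0Map p).toHomUnits

theorem dUnit_coe (p : ℕ) (γ : Gamma0 p) :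
    ((dUnit p γ : (ZMod p)ˣ) : ZMod p) = (((γ : SL(2, ℤ)) 1 1 : ℤ) : ZMod p) := rfl

theorem dUnit_surjective (p : ℕ) [Fact p.Prime] : Function.Surjective (dUnit p) := by
  intro u
  have hp : p.Prime := Fact.out
  have hcop : Nat.Coprime (u : ZMod p).val p := ZMod.val_coe_unit_coprime u
  have hbez := Int.gcd_eq_gcd_ab ((u : ZMod p).val : ℤ) (p : ℤ)
  rw [Int.gcd_natCast_natCast, hcop] at hbez
  set x := Int.gcdA ((u : ZMod p).val : ℤ) (p : ℤ)
  set y := Int.gcdB ((u : ZMod p).val : ℤ) (p : ℤ)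
  have hdet : Matrix.det !![x, -y; (p : ℤ), ((u : ZMod p).val : ℤ)] = 1 := by
    rw [Matrix.det_fin_two_of]; push_cast at hbez; linarith
  let A : SL(2, ℤ) := ⟨!![x, -y; (p : ℤ), ((u : ZMod p).val : ℤ)], hdet⟩
  have hA : A ∈ Gamma0 p := by
    rw [Gamma0_mem]
    show (((!![x, -y; (p : ℤ), ((u : ZMod p).val : ℤ)] : Matrix (Fin 2) (Fin 2) ℤ) 1 0 : ℤ) :
      ZMod p) = 0
    simp
  refine ⟨⟨A, hA⟩, ?_⟩
  apply Units.ext
  rw [dUnit_coe]
  show (((!![x, -y; (p : ℤ), ((u : ZMod p).val : ℤ)] : Matrix (Fin 2) (Fin 2) ℤ) 1 1 : ℤ) :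
      ZMod p) = u
  simp

/-! ### The Shimura class -/

/-- The Shimura class `Γ₀(p) → ZMod n`, `γ ↦ χ(d(γ))`. -/
noncomputable def shimuraHom (p : ℕ) [Fact p.Prime] :
    Additive (Gamma0 p) →+ ZMod (ModularCurve.eisensteinNumerator p) :=
  MonoidHom.toAdditiveLeft ((chiSh p).comp (dUnit p))

theorem shimuraHom_apply (p : ℕ) [Fact p.Prime] (γ : Gamma0 p) :
    shimuraHom p (Additive.ofMul γ) = Multiplicative.toAdd (chiSh p (dUnit p γ)) := rfl

theorem shimuraHom_surjective (p : ℕ) [Fact p.Prime] : Function.Surjective (shimuraHom p) := by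
  intro y
  obtain ⟨u, hu⟩ := chiSh_surjective p (Multiplicative.ofAdd y)
  obtain ⟨γ, hγ⟩ := dUnit_surjective p u
  refine ⟨Additive.ofMul γ, ?_⟩
  rw [shimuraHom_apply, hγ, hu]; rfl

/-- The Shimura class has exact order `n`. -/
theorem dvd_of_forall_zsmul_shimuraHom_eq_zero (p : ℕ) [Fact p.Prime] (c : ℤ)
    (h : ∀ γ : Gamma0 p, c • shimuraHom p (Additive.ofMul γ) = 0) :
    (ModularCurve.eisensteinNumerator p : ℤ) ∣ c := by
  obtain ⟨γ, hγ⟩ := shimuraHom_surjective p 1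
  have h1 := h (Additive.toMul γ)
  rw [show Additive.ofMul (Additive.toMul γ) = γ from rfl, hγ, zsmul_eq_mul, mul_one] at h1
  exact (ZMod.intCast_zmod_eq_zero_iff_dvd c _).mp h1

theorem shimuraHom_eq_of_dUnit_eq (p : ℕ) [Fact p.Prime] {γ γ' : Gamma0 p}
    (h : dUnit p γ = dUnit p γ') :
    shimuraHom p (Additive.ofMul γ) = shimuraHom p (Additive.ofMul γ') := by
  rw [shimuraHom_apply, shimuraHom_apply, h]

theorem shimuraHom_eq_of_entry_eq (p : ℕ) [Fact p.Prime] {γ γ' : Gamma0 p}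
    (h : (((γ : SL(2, ℤ)) 1 1 : ℤ) : ZMod p) = (((γ' : SL(2, ℤ)) 1 1 : ℤ) : ZMod p)) :
    shimuraHom p (Additive.ofMul γ) = shimuraHom p (Additive.ofMul γ') :=
  shimuraHom_eq_of_dUnit_eq p (Units.ext (by rw [dUnit_coe, dUnit_coe]; exact h))

theorem shimuraHom_eq_zero_of_pow_twelve (p : ℕ) [Fact p.Prime] (γ : Gamma0 p)
    (h : ((((γ : SL(2, ℤ)) 1 1 : ℤ) : ZMod p)) ^ 12 = 1) :
    shimuraHom p (Additive.ofMul γ) = 0 := by
  rw [shimuraHom_apply, chiSh_eq_one_of_pow_twelve p (dUnit p γ)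
    (Units.ext (by rw [Units.val_pow_eq_pow_val, dUnit_coe]; exact h))]
  rfl

/-! ### Trace relations -/

/-- For `γ ∈ Γ₀(p)`, the lower right entry `d` satisfies `d² - t d + 1 = 0` mod `p`. -/
theorem d_quadratic (p : ℕ) (γ : Gamma0 p) :
    ((((γ : SL(2, ℤ)) 1 1 : ℤ) : ZMod p)) ^ 2
      - (((((γ : SL(2, ℤ)) : Matrix (Fin 2) (Fin 2) ℤ).trace : ℤ) : ZMod p))
        * (((γ : SL(2, ℤ)) 1 1 : ℤ) : ZMod p) + 1 = 0 := by
  have hc : ((((γ : SL(2, ℤ)) 1 0 : ℤ)) : ZMod p) = 0 := Gamma0_mem.mp γ.2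
  have hdet : ((γ : SL(2, ℤ)) 0 0 : ℤ) * (γ : SL(2, ℤ)) 1 1
      - (γ : SL(2, ℤ)) 0 1 * (γ : SL(2, ℤ)) 1 0 = 1 := by
    have := (γ : SL(2, ℤ)).2
    rw [Matrix.det_fin_two] at this
    exact this
  have hdet' := congrArg (Int.cast : ℤ → ZMod p) hdet
  push_cast at hdet'
  rw [hc, mul_zero, sub_zero] at hdet'
  rw [Matrix.trace_fin_two]
  push_cast
  linear_combination -hdet'

/-- The Shimura class kills the elements of trace `±2`: it is a parabolic homomorphism. -/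
theorem shimuraHom_isParabolicHom (p : ℕ) [Fact p.Prime] :
    ModularCurve.Period.IsParabolicHom (Gamma0 p) (shimuraHom p) := by
  intro γ hγ
  apply shimuraHom_eq_zero_of_pow_twelve
  have hq := d_quadratic p γ
  set d : ZMod p := ((((γ : SL(2, ℤ)) 1 1 : ℤ) : ZMod p)) with hd
  have ht : ((γ : SL(2, ℤ)) : Matrix (Fin 2) (Fin 2) ℤ).trace = 2
      ∨ ((γ : SL(2, ℤ)) : Matrix (Fin 2) (Fin 2) ℤ).trace = -2 := by
    have h4 : ((γ : SL(2, ℤ)) : Matrix (Fin 2) (Fin 2) ℤ).trace ^ 2 = 2 ^ 2 := by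
      rw [hγ]; norm_num
    rcases sq_eq_sq_iff_eq_or_eq_neg.mp h4 with h | h
    · exact Or.inl h
    · exact Or.inr h
  rcases ht with ht | ht
  · rw [ht] at hq
    have h0 : (d - 1) ^ 2 = 0 := by push_cast at hq; linear_combination hq
    have h1 : d = 1 := by
      have := pow_eq_zero_iff (two_ne_zero) |>.mp h0
      linear_combination this
    rw [h1]; simp
  · rw [ht] at hq
    have h0 : (d + 1) ^ 2 = 0 := by push_cast at hq; linear_combination hq
    have h1 : d = -1 := by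
      have := pow_eq_zero_iff (two_ne_zero) |>.mp h0
      linear_combination this
    rw [h1]; norm_num

theorem shimuraHom_mem_parabolicHoms (p : ℕ) [Fact p.Prime] :
    shimuraHom p ∈ ModularCurve.Period.parabolicHoms ℤ (Gamma0 p)
      (ZMod (ModularCurve.eisensteinNumerator p)) :=
  ModularCurve.Period.mem_parabolicHoms_iff.mpr (shimuraHom_isParabolicHom p)

/-! ### Elements of finite order in `SL(2, ℤ)` have `|trace| ≤ 2` -/

theorem matrix_sq_eq (M : Matrix (Fin 2) (Fin 2) ℤ) (hM : M.det = 1) :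
    M * M = M.trace • M - 1 := by
  rw [Matrix.det_fin_two] at hM
  rw [Matrix.trace_fin_two]
  ext i j
  rw [Matrix.sub_apply, Matrix.smul_apply, Matrix.mul_apply, Fin.sum_univ_two, smul_eq_mul]
  fin_cases i <;> fin_cases j
  · show M 0 0 * M 0 0 + M 0 1 * M 1 0
      = (M 0 0 + M 1 1) * M 0 0 - (1 : Matrix (Fin 2) (Fin 2) ℤ) 0 0
    rw [Matrix.one_apply_eq]; linear_combination -hM
  · show M 0 0 * M 0 1 + M 0 1 * M 1 1
      = (M 0 0 + M 1 1) * M 0 1 - (1 : Matrix (Fin 2) (Fin 2) ℤ) 0 1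
    rw [Matrix.one_apply_ne (by decide)]; ring
  · show M 1 0 * M 0 0 + M 1 1 * M 1 0
      = (M 0 0 + M 1 1) * M 1 0 - (1 : Matrix (Fin 2) (Fin 2) ℤ) 1 0
    rw [Matrix.one_apply_ne (by decide)]; ring
  · show M 1 0 * M 0 1 + M 1 1 * M 1 1
      = (M 0 0 + M 1 1) * M 1 1 - (1 : Matrix (Fin 2) (Fin 2) ℤ) 1 1
    rw [Matrix.one_apply_eq]; linear_combination -hM

theorem trace_pow_rec (M : Matrix (Fin 2) (Fin 2) ℤ) (hM : M.det = 1) (m : ℕ) :
    (M ^ (m + 2)).trace = M.trace * (M ^ (m + 1)).trace - (M ^ m).trace := by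
  have h : M ^ (m + 2) = M.trace • M ^ (m + 1) - M ^ m := by
    rw [pow_add, pow_two, matrix_sq_eq M hM, mul_sub, mul_one, Matrix.mul_smul, ← pow_succ]
  rw [h, Matrix.trace_sub, Matrix.trace_smul, smul_eq_mul]

theorem abs_trace_pow_growth (M : Matrix (Fin 2) (Fin 2) ℤ) (hM : M.det = 1)
    (ht : 3 ≤ |M.trace|) (m : ℕ) :
    |(M ^ m).trace| + 1 ≤ |(M ^ (m + 1)).trace| ∧ 2 ≤ |(M ^ m).trace| := by
  induction m with
  | zero =>
    simp only [pow_zero, zero_add, pow_one, Matrix.trace_one, Fintype.card_fin]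
    constructor
    · norm_num; exact ht
    · norm_num
  | succ m ih =>
    obtain ⟨ih1, ih2⟩ := ih
    constructor
    · rw [trace_pow_rec M hM m]
      have h1 : |M.trace * (M ^ (m + 1)).trace| - |(M ^ m).trace|
          ≤ |M.trace * (M ^ (m + 1)).trace - (M ^ m).trace| := abs_sub_abs_le_abs_sub _ _
      rw [abs_mul] at h1
      have h2 : 3 * |(M ^ (m + 1)).trace| ≤ |M.trace| * |(M ^ (m + 1)).trace| :=
        mul_le_mul_of_nonneg_right ht (abs_nonneg _)
      linarith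
    · linarith

theorem abs_trace_le_two_of_pow_eq_one (M : Matrix (Fin 2) (Fin 2) ℤ) (hM : M.det = 1)
    (m : ℕ) (hm : 0 < m) (h : M ^ m = 1) : |M.trace| ≤ 2 := by
  by_contra hcon
  have ht : 3 ≤ |M.trace| := by omega
  obtain ⟨k, rfl⟩ : ∃ k, m = k + 1 := ⟨m - 1, by omega⟩
  have h1 := (abs_trace_pow_growth M hM ht k).1
  have h2 := (abs_trace_pow_growth M hM ht k).2
  rw [h] at h1
  simp at h1
  omega

/-- The Shimura class kills every element of finite order. -/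
theorem shimuraHom_eq_zero_of_isOfFinOrder (p : ℕ) [Fact p.Prime] (γ : Gamma0 p)
    (hγ : IsOfFinOrder γ) : shimuraHom p (Additive.ofMul γ) = 0 := by
  obtain ⟨m, hm, hpow⟩ := isOfFinOrder_iff_pow_eq_one.mp hγ
  have hmat : ((γ : SL(2, ℤ)) : Matrix (Fin 2) (Fin 2) ℤ) ^ m = 1 := by
    have h1 : ((γ : SL(2, ℤ))) ^ m = 1 := by
      have := congrArg (Subtype.val : Gamma0 p → SL(2, ℤ)) hpow
      simpa using this
    have h2 := congrArg (Subtype.val : SL(2, ℤ) → Matrix (Fin 2) (Fin 2) ℤ) h1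
    simpa using h2
  have habs := abs_trace_le_two_of_pow_eq_one _ (γ : SL(2, ℤ)).2 m hm hmat
  apply shimuraHom_eq_zero_of_pow_twelve
  have hq := d_quadratic p γ
  set d : ZMod p := ((((γ : SL(2, ℤ)) 1 1 : ℤ) : ZMod p)) with hd
  set t : ℤ := ((γ : SL(2, ℤ)) : Matrix (Fin 2) (Fin 2) ℤ).trace with ht
  have hcases : t = -2 ∨ t = -1 ∨ t = 0 ∨ t = 1 ∨ t = 2 := by
    have := abs_le.mp habs
    omega
  rcases hcases with h | h | h | h | h <;> rw [h] at hq <;> push_cast at hq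
  · have h0 : (d + 1) ^ 2 = 0 := by linear_combination hq
    have h1 : d = -1 := by
      have := pow_eq_zero_iff (two_ne_zero) |>.mp h0
      linear_combination this
    rw [h1]; norm_num
  · have h3 : d ^ 3 = 1 := by linear_combination (d - 1) * hq
    calc d ^ 12 = (d ^ 3) ^ 4 := by ring
      _ = 1 := by rw [h3]; norm_num
  · have h2 : d ^ 2 = -1 := by linear_combination hq
    calc d ^ 12 = (d ^ 2) ^ 6 := by ring
      _ = 1 := by rw [h2]; norm_num
  · have h3 : d ^ 3 = -1 := by linear_combination (d + 1) * hq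
    calc d ^ 12 = (d ^ 3) ^ 4 := by ring
      _ = 1 := by rw [h3]; norm_num
  · have h0 : (d - 1) ^ 2 = 0 := by linear_combination hq
    have h1 : d = 1 := by
      have := pow_eq_zero_iff (two_ne_zero) |>.mp h0
      linear_combination this
    rw [h1]; simp

/-! ### Hecke eigen-equations (operator-definition independent) -/

/-- Telescoping: if `d(g x) * a (s x) = a x * d(γ)` in `(ZMod p)ˣ` for a permutation `s`,
then `∑ x, ψ(g x) = card X • ψ(γ)`. -/
theorem sum_shimuraHom_of_units (p : ℕ) [Fact p.Prime] {X : Type*} [Fintype X]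
    (a : X → (ZMod p)ˣ) (γ : Gamma0 p) (g : X → Gamma0 p) (s : Equiv.Perm X)
    (h : ∀ x, dUnit p (g x) * a (s x) = a x * dUnit p γ) :
    ∑ x, shimuraHom p (Additive.ofMul (g x))
      = Fintype.card X • shimuraHom p (Additive.ofMul γ) := by
  have key : ∀ x, shimuraHom p (Additive.ofMul (g x))
      = Multiplicative.toAdd (chiSh p (a x)) + shimuraHom p (Additive.ofMul γ)
        - Multiplicative.toAdd (chiSh p (a (s x))) := by
    intro x
    have h1 : dUnit p (g x) = a x * dUnit p γ * (a (s x))⁻¹ := by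
      rw [← h x, mul_inv_cancel_right]
    rw [shimuraHom_apply, shimuraHom_apply, h1, map_mul (chiSh p), map_mul (chiSh p),
      map_inv (chiSh p), toAdd_mul, toAdd_mul, toAdd_inv, sub_eq_add_neg]
  rw [Finset.sum_congr rfl (fun x _ => key x), Finset.sum_sub_distrib, Finset.sum_add_distrib,
    Equiv.sum_comp s (fun x => Multiplicative.toAdd (chiSh p (a x))), Finset.sum_const,
    Finset.card_univ]
  abel

/-- `T_ℓ`-type eigen-equation in matrix form: integer matrices `α x` which are upper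
triangular mod `p` with unit lower right entry mod `p`. -/
theorem sum_shimuraHom_of_triangular (p : ℕ) [Fact p.Prime] {X : Type*} [Fintype X]
    (α : X → Matrix (Fin 2) (Fin 2) ℤ)
    (hα10 : ∀ x, ((α x 1 0 : ℤ) : ZMod p) = 0)
    (hα11 : ∀ x, IsUnit ((α x 1 1 : ℤ) : ZMod p))
    (γ : Gamma0 p) (g : X → Gamma0 p) (s : Equiv.Perm X)
    (h : ∀ x, α x * ((γ : SL(2, ℤ)) : Matrix (Fin 2) (Fin 2) ℤ)
      = ((g x : SL(2, ℤ)) : Matrix (Fin 2) (Fin 2) ℤ) * α (s x)) :
    ∑ x, shimuraHom p (Additive.ofMul (g x))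
      = Fintype.card X • shimuraHom p (Additive.ofMul γ) := by
  refine sum_shimuraHom_of_units p (fun x => (hα11 x).unit) γ g s (fun x => ?_)
  apply Units.ext
  rw [Units.val_mul, Units.val_mul, dUnit_coe, dUnit_coe, IsUnit.unit_spec, IsUnit.unit_spec]
  have h11 := congrFun (congrFun (h x) 1) 1
  rw [Matrix.mul_apply, Matrix.mul_apply, Fin.sum_univ_two, Fin.sum_univ_two] at h11
  have h11' := congrArg (Int.cast : ℤ → ZMod p) h11
  push_cast at h11'
  have hc : ((((g x : SL(2, ℤ)) 1 0 : ℤ)) : ZMod p) = 0 := Gamma0_mem.mp (g x).2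
  rw [hα10 x, zero_mul, zero_add] at h11'
  have hc' : ((((g x : SL(2, ℤ)) : Matrix (Fin 2) (Fin 2) ℤ) 1 0 : ℤ) : ZMod p) = 0 := hc
  rw [hc', zero_mul, zero_add] at h11'
  exact h11'.symm

/-- `T_ℓ` eigen-equation: with `ℓ + 1` representatives the eigenvalue is `ℓ + 1`. -/
theorem sum_shimuraHom_T (p : ℕ) [Fact p.Prime] (ℓ : ℕ) {X : Type*} [Fintype X]
    (hX : Fintype.card X = ℓ + 1)
    (α : X → Matrix (Fin 2) (Fin 2) ℤ)
    (hα10 : ∀ x, ((α x 1 0 : ℤ) : ZMod p) = 0)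
    (hα11 : ∀ x, IsUnit ((α x 1 1 : ℤ) : ZMod p))
    (γ : Gamma0 p) (g : X → Gamma0 p) (s : Equiv.Perm X)
    (h : ∀ x, α x * ((γ : SL(2, ℤ)) : Matrix (Fin 2) (Fin 2) ℤ)
      = ((g x : SL(2, ℤ)) : Matrix (Fin 2) (Fin 2) ℤ) * α (s x)) :
    ∑ x, shimuraHom p (Additive.ofMul (g x))
      = (ℓ + 1) • shimuraHom p (Additive.ofMul γ) := by
  rw [sum_shimuraHom_of_triangular p α hα10 hα11 γ g s h, hX]

/-- `U_p`-type relation: if `!![1, j; 0, p] * γ = g * !![1, j'; 0, p]` then `ψ(g) = ψ(γ)`. -/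
theorem shimuraHom_eq_of_U (p : ℕ) [Fact p.Prime] (γ g : Gamma0 p) (j j' : ℤ)
    (h : !![1, j; 0, (p : ℤ)] * ((γ : SL(2, ℤ)) : Matrix (Fin 2) (Fin 2) ℤ)
      = ((g : SL(2, ℤ)) : Matrix (Fin 2) (Fin 2) ℤ) * !![1, j'; 0, (p : ℤ)]) :
    shimuraHom p (Additive.ofMul g) = shimuraHom p (Additive.ofMul γ) := by
  have hp : (p : ℤ) ≠ 0 := by
    have : p.Prime := Fact.out
    exact_mod_cast this.ne_zero
  apply shimuraHom_eq_of_entry_eq
  have h10 := congrFun (congrFun h 1) 0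
  have h11 := congrFun (congrFun h 1) 1
  simp [Matrix.mul_apply, Fin.sum_univ_two] at h10 h11
  -- h10 : p * γ 1 0 = g 1 0 ; h11 : p * γ 1 1 = g 1 0 * j' + g 1 1 * p
  have h3 : ((γ : SL(2, ℤ)) 1 1 : ℤ) = (γ : SL(2, ℤ)) 1 0 * j' + (g : SL(2, ℤ)) 1 1 := by
    have : (p : ℤ) * ((γ : SL(2, ℤ)) 1 1 : ℤ)
        = (p : ℤ) * ((γ : SL(2, ℤ)) 1 0 * j' + (g : SL(2, ℤ)) 1 1) := by
      rw [h11, ← h10]; ring
    exact mul_left_cancel₀ hp this
  have hc : ((((γ : SL(2, ℤ)) 1 0 : ℤ)) : ZMod p) = 0 := Gamma0_mem.mp γ.2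
  rw [h3]; push_cast; rw [hc]; ring

/-- `p • v = v` in `ZMod n` since `n ∣ p - 1`. -/
theorem prime_nsmul_eq (p : ℕ) [Fact p.Prime] (v : ZMod (ModularCurve.eisensteinNumerator p)) :
    p • v = v := by
  have hp : p.Prime := Fact.out
  have h1 : ((p : ℕ) : ZMod (ModularCurve.eisensteinNumerator p)) = 1 := by
    have hdvd := ModularCurve.eisensteinNumerator_dvd p
    have : ((p - 1 : ℕ) : ZMod (ModularCurve.eisensteinNumerator p)) = 0 :=
      (ZMod.natCast_eq_zero_iff _ _).mpr hdvd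
    rw [Nat.cast_sub hp.one_le, Nat.cast_one, sub_eq_zero] at this
    exact this
  rw [nsmul_eq_mul, h1, one_mul]

/-- `U_p` eigen-equation: with `p` representatives `!![1, j x; 0, p]` the eigenvalue is `1`. -/
theorem sum_shimuraHom_U (p : ℕ) [Fact p.Prime] {X : Type*} [Fintype X]
    (hX : Fintype.card X = p) (j : X → ℤ)
    (γ : Gamma0 p) (g : X → Gamma0 p) (s : X → X)
    (h : ∀ x, !![1, j x; 0, (p : ℤ)] * ((γ : SL(2, ℤ)) : Matrix (Fin 2) (Fin 2) ℤ)
      = ((g x : SL(2, ℤ)) : Matrix (Fin 2) (Fin 2) ℤ) * !![1, j (s x); 0, (p : ℤ)]) :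
    ∑ x, shimuraHom p (Additive.ofMul (g x)) = shimuraHom p (Additive.ofMul γ) := by
  rw [Finset.sum_congr rfl (fun x _ => shimuraHom_eq_of_U p γ (g x) (j x) (j (s x)) (h x)),
    Finset.sum_const, Finset.card_univ, hX, prime_nsmul_eq]

end Fermat.Agent.S16.helper8671
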