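/-
helper1461 — S16 lower bound: the `hlift` hypothesis of `helper9058.lowerBound_of_TU`
(and `hLIFT` of `helper9659.lowerBound_of_data`) for the Shimura class, in both landed
incarnations (`helper8671.shimuraHom`, `helper7452.shimuraHom`).
-/
import Fermat.Agent.S16.helper1461_ParabolicLift
import Fermat.Agent.S16.helper8671_Shimura
import Fermat.Agent.S16.helper7452_Shimura

set_option autoImplicit false

open CongruenceSubgroup MatrixGroups

namespace Fermat.Agent.S16.helper1461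

theorem trace_T_sq :
    ((ModularGroup.T : SL(2, ℤ)) : Matrix (Fin 2) (Fin 2) ℤ).trace ^ 2 = 4 := by
  rw [ModularGroup.coe_T, Matrix.trace_fin_two_of]
  norm_num

/-- A parabolic hom killing the elements of finite order lifts to an integral parabolic hom. -/
theorem exists_parabolic_lift' (p : ℕ) [Fact p.Prime] (n : ℕ)
    (φ : Additive (Gamma0 p) →+ ZMod n)
    (hpar : ModularCurve.Period.IsParabolicHom (Gamma0 p) φ)
    (hfin : ∀ γ : Gamma0 p, IsOfFinOrder γ → φ (Additive.ofMul γ) = 0) :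
    ∃ ψ : Additive (Gamma0 p) →+ ℤ,
      ψ ∈ ModularCurve.Period.parabolicHoms ℤ (Gamma0 p) ℤ ∧
        ∀ γ : Additive (Gamma0 p), ((ψ γ : ℤ) : ZMod n) = φ γ :=
  exists_parabolic_lift p n φ (hpar ⟨ModularGroup.T, T_mem p⟩ trace_T_sq)
    (fun γ hγ => hfin γ (isOfFinOrder_iff_pow_eq_one.mpr ⟨12, by norm_num, hγ⟩))

/-- `hlift` for `helper8671.shimuraHom`. -/
theorem shimura_lift_helper8671 (p : ℕ) [Fact p.Prime] :
    ∃ ψ : Additive (Gamma0 p) →+ ℤ,
      ψ ∈ ModularCurve.Period.parabolicHoms ℤ (Gamma0 p) ℤ ∧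
        ∀ γ : Additive (Gamma0 p), ((ψ γ : ℤ) : ZMod (ModularCurve.eisensteinNumerator p))
          = Fermat.Agent.S16.helper8671.shimuraHom p γ :=
  exists_parabolic_lift' p _ _ (Fermat.Agent.S16.helper8671.shimuraHom_isParabolicHom p)
    (Fermat.Agent.S16.helper8671.shimuraHom_eq_zero_of_isOfFinOrder p)

/-- `hlift` for `helper7452.shimuraHom`. -/
theorem shimura_lift_helper7452 (p : ℕ) [Fact p.Prime] :
    ∃ ψ : Additive (Gamma0 p) →+ ℤ,
      ψ ∈ ModularCurve.Period.parabolicHoms ℤ (Gamma0 p) ℤ ∧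
        ∀ γ : Additive (Gamma0 p), ((ψ γ : ℤ) : ZMod (ModularCurve.eisensteinNumerator p))
          = Fermat.Agent.S16.helper7452.shimuraHom p γ :=
  exists_parabolic_lift' p _ _ (Fermat.Agent.S16.helper7452.shimuraHom_isParabolicHom p)
    (Fermat.Agent.S16.helper7452.shimuraHom_eq_zero_of_isOfFinOrder p)

/-- `hLIFT` of `helper9659.lowerBound_of_data` (`ρ := Int.castAddHom (ZMod n)`), generic form. -/
theorem exists_parabolic_lift_comp (p : ℕ) [Fact p.Prime] (n : ℕ)
    (φ : Additive (Gamma0 p) →+ ZMod n)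
    (hpar : ModularCurve.Period.IsParabolicHom (Gamma0 p) φ)
    (hfin : ∀ γ : Gamma0 p, IsOfFinOrder γ → φ (Additive.ofMul γ) = 0) :
    ∃ ψ : Additive (Gamma0 p) →+ ℤ,
      ψ ∈ ModularCurve.Period.parabolicHoms ℤ (Gamma0 p) ℤ ∧
        (Int.castAddHom (ZMod n)).comp ψ = φ := by
  obtain ⟨ψ, h1, h2⟩ := exists_parabolic_lift' p n φ hpar hfin
  exact ⟨ψ, h1, AddMonoidHom.ext h2⟩

theorem shimura_lift_comp_helper8671 (p : ℕ) [Fact p.Prime] :
    ∃ ψ : Additive (Gamma0 p) →+ ℤ,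
      ψ ∈ ModularCurve.Period.parabolicHoms ℤ (Gamma0 p) ℤ ∧
        (Int.castAddHom (ZMod (ModularCurve.eisensteinNumerator p))).comp ψ
          = Fermat.Agent.S16.helper8671.shimuraHom p :=
  exists_parabolic_lift_comp p _ _ (Fermat.Agent.S16.helper8671.shimuraHom_isParabolicHom p)
    (Fermat.Agent.S16.helper8671.shimuraHom_eq_zero_of_isOfFinOrder p)

theorem shimura_lift_comp_helper7452 (p : ℕ) [Fact p.Prime] :
    ∃ ψ : Additive (Gamma0 p) →+ ℤ,
      ψ ∈ ModularCurve.Period.parabolicHoms ℤ (Gamma0 p) ℤ ∧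
        (Int.castAddHom (ZMod (ModularCurve.eisensteinNumerator p))).comp ψ
          = Fermat.Agent.S16.helper7452.shimuraHom p :=
  exists_parabolic_lift_comp p _ _ (Fermat.Agent.S16.helper7452.shimuraHom_isParabolicHom p)
    (Fermat.Agent.S16.helper7452.shimuraHom_eq_zero_of_isOfFinOrder p)

end Fermat.Agent.S16.helper1461
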