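import Fermat.Agent.S16.helper1808_Master
import Fermat.Agent.S16.helper262_PeriodHeckeHom
import Fermat.Agent.S16.helper1461_ShimuraLift

/-!
# S16, lower bound: the final glue (helper1205)

The two remaining leaves `helper1808.Stmt_GenT p` and `helper1808.Stmt_GenU p` of the master file,
from the modules already on main:

* the coset-transfer operators `helper2138.heckeHomT`, `helper2138.heckeHomU` (natural in the
  coefficient group), packaged as `helper9058.NatOp`;
* (EQ)  `helper262.periodMap_heckeTLin`, `helper262.periodMap_heckeULin`;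
* (INV) `helper2138.heckeHomT_charInvolution`, `helper2138.heckeHomU_charInvolution`;
* (EIG) `helper8671.sum_shimuraHom_of_units`, `helper8671.shimuraHom_eq_of_entry_eq`,
  `helper8671.prime_nsmul_eq` with the `d`-relations `helper2138.corrT_d_rel`, `corrU_d_rel`.

Consequently the full lower bound `lowerBound` (= `hLB` of `helper2246.result_of_gcd`) holds
without hypotheses for every prime `p`.
-/

set_option autoImplicit false

namespace Fermat.Agent.S16.helper1205

open ModularCurve ModularCurve.Period CuspForm CongruenceSubgroup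
open scoped MatrixGroups

noncomputable section

/-- `helper2138.heckeHomT` as a natural operator. -/
def natOpT (p l : ℕ) [Fact l.Prime] (hlp : ¬ l ∣ p) : helper9058.NatOp p where
  op A _ :=
    { toFun := helper2138.heckeHomT p l hlp A
      map_zero' := (helper2138.corrT p l hlp).op_zero A
      map_add' := (helper2138.corrT p l hlp).op_add A }
  nat A B _ _ f φ := helper2138.heckeHomT_comp p l hlp f φ

/-- `helper2138.heckeHomU` as a natural operator. -/
def natOpU (p : ℕ) [NeZero p] : helper9058.NatOp p where
  op A _ :=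
    { toFun := helper2138.heckeHomU p p (dvd_refl p) A
      map_zero' := (helper2138.corrU p p (dvd_refl p)).op_zero A
      map_add' := (helper2138.corrU p p (dvd_refl p)).op_add A }
  nat A B _ _ f φ := helper2138.heckeHomU_comp p p (dvd_refl p) f φ

theorem natOpT_op (p l : ℕ) [Fact l.Prime] (hlp : ¬ l ∣ p) (A : Type) [AddCommGroup A]
    (φ : Additive (Gamma0 p) →+ A) :
    (natOpT p l hlp).op A φ = helper2138.heckeHomT p l hlp A φ := rfl

theorem natOpU_op (p : ℕ) [NeZero p] (A : Type) [AddCommGroup A]
    (φ : Additive (Gamma0 p) →+ A) :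
    (natOpU p).op A φ = helper2138.heckeHomU p p (dvd_refl p) A φ := rfl

/-- the lower right entries of the `T_l`-representatives are units modulo `p`. -/
theorem isUnit_eT (p l : ℕ) [Fact l.Prime] (hlp : ¬ l ∣ p) (hp : p.Prime)
    (x : OnePoint (ZMod l)) : IsUnit ((helper2138.eT l x : ℤ) : ZMod p) := by
  have hl : l.Prime := Fact.out
  induction x using OnePoint.rec with
  | infty => simp
  | coe j =>
    rw [helper2138.eT_coe]
    have hne : l ≠ p := fun h => hlp (h ▸ dvd_refl l)
    have hcop : Nat.Coprime l p := (Nat.coprime_primes hl hp).mpr hne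
    have h := (ZMod.unitOfCoprime l hcop).isUnit
    rw [ZMod.coe_unitOfCoprime] at h
    exact_mod_cast h

/-- **(EIG) for `T_l`**: the Shimura class is an eigenvector with eigenvalue `l + 1`. -/
theorem heckeHomT_shimuraHom (p l : ℕ) [Fact p.Prime] [Fact l.Prime] (hlp : ¬ l ∣ p) :
    helper2138.heckeHomT p l hlp (ZMod (eisensteinNumerator p)) (helper8671.shimuraHom p) =
      ((l : ℤ) + 1) • helper8671.shimuraHom p := by
  have hp : p.Prime := Fact.out
  have hcard : Fintype.card (OnePoint (ZMod l)) = l + 1 := by
    have h : Fintype.card (OnePoint (ZMod l)) = Fintype.card (Option (ZMod l)) :=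
      Fintype.card_congr (Equiv.refl _)
    rw [h, Fintype.card_option, ZMod.card]
  refine AddMonoidHom.ext fun γ' => ?_
  obtain ⟨γ, rfl⟩ := Additive.ofMul.surjective γ'
  rw [helper2138.heckeHomT_apply]
  have key := helper8671.sum_shimuraHom_of_units p (fun x => (isUnit_eT p l hlp hp x).unit) γ
    (fun x => (helper2138.corrT p l hlp).g x γ) ((helper2138.corrT p l hlp).σEquiv γ)
    (fun x => by
      apply Units.ext
      rw [Units.val_mul, Units.val_mul, helper8671.dUnit_coe, helper8671.dUnit_coe,
        IsUnit.unit_spec, IsUnit.unit_spec, helper2138.Corr.σEquiv_apply,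
        helper2138.corrT_d_rel p l hlp x γ, mul_comm])
  rw [key, hcard, AddMonoidHom.smul_apply]
  have h2 : ((l : ℤ) + 1) = ((l + 1 : ℕ) : ℤ) := by push_cast; rfl
  rw [h2, natCast_zsmul]

/-- **(EIG) for `U_p`**: the Shimura class is fixed. -/
theorem heckeHomU_shimuraHom (p : ℕ) [Fact p.Prime] :
    haveI : NeZero p := ⟨(Fact.out : p.Prime).ne_zero⟩
    helper2138.heckeHomU p p (dvd_refl p) (ZMod (eisensteinNumerator p))
      (helper8671.shimuraHom p) = helper8671.shimuraHom p := by
  haveI : NeZero p := ⟨(Fact.out : p.Prime).ne_zero⟩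
  refine AddMonoidHom.ext fun γ' => ?_
  obtain ⟨γ, rfl⟩ := Additive.ofMul.surjective γ'
  rw [helper2138.heckeHomU_apply,
    Finset.sum_congr rfl (fun j _ => helper8671.shimuraHom_eq_of_entry_eq p
      (helper2138.corrU_d_rel p p (dvd_refl p) j γ)),
    Finset.sum_const, Finset.card_univ, ZMod.card, helper8671.prime_nsmul_eq]

/-- **(GEN-T)** of `helper1808_Master`. -/
theorem stmt_GenT (p : ℕ) [Fact p.Prime] : helper1808.Stmt_GenT p := by
  haveI : NeZero p := ⟨(Fact.out : p.Prime).ne_zero⟩
  intro l hl hlp
  haveI : Fact l.Prime := ⟨hl⟩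
  refine ⟨natOpT p l hlp, fun f => ?_, fun φ => ?_, ?_⟩
  · rw [natOpT_op]
    exact (helper262.periodMap_heckeTLin p l hlp f).symm
  · rw [natOpT_op, natOpT_op]
    exact helper2138.heckeHomT_charInvolution p l hlp ℂ ℂ φ
  · rw [natOpT_op]
    exact heckeHomT_shimuraHom p l hlp

/-- **(GEN-U)** of `helper1808_Master`. -/
theorem stmt_GenU (p : ℕ) [Fact p.Prime] : helper1808.Stmt_GenU p := by
  haveI : NeZero p := ⟨(Fact.out : p.Prime).ne_zero⟩
  refine ⟨natOpU p, fun f => ?_, fun φ => ?_, ?_⟩
  · rw [natOpU_op]
    exact (helper262.periodMap_heckeULin p p (dvd_refl p) f).symm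
  · rw [natOpU_op, natOpU_op]
    exact helper2138.heckeHomU_charInvolution p p (dvd_refl p) ℂ ℂ φ
  · rw [natOpU_op]
    exact heckeHomU_shimuraHom p

/-- **The lower bound of S16**, hypothesis-free (`hLB` of `helper2246.result_of_gcd` /
`helper2246.result_of_bounds`): every Hecke polynomial killing the integral lattice has
Eisenstein value divisible by the Eisenstein numerator. -/
theorem lowerBound (p : ℕ) [Fact p.Prime] :
    ∀ t : HeckeAlg, helper2246.phi p t = 0 →
      (eisensteinNumerator p : ℤ) ∣ helper2246.eis p t :=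
  helper9058.lowerBound_of_TU p (helper8671.shimuraHom p)
    (helper8671.shimuraHom_surjective p 1)
    (helper1461.shimura_lift_helper8671 p)
    (stmt_GenT p) (stmt_GenU p)

end

end Fermat.Agent.S16.helper1205
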