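import Fermat.Agent.S16.helper2246_Adapters
import Fermat.Agent.S16.helper969_SmallPrimes
import Fermat.Agent.S23

/-!
# S16: top-level Spec (helper1336, acting captain)

The frozen statement S16 is derived, by a compiled proof, from three `Prop`-valued interfaces,
each needed only for primes `p ≥ 5` (the primes `2, 3` are `helper969_SmallPrimes`):

* `Stmt_LB p`   — lower bound, kernel form: a Hecke polynomial acting as `0` on `S_2(Γ₀(p))` has
  Eisenstein value divisible by `n = eisensteinNumerator p`  (Shimura-class route);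
* `Stmt_Dual p` — Hecke duality: if `M` divides the Eisenstein value of every Hecke polynomial
  killing the integral lattice, there is an integral cusp form congruent to `∑ σ'(k) q^k` mod `M`;
* `Stmt_UBq p`  — upper bound, `q`-expansion form: an integral cusp form congruent to
  `∑ σ'(k) q^k` modulo `M` forces `M ∣ n`  (Eisenstein series + Hecke commutator + one trace +
  the 2-adic case).

`frozen_of_spec` is the final wiring; `S16.lean` is `frozen_of_spec hLB hDual hUBq p`.
-/

set_option autoImplicit false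

open ModularCurve CuspForm

namespace Fermat.Agent.S16.helper1336

/-- `σ'(k)`: the sum of the divisors of `k` prime to `p` (the `k`-th coefficient of the weight-2
Eisenstein series of level `p`, and the Eisenstein value of the `k`-th Hecke operator). -/
def sigmaP (p k : ℕ) : ℕ := ∑ d ∈ k.divisors with ¬ p ∣ d, d

/-- **(LB), kernel form.** -/
def Stmt_LB (p : ℕ) [Fact p.Prime] : Prop :=
  ∀ t : HeckeAlg, heckeEvalForms p 2 t = 0 →
    (eisensteinNumerator p : ℤ) ∣ helper2246.eis p t

/-- **(DUAL).** -/
def Stmt_Dual (p : ℕ) [Fact p.Prime] : Prop :=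
  ∀ M : ℕ, (∀ t : HeckeAlg, helper2246.phi p t = 0 → (M : ℤ) ∣ helper2246.eis p t) →
    ∃ g ∈ intLattice p 2, ∀ k : ℕ, 1 ≤ k →
      ∃ c : ℤ, ModularFormClass.qCoeff g k = (((sigmaP p k : ℤ) + M * c : ℤ) : ℂ)

/-- **(UB-q).** -/
def Stmt_UBq (p : ℕ) [Fact p.Prime] : Prop :=
  ∀ (M : ℕ) (g : CuspForm (CongruenceSubgroup.Gamma0 p) 2), g ∈ intLattice p 2 →
    (∀ k : ℕ, 1 ≤ k →
      ∃ c : ℤ, ModularFormClass.qCoeff g k = (((sigmaP p k : ℤ) + M * c : ℤ) : ℂ)) →
    M ∣ eisensteinNumerator p

/-- The frozen statement for one prime from the three interfaces (and S23). -/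
theorem card_of_spec (p : ℕ) [Fact p.Prime] (hLB : Stmt_LB p) (hDual : Stmt_Dual p)
    (hUBq : Stmt_UBq p) :
    Nat.card (↥(heckeLatticeAlgebra p ∅) ⧸
        Ideal.map ((latticeRestrictHom p ∅).toRingHom.comp (heckeEvalForms p 2))
          (eisensteinIdeal p)) =
      eisensteinNumerator p := by
  have : NeZero p := ⟨(Fact.out : p.Prime).ne_zero⟩
  have hint : HasIntegralStructure p 2 := Fermat.Agent.S23.result p
  refine helper2246.result_of_gcd p (helper2246.lb_of_heckeEvalForms p hint _ hLB) ?_
  intro M hM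
  obtain ⟨g, hg, hgk⟩ := hDual M hM
  exact hUBq M g hg hgk

/-- **Final wiring.** The frozen statement S16 from the three interfaces at primes `p ≥ 5`. -/
theorem frozen_of_spec
    (hLB : ∀ (p : ℕ) [Fact p.Prime], 5 ≤ p → Stmt_LB p)
    (hDual : ∀ (p : ℕ) [Fact p.Prime], 5 ≤ p → Stmt_Dual p)
    (hUBq : ∀ (p : ℕ) [Fact p.Prime], 5 ≤ p → Stmt_UBq p)
    (p : ℕ) [Fact p.Prime] :
    Nat.card (↥(heckeLatticeAlgebra p ∅) ⧸
        Ideal.map ((latticeRestrictHom p ∅).toRingHom.comp (heckeEvalForms p 2))
          (eisensteinIdeal p)) =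
      eisensteinNumerator p :=
  helper969.frozen_of_five_le
    (fun p _ hp => card_of_spec p (hLB p hp) (hDual p hp) (hUBq p hp)) p

end Fermat.Agent.S16.helper1336
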