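import Mathlib

/-!
# S16 lower bound: the abstract "Eisenstein congruence module" argument (helper1439)

Pure algebra, no modular forms.  It avoids every commutativity question for Hecke operators on
`Hom(Γ, A)`: the polynomial ring `MvPolynomial ι ℤ` only acts on a module `W` (in the
application `W = S₂ × S₂`, resp. any module on which the Hecke polynomial `t` is known to act
by zero), while on the integral / finite-coefficient homs only the *generators* `θ i`, `θ' i` are
used.

Application (`ι = Nat.Primes`, `L = Additive Γ →+ ℤ`, `B = Additive Γ →+ ZMod n`):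
* `θ i`, `θ' i`  : coset-transfer Hecke operators on `L`, `B`; `r` : reduction mod `n`;
* `Lp`           : integral parabolic homs; `e` : `Lp → W` the inverse of the period map
                   (S21), equivariant for the generators;
* `ψ₀`           : Shimura class, `θ' i ψ₀ = eis i • ψ₀`, of exact order `n`;
* `ψt`           : an integral parabolic lift of `ψ₀`;
* `t`            : a Hecke polynomial killing `W`.
Conclusion: `n ∣ eis(t)`.
-/

set_option autoImplicit false

namespace Fermat.Agent.S16.helper1439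

open MvPolynomial

theorem lb_core {ι : Type*} (eis : ι → ℤ)
    {W : Type*} [AddCommGroup W] [Module (MvPolynomial ι ℤ) W]
    {L B : Type*} [AddCommGroup L] [AddCommGroup B]
    (θ : ι → L →+ L) (θ' : ι → B →+ B) (r : L →+ B)
    (hr : ∀ i φ, r (θ i φ) = θ' i (r φ))
    (Lp : AddSubgroup L) (hLp : ∀ i, ∀ φ ∈ Lp, θ i φ ∈ Lp)
    (e : L → W) (he_add : ∀ φ ∈ Lp, ∀ φ' ∈ Lp, e (φ + φ') = e φ + e φ')
    (he_inj : ∀ φ ∈ Lp, ∀ φ' ∈ Lp, e φ = e φ' → φ = φ')
    (he : ∀ i, ∀ φ ∈ Lp, e (θ i φ) = (X i : MvPolynomial ι ℤ) • e φ)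
    (ψ₀ : B) (hψ₀ : ∀ i, θ' i ψ₀ = eis i • ψ₀)
    (n : ℕ) (hord : ∀ c : ℤ, c • ψ₀ = 0 → (n : ℤ) ∣ c)
    (ψt : L) (hψt : ψt ∈ Lp) (hlift : r ψt = ψ₀)
    (t : MvPolynomial ι ℤ) (ht : ∀ w : W, t • w = 0) :
    (n : ℤ) ∣ MvPolynomial.aeval eis t := by
  classical
  -- the key claim, by induction on the polynomial
  have key : ∀ s : MvPolynomial ι ℤ, ∀ φ ∈ Lp, ∀ c : ℤ, r φ = c • ψ₀ →
      ∃ φ' ∈ Lp, e φ' = s • e φ ∧ r φ' = (MvPolynomial.aeval eis s * c) • ψ₀ := by
    intro s
    induction s using MvPolynomial.induction_on with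
    | C a =>
      intro φ hφ c hc
      refine ⟨a • φ, Lp.zsmul_mem hφ a, ?_, ?_⟩
      · -- e (a • φ) = C a • e φ
        have hz : ∀ m : ℕ, e (m • φ) = (m : MvPolynomial ι ℤ) • e φ := by
          intro m
          induction m with
          | zero =>
            have h0 : e (0 + 0) = e 0 + e 0 := he_add 0 Lp.zero_mem 0 Lp.zero_mem
            have h00 : e 0 = 0 := by
              rw [add_zero] at h0
              have := h0
              simpa using this
            simp [h00]
          | succ m ih =>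
            rw [succ_nsmul, he_add _ (Lp.nsmul_mem hφ m) _ hφ, ih]
            push_cast
            rw [add_smul, one_smul]
        have hneg : ∀ ψ ∈ Lp, e (-ψ) = - e ψ := by
          intro ψ hψ
          have h0 : e (0 + 0) = e 0 + e 0 := he_add 0 Lp.zero_mem 0 Lp.zero_mem
          have h00 : e 0 = 0 := by
            rw [add_zero] at h0
            simpa using h0
          have h1 := he_add ψ hψ (-ψ) (Lp.neg_mem hψ)
          rw [add_neg_cancel, h00] at h1
          exact eq_neg_of_add_eq_zero_right h1.symm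
        have hC : (C a : MvPolynomial ι ℤ) = ((a : ℤ) : MvPolynomial ι ℤ) := by
          simp
        rw [hC]
        rcases Int.eq_nat_or_neg a with ⟨m, rfl | rfl⟩
        · rw [natCast_zsmul, hz]; simp
        · rw [neg_smul, natCast_zsmul, hneg _ (Lp.nsmul_mem hφ m), hz]
          simp
      · rw [map_zsmul, hc, smul_smul]
        simp
    | add p q hp hq =>
      intro φ hφ c hc
      obtain ⟨φ₁, h₁, e₁, r₁⟩ := hp φ hφ c hc
      obtain ⟨φ₂, h₂, e₂, r₂⟩ := hq φ hφ c hc
      refine ⟨φ₁ + φ₂, Lp.add_mem h₁ h₂, ?_, ?_⟩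
      · rw [he_add _ h₁ _ h₂, e₁, e₂, add_smul]
      · rw [map_add, r₁, r₂, ← add_smul, map_add, add_mul]
    | mul_X p i hp =>
      intro φ hφ c hc
      -- first apply X i, then p
      have hθ : θ i φ ∈ Lp := hLp i φ hφ
      have hrθ : r (θ i φ) = (eis i * c) • ψ₀ := by
        rw [hr, hc, map_zsmul, hψ₀, smul_smul, mul_comm]
      obtain ⟨φ₁, h₁, e₁, r₁⟩ := hp (θ i φ) hθ (eis i * c) hrθ
      refine ⟨φ₁, h₁, ?_, ?_⟩
      · rw [e₁, he i φ hφ, smul_smul]
      · rw [r₁, map_mul, MvPolynomial.aeval_X, mul_assoc]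
  obtain ⟨φ', hφ', e', r'⟩ := key t ψt hψt 1 (by rw [hlift, one_smul])
  rw [ht] at e'
  -- e φ' = 0 = e 0, so φ' = 0
  have h00 : e 0 = 0 := by
    have h0 : e (0 + 0) = e 0 + e 0 := he_add 0 Lp.zero_mem 0 Lp.zero_mem
    rw [add_zero] at h0
    simpa using h0
  have hz : φ' = 0 := he_inj φ' hφ' 0 Lp.zero_mem (by rw [e', h00])
  rw [hz, map_zero, mul_one] at r'
  exact hord _ r'.symm

end Fermat.Agent.S16.helper1439
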