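/-
helper144 — S16 shared leaf S16-CONJ, part 3 (NORM expansions).  Mathlib + one Prelude lemma.

* `IsNice h` functions (periodic, holomorphic, bounded at `i∞`) are closed under the algebra
  operations and `qExpansion h` is additive / multiplicative on them (`IsNice.qExpansion_mul`, ...;
  bundled: `niceAlg h`, `qExpHom h hh : niceAlg h →ₐ[ℂ] PowerSeries ℂ`).
* `qExpansion_eq_expand` : for a `1`-periodic nice function, `qExpansion p f = expand p (qExpansion 1 f)`.
* `qExpansion_norm`, `norm_expand` : the `q^(1/p)`-expansion of `ModularForm.norm 𝒮ℒ X` for `X` of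
  level `Γ₀(p)` is the product of the expansions of the `p + 1` conjugates.
* `qExpansion_slash_S_mul_T_eq` : the conjugates of a weight-2 form in `rescale`/`Up` form.
-/
import Mathlib
import Fermat.Prelude.Thm_UpperHalfPlane_qExpansion_prod
import Fermat.Agent.S16.helper144_Conj

set_option autoImplicit false

open ModularForm SlashInvariantForm CongruenceSubgroup Matrix.SpecialLinearGroup
open Function Complex Filter
open UpperHalfPlane hiding I
open scoped MatrixGroups Manifold ModularForm Real Topology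

namespace Fermat.Agent.S16.helper144

noncomputable section

local notation "𝕢" => Periodic.qParam

/-! ### Closure properties of `IsNice` -/

namespace IsNice

variable {h : ℝ} {f g : ℍ → ℂ}

lemma const (h : ℝ) (c : ℂ) : IsNice h (fun _ : ℍ => c) where
  per := fun _ => rfl
  hol := mdifferentiable_const
  bdd := Filter.const_boundedAtFilter _ c

lemma one (h : ℝ) : IsNice h (1 : ℍ → ℂ) := const h 1

lemma zero (h : ℝ) : IsNice h (0 : ℍ → ℂ) := const h 0

lemma add (hf : IsNice h f) (hg : IsNice h g) : IsNice h (f + g) where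
  per := fun w => by
    show f (ofComplex (w + h)) + g (ofComplex (w + h)) = f (ofComplex w) + g (ofComplex w)
    rw [show f (ofComplex (w + h)) = f (ofComplex w) from hf.per w,
      show g (ofComplex (w + h)) = g (ofComplex w) from hg.per w]
  hol := hf.hol.add hg.hol
  bdd := hf.bdd.add hg.bdd

lemma mul (hf : IsNice h f) (hg : IsNice h g) : IsNice h (f * g) where
  per := fun w => by
    show f (ofComplex (w + h)) * g (ofComplex (w + h)) = f (ofComplex w) * g (ofComplex w)
    rw [show f (ofComplex (w + h)) = f (ofComplex w) from hf.per w,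
      show g (ofComplex (w + h)) = g (ofComplex w) from hg.per w]
  hol := hf.hol.mul hg.hol
  bdd := hf.bdd.mul hg.bdd

lemma smul (c : ℂ) (hf : IsNice h f) : IsNice h (c • f) := by
  have h1 : c • f = (fun _ : ℍ => c) * f := by
    funext τ
    simp
  rw [h1]
  exact (const h c).mul hf

lemma neg (hf : IsNice h f) : IsNice h (-f) := by
  have h1 : -f = (-1 : ℂ) • f := by
    funext τ
    simp
  rw [h1]
  exact hf.smul (-1)

lemma sub (hf : IsNice h f) (hg : IsNice h g) : IsNice h (f - g) := by
  rw [sub_eq_add_neg]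
  exact hf.add hg.neg

lemma pow (hf : IsNice h f) (n : ℕ) : IsNice h (f ^ n) := by
  induction n with
  | zero => rw [pow_zero]; exact one h
  | succ n ih => rw [pow_succ]; exact ih.mul hf

lemma sum {ι : Type*} (s : Finset ι) {F : ι → ℍ → ℂ} (hF : ∀ i ∈ s, IsNice h (F i)) :
    IsNice h (∑ i ∈ s, F i) := by
  classical
  induction s using Finset.induction_on with
  | empty => rw [Finset.sum_empty]; exact zero h
  | insert a s ha ih =>
    rw [Finset.sum_insert ha]
    exact (hF a (Finset.mem_insert_self a s)).add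
      (ih fun i hi => hF i (Finset.mem_insert_of_mem hi))

lemma prod {ι : Type*} (s : Finset ι) {F : ι → ℍ → ℂ} (hF : ∀ i ∈ s, IsNice h (F i)) :
    IsNice h (∏ i ∈ s, F i) := by
  classical
  induction s using Finset.induction_on with
  | empty => rw [Finset.prod_empty]; exact one h
  | insert a s ha ih =>
    rw [Finset.prod_insert ha]
    exact (hF a (Finset.mem_insert_self a s)).mul
      (ih fun i hi => hF i (Finset.mem_insert_of_mem hi))

/-! ### `qExpansion` on nice functions -/

lemma qExpansion_add (hf : IsNice h f) (hg : IsNice h g) (hh : 0 < h) :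
    qExpansion h (f + g) = qExpansion h f + qExpansion h g :=
  UpperHalfPlane.qExpansion_add (hf.analyticAt hh) (hg.analyticAt hh)

lemma qExpansion_mul (hf : IsNice h f) (hg : IsNice h g) (hh : 0 < h) :
    qExpansion h (f * g) = qExpansion h f * qExpansion h g :=
  UpperHalfPlane.qExpansion_mul (hf.analyticAt hh) (hg.analyticAt hh)

lemma qExpansion_sub (hf : IsNice h f) (hg : IsNice h g) (hh : 0 < h) :
    qExpansion h (f - g) = qExpansion h f - qExpansion h g :=
  UpperHalfPlane.qExpansion_sub (hf.analyticAt hh) (hg.analyticAt hh)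

lemma qExpansion_smul (c : ℂ) (hf : IsNice h f) (hh : 0 < h) :
    qExpansion h (c • f) = c • qExpansion h f :=
  UpperHalfPlane.qExpansion_smul (hf.analyticAt hh) c

lemma qExpansion_neg (hf : IsNice h f) (hh : 0 < h) :
    qExpansion h (-f) = -qExpansion h f :=
  UpperHalfPlane.qExpansion_neg (hf.analyticAt hh)

lemma qExpansion_pow (hf : IsNice h f) (hh : 0 < h) (n : ℕ) :
    qExpansion h (f ^ n) = qExpansion h f ^ n := by
  induction n with
  | zero => rw [pow_zero, pow_zero]; exact UpperHalfPlane.qExpansion_one h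
  | succ n ih => rw [pow_succ, pow_succ, (hf.pow n).qExpansion_mul hf hh, ih]

lemma qExpansion_prod {ι : Type*} (s : Finset ι) {F : ι → ℍ → ℂ}
    (hF : ∀ i ∈ s, IsNice h (F i)) (hh : 0 < h) :
    qExpansion h (∏ i ∈ s, F i) = ∏ i ∈ s, qExpansion h (F i) :=
  UpperHalfPlane.qExpansion_prod s fun i hi => (hF i hi).analyticAt hh

lemma qExpansion_sum {ι : Type*} (s : Finset ι) {F : ι → ℍ → ℂ}
    (hF : ∀ i ∈ s, IsNice h (F i)) (hh : 0 < h) :
    qExpansion h (∑ i ∈ s, F i) = ∑ i ∈ s, qExpansion h (F i) := by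
  classical
  induction s using Finset.induction_on with
  | empty => rw [Finset.sum_empty, Finset.sum_empty]; exact UpperHalfPlane.qExpansion_zero h
  | insert a s ha ih =>
    rw [Finset.sum_insert ha, Finset.sum_insert ha,
      (hF a (Finset.mem_insert_self a s)).qExpansion_add
        (sum s fun i hi => hF i (Finset.mem_insert_of_mem hi)) hh,
      ih fun i hi => hF i (Finset.mem_insert_of_mem hi)]

lemma qExpansion_const {h : ℝ} (hh : 0 < h) (c : ℂ) :
    qExpansion h (fun _ : ℍ => c) = PowerSeries.C c := by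
  have h1 : (fun _ : ℍ => c) = c • (1 : ℍ → ℂ) := by
    funext τ
    simp
  rw [h1, (one h).qExpansion_smul c hh, UpperHalfPlane.qExpansion_one]
  ext n
  simp [PowerSeries.coeff_C, PowerSeries.coeff_one]

end IsNice

/-! ### The algebra of nice functions and the `q`-expansion homomorphism -/

/-- The `ℂ`-algebra of `h`-periodic holomorphic functions on `ℍ` bounded at `i∞`. -/
def niceAlg (h : ℝ) : Subalgebra ℂ (ℍ → ℂ) where
  carrier := {f | IsNice h f}
  mul_mem' := fun hf hg => IsNice.mul hf hg
  add_mem' := fun hf hg => IsNice.add hf hg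
  algebraMap_mem' := fun c => IsNice.const h c

lemma mem_niceAlg {h : ℝ} {f : ℍ → ℂ} : f ∈ niceAlg h ↔ IsNice h f := Iff.rfl

/-- `qExpansion h` as an algebra homomorphism on nice functions. -/
def qExpHom (h : ℝ) (hh : 0 < h) : niceAlg h →ₐ[ℂ] PowerSeries ℂ where
  toFun f := qExpansion h (f : ℍ → ℂ)
  map_one' := UpperHalfPlane.qExpansion_one h
  map_mul' f g := IsNice.qExpansion_mul f.2 g.2 hh
  map_zero' := UpperHalfPlane.qExpansion_zero h
  map_add' f g := IsNice.qExpansion_add f.2 g.2 hh
  commutes' c := IsNice.qExpansion_const hh c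

@[simp] lemma qExpHom_apply (h : ℝ) (hh : 0 < h) (f : niceAlg h) :
    qExpHom h hh f = qExpansion h (f : ℍ → ℂ) := rfl

/-! ### Level-one forms and `expand` -/

variable {F : Type*} [FunLike F ℍ ℂ] {k : ℤ}

lemma one_mem_strictPeriods_levelOne : (1 : ℝ) ∈ (𝒮ℒ).strictPeriods := by simp

/-- A level-one form is `1`-periodic, holomorphic and bounded at `i∞`. -/
theorem isNice_one_levelOne (f : F) [ModularFormClass F 𝒮ℒ k] : IsNice 1 ⇑f where
  per := SlashInvariantFormClass.periodic_comp_ofComplex f one_mem_strictPeriods_levelOne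
  hol := ModularFormClass.holo f
  bdd := ModularFormClass.bdd_at_infty f

/-- Level-one forms are invariant under every `γ : SL(2, ℤ)`. -/
lemma slash_levelOne (f : F) [SlashInvariantFormClass F 𝒮ℒ k] (γ : SL(2, ℤ)) :
    ⇑f ∣[k] γ = ⇑f :=
  SlashInvariantFormClass.slash_action_eq f (mapGL ℝ γ) ⟨γ, rfl⟩

/-- For a `1`-periodic nice function, `qExpansion p f` is `qExpansion 1 f` with `q = t ^ p`. -/
theorem qExpansion_eq_expand (p : ℕ) [NeZero p] (hp : p ≠ 0) {f : ℍ → ℂ} (hf : IsNice 1 f) :
    qExpansion (p : ℝ) f = PowerSeries.expand p hp (qExpansion 1 f) := by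
  ext n
  rw [qExpansion_scale_coeff p hf, PowerSeries.coeff_expand]

/-! ### The norm to level one -/

/-- The `q^(1/p)`-expansion of the norm is the product of the expansions of the conjugates. -/
theorem qExpansion_norm (p : ℕ) [Fact p.Prime] (X : F)
    [ModularFormClass F (Gamma0 p : Subgroup (GL (Fin 2) ℝ)) k] :
    qExpansion (p : ℝ) (ModularForm.norm 𝒮ℒ X) = qExpansion (p : ℝ) X *
      ∏ j : Fin p, qExpansion (p : ℝ)
        (⇑X ∣[k] (ModularGroup.S * ModularGroup.T ^ ((j : ℕ) : ℤ))) := by
  have hh := natCast_pos_real p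
  rw [coe_norm_eq, ((isNice_one p X).natCast p).qExpansion_mul
    (IsNice.prod _ fun j _ => isNice_slash p X _) hh,
    IsNice.qExpansion_prod _ (fun j _ => isNice_slash p X _) hh]

/-- The norm expansion in the `expand` form (shape requested by the T8 adapter). -/
theorem norm_expand (p : ℕ) [Fact p.Prime] (hp : p ≠ 0) (X : F)
    [ModularFormClass F (Gamma0 p : Subgroup (GL (Fin 2) ℝ)) k] :
    PowerSeries.expand p hp (qExpansion 1 (ModularForm.norm 𝒮ℒ X)) =
      PowerSeries.expand p hp (qExpansion 1 X) *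
        ∏ j ∈ Finset.range p, qExpansion (p : ℝ)
          (⇑X ∣[k] (ModularGroup.S * ModularGroup.T ^ (j : ℤ))) := by
  rw [← qExpansion_eq_expand p hp (isNice_one_levelOne (ModularForm.norm 𝒮ℒ X)),
    ← qExpansion_eq_expand p hp (isNice_one p X), qExpansion_norm,
    Fin.prod_univ_eq_prod_range (fun j : ℕ => qExpansion (p : ℝ)
      (⇑X ∣[k] (ModularGroup.S * ModularGroup.T ^ (j : ℤ)))) p]

/-! ### The conjugates of a weight-2 form in `rescale` form -/

/-- `ζ_p = exp(2 π i / p)`. -/
def zetaP (p : ℕ) : ℂ := Complex.exp (2 * π * I / p)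

lemma zetaP_pow_self (p : ℕ) [NeZero p] : zetaP p ^ p = 1 := by
  have hp : (p : ℂ) ≠ 0 := Nat.cast_ne_zero.mpr (NeZero.ne p)
  rw [zetaP, ← Complex.exp_nat_mul, mul_div_cancel₀ _ hp, Complex.exp_two_pi_mul_I]

lemma zetaP_isPrimitiveRoot (p : ℕ) [NeZero p] : IsPrimitiveRoot (zetaP p) p :=
  Complex.isPrimitiveRoot_exp p (NeZero.ne p)

lemma exp_eq_zetaP_pow (p : ℕ) (j : ℕ) :
    Complex.exp (2 * π * I * (((j : ℤ) : ℂ)) / p) = zetaP p ^ j := by
  rw [zetaP, ← Complex.exp_nat_mul]
  congr 1
  push_cast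
  ring

/-- **`W_p = -U_p`, series form**: for `G` of weight `2` and level `Γ₀(p)`,
`qExpansion p (G ∣[2] (S * T ^ j)) = -(1/p) • rescale (ζ_p ^ j) (U_p (qExpansion 1 G))`. -/
theorem qExpansion_slash_S_mul_T_eq (p : ℕ) [Fact p.Prime] (G : F)
    [ModularFormClass F (Gamma0 p : Subgroup (GL (Fin 2) ℝ)) 2] (j : ℕ) :
    qExpansion (p : ℝ) (⇑G ∣[(2 : ℤ)] (ModularGroup.S * ModularGroup.T ^ (j : ℤ))) =
      (-(p : ℂ)⁻¹) • PowerSeries.rescale (zetaP p ^ j)
        (PowerSeries.mk fun n => (qExpansion 1 G).coeff (p * n)) := by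
  ext n
  rw [qExpansion_slash_S_mul_T_zpow_coeff, exp_eq_zetaP_pow, PowerSeries.coeff_smul,
    PowerSeries.coeff_rescale, PowerSeries.coeff_mk, smul_eq_mul]
  ring

/-- `U_p U_p = 1` on the `q`-expansions of weight-2 forms of level `Γ₀(p)`:
`a_{p² n} = a_n`. -/
theorem coeff_mul_mul_eq (p : ℕ) [Fact p.Prime] (G : F)
    [ModularFormClass F (Gamma0 p : Subgroup (GL (Fin 2) ℝ)) 2] (n : ℕ) :
    (qExpansion 1 G).coeff (p * (p * n)) = (qExpansion 1 G).coeff n := by
  have hp : (p : ℂ) ≠ 0 := Nat.cast_ne_zero.mpr (NeZero.ne p)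
  rw [coeff_eq_neg_mul_coeff_slash_S p G n, qExpansion_slash_S_coeff p G (p * n)]
  field_simp

end

end Fermat.Agent.S16.helper144
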