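/-
helper1519: S16 statement-facing duality reduction.

The frozen statement S16 (index of the Eisenstein ideal in the weight-2 level-p Hecke algebra
acting on the integral lattice equals `eisensteinNumerator p`) is reduced to two statements about
cusp forms with integer q-expansion ("Eisenstein congruences").
-/
import Mathlib
import Fermat.Prelude.Def_CuspForm_HeckeLocal
import Fermat.Prelude.Def_CuspForm_HeckeEvalForms
import Fermat.Prelude.Def_HeckeGalois_EichlerShimura
import Fermat.Agent.Lib.helper229_HeckeLattice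

set_option autoImplicit false

namespace Fermat.Agent.S16.helper1519

open CuspForm ModularCurve CongruenceSubgroup ModularFormClass
open Fermat.Agent.Lib.helper229

noncomputable section

/-! ### Abstract coefficient recursion -/

/-- Two families of integer sequences satisfying the same "Hecke recursion" (coefficient formula
for `T_ℓ`, `ℓ ≠ p`, and `U_p`) and congruent at index `1` are congruent at every index `≥ 1`. -/
theorem rec_modEq {ι : Type*} (p : ℕ) (τ : ℕ → ι → ι) (a b : ι → ℕ → ℤ) (M : ℤ)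
    (ha : ∀ (i : ι) (ℓ : ℕ), ℓ.Prime → ∀ n : ℕ, a (τ ℓ i) n =
      if ℓ = p then a i (n * ℓ) else a i (n * ℓ) + if ℓ ∣ n then (ℓ : ℤ) * a i (n / ℓ) else 0)
    (hb : ∀ (i : ι) (ℓ : ℕ), ℓ.Prime → ∀ n : ℕ, b (τ ℓ i) n =
      if ℓ = p then b i (n * ℓ) else b i (n * ℓ) + if ℓ ∣ n then (ℓ : ℤ) * b i (n / ℓ) else 0)
    (h1 : ∀ i, a i 1 ≡ b i 1 [ZMOD M]) :
    ∀ k : ℕ, 1 ≤ k → ∀ i, a i k ≡ b i k [ZMOD M] := by
  intro k
  induction k using Nat.strong_induction_on with
  | _ k ih =>
    intro hk i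
    rcases eq_or_lt_of_le hk with rfl | hk1
    · exact h1 i
    have hℓ : k.minFac.Prime := Nat.minFac_prime (by omega)
    obtain ⟨n, hn⟩ := Nat.minFac_dvd k
    set ℓ := k.minFac with hℓdef
    have hℓ2 : 2 ≤ ℓ := hℓ.two_le
    have hn1 : 1 ≤ n := by
      rcases Nat.eq_zero_or_pos n with h0 | h0
      · rw [h0, mul_zero] at hn; omega
      · exact h0
    have hnk : n < k := by
      rw [hn]; nlinarith
    have hkn : k = n * ℓ := by rw [hn, mul_comm]
    have hA := ha i ℓ hℓ n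
    have hB := hb i ℓ hℓ n
    have ihn := ih n hnk hn1 (τ ℓ i)
    rw [hkn]
    by_cases hp : ℓ = p
    · rw [if_pos hp] at hA hB
      rw [← hA, ← hB]
      exact ihn
    · rw [if_neg hp] at hA hB
      by_cases hd : ℓ ∣ n
      · rw [if_pos hd] at hA hB
        have hnl1 : 1 ≤ n / ℓ := Nat.div_pos (Nat.le_of_dvd hn1 hd) hℓ.pos
        have hnlk : n / ℓ < k := lt_of_le_of_lt (Nat.div_le_self n ℓ) hnk
        have ih2 := ih (n / ℓ) hnlk hnl1 i
        have e1 : a i (n * ℓ) = a (τ ℓ i) n - (ℓ : ℤ) * a i (n / ℓ) := by rw [hA]; ring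
        have e2 : b i (n * ℓ) = b (τ ℓ i) n - (ℓ : ℤ) * b i (n / ℓ) := by rw [hB]; ring
        rw [e1, e2]
        exact ihn.sub (ih2.mul_left _)
      · rw [if_neg hd, add_zero] at hA hB
        rw [← hA, ← hB]
        exact ihn

/-! ### The sum of divisors prime to `p` -/

/-- Sum of the divisors of `k` that are prime to `p`. -/
def sigmaP (p k : ℕ) : ℕ := ∑ d ∈ k.divisors with ¬ p ∣ d, d

/-! ### Integer-valued q-coefficients on the lattice -/

section Lattice

variable (p : ℕ) [Fact p.Prime]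

/-- The `k`-th q-coefficient as a `ℤ`-linear functional on the integral lattice. -/
def coeffZ (k : ℕ) : ↥(CuspForm.intLattice p 2) →ₗ[ℤ] ℤ where
  toFun f := Classical.choose (intQ_of_mem_intLattice f.2 k)
  map_add' f g := by
    apply Int.cast_injective (α := ℂ)
    rw [← Classical.choose_spec (intQ_of_mem_intLattice (f + g).2 k), Int.cast_add,
      ← Classical.choose_spec (intQ_of_mem_intLattice f.2 k),
      ← Classical.choose_spec (intQ_of_mem_intLattice g.2 k)]
    rw [← qCoeffLin_apply, ← qCoeffLin_apply, ← qCoeffLin_apply, Submodule.coe_add, map_add]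
  map_smul' c f := by
    apply Int.cast_injective (α := ℂ)
    rw [← Classical.choose_spec (intQ_of_mem_intLattice (c • f).2 k), RingHom.id_apply,
      smul_eq_mul, Int.cast_mul,
      ← Classical.choose_spec (intQ_of_mem_intLattice f.2 k)]
    rw [← qCoeffLin_apply, ← qCoeffLin_apply, Submodule.coe_smul, map_zsmul, zsmul_eq_mul]

theorem coeffZ_spec (k : ℕ) (f : ↥(CuspForm.intLattice p 2)) :
    ((coeffZ p k f : ℤ) : ℂ) = qCoeff (f : CuspForm (Gamma0 p) 2) k :=
  (Classical.choose_spec (intQ_of_mem_intLattice f.2 k)).symm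

/-- The Hecke polynomial algebra acting on the integral lattice. -/
def actHom : ModularCurve.HeckeAlg →+* Module.End ℤ ↥(CuspForm.intLattice p 2) :=
  ((heckeLatticeAlgebra p ∅).val.toRingHom.comp
    ((latticeRestrictHom p ∅).toRingHom.comp (heckeEvalForms p 2)))

theorem coe_actHom (t : ModularCurve.HeckeAlg) (f : ↥(CuspForm.intLattice p 2)) :
    ((actHom p t f : ↥(CuspForm.intLattice p 2)) : CuspForm (Gamma0 p) 2) =
      ((heckeEvalForms p 2 t : heckeAlgebra p 2 ∅) :
        Module.End ℂ (CuspForm (Gamma0 p) 2)) (f : CuspForm (Gamma0 p) 2) := rfl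

theorem actHom_mul_apply (s t : ModularCurve.HeckeAlg) (f : ↥(CuspForm.intLattice p 2)) :
    actHom p (s * t) f = actHom p s (actHom p t f) := by
  rw [map_mul]; rfl

theorem actHom_one_apply (f : ↥(CuspForm.intLattice p 2)) : actHom p 1 f = f := by
  rw [map_one]; rfl

/-- q-coefficients of `X_ℓ • g` on the lattice: the `U_p` formula for `ℓ = p`, the weight-2
`T_ℓ` formula otherwise. -/
theorem coeffZ_actHom_X (ℓ : Nat.Primes) (g : ↥(CuspForm.intLattice p 2)) (n : ℕ) :
    coeffZ p n (actHom p (ModularCurve.heckeGen ℓ) g) =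
      if (ℓ : ℕ) = p then coeffZ p (n * ℓ) g
      else coeffZ p (n * ℓ) g + if (ℓ : ℕ) ∣ n then (ℓ : ℤ) * coeffZ p (n / ℓ) g else 0 := by
  apply Int.cast_injective (α := ℂ)
  rw [coeffZ_spec, coe_actHom]
  by_cases h : (ℓ : ℕ) = p
  · rw [if_pos h]
    have hd : (ℓ : ℕ) ∣ p := h ▸ dvd_rfl
    have := heckeEvalForms_heckeGen_of_dvd (N := p) (k := 2) (q := ℓ) hd
    rw [this, heckeAlgebra.coe_U, qCoeff_heckeULin ℓ.2.ne_zero hd, coeffZ_spec]
  · rw [if_neg h]
    have hd : ¬ (ℓ : ℕ) ∣ p := fun hd =>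
      h ((Nat.prime_dvd_prime_iff_eq ℓ.2 (Fact.out : p.Prime)).mp hd)
    have := heckeEvalForms_heckeGen_of_not_dvd (N := p) (k := 2) (ℓ := ℓ) hd
    rw [this, heckeAlgebra.coe_T, qCoeff_heckeTLin ℓ.2 hd, Int.cast_add, coeffZ_spec]
    congr 1
    by_cases hn : (ℓ : ℕ) ∣ n
    · rw [if_pos hn, if_pos hn, Int.cast_mul, coeffZ_spec]
      norm_num
    · rw [if_neg hn, if_neg hn, Int.cast_zero]

/-- The index shift used in `rec_modEq`: multiplication by `X_ℓ` for a prime `ℓ`. -/
def shift (ℓ : ℕ) (t : ModularCurve.HeckeAlg) : ModularCurve.HeckeAlg :=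
  if h : ℓ.Prime then ModularCurve.heckeGen ⟨ℓ, h⟩ * t else t

theorem coeffZ_actHom_shift (f : ↥(CuspForm.intLattice p 2)) (t : ModularCurve.HeckeAlg)
    (ℓ : ℕ) (hℓ : ℓ.Prime) (n : ℕ) :
    coeffZ p n (actHom p (shift ℓ t) f) =
      if ℓ = p then coeffZ p (n * ℓ) (actHom p t f)
      else coeffZ p (n * ℓ) (actHom p t f) +
        if ℓ ∣ n then (ℓ : ℤ) * coeffZ p (n / ℓ) (actHom p t f) else 0 := by
  rw [shift, dif_pos hℓ, actHom_mul_apply]
  exact coeffZ_actHom_X p ⟨ℓ, hℓ⟩ (actHom p t f) n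

/-- If all `a_1(t f)` vanish then `f = 0`. -/
theorem eq_zero_of_forall_coeffZ_one (f : ↥(CuspForm.intLattice p 2))
    (h : ∀ t : ModularCurve.HeckeAlg, coeffZ p 1 (actHom p t f) = 0) : f = 0 := by
  have key := rec_modEq p shift (fun t k => coeffZ p k (actHom p t f)) (fun _ _ => 0) 0
    (fun t ℓ hℓ n => coeffZ_actHom_shift p f t ℓ hℓ n)
    (fun _ ℓ _ n => by simp)
    (fun t => by rw [h t])
  apply Subtype.ext
  rw [Submodule.coe_zero]
  apply eq_zero_of_forall_qCoeff_eq_zero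
  intro k
  rcases Nat.eq_zero_or_pos k with rfl | hk
  · exact qCoeff_zero_eq_zero _
  · have := key k hk 1
    rw [Int.modEq_zero_iff] at this
    rw [actHom_one_apply] at this
    rw [← coeffZ_spec, this, Int.cast_zero]

/-- If all `a_1(t f)` are divisible by `a` then all q-coefficients of `f` are. -/
theorem dvd_coeffZ_of_forall (a : ℤ) (f : ↥(CuspForm.intLattice p 2))
    (h : ∀ t : ModularCurve.HeckeAlg, a ∣ coeffZ p 1 (actHom p t f)) (k : ℕ) :
    a ∣ coeffZ p k f := by
  rcases Nat.eq_zero_or_pos k with rfl | hk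
  · have : coeffZ p 0 f = 0 := by
      apply Int.cast_injective (α := ℂ)
      rw [coeffZ_spec, Int.cast_zero]
      exact qCoeff_zero_eq_zero _
    rw [this]
    exact dvd_zero a
  have key := rec_modEq p shift (fun t k => coeffZ p k (actHom p t f)) (fun _ _ => 0) a
    (fun t ℓ hℓ n => coeffZ_actHom_shift p f t ℓ hℓ n)
    (fun _ ℓ _ n => by simp)
    (fun t => (Int.modEq_zero_iff_dvd).mpr (h t))
  have := key k hk 1
  rw [actHom_one_apply] at this
  exact (Int.modEq_zero_iff_dvd).mp this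

/-- A lattice element all of whose q-coefficients are divisible by `a ≠ 0` is `a` times a lattice
element. -/
theorem exists_eq_zsmul (a : ℤ) (ha : a ≠ 0) (f : ↥(CuspForm.intLattice p 2))
    (h : ∀ k : ℕ, a ∣ coeffZ p k f) : ∃ g : ↥(CuspForm.intLattice p 2), f = a • g := by
  have hg : IntQ (((a : ℂ)⁻¹) • (f : CuspForm (Gamma0 p) 2)) := by
    intro k
    obtain ⟨z, hz⟩ := h k
    refine ⟨z, ?_⟩
    rw [← qCoeffLin_apply, map_smul, qCoeffLin_apply, ← coeffZ_spec, hz, smul_eq_mul,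
      Int.cast_mul]
    have : (a : ℂ) ≠ 0 := Int.cast_ne_zero.mpr ha
    field_simp
  refine ⟨⟨_, mem_intLattice_of_intQ hg⟩, ?_⟩
  apply Subtype.ext
  rw [Submodule.coe_smul]
  change (f : CuspForm (Gamma0 p) 2) = a • ((a : ℂ)⁻¹ • (f : CuspForm (Gamma0 p) 2))
  rw [← Int.cast_smul_eq_zsmul ℂ a, smul_smul,
    mul_inv_cancel₀ (Int.cast_ne_zero.mpr ha), one_smul]

end Lattice

/-! ### Abstract pairing lemma -/

/-- For a pairing of finite free `ℤ`-modules that is nondegenerate on both sides, every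
functional on the left factor has a nonzero multiple represented by the right factor. -/
theorem exists_smul_mem_range_flip {X Y : Type*} [AddCommGroup X] [AddCommGroup Y]
    [Module.Free ℤ X] [Module.Finite ℤ X] [Module.Free ℤ Y] [Module.Finite ℤ Y]
    (B : X →ₗ[ℤ] Y →ₗ[ℤ] ℤ) (hB : Function.Injective B) (hB' : Function.Injective B.flip)
    (lam : X →ₗ[ℤ] ℤ) : ∃ a : ℤ, a ≠ 0 ∧ a • lam ∈ LinearMap.range B.flip := by
  have h1 : Module.finrank ℤ X ≤ Module.finrank ℤ Y :=
    (LinearMap.finrank_le_finrank_of_injective hB).trans_eq (Module.finrank_linearMap_self ℤ ℤ Y)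
  have h2 : Module.finrank ℤ Y ≤ Module.finrank ℤ X :=
    (LinearMap.finrank_le_finrank_of_injective hB').trans_eq (Module.finrank_linearMap_self ℤ ℤ X)
  have h3 : Module.finrank ℤ (LinearMap.range B.flip) = Module.finrank ℤ (X →ₗ[ℤ] ℤ) := by
    rw [LinearMap.finrank_range_of_inj hB', Module.finrank_linearMap_self]
    omega
  have h4 := Submodule.finrank_quotient_add_finrank (LinearMap.range B.flip)
  have h5 : Module.finrank ℤ ((X →ₗ[ℤ] ℤ) ⧸ LinearMap.range B.flip) = 0 := by omega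
  obtain ⟨a, ha, hax⟩ := (Module.finrank_eq_zero_iff.mp h5) (Submodule.Quotient.mk lam)
  refine ⟨a, ha, ?_⟩
  rw [← Submodule.Quotient.mk_smul, Submodule.Quotient.mk_eq_zero] at hax
  exact hax

/-! ### The perfect pairing between the Hecke algebra and the lattice -/

section Duality

variable (p : ℕ) [Fact p.Prime]

/-- The evaluation map from the Hecke polynomial algebra onto the lattice Hecke algebra. -/
def phi : ModularCurve.HeckeAlg →+* ↥(heckeLatticeAlgebra p ∅) :=
  (latticeRestrictHom p ∅).toRingHom.comp (heckeEvalForms p 2)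

theorem coe_phi (t : ModularCurve.HeckeAlg) :
    ((phi p t : ↥(heckeLatticeAlgebra p ∅)) : Module.End ℤ ↥(CuspForm.intLattice p 2)) =
      actHom p t := rfl

theorem heckeEvalForms_surjective : Function.Surjective (heckeEvalForms p 2) := by
  rintro ⟨h, hh⟩
  induction hh using Algebra.adjoin_induction with
  | mem x hx =>
    rcases hx with ⟨ℓ, hℓ, hℓN, -, rfl⟩ | ⟨q, hqN, hq, -, rfl⟩
    · exact ⟨ModularCurve.heckeGen ⟨ℓ, hℓ⟩, heckeEvalForms_heckeGen_of_not_dvd (ℓ := ⟨ℓ, hℓ⟩) hℓN⟩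
    · exact ⟨ModularCurve.heckeGen ⟨q, hq⟩, heckeEvalForms_heckeGen_of_dvd (q := ⟨q, hq⟩) hqN⟩
  | algebraMap r =>
    exact ⟨MvPolynomial.C r, by rw [heckeEvalForms_C]; rfl⟩
  | add x y hx hy ihx ihy =>
    obtain ⟨s, hs⟩ := ihx
    obtain ⟨t, ht⟩ := ihy
    exact ⟨s + t, by rw [map_add, hs, ht]; rfl⟩
  | mul x y hx hy ihx ihy =>
    obtain ⟨s, hs⟩ := ihx
    obtain ⟨t, ht⟩ := ihy
    exact ⟨s * t, by rw [map_mul, hs, ht]; rfl⟩

theorem phi_surjective : Function.Surjective (phi p) :=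
  (latticeRestrictHom_surjective p ∅).comp (heckeEvalForms_surjective p)

/-- The pairing `(x, f) ↦ a_1(x f)`. -/
def pairing : ↥(heckeLatticeAlgebra p ∅) →ₗ[ℤ] ↥(CuspForm.intLattice p 2) →ₗ[ℤ] ℤ :=
  (LinearMap.llcomp ℤ ↥(CuspForm.intLattice p 2) ↥(CuspForm.intLattice p 2) ℤ (coeffZ p 1)).comp
    (heckeLatticeAlgebra p ∅).val.toLinearMap

theorem pairing_apply (x : ↥(heckeLatticeAlgebra p ∅)) (f : ↥(CuspForm.intLattice p 2)) :
    pairing p x f = coeffZ p 1 ((x : Module.End ℤ ↥(CuspForm.intLattice p 2)) f) := rfl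

theorem pairing_flip_injective : Function.Injective (pairing p).flip := by
  rw [injective_iff_map_eq_zero]
  intro f hf
  apply eq_zero_of_forall_coeffZ_one p f
  intro t
  have := congrArg (fun l => l (phi p t)) hf
  simpa [pairing_apply, coe_phi] using this

theorem pairing_injective : Function.Injective (pairing p) := by
  rw [injective_iff_map_eq_zero]
  intro x hx
  apply Subtype.ext
  rw [ZeroMemClass.coe_zero]
  apply LinearMap.ext
  intro f
  rw [LinearMap.zero_apply]
  apply eq_zero_of_forall_coeffZ_one p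
  intro t
  have hcomm : (phi p t * x : ↥(heckeLatticeAlgebra p ∅)) = x * phi p t := mul_comm _ _
  have h2 : actHom p t ((x : Module.End ℤ ↥(CuspForm.intLattice p 2)) f) =
      (x : Module.End ℤ ↥(CuspForm.intLattice p 2)) (actHom p t f) := by
    have := congrArg (fun y : ↥(heckeLatticeAlgebra p ∅) =>
      (y : Module.End ℤ ↥(CuspForm.intLattice p 2)) f) hcomm
    exact this
  rw [h2]
  have := congrArg (fun l => l (actHom p t f)) hx
  simpa [pairing_apply] using this

/-- Hecke duality: every `ℤ`-linear functional on the lattice Hecke algebra is `x ↦ a_1(x f)` for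
a lattice element `f`. -/
theorem exists_lattice_of_functional (lam : ↥(heckeLatticeAlgebra p ∅) →ₗ[ℤ] ℤ) :
    ∃ f : ↥(CuspForm.intLattice p 2), ∀ x : ↥(heckeLatticeAlgebra p ∅),
      coeffZ p 1 ((x : Module.End ℤ ↥(CuspForm.intLattice p 2)) f) = lam x := by
  have := intLattice.moduleFinite p
  have := intLattice.moduleFree p
  obtain ⟨a, ha, ⟨f, hf⟩⟩ := exists_smul_mem_range_flip (pairing p) (pairing_injective p)
    (pairing_flip_injective p) lam
  have hdiv : ∀ t, a ∣ coeffZ p 1 (actHom p t f) := by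
    intro t
    refine ⟨lam (phi p t), ?_⟩
    have := congrArg (fun l => l (phi p t)) hf
    simpa [pairing_apply, coe_phi] using this
  obtain ⟨g, hg⟩ := exists_eq_zsmul p a ha f (dvd_coeffZ_of_forall p a f hdiv)
  refine ⟨g, fun x => ?_⟩
  have h3 : a • ((pairing p).flip g) = a • lam := by
    rw [← hf, hg]
    exact ((pairing p).flip.map_smul a g).symm
  have h5 : a * (pairing p).flip g x = a * lam x := by
    have := congrArg (fun l => l x) h3
    simpa using this
  have h6 := mul_left_cancel₀ ha h5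
  rw [LinearMap.flip_apply, pairing_apply] at h6
  exact h6

end Duality

/-! ### Eisenstein sequences and Eisenstein congruences -/

/-- A sequence satisfying the Hecke relations of the Eisenstein eigensystem of level `p`
(`T_ℓ ↦ 1 + ℓ` for `ℓ ≠ p`, `U_p ↦ 1`), normalised by `s 1 = 1`. -/
structure IsEisSeq (p : ℕ) (s : ℕ → ℤ) : Prop where
  one : s 1 = 1
  mul_p : ∀ n : ℕ, s (n * p) = s n
  mul_prime : ∀ ℓ : ℕ, ℓ.Prime → ℓ ≠ p → ∀ n : ℕ,
    s (n * ℓ) + (if ℓ ∣ n then (ℓ : ℤ) * s (n / ℓ) else 0) = (1 + (ℓ : ℤ)) * s n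

/-- Eisenstein congruence modulo `M` for the sequence `s`: a weight-2 cusp form on `Γ₀(p)` with
integer q-expansion congruent to `∑ s(k) q^k` modulo `M`. -/
def EisCongFor (s : ℕ → ℤ) (p M : ℕ) : Prop :=
  ∃ f : CuspForm (Gamma0 p) 2, (∀ k : ℕ, ∃ z : ℤ, qCoeff f k = (z : ℂ)) ∧
    ∀ k : ℕ, 1 ≤ k → ∃ z : ℤ, qCoeff f k = (s k : ℂ) + (M : ℂ) * (z : ℂ)

section Eisenstein

variable (p : ℕ) [Fact p.Prime]

/-- The Eisenstein character of the Hecke polynomial algebra. -/
def eps : ModularCurve.HeckeAlg →+* ℤ :=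
  (MvPolynomial.aeval (R := ℤ) (eisensteinSystem p)).toRingHom

theorem mem_eisensteinIdeal_iff (t : ModularCurve.HeckeAlg) :
    t ∈ eisensteinIdeal p ↔ eps p t = 0 := Iff.rfl

theorem eps_X (ℓ : Nat.Primes) :
    eps p (ModularCurve.heckeGen ℓ) = if (ℓ : ℕ) ∣ p then 1 else 1 + ((ℓ : ℕ) : ℤ) := by
  change MvPolynomial.aeval (R := ℤ) (eisensteinSystem p) (ModularCurve.heckeGen ℓ) = _
  rw [ModularCurve.aeval_heckeGen]
  rfl

theorem eps_shift (s : ℕ → ℤ) (hs : IsEisSeq p s) (t : ModularCurve.HeckeAlg) (ℓ : ℕ)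
    (hℓ : ℓ.Prime) (n : ℕ) :
    eps p (shift ℓ t) * s n =
      if ℓ = p then eps p t * s (n * ℓ)
      else eps p t * s (n * ℓ) + if ℓ ∣ n then (ℓ : ℤ) * (eps p t * s (n / ℓ)) else 0 := by
  rw [shift, dif_pos hℓ, map_mul, eps_X p ⟨ℓ, hℓ⟩]
  change (if ℓ ∣ p then (1 : ℤ) else 1 + (ℓ : ℤ)) * eps p t * s n = _
  by_cases h : ℓ = p
  · subst h
    rw [if_pos rfl, if_pos (dvd_refl _), one_mul, hs.mul_p]
  · have hd : ¬ ℓ ∣ p := fun hd =>
      h ((Nat.prime_dvd_prime_iff_eq hℓ (Fact.out : p.Prime)).mp hd)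
    rw [if_neg h, if_neg hd]
    have := hs.mul_prime ℓ hℓ h n
    by_cases hn : ℓ ∣ n
    · rw [if_pos hn] at this ⊢
      linear_combination (-(eps p t)) * this
    · rw [if_neg hn] at this ⊢
      linear_combination (-(eps p t)) * this

/-- From the congruence of the functional `t ↦ a_1(t f)` with the Eisenstein character to the
congruence of all q-coefficients with the Eisenstein sequence. -/
theorem coeffZ_modEq_of_forall (s : ℕ → ℤ) (hs : IsEisSeq p s) (M : ℤ)
    (f : ↥(CuspForm.intLattice p 2))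
    (h : ∀ t : ModularCurve.HeckeAlg, coeffZ p 1 (actHom p t f) ≡ eps p t [ZMOD M]) :
    ∀ k : ℕ, 1 ≤ k → coeffZ p k f ≡ s k [ZMOD M] := by
  intro k hk
  have key := rec_modEq p shift (fun t k => coeffZ p k (actHom p t f))
    (fun t k => eps p t * s k) M
    (fun t ℓ hℓ n => coeffZ_actHom_shift p f t ℓ hℓ n)
    (fun t ℓ hℓ n => eps_shift p s hs t ℓ hℓ n)
    (fun t => by rw [hs.one, mul_one]; exact h t)
  have := key k hk 1
  rw [actHom_one_apply, map_one, one_mul] at this
  exact this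

/-- Conversely: a lattice element congruent to the Eisenstein sequence makes the functional
`t ↦ a_k(t f)` congruent to the Eisenstein character times the sequence. -/
theorem coeffZ_actHom_modEq (s : ℕ → ℤ) (hs : IsEisSeq p s) (M : ℤ)
    (f : ↥(CuspForm.intLattice p 2))
    (h : ∀ k : ℕ, 1 ≤ k → coeffZ p k f ≡ s k [ZMOD M]) (t : ModularCurve.HeckeAlg) :
    ∀ k : ℕ, 1 ≤ k → coeffZ p k (actHom p t f) ≡ eps p t * s k [ZMOD M] := by
  induction t using MvPolynomial.induction_on with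
  | C z =>
    intro k hk
    have h1 : actHom p (MvPolynomial.C z) f = z • f := by
      have : (MvPolynomial.C z : ModularCurve.HeckeAlg) = ((z : ℤ) : ModularCurve.HeckeAlg) :=
        (eq_intCast (MvPolynomial.C (σ := Nat.Primes) (R := ℤ)) z)
      rw [this, map_intCast]
      rfl
    have h2 : eps p (MvPolynomial.C z) = z := by
      change MvPolynomial.aeval (R := ℤ) (eisensteinSystem p) (MvPolynomial.C z) = z
      rw [MvPolynomial.aeval_C]
      rfl
    rw [h1, h2, map_zsmul, smul_eq_mul]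
    exact (h k hk).mul_left z
  | add s' t' hs' ht' =>
    intro k hk
    rw [map_add, LinearMap.add_apply, map_add, map_add, add_mul]
    exact (hs' k hk).add (ht' k hk)
  | mul_X t' ℓ ih =>
    intro k hk
    have h1 : t' * MvPolynomial.X ℓ = shift (ℓ : ℕ) t' := by
      rw [shift, dif_pos ℓ.2, mul_comm]
      rfl
    rw [h1, coeffZ_actHom_shift p f t' ℓ ℓ.2 k, eps_shift p s hs t' ℓ ℓ.2 k]
    have hkℓ : 1 ≤ k * (ℓ : ℕ) := Nat.mul_pos hk ℓ.2.pos
    by_cases hp : (ℓ : ℕ) = p
    · rw [if_pos hp, if_pos hp]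
      exact ih _ hkℓ
    · rw [if_neg hp, if_neg hp]
      by_cases hd : (ℓ : ℕ) ∣ k
      · rw [if_pos hd, if_pos hd]
        have hk2 : 1 ≤ k / (ℓ : ℕ) := Nat.div_pos (Nat.le_of_dvd hk hd) ℓ.2.pos
        exact (ih _ hkℓ).add ((ih _ hk2).mul_left _)
      · rw [if_neg hd, if_neg hd, add_zero, add_zero]
        exact ih _ hkℓ

end Eisenstein


/-! ### Abstract index computation -/

section Abstract

variable {A R : Type*} [CommRing A] [CommRing R]

/-- If `ε (ker φ) ⊆ Mℤ`, the character `ε` descends along `φ` to an additive map to `ZMod M`. -/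
theorem abstract_hom (φ : A →+* R) (hφ : Function.Surjective φ) (ε : A →+* ℤ) (M : ℕ)
    (hle : ∀ a : A, φ a = 0 → (M : ℤ) ∣ ε a) :
    ∃ ψ : R → ZMod M, (∀ x y, ψ (x + y) = ψ x + ψ y) ∧
      ∀ a, ψ (φ a) = ((ε a : ℤ) : ZMod M) := by
  have hwd : ∀ a b : A, φ a = φ b → ((ε a : ℤ) : ZMod M) = ((ε b : ℤ) : ZMod M) := by
    intro a b hab
    rw [ZMod.intCast_eq_intCast_iff, Int.modEq_iff_dvd]
    have := hle (b - a) (by rw [map_sub, hab, sub_self])
    rwa [map_sub] at this
  refine ⟨fun x => ((ε (Classical.choose (hφ x)) : ℤ) : ZMod M), ?_, ?_⟩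
  · intro x y
    have hx := Classical.choose_spec (hφ x)
    have hy := Classical.choose_spec (hφ y)
    have hxy := Classical.choose_spec (hφ (x + y))
    have := hwd (Classical.choose (hφ (x + y)))
      (Classical.choose (hφ x) + Classical.choose (hφ y)) (by rw [hxy, map_add, hx, hy])
    change ((ε (Classical.choose (hφ (x + y))) : ℤ) : ZMod M) = _
    rw [this, map_add, Int.cast_add]
  · intro a
    exact hwd _ _ (Classical.choose_spec (hφ (φ a)))

/-- If `ε (ker φ) = nℤ`, the quotient of `R` by the image of `ker ε` has `n` elements. -/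
theorem abstract_card (φ : A →+* R) (hφ : Function.Surjective φ) (ε : A →+* ℤ) (n : ℕ)
    (h1 : ∀ a : A, φ a = 0 → (n : ℤ) ∣ ε a) (h2 : ∃ a : A, φ a = 0 ∧ ε a = n) :
    Nat.card (R ⧸ Ideal.map φ (RingHom.ker ε)) = n := by
  set I := Ideal.map φ (RingHom.ker ε) with hI
  have hmk : ∀ a : A, Ideal.Quotient.mk I (φ a) = ((ε a : ℤ) : R ⧸ I) := by
    intro a
    have hmem : a - ((ε a : ℤ) : A) ∈ RingHom.ker ε := by
      rw [RingHom.mem_ker, map_sub, map_intCast, Int.cast_id, sub_self]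
    have h3 : φ (a - ((ε a : ℤ) : A)) ∈ I := Ideal.mem_map_of_mem φ hmem
    rw [map_sub, map_intCast] at h3
    rw [(Ideal.Quotient.eq (I := I)).mpr h3, map_intCast]
  have hS : Function.Surjective (Int.castRingHom (R ⧸ I)) := by
    intro y
    obtain ⟨x, rfl⟩ := Ideal.Quotient.mk_surjective y
    obtain ⟨a, rfl⟩ := hφ x
    exact ⟨ε a, by rw [hmk]; rfl⟩
  have hker : RingHom.ker (Int.castRingHom (R ⧸ I)) = Ideal.span {(n : ℤ)} := by
    ext z
    rw [RingHom.mem_ker, Ideal.mem_span_singleton]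
    constructor
    · intro hz
      have hz1 : ((z : ℤ) : R) ∈ I := by
        rw [← Ideal.Quotient.eq_zero_iff_mem, map_intCast]
        exact hz
      obtain ⟨s, hs, hsz⟩ := (Ideal.mem_map_iff_of_surjective φ hφ).mp hz1
      have := h1 (((z : ℤ) : A) - s) (by rw [map_sub, map_intCast, hsz, sub_self])
      rw [map_sub, map_intCast, Int.cast_id, RingHom.mem_ker.mp hs, sub_zero] at this
      exact this
    · rintro ⟨c, rfl⟩
      obtain ⟨a, ha0, han⟩ := h2
      have h4 : (Int.castRingHom (R ⧸ I)) (n : ℤ) = 0 := by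
        have := hmk a
        rw [ha0, map_zero, han] at this
        exact this.symm
      rw [map_mul, h4, zero_mul]
  have e1 := RingHom.quotientKerEquivOfSurjective hS
  rw [← Nat.card_congr e1.toEquiv, Nat.card_congr (Ideal.quotEquivOfEq hker).toEquiv,
    Nat.card_congr (Int.quotientSpanNatEquivZMod n).toEquiv, Nat.card_zmod]

end Abstract

/-! ### The index of the Eisenstein ideal -/

section Main

variable (p : ℕ) [Fact p.Prime]

theorem eps_intCast (z : ℤ) : eps p ((z : ℤ) : ModularCurve.HeckeAlg) = z := by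
  rw [map_intCast, Int.cast_id]

theorem eisensteinIdeal_eq_ker : eisensteinIdeal p = RingHom.ker (eps p) := rfl

/-- If `eps (ker phi) ⊆ Mℤ`, there is an Eisenstein congruence modulo `M`. -/
theorem eisCongFor_of_ker_le (s : ℕ → ℤ) (hs : IsEisSeq p s) (M : ℕ)
    (hle : ∀ t : ModularCurve.HeckeAlg, phi p t = 0 → (M : ℤ) ∣ eps p t) :
    EisCongFor s p M := by
  obtain ⟨ψ, hadd, hψ⟩ := abstract_hom (phi p) (phi_surjective p) (eps p) M hle
  let ψl : ↥(heckeLatticeAlgebra p ∅) →ₗ[ℤ] ZMod M := (AddMonoidHom.mk' ψ hadd).toIntLinearMap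
  obtain ⟨lam, hlam⟩ := Module.projective_lifting_property
    (Int.castAddHom (ZMod M)).toIntLinearMap ψl (ZMod.intCast_surjective)
  obtain ⟨f, hf⟩ := exists_lattice_of_functional p lam
  have h1 : ∀ t, coeffZ p 1 (actHom p t f) ≡ eps p t [ZMOD (M : ℤ)] := by
    intro t
    rw [← ZMod.intCast_eq_intCast_iff, ← hψ t]
    have h2 := hf (phi p t)
    rw [coe_phi] at h2
    rw [h2]
    exact LinearMap.congr_fun hlam (phi p t)
  have h2 := coeffZ_modEq_of_forall p s hs M f h1
  refine ⟨(f : CuspForm (Gamma0 p) 2), fun k => ⟨coeffZ p k f, (coeffZ_spec p k f).symm⟩,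
    fun k hk => ?_⟩
  obtain ⟨c, hc⟩ := Int.modEq_iff_dvd.mp (h2 k hk)
  refine ⟨-c, ?_⟩
  rw [← coeffZ_spec]
  have h3 : coeffZ p k f = s k + (M : ℤ) * (-c) := by linarith
  rw [h3]
  push_cast
  ring

/-- **Duality reduction of S16**, for an arbitrary Eisenstein sequence `s`: the frozen index
statement follows from a lower bound (`hLB`: Hecke polynomials killing the lattice have
Eisenstein value divisible by `n`) and an upper bound (`hUB`: every modulus of an Eisenstein
congruence divides `n`). -/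
theorem card_quotient_eq_of_seq (s : ℕ → ℤ) (hs : IsEisSeq p s) (n : ℕ) (hn : 0 < n)
    (hLB : ∀ t : ModularCurve.HeckeAlg,
      latticeRestrictHom p ∅ (heckeEvalForms p 2 t) = 0 →
        (n : ℤ) ∣ MvPolynomial.aeval (eisensteinSystem p) t)
    (hUB : ∀ M : ℕ, 0 < M → EisCongFor s p M → M ∣ n) :
    Nat.card (↥(heckeLatticeAlgebra p ∅) ⧸
        Ideal.map ((latticeRestrictHom p ∅).toRingHom.comp (heckeEvalForms p 2))
          (eisensteinIdeal p)) = n := by
  have hLB' : ∀ t : ModularCurve.HeckeAlg, phi p t = 0 → (n : ℤ) ∣ eps p t := hLB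
  have h2 : ∃ a : ModularCurve.HeckeAlg, phi p a = 0 ∧ eps p a = n := by
    have hεs : Function.Surjective (eps p) := fun z => ⟨(z : ModularCurve.HeckeAlg), eps_intCast p z⟩
    have hK : ∀ z : ℤ, z ∈ Ideal.map (eps p) (RingHom.ker (phi p)) ↔
        ∃ a : ModularCurve.HeckeAlg, phi p a = 0 ∧ eps p a = z := by
      intro z
      rw [Ideal.mem_map_iff_of_surjective (eps p) hεs]
      constructor
      · rintro ⟨a, ha, rfl⟩
        exact ⟨a, RingHom.mem_ker.mp ha, rfl⟩
      · rintro ⟨a, ha, rfl⟩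
        exact ⟨a, RingHom.mem_ker.mpr ha, rfl⟩
    obtain ⟨g, hg⟩ : ∃ g : ℤ, Ideal.map (eps p) (RingHom.ker (phi p)) = Ideal.span {g} :=
      ⟨_, (Ideal.span_singleton_generator _).symm⟩
    have hKg : ∀ t : ModularCurve.HeckeAlg, phi p t = 0 → g ∣ eps p t := by
      intro t ht
      have h3 : eps p t ∈ Ideal.map (eps p) (RingHom.ker (phi p)) := (hK _).mpr ⟨t, ht, rfl⟩
      rwa [hg, Ideal.mem_span_singleton] at h3
    by_cases hg0 : g = 0
    · exfalso
      have hle : ∀ t : ModularCurve.HeckeAlg, phi p t = 0 → ((n + 1 : ℕ) : ℤ) ∣ eps p t := by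
        intro t ht
        have h3 := hKg t ht
        rw [hg0, zero_dvd_iff] at h3
        rw [h3]
        exact dvd_zero _
      have h3 := hUB (n + 1) (Nat.succ_pos n) (eisCongFor_of_ker_le p s hs (n + 1) hle)
      have h4 := Nat.le_of_dvd hn h3
      omega
    · have hm : 0 < g.natAbs := Int.natAbs_pos.mpr hg0
      have hle : ∀ t : ModularCurve.HeckeAlg, phi p t = 0 → ((g.natAbs : ℕ) : ℤ) ∣ eps p t :=
        fun t ht => Int.natAbs_dvd.mpr (hKg t ht)
      have hdvd := hUB g.natAbs hm (eisCongFor_of_ker_le p s hs g.natAbs hle)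
      have h3 : (n : ℤ) ∈ Ideal.map (eps p) (RingHom.ker (phi p)) := by
        rw [hg, Ideal.mem_span_singleton]
        exact Int.natAbs_dvd.mp (Int.natCast_dvd_natCast.mpr hdvd)
      exact (hK _).mp h3
  exact abstract_card (phi p) (phi_surjective p) (eps p) n hLB' h2

/-- An Eisenstein congruence modulo `n` gives the lower-bound hypothesis of
`card_quotient_eq_of_seq`. -/
theorem lb_of_eisCongFor (s : ℕ → ℤ) (hs : IsEisSeq p s) (n : ℕ) (h : EisCongFor s p n)
    (t : ModularCurve.HeckeAlg)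
    (ht : latticeRestrictHom p ∅ (heckeEvalForms p 2 t) = 0) :
    (n : ℤ) ∣ MvPolynomial.aeval (eisensteinSystem p) t := by
  obtain ⟨f0, hint, hcong⟩ := h
  let f : ↥(CuspForm.intLattice p 2) := ⟨f0, mem_intLattice_of_intQ hint⟩
  have hf : ∀ k : ℕ, 1 ≤ k → coeffZ p k f ≡ s k [ZMOD (n : ℤ)] := by
    intro k hk
    obtain ⟨z, hz⟩ := hcong k hk
    have h1 : coeffZ p k f = s k + (n : ℤ) * z := by
      apply Int.cast_injective (α := ℂ)
      rw [coeffZ_spec]
      push_cast
      exact hz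
    rw [h1]
    exact Int.modEq_iff_dvd.mpr ⟨-z, by ring⟩
  have key := coeffZ_actHom_modEq p s hs n f hf t 1 le_rfl
  have h0 : actHom p t f = 0 := by
    have h1 : phi p t = 0 := ht
    rw [← coe_phi, h1]
    rfl
  rw [h0, map_zero, hs.one, mul_one] at key
  exact Int.modEq_zero_iff_dvd.mp key.symm

end Main

/-! ### The concrete Eisenstein sequence `sigmaP` -/

section SigmaP

open ArithmeticFunction

/-- The completely multiplicative function `d ↦ d` for `p ∤ d`, and `0` for `p ∣ d`. -/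
def primeToP (p : ℕ) : ArithmeticFunction ℕ := ⟨fun d => if p ∣ d then 0 else d, by simp⟩

theorem primeToP_apply (p d : ℕ) : primeToP p d = if p ∣ d then 0 else d := rfl

theorem primeToP_mul_zeta_apply (p k : ℕ) :
    (primeToP p * (zeta : ArithmeticFunction ℕ)) k = ∑ i ∈ k.divisors, primeToP p i := by
  have h := coe_mul_zeta_apply (f := primeToP p) (x := k)
  rwa [natCoe_nat] at h

theorem sigmaP_eq (p k : ℕ) : sigmaP p k = (primeToP p * (zeta : ArithmeticFunction ℕ)) k := by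
  rw [primeToP_mul_zeta_apply, sigmaP, Finset.sum_filter]
  apply Finset.sum_congr rfl
  intro d _
  rw [primeToP_apply, ite_not]

theorem isMultiplicative_primeToP {p : ℕ} (hp : p.Prime) : IsMultiplicative (primeToP p) := by
  refine ⟨?_, ?_⟩
  · rw [primeToP_apply, if_neg]
    exact fun h => hp.one_lt.ne' (Nat.dvd_one.mp h)
  · intro m n _
    rw [primeToP_apply, primeToP_apply, primeToP_apply]
    by_cases hm : p ∣ m
    · rw [if_pos (dvd_mul_of_dvd_left hm n), if_pos hm, zero_mul]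
    · by_cases hn : p ∣ n
      · rw [if_pos (dvd_mul_of_dvd_right hn m), if_pos hn, mul_zero]
      · rw [if_neg hm, if_neg hn, if_neg]
        exact fun h => (hp.dvd_mul.mp h).elim hm hn

theorem isMultiplicative_sigmaPFun {p : ℕ} (hp : p.Prime) :
    IsMultiplicative (primeToP p * (zeta : ArithmeticFunction ℕ)) :=
  (isMultiplicative_primeToP hp).mul isMultiplicative_zeta

theorem sigmaP_prime_pow {p ℓ : ℕ} (hp : p.Prime) (hℓ : ℓ.Prime) (hne : ℓ ≠ p) (j : ℕ) :
    sigmaP p (ℓ ^ j) = ∑ i ∈ Finset.range (j + 1), ℓ ^ i := by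
  rw [sigmaP_eq, primeToP_mul_zeta_apply, Nat.divisors_prime_pow hℓ, Finset.sum_map]
  apply Finset.sum_congr rfl
  intro i _
  rw [Function.Embedding.coeFn_mk, primeToP_apply, if_neg]
  intro h
  exact hne ((Nat.prime_dvd_prime_iff_eq hp hℓ).mp (hp.dvd_of_dvd_pow h)).symm

theorem sigmaP_self_pow {p : ℕ} (hp : p.Prime) (j : ℕ) : sigmaP p (p ^ j) = 1 := by
  rw [sigmaP_eq, primeToP_mul_zeta_apply, Nat.divisors_prime_pow hp, Finset.sum_map]
  rw [Finset.sum_eq_single 0]
  · rw [Function.Embedding.coeFn_mk, pow_zero, primeToP_apply, if_neg]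
    exact fun h => hp.one_lt.ne' (Nat.dvd_one.mp h)
  · intro i _ hi
    rw [Function.Embedding.coeFn_mk, primeToP_apply, if_pos (dvd_pow_self p hi)]
  · intro h
    exact absurd (Finset.mem_range.mpr (Nat.succ_pos j)) h

theorem sigmaP_zero (p : ℕ) : sigmaP p 0 = 0 := by
  rw [sigmaP, Nat.divisors_zero, Finset.filter_empty, Finset.sum_empty]

theorem sigmaP_one {p : ℕ} (hp : p.Prime) : sigmaP p 1 = 1 := by
  have := sigmaP_self_pow hp 0
  rwa [pow_zero] at this

theorem sigmaP_mul_coprime {p : ℕ} (hp : p.Prime) {m n : ℕ} (h : m.Coprime n) :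
    sigmaP p (m * n) = sigmaP p m * sigmaP p n := by
  rw [sigmaP_eq, sigmaP_eq, sigmaP_eq]
  exact (isMultiplicative_sigmaPFun hp).map_mul_of_coprime h

theorem sigmaP_mul_self {p : ℕ} (hp : p.Prime) (n : ℕ) : sigmaP p (n * p) = sigmaP p n := by
  rcases Nat.eq_zero_or_pos n with rfl | hn
  · rw [zero_mul]
  obtain ⟨e, m, hm, rfl⟩ := Nat.exists_eq_pow_mul_and_not_dvd hn.ne' p hp.ne_one
  have hcop : ∀ j : ℕ, (p ^ j).Coprime m := fun j =>
    Nat.Coprime.pow_left j ((Nat.Prime.coprime_iff_not_dvd hp).mpr hm)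
  have h1 : p ^ e * m * p = p ^ (e + 1) * m := by ring
  rw [h1, sigmaP_mul_coprime hp (hcop _), sigmaP_mul_coprime hp (hcop _), sigmaP_self_pow hp,
    sigmaP_self_pow hp]

theorem geom_succ (ℓ j : ℕ) :
    ∑ i ∈ Finset.range (j + 2), ℓ ^ i = 1 + ℓ * ∑ i ∈ Finset.range (j + 1), ℓ ^ i := by
  rw [Finset.sum_range_succ', Finset.mul_sum, pow_zero, add_comm]
  congr 1
  apply Finset.sum_congr rfl
  intro i _
  rw [pow_succ, mul_comm]

theorem sigmaP_mul_prime {p ℓ : ℕ} (hp : p.Prime) (hℓ : ℓ.Prime) (hne : ℓ ≠ p) (n : ℕ) :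
    sigmaP p (n * ℓ) + (if ℓ ∣ n then ℓ * sigmaP p (n / ℓ) else 0) = (1 + ℓ) * sigmaP p n := by
  rcases Nat.eq_zero_or_pos n with rfl | hn
  · simp [sigmaP_zero]
  obtain ⟨e, m, hm, rfl⟩ := Nat.exists_eq_pow_mul_and_not_dvd hn.ne' ℓ hℓ.ne_one
  have hcop : ∀ j : ℕ, (ℓ ^ j).Coprime m := fun j =>
    Nat.Coprime.pow_left j ((Nat.Prime.coprime_iff_not_dvd hℓ).mpr hm)
  have h1 : ℓ ^ e * m * ℓ = ℓ ^ (e + 1) * m := by ring
  rw [h1, sigmaP_mul_coprime hp (hcop _), sigmaP_mul_coprime hp (hcop _),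
    sigmaP_prime_pow hp hℓ hne, sigmaP_prime_pow hp hℓ hne]
  rcases Nat.eq_zero_or_pos e with rfl | he
  · have hnd : ¬ ℓ ∣ ℓ ^ 0 * m := by rwa [pow_zero, one_mul]
    rw [if_neg hnd]
    simp [Finset.sum_range_succ]
  · obtain ⟨e', rfl⟩ : ∃ e', e = e' + 1 := ⟨e - 1, by omega⟩
    have hd : ℓ ∣ ℓ ^ (e' + 1) * m := dvd_mul_of_dvd_left (dvd_pow_self ℓ (Nat.succ_ne_zero e')) m
    have hdiv : ℓ ^ (e' + 1) * m / ℓ = ℓ ^ e' * m := by
      rw [pow_succ, mul_assoc, mul_comm ℓ m, ← mul_assoc, Nat.mul_div_cancel _ hℓ.pos]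
    rw [if_pos hd, hdiv, sigmaP_mul_coprime hp (hcop _), sigmaP_prime_pow hp hℓ hne,
      geom_succ ℓ (e' + 1), geom_succ ℓ e']
    ring

/-- `sigmaP p` is an Eisenstein sequence of level `p`. -/
theorem isEisSeq_sigmaP {p : ℕ} (hp : p.Prime) : IsEisSeq p (fun k => (sigmaP p k : ℤ)) where
  one := by
    rw [sigmaP_one hp, Nat.cast_one]
  mul_p n := by
    rw [sigmaP_mul_self hp]
  mul_prime ℓ hℓ hne n := by
    have := sigmaP_mul_prime hp hℓ hne n
    by_cases hd : ℓ ∣ n
    · rw [if_pos hd] at this ⊢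
      exact_mod_cast this
    · rw [if_neg hd] at this ⊢
      exact_mod_cast this

end SigmaP

/-! ### Final form with the concrete sequence -/

/-- Eisenstein congruence modulo `M`: a weight-2 cusp form on `Γ₀(p)` with integer q-expansion
congruent to `∑ σ'(k) q^k` modulo `M`, where `σ'(k)` is the sum of the divisors of `k` prime to
`p`. -/
def EisCong (p M : ℕ) : Prop := EisCongFor (fun k => (sigmaP p k : ℤ)) p M

theorem eisCong_iff (p M : ℕ) : EisCong p M ↔
    ∃ f : CuspForm (Gamma0 p) 2, (∀ k : ℕ, ∃ z : ℤ, qCoeff f k = (z : ℂ)) ∧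
      ∀ k : ℕ, 1 ≤ k → ∃ z : ℤ, qCoeff f k = (sigmaP p k : ℂ) + (M : ℂ) * (z : ℂ) := by
  unfold EisCong EisCongFor
  simp only [Int.cast_natCast]

/-- **Duality reduction of S16** (concrete form). -/
theorem card_quotient_eq (p : ℕ) [Fact p.Prime] (n : ℕ) (hn : 0 < n)
    (hLB : ∀ t : ModularCurve.HeckeAlg,
      latticeRestrictHom p ∅ (heckeEvalForms p 2 t) = 0 →
        (n : ℤ) ∣ MvPolynomial.aeval (eisensteinSystem p) t)
    (hUB : ∀ M : ℕ, 0 < M → EisCong p M → M ∣ n) :
    Nat.card (↥(heckeLatticeAlgebra p ∅) ⧸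
        Ideal.map ((latticeRestrictHom p ∅).toRingHom.comp (heckeEvalForms p 2))
          (eisensteinIdeal p)) = n :=
  card_quotient_eq_of_seq p _ (isEisSeq_sigmaP Fact.out) n hn hLB hUB

/-- An Eisenstein congruence modulo `n` gives the lower bound hypothesis of
`card_quotient_eq`. -/
theorem lb_of_eisCong (p : ℕ) [Fact p.Prime] (n : ℕ) (h : EisCong p n)
    (t : ModularCurve.HeckeAlg)
    (ht : latticeRestrictHom p ∅ (heckeEvalForms p 2 t) = 0) :
    (n : ℤ) ∣ MvPolynomial.aeval (eisensteinSystem p) t :=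
  lb_of_eisCongFor p _ (isEisSeq_sigmaP Fact.out) n h t ht

/-- Variant: both bounds in terms of Eisenstein congruences. -/
theorem card_quotient_eq_of_eisCong (p : ℕ) [Fact p.Prime] (n : ℕ) (hn : 0 < n)
    (hLB : EisCong p n) (hUB : ∀ M : ℕ, 0 < M → EisCong p M → M ∣ n) :
    Nat.card (↥(heckeLatticeAlgebra p ∅) ⧸
        Ideal.map ((latticeRestrictHom p ∅).toRingHom.comp (heckeEvalForms p 2))
          (eisensteinIdeal p)) = n :=
  card_quotient_eq p n hn (lb_of_eisCong p n hLB) hUB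

end

end Fermat.Agent.S16.helper1519
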