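/-
S16, leaf A1 (helper1566): the ONE-TRACE bound.

For a prime `p ≥ 5` and `G ∈ M_2(Γ₀(p))` whose `q`-expansion coefficients `a_n(G)`, `n ≥ 1`,
are integers, `(p + 1) * a_0(G)` is an integer.

Mathematics: with `E = (p-1)/24 + ∑ σ'(n) q^n` (the weight 2 Eisenstein series of level `p`,
`σ'(n)` the sum of the divisors of `n` prime to `p`), the trace of `G * E` to level one is a
weight 4 form of level one, hence a multiple of `E₄ = 1 + 240 ∑ σ₃(n) q^n`.  In `q`-expansions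
the trace of a product of two weight 2 forms `G`, `H` on `Γ₀(p)` is
`A * B + p⁻¹ • U_p (U_p A * U_p B)` (`A`, `B` the expansions; this is `G|W_p = -U_p G`).
Comparing coefficients gives, for every `n ≥ 1`,
`(p+1) a_0 (σ'(n) - 10 (p-1) σ₃(n)) ∈ ℤ`, and the three integers
`σ'(n) - 10 (p-1) σ₃(n)`, `n = 1, 2, p`, are coprime.

The file is hypothesis-passing: the three modular inputs are the `Prop`s `TraceFour p`,
`UpInvol p`, `EisExists p` below; `onetrace_core` is the pure power-series statement.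
-/
import Mathlib

set_option autoImplicit false

open scoped MatrixGroups ArithmeticFunction.sigma
open UpperHalfPlane ModularFormClass ModularForm EisensteinSeries CongruenceSubgroup

namespace Fermat.Agent.S16.helper1566

noncomputable section

/-- The sum of the divisors of `k` that are prime to `p`. -/
def sigmaP (p k : ℕ) : ℕ := ∑ d ∈ k.divisors with ¬ p ∣ d, d

/-- The operator `U_p` on power series: `a_n ↦ a_{pn}`. -/
def Up (p : ℕ) (A : PowerSeries ℂ) : PowerSeries ℂ :=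
  PowerSeries.mk fun n => PowerSeries.coeff (p * n) A

@[simp] lemma coeff_Up (p n : ℕ) (A : PowerSeries ℂ) :
    PowerSeries.coeff n (Up p A) = PowerSeries.coeff (p * n) A := by
  simp [Up]

@[simp] lemma constantCoeff_Up (p : ℕ) (A : PowerSeries ℂ) :
    PowerSeries.constantCoeff (Up p A) = PowerSeries.constantCoeff A := by
  rw [← PowerSeries.coeff_zero_eq_constantCoeff_apply, coeff_Up, mul_zero,
    PowerSeries.coeff_zero_eq_constantCoeff_apply]

/-- The subring of integers inside `ℂ`. -/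
abbrev ZZ : Subring ℂ := (Int.castRingHom ℂ).range

lemma mem_ZZ_iff (x : ℂ) : x ∈ ZZ ↔ ∃ z : ℤ, x = z := by
  constructor
  · rintro ⟨z, rfl⟩
    exact ⟨z, rfl⟩
  · rintro ⟨z, rfl⟩
    exact ⟨z, rfl⟩

lemma intCast_mem_ZZ (z : ℤ) : (z : ℂ) ∈ ZZ := ⟨z, rfl⟩

lemma natCast_mem_ZZ (n : ℕ) : (n : ℂ) ∈ ZZ := ⟨n, by simp⟩

/-- Coefficient `n ≥ 1` of a product of two power series whose higher coefficients are integers:
up to an integer it is `x_0 y_n + x_n y_0`. -/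
lemma coeff_mul_sub_mem (X Y : PowerSeries ℂ)
    (hX : ∀ n, 1 ≤ n → PowerSeries.coeff n X ∈ ZZ)
    (hY : ∀ n, 1 ≤ n → PowerSeries.coeff n Y ∈ ZZ) (n : ℕ) (hn : 1 ≤ n) :
    PowerSeries.coeff n (X * Y)
      - (PowerSeries.coeff 0 X * PowerSeries.coeff n Y
          + PowerSeries.coeff n X * PowerSeries.coeff 0 Y) ∈ ZZ := by
  obtain ⟨m, rfl⟩ : ∃ m, n = m + 1 := ⟨n - 1, by omega⟩
  rw [PowerSeries.coeff_mul, Finset.Nat.sum_antidiagonal_eq_sum_range_succ_mk,
    Finset.sum_range_succ, Finset.sum_range_succ']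
  have hmid : ∑ k ∈ Finset.range m,
      PowerSeries.coeff (k + 1) X * PowerSeries.coeff (m + 1 - (k + 1)) Y ∈ ZZ := by
    refine Subring.sum_mem _ fun k hk => ?_
    have hk' : k < m := Finset.mem_range.mp hk
    exact Subring.mul_mem _ (hX _ (by omega)) (hY _ (by omega))
  have : (∑ k ∈ Finset.range m,
        PowerSeries.coeff (k + 1) X * PowerSeries.coeff (m + 1 - (k + 1)) Y
      + PowerSeries.coeff 0 X * PowerSeries.coeff (m + 1 - 0) Y
      + PowerSeries.coeff (m + 1) X * PowerSeries.coeff (m + 1 - (m + 1)) Y)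
      - (PowerSeries.coeff 0 X * PowerSeries.coeff (m + 1) Y
          + PowerSeries.coeff (m + 1) X * PowerSeries.coeff 0 Y)
      = ∑ k ∈ Finset.range m,
        PowerSeries.coeff (k + 1) X * PowerSeries.coeff (m + 1 - (k + 1)) Y := by
    simp only [Nat.sub_zero, Nat.sub_self]
    ring
  rw [this]
  exact hmid

/-! ### Arithmetic of the weights `w_n = σ'(n) - 10 (p - 1) σ₃(n)` -/

lemma sigmaP_one (p : ℕ) (hp : 2 ≤ p) : sigmaP p 1 = 1 := by
  have h : ¬ p ∣ 1 := by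
    intro h
    have := Nat.le_of_dvd one_pos h
    omega
  simp [sigmaP, Finset.filter_singleton, h]

lemma sigmaP_two (p : ℕ) (hp : 3 ≤ p) : sigmaP p 2 = 3 := by
  have h1 : ¬ p ∣ 1 := by
    intro h
    have := Nat.le_of_dvd one_pos h
    omega
  have h2 : ¬ p ∣ 2 := by
    intro h
    have := Nat.le_of_dvd two_pos h
    omega
  have hd : Nat.divisors 2 = {1, 2} := by decide
  rw [sigmaP, hd, Finset.filter_insert, if_pos h1, Finset.filter_singleton, if_pos h2]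
  rfl

lemma sigmaP_prime (p : ℕ) (hp : p.Prime) : sigmaP p p = 1 := by
  have h1 : ¬ p ∣ 1 := hp.one_lt.not_ge ∘ Nat.le_of_dvd one_pos
  rw [sigmaP, hp.divisors, Finset.filter_insert, if_pos h1, Finset.filter_singleton,
    if_neg (not_not.mpr dvd_rfl)]
  simp

lemma sigma_three_one : σ 3 1 = 1 := by
  simp [ArithmeticFunction.sigma_apply]

lemma sigma_three_two : σ 3 2 = 9 := by
  have hd : Nat.divisors 2 = {1, 2} := by decide
  rw [ArithmeticFunction.sigma_apply, hd]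
  rfl

lemma sigma_three_prime (p : ℕ) (hp : p.Prime) : σ 3 p = 1 + p ^ 3 := by
  rw [ArithmeticFunction.sigma_apply, hp.divisors,
    Finset.sum_insert (by simpa using hp.ne_one.symm), Finset.sum_singleton]
  simp

lemma not_two_dvd (p : ℕ) (hp : p.Prime) (hp5 : 5 ≤ p) : ¬ 2 ∣ p := fun h => by
  rcases hp.eq_one_or_self_of_dvd 2 h with h | h <;> omega

lemma not_three_dvd (p : ℕ) (hp : p.Prime) (hp5 : 5 ≤ p) : ¬ 3 ∣ p := fun h => by
  rcases hp.eq_one_or_self_of_dvd 3 h with h | h <;> omega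

lemma sq_mod_24 (p : ℕ) (hp : p.Prime) (hp5 : 5 ≤ p) : p ^ 2 % 24 = 1 := by
  have h2 := not_two_dvd p hp hp5
  have h3 := not_three_dvd p hp hp5
  have h24 : p % 24 = 1 ∨ p % 24 = 5 ∨ p % 24 = 7 ∨ p % 24 = 11 ∨ p % 24 = 13 ∨ p % 24 = 17 ∨
      p % 24 = 19 ∨ p % 24 = 23 := by omega
  rw [Nat.pow_mod]
  rcases h24 with h | h | h | h | h | h | h | h <;> rw [h]

lemma exists_sq_sub_one (p : ℕ) (hp : p.Prime) (hp5 : 5 ≤ p) :
    ∃ m : ℤ, ((p : ℂ) ^ 2 - 1) = 24 * (m : ℂ) := by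
  have h := sq_mod_24 p hp hp5
  obtain ⟨m, hm⟩ : ∃ m : ℕ, p ^ 2 = 24 * m + 1 := ⟨p ^ 2 / 24, by
    have := Nat.div_add_mod (p ^ 2) 24
    omega⟩
  refine ⟨(m : ℤ), ?_⟩
  have h'' : ((p ^ 2 : ℕ) : ℂ) = ((24 * m + 1 : ℕ) : ℂ) := by rw [hm]
  push_cast at h'' ⊢
  rw [h'']
  ring

/-! ### The power-series core -/

/-- For every `n ≥ 1`, `(p+1) a_0 (σ'(n) - 10 (p-1) σ₃(n))` is an integer. -/
lemma key_mem (p : ℕ) (hp : p.Prime) (hp5 : 5 ≤ p) (A B N : PowerSeries ℂ)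
    (hA : ∀ n, 1 ≤ n → PowerSeries.coeff n A ∈ ZZ)
    (hB0 : PowerSeries.coeff 0 B = ((p : ℂ) - 1) / 24)
    (hB : ∀ n, 1 ≤ n → PowerSeries.coeff n B = (sigmaP p n : ℂ))
    (hAU : Up p (Up p A) = A) (hBU : Up p (Up p B) = B)
    (hN : ∀ n, 1 ≤ n → PowerSeries.coeff n N = PowerSeries.coeff 0 N * (240 * (σ 3 n : ℂ)))
    (hid : N = A * B + (p : ℂ)⁻¹ • Up p (Up p A * Up p B)) (n : ℕ) (hn : 1 ≤ n) :
    (((p : ℂ) + 1) * PowerSeries.coeff 0 A) *
      ((sigmaP p n : ℂ) - 10 * ((p : ℂ) - 1) * (σ 3 n : ℂ)) ∈ ZZ := by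
  have hp0 : (p : ℂ) ≠ 0 := by exact_mod_cast hp.ne_zero
  have hppos : 0 < p := hp.pos
  have hB' : ∀ n, 1 ≤ n → PowerSeries.coeff n B ∈ ZZ := fun n hn => by
    rw [hB n hn]; exact natCast_mem_ZZ _
  have hUA : ∀ n, 1 ≤ n → PowerSeries.coeff n (Up p A) ∈ ZZ := fun n hn => by
    rw [coeff_Up]; exact hA _ (Nat.mul_pos hppos hn)
  have hUB : ∀ n, 1 ≤ n → PowerSeries.coeff n (Up p B) ∈ ZZ := fun n hn => by
    rw [coeff_Up]; exact hB' _ (Nat.mul_pos hppos hn)
  obtain ⟨z1, hz1⟩ := (mem_ZZ_iff _).mp (coeff_mul_sub_mem A B hA hB' n hn)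
  obtain ⟨z2, hz2⟩ := (mem_ZZ_iff _).mp
    (coeff_mul_sub_mem (Up p A) (Up p B) hUA hUB (p * n) (Nat.mul_pos hppos hn))
  obtain ⟨a, ha⟩ := (mem_ZZ_iff _).mp (hA n hn)
  obtain ⟨m, hm⟩ := exists_sq_sub_one p hp hp5
  -- coefficients of `U_p`
  have hA2 : PowerSeries.coeff (p * (p * n)) A = PowerSeries.coeff n A := by
    have := congrArg (PowerSeries.coeff n) hAU
    simpa using this
  have hB2 : PowerSeries.coeff (p * (p * n)) B = PowerSeries.coeff n B := by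
    have := congrArg (PowerSeries.coeff n) hBU
    simpa using this
  have hUA0 : PowerSeries.coeff 0 (Up p A) = PowerSeries.coeff 0 A := by simp
  have hUB0 : PowerSeries.coeff 0 (Up p B) = PowerSeries.coeff 0 B := by simp
  -- the identity at coefficients `0` and `n`
  have h0 : PowerSeries.coeff 0 N = PowerSeries.coeff 0 A * PowerSeries.coeff 0 B
      + (p : ℂ)⁻¹ * (PowerSeries.coeff 0 A * PowerSeries.coeff 0 B) := by
    have := congrArg (PowerSeries.coeff 0) hid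
    simpa [PowerSeries.coeff_zero_eq_constantCoeff] using this
  have hnn : PowerSeries.coeff n N = PowerSeries.coeff n (A * B)
      + (p : ℂ)⁻¹ * PowerSeries.coeff (p * n) (Up p A * Up p B) := by
    have := congrArg (PowerSeries.coeff n) hid
    simpa using this
  rw [hUA0, hUB0, coeff_Up, coeff_Up, hA2, hB2] at hz2
  rw [hN n hn, h0, hB0] at hnn
  rw [hB n hn, hB0, ha] at hz1 hz2
  rw [mem_ZZ_iff]
  refine ⟨-(a * m) - p * z1 - z2, ?_⟩
  push_cast
  set c := PowerSeries.coeff 0 A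
  set s := (sigmaP p n : ℂ)
  set t := (σ 3 n : ℂ)
  set P := (p : ℂ)
  set x := PowerSeries.coeff n (A * B)
  set y := PowerSeries.coeff (p * n) (Up p A * Up p B)
  have hx : x = c * s + a * ((P - 1) / 24) + z1 := by linear_combination hz1
  have hy : y = c * s + a * ((P - 1) / 24) + z2 := by linear_combination hz2
  rw [hx, hy] at hnn
  field_simp at hnn
  linear_combination (-1 / 24 : ℂ) * hnn - ((a : ℂ) / 24) * hm

/-- **Power-series core of the one-trace bound.**  `A` is the expansion of `G`, `B` the expansion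
of the Eisenstein series of level `p`, `N` the expansion of a level one form of weight 4
(hence proportional to `1 + 240 ∑ σ₃(n) q^n`). -/
theorem onetrace_core (p : ℕ) (hp : p.Prime) (hp5 : 5 ≤ p) (A B N : PowerSeries ℂ)
    (hA : ∀ n, 1 ≤ n → PowerSeries.coeff n A ∈ ZZ)
    (hB0 : PowerSeries.coeff 0 B = ((p : ℂ) - 1) / 24)
    (hB : ∀ n, 1 ≤ n → PowerSeries.coeff n B = (sigmaP p n : ℂ))
    (hAU : Up p (Up p A) = A) (hBU : Up p (Up p B) = B)
    (hN : ∀ n, 1 ≤ n → PowerSeries.coeff n N = PowerSeries.coeff 0 N * (240 * (σ 3 n : ℂ)))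
    (hid : N = A * B + (p : ℂ)⁻¹ • Up p (Up p A * Up p B)) :
    ((p : ℂ) + 1) * PowerSeries.coeff 0 A ∈ ZZ := by
  have key := key_mem p hp hp5 A B N hA hB0 hB hAU hBU hN hid
  obtain ⟨z1, h1⟩ := (mem_ZZ_iff _).mp (key 1 le_rfl)
  obtain ⟨z2, h2⟩ := (mem_ZZ_iff _).mp (key 2 (by norm_num))
  obtain ⟨zp, h3⟩ := (mem_ZZ_iff _).mp (key p hp.one_lt.le)
  rw [sigmaP_one p (by omega), sigma_three_one] at h1
  rw [sigmaP_two p (by omega), sigma_three_two] at h2
  rw [sigmaP_prime p hp, sigma_three_prime p hp] at h3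
  push_cast at h1 h2 h3
  generalize ((p : ℂ) + 1) * PowerSeries.coeff 0 A = D at h1 h2 h3 ⊢
  have h3' := not_three_dvd p hp hp5
  obtain ⟨k, hk | hk⟩ : ∃ k : ℕ, p = 3 * k + 1 ∨ p = 3 * k + 2 := ⟨p / 3, by omega⟩
  · -- `p = 3k+1`: `1 = (1 + 45 k) w_1 - 5 k w_2`
    rw [mem_ZZ_iff]
    refine ⟨(1 + 45 * k) * z1 - 5 * k * z2, ?_⟩
    have hP : (p : ℂ) = 3 * (k : ℂ) + 1 := by exact_mod_cast congrArg (Nat.cast : ℕ → ℂ) hk
    rw [hP] at h1 h2
    push_cast
    linear_combination (1 + 45 * (k : ℂ)) * h1 - 5 * (k : ℂ) * h2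
  · -- `p = 3k+2`: `3 = (45 k + 19) w_1 - (5 k + 2) w_2` and `w_p = 1 - 3 t`
    rw [mem_ZZ_iff]
    refine ⟨zp + (10 * (3 * k + 1) * (k + 1) * ((3 * k + 2) ^ 2 - (3 * k + 2) + 1)) *
      ((45 * k + 19) * z1 - (5 * k + 2) * z2), ?_⟩
    have hP : (p : ℂ) = 3 * (k : ℂ) + 2 := by exact_mod_cast congrArg (Nat.cast : ℕ → ℂ) hk
    rw [hP] at h1 h2 h3
    push_cast
    linear_combination h3 + (10 * (3 * (k : ℂ) + 1) * (k + 1) * ((3 * k + 2) ^ 2 - (3 * k + 2) + 1)) *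
      ((45 * k + 19) * h1 - (5 * k + 2) * h2)

/-! ### The modular inputs and the final statement -/

/-- Trace to level one of a product of two weight 2 forms on `Γ₀(p)`, in `q`-expansion form:
`Tr(G H) = G H + p⁻¹ U_p (U_p G * U_p H)` is a level one form of weight 4. -/
def TraceFour (p : ℕ) : Prop :=
  ∀ G H : ModularForm (Gamma0 p) 2, ∃ N : ModularForm 𝒮ℒ 4,
    qExpansion 1 N = qExpansion 1 G * qExpansion 1 H
      + (p : ℂ)⁻¹ • Up p (Up p (qExpansion 1 G) * Up p (qExpansion 1 H))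

/-- `U_p` is an involution on `M_2(Γ₀(p))` (in `q`-expansion form). -/
def UpInvol (p : ℕ) : Prop :=
  ∀ G : ModularForm (Gamma0 p) 2, Up p (Up p (qExpansion 1 G)) = qExpansion 1 G

/-- The Eisenstein series of weight 2 and level `p`. -/
def EisExists (p : ℕ) : Prop :=
  ∃ E : ModularForm (Gamma0 p) 2, (qExpansion 1 E).coeff 0 = ((p : ℂ) - 1) / 24 ∧
    ∀ n, 1 ≤ n → (qExpansion 1 E).coeff n = (sigmaP p n : ℂ)

/-- The coefficients of a level one form of weight 4. -/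
lemma levelOne_four_coeff (N : ModularForm 𝒮ℒ 4) (n : ℕ) (hn : 1 ≤ n) :
    (qExpansion 1 N).coeff n = (qExpansion 1 N).coeff 0 * (240 * (σ 3 n : ℂ)) := by
  have hfin : Module.finrank ℂ (ModularForm 𝒮ℒ 4) = 1 :=
    Module.finrank_eq_of_rank_eq levelOne_weight_four_rank_one
  have hE : (E₄ : ModularForm 𝒮ℒ 4) ≠ 0 := E_ne_zero (by norm_num) ⟨2, rfl⟩
  obtain ⟨κ, hκ⟩ := (finrank_eq_one_iff_of_nonzero' E₄ hE).mp hfin N
  have hq : qExpansion 1 N = κ • qExpansion 1 E₄ := by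
    rw [← hκ]
    exact ModularForm.qExpansion_smul one_pos one_mem_strictPeriods_SL κ E₄
  have hb : bernoulli 4 = -1 / 30 := by decide +kernel
  have hc0 : (qExpansion 1 E₄).coeff 0 = 1 := E_qExpansion_coeff_zero (by norm_num) ⟨2, rfl⟩
  have hcn : (qExpansion 1 E₄).coeff n = 240 * (σ 3 n : ℂ) := by
    rw [E_qExpansion_coeff (by norm_num) ⟨2, rfl⟩, if_neg (by omega), hb]
    norm_num
  rw [hq, PowerSeries.coeff_smul, PowerSeries.coeff_smul, hc0, hcn]
  simp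

/-- **The one-trace bound** (leaf A1 of S16).  For a prime `p ≥ 5` and `G ∈ M_2(Γ₀(p))` with
integral higher `q`-coefficients, `(p + 1) a_0(G)` is an integer. -/
theorem onetrace (p : ℕ) [Fact p.Prime] (hp5 : 5 ≤ p) (hTR : TraceFour p) (hUU : UpInvol p)
    (hEIS : EisExists p) (G : ModularForm (Gamma0 p) 2)
    (hG : ∀ n, 1 ≤ n → ∃ z : ℤ, (qExpansion 1 G).coeff n = z) :
    ∃ z : ℤ, ((p : ℂ) + 1) * (qExpansion 1 G).coeff 0 = z := by
  obtain ⟨E, hE0, hE⟩ := hEIS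
  obtain ⟨N, hN⟩ := hTR G E
  exact (mem_ZZ_iff _).mp (onetrace_core p Fact.out hp5 (qExpansion 1 G) (qExpansion 1 E)
    (qExpansion 1 N) (fun n hn => (mem_ZZ_iff _).mpr (hG n hn)) hE0 hE (hUU G) (hUU E)
    (levelOne_four_coeff N) hN)

end

end Fermat.Agent.S16.helper1566
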