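/-
S16 (helper1566): the Fricke involution on `M_2(Γ₀(p))`, the identity `F ∣ W_p = -U_p F`,
and the two modular inputs `TraceFour p`, `UpInvol p` of the one-trace bound
(`Fermat.Agent.S16.helper1566.onetrace`), at function level (no expansions at the other cusp).

* `fricke p F : ModularForm (Gamma0 p) k` with `⇑(fricke p F) = ⇑F ∣[k] frickeGL p`,
  `frickeGL p = [[0, -1], [p, 0]]`;
* `slash_rep_eq` : `f ∣[2] (S * T ^ j) = (f ∣[2] W_p) ∣[2] heckeMatrix p j`;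
* `coe_eq_neg_heckeU_fricke` : `⇑F = -U_p (F ∣ W_p)` for `F ∈ M_2(Γ₀(p))` (trace to level one
  vanishes in weight 2), `coe_fricke_eq_neg_heckeU` : `F ∣ W_p = -U_p F`,
  `heckeU_heckeU` : `U_p U_p F = F`;
* `traceFour`, `upInvol`.
-/
import Mathlib
import Fermat.Prelude.Def_ModularForm_HeckeOperatorForms
import Fermat.Prelude.Thm_ModularFormClass_qCoeff_heckeU
import Fermat.Prelude.Thm_CongruenceSubgroup_one_mem_strictPeriods_Gamma0
import Fermat.Agent.S16.helper144_Cosets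
import Fermat.Agent.S16.helper1566_OneTrace

set_option autoImplicit false

open UpperHalfPlane ModularForm CongruenceSubgroup Matrix.SpecialLinearGroup
open scoped MatrixGroups Manifold ModularForm

namespace Fermat.Agent.S16.helper1566

noncomputable section

/-! ### The Fricke matrix and its normalising property -/

/-- The Fricke matrix `[[0, -1], [p, 0]]`. -/
def frickeGL (p : ℕ) [NeZero p] : GL (Fin 2) ℝ :=
  Matrix.GeneralLinearGroup.mkOfDetNeZero !![0, -1; (p : ℝ), 0]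
    (by rw [Matrix.det_fin_two_of]; simpa using NeZero.ne p)

@[simp] lemma val_frickeGL (p : ℕ) [NeZero p] :
    ((frickeGL p : GL (Fin 2) ℝ) : Matrix (Fin 2) (Fin 2) ℝ) = !![0, -1; (p : ℝ), 0] := rfl

lemma det_frickeGL (p : ℕ) [NeZero p] : ((frickeGL p).det : ℝ) = p := by
  rw [Matrix.GeneralLinearGroup.val_det_apply, val_frickeGL, Matrix.det_fin_two_of]
  ring

lemma det_frickeGL_pos (p : ℕ) [NeZero p] : 0 < ((frickeGL p).det : ℝ) := by
  rw [det_frickeGL]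
  exact_mod_cast Nat.pos_of_ne_zero (NeZero.ne p)

/-- The square of the Fricke matrix is the scalar `-p`. -/
lemma val_frickeGL_mul_self (p : ℕ) [NeZero p] :
    ((frickeGL p * frickeGL p : GL (Fin 2) ℝ) : Matrix (Fin 2) (Fin 2) ℝ)
      = !![-(p : ℝ), 0; 0, -(p : ℝ)] := by
  rw [Matrix.GeneralLinearGroup.coe_mul, val_frickeGL]
  ext i j
  fin_cases i <;> fin_cases j <;> simp [Matrix.mul_apply, Fin.sum_univ_two]

lemma frickeGL_sq_comm (p : ℕ) [NeZero p] (g : GL (Fin 2) ℝ) :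
    frickeGL p * frickeGL p * g = g * (frickeGL p * frickeGL p) := by
  apply Matrix.GeneralLinearGroup.ext
  intro i j
  rw [Matrix.GeneralLinearGroup.coe_mul, Matrix.GeneralLinearGroup.coe_mul (g),
    val_frickeGL_mul_self]
  fin_cases i <;> fin_cases j <;> simp [Matrix.mul_apply, Fin.sum_univ_two, mul_comm]

lemma mapGL_apply (γ : SL(2, ℤ)) (i j : Fin 2) :
    ((mapGL ℝ γ : GL (Fin 2) ℝ) : Matrix (Fin 2) (Fin 2) ℝ) i j = ((γ.1 i j : ℤ) : ℝ) := by
  simp only [mapGL_coe_matrix, algebraMap_int_eq, map_apply_coe, RingHom.mapMatrix_apply,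
    Int.coe_castRingHom, Matrix.map_apply]

lemma mapGL_val (γ : SL(2, ℤ)) :
    ((mapGL ℝ γ : GL (Fin 2) ℝ) : Matrix (Fin 2) (Fin 2) ℝ)
      = !![((γ.1 0 0 : ℤ) : ℝ), ((γ.1 0 1 : ℤ) : ℝ); ((γ.1 1 0 : ℤ) : ℝ), ((γ.1 1 1 : ℤ) : ℝ)] := by
  ext i j
  rw [mapGL_apply]
  fin_cases i <;> fin_cases j <;> rfl

/-- The conjugate of an element of `Γ₀(p)` by the Fricke matrix. -/
def frickeConj (p : ℕ) (γ : SL(2, ℤ)) (c' : ℤ) (hc' : γ.1 1 0 = (p : ℤ) * c') : SL(2, ℤ) :=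
  ⟨!![γ.1 1 1, -c'; -(p : ℤ) * γ.1 0 1, γ.1 0 0], by
    have hdet : γ.1 0 0 * γ.1 1 1 - γ.1 0 1 * γ.1 1 0 = 1 := by
      have := γ.2
      rwa [Matrix.det_fin_two] at this
    rw [Matrix.det_fin_two_of]
    rw [hc'] at hdet
    linear_combination hdet⟩

/-- Conjugation by the Fricke matrix preserves `Γ₀(p)` (explicit form). -/
lemma frickeGL_mul_mapGL (p : ℕ) [NeZero p] (γ : SL(2, ℤ)) (hγ : γ ∈ Gamma0 p) :
    ∃ γ' ∈ Gamma0 p, frickeGL p * mapGL ℝ γ = mapGL ℝ γ' * frickeGL p := by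
  have hdvd : (p : ℤ) ∣ γ.1 1 0 := by
    have := Gamma0_mem.mp hγ
    exact (ZMod.intCast_zmod_eq_zero_iff_dvd _ _).mp this
  obtain ⟨c', hc'⟩ := hdvd
  refine ⟨frickeConj p γ c' hc', ?_, ?_⟩
  · rw [Gamma0_mem]
    simp [frickeConj]
  · apply Matrix.GeneralLinearGroup.ext
    intro i j
    have hc'' : ((γ.1 1 0 : ℤ) : ℝ) = (p : ℝ) * (c' : ℝ) := by
      exact_mod_cast congrArg (Int.cast : ℤ → ℝ) hc'
    have e00 : (frickeConj p γ c' hc').1 0 0 = γ.1 1 1 := rfl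
    have e01 : (frickeConj p γ c' hc').1 0 1 = -c' := rfl
    have e10 : (frickeConj p γ c' hc').1 1 0 = -(p : ℤ) * γ.1 0 1 := rfl
    have e11 : (frickeConj p γ c' hc').1 1 1 = γ.1 0 0 := rfl
    rw [Matrix.GeneralLinearGroup.coe_mul, Matrix.GeneralLinearGroup.coe_mul, val_frickeGL,
      mapGL_val, mapGL_val, e00, e01, e10, e11, hc'', Matrix.mul_fin_two, Matrix.mul_fin_two]
    push_cast
    fin_cases i <;> fin_cases j <;> simp <;> ring

lemma frickeGL_conj_mem (p : ℕ) [NeZero p] {g : GL (Fin 2) ℝ}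
    (hg : g ∈ (Gamma0 p : Subgroup (GL (Fin 2) ℝ))) :
    frickeGL p * g * (frickeGL p)⁻¹ ∈ (Gamma0 p : Subgroup (GL (Fin 2) ℝ)) := by
  obtain ⟨γ, hγ, rfl⟩ := hg
  obtain ⟨γ', hγ', h⟩ := frickeGL_mul_mapGL p γ hγ
  rw [h, mul_inv_cancel_right]
  exact ⟨γ', hγ', rfl⟩

open ConjAct Pointwise in
/-- The Fricke matrix normalises `Γ₀(p)`. -/
lemma conj_Gamma0 (p : ℕ) [NeZero p] :
    toConjAct (frickeGL p)⁻¹ • (Gamma0 p : Subgroup (GL (Fin 2) ℝ))
      = (Gamma0 p : Subgroup (GL (Fin 2) ℝ)) := by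
  ext g
  rw [Subgroup.mem_pointwise_smul_iff_inv_smul_mem, map_inv, inv_inv, toConjAct_smul]
  constructor
  · intro h
    have h2 := frickeGL_conj_mem p h
    have e : frickeGL p * (frickeGL p * g * (frickeGL p)⁻¹) * (frickeGL p)⁻¹ = g := by
      have hc := frickeGL_sq_comm p g
      calc frickeGL p * (frickeGL p * g * (frickeGL p)⁻¹) * (frickeGL p)⁻¹
          = (frickeGL p * frickeGL p * g) * ((frickeGL p)⁻¹ * (frickeGL p)⁻¹) := by group
        _ = (g * (frickeGL p * frickeGL p)) * ((frickeGL p)⁻¹ * (frickeGL p)⁻¹) := by rw [hc]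
        _ = g := by group
    rwa [e] at h2
  · exact frickeGL_conj_mem p

/-- The Fricke involution `F ↦ F ∣[k] W_p` on `M_k(Γ₀(p))`. -/
def fricke (p : ℕ) [NeZero p] {k : ℤ} (F : ModularForm (Gamma0 p) k) :
    ModularForm (Gamma0 p) k :=
  ModularForm.mcast rfl (ModularForm.translate F (frickeGL p)) (conj_Gamma0 p).symm

@[simp] lemma coe_fricke (p : ℕ) [NeZero p] {k : ℤ} (F : ModularForm (Gamma0 p) k) :
    ⇑(fricke p F) = ⇑F ∣[k] frickeGL p := rfl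

/-! ### Scalar matrices act trivially in weight 2 -/

/-- The scalar matrix `a`. -/
def scalarGL (a : ℝ) (ha : a ≠ 0) : GL (Fin 2) ℝ :=
  Matrix.GeneralLinearGroup.mkOfDetNeZero !![a, 0; 0, a]
    (by rw [Matrix.det_fin_two_of]; simpa using ha)

@[simp] lemma val_scalarGL (a : ℝ) (ha : a ≠ 0) :
    ((scalarGL a ha : GL (Fin 2) ℝ) : Matrix (Fin 2) (Fin 2) ℝ) = !![a, 0; 0, a] := rfl

lemma det_scalarGL (a : ℝ) (ha : a ≠ 0) : ((scalarGL a ha).det : ℝ) = a * a := by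
  rw [Matrix.GeneralLinearGroup.val_det_apply, val_scalarGL, Matrix.det_fin_two_of]
  ring

lemma det_scalarGL_pos (a : ℝ) (ha : a ≠ 0) : 0 < ((scalarGL a ha).det : ℝ) := by
  rw [det_scalarGL]
  exact mul_self_pos.mpr ha

lemma scalarGL_smul (a : ℝ) (ha : a ≠ 0) (τ : ℍ) : scalarGL a ha • τ = τ := by
  apply UpperHalfPlane.ext
  rw [UpperHalfPlane.coe_smul_of_det_pos (det_scalarGL_pos a ha)]
  have ha' : (a : ℂ) ≠ 0 := by exact_mod_cast ha
  simp [UpperHalfPlane.num, UpperHalfPlane.denom, val_scalarGL]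
  field_simp

lemma slash_two_scalarGL (a : ℝ) (ha : a ≠ 0) (f : ℍ → ℂ) :
    f ∣[(2 : ℤ)] scalarGL a ha = f := by
  ext τ
  have ha' : (a : ℂ) ≠ 0 := by exact_mod_cast ha
  rw [ModularForm.slash_apply, UpperHalfPlane.σ, if_pos (det_scalarGL_pos a ha), det_scalarGL,
    scalarGL_smul]
  simp [UpperHalfPlane.denom, val_scalarGL]
  field_simp

/-! ### The conjugates `F ∣ S T^j` through the Fricke matrix -/

lemma frickeGL_mul_self (p : ℕ) [NeZero p] :
    frickeGL p * frickeGL p = scalarGL (-(p : ℝ)) (by simpa using NeZero.ne p) := by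
  apply Matrix.GeneralLinearGroup.ext
  intro i j
  rw [val_frickeGL_mul_self, val_scalarGL]

lemma frickeGL_mul_heckeMatrix (p : ℕ) [NeZero p] (j : ℕ) :
    frickeGL p * heckeMatrix p j
      = scalarGL (p : ℝ) (by simpa using NeZero.ne p)
        * mapGL ℝ (ModularGroup.S * ModularGroup.T ^ (j : ℤ)) := by
  apply Matrix.GeneralLinearGroup.ext
  intro a b
  have hST : (ModularGroup.S * ModularGroup.T ^ (j : ℤ) : SL(2, ℤ)).1 = !![0, -1; 1, (j : ℤ)] := by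
    rw [Matrix.SpecialLinearGroup.coe_mul, ModularGroup.coe_T_zpow, ModularGroup.coe_S,
      Matrix.mul_fin_two]
    simp
  rw [Matrix.GeneralLinearGroup.coe_mul, Matrix.GeneralLinearGroup.coe_mul, val_frickeGL,
    val_heckeMatrix (NeZero.ne p), val_scalarGL, mapGL_val, hST, Matrix.mul_fin_two,
    Matrix.mul_fin_two]
  fin_cases a <;> fin_cases b <;> simp

/-- In weight 2, the conjugate `f ∣ S T^j` is `(f ∣ W_p) ∣ [[1, j], [0, p]]`. -/
lemma slash_rep_eq (p : ℕ) [NeZero p] (f : ℍ → ℂ) (j : ℕ) :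
    f ∣[(2 : ℤ)] (ModularGroup.S * ModularGroup.T ^ (j : ℤ))
      = (f ∣[(2 : ℤ)] frickeGL p) ∣[(2 : ℤ)] heckeMatrix p j := by
  have h1 : (f ∣[(2 : ℤ)] frickeGL p) ∣[(2 : ℤ)] heckeMatrix p j
      = f ∣[(2 : ℤ)] (frickeGL p * heckeMatrix p j) := (SlashAction.slash_mul _ _ _ _).symm
  have h2 : f ∣[(2 : ℤ)] (scalarGL (p : ℝ) (by simpa using NeZero.ne p)
        * mapGL ℝ (ModularGroup.S * ModularGroup.T ^ (j : ℤ)))
      = (f ∣[(2 : ℤ)] scalarGL (p : ℝ) (by simpa using NeZero.ne p))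
        ∣[(2 : ℤ)] (mapGL ℝ (ModularGroup.S * ModularGroup.T ^ (j : ℤ))) :=
    SlashAction.slash_mul _ _ _ _
  rw [h1, frickeGL_mul_heckeMatrix, h2, slash_two_scalarGL]
  rfl

/-- In weight 2 the Fricke slash is an involution. -/
lemma slash_frickeGL_frickeGL (p : ℕ) [NeZero p] (f : ℍ → ℂ) :
    (f ∣[(2 : ℤ)] frickeGL p) ∣[(2 : ℤ)] frickeGL p = f := by
  rw [← SlashAction.slash_mul, frickeGL_mul_self, slash_two_scalarGL]

lemma fricke_fricke (p : ℕ) [NeZero p] (F : ModularForm (Gamma0 p) 2) :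
    fricke p (fricke p F) = F := by
  apply DFunLike.coe_injective
  rw [coe_fricke, coe_fricke, slash_frickeGL_frickeGL]

/-! ### Weight 2: `F ∣ W_p = -U_p F` -/

lemma levelOne_two_eq_zero (N : ModularForm 𝒮ℒ 2) : N = 0 :=
  rank_zero_iff_forall_zero.mp levelOne_weight_two_rank_zero N

/-- The sum of the conjugates `f ∣ S T^j`, `j < p`, is `U_p (f ∣ W_p)` (weight 2). -/
lemma sum_slash_rep (p : ℕ) [NeZero p] (f : ℍ → ℂ) :
    ∑ j : Fin p, f ∣[(2 : ℤ)] (ModularGroup.S * ModularGroup.T ^ ((j : ℕ) : ℤ))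
      = heckeU 2 p (f ∣[(2 : ℤ)] frickeGL p) := by
  rw [heckeU_def, ← Fin.sum_univ_eq_sum_range (fun j => (f ∣[(2 : ℤ)] frickeGL p) ∣[(2 : ℤ)]
    heckeMatrix p j) p]
  exact Finset.sum_congr rfl fun j _ => slash_rep_eq p f j

/-- For `F ∈ M_2(Γ₀(p))`: `F = -U_p (F ∣ W_p)` (the trace to level one vanishes). -/
theorem coe_eq_neg_heckeU_fricke (p : ℕ) [Fact p.Prime] (F : ModularForm (Gamma0 p) 2) :
    ⇑F = -heckeU 2 p (⇑F ∣[(2 : ℤ)] frickeGL p) := by
  have h := Fermat.Agent.S16.helper144.coe_trace_eq p F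
  rw [levelOne_two_eq_zero (ModularForm.trace 𝒮ℒ F), sum_slash_rep] at h
  have h' : (0 : ℍ → ℂ) = ⇑F + heckeU 2 p (⇑F ∣[(2 : ℤ)] frickeGL p) := by
    rw [← h]; rfl
  exact eq_neg_of_add_eq_zero_left h'.symm

/-- For `F ∈ M_2(Γ₀(p))`: `F ∣ W_p = -U_p F`. -/
theorem slash_frickeGL_eq_neg_heckeU (p : ℕ) [Fact p.Prime] (F : ModularForm (Gamma0 p) 2) :
    ⇑F ∣[(2 : ℤ)] frickeGL p = -heckeU 2 p ⇑F := by
  have h := coe_eq_neg_heckeU_fricke p (fricke p F)
  rwa [coe_fricke, slash_frickeGL_frickeGL] at h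

lemma heckeU_neg' (k : ℤ) (p : ℕ) (f : ℍ → ℂ) : heckeU k p (-f) = -heckeU k p f := by
  have h := heckeU_smul k p (-1 : ℂ) f
  simpa using h

/-- For `F ∈ M_2(Γ₀(p))`: `U_p U_p F = F`. -/
theorem heckeU_heckeU (p : ℕ) [Fact p.Prime] (F : ModularForm (Gamma0 p) 2) :
    heckeU 2 p (heckeU 2 p ⇑F) = ⇑F := by
  have h1 := coe_eq_neg_heckeU_fricke p F
  rw [slash_frickeGL_eq_neg_heckeU, heckeU_neg', neg_neg] at h1
  exact h1.symm

/-! ### `q`-expansions -/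

/-- The `q`-expansion of `U_p F` is `Up p` of the `q`-expansion of `F`. -/
lemma qExpansion_heckeU (p : ℕ) [NeZero p] {k : ℤ} (F : ModularForm (Gamma0 p) k) :
    qExpansion 1 (heckeU k p ⇑F) = Up p (qExpansion 1 ⇑F) := by
  ext n
  have h := ModularFormClass.qCoeff_heckeU F (one_mem_strictPeriods_Gamma0 p) (NeZero.ne p) n
  rw [coeff_Up, mul_comm]
  exact h

/-- `U_p` is an involution on `M_2(Γ₀(p))`, in `q`-expansion form. -/
theorem upInvol (p : ℕ) [Fact p.Prime] : UpInvol p := by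
  intro F
  have h1 := qExpansion_heckeU p (heckeULin 2 (dvd_refl p) F)
  rw [coe_heckeULin_apply, heckeU_heckeU, qExpansion_heckeU] at h1
  exact h1.symm

/-- The conjugate of a product of two weight 2 forms. -/
lemma mul_slash_rep (p : ℕ) [Fact p.Prime] (G H : ModularForm (Gamma0 p) 2) (j : ℕ) :
    (⇑G * ⇑H) ∣[(4 : ℤ)] (ModularGroup.S * ModularGroup.T ^ (j : ℤ))
      = (p : ℂ)⁻¹ • ((heckeU 2 p ⇑G * heckeU 2 p ⇑H) ∣[(4 : ℤ)] heckeMatrix p j) := by
  have hp : p ≠ 0 := (Fact.out : p.Prime).ne_zero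
  have h4 : (4 : ℤ) = 2 + 2 := by norm_num
  have h := mul_slash_SL2 2 2 (ModularGroup.S * ModularGroup.T ^ (j : ℤ)) ⇑G ⇑H
  rw [slash_rep_eq p ⇑G j, slash_rep_eq p ⇑H j, slash_frickeGL_eq_neg_heckeU,
    slash_frickeGL_eq_neg_heckeU] at h
  rw [h4, h]
  ext τ
  rw [Pi.mul_apply, Pi.smul_apply, slash_heckeMatrix_apply 2 hp, slash_heckeMatrix_apply 2 hp,
    slash_heckeMatrix_apply (2 + 2) hp, Pi.mul_apply, Pi.neg_apply, Pi.neg_apply, smul_eq_mul]
  ring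

/-- The trace of a product of two weight 2 forms, at function level. -/
lemma sum_mul_slash_rep (p : ℕ) [Fact p.Prime] (G H : ModularForm (Gamma0 p) 2) :
    ∑ j : Fin p, (⇑G * ⇑H) ∣[(4 : ℤ)] (ModularGroup.S * ModularGroup.T ^ ((j : ℕ) : ℤ))
      = (p : ℂ)⁻¹ • heckeU 4 p (heckeU 2 p ⇑G * heckeU 2 p ⇑H) := by
  rw [heckeU_def, ← Fin.sum_univ_eq_sum_range (fun j => (heckeU 2 p ⇑G * heckeU 2 p ⇑H) ∣[(4 : ℤ)]
    heckeMatrix p j) p, Finset.smul_sum]
  exact Finset.sum_congr rfl fun j _ => mul_slash_rep p G H j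

/-- **Trace of a product of two weight 2 forms on `Γ₀(p)`**, in `q`-expansion form. -/
theorem traceFour (p : ℕ) [Fact p.Prime] : TraceFour p := by
  intro G H
  have hΓ := one_mem_strictPeriods_Gamma0 p
  -- the product, as a form of weight 4
  let X : ModularForm (Gamma0 p) 4 := ModularForm.mcast (by norm_num) (G.mul H)
  have hX : ⇑X = ⇑G * ⇑H := rfl
  -- `U_p G`, `U_p H`, their product and its image under `U_p`
  let UG : ModularForm (Gamma0 p) 2 := heckeULin 2 (dvd_refl p) G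
  let UH : ModularForm (Gamma0 p) 2 := heckeULin 2 (dvd_refl p) H
  let Y : ModularForm (Gamma0 p) 4 := ModularForm.mcast (by norm_num) (UG.mul UH)
  have hY : ⇑Y = heckeU 2 p ⇑G * heckeU 2 p ⇑H := rfl
  let Z : ModularForm (Gamma0 p) 4 := heckeULin 4 (dvd_refl p) Y
  have hZ : ⇑Z = heckeU 4 p (heckeU 2 p ⇑G * heckeU 2 p ⇑H) := rfl
  refine ⟨ModularForm.trace 𝒮ℒ X, ?_⟩
  let Z' : ModularForm (Gamma0 p) 4 := (p : ℂ)⁻¹ • Z
  have hZ' : ⇑Z' = (p : ℂ)⁻¹ • ⇑Z := rfl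
  have hN : ⇑(ModularForm.trace 𝒮ℒ X) = ⇑X + ⇑Z' := by
    rw [Fermat.Agent.S16.helper144.coe_trace_eq p X, hX, sum_mul_slash_rep]
    rfl
  rw [hN, ModularForm.qExpansion_add one_pos hΓ X Z', hZ',
    ModularForm.qExpansion_smul one_pos hΓ (p : ℂ)⁻¹ Z, hX,
    ModularForm.qExpansion_mul_coe one_pos hΓ G H, hZ]
  have h1 : qExpansion 1 (heckeU 4 p (heckeU 2 p ⇑G * heckeU 2 p ⇑H))
      = Up p (Up p (qExpansion 1 ⇑G) * Up p (qExpansion 1 ⇑H)) := by
    have := qExpansion_heckeU p Y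
    rw [hY] at this
    have hmul : qExpansion 1 (heckeU 2 p ⇑G * heckeU 2 p ⇑H)
        = qExpansion 1 (heckeU 2 p ⇑G) * qExpansion 1 (heckeU 2 p ⇑H) :=
      ModularForm.qExpansion_mul_coe one_pos hΓ UG UH
    rw [this, hmul, qExpansion_heckeU p G, qExpansion_heckeU p H]
  rw [h1]

/-- **The one-trace bound**, with the two trace inputs discharged: for a prime `p ≥ 5` and
`G ∈ M_2(Γ₀(p))` with integral higher `q`-coefficients, `(p + 1) a_0(G)` is an integer, provided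
the Eisenstein series of level `p` exists (`EisExists p`). -/
theorem onetrace_of_eis (p : ℕ) [Fact p.Prime] (hp5 : 5 ≤ p) (hEIS : EisExists p)
    (G : ModularForm (Gamma0 p) 2)
    (hG : ∀ n, 1 ≤ n → ∃ z : ℤ, (qExpansion 1 G).coeff n = z) :
    ∃ z : ℤ, ((p : ℂ) + 1) * (qExpansion 1 G).coeff 0 = z :=
  onetrace p hp5 (traceFour p) (upInvol p) hEIS G hG

end

end Fermat.Agent.S16.helper1566
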