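/-
helper1583 — S16, upper bound, the 2-adic case: the TRACE ENDING (no norm, no `ζ_p`, no
`q^(1/p)`-expansions).

Setting (findings #1752 / team chat #63).  Let `p ≡ 3 (mod 4)` be a prime and let `H` be a
weight-2 form on `Γ₀(p)` whose `q`-expansion `A` lies in `1 + 8 O⟦q⟧`, `O` a subring of `ℂ` with
`1/p ∈ O`, `1/2 ∉ O` (for instance the rationals with odd denominator).  Put
`Z = B(H; E₄, E₆)/256`, a form of weight 8 on `Γ₀(p)`, where `B = 27 X⁴ - 18 E₄ X² - 8 E₆ X - E₄²`.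
By the landed 2-adic core (`helper3076_TwoAdic`)
  `Zinf A  := B(A; E₄(q), E₆(q))/256              ≡ Δ(q)    (mod 2)`,
  `Zzero A := B(-(U_p A)/p; E₄(q^p), E₆(q^p))/256 ≡ Δ(q^p)  (mod 2)`,
and `Zzero A` is, up to the factor `p⁴`, the `q`-expansion of the Fricke transform of `Z`.
The trace to level one of the weight `24 p` form `Z^(2p) (Z|W)^p` has the `q`-expansion
  `c₁ • (Zinf^(2p) * Zzero^p) + c₂ • U_p (Zzero^(2p) * Zinf^p)`
with `c₁ ∈ O` and `c₂` a unit of `O` (powers of `p`), which is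
  `≡ c₂ • Δ^(2p) * U_p(Δ^p) = c₂ q^(2p+1) + …  (mod 2)`.
This contradicts the level-one Sturm bound (`helper5604_LevelOneSturm`) in weight `24 p`.

This file: the pure power-series statement `trace_ending`.  The modular input is exactly the
hypothesis `hN` (the `q`-expansion of one level-one form), so that any trace/Fricke module plugs in.
-/
import Mathlib
import Fermat.Agent.S16.helper3076_TwoAdic
import Fermat.Agent.S16.helper5604_LevelOneSturm

set_option autoImplicit false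

namespace Fermat.Agent.S16.helper1583

open UpperHalfPlane ModularForm ModularFormClass EisensteinSeries
open scoped MatrixGroups
open Fermat.Agent.S16.helper3076 (Bpoly coeffRing mem_coeffRing_iff)

noncomputable section

/-! ## The operator `U_p` on power series -/

/-- `U_p : ∑ aₙ qⁿ ↦ ∑ a_{pn} qⁿ`. -/
def Up (p : ℕ) (A : PowerSeries ℂ) : PowerSeries ℂ :=
  PowerSeries.mk fun n => PowerSeries.coeff (p * n) A

@[simp] theorem coeff_Up (p n : ℕ) (A : PowerSeries ℂ) :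
    PowerSeries.coeff n (Up p A) = PowerSeries.coeff (p * n) A := by
  rw [Up, PowerSeries.coeff_mk]

theorem Up_add (p : ℕ) (A B : PowerSeries ℂ) : Up p (A + B) = Up p A + Up p B := by
  ext n; simp

theorem Up_smul (p : ℕ) (c : ℂ) (A : PowerSeries ℂ) : Up p (c • A) = c • Up p A := by
  ext n; simp

theorem Up_one {p : ℕ} (hp : p ≠ 0) : Up p (1 : PowerSeries ℂ) = 1 := by
  ext n
  rw [coeff_Up, PowerSeries.coeff_one, PowerSeries.coeff_one]
  by_cases hn : n = 0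
  · simp [hn]
  · rw [if_neg hn, if_neg (Nat.mul_ne_zero hp hn)]

theorem two_mul_eq_smul (A : PowerSeries ℂ) : (2 : PowerSeries ℂ) * A = (2 : ℂ) • A := by
  rw [← map_ofNat (PowerSeries.C (R := ℂ)) 2, PowerSeries.smul_eq_C_mul]

theorem ofNat_mul_eq_smul (a : ℕ) [a.AtLeastTwo] (A : PowerSeries ℂ) :
    (OfNat.ofNat a : PowerSeries ℂ) * A = (OfNat.ofNat a : ℂ) • A := by
  rw [← map_ofNat (PowerSeries.C (R := ℂ)) a, PowerSeries.smul_eq_C_mul]

theorem Up_two_mul (p : ℕ) (A : PowerSeries ℂ) : Up p (2 * A) = 2 * Up p A := by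
  rw [two_mul_eq_smul, Up_smul, two_mul_eq_smul]

/-- `U_p (V_p(x) * y) = x * U_p y`. -/
theorem Up_expand_mul {p : ℕ} (hp : p ≠ 0) (x y : PowerSeries ℂ) :
    Up p (PowerSeries.expand p hp x * y) = x * Up p y := by
  ext n
  rw [coeff_Up, PowerSeries.coeff_mul, PowerSeries.coeff_mul]
  symm
  refine Finset.sum_of_injOn (fun ab : ℕ × ℕ => (p * ab.1, p * ab.2)) ?_ ?_ ?_ ?_
  · rintro ⟨a, b⟩ _ ⟨a', b'⟩ _ h
    simp only [Prod.mk.injEq] at h
    have hp' : 0 < p := Nat.pos_of_ne_zero hp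
    exact Prod.ext (Nat.eq_of_mul_eq_mul_left hp' h.1) (Nat.eq_of_mul_eq_mul_left hp' h.2)
  · rintro ⟨a, b⟩ hab
    simp only [Finset.mem_coe, Finset.HasAntidiagonal.mem_antidiagonal] at hab ⊢
    rw [← hab]; ring
  · rintro ⟨i, j⟩ hij hnot
    simp only [Finset.HasAntidiagonal.mem_antidiagonal] at hij
    by_cases hdvd : p ∣ i
    · exfalso
      obtain ⟨a, rfl⟩ := hdvd
      have hj : p ∣ j := by
        have : p ∣ p * a + j := by rw [hij]; exact dvd_mul_right p n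
        exact (Nat.dvd_add_right (dvd_mul_right p a)).mp this
      obtain ⟨b, rfl⟩ := hj
      apply hnot
      refine ⟨(a, b), ?_, rfl⟩
      simp only [Finset.mem_coe, Finset.HasAntidiagonal.mem_antidiagonal]
      have hp' : 0 < p := Nat.pos_of_ne_zero hp
      exact Nat.eq_of_mul_eq_mul_left hp' (by rw [← hij]; ring)
    · rw [PowerSeries.coeff_expand_of_not_dvd p hp x hdvd, zero_mul]
  · rintro ⟨a, b⟩ _
    simp only [PowerSeries.coeff_expand_mul, coeff_Up]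

/-- `U_p (q^p * w) = q * U_p w`. -/
theorem Up_X_pow_mul {p : ℕ} (hp : p ≠ 0) (w : PowerSeries ℂ) :
    Up p (PowerSeries.X ^ p * w) = PowerSeries.X * Up p w := by
  ext n
  rw [coeff_Up]
  cases n with
  | zero =>
    rw [Nat.mul_zero, PowerSeries.coeff_zero_eq_constantCoeff, map_mul, map_pow,
      PowerSeries.constantCoeff_X, zero_pow hp, zero_mul, map_mul, PowerSeries.constantCoeff_X,
      zero_mul]
  | succ m =>
    rw [PowerSeries.coeff_succ_X_mul, coeff_Up, PowerSeries.coeff_X_pow_mul',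
      if_pos (by rw [Nat.mul_succ]; exact Nat.le_add_left _ _)]
    congr 1
    rw [Nat.mul_succ, Nat.add_sub_cancel]

/-! ## Congruences modulo `2 · O⟦q⟧` -/

theorem Up_mem (O : Subring ℂ) (p : ℕ) {A : PowerSeries ℂ} (hA : A ∈ coeffRing O) :
    Up p A ∈ coeffRing O := by
  rw [mem_coeffRing_iff] at hA ⊢
  intro n
  rw [coeff_Up]
  exact hA _

theorem smul_mem_coeffRing (O : Subring ℂ) {c : ℂ} (hc : c ∈ O) {A : PowerSeries ℂ}
    (hA : A ∈ coeffRing O) : c • A ∈ coeffRing O := by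
  rw [mem_coeffRing_iff] at hA ⊢
  intro n
  rw [PowerSeries.coeff_smul]
  exact O.mul_mem hc (hA n)

theorem C_mem_coeffRing (O : Subring ℂ) {c : ℂ} (hc : c ∈ O) :
    PowerSeries.C c ∈ coeffRing O := by
  rw [mem_coeffRing_iff]
  intro n
  rw [PowerSeries.coeff_C]
  split_ifs
  · exact hc
  · exact O.zero_mem

theorem X_mem_coeffRing (O : Subring ℂ) : (PowerSeries.X : PowerSeries ℂ) ∈ coeffRing O := by
  rw [mem_coeffRing_iff]
  intro n
  rw [PowerSeries.coeff_X]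
  split_ifs
  · exact O.one_mem
  · exact O.zero_mem

/-- `a ≡ b` modulo `2 · O⟦q⟧`. -/
def Cong (O : Subring ℂ) (a b : PowerSeries ℂ) : Prop := ∃ x ∈ coeffRing O, a = b + 2 * x

theorem Cong.refl (O : Subring ℂ) (a : PowerSeries ℂ) : Cong O a a :=
  ⟨0, (coeffRing O).zero_mem, by simp⟩

theorem Cong.of_eq (O : Subring ℂ) {a b : PowerSeries ℂ} (h : a = b) : Cong O a b :=
  h ▸ Cong.refl O a

theorem Cong.add {O : Subring ℂ} {a a' b b' : PowerSeries ℂ} (ha : Cong O a a')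
    (hb : Cong O b b') : Cong O (a + b) (a' + b') := by
  obtain ⟨x, hx, rfl⟩ := ha
  obtain ⟨y, hy, rfl⟩ := hb
  exact ⟨x + y, (coeffRing O).add_mem hx hy, by ring⟩

theorem Cong.mul {O : Subring ℂ} {a a' b b' : PowerSeries ℂ} (ha : Cong O a a')
    (hb : Cong O b b') (ha' : a' ∈ coeffRing O) (hb' : b' ∈ coeffRing O) :
    Cong O (a * b) (a' * b') := by
  obtain ⟨x, hx, rfl⟩ := ha
  obtain ⟨y, hy, rfl⟩ := hb
  refine ⟨a' * y + x * b' + 2 * (x * y), ?_, by ring⟩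
  have h2 : (2 : PowerSeries ℂ) ∈ coeffRing O := ofNat_mem (coeffRing O) 2
  exact (coeffRing O).add_mem
    ((coeffRing O).add_mem ((coeffRing O).mul_mem ha' hy) ((coeffRing O).mul_mem hx hb'))
    ((coeffRing O).mul_mem h2 ((coeffRing O).mul_mem hx hy))

theorem Cong.pow {O : Subring ℂ} {a a' : PowerSeries ℂ} (ha : Cong O a a')
    (ha' : a' ∈ coeffRing O) (n : ℕ) : Cong O (a ^ n) (a' ^ n) := by
  induction n with
  | zero => simpa using Cong.refl O 1
  | succ n ih =>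
    rw [pow_succ, pow_succ]
    exact ih.mul ha ((coeffRing O).pow_mem ha' n) ha'

theorem Cong.mapUp {O : Subring ℂ} {a a' : PowerSeries ℂ} (ha : Cong O a a') (p : ℕ) :
    Cong O (Up p a) (Up p a') := by
  obtain ⟨x, hx, rfl⟩ := ha
  exact ⟨Up p x, Up_mem O p hx, by rw [Up_add, Up_two_mul]⟩

theorem Cong.smul {O : Subring ℂ} {a a' : PowerSeries ℂ} (ha : Cong O a a') {c : ℂ}
    (hc : c ∈ O) : Cong O (c • a) (c • a') := by
  obtain ⟨x, hx, rfl⟩ := ha
  refine ⟨c • x, smul_mem_coeffRing O hc hx, ?_⟩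
  rw [smul_add, mul_smul_comm]

theorem Cong.coeff {O : Subring ℂ} {a a' : PowerSeries ℂ} (ha : Cong O a a') (n : ℕ) :
    ∃ c ∈ O, PowerSeries.coeff n a = PowerSeries.coeff n a' + 2 * c := by
  obtain ⟨x, hx, rfl⟩ := ha
  refine ⟨PowerSeries.coeff n x, (mem_coeffRing_iff O x).mp hx n, ?_⟩
  rw [map_add, two_mul_eq_smul, PowerSeries.coeff_smul, smul_eq_mul]

/-! ## The two expansions of `Z = B(H)/256` -/

/-- The `q`-expansion of `Z = B(H; E₄, E₆)/256`, in terms of the `q`-expansion `A` of `H`. -/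
def Zinf (A : PowerSeries ℂ) : PowerSeries ℂ :=
  (256 : ℂ)⁻¹ • Bpoly (qExpansion 1 E₄) (qExpansion 1 E₆) A

/-- `p⁻⁴` times the `q`-expansion of the Fricke transform of `Z`:
`B(-(U_p A)/p; E₄(q^p), E₆(q^p))/256`. -/
def Zzero (p : ℕ) (hp : p ≠ 0) (A : PowerSeries ℂ) : PowerSeries ℂ :=
  (256 : ℂ)⁻¹ • Bpoly (PowerSeries.expand p hp (qExpansion 1 E₄))
    (PowerSeries.expand p hp (qExpansion 1 E₆)) (-((p : ℂ)⁻¹ • Up p A))

private theorem inv_smul_mul_256 (y : PowerSeries ℂ) :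
    (256 : ℂ)⁻¹ • ((256 : PowerSeries ℂ) * y) = y := by
  rw [ofNat_mul_eq_smul 256, smul_smul, inv_mul_cancel₀ (by norm_num), one_smul]

/-- The `q`-expansion of `Δ` is `q · u` with `u` an integral series with constant term `1`. -/
theorem qExpansion_discriminant_eq_X_mul :
    qExpansion 1 discriminant =
      PowerSeries.X * ModularCurve.dedekindEtaUnit.map (Int.castRingHom ℂ) := by
  rw [Fermat.Agent.Lib.helper386.qExpansion_discriminant, Fermat.Agent.Lib.helper386.deltaSeries_eq,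
    map_mul, PowerSeries.map_X]

theorem discriminant_mem_coeffRing (O : Subring ℂ) :
    qExpansion 1 discriminant ∈ coeffRing O := by
  rw [Fermat.Agent.Lib.helper386.qExpansion_discriminant]
  exact Fermat.Agent.S16.helper3076.map_int_mem_coeffRing O _

/-- At the cusp `∞`: `Z ≡ Δ (mod 2)`. -/
theorem Zinf_cong (O : Subring ℂ) {A : PowerSeries ℂ} (hA : ∃ h ∈ coeffRing O, A = 1 + 8 * h) :
    Cong O (Zinf A) (qExpansion 1 discriminant) := by
  obtain ⟨h, hh, rfl⟩ := hA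
  obtain ⟨Q, hQ, hB⟩ :=
    Fermat.Agent.S16.helper3076.Bpoly_qExpansion_infty O (X := 1 + 8 * h) ⟨h, hh, Or.inl rfl⟩
  exact ⟨Q, hQ, by rw [Zinf, hB, inv_smul_mul_256]⟩

/-- At the cusp `0`: `p⁻⁴ (Z|W) ≡ Δ(q^p) (mod 2)`, for `p ≡ 3 (mod 4)`. -/
theorem Zzero_cong (O : Subring ℂ) {p : ℕ} (hp0 : p ≠ 0) (hp4 : p % 4 = 3)
    (hpO : (p : ℂ)⁻¹ ∈ O) {A : PowerSeries ℂ} (hA : ∃ h ∈ coeffRing O, A = 1 + 8 * h) :
    Cong O (Zzero p hp0 A) (PowerSeries.expand p hp0 (qExpansion 1 discriminant)) := by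
  obtain ⟨h, hh, rfl⟩ := hA
  have hpC : (p : ℂ) ≠ 0 := Nat.cast_ne_zero.mpr hp0
  have hUp : Up p (1 + 8 * h) = 1 + 8 * Up p h := by
    rw [Up_add, Up_one hp0, ofNat_mul_eq_smul 8, Up_smul, ofNat_mul_eq_smul 8]
  -- the key: `-(U_p A)/p = u + 8 h'` with `u ∈ {1, 5}`
  have key : ∃ h' ∈ coeffRing O, -((p : ℂ)⁻¹ • Up p (1 + 8 * h)) = 1 + 8 * h' ∨
      -((p : ℂ)⁻¹ • Up p (1 + 8 * h)) = 5 + 8 * h' := by
    have h8 : p % 8 = 7 ∨ p % 8 = 3 := by omega
    rcases h8 with h7 | h3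
    · -- `p ≡ 7 (mod 8)`: `-1/p = 1 + 8 c`, `c = -((p+1)/8)/p`
      obtain ⟨m, hm⟩ : ∃ m : ℕ, p + 1 = 8 * m := ⟨(p + 1) / 8, by omega⟩
      have hmC : (p : ℂ) + 1 = 8 * (m : ℂ) := by exact_mod_cast hm
      set c : ℂ := -(m : ℂ) * (p : ℂ)⁻¹ with hc
      have hcO : c ∈ O := O.mul_mem (O.neg_mem (natCast_mem O m)) hpO
      have hc1 : (1 : ℂ) + 8 * c = -(p : ℂ)⁻¹ := by
        rw [hc]; field_simp; linear_combination hmC
      have hC : (1 : PowerSeries ℂ) + 8 * PowerSeries.C c = -PowerSeries.C ((p : ℂ)⁻¹) := by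
        rw [← map_one (PowerSeries.C (R := ℂ)), ← map_ofNat (PowerSeries.C (R := ℂ)) 8, ← map_mul,
          ← map_add, hc1, map_neg]
      refine ⟨PowerSeries.C c - (p : ℂ)⁻¹ • Up p h,
        (coeffRing O).sub_mem (C_mem_coeffRing O hcO)
          (smul_mem_coeffRing O hpO (Up_mem O p hh)), Or.inl ?_⟩
      rw [hUp, PowerSeries.smul_eq_C_mul, PowerSeries.smul_eq_C_mul]
      linear_combination (-1 : PowerSeries ℂ) * hC
    · -- `p ≡ 3 (mod 8)`: `-1/p = 5 + 8 c`, `c = -((5p+1)/8)/p`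
      obtain ⟨m, hm⟩ : ∃ m : ℕ, 5 * p + 1 = 8 * m := ⟨(5 * p + 1) / 8, by omega⟩
      have hmC : 5 * (p : ℂ) + 1 = 8 * (m : ℂ) := by exact_mod_cast hm
      set c : ℂ := -(m : ℂ) * (p : ℂ)⁻¹ with hc
      have hcO : c ∈ O := O.mul_mem (O.neg_mem (natCast_mem O m)) hpO
      have hc1 : (5 : ℂ) + 8 * c = -(p : ℂ)⁻¹ := by
        rw [hc]; field_simp; linear_combination hmC
      have hC : (5 : PowerSeries ℂ) + 8 * PowerSeries.C c = -PowerSeries.C ((p : ℂ)⁻¹) := by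
        rw [← map_ofNat (PowerSeries.C (R := ℂ)) 5, ← map_ofNat (PowerSeries.C (R := ℂ)) 8,
          ← map_mul, ← map_add, hc1, map_neg]
      refine ⟨PowerSeries.C c - (p : ℂ)⁻¹ • Up p h,
        (coeffRing O).sub_mem (C_mem_coeffRing O hcO)
          (smul_mem_coeffRing O hpO (Up_mem O p hh)), Or.inr ?_⟩
      rw [hUp, PowerSeries.smul_eq_C_mul, PowerSeries.smul_eq_C_mul]
      linear_combination (-1 : PowerSeries ℂ) * hC
  obtain ⟨h', hh', hX⟩ := key
  obtain ⟨Q, hQ, hB⟩ := Fermat.Agent.S16.helper3076.Bpoly_qExpansion_expand O p hp0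
    (X := -((p : ℂ)⁻¹ • Up p (1 + 8 * h))) ⟨h', hh', hX⟩
  exact ⟨Q, hQ, by rw [Zzero, hB, inv_smul_mul_256]⟩

/-! ## The trace ending -/

/-- The additive subgroup `2 · O` of `ℂ`. -/
def twoO (O : Subring ℂ) : AddSubgroup ℂ :=
  O.toAddSubgroup.map (AddMonoidHom.mulLeft (2 : ℂ))

theorem mem_twoO_iff (O : Subring ℂ) (x : ℂ) : x ∈ twoO O ↔ ∃ c ∈ O, x = 2 * c := by
  rw [twoO, AddSubgroup.mem_map]
  constructor
  · rintro ⟨c, hc, rfl⟩
    exact ⟨c, hc, rfl⟩
  · rintro ⟨c, hc, rfl⟩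
    exact ⟨c, hc, rfl⟩

/-- The leading coefficients of `Δ^(2p) · V_p(Δ)^p`: it vanishes to order `> 2p + 1`. -/
theorem coeff_main₁ {p : ℕ} (hp0 : p ≠ 0) (hp2 : 2 ≤ p) {n : ℕ} (hn : n ≤ 2 * p + 1) :
    PowerSeries.coeff n (qExpansion 1 discriminant ^ (2 * p) *
      PowerSeries.expand p hp0 (qExpansion 1 discriminant) ^ p) = 0 := by
  set u : PowerSeries ℂ := ModularCurve.dedekindEtaUnit.map (Int.castRingHom ℂ) with hu
  have h1 : qExpansion 1 discriminant ^ (2 * p) *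
      PowerSeries.expand p hp0 (qExpansion 1 discriminant) ^ p =
      PowerSeries.X ^ (2 * p + p * p) * (u ^ (2 * p) * PowerSeries.expand p hp0 u ^ p) := by
    rw [qExpansion_discriminant_eq_X_mul, map_mul, PowerSeries.expand_X]
    ring
  rw [h1, PowerSeries.coeff_X_pow_mul', if_neg]
  have : 2 * p ≤ p * p := Nat.mul_le_mul_right p hp2
  omega

/-- The leading coefficients of `Δ^(2p) · U_p(Δ^p) = q^(2p+1) + …`. -/
theorem coeff_main₂ {p : ℕ} (hp0 : p ≠ 0) (n : ℕ) :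
    PowerSeries.coeff n (qExpansion 1 discriminant ^ (2 * p) *
      Up p (qExpansion 1 discriminant ^ p)) =
      if n < 2 * p + 1 then 0 else if n = 2 * p + 1 then 1 else
        PowerSeries.coeff n (qExpansion 1 discriminant ^ (2 * p) *
          Up p (qExpansion 1 discriminant ^ p)) := by
  set u : PowerSeries ℂ := ModularCurve.dedekindEtaUnit.map (Int.castRingHom ℂ) with hu
  have hu0 : PowerSeries.constantCoeff u = 1 := by
    rw [hu, ← PowerSeries.coeff_zero_eq_constantCoeff, PowerSeries.coeff_map,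
      PowerSeries.coeff_zero_eq_constantCoeff, ModularCurve.constantCoeff_dedekindEtaUnit]
    simp
  have h1 : qExpansion 1 discriminant ^ (2 * p) * Up p (qExpansion 1 discriminant ^ p) =
      PowerSeries.X ^ (2 * p + 1) * (u ^ (2 * p) * Up p (u ^ p)) := by
    rw [qExpansion_discriminant_eq_X_mul, mul_pow, mul_pow, Up_X_pow_mul hp0]
    ring
  split_ifs with hlt heq
  · rw [h1, PowerSeries.coeff_X_pow_mul', if_neg (by omega)]
  · rw [h1, heq, PowerSeries.coeff_X_pow_mul', if_pos le_rfl, Nat.sub_self,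
      PowerSeries.coeff_zero_eq_constantCoeff, map_mul, map_pow, hu0, one_pow, one_mul,
      ← PowerSeries.coeff_zero_eq_constantCoeff, coeff_Up, Nat.mul_zero,
      PowerSeries.coeff_zero_eq_constantCoeff, map_pow, hu0, one_pow]
  · rfl

/-- **Trace ending of the 2-adic case.**  Let `p ≡ 3 (mod 4)` be prime, `O ⊆ ℂ` a subring with
`1/p ∈ O` and `1/2 ∉ O`, and `A = 1 + 8 h` with `h ∈ O⟦q⟧` (the `q`-expansion of a weight-2 form
`H` on `Γ₀(p)`).  Then there is NO level-one form `N` of weight `k`, `⌊k/12⌋ ≤ 2p`, whose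
`q`-expansion is `c₁ • (Zinf^(2p) * Zzero^p) + c₂ • U_p (Zzero^(2p) * Zinf^p)` with `c₁ ∈ O` and
`c₂` a unit of `O`.  (For `Z = B(H)/256` and `F = Z^(2p) · (Z|W)^p` of weight `24 p`, the trace of
`F` to level one is such an `N`, with `c₁, c₂` powers of `p`.) -/
theorem trace_ending {p : ℕ} (hp : p.Prime) (hp4 : p % 4 = 3) (O : Subring ℂ)
    (hpO : (p : ℂ)⁻¹ ∈ O) (h2 : (2 : ℂ)⁻¹ ∉ O)
    {A : PowerSeries ℂ} (hA : ∃ h ∈ coeffRing O, A = 1 + 8 * h)
    {c₁ c₂ c₂' : ℂ} (hc₁ : c₁ ∈ O) (hc₂ : c₂ ∈ O) (hc₂' : c₂' ∈ O) (hc : c₂' * c₂ = 1)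
    {k : ℤ} (hk : k.toNat / 12 ≤ 2 * p) (N : ModularForm 𝒮ℒ k)
    (hN : qExpansion 1 N = c₁ • (Zinf A ^ (2 * p) * Zzero p hp.ne_zero A ^ p) +
      c₂ • Up p (Zzero p hp.ne_zero A ^ (2 * p) * Zinf A ^ p)) : False := by
  have hp0 : p ≠ 0 := hp.ne_zero
  set D : PowerSeries ℂ := qExpansion 1 discriminant with hD
  set Dp : PowerSeries ℂ := PowerSeries.expand p hp0 D with hDp
  have hDm : D ∈ coeffRing O := discriminant_mem_coeffRing O
  have hDpm : Dp ∈ coeffRing O := Fermat.Agent.S16.helper3076.expand_mem_coeffRing O p hp0 hDm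
  have hZ : Cong O (Zinf A) D := Zinf_cong O hA
  have hZ' : Cong O (Zzero p hp0 A) Dp := Zzero_cong O hp0 hp4 hpO hA
  have hT1 : Cong O (Zinf A ^ (2 * p) * Zzero p hp0 A ^ p) (D ^ (2 * p) * Dp ^ p) :=
    (hZ.pow hDm _).mul (hZ'.pow hDpm _) ((coeffRing O).pow_mem hDm _)
      ((coeffRing O).pow_mem hDpm _)
  have hT2 : Cong O (Zzero p hp0 A ^ (2 * p) * Zinf A ^ p) (Dp ^ (2 * p) * D ^ p) :=
    (hZ'.pow hDpm _).mul (hZ.pow hDm _) ((coeffRing O).pow_mem hDpm _)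
      ((coeffRing O).pow_mem hDm _)
  have hUp : Up p (Dp ^ (2 * p) * D ^ p) = D ^ (2 * p) * Up p (D ^ p) := by
    rw [hDp, ← map_pow, Up_expand_mul]
  have hT2' : Cong O (Up p (Zzero p hp0 A ^ (2 * p) * Zinf A ^ p)) (D ^ (2 * p) * Up p (D ^ p)) := by
    have := hT2.mapUp p
    rwa [hUp] at this
  have hNc : Cong O (qExpansion 1 N)
      (c₁ • (D ^ (2 * p) * Dp ^ p) + c₂ • (D ^ (2 * p) * Up p (D ^ p))) := by
    rw [hN]
    exact (hT1.smul hc₁).add (hT2'.smul hc₂)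
  -- coefficients of the main term
  have hcoeff : ∀ n, n ≤ 2 * p + 1 →
      PowerSeries.coeff n (c₁ • (D ^ (2 * p) * Dp ^ p) + c₂ • (D ^ (2 * p) * Up p (D ^ p))) =
        if n = 2 * p + 1 then c₂ else 0 := by
    intro n hn
    rw [map_add, PowerSeries.coeff_smul, PowerSeries.coeff_smul, hD, hDp,
      coeff_main₁ hp0 hp.two_le hn, coeff_main₂ hp0 n]
    by_cases hlt : n < 2 * p + 1
    · rw [if_pos hlt, if_neg (by omega)]; ring
    · have heq : n = 2 * p + 1 := by omega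
      rw [if_neg hlt, if_pos heq, if_pos heq]; ring
  -- Sturm
  have hlow : ∀ n : ℕ, n < 2 * p + 1 → PowerSeries.coeff n (qExpansion 1 N) ∈ twoO O := by
    intro n hn
    obtain ⟨c, hcO, hcn⟩ := hNc.coeff n
    rw [hcoeff n hn.le, if_neg (by omega), zero_add] at hcn
    exact (mem_twoO_iff O _).mpr ⟨c, hcO, hcn⟩
  have htop := Fermat.Agent.S16.helper5604.levelOne_not_congr_pow (twoO O) N (2 * p + 1)
    (by omega) hlow
  obtain ⟨c, hcO, hcn⟩ := hNc.coeff (2 * p + 1)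
  rw [hcoeff _ le_rfl, if_pos rfl] at hcn
  obtain ⟨c', hc'O, hc'⟩ := (mem_twoO_iff O _).mp htop
  -- `c₂ = 2 (c' - c)`, hence `1/2 = c₂' (c' - c) ∈ O`
  apply h2
  have h12 : (2 : ℂ)⁻¹ = c₂' * (c' - c) := by
    have h3 : c₂ = 2 * (c' - c) := by linear_combination hc' - hcn
    have h4 : c₂' * (2 * (c' - c)) = 1 := by rw [← h3]; exact hc
    exact (eq_inv_of_mul_eq_one_left
      (show c₂' * (c' - c) * 2 = 1 by linear_combination h4)).symm
  rw [h12]
  exact O.mul_mem hc₂' (O.sub_mem hc'O hcO)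

end

end Fermat.Agent.S16.helper1583
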