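import Fermat.Agent.S16.helper9058_LBSpec
import Fermat.Agent.S16.helper8671_Shimura
import Fermat.Agent.S16.helper1461_ShimuraLift
import Fermat.Agent.S16.helper262_PeriodHeckeHom

/-!
# S16: the lower bound, closed (helper1808)

`lowerBound p : ∀ t : HeckeAlg, phi p t = 0 → (eisensteinNumerator p : ℤ) ∣ eis p t`,
hypothesis-free, for every prime `p`.

Pure wiring of modules that are on main:
* `helper9058.lowerBound_of_TU`  : the Shimura-class argument (uses S21 and S23);
* `helper8671.shimuraHom`        : the Shimura class `ψ0` and its eigen-lemmas;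
* `helper1461.shimura_lift_helper8671` : the integral parabolic lift of `ψ0`;
* `helper2138.heckeHomT/U`       : coset-transfer operators on `Hom(Γ₀(p), A)`, naturality,
                                   commutation with the Prelude involution, `d`-relations;
* `helper262.periodMap_heckeTLin/ULin` : equivariance of the period map.
-/

set_option autoImplicit false

namespace Fermat.Agent.S16.helper1808

open ModularCurve ModularCurve.Period CuspForm CongruenceSubgroup
open scoped MatrixGroups

noncomputable section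

/-- The natural operator attached to a Hecke correspondence. -/
def natOpOfCorr {p : ℕ} {ι : Type} [Fintype ι] (C : helper2138.Corr (Gamma0 p) ι) :
    helper9058.NatOp p where
  op A _ :=
    { toFun := C.op A
      map_zero' := C.op_zero A
      map_add' := C.op_add A }
  nat _ _ _ _ f φ := C.op_comp f φ

@[simp] lemma natOpOfCorr_op {p : ℕ} {ι : Type} [Fintype ι] (C : helper2138.Corr (Gamma0 p) ι)
    (A : Type) [AddCommGroup A] (φ : Additive (Gamma0 p) →+ A) :
    (natOpOfCorr C).op A φ = C.op A φ := rfl

/-- (EIG) for `T_l`: the Shimura class is an eigenvector with eigenvalue `l + 1`. -/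
theorem heckeHomT_shimuraHom (p l : ℕ) [Fact p.Prime] [Fact l.Prime] (hlp : ¬ l ∣ p) :
    helper2138.heckeHomT p l hlp (ZMod (eisensteinNumerator p)) (helper8671.shimuraHom p) =
      ((l : ℤ) + 1) • helper8671.shimuraHom p := by
  have hl : l.Prime := Fact.out
  have hp : p.Prime := Fact.out
  have hcop : Nat.Coprime l p := (Nat.Prime.coprime_iff_not_dvd hl).mpr hlp
  refine AddMonoidHom.ext fun γ' => ?_
  obtain ⟨γ, rfl⟩ := Additive.ofMul.surjective γ'
  rw [helper2138.heckeHomT_apply]
  let a : OnePoint (ZMod l) → (ZMod p)ˣ := fun x => x.elim 1 (fun _ => ZMod.unitOfCoprime l hcop)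
  have ha : ∀ x : OnePoint (ZMod l),
      ((a x : (ZMod p)ˣ) : ZMod p) = ((helper2138.eT l x : ℤ) : ZMod p) := by
    intro x
    induction x using OnePoint.rec with
    | infty => simp [a]
    | coe j => simp [a]
  have key := helper8671.sum_shimuraHom_of_units p a γ
    (fun x => (helper2138.corrT p l hlp).g x γ) ((helper2138.corrT p l hlp).σEquiv γ) (fun x => by
      apply Units.ext
      rw [Units.val_mul, Units.val_mul, helper8671.dUnit_coe, helper8671.dUnit_coe, ha, ha,
        helper2138.Corr.σEquiv_apply, helper2138.corrT_d_rel p l hlp x γ, mul_comm])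
  rw [key]
  have hcard : Fintype.card (OnePoint (ZMod l)) = l + 1 := by
    haveI : NeZero l := ⟨hl.ne_zero⟩
    have h1 : Fintype.card (OnePoint (ZMod l)) = Fintype.card (Option (ZMod l)) :=
      Fintype.card_congr (Equiv.refl _)
    rw [h1, Fintype.card_option, ZMod.card]
  rw [hcard, AddMonoidHom.smul_apply, ← natCast_zsmul]
  push_cast
  rfl

/-- (EIG) for `U_p`: the Shimura class is fixed. -/
theorem heckeHomU_shimuraHom (p : ℕ) [Fact p.Prime] :
    haveI : NeZero p := ⟨(Fact.out : p.Prime).ne_zero⟩
    helper2138.heckeHomU p p (dvd_refl p) (ZMod (eisensteinNumerator p))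
      (helper8671.shimuraHom p) = helper8671.shimuraHom p := by
  have : NeZero p := ⟨(Fact.out : p.Prime).ne_zero⟩
  refine AddMonoidHom.ext fun γ' => ?_
  obtain ⟨γ, rfl⟩ := Additive.ofMul.surjective γ'
  rw [helper2138.heckeHomU_apply,
    Finset.sum_congr rfl (fun j _ => helper8671.shimuraHom_eq_of_entry_eq p
      (helper2138.corrU_d_rel p p (dvd_refl p) j γ)),
    Finset.sum_const, Finset.card_univ, ZMod.card, helper8671.prime_nsmul_eq]

/-- (GEN-T): the `hT` hypothesis of `helper9058.lowerBound_of_TU`. -/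
theorem genT (p : ℕ) [Fact p.Prime] (l : ℕ) (hl : l.Prime) (hlp : ¬ l ∣ p) :
    ∃ Θ : helper9058.NatOp p,
      (∀ f : CuspForm (Gamma0 p) 2,
        Θ.op ℂ (periodMap p f) = periodMap p (heckeTLin 2 hl hlp f)) ∧
      (∀ φ : Additive (Gamma0 p) →+ ℂ,
        Θ.op ℂ (charInvolution p ℂ ℂ φ) = charInvolution p ℂ ℂ (Θ.op ℂ φ)) ∧
      Θ.op (ZMod (eisensteinNumerator p)) (helper8671.shimuraHom p) =
        ((l : ℤ) + 1) • helper8671.shimuraHom p := by
  have : Fact l.Prime := ⟨hl⟩
  haveI : NeZero p := ⟨(Fact.out : p.Prime).ne_zero⟩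
  refine ⟨natOpOfCorr (helper2138.corrT p l hlp), fun f => ?_, fun φ => ?_, ?_⟩
  · exact (helper262.periodMap_heckeTLin p l hlp f).symm
  · exact helper2138.heckeHomT_charInvolution p l hlp ℂ ℂ φ
  · exact heckeHomT_shimuraHom p l hlp

/-- (GEN-U): the `hU` hypothesis of `helper9058.lowerBound_of_TU`. -/
theorem genU (p : ℕ) [Fact p.Prime] :
    ∃ Θ : helper9058.NatOp p,
      (∀ f : CuspForm (Gamma0 p) 2,
        Θ.op ℂ (periodMap p f) = periodMap p (heckeULin 2 (dvd_refl p) f)) ∧
      (∀ φ : Additive (Gamma0 p) →+ ℂ,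
        Θ.op ℂ (charInvolution p ℂ ℂ φ) = charInvolution p ℂ ℂ (Θ.op ℂ φ)) ∧
      Θ.op (ZMod (eisensteinNumerator p)) (helper8671.shimuraHom p) =
        helper8671.shimuraHom p := by
  haveI : NeZero p := ⟨(Fact.out : p.Prime).ne_zero⟩
  refine ⟨natOpOfCorr (helper2138.corrU p p (dvd_refl p)), fun f => ?_, fun φ => ?_, ?_⟩
  · exact (helper262.periodMap_heckeULin p p (dvd_refl p) f).symm
  · exact helper2138.heckeHomU_charInvolution p p (dvd_refl p) ℂ ℂ φ
  · exact heckeHomU_shimuraHom p

/-- **S16, lower bound** (hypothesis-free): every Hecke polynomial killing the integral lattice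
has Eisenstein value divisible by `eisensteinNumerator p`. -/
theorem lowerBound (p : ℕ) [Fact p.Prime] :
    ∀ t : HeckeAlg, helper2246.phi p t = 0 →
      (eisensteinNumerator p : ℤ) ∣ helper2246.eis p t :=
  helper9058.lowerBound_of_TU p (helper8671.shimuraHom p)
    (helper8671.shimuraHom_surjective p 1)
    (helper1461.shimura_lift_helper8671 p)
    (genT p) (genU p)

end

end Fermat.Agent.S16.helper1808
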