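/-
helper9202 — S16-UB-ASM: the arithmetic assembly of the UPPER bound of S16.

Inputs (hypothesis-passing, all coefficients via the Prelude `ModularFormClass.qCoeff`):
* (EIS) a weight-2 form `E` on `Γ₀(p)` with `a₀ = (p-1)/24`, `a_k = σ k` (`k ≥ 1`);
* (HC)  `a₀(G) = c ∈ ℤ`, `M ∣ a_k(G)` for `k ≥ 1`  ⟹  `M ∣ 24 c`;
* (A1)  `a_k(G) ∈ ℤ` for `k ≥ 1`  ⟹  `(p+1) a₀(G) ∈ ℤ`;
* (T8)  `p ≡ 7 mod 8`: no `G` with `a₀(G)` an odd integer and `8 ∣ a_k(G)` for `k ≥ 1`.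

Output: a cusp form with integer `q`-coefficients congruent to `∑ σ k q^k` modulo `M` forces
`M ∣ eisensteinNumerator p = (p-1)/gcd(p-1,12)`.
-/
import Mathlib
import Fermat.Prelude.Def_FLTPrelim_Modularity
import Fermat.Prelude.Def_ModularCurve_ModularUnit
import Fermat.Prelude.Thm_CongruenceSubgroup_one_mem_strictPeriods_Gamma0

set_option autoImplicit false

namespace Fermat.Agent.S16.helper9202

open ModularFormClass CongruenceSubgroup UpperHalfPlane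

section QCoeff

variable {N : ℕ}

theorem qCoeff_smul (c : ℂ) (G : ModularForm (Gamma0 N) 2) (n : ℕ) :
    qCoeff (⇑(c • G)) n = c * qCoeff G n := by
  change (qExpansion 1 (⇑(c • G))).coeff n = c * (qExpansion 1 G).coeff n
  rw [FunLike.coe_smul,
    ModularForm.qExpansion_smul one_pos (one_mem_strictPeriods_Gamma0 N) c G]
  simp

theorem qCoeff_sub (G H : ModularForm (Gamma0 N) 2) (n : ℕ) :
    qCoeff (⇑(G - H)) n = qCoeff G n - qCoeff H n := by
  change (qExpansion 1 (⇑(G - H))).coeff n = (qExpansion 1 G).coeff n - (qExpansion 1 H).coeff n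
  rw [FunLike.coe_sub,
    ModularForm.qExpansion_sub one_pos (one_mem_strictPeriods_Gamma0 N) G H, map_sub]

theorem qCoeff_toModularForm (f : CuspForm (Gamma0 N) 2) (n : ℕ) :
    qCoeff (⇑(CuspForm.toModularFormₗ f)) n = qCoeff f n := rfl

theorem qCoeff_cusp_zero (f : CuspForm (Gamma0 N) 2) : qCoeff f 0 = 0 :=
  CuspFormClass.qExpansion_coeff_zero f one_pos (one_mem_strictPeriods_Gamma0 N)

end QCoeff

section Arith

/-- The arithmetic core: `24 ∣ (p+1) r` and (for `p ≡ 7 mod 8`) `2 ∣ r` force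
`gcd(p-1,12) ∣ r`. -/
theorem gcd_dvd_of_dvd (p r : ℕ) (hp : p.Prime) (hp5 : 5 ≤ p) (h24 : 24 ∣ (p + 1) * r)
    (h8 : p % 8 = 7 → 2 ∣ r) : Nat.gcd (p - 1) 12 ∣ r := by
  have hodd : p % 2 = 1 := by
    rcases hp.eq_two_or_odd with h | h
    · omega
    · exact h
  have h3 : p % 3 ≠ 0 := by
    intro h
    have : 3 ∣ p := Nat.dvd_of_mod_eq_zero h
    have := (Nat.prime_dvd_prime_iff_eq Nat.prime_three hp).mp this
    omega
  have hg : Nat.gcd (p - 1) 12 = Nat.gcd ((p - 1) % 12) 12 := by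
    rw [Nat.gcd_comm, Nat.gcd_rec]
  obtain ⟨m, hm⟩ := h24
  obtain ⟨q, c, hq, hc⟩ : ∃ q c, p = 24 * q + c ∧ c < 24 := ⟨p / 24, p % 24, by omega, by omega⟩
  have hexp : (p + 1) * r = 24 * (q * r) + (c + 1) * r := by rw [hq]; ring
  rw [hexp] at hm
  have hc' : c = 1 ∨ c = 5 ∨ c = 7 ∨ c = 11 ∨ c = 13 ∨ c = 17 ∨ c = 19 ∨ c = 23 := by omega
  rw [hg]
  rcases hc' with rfl | rfl | rfl | rfl | rfl | rfl | rfl | rfl
  · have : (p - 1) % 12 = 0 := by omega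
    rw [this]; norm_num
    omega
  · have : (p - 1) % 12 = 4 := by omega
    rw [this]; norm_num
    omega
  · have : (p - 1) % 12 = 6 := by omega
    rw [this]; norm_num
    have h2 : 2 ∣ r := h8 (by omega)
    omega
  · have : (p - 1) % 12 = 10 := by omega
    rw [this]; norm_num
    omega
  · have : (p - 1) % 12 = 0 := by omega
    rw [this]; norm_num
    omega
  · have : (p - 1) % 12 = 4 := by omega
    rw [this]; norm_num
    omega
  · have : (p - 1) % 12 = 6 := by omega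
    rw [this]; norm_num
    omega
  · have : (p - 1) % 12 = 10 := by omega
    rw [this]; norm_num
    have h2 : 2 ∣ r := h8 (by omega)
    omega

end Arith

/-- **Upper-bound assembly (core).**  `σ` is the coefficient sequence of the Eisenstein series. -/
theorem upper_core (p : ℕ) (hp : p.Prime) (hp5 : 5 ≤ p) (σ : ℕ → ℤ)
    (E : ModularForm (Gamma0 p) 2) (hE0 : qCoeff E 0 = ((p : ℂ) - 1) / 24)
    (hEk : ∀ k, 1 ≤ k → qCoeff E k = (σ k : ℂ))
    (hHC : ∀ (G : ModularForm (Gamma0 p) 2) (c : ℤ) (M : ℕ), qCoeff G 0 = (c : ℂ) →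
      (∀ k, 1 ≤ k → ∃ z : ℤ, qCoeff G k = (M : ℂ) * z) → (M : ℤ) ∣ 24 * c)
    (hA1 : ∀ G : ModularForm (Gamma0 p) 2, (∀ k, 1 ≤ k → ∃ z : ℤ, qCoeff G k = (z : ℂ)) →
      ∃ z : ℤ, ((p : ℂ) + 1) * qCoeff G 0 = (z : ℂ))
    (hT8 : p % 8 = 7 → ∀ (G : ModularForm (Gamma0 p) 2) (u : ℤ), Odd u → qCoeff G 0 = (u : ℂ) →
      (∀ k, 1 ≤ k → ∃ z : ℤ, qCoeff G k = 8 * (z : ℂ)) → False)
    (M : ℕ) (f : CuspForm (Gamma0 p) 2) (a : ℕ → ℤ) (ha : ∀ k, qCoeff f k = (a k : ℂ))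
    (hcong : ∀ k, 1 ≤ k → (M : ℤ) ∣ a k - σ k) :
    M ∣ ModularCurve.eisensteinNumerator p := by
  have hp1 : 1 ≤ p := by omega
  -- the form `G0 = E - f`
  set G0 : ModularForm (Gamma0 p) 2 := E - CuspForm.toModularFormₗ f with hG0
  have hG00 : qCoeff G0 0 = ((p : ℂ) - 1) / 24 := by
    rw [hG0, qCoeff_sub, qCoeff_toModularForm, qCoeff_cusp_zero, hE0, sub_zero]
  choose z hz using fun k (hk : 1 ≤ k) => hcong k hk
  have hG0k : ∀ k (hk : 1 ≤ k), qCoeff G0 k = -((M : ℂ) * (z k hk : ℂ)) := by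
    intro k hk
    rw [hG0, qCoeff_sub, qCoeff_toModularForm, hEk k hk, ha k]
    have h := hz k hk
    have h' : ((a k : ℤ) : ℂ) - (σ k : ℂ) = (M : ℂ) * (z k hk : ℂ) := by
      exact_mod_cast congrArg (Int.cast : ℤ → ℂ) h
    linear_combination -h'
  -- Step 1 (HC): `M ∣ p - 1`
  have hM1 : M ∣ p - 1 := by
    have h := hHC ((24 : ℂ) • G0) ((p : ℤ) - 1) (24 * M)
      (by rw [qCoeff_smul, hG00]; push_cast; ring)
      (fun k hk => ⟨-(z k hk), by rw [qCoeff_smul, hG0k k hk]; push_cast; ring⟩)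
    have h2 : (M : ℤ) ∣ (p : ℤ) - 1 := by
      have h3 : (24 : ℤ) * (M : ℤ) ∣ 24 * ((p : ℤ) - 1) := by exact_mod_cast h
      exact (mul_dvd_mul_iff_left (by norm_num : (24 : ℤ) ≠ 0)).mp h3
    have h4 : ((M : ℕ) : ℤ) ∣ ((p - 1 : ℕ) : ℤ) := by
      rw [Nat.cast_sub hp1]; exact_mod_cast h2
    exact Int.natCast_dvd_natCast.mp h4
  obtain ⟨r, hr⟩ := hM1
  have hM0 : M ≠ 0 := by
    rintro rfl
    omega
  have hMC : (M : ℂ) ≠ 0 := by exact_mod_cast hM0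
  have hpr : (p : ℂ) - 1 = (M : ℂ) * (r : ℂ) := by
    have : ((p - 1 : ℕ) : ℂ) = ((M * r : ℕ) : ℂ) := by rw [hr]
    rw [Nat.cast_sub hp1] at this
    push_cast at this
    exact this
  -- Step 2 (A1): `24 ∣ (p + 1) * r`
  have h24 : 24 ∣ (p + 1) * r := by
    obtain ⟨w, hw⟩ := hA1 ((M : ℂ)⁻¹ • G0)
      (fun k hk => ⟨-(z k hk), by
        rw [qCoeff_smul, hG0k k hk]; push_cast; field_simp⟩)
    rw [qCoeff_smul, hG00, hpr] at hw
    have hw' : (((p + 1) * r : ℕ) : ℂ) = ((24 * w : ℤ) : ℂ) := by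
      push_cast
      field_simp at hw
      linear_combination hw
    have hw'' : (((p + 1) * r : ℕ) : ℤ) = 24 * w := by exact_mod_cast hw'
    have : (24 : ℤ) ∣ (((p + 1) * r : ℕ) : ℤ) := ⟨w, hw''⟩
    exact_mod_cast this
  -- Step 3 (T8): `p ≡ 7 mod 8 → 2 ∣ r`
  have h8 : p % 8 = 7 → 2 ∣ r := by
    intro hp8
    by_contra hodd
    have hrodd : Odd (r : ℤ) := by
      have : Odd r := Nat.odd_iff.mpr (by omega)
      exact_mod_cast this
    refine hT8 hp8 (((24 : ℂ) * (M : ℂ)⁻¹) • G0) (r : ℤ) hrodd ?_ ?_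
    · rw [qCoeff_smul, hG00, hpr]; push_cast; field_simp
    · intro k hk
      refine ⟨-(3 * z k hk), ?_⟩
      rw [qCoeff_smul, hG0k k hk]; push_cast; field_simp; ring
  -- Step 4: arithmetic
  have hg : Nat.gcd (p - 1) 12 ∣ r := gcd_dvd_of_dvd p r hp hp5 h24 h8
  obtain ⟨s, hs⟩ := hg
  unfold ModularCurve.eisensteinNumerator
  have hgpos : 0 < Nat.gcd (p - 1) 12 := Nat.gcd_pos_of_pos_right _ (by norm_num)
  have h1 : p - 1 = (M * s) * Nat.gcd (p - 1) 12 := by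
    calc p - 1 = M * r := hr
      _ = (M * s) * Nat.gcd (p - 1) 12 := by rw [hs]; ring
  exact ⟨s, Nat.div_eq_of_eq_mul_left hgpos h1⟩

end Fermat.Agent.S16.helper9202
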