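import Fermat.Agent.S16.helper2246_Adapters
import Fermat.Agent.S16.helper969_SmallPrimes
import Fermat.Agent.S16.helper9058_LBSpec
import Fermat.Agent.S16.helper8671_Shimura
import Fermat.Agent.S16.helper9202_UpperAsm
import Fermat.Agent.S16.helper8794_EisensteinP
import Fermat.Agent.S16.helper1566_OneTrace

/-!
# S16: master file (helper1808, acting captain)

The frozen statement of S16 from the leaf statements that are still missing, in the exact
shapes consumed by the modules that are already on main.  Nothing here is new mathematics: this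
file only fixes the interfaces and checks that they compose.

Already on main and used here
* `helper2246.result_of_gcd`      : frozen statement from (LB) and (UB) in `HeckeAlg` form;
* `helper969.frozen_of_five_le`   : the primes `p = 2, 3`;
* `helper9058.lowerBound_of_TU`   : (LB) from the Shimura class, S21 and S23;
* `helper8671.shimuraHom`         : the Shimura class (THE class `ψ0` of the whole project);
* `helper9202.upper_core`         : (UB) arithmetic from (EIS), (HC), (A1), (T8);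
* `helper8794.eisP`               : (EIS), the Eisenstein series of level `p`;
* `helper1566.onetrace`           : (A1) from `TraceFour`, `UpInvol`, (EIS).

Leaves still missing (one `Prop` each, see the docstrings)
* lower bound : `Stmt_Lift`, `Stmt_GenT`, `Stmt_GenU`;
* upper bound : `Stmt_Dual`, `Stmt_HC`, `helper1566.TraceFour`, `helper1566.UpInvol`,
  `Stmt_T8` (or `Stmt_T8'`).

Main theorem: `s16_of_leaves`.
-/

set_option autoImplicit false

namespace Fermat.Agent.S16.helper1808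

open ModularCurve ModularCurve.Period CuspForm CongruenceSubgroup ModularFormClass
open scoped MatrixGroups

noncomputable section

/-! ## Lower bound: the three missing leaves -/

/-- **(LIFT)** A homomorphism `Γ₀(p) → ℤ/n` killing the elements of trace `± 2` and the elements
of finite order is the reduction of an integral parabolic homomorphism. -/
def Stmt_Lift (p : ℕ) : Prop :=
  ∀ (n : ℕ) (ψ0 : Additive (Gamma0 p) →+ ZMod n),
    IsParabolicHom (Gamma0 p) ψ0 →
    (∀ γ : Gamma0 p, IsOfFinOrder γ → ψ0 (Additive.ofMul γ) = 0) →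
    ∃ ψ : Additive (Gamma0 p) →+ ℤ, ψ ∈ parabolicHoms ℤ (Gamma0 p) ℤ ∧
      ∀ γ, ((ψ γ : ℤ) : ZMod n) = ψ0 γ

/-- **(GEN-T)** For every prime `l ≠ p` there is a natural additive operator on
`Hom(Γ₀(p), A)` which is `T_l` on periods (EQ), commutes with the Prelude involution (INV) and
multiplies the Shimura class by `l + 1` (EIG). -/
def Stmt_GenT (p : ℕ) [Fact p.Prime] : Prop :=
  ∀ (l : ℕ) (hl : l.Prime) (hlp : ¬ l ∣ p), ∃ Θ : helper9058.NatOp p,
    (∀ f : CuspForm (Gamma0 p) 2,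
      Θ.op ℂ (periodMap p f) = periodMap p (heckeTLin 2 hl hlp f)) ∧
    (∀ φ : Additive (Gamma0 p) →+ ℂ,
      Θ.op ℂ (charInvolution p ℂ ℂ φ) = charInvolution p ℂ ℂ (Θ.op ℂ φ)) ∧
    Θ.op (ZMod (eisensteinNumerator p)) (helper8671.shimuraHom p) =
      ((l : ℤ) + 1) • helper8671.shimuraHom p

/-- **(GEN-U)** The same for `U_p`, with eigenvalue `1` on the Shimura class. -/
def Stmt_GenU (p : ℕ) [Fact p.Prime] : Prop :=
  ∃ Θ : helper9058.NatOp p,
    (∀ f : CuspForm (Gamma0 p) 2,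
      Θ.op ℂ (periodMap p f) = periodMap p (heckeULin 2 (dvd_refl p) f)) ∧
    (∀ φ : Additive (Gamma0 p) →+ ℂ,
      Θ.op ℂ (charInvolution p ℂ ℂ φ) = charInvolution p ℂ ℂ (Θ.op ℂ φ)) ∧
    Θ.op (ZMod (eisensteinNumerator p)) (helper8671.shimuraHom p) = helper8671.shimuraHom p

/-- The lower bound of `helper2246.result_of_gcd` from the three leaves. -/
theorem lb_of_leaves (p : ℕ) [Fact p.Prime] (hL : Stmt_Lift p) (hT : Stmt_GenT p)
    (hU : Stmt_GenU p) :
    ∀ t : HeckeAlg, helper2246.phi p t = 0 →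
      (eisensteinNumerator p : ℤ) ∣ helper2246.eis p t :=
  helper9058.lowerBound_of_TU p (helper8671.shimuraHom p)
    (helper8671.shimuraHom_surjective p 1)
    (hL _ _ (helper8671.shimuraHom_isParabolicHom p)
      (helper8671.shimuraHom_eq_zero_of_isOfFinOrder p))
    hT hU

/-! ## Upper bound: the missing leaves -/

/-- **(DUAL)** Hecke duality: if `M` divides the Eisenstein value of every Hecke polynomial
killing the integral lattice, there is a cusp form with integer `q`-coefficients congruent to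
`∑ σ'(k) q^k` modulo `M`. (`M = 0` is allowed: then the congruence is an equality.) -/
def Stmt_Dual (p : ℕ) [Fact p.Prime] : Prop :=
  ∀ M : ℕ, (∀ t : HeckeAlg, helper2246.phi p t = 0 → (M : ℤ) ∣ helper2246.eis p t) →
    ∃ (f : CuspForm (Gamma0 p) 2) (a : ℕ → ℤ), (∀ k, qCoeff f k = (a k : ℂ)) ∧
      ∀ k, 1 ≤ k → (M : ℤ) ∣ a k - (helper8794.sigmaPrime p k : ℤ)

/-- **(HC)** Hecke commutator bound: `a₀(G) = c ∈ ℤ` and `M ∣ a_k(G)` for all `k ≥ 1` force
`M ∣ 24 c`. -/
def Stmt_HC (p : ℕ) : Prop :=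
  ∀ (G : ModularForm (Gamma0 p) 2) (c : ℤ) (M : ℕ), qCoeff G 0 = (c : ℂ) →
    (∀ k, 1 ≤ k → ∃ z : ℤ, qCoeff G k = (M : ℂ) * z) → (M : ℤ) ∣ 24 * c

/-- **(T8)** For `p ≡ 7 mod 8` there is no weight-2 form on `Γ₀(p)` with odd integer constant
term and all higher coefficients in `8ℤ`. -/
def Stmt_T8 (p : ℕ) : Prop :=
  p % 8 = 7 → ∀ (G : ModularForm (Gamma0 p) 2) (u : ℤ), Odd u → qCoeff G 0 = (u : ℂ) →
    (∀ k, 1 ≤ k → ∃ z : ℤ, qCoeff G k = 8 * (z : ℂ)) → False

/-- **(T8')** The same in the form "`q`-expansion `≡ 1 mod 8`". -/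
def Stmt_T8' (p : ℕ) : Prop :=
  p % 8 = 7 → ∀ H : ModularForm (Gamma0 p) 2, (∃ z : ℤ, qCoeff H 0 = 1 + 8 * (z : ℂ)) →
    (∀ k, 1 ≤ k → ∃ z : ℤ, qCoeff H k = 8 * (z : ℂ)) → False

/-- An odd integer has an inverse modulo `8` (itself). -/
lemma odd_mul_self_eq (u : ℤ) (hu : Odd u) : ∃ m : ℤ, u * u = 1 + 8 * m := by
  obtain ⟨k, rfl⟩ := hu
  obtain ⟨j, hj | hj⟩ := Int.even_or_odd' k
  · exact ⟨2 * j * j + j, by rw [hj]; ring⟩
  · exact ⟨2 * j * j + 3 * j + 1, by rw [hj]; ring⟩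

theorem t8_of_t8' (p : ℕ) (h : Stmt_T8' p) : Stmt_T8 p := by
  intro hp8 G u hu h0 hk
  obtain ⟨m, hm⟩ := odd_mul_self_eq u hu
  refine h hp8 ((u : ℂ) • G) ⟨m, ?_⟩ ?_
  · rw [helper9202.qCoeff_smul, h0]
    have : ((u * u : ℤ) : ℂ) = ((1 + 8 * m : ℤ) : ℂ) := by rw [hm]
    push_cast at this
    exact this
  · intro k hk1
    obtain ⟨z, hz⟩ := hk k hk1
    refine ⟨u * z, ?_⟩
    rw [helper9202.qCoeff_smul, hz]
    push_cast
    ring

/-- (EIS) in the shape of `helper1566`, from `helper8794.eisP`. -/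
theorem eisExists (p : ℕ) [Fact p.Prime] : helper1566.EisExists p := by
  have : NeZero p := ⟨(Fact.out : p.Prime).ne_zero⟩
  exact ⟨helper8794.eisP p, helper8794.qCoeff_eisP_zero p, fun n hn =>
    helper8794.qCoeff_eisP_of_ne_zero p (by omega)⟩

/-- (A1) in the shape of `helper9202.upper_core`. -/
theorem a1_of_trace (p : ℕ) [Fact p.Prime] (hp5 : 5 ≤ p) (hTR : helper1566.TraceFour p)
    (hUU : helper1566.UpInvol p) :
    ∀ G : ModularForm (Gamma0 p) 2, (∀ k, 1 ≤ k → ∃ z : ℤ, qCoeff G k = (z : ℂ)) →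
      ∃ z : ℤ, ((p : ℂ) + 1) * qCoeff G 0 = (z : ℂ) :=
  fun G hG => helper1566.onetrace p hp5 hTR hUU (eisExists p) G hG

/-- The upper bound of `helper2246.result_of_gcd` from the leaves. -/
theorem ub_of_leaves (p : ℕ) [Fact p.Prime] (hp5 : 5 ≤ p) (hD : Stmt_Dual p) (hHC : Stmt_HC p)
    (hTR : helper1566.TraceFour p) (hUU : helper1566.UpInvol p) (hT8 : Stmt_T8 p) :
    ∀ M : ℕ, (∀ t : HeckeAlg, helper2246.phi p t = 0 → (M : ℤ) ∣ helper2246.eis p t) →
      M ∣ eisensteinNumerator p := by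
  intro M hM
  have : NeZero p := ⟨(Fact.out : p.Prime).ne_zero⟩
  obtain ⟨f, a, ha, hcong⟩ := hD M hM
  refine helper9202.upper_core p Fact.out hp5 (fun k => (helper8794.sigmaPrime p k : ℤ))
    (helper8794.eisP p) (helper8794.qCoeff_eisP_zero p) (fun k hk => ?_) hHC
    (a1_of_trace p hp5 hTR hUU) hT8 M f a ha hcong
  rw [helper8794.qCoeff_eisP_of_ne_zero p (by omega)]
  push_cast
  rfl

/-! ## The frozen statement -/

/-- **S16 from its missing leaves.** -/
theorem s16_of_leaves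
    (hL : ∀ (p : ℕ) [Fact p.Prime], 5 ≤ p → Stmt_Lift p)
    (hT : ∀ (p : ℕ) [Fact p.Prime], 5 ≤ p → Stmt_GenT p)
    (hU : ∀ (p : ℕ) [Fact p.Prime], 5 ≤ p → Stmt_GenU p)
    (hD : ∀ (p : ℕ) [Fact p.Prime], 5 ≤ p → Stmt_Dual p)
    (hHC : ∀ (p : ℕ) [Fact p.Prime], 5 ≤ p → Stmt_HC p)
    (hTR : ∀ (p : ℕ) [Fact p.Prime], 5 ≤ p → helper1566.TraceFour p)
    (hUU : ∀ (p : ℕ) [Fact p.Prime], 5 ≤ p → helper1566.UpInvol p)
    (hT8 : ∀ (p : ℕ) [Fact p.Prime], 5 ≤ p → Stmt_T8 p)
    (p : ℕ) [Fact p.Prime] :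
    Nat.card (↥(heckeLatticeAlgebra p ∅) ⧸
        Ideal.map ((latticeRestrictHom p ∅).toRingHom.comp (heckeEvalForms p 2))
          (eisensteinIdeal p)) =
      eisensteinNumerator p :=
  helper969.frozen_of_five_le (fun p _ h5 =>
    helper2246.result_of_gcd p (lb_of_leaves p (hL p h5) (hT p h5) (hU p h5))
      (ub_of_leaves p h5 (hD p h5) (hHC p h5) (hTR p h5) (hUU p h5) (hT8 p h5))) p

end

end Fermat.Agent.S16.helper1808
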