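import Mathlib

/-!
# S16, upper bound, the 2-adic case `p ≡ 7 (mod 8)`: the polynomial core

(helper1890, see findings #2132.)

If `G` were a weight-2 form on `Γ₀(p)` with `G ≡ 1 (mod 8)`, then `G` and
`F' = (G·E₄ − E₆)/4 = 2F` are integral over the level-one ring `O[E₄, E₆, Δ]`, and
specialising the level-one ring to the curve `y² + t·x·y + y = x³`
(`E₄ ↦ c₄ = t⁴ − 24t`, `E₆ ↦ c₆ = t⁶ − 36t³ + 216`) gives monic polynomials
`Q = ∑ q_k X^(d-k)` (the characteristic polynomial of `G`) and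
`∑ 2^j f_j Y^(d-j)` (the characteristic polynomial of `2F`) over `O[t]` with

  `∑_k q_k c₄^k (4Y + c₆)^(d-k) = 4^d ∑_j 2^j f_j Y^(d-j)`.

This file proves that such an identity is impossible as soon as `2` is a non-zero-divisor
and not a unit of the coefficient ring.
-/

set_option autoImplicit false

open Polynomial

namespace Fermat.Agent.S16.helper1890

variable {R : Type*} [CommRing R]

/-- `c₄` of the curve `y² + t·x·y + y = x³`. -/
noncomputable def c4 (R : Type*) [CommRing R] : R[X] := X ^ 4 - C 24 * X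

/-- `-c₆ = E₆` of the curve `y² + t·x·y + y = x³`. -/
noncomputable def c6 (R : Type*) [CommRing R] : R[X] := X ^ 6 - C 36 * X ^ 3 + C 216

/-- The evaluation point: `4·y0 + c₆ = t²·c₄`. -/
noncomputable def y0 (R : Type*) [CommRing R] : R[X] := C 3 * X ^ 3 - C 54

theorem four_y0_add_c6 : (C 4 : R[X]) * y0 R + c6 R = X ^ 2 * c4 R := by
  unfold y0 c6 c4
  have h1 : (C (4 : R) : R[X]) * C 3 = C 12 := by rw [← C_mul]; norm_num
  have h2 : (C (4 : R) : R[X]) * C 54 = C 216 := by rw [← C_mul]; norm_num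
  have h3 : (C (12 : R) : R[X]) - C 36 = - C 24 := by
    rw [← C_sub, ← C_neg]; norm_num
  have e1 : (C 4 : R[X]) * (C 3 * X ^ 3 - C 54) + (X ^ 6 - C 36 * X ^ 3 + C 216)
      = X ^ 6 + ((C 4 : R[X]) * C 3 - C 36) * X ^ 3 + (C 216 - (C 4 : R[X]) * C 54) := by ring
  rw [e1, h1, h2, h3]
  ring

theorem c4_monic [Nontrivial R] : (c4 R).Monic := by
  unfold c4
  apply Polynomial.monic_X_pow_sub
  have h : (C (24 : R) * X : R[X]).degree ≤ 1 := by
    have := degree_C_mul_X_pow_le 1 (24 : R)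
    simpa using this
  exact lt_of_le_of_lt h (by norm_num)

theorem map_c4 {S : Type*} [CommRing S] (φ : R →+* S) : (c4 R).map φ = c4 S := by
  simp [c4, Polynomial.map_sub, Polynomial.map_mul, Polynomial.map_pow, map_ofNat]

theorem map_y0 {S : Type*} [CommRing S] (φ : R →+* S) : (y0 R).map φ = y0 S := by
  simp [y0, Polynomial.map_sub, Polynomial.map_mul, Polynomial.map_pow, map_ofNat]

theorem c4_pow_monic (d : ℕ) : (c4 R ^ d).Monic := by
  rcases subsingleton_or_nontrivial R with h | h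
  · exact Subsingleton.elim _ _
  · exact c4_monic.pow d

/-- If `2 = 0` then `c₄ = t⁴`. -/
theorem c4_eq_of_two_eq_zero (h : (2 : R) = 0) : c4 R = X ^ 4 := by
  have h24 : (24 : R) = 0 := by
    have : (24 : R) = 2 * 12 := by norm_num
    rw [this, h, zero_mul]
  simp [c4, h24]

/-- If `2 = 0` then `y0 = t³`. -/
theorem y0_eq_of_two_eq_zero (h : (2 : R) = 0) : y0 R = X ^ 3 := by
  have h54 : (54 : R) = 0 := by
    have : (54 : R) = 2 * 27 := by norm_num
    rw [this, h, zero_mul]
  have h3 : (3 : R) = 1 := by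
    have : (3 : R) = 2 + 1 := by norm_num
    rw [this, h, zero_add]
  simp [y0, h54, h3]

theorem C_mul_eq_zero_of_mem_nonZeroDivisors {a : R} (ha : a ∈ nonZeroDivisors R) {p : R[X]}
    (h : C a * p = 0) : p = 0 := by
  ext n
  have h1 : a * p.coeff n = 0 := by
    have := congrArg (fun r : R[X] => r.coeff n) h
    simpa [coeff_C_mul] using this
  simpa using (mul_right_mem_nonZeroDivisors_eq_zero_iff ha).mp (by rw [mul_comm]; exact h1)

/-- **The polynomial core of the 2-adic case.**  Over a ring in which `2` is a non-zero-divisor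
and not a unit there are no `q_k, f_j ∈ R[t]` (`f_0 = 1`, `d ≥ 1`; `q_0 = 1` is not even needed) with
`∑_k q_k c₄^k (4Y + c₆)^(d-k) = 4^d ∑_j 2^j f_j Y^(d-j)` in `R[t][Y]`. -/
theorem two_adic_core (h2 : (2 : R) ∈ nonZeroDivisors R) (h2u : ¬ IsUnit (2 : R))
    (d : ℕ) (hd : 0 < d) (q f : ℕ → R[X]) (hf0 : f 0 = 1)
    (h : ∑ k ∈ Finset.range (d + 1),
          C (q k * c4 R ^ k) * (C (C 4) * X + C (c6 R)) ^ (d - k)
        = C (C ((4 : R) ^ d)) *
          ∑ j ∈ Finset.range (d + 1), C (C ((2 : R) ^ j) * f j) * X ^ (d - j)) :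
    False := by
  classical
  -- Step 1: evaluate at `y0`.
  set W : R[X] := ∑ k ∈ Finset.range (d + 1), q k * X ^ (2 * (d - k)) with hW
  set U : R[X] := ∑ j ∈ Finset.range (d + 1), C ((2 : R) ^ j) * f j * y0 R ^ (d - j) with hU
  have key : c4 R ^ d * W = C ((4 : R) ^ d) * U := by
    have h1 := congrArg (Polynomial.eval (y0 R)) h
    simp only [eval_finsetSum, eval_mul, eval_C, eval_pow, eval_add, eval_X] at h1
    rw [four_y0_add_c6] at h1
    rw [hW, hU, Finset.mul_sum, ← h1]
    apply Finset.sum_congr rfl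
    intro k hk
    have hk' : k ≤ d := Nat.lt_succ_iff.mp (Finset.mem_range.mp hk)
    have e : c4 R ^ d = c4 R ^ k * c4 R ^ (d - k) := by
      rw [← pow_add, Nat.add_sub_cancel' hk']
    rw [e, mul_pow, ← pow_mul]
    ring
  -- Step 2: `4^d` divides `W`.
  have hdiv : C ((4 : R) ^ d) ∣ W := by
    rw [Polynomial.C_dvd_iff_dvd_coeff]
    intro n
    set I : Ideal R := Ideal.span {(4 : R) ^ d} with hI
    have hmap : (c4 R ^ d * W).map (Ideal.Quotient.mk I) = 0 := by
      rw [key, Polynomial.map_mul, Polynomial.map_C]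
      have : (Ideal.Quotient.mk I) ((4 : R) ^ d) = 0 :=
        Ideal.Quotient.eq_zero_iff_mem.mpr (Ideal.subset_span rfl)
      rw [this, C_0, zero_mul]
    rw [Polynomial.map_mul, Polynomial.map_pow, map_c4] at hmap
    have hW0 : W.map (Ideal.Quotient.mk I) = 0 :=
      (c4_pow_monic (R := R ⧸ I) d).mul_right_eq_zero_iff.mp hmap
    have hc : (Ideal.Quotient.mk I) (W.coeff n) = 0 := by
      rw [← Polynomial.coeff_map, hW0, coeff_zero]
    exact Ideal.mem_span_singleton.mp (Ideal.Quotient.eq_zero_iff_mem.mp hc)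
  obtain ⟨W', hW'⟩ := hdiv
  -- Step 3: cancel `4^d`.
  have h4 : (4 : R) ^ d ∈ nonZeroDivisors R := by
    have : (4 : R) = 2 * 2 := by norm_num
    rw [this]
    exact pow_mem (mul_mem h2 h2) d
  have key2 : c4 R ^ d * W' = U := by
    have e : C ((4 : R) ^ d) * (c4 R ^ d * W' - U) = 0 := by
      rw [mul_sub, ← key, hW']; ring
    exact sub_eq_zero.mp (C_mul_eq_zero_of_mem_nonZeroDivisors h4 e)
  -- Step 4: reduce modulo `2`.
  set J : Ideal R := Ideal.span {(2 : R)} with hJ
  have hJne : J ≠ ⊤ := by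
    rw [hJ, Ne, Ideal.span_singleton_eq_top]; exact h2u
  have : Nontrivial (R ⧸ J) := Ideal.Quotient.nontrivial_iff.mpr hJne
  have h2T : (2 : R ⧸ J) = 0 := by
    have : (Ideal.Quotient.mk J) (2 : R) = 0 :=
      Ideal.Quotient.eq_zero_iff_mem.mpr (Ideal.subset_span rfl)
    rwa [map_ofNat] at this
  have hred := congrArg (Polynomial.map (Ideal.Quotient.mk J)) key2
  rw [Polynomial.map_mul, Polynomial.map_pow, map_c4, c4_eq_of_two_eq_zero h2T] at hred
  have hUred : U.map (Ideal.Quotient.mk J) = X ^ (3 * d) := by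
    rw [hU, Polynomial.map_sum, Finset.sum_range_succ']
    have hz : ∀ j ∈ Finset.range d,
        (C ((2 : R) ^ (j + 1)) * f (j + 1) * y0 R ^ (d - (j + 1))).map (Ideal.Quotient.mk J)
          = 0 := by
      intro j _
      rw [Polynomial.map_mul, Polynomial.map_mul, Polynomial.map_C, map_pow]
      have : (Ideal.Quotient.mk J) (2 : R) = 0 :=
        Ideal.Quotient.eq_zero_iff_mem.mpr (Ideal.subset_span rfl)
      rw [this, zero_pow (Nat.succ_ne_zero j), C_0, zero_mul, zero_mul]
    rw [Finset.sum_eq_zero hz, zero_add, hf0]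
    simp only [pow_zero, C_1, one_mul, Nat.sub_zero, Polynomial.map_pow, map_y0]
    rw [y0_eq_of_two_eq_zero h2T, ← pow_mul]
  rw [hUred, ← pow_mul] at hred
  have hcoeff := congrArg (fun r : (R ⧸ J)[X] => r.coeff (3 * d)) hred
  simp only [coeff_X_pow_mul', coeff_X_pow] at hcoeff
  have hlt : ¬ (4 * d ≤ 3 * d) := by omega
  rw [if_neg hlt] at hcoeff
  simp at hcoeff

end Fermat.Agent.S16.helper1890
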