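/-
helper2138 — S16: THE LOWER BOUND, hypothesis-free.

`lowerBound p : ∀ t : HeckeAlg, helper2246.phi p t = 0 → (eisensteinNumerator p : ℤ) ∣ helper2246.eis p t`

Wiring of `helper9058.lowerBound_of_TU` with
* the Shimura class `helper8671.shimuraHom` (surjective) and its telescoping lemmas,
* the integral parabolic lift `helper1461.shimura_lift_helper8671`,
* the coset-transfer Hecke operators `heckeHomT` / `heckeHomU` (this seat, `helper2138_HeckeHom`),
  their naturality, their commutation with `charInvolution`, the `d`-relations,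
* the Hecke-equivariance of the period map (`helper2138_PeriodEquiv`).
-/
import Fermat.Agent.S16.helper9058_LBSpec
import Fermat.Agent.S16.helper2138_PeriodEquiv
import Fermat.Agent.S16.helper8671_Shimura
import Fermat.Agent.S16.helper1461_ShimuraLift

set_option autoImplicit false

open CongruenceSubgroup ModularCurve ModularCurve.Period CuspForm
open scoped MatrixGroups

namespace Fermat.Agent.S16.helper2138

/-- `T_l` as a natural operator in the sense of `helper9058.NatOp`. -/
noncomputable def natOpT (p l : ℕ) [Fact l.Prime] (hlp : ¬ l ∣ p) : helper9058.NatOp p where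
  op A _ := AddMonoidHom.mk' (heckeHomT p l hlp A) ((corrT p l hlp).op_add A)
  nat _ _ _ _ f φ := heckeHomT_comp p l hlp f φ

/-- `U_q` as a natural operator in the sense of `helper9058.NatOp`. -/
noncomputable def natOpU (p q : ℕ) [NeZero q] (hqp : q ∣ p) : helper9058.NatOp p where
  op A _ := AddMonoidHom.mk' (heckeHomU p q hqp A) ((corrU p q hqp).op_add A)
  nat _ _ _ _ f φ := heckeHomU_comp p q hqp f φ

@[simp] theorem natOpT_op (p l : ℕ) [Fact l.Prime] (hlp : ¬ l ∣ p) (A : Type) [AddCommGroup A]
    (φ : Additive (Gamma0 p) →+ A) : (natOpT p l hlp).op A φ = heckeHomT p l hlp A φ := rfl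

@[simp] theorem natOpU_op (p q : ℕ) [NeZero q] (hqp : q ∣ p) (A : Type) [AddCommGroup A]
    (φ : Additive (Gamma0 p) →+ A) : (natOpU p q hqp).op A φ = heckeHomU p q hqp A φ := rfl

/-- The unit of `ZMod p` attached to the lower right entry of `repT l x`. -/
noncomputable def eUnit (p l : ℕ) (hcop : Nat.Coprime l p) (x : OnePoint (ZMod l)) : (ZMod p)ˣ :=
  x.elim 1 (fun _ => ZMod.unitOfCoprime l hcop)

theorem eUnit_coe (p l : ℕ) (hcop : Nat.Coprime l p) (x : OnePoint (ZMod l)) :
    ((eUnit p l hcop x : (ZMod p)ˣ) : ZMod p) = ((eT l x : ℤ) : ZMod p) := by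
  induction x using OnePoint.rec with
  | infty => simp [eUnit]
  | coe j => simp [eUnit]

/-- Eigen-equation of the Shimura class for `T_l`. -/
theorem heckeHomT_shimuraHom (p l : ℕ) [Fact p.Prime] [Fact l.Prime] (hlp : ¬ l ∣ p) :
    heckeHomT p l hlp (ZMod (eisensteinNumerator p)) (helper8671.shimuraHom p) =
      ((l : ℤ) + 1) • helper8671.shimuraHom p := by
  have hl : l.Prime := Fact.out
  have hp : p.Prime := Fact.out
  have hcop : Nat.Coprime l p := (Nat.Prime.coprime_iff_not_dvd hl).mpr hlp
  refine AddMonoidHom.ext fun γ => ?_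
  obtain ⟨γ, rfl⟩ := Additive.ofMul.surjective γ
  rw [heckeHomT_apply]
  have key := helper8671.sum_shimuraHom_of_units p (eUnit p l hcop) γ
    (fun x => (corrT p l hlp).g x γ) ((corrT p l hlp).σEquiv γ) (fun x => ?_)
  · rw [key]
    have hcard : Fintype.card (OnePoint (ZMod l)) = l + 1 := by
      have : NeZero l := ⟨hl.ne_zero⟩
      rw [show Fintype.card (OnePoint (ZMod l)) = Fintype.card (Option (ZMod l)) from rfl,
        Fintype.card_option, ZMod.card]
    rw [hcard, AddMonoidHom.smul_apply]
    rw [show ((l : ℤ) + 1) = ((l + 1 : ℕ) : ℤ) by push_cast; rfl, natCast_zsmul]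
  · apply Units.ext
    rw [Units.val_mul, Units.val_mul, helper8671.dUnit_coe, helper8671.dUnit_coe, eUnit_coe,
      eUnit_coe, Corr.σEquiv_apply]
    rw [corrT_d_rel p l hlp x γ, mul_comm]

/-- Eigen-equation of the Shimura class for `U_p`. -/
theorem heckeHomU_shimuraHom (p : ℕ) [Fact p.Prime] :
    heckeHomU p p (dvd_refl p) (ZMod (eisensteinNumerator p)) (helper8671.shimuraHom p) =
      helper8671.shimuraHom p := by
  have hp : p.Prime := Fact.out
  refine AddMonoidHom.ext fun γ => ?_
  obtain ⟨γ, rfl⟩ := Additive.ofMul.surjective γ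
  rw [heckeHomU_apply]
  rw [Finset.sum_congr rfl (fun j _ => helper8671.shimuraHom_eq_of_entry_eq p
    (corrU_d_rel p p (dvd_refl p) j γ)), Finset.sum_const, Finset.card_univ, ZMod.card,
    helper8671.prime_nsmul_eq]

/-- **S16, the lower bound** (all primes `p`): every `t` in the abstract Hecke algebra killing the
lattice Hecke algebra has Eisenstein value divisible by `eisensteinNumerator p`. -/
theorem lowerBound (p : ℕ) [Fact p.Prime] :
    ∀ t : HeckeAlg, helper2246.phi p t = 0 →
      (eisensteinNumerator p : ℤ) ∣ helper2246.eis p t := by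
  have hp : p.Prime := Fact.out
  refine helper9058.lowerBound_of_TU p (helper8671.shimuraHom p)
    (helper8671.shimuraHom_surjective p 1) (helper1461.shimura_lift_helper8671 p) ?_ ?_
  · intro l hl hlp
    haveI : Fact l.Prime := ⟨hl⟩
    refine ⟨natOpT p l hlp, fun f => ?_, fun φ => ?_, ?_⟩
    · rw [natOpT_op]
      exact (periodMap_heckeT p l hl hlp f).symm
    · rw [natOpT_op, natOpT_op]
      exact heckeHomT_charInvolution p l hlp ℂ ℂ φ
    · rw [natOpT_op]
      exact heckeHomT_shimuraHom p l hlp
  · refine ⟨natOpU p p (dvd_refl p), fun f => ?_, fun φ => ?_, ?_⟩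
    · rw [natOpU_op]
      exact (periodMap_heckeU p p (dvd_refl p) f).symm
    · rw [natOpU_op, natOpU_op]
      exact heckeHomU_charInvolution p p (dvd_refl p) ℂ ℂ φ
    · rw [natOpU_op]
      exact heckeHomU_shimuraHom p

end Fermat.Agent.S16.helper2138
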