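import Mathlib

/-!
# S16, upper bound at `ℓ = 2`, `p ≡ 7 mod 8`: the algebraic core (helper2239)

Let `c₄ = s⁴ - 24 s`, `c₆ = -s⁶ + 36 s³ - 216` be the invariants of the curve
`y² + s x y + y = x³` (discriminant `s³ - 27`), as polynomials in `s` over a ring `R`.

`no_solution`: if `2` is prime in the domain `R` and `D ≠ 0`, there are no
`q₀ = 1, q₁, …, q_D ∈ R[s]` and `P ∈ R[s][X]` with

  `8 ^ D * P(X) = ∑ i ≤ D, q i * (8 X + c₆) ^ (D - i) * c₄ ^ i`.

Application (finding #1888): `q i = ± ev (e_i G)` are the evaluated coefficients of the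
characteristic polynomial over level one of a hypothetical `G ≡ 1 mod 8` in `M₂(Γ₀(p))`
and `P` is the evaluated characteristic polynomial of `(G E₄ - E₆) / 8`.
-/

set_option autoImplicit false

namespace Fermat.Agent.S16.helper2239

open Polynomial

variable (R : Type*) [CommRing R]

/-- `c₄` of the curve `y² + s x y + y = x³`, as a polynomial in `s`. -/
noncomputable def c4s : R[X] := X ^ 4 - 24 * X

/-- `c₆` of the curve `y² + s x y + y = x³`, as a polynomial in `s`. -/
noncomputable def c6s : R[X] := -X ^ 6 + 36 * X ^ 3 - 216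

/-- The discriminant of the curve `y² + s x y + y = x³`, as a polynomial in `s`. -/
noncomputable def deltas : R[X] := X ^ 3 - 27

/-- The relation `c₄³ - c₆² = 1728 Δ` for the family `y² + s x y + y = x³`. -/
theorem c4s_pow_three_sub_c6s_sq : c4s R ^ 3 - c6s R ^ 2 = 1728 * deltas R := by
  unfold c4s c6s deltas
  ring

variable {R}

/-- The key substitution: with `X = (s³ - 24) T + 3 s³ - 81` one has
`8 X + c₆ = (s³ - 24) (8 T - s³ + 36)`. -/
theorem key_subst :
    (8 : R[X][X]) * (C (X ^ 3 - 24 : R[X]) * X + C (3 * X ^ 3 - 81 : R[X])) + C (c6s R) =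
      C (X ^ 3 - 24 : R[X]) * (8 * X - C (X ^ 3 : R[X]) + 36) := by
  unfold c6s
  simp only [map_sub, map_add, map_mul, map_pow, map_neg, map_ofNat]
  ring

theorem c4s_factor : (C (c4s R) : R[X][X]) = C (X : R[X]) * C (X ^ 3 - 24 : R[X]) := by
  unfold c4s
  rw [← map_mul]
  congr 1
  ring

/-- `2` does not divide `s³ - 24` in `R[s][T]` when `2` is prime in `R`. -/
theorem two_not_dvd [IsDomain R] (h2 : Prime (2 : R)) :
    ¬ (2 : R[X][X]) ∣ C (X ^ 3 - 24 : R[X]) := by
  intro h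
  have h2' : (2 : R[X][X]) = C (C (2 : R)) := by rw [C_ofNat, C_ofNat]
  rw [h2', C_dvd_iff_dvd_coeff] at h
  have h0 := h 0
  rw [coeff_C_zero, C_dvd_iff_dvd_coeff] at h0
  have h3 := h0 3
  have hc : (X ^ 3 - 24 : R[X]).coeff 3 = 1 := by
    have : (24 : R[X]) = C (24 : R) := by rw [C_ofNat]
    rw [coeff_sub, coeff_X_pow, this, coeff_C]
    simp
  rw [hc] at h3
  exact h2.not_isUnit (isUnit_of_dvd_one h3)

theorem prime_two_poly_poly [IsDomain R] (h2 : Prime (2 : R)) : Prime (2 : R[X][X]) := by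
  have h2' : (2 : R[X][X]) = C (C (2 : R)) := by rw [C_ofNat, C_ofNat]
  rw [h2']
  exact prime_C_iff.mpr (prime_C_iff.mpr h2)

/-- **The algebraic core.** See the module docstring. -/
theorem no_solution [IsDomain R] (h2 : Prime (2 : R)) (D : ℕ) (hD : D ≠ 0)
    (q : ℕ → R[X]) (hq0 : q 0 = 1) (P : R[X][X])
    (h : (8 : R[X][X]) ^ D * P =
      ∑ i ∈ Finset.range (D + 1),
        C (q i) * (8 * X + C (c6s R)) ^ (D - i) * C (c4s R) ^ i) : False := by
  -- Step 1: substitute `X := (s³ - 24) T + 3 s³ - 81`.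
  set r : R[X][X] := C (X ^ 3 - 24 : R[X]) * X + C (3 * X ^ 3 - 81 : R[X]) with hr
  set a : R[X][X] := C (X ^ 3 - 24 : R[X]) with ha
  set Y8 : R[X][X] := ∑ i ∈ Finset.range (D + 1),
    C (q i) * (8 * X - C (X ^ 3 : R[X]) + 36) ^ (D - i) * C (X : R[X]) ^ i with hY8
  have h1 : (8 : R[X][X]) ^ D * P.comp r = a ^ D * Y8 := by
    have hφC : ∀ x : R[X], (compRingHom r) (C x) = C x := fun x => C_comp
    have hφX : (compRingHom r) X = r := X_comp
    have hφP : (compRingHom r) P = P.comp r := rfl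
    have h' := congrArg (compRingHom r) h
    simp only [map_mul, map_pow, map_sum, map_add, map_ofNat, hφC, hφX, hφP] at h'
    rw [h', hY8, Finset.mul_sum]
    refine Finset.sum_congr rfl fun i hi => ?_
    have hi' : i ≤ D := Nat.lt_succ_iff.mp (Finset.mem_range.mp hi)
    rw [hr, key_subst, c4s_factor]
    have hD' : a ^ D = a ^ (D - i) * a ^ i := by rw [← pow_add, Nat.sub_add_cancel hi']
    rw [hD', mul_pow, mul_pow]
    ring
  -- Step 2: `8 ^ D ∣ Y8`.
  have hp2 := prime_two_poly_poly h2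
  have hdvd : (2 : R[X][X]) ^ (3 * D) ∣ Y8 := by
    refine hp2.pow_dvd_of_dvd_mul_left (a := a ^ D) _ ?_ ?_
    · intro hcon
      exact two_not_dvd h2 (hp2.dvd_of_dvd_pow hcon)
    · rw [← h1]
      have : (8 : R[X][X]) ^ D = 2 ^ (3 * D) := by
        rw [pow_mul]; norm_num
      rw [this]
      exact dvd_mul_right _ _
  -- Step 3: evaluate at `T = -4`, `s = 0`.
  let ψ : R[X][X] →+* R := (evalRingHom (0 : R)).comp (evalRingHom (C (-4 : R) : R[X]))
  have hψ := map_dvd ψ hdvd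
  have hψ2 : ψ ((2 : R[X][X]) ^ (3 * D)) = 2 ^ (3 * D) := by rw [map_pow, map_ofNat]
  have hψY : ψ Y8 = 4 ^ D := by
    rw [hY8, map_sum, Finset.sum_eq_single 0]
    · simp only [ψ, RingHom.comp_apply, coe_evalRingHom, Nat.sub_zero, pow_zero, mul_one,
        eval_mul, eval_C, eval_pow, eval_add, eval_sub, eval_X, eval_ofNat, hq0,
        one_mul]
      norm_num
    · intro i _ hi
      simp only [ψ, RingHom.comp_apply, coe_evalRingHom, eval_mul, eval_pow, eval_C, eval_X]
      rw [zero_pow hi, mul_zero]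
    · intro h0
      exact absurd (Finset.mem_range.mpr (Nat.succ_pos D)) h0
  rw [hψ2, hψY] at hψ
  have h4 : (4 : R) ^ D = 2 ^ (2 * D) := by rw [pow_mul]; norm_num
  rw [h4] at hψ
  have h2ne : (2 : R) ^ (2 * D) ≠ 0 := pow_ne_zero _ h2.ne_zero
  have h3 : (2 : R) ^ (3 * D) = 2 ^ (2 * D) * 2 ^ D := by rw [← pow_add]; congr 1; ring
  rw [h3] at hψ
  have h5 : (2 : R) ^ D ∣ 1 := by
    obtain ⟨c, hc⟩ := hψ
    refine ⟨c, ?_⟩
    have : (2 : R) ^ (2 * D) * 1 = 2 ^ (2 * D) * (2 ^ D * c) := by rw [mul_one, ← mul_assoc, ← hc]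
    exact mul_left_cancel₀ h2ne this
  exact h2.not_isUnit (isUnit_of_dvd_one (dvd_trans (dvd_pow_self 2 hD) h5))

end Fermat.Agent.S16.helper2239
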