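import Fermat.Agent.S16.helper2246_Reduction
import Fermat.Prelude.Def_CuspForm_IntegralStructure

/-!
# S16: adapters for the two bounds of `helper2246_Reduction`

* `ub_of_forall_dvd`: the upper bound in "gcd form": if every `M : ℕ` dividing the Eisenstein
  value of all Hecke polynomials killing the integral lattice divides `n`, then some such
  polynomial has Eisenstein value exactly `n`.
* `lb_of_heckeEvalForms`: the lower bound may be proved for Hecke polynomials acting as `0` on all
  of `S_2(Γ₀(p))`, given `HasIntegralStructure p 2`.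
* `result_of_gcd`, `result_of_gcd'`: the frozen statement from these shapes.
-/

set_option autoImplicit false

namespace Fermat.Agent.S16.helper2246

open ModularCurve CuspForm

noncomputable section

/-- The image of `ker phi` under `eis` is the set-theoretic image (as `eis` is onto). -/
lemma mem_map_eis_ker_iff (p : ℕ) [Fact p.Prime] (z : ℤ) :
    z ∈ Ideal.map (eis p) (RingHom.ker (phi p)) ↔ ∃ t : HeckeAlg, phi p t = 0 ∧ eis p t = z := by
  rw [Ideal.mem_map_iff_of_surjective (eis p) (eis_surjective p)]
  constructor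
  · rintro ⟨t, ht, rfl⟩
    exact ⟨t, RingHom.mem_ker.mp ht, rfl⟩
  · rintro ⟨t, ht, rfl⟩
    exact ⟨t, RingHom.mem_ker.mpr ht, rfl⟩

/-- There is a natural number generating `eis (ker phi)`. -/
lemma exists_nat_generator (p : ℕ) [Fact p.Prime] :
    ∃ M : ℕ, Ideal.map (eis p) (RingHom.ker (phi p)) = Ideal.span {(M : ℤ)} := by
  obtain ⟨g, hg⟩ :=
    (inferInstance : (Ideal.map (eis p) (RingHom.ker (phi p))).IsPrincipal).principal
  refine ⟨g.natAbs, ?_⟩
  rw [hg, Ideal.submodule_span_eq, Int.span_natAbs]

/-- Upper bound in gcd form: it suffices that every common divisor `M` of the Eisenstein values on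
`ker phi` divides `m`. (`M = 0` is allowed, i.e. the hypothesis also excludes `eis (ker phi) = 0`
when `m ≠ 0`.) -/
theorem ub_of_forall_dvd (p : ℕ) [Fact p.Prime] (m : ℕ)
    (h : ∀ M : ℕ, (∀ t : HeckeAlg, phi p t = 0 → (M : ℤ) ∣ eis p t) → M ∣ m) :
    ∃ t : HeckeAlg, phi p t = 0 ∧ eis p t = (m : ℤ) := by
  obtain ⟨M, hM⟩ := exists_nat_generator p
  have hdvd : M ∣ m := by
    apply h M
    intro t ht
    have : eis p t ∈ Ideal.map (eis p) (RingHom.ker (phi p)) :=
      (mem_map_eis_ker_iff p _).mpr ⟨t, ht, rfl⟩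
    rw [hM, Ideal.mem_span_singleton] at this
    exact this
  rw [← mem_map_eis_ker_iff, hM, Ideal.mem_span_singleton]
  exact Int.natCast_dvd_natCast.mpr hdvd

/-- Lower bound from the statement about Hecke polynomials that act as `0` on the whole space of
cusp forms, given the integral structure (S23). -/
theorem lb_of_heckeEvalForms (p : ℕ) [Fact p.Prime] (hint : HasIntegralStructure p 2) (m : ℕ)
    (h : ∀ t : HeckeAlg, heckeEvalForms p 2 t = 0 → (m : ℤ) ∣ eis p t) :
    ∀ t : HeckeAlg, phi p t = 0 → (m : ℤ) ∣ eis p t := by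
  intro t ht
  apply h t
  have hinj := (latticeRestrictHom_bijective p ∅ hint).1
  apply hinj
  rw [map_zero]
  exact ht

/-- `phi t = 0` iff `t` acts as `0` on all cusp forms, given the integral structure (S23). -/
lemma phi_eq_zero_iff_heckeEvalForms (p : ℕ) [Fact p.Prime] (hint : HasIntegralStructure p 2)
    (t : HeckeAlg) : phi p t = 0 ↔ heckeEvalForms p 2 t = 0 := by
  constructor
  · intro ht
    have hinj := (latticeRestrictHom_bijective p ∅ hint).1
    apply hinj
    rw [map_zero]
    exact ht
  · intro ht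
    show (latticeRestrictHom p ∅) (heckeEvalForms p 2 t) = 0
    rw [ht, map_zero]

/-- **S16 from the gcd form.** -/
theorem result_of_gcd (p : ℕ) [Fact p.Prime]
    (hLB : ∀ t : HeckeAlg, phi p t = 0 → (eisensteinNumerator p : ℤ) ∣ eis p t)
    (hUB : ∀ M : ℕ, (∀ t : HeckeAlg, phi p t = 0 → (M : ℤ) ∣ eis p t) →
      M ∣ eisensteinNumerator p) :
    Nat.card (↥(heckeLatticeAlgebra p ∅) ⧸
        Ideal.map ((latticeRestrictHom p ∅).toRingHom.comp (heckeEvalForms p 2))
          (eisensteinIdeal p)) =
      eisensteinNumerator p :=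
  result_of_bounds p hLB (ub_of_forall_dvd p _ hUB)

/-- **S16 from the gcd form**, with everything phrased on Hecke polynomials acting as `0` on
`S_2(Γ₀(p))` (using S23's integral structure). -/
theorem result_of_gcd' (p : ℕ) [Fact p.Prime] (hint : HasIntegralStructure p 2)
    (hLB : ∀ t : HeckeAlg, heckeEvalForms p 2 t = 0 → (eisensteinNumerator p : ℤ) ∣ eis p t)
    (hUB : ∀ M : ℕ, (∀ t : HeckeAlg, heckeEvalForms p 2 t = 0 → (M : ℤ) ∣ eis p t) →
      M ∣ eisensteinNumerator p) :
    Nat.card (↥(heckeLatticeAlgebra p ∅) ⧸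
        Ideal.map ((latticeRestrictHom p ∅).toRingHom.comp (heckeEvalForms p 2))
          (eisensteinIdeal p)) =
      eisensteinNumerator p := by
  refine result_of_gcd p (lb_of_heckeEvalForms p hint _ hLB) (fun M hM => hUB M ?_)
  intro t ht
  exact hM t ((phi_eq_zero_iff_heckeEvalForms p hint t).mpr ht)

end

end Fermat.Agent.S16.helper2246
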