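import Mathlib

/-!
# S16, leaf `S16-L1-ALG`: the pure-algebra half of `[L1]` (Swinnerton-Dyer lite)

`P = k[Q, R] = MvPolynomial (Fin 2) k` over a field `k` of characteristic `ℓ ≥ 5`,
graded by `wt Q = 4`, `wt R = 6`, with the Ramanujan–Serre derivation
`∂Q = -4R`, `∂R = -6Q²`.
-/

namespace Fermat.Agent.S16.helper2441

open MvPolynomial

noncomputable section

/-- Weights of the generators: `Q = X 0` has weight `4`, `R = X 1` has weight `6`. -/
def wt : Fin 2 → ℕ := ![4, 6]

/-- The Ramanujan–Serre derivation on `k[Q, R]`: `∂Q = -4R`, `∂R = -6Q²`. -/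
def serreD (k : Type*) [Field k] :
    Derivation k (MvPolynomial (Fin 2) k) (MvPolynomial (Fin 2) k) :=
  mkDerivation k ![-4 * X 1, -6 * X 0 ^ 2]

/-- The Euler derivation on `k[Q, R]`: `E Q = 4Q`, `E R = 6R`. -/
def eulerD (k : Type*) [Field k] :
    Derivation k (MvPolynomial (Fin 2) k) (MvPolynomial (Fin 2) k) :=
  mkDerivation k ![4 * X 0, 6 * X 1]

variable {k : Type*} [Field k]

@[simp] theorem serreD_X0 : serreD k (X 0) = -4 * X 1 := by
  simp [serreD, mkDerivation_X]

@[simp] theorem serreD_X1 : serreD k (X 1) = -6 * X 0 ^ 2 := by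
  simp [serreD, mkDerivation_X]

@[simp] theorem eulerD_X0 : eulerD k (X 0) = 4 * X 0 := by
  simp [eulerD, mkDerivation_X]

@[simp] theorem eulerD_X1 : eulerD k (X 1) = 6 * X 1 := by
  simp [eulerD, mkDerivation_X]

theorem weight_wt (d : Fin 2 →₀ ℕ) : Finsupp.weight wt d = d 0 * 4 + d 1 * 6 := by
  rw [Finsupp.weight_apply, Finsupp.sum_fintype _ _ (fun i => by simp)]
  simp [Fin.sum_univ_two, wt]

theorem monomial_eq_X (d : Fin 2 →₀ ℕ) (c : k) :
    (monomial d c : MvPolynomial (Fin 2) k) = C c * (X 0 ^ d 0 * X 1 ^ d 1) := by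
  rw [monomial_eq, Finsupp.prod_fintype _ _ (fun i => by simp)]
  simp [Fin.prod_univ_two]

/-- The grading substitution `Q ↦ Q T⁴`, `R ↦ R T⁶`. -/
def sig : MvPolynomial (Fin 2) k →ₐ[k] Polynomial (MvPolynomial (Fin 2) k) :=
  aeval (fun i => Polynomial.C (X i) * Polynomial.X ^ wt i)

theorem sig_X (i : Fin 2) :
    sig (X i : MvPolynomial (Fin 2) k) = Polynomial.C (X i) * Polynomial.X ^ wt i := by
  simp [sig]

theorem sig_monomial (d : Fin 2 →₀ ℕ) (c : k) :
    sig (monomial d c) =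
      Polynomial.C (monomial d c : MvPolynomial (Fin 2) k) * Polynomial.X ^ (Finsupp.weight wt d) := by
  rw [weight_wt, monomial_eq_X]
  simp only [map_mul, map_pow, sig_X]
  have h0 : sig (C c : MvPolynomial (Fin 2) k) = Polynomial.C (C c) := by
    simp [sig]
  rw [h0]
  simp only [wt, Matrix.cons_val_zero, Matrix.cons_val_one, mul_pow, ← pow_mul, pow_add]
  ring

/-- evaluation at `T = 1` undoes `sig`. -/
theorem eval_one_sig (φ : MvPolynomial (Fin 2) k) : (sig φ).eval 1 = φ := by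
  induction φ using MvPolynomial.induction_on with
  | C a => simp [sig]
  | add p q hp hq => simp [hp, hq]
  | mul_X p i hp => simp [hp, sig_X]

theorem sig_of_isWeightedHomogeneous {φ : MvPolynomial (Fin 2) k} {n : ℕ}
    (h : IsWeightedHomogeneous wt φ n) : sig φ = Polynomial.C φ * Polynomial.X ^ n := by
  conv_lhs => rw [φ.as_sum]
  conv_rhs => rw [φ.as_sum]
  rw [map_sum, map_sum, Finset.sum_mul]
  refine Finset.sum_congr rfl (fun d hd => ?_)
  rw [sig_monomial, h (mem_support_iff.mp hd)]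

theorem isWeightedHomogeneous_of_sig {φ : MvPolynomial (Fin 2) k} {n : ℕ}
    (h : sig φ = Polynomial.C φ * Polynomial.X ^ n) : IsWeightedHomogeneous wt φ n := by
  classical
  intro d hd
  by_contra hne
  -- coefficient of `T ^ (weight d)` in `sig φ`
  have h1 : (sig φ).coeff (Finsupp.weight wt d) = 0 := by
    rw [h, Polynomial.coeff_C_mul, Polynomial.coeff_X_pow, if_neg hne, mul_zero]
  have h2 : (sig φ).coeff (Finsupp.weight wt d) =
      ∑ e ∈ φ.support, if Finsupp.weight wt e = Finsupp.weight wt d then monomial e (coeff e φ) else 0 := by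
    conv_lhs => rw [φ.as_sum]
    rw [map_sum, Polynomial.finsetSum_coeff]
    refine Finset.sum_congr rfl (fun e _ => ?_)
    rw [sig_monomial, Polynomial.coeff_C_mul, Polynomial.coeff_X_pow]
    split_ifs with h3 h4 h4
    · simp
    · exact absurd h3.symm h4
    · exact absurd h4.symm h3
    · simp
  rw [h2] at h1
  have h3 := congrArg (coeff d) h1
  rw [coeff_sum, coeff_zero] at h3
  rw [Finset.sum_eq_single d] at h3
  · simp at h3
    exact hd h3
  · intro e _ hed
    split_ifs
    · rw [coeff_monomial, if_neg hed]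
    · simp
  · intro hd'
    exact absurd (mem_support_iff.mpr hd) hd'

/-- A polynomial whose trailing degree equals its degree is a monomial. -/
theorem eq_C_mul_X_pow_of_trailing {A : Type*} [CommRing A] (p : Polynomial A)
    (h : p.natTrailingDegree = p.natDegree) :
    p = Polynomial.C (p.eval 1) * Polynomial.X ^ p.natDegree := by
  have h1 : p = Polynomial.C (p.coeff p.natDegree) * Polynomial.X ^ p.natDegree := by
    ext m
    rw [Polynomial.coeff_C_mul, Polynomial.coeff_X_pow]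
    split_ifs with hm
    · rw [hm, mul_one]
    · rw [mul_zero]
      rcases lt_or_gt_of_ne hm with hlt | hgt
      · exact Polynomial.coeff_eq_zero_of_lt_natTrailingDegree (h ▸ hlt)
      · exact Polynomial.coeff_eq_zero_of_natDegree_lt hgt
  have h2 : p.eval 1 = p.coeff p.natDegree := by
    conv_lhs => rw [h1]
    simp
  rw [h2]; exact h1

/-- **Factors of isobaric polynomials are isobaric.** -/
theorem isWeightedHomogeneous_of_mul {x y a : MvPolynomial (Fin 2) k} {n : ℕ}
    (hxy : x * y = a) (ha0 : a ≠ 0) (ha : IsWeightedHomogeneous wt a n) :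
    ∃ i j, i + j = n ∧ IsWeightedHomogeneous wt x i ∧ IsWeightedHomogeneous wt y j := by
  have hx0 : x ≠ 0 := by rintro rfl; exact ha0 (by rw [← hxy, zero_mul])
  have hy0 : y ≠ 0 := by rintro rfl; exact ha0 (by rw [← hxy, mul_zero])
  have hsx : sig x ≠ 0 := fun h => hx0 (by rw [← eval_one_sig x, h, Polynomial.eval_zero])
  have hsy : sig y ≠ 0 := fun h => hy0 (by rw [← eval_one_sig y, h, Polynomial.eval_zero])
  have hprod : sig x * sig y = Polynomial.C a * Polynomial.X ^ n := by
    rw [← map_mul, hxy, sig_of_isWeightedHomogeneous ha]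
  have hdeg : (sig x).natDegree + (sig y).natDegree = n := by
    rw [← Polynomial.natDegree_mul hsx hsy, hprod, Polynomial.natDegree_C_mul_X_pow n a ha0]
  have htdeg : (sig x).natTrailingDegree + (sig y).natTrailingDegree = n := by
    rw [← Polynomial.natTrailingDegree_mul hsx hsy, hprod, Polynomial.C_mul_X_pow_eq_monomial,
      Polynomial.natTrailingDegree_monomial ha0]
  have hx1 := Polynomial.natTrailingDegree_le_natDegree (p := sig x)
  have hy1 := Polynomial.natTrailingDegree_le_natDegree (p := sig y)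
  have hx2 : (sig x).natTrailingDegree = (sig x).natDegree := by omega
  have hy2 : (sig y).natTrailingDegree = (sig y).natDegree := by omega
  refine ⟨(sig x).natDegree, (sig y).natDegree, hdeg, ?_, ?_⟩
  · apply isWeightedHomogeneous_of_sig
    have := eq_C_mul_X_pow_of_trailing (sig x) hx2
    rwa [eval_one_sig] at this
  · apply isWeightedHomogeneous_of_sig
    have := eq_C_mul_X_pow_of_trailing (sig y) hy2
    rwa [eval_one_sig] at this

/-- An isobaric polynomial of weight `0` is a constant. -/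
theorem eq_C_of_isWeightedHomogeneous_zero {φ : MvPolynomial (Fin 2) k}
    (h : IsWeightedHomogeneous wt φ 0) : φ = C (coeff 0 φ) := by
  refine h.eq_monomial_of_unique_weight (d₀ := 0) (fun d hd => ?_)
  rw [weight_wt] at hd
  ext i
  fin_cases i
  · simp; omega
  · simp; omega

theorem isUnit_of_isWeightedHomogeneous_zero {φ : MvPolynomial (Fin 2) k}
    (h : IsWeightedHomogeneous wt φ 0) (h0 : φ ≠ 0) : IsUnit φ := by
  rw [eq_C_of_isWeightedHomogeneous_zero h] at h0 ⊢
  have hc : coeff 0 φ ≠ 0 := fun hc => h0 (by rw [hc, C_0])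
  exact (isUnit_iff_ne_zero.mpr hc).map C

/-- A unit is never isobaric of positive weight. -/
theorem not_isUnit_of_isWeightedHomogeneous {φ : MvPolynomial (Fin 2) k} {n : ℕ}
    (h : IsWeightedHomogeneous wt φ n) (hn : n ≠ 0) : ¬ IsUnit φ := by
  intro hu
  obtain ⟨u, rfl⟩ := hu
  obtain ⟨i, j, hij, hi, -⟩ := isWeightedHomogeneous_of_mul (x := (u : MvPolynomial (Fin 2) k))
    (y := ((u⁻¹ : (MvPolynomial (Fin 2) k)ˣ) : MvPolynomial (Fin 2) k)) (a := 1) (n := 0)
    (by simp) one_ne_zero (isWeightedHomogeneous_one k wt)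
  have hi0 : i = 0 := by omega
  subst hi0
  exact hn (IsWeightedHomogeneous.inj_right u.ne_zero h hi)

/-- Multiplicative induction over monomials, keeping track of the weight. -/
theorem monomial_induction {M : MvPolynomial (Fin 2) k → ℕ → Prop}
    (hC : ∀ c, M (C c) 0) (hX0 : M (X 0) 4) (hX1 : M (X 1) 6)
    (hmul : ∀ f g m n, M f m → M g n → M (f * g) (m + n))
    (d : Fin 2 →₀ ℕ) (c : k) : M (monomial d c) (Finsupp.weight wt d) := by
  have hpow0 : ∀ a : ℕ, M (X 0 ^ a) (a * 4) := by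
    intro a
    induction a with
    | zero => simpa using hC 1
    | succ a ih =>
      have := hmul _ _ _ _ ih hX0
      rwa [← pow_succ, show a * 4 + 4 = (a + 1) * 4 by ring] at this
  have hpow1 : ∀ a : ℕ, M (X 1 ^ a) (a * 6) := by
    intro a
    induction a with
    | zero => simpa using hC 1
    | succ a ih =>
      have := hmul _ _ _ _ ih hX1
      rwa [← pow_succ, show a * 6 + 6 = (a + 1) * 6 by ring] at this
  rw [weight_wt, monomial_eq_X]
  have := hmul _ _ _ _ (hC c) (hmul _ _ _ _ (hpow0 (d 0)) (hpow1 (d 1)))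
  rwa [zero_add] at this

/-- The Serre derivation raises the weight by `2`. -/
theorem serreD_isWeightedHomogeneous {φ : MvPolynomial (Fin 2) k} {n : ℕ}
    (h : IsWeightedHomogeneous wt φ n) : IsWeightedHomogeneous wt (serreD k φ) (n + 2) := by
  have key : ∀ (d : Fin 2 →₀ ℕ) (c : k),
      IsWeightedHomogeneous wt (monomial d c : MvPolynomial (Fin 2) k) (Finsupp.weight wt d) ∧
      IsWeightedHomogeneous wt (serreD k (monomial d c)) (Finsupp.weight wt d + 2) := by
    intro d c
    refine monomial_induction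
      (M := fun f m => IsWeightedHomogeneous wt f m ∧ IsWeightedHomogeneous wt (serreD k f) (m + 2))
      ?_ ?_ ?_ ?_ d c
    · intro c
      refine ⟨isWeightedHomogeneous_C wt c, ?_⟩
      have : serreD k (C c) = 0 := (serreD k).map_algebraMap c
      rw [this]
      exact isWeightedHomogeneous_zero k wt _
    · refine ⟨isWeightedHomogeneous_X k wt 0, ?_⟩
      rw [serreD_X0]
      have h1 : IsWeightedHomogeneous wt (X 1 : MvPolynomial (Fin 2) k) 6 :=
        isWeightedHomogeneous_X k wt 1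
      have h2 := h1.C_mul (-4 : k)
      rwa [map_neg, map_ofNat] at h2
    · refine ⟨isWeightedHomogeneous_X k wt 1, ?_⟩
      rw [serreD_X1]
      have h1 : IsWeightedHomogeneous wt (X 0 : MvPolynomial (Fin 2) k) 4 :=
        isWeightedHomogeneous_X k wt 0
      have h2 := (h1.pow 2).C_mul (-6 : k)
      rwa [map_neg, map_ofNat] at h2
    · rintro f g m n ⟨hf, hf'⟩ ⟨hg, hg'⟩
      refine ⟨hf.mul hg, ?_⟩
      rw [Derivation.leibniz, smul_eq_mul, smul_eq_mul]
      have h1 := hf.mul hg'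
      have h2 := hg.mul hf'
      rw [show m + (n + 2) = m + n + 2 by ring] at h1
      rw [show n + (m + 2) = m + n + 2 by ring] at h2
      exact h1.add h2
  rw [φ.as_sum, map_sum]
  refine IsWeightedHomogeneous.sum _ _ _ (fun d hd => ?_)
  have := (key d (coeff d φ)).2
  rwa [h (mem_support_iff.mp hd)] at this

/-- The Euler derivation multiplies an isobaric polynomial by its weight. -/
theorem eulerD_of_isWeightedHomogeneous {φ : MvPolynomial (Fin 2) k} {n : ℕ}
    (h : IsWeightedHomogeneous wt φ n) : eulerD k φ = (n : MvPolynomial (Fin 2) k) * φ := by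
  have key : ∀ (d : Fin 2 →₀ ℕ) (c : k), eulerD k (monomial d c) =
      ((Finsupp.weight wt d : ℕ) : MvPolynomial (Fin 2) k) * monomial d c := by
    intro d c
    refine monomial_induction
      (M := fun f m => eulerD k f = ((m : ℕ) : MvPolynomial (Fin 2) k) * f) ?_ ?_ ?_ ?_ d c
    · intro c
      have : eulerD k (C c) = 0 := (eulerD k).map_algebraMap c
      simp [this]
    · simp
    · simp
    · intro f g m n hf hg
      rw [Derivation.leibniz, smul_eq_mul, smul_eq_mul, hf, hg]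
      push_cast
      ring
  conv_lhs => rw [φ.as_sum]
  conv_rhs => rw [φ.as_sum]
  rw [map_sum, Finset.mul_sum]
  refine Finset.sum_congr rfl (fun d hd => ?_)
  rw [key, h (mem_support_iff.mp hd)]

/-- Evaluation at the cusp `(Q, R) = (1, 1)`. -/
def ev1 : MvPolynomial (Fin 2) k →ₐ[k] k := aeval (fun _ => (1 : k))

@[simp] theorem ev1_X (i : Fin 2) : ev1 (X i : MvPolynomial (Fin 2) k) = 1 := by
  simp [ev1]

@[simp] theorem ev1_C (c : k) : ev1 (C c : MvPolynomial (Fin 2) k) = c := by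
  simp [ev1]

theorem ev1_monomial (d : Fin 2 →₀ ℕ) (c : k) : ev1 (monomial d c) = c := by
  rw [monomial_eq_X]; simp

/-- At the cusp, the Serre derivation acts on weight `n` as multiplication by `-n`. -/
theorem ev1_serreD {φ : MvPolynomial (Fin 2) k} {n : ℕ}
    (h : IsWeightedHomogeneous wt φ n) : ev1 (serreD k φ) = -(n : k) * ev1 φ := by
  have key : ∀ (d : Fin 2 →₀ ℕ) (c : k), ev1 (serreD k (monomial d c)) =
      -((Finsupp.weight wt d : ℕ) : k) * ev1 (monomial d c) := by
    intro d c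
    refine monomial_induction
      (M := fun f m => ev1 (serreD k f) = -((m : ℕ) : k) * ev1 f) ?_ ?_ ?_ ?_ d c
    · intro c
      have : serreD k (C c) = 0 := (serreD k).map_algebraMap c
      simp [this]
    · simp [map_ofNat]
    · simp [map_ofNat]
    · intro f g m n hf hg
      rw [Derivation.leibniz, smul_eq_mul, smul_eq_mul, map_add, map_mul, map_mul, map_mul, hf, hg]
      push_cast
      ring
  conv_lhs => rw [φ.as_sum]
  conv_rhs => rw [φ.as_sum]
  rw [map_sum, map_sum, map_sum, Finset.mul_sum]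
  refine Finset.sum_congr rfl (fun d hd => ?_)
  rw [key, h (mem_support_iff.mp hd)]

/-- The discriminant direction `Q³ - R²` (`= 1728 Δ`). -/
def disc (k : Type*) [Field k] : MvPolynomial (Fin 2) k := X 0 ^ 3 - X 1 ^ 2

theorem serreD_disc : serreD k (disc k) = 0 := by
  simp only [disc, map_sub, Derivation.leibniz_pow, serreD_X0, serreD_X1, smul_eq_mul, nsmul_eq_mul]
  push_cast
  ring

theorem ev1_disc : ev1 (disc k) = 0 := by
  simp [disc]

theorem disc_ne_zero : disc k ≠ 0 := by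
  intro h
  have h2 := congrArg (aeval (fun i : Fin 2 => if i = 0 then (1 : k) else 0)) h
  simp [disc] at h2

theorem disc_not_isUnit : ¬ IsUnit (disc k) := by
  intro h
  have := h.map (ev1 (k := k))
  rw [ev1_disc] at this
  exact not_isUnit_zero this

/-- An isobaric polynomial vanishing at the cusp is divisible by `Q³ - R²`. -/
theorem disc_dvd_of_ev1_eq_zero {V : MvPolynomial (Fin 2) k} {n : ℕ}
    (hV : IsWeightedHomogeneous wt V n) (h1 : ev1 V = 0) : disc k ∣ V := by
  set j' := (n / 2) % 2 with hj'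
  set i' := (n - 6 * j') / 4 with hi'
  have key : ∀ d ∈ V.support, disc k ∣
      monomial d (coeff d V) - C (coeff d V) * (X 0 ^ i' * X 1 ^ j') := by
    intro d hd
    have hw := hV (mem_support_iff.mp hd)
    rw [weight_wt] at hw
    obtain ⟨t, ht⟩ : ∃ t, d 1 = 2 * t + j' := ⟨d 1 / 2, by omega⟩
    have hi : i' = d 0 + 3 * t := by omega
    rw [monomial_eq_X, ht, hi]
    have h2 : (X 1 ^ 2 - X 0 ^ 3 : MvPolynomial (Fin 2) k) ∣ (X 1 ^ 2) ^ t - (X 0 ^ 3) ^ t :=
      sub_dvd_pow_sub_pow _ _ t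
    have h3 : disc k ∣ (X 1 ^ 2) ^ t - (X 0 ^ 3) ^ t := by
      refine Dvd.dvd.trans ?_ h2
      refine ⟨-1, ?_⟩
      simp only [disc]; ring
    have h4 : (C (coeff d V) * (X 0 ^ d 0 * X 1 ^ (2 * t + j')) -
        C (coeff d V) * (X 0 ^ (d 0 + 3 * t) * X 1 ^ j') : MvPolynomial (Fin 2) k) =
        C (coeff d V) * X 0 ^ d 0 * X 1 ^ j' * ((X 1 ^ 2) ^ t - (X 0 ^ 3) ^ t) := by
      ring
    rw [h4]
    exact Dvd.dvd.mul_left h3 _
  have hsum : V = ∑ d ∈ V.support,
      (monomial d (coeff d V) - C (coeff d V) * (X 0 ^ i' * X 1 ^ j')) := by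
    rw [Finset.sum_sub_distrib, ← V.as_sum, ← Finset.sum_mul, ← map_sum]
    have : ∑ d ∈ V.support, coeff d V = ev1 V := by
      conv_rhs => rw [V.as_sum]
      rw [map_sum]
      exact Finset.sum_congr rfl (fun d _ => (ev1_monomial d _).symm)
    rw [this, h1]
    simp
  rw [hsum]
  exact Finset.dvd_sum key

/-- Second derivative of `p ^ (n + 2) * u` for a derivation of a commutative ring. -/
theorem deriv_deriv_pow_mul {R A : Type*} [CommRing R] [CommRing A] [Algebra R A]
    (D : Derivation R A A) (p u : A) (n : ℕ) :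
    D (D (p ^ (n + 2) * u)) =
      p ^ n * (((n : A) + 2) * ((n : A) + 1) * (D p) ^ 2 * u +
        p * (((n : A) + 2) * D (D p) * u + 2 * ((n : A) + 2) * D p * D u + p * D (D u))) := by
  have h1 : D (p ^ (n + 2)) = ((n : A) + 2) * p ^ (n + 1) * D p := by
    rw [Derivation.leibniz_pow]
    simp only [Nat.add_succ_sub_one, smul_eq_mul, nsmul_eq_mul]
    push_cast
    ring
  have h2 : D (p ^ (n + 1)) = ((n : A) + 1) * p ^ n * D p := by
    rw [Derivation.leibniz_pow]
    simp only [Nat.add_succ_sub_one, smul_eq_mul, nsmul_eq_mul, add_zero]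
    push_cast
    ring
  have h3 : D ((n : A) + 2) = 0 := by
    have : ((n : A) + 2) = ((n + 2 : ℕ) : A) := by push_cast; ring
    rw [this, Derivation.map_natCast]
  simp only [Derivation.leibniz, smul_eq_mul, map_add, h1, h2, h3]
  ring

/-- If `D p = 0` then `D (D (p ^ e * u)) = p ^ e * D (D u)`. -/
theorem deriv_deriv_pow_mul_of_const {R A : Type*} [CommRing R] [CommRing A] [Algebra R A]
    (D : Derivation R A A) (p u : A)
    (e : ℕ) (hp : D p = 0) : D (D (p ^ e * u)) = p ^ e * D (D u) := by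
  have h1 : D (p ^ e) = 0 := by
    rw [Derivation.leibniz_pow, hp]; simp
  simp only [Derivation.leibniz, smul_eq_mul, map_add, h1, map_zero]
  ring

theorem pow_mul_eq_pow_mul_imp {A : Type*} [CommRing A] [IsDomain A] {π u v : A} (hπ : Prime π)
    {s t : ℕ} (h : π ^ s * u = π ^ t * v) (hu : ¬ π ∣ u) (hv : ¬ π ∣ v) : s = t := by
  rcases lt_trichotomy s t with hlt | heq | hgt
  · exfalso
    obtain ⟨d, rfl⟩ := Nat.exists_eq_add_of_lt hlt
    rw [show s + d + 1 = s + (d + 1) by ring, pow_add, mul_assoc] at h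
    have h' := mul_left_cancel₀ (pow_ne_zero s hπ.ne_zero) h
    exact hu ⟨π ^ d * v, by rw [h']; ring⟩
  · exact heq
  · exfalso
    obtain ⟨d, rfl⟩ := Nat.exists_eq_add_of_lt hgt
    rw [show t + d + 1 = t + (d + 1) by ring, pow_add, mul_assoc] at h
    have h' := mul_left_cancel₀ (pow_ne_zero t hπ.ne_zero) h
    exact hv ⟨π ^ d * u, by rw [← h']; ring⟩

/-- **Squarefreeness from the Serre ODE** (Swinnerton-Dyer lite): over a field of characteristic
`ℓ ≥ 5`, an isobaric polynomial `a ≠ 0` of weight `ℓ - 1` with `∂²a = -Q a` is squarefree. -/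
theorem squarefree_of_ode {ℓ : ℕ} [Fact ℓ.Prime] [CharP k ℓ]
    {a : MvPolynomial (Fin 2) k} (ha : IsWeightedHomogeneous wt a (ℓ - 1)) (ha0 : a ≠ 0)
    (hode : serreD k (serreD k a) = -(X 0 * a)) : Squarefree a := by
  have hℓ : ℓ.Prime := Fact.out
  -- the derivation as a `ℤ`-derivation
  set D : Derivation k (MvPolynomial (Fin 2) k) (MvPolynomial (Fin 2) k) := serreD k with hDdef
  have hD : ∀ x, D x = serreD k x := fun x => rfl
  have hcast : ∀ m : ℕ, 0 < m → m < ℓ → (m : k) ≠ 0 := by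
    intro m hm0 hmℓ hm
    rw [CharP.cast_eq_zero_iff k ℓ] at hm
    exact absurd (Nat.le_of_dvd hm0 hm) (not_le.mpr hmℓ)
  intro x hx
  by_contra hxu
  have hx0 : x ≠ 0 := by
    rintro rfl
    rw [zero_mul, zero_dvd_iff] at hx
    exact ha0 hx
  obtain ⟨π, hπirr, hπx⟩ := WfDvdMonoid.exists_irreducible_factor hxu hx0
  have hπ : Prime π := UniqueFactorizationMonoid.irreducible_iff_prime.mp hπirr
  have hππ : π * π ∣ a := (mul_dvd_mul hπx hπx).trans hx
  obtain ⟨e, U, hU, haU⟩ := WfDvdMonoid.max_power_factor ha0 hπirr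
  have hU0 : U ≠ 0 := by rintro rfl; exact ha0 (by rw [haU, mul_zero])
  -- `2 ≤ e`
  have he2 : 2 ≤ e := by
    by_contra hlt
    have he : e = 0 ∨ e = 1 := by omega
    rcases he with rfl | rfl
    · rw [pow_zero, one_mul] at haU
      exact hU ((dvd_mul_right π π).trans (haU ▸ hππ))
    · rw [pow_one] at haU
      rw [haU] at hππ
      exact hU ((mul_dvd_mul_iff_left hπ.ne_zero).mp hππ)
  -- weights
  obtain ⟨m, -, -, hπm, -⟩ := isWeightedHomogeneous_of_mul
    (x := π) (y := π ^ (e - 1) * U) (a := a) (by rw [haU, ← mul_assoc, ← pow_succ']; congr 2; omega)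
    ha0 ha
  have hm0 : m ≠ 0 := by
    rintro rfl
    exact hπirr.not_isUnit (isUnit_of_isWeightedHomogeneous_zero hπm hπ.ne_zero)
  obtain ⟨i, j, hij, hπe, hUj⟩ := isWeightedHomogeneous_of_mul haU.symm ha0 ha
  have hi : e • m = i :=
    IsWeightedHomogeneous.inj_right (pow_ne_zero e hπ.ne_zero) (hπm.pow e) hπe
  rw [smul_eq_mul] at hi
  have hℓ5 : 2 ≤ ℓ := hℓ.two_le
  have hem : 2 * 1 ≤ e * m := Nat.mul_le_mul he2 (Nat.one_le_iff_ne_zero.mpr hm0)
  have hem' : e * 1 ≤ e * m := Nat.mul_le_mul le_rfl (Nat.one_le_iff_ne_zero.mpr hm0)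
  have heℓ : e < ℓ := by omega
  have hjℓ : j + 3 ≤ ℓ := by omega
  -- `π ∣ ∂π`
  obtain ⟨n, rfl⟩ : ∃ n, e = n + 2 := ⟨e - 2, by omega⟩
  have hπD : π ∣ D π := by
    have h1 := deriv_deriv_pow_mul D π U n
    rw [← haU, hD, hD, hode, haU] at h1
    have h2 : π ^ n * (-(X 0 * (π ^ 2 * U))) =
        π ^ n * (((n : MvPolynomial (Fin 2) k) + 2) * ((n : MvPolynomial (Fin 2) k) + 1) *
          (D π) ^ 2 * U + π * (((n : MvPolynomial (Fin 2) k) + 2) * D (D π) * U +
          2 * ((n : MvPolynomial (Fin 2) k) + 2) * D π * D U + π * D (D U))) := by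
      rw [← h1]; ring
    have h3 := mul_left_cancel₀ (pow_ne_zero n hπ.ne_zero) h2
    have h4 : π ∣ ((n : MvPolynomial (Fin 2) k) + 2) * ((n : MvPolynomial (Fin 2) k) + 1) *
        (D π) ^ 2 * U := by
      refine ⟨-(X 0 * (π * U)) - (((n : MvPolynomial (Fin 2) k) + 2) * D (D π) * U +
          2 * ((n : MvPolynomial (Fin 2) k) + 2) * D π * D U + π * D (D U)), ?_⟩
      linear_combination -h3
    have hc : IsUnit (((n : MvPolynomial (Fin 2) k) + 2) * ((n : MvPolynomial (Fin 2) k) + 1)) := by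
      have h5 : ((n : MvPolynomial (Fin 2) k) + 2) * ((n : MvPolynomial (Fin 2) k) + 1) =
          C (((n + 2 : ℕ) : k) * ((n + 1 : ℕ) : k)) := by
        rw [map_mul, map_natCast, map_natCast]; push_cast; ring
      rw [h5]
      exact (isUnit_iff_ne_zero.mpr (mul_ne_zero (hcast _ (by omega) heℓ)
        (hcast _ (by omega) (by omega)))).map C
    rw [mul_assoc, hc.dvd_mul_left] at h4
    rcases hπ.dvd_or_dvd h4 with h6 | h6
    · exact hπ.dvd_of_dvd_pow h6
    · exact absurd h6 hU
  -- `∂π = 0`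
  have hπD0 : D π = 0 := by
    by_contra hne
    obtain ⟨c, hc⟩ := hπD
    have hw : IsWeightedHomogeneous wt (D π) (m + 2) := serreD_isWeightedHomogeneous hπm
    obtain ⟨i', j', hij', hi', hj'⟩ := isWeightedHomogeneous_of_mul hc.symm hne hw
    have : m = i' := IsWeightedHomogeneous.inj_right hπ.ne_zero hπm hi'
    have hj2 : j' = 2 := by omega
    subst hj2
    have hc0 : c = 0 := by
      refine hj'.eq_zero_of_no_monomials (fun d => ?_)
      rw [weight_wt]; omega
    exact hne (by rw [hc, hc0, mul_zero])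
  -- the ODE for `U`
  have hodeU : D (D U) = -(X 0 * U) := by
    have h1 := deriv_deriv_pow_mul_of_const D π U (n + 2) hπD0
    rw [← haU, hD, hD, hode, haU] at h1
    have h2 : π ^ (n + 2) * (-(X 0 * U)) = π ^ (n + 2) * D (D U) := by
      rw [← h1]; ring
    exact (mul_left_cancel₀ (pow_ne_zero _ hπ.ne_zero) h2).symm
  -- remove the powers of the discriminant
  obtain ⟨m', V, hV, hUV⟩ := WfDvdMonoid.max_power_factor' hU0 (disc_not_isUnit (k := k))
  have hV0 : V ≠ 0 := by rintro rfl; exact hU0 (by rw [hUV, mul_zero])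
  have hdisc0 : disc k ≠ 0 := disc_ne_zero
  have hodeV : D (D V) = -(X 0 * V) := by
    have h1 := deriv_deriv_pow_mul_of_const D (disc k) V m' (by rw [hD]; exact serreD_disc)
    rw [← hUV, hodeU, hUV] at h1
    have h2 : disc k ^ m' * (-(X 0 * V)) = disc k ^ m' * D (D V) := by
      rw [← h1]; ring
    exact (mul_left_cancel₀ (pow_ne_zero _ hdisc0) h2).symm
  obtain ⟨i₂, j₂, hij₂, -, hVj⟩ := isWeightedHomogeneous_of_mul hUV.symm hU0 hUj
  have hev : ev1 V ≠ 0 := fun h => hV (disc_dvd_of_ev1_eq_zero hVj h)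
  have e1 : ev1 (serreD k V) = -(j₂ : k) * ev1 V := ev1_serreD hVj
  have e2 : ev1 (serreD k (serreD k V)) = -((j₂ + 2 : ℕ) : k) * ev1 (serreD k V) :=
    ev1_serreD (serreD_isWeightedHomogeneous hVj)
  have e3 : ev1 (serreD k (serreD k V)) = -ev1 V := by
    rw [← hD, ← hD, hodeV]; simp
  rw [e1] at e2
  rw [e2] at e3
  have e4 : ((j₂ + 1 : ℕ) : k) ^ 2 * ev1 V = 0 := by
    push_cast at e3 ⊢
    linear_combination e3
  rcases mul_eq_zero.mp e4 with h | h
  · exact hcast (j₂ + 1) (by omega) (by omega) (pow_eq_zero_iff (two_ne_zero) |>.mp h)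
  · exact hev h

/-- **`[L1]`, algebraic form.** Over a field of characteristic `ℓ`, let `a ≠ 0` be isobaric of
weight `ℓ - 1 ≠ 0` with `∂²a = -Q a` (the reduction of `E_{ℓ-1}`).  If `f ^ (ℓ - 1) = c * a ^ w`
with `c ≠ 0` (as happens for the reduction `f` of a form of weight `w` congruent to a unit
constant modulo `ℓ`), then `ℓ - 1 ∣ w`. -/
theorem dvd_weight_of_pow_eq {ℓ : ℕ} [Fact ℓ.Prime] [CharP k ℓ]
    {a : MvPolynomial (Fin 2) k} (ha : IsWeightedHomogeneous wt a (ℓ - 1)) (ha0 : a ≠ 0)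
    (hode : serreD k (serreD k a) = -(X 0 * a))
    (w : ℕ) (f : MvPolynomial (Fin 2) k) (c : k) (hc : c ≠ 0)
    (hpow : f ^ (ℓ - 1) = C c * a ^ w) : (ℓ - 1) ∣ w := by
  have hℓ : ℓ.Prime := Fact.out
  have hℓ1 : ℓ - 1 ≠ 0 := by have := hℓ.two_le; omega
  have hsq : Squarefree a := squarefree_of_ode ha ha0 hode
  have hau : ¬ IsUnit a := not_isUnit_of_isWeightedHomogeneous ha hℓ1
  obtain ⟨π, hπirr, hπa⟩ := WfDvdMonoid.exists_irreducible_factor hau ha0
  have hπ : Prime π := UniqueFactorizationMonoid.irreducible_iff_prime.mp hπirr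
  obtain ⟨b, rfl⟩ := hπa
  have hb : ¬ π ∣ b := by
    rintro ⟨b', rfl⟩
    exact hπirr.not_isUnit (hsq π ⟨b', by ring⟩)
  have hC0 : (C c : MvPolynomial (Fin 2) k) ≠ 0 := by
    rw [Ne, C_eq_zero]; exact hc
  have hf0 : f ≠ 0 := by
    rintro rfl
    rw [zero_pow hℓ1] at hpow
    exact (mul_ne_zero hC0 (pow_ne_zero w ha0)) hpow.symm
  obtain ⟨r, g, hg, rfl⟩ := WfDvdMonoid.max_power_factor hf0 hπirr
  have hCu : IsUnit (C c : MvPolynomial (Fin 2) k) := (isUnit_iff_ne_zero.mpr hc).map C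
  have h1 : π ^ (r * (ℓ - 1)) * g ^ (ℓ - 1) = π ^ w * (C c * b ^ w) := by
    rw [pow_mul, ← mul_pow, hpow]; ring
  have h2 : ¬ π ∣ g ^ (ℓ - 1) := fun h => hg (hπ.dvd_of_dvd_pow h)
  have h3 : ¬ π ∣ C c * b ^ w := by
    rw [hCu.dvd_mul_left]
    exact fun h => hb (hπ.dvd_of_dvd_pow h)
  have h4 := pow_mul_eq_pow_mul_imp hπ h1 h2 h3
  exact ⟨r, by rw [← h4]; ring⟩

/-- Variant of `dvd_weight_of_pow_eq` with `c = 1`. -/
theorem dvd_weight_of_pow_eq_pow {ℓ : ℕ} [Fact ℓ.Prime] [CharP k ℓ]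
    {a : MvPolynomial (Fin 2) k} (ha : IsWeightedHomogeneous wt a (ℓ - 1)) (ha0 : a ≠ 0)
    (hode : serreD k (serreD k a) = -(X 0 * a))
    (w : ℕ) (f : MvPolynomial (Fin 2) k) (hpow : f ^ (ℓ - 1) = a ^ w) : (ℓ - 1) ∣ w :=
  dvd_weight_of_pow_eq ha ha0 hode w f 1 one_ne_zero (by rw [hpow, C_1, one_mul])

end

end Fermat.Agent.S16.helper2441
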