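import Fermat.Agent.S16.helper262_PeriodHeckeHom
import Fermat.Agent.S16.helper1808_Master
import Fermat.Agent.S16.helper1461_ShimuraLift

/-!
# S16: the lower bound `n ∣ eis t` for every Hecke polynomial `t` killing the lattice

Discharges the three lower-bound leaves `Stmt_Lift`, `Stmt_GenT`, `Stmt_GenU` of
`helper1808_Master` from modules on main:

* operators: `helper2138.heckeHomT/heckeHomU` (naturality, commutation with `charInvolution`,
  `d`-relations);
* (EQ): `helper262.periodMap_heckeTLin/heckeULin`;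
* (EIG): `helper8671.sum_shimuraHom_of_units`, `shimuraHom_eq_of_entry_eq`, `prime_nsmul_eq`;
* (LIFT): `helper1461.exists_parabolic_lift'`.
-/

set_option autoImplicit false

open ModularCurve ModularCurve.Period CuspForm CongruenceSubgroup
open scoped MatrixGroups

namespace Fermat.Agent.S16.helper262

open Fermat.Agent.S16.helper2138

noncomputable section

/-- `T_l` as a natural operator on `Hom(Γ₀(p), A)`. -/
def natOpT (p l : ℕ) [Fact l.Prime] (hlp : ¬ l ∣ p) : helper9058.NatOp p where
  op A _ := ((corrT p l hlp).opLin ℤ A).toAddMonoidHom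
  nat _ _ _ _ f φ := heckeHomT_comp p l hlp f φ

/-- `U_p` as a natural operator on `Hom(Γ₀(p), A)`. -/
def natOpU (p : ℕ) [NeZero p] : helper9058.NatOp p where
  op A _ := ((corrU p p (dvd_refl p)).opLin ℤ A).toAddMonoidHom
  nat _ _ _ _ f φ := heckeHomU_comp p p (dvd_refl p) f φ

theorem natOpT_apply (p l : ℕ) [Fact l.Prime] (hlp : ¬ l ∣ p) (A : Type) [AddCommGroup A]
    (φ : Additive (Gamma0 p) →+ A) : (natOpT p l hlp).op A φ = heckeHomT p l hlp A φ := rfl

theorem natOpU_apply (p : ℕ) [NeZero p] (A : Type) [AddCommGroup A]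
    (φ : Additive (Gamma0 p) →+ A) :
    (natOpU p).op A φ = heckeHomU p p (dvd_refl p) A φ := rfl

theorem card_onePoint_zmod (l : ℕ) [NeZero l] : Fintype.card (OnePoint (ZMod l)) = l + 1 := by
  rw [← Nat.card_eq_fintype_card]
  have : Nat.card (OnePoint (ZMod l)) = Nat.card (Option (ZMod l)) := rfl
  rw [this, Nat.card_eq_fintype_card, Fintype.card_option, ZMod.card]

/-- **(GEN-T)** of `helper1808_Master`. -/
theorem stmt_GenT (p : ℕ) [Fact p.Prime] : helper1808.Stmt_GenT p := by
  intro l hl hlp
  have : Fact l.Prime := ⟨hl⟩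
  have : NeZero p := ⟨(Fact.out : p.Prime).ne_zero⟩
  refine ⟨natOpT p l hlp, fun f => ?_, fun φ => ?_, ?_⟩
  · rw [natOpT_apply]
    exact (periodMap_heckeTLin p l hlp f).symm
  · rw [natOpT_apply, natOpT_apply]
    exact heckeHomT_charInvolution p l hlp ℂ ℂ φ
  · rw [natOpT_apply]
    refine AddMonoidHom.ext fun γ' => ?_
    obtain ⟨γ, rfl⟩ := Additive.ofMul.surjective γ'
    rw [heckeHomT_apply]
    have hcop : Nat.Coprime l p := (Nat.Prime.coprime_iff_not_dvd hl).mpr hlp
    have hunit : ∀ x : OnePoint (ZMod l), IsUnit ((eT l x : ℤ) : ZMod p) := by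
      intro x
      induction x using OnePoint.rec with
      | infty => simp
      | coe j =>
        rw [eT_coe, Int.cast_natCast]
        exact (ZMod.isUnit_iff_coprime l p).mpr hcop
    have key := helper8671.sum_shimuraHom_of_units p (fun x => (hunit x).unit) γ
      (fun x => (corrT p l hlp).g x γ) ((corrT p l hlp).σEquiv γ) (fun x => by
        apply Units.ext
        rw [Units.val_mul, Units.val_mul, helper8671.dUnit_coe, helper8671.dUnit_coe,
          IsUnit.unit_spec, IsUnit.unit_spec, Corr.σEquiv_apply, mul_comm (_ : ZMod p) (((γ :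
          SL(2, ℤ)) 1 1 : ℤ) : ZMod p)]
        exact corrT_d_rel p l hlp x γ)
    have : NeZero l := ⟨hl.ne_zero⟩
    rw [key, card_onePoint_zmod, AddMonoidHom.smul_apply, ← natCast_zsmul]
    push_cast
    rfl

/-- **(GEN-U)** of `helper1808_Master`. -/
theorem stmt_GenU (p : ℕ) [Fact p.Prime] : helper1808.Stmt_GenU p := by
  have : NeZero p := ⟨(Fact.out : p.Prime).ne_zero⟩
  refine ⟨natOpU p, fun f => ?_, fun φ => ?_, ?_⟩
  · rw [natOpU_apply]
    exact (periodMap_heckeULin p p (dvd_refl p) f).symm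
  · rw [natOpU_apply, natOpU_apply]
    exact heckeHomU_charInvolution p p (dvd_refl p) ℂ ℂ φ
  · rw [natOpU_apply]
    refine AddMonoidHom.ext fun γ' => ?_
    obtain ⟨γ, rfl⟩ := Additive.ofMul.surjective γ'
    rw [heckeHomU_apply]
    rw [Finset.sum_congr rfl (fun j _ => helper8671.shimuraHom_eq_of_entry_eq p
      (corrU_d_rel p p (dvd_refl p) j γ)), Finset.sum_const, Finset.card_univ, ZMod.card,
      helper8671.prime_nsmul_eq]

/-- **(LIFT)** of `helper1808_Master`. -/
theorem stmt_Lift (p : ℕ) [Fact p.Prime] : helper1808.Stmt_Lift p :=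
  fun n ψ0 hpar hfin => helper1461.exists_parabolic_lift' p n ψ0 hpar hfin

/-- **S16, lower bound (unconditional).** -/
theorem lowerBound (p : ℕ) [Fact p.Prime] :
    ∀ t : HeckeAlg, helper2246.phi p t = 0 →
      (eisensteinNumerator p : ℤ) ∣ helper2246.eis p t :=
  helper1808.lb_of_leaves p (stmt_Lift p) (stmt_GenT p) (stmt_GenU p)

end

end Fermat.Agent.S16.helper262
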