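import Fermat.Agent.S21.helper21_Primitive
import Fermat.Prelude.Def_CuspForm_HeckeAlgebra
import Fermat.Prelude.Sol.S_ModularForm_heckeT_slash_eq_self_of_mem_Gamma0

/-!
# S16 (lower bound): rep-agnostic Hecke equivariance of the weight-2 period map

`periodMap_eq_sum_of_reps`: let `β : X → GL(2,ℝ)⁺` be a finite family, `s` a permutation of `X`,
`γ ∈ Γ₀(N)` and `g : X → Γ₀(N)` with `β x ∘ γ = g x ∘ β (s x)` as Möbius maps.  If
`f' = ∑ x, f ∣[2] β x` for cusp forms `f f'` of weight two, then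
`periodMap N f' γ = ∑ x, periodMap N f (g x)`.

No cusp limits are needed: the primitive `F'` of `f'` supplied by S21 and `∑ x, F ∘ β x` have the
same derivative, hence differ by a constant.
-/

set_option autoImplicit false

open ModularCurve ModularCurve.Period CongruenceSubgroup UpperHalfPlane Filter Topology
open scoped MatrixGroups ModularForm Manifold

namespace Fermat.Agent.S16.helper262

/-- Chain rule for Möbius transformations of positive determinant: if `F` is a primitive of `f`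
on `ℍ`, then `w ↦ F (β • w)` is a primitive of the weight-two slash `f ∣[2] β`. -/
theorem hasDerivAt_comp_glsmul {F f : ℍ → ℂ}
    (hF : ∀ τ : ℍ, HasDerivAt (F ∘ ofComplex) (f τ) (τ : ℂ)) (β : GL (Fin 2) ℝ)
    (hβ : 0 < β.det.val) (τ : ℍ) :
    HasDerivAt ((fun w : ℍ => F (β • w)) ∘ ofComplex) ((f ∣[(2 : ℤ)] β) τ) (τ : ℂ) := by
  set a : ℂ := ((β 0 0 : ℝ) : ℂ) with ha
  set b : ℂ := ((β 0 1 : ℝ) : ℂ) with hb
  set c : ℂ := ((β 1 0 : ℝ) : ℂ) with hc
  set d : ℂ := ((β 1 1 : ℝ) : ℂ) with hd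
  have hdet : a * d - b * c = ((β.det.val : ℝ) : ℂ) := by
    have h1 : β.det.val = β 0 0 * β 1 1 - β 0 1 * β 1 0 := by
      rw [Matrix.GeneralLinearGroup.val_det_apply, Matrix.det_fin_two]
    rw [h1]
    push_cast
    ring
  have hden : c * (τ : ℂ) + d ≠ 0 := by
    have := UpperHalfPlane.denom_ne_zero β τ
    simpa [UpperHalfPlane.denom, hc, hd] using this
  have hm : HasDerivAt (fun z : ℂ => (a * z + b) / (c * z + d))
      (((β.det.val : ℝ) : ℂ) / (c * (τ : ℂ) + d) ^ 2) (τ : ℂ) := by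
    have h1 : HasDerivAt (fun z : ℂ => a * z + b) a (τ : ℂ) := by
      simpa using ((hasDerivAt_id (τ : ℂ)).const_mul a).add_const b
    have h2 : HasDerivAt (fun z : ℂ => c * z + d) c (τ : ℂ) := by
      simpa using ((hasDerivAt_id (τ : ℂ)).const_mul c).add_const d
    have h3 := h1.div h2 hden
    have h4 : (a * (c * (τ : ℂ) + d) - (a * (τ : ℂ) + b) * c) / (c * (τ : ℂ) + d) ^ 2
        = ((β.det.val : ℝ) : ℂ) / (c * (τ : ℂ) + d) ^ 2 := by
      congr 1
      linear_combination hdet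
    rw [h4] at h3
    exact h3
  have hval : ∀ z : ℍ, (a * (z : ℂ) + b) / (c * (z : ℂ) + d) = ((β • z : ℍ) : ℂ) := by
    intro z
    rw [coe_smul_of_det_pos hβ z]
    rfl
  have hF' : HasDerivAt (F ∘ ofComplex) (f (β • τ)) ((a * (τ : ℂ) + b) / (c * (τ : ℂ) + d)) := by
    rw [hval τ]; exact hF (β • τ)
  have hcomp := hF'.comp (τ : ℂ) hm
  have hslash : (f ∣[(2 : ℤ)] β) τ
      = f (β • τ) * (((β.det.val : ℝ) : ℂ) / (c * (τ : ℂ) + d) ^ 2) := by
    rw [ModularForm.slash_apply]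
    have hσ : UpperHalfPlane.σ β = ContinuousAlgEquiv.refl ℝ ℂ := by
      rw [UpperHalfPlane.σ, if_pos hβ]
    rw [hσ]
    have habs : |β.det.val| = β.det.val := abs_of_pos hβ
    rw [habs]
    have hden' : UpperHalfPlane.denom β (τ : ℂ) = c * (τ : ℂ) + d := rfl
    rw [hden']
    rw [show ((2 : ℤ) - 1) = 1 by norm_num, zpow_one, zpow_neg]
    rw [div_eq_mul_inv, mul_assoc]
    rfl
  rw [hslash]
  refine hcomp.congr_of_eventuallyEq ?_
  filter_upwards [isOpen_upperHalfPlaneSet.mem_nhds τ.im_pos] with z hz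
  simp only [Function.comp_apply]
  rw [ofComplex_apply_of_im_pos hz]
  have := hval ⟨z, hz⟩
  simp only at this ⊢
  rw [this, ofComplex_apply]

/-- The period map of `f` evaluated through any equivariant primitive, at any base point. -/
theorem periodMap_apply_of_primitive_at {N : ℕ} {f : CuspForm (Gamma0 N) 2} {F : ℍ → ℂ}
    (hF : HasEquivariantPrimitive N f F) (γ : Gamma0 N) (z : ℍ) :
    periodMap N f (Additive.ofMul γ) = F ((γ : SL(2, ℤ)) • z) - F z := by
  rw [Fermat.Agent.S21.helper921.periodMap_eq_of_primitive hF,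
    IsEquivariantPrimitive.periodHom_apply, ← hF.2.2.1.sub_eq_period γ z]

/-- **Rep-agnostic Hecke equivariance of the weight-two period map.**  If `β x ∘ γ = g x ∘ β (s x)`
as Möbius maps for a permutation `s`, and `f' = ∑ x, f ∣[2] β x`, then
`periodMap N f' γ = ∑ x, periodMap N f (g x)`. -/
theorem periodMap_eq_sum_of_reps (N : ℕ) [NeZero N] {X : Type*} [Fintype X]
    (β : X → GL (Fin 2) ℝ) (hβ : ∀ x, 0 < (β x).det.val)
    (s : Equiv.Perm X) (γ : Gamma0 N) (g : X → Gamma0 N)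
    (hrel : ∀ (x : X) (z : ℍ),
      β x • ((γ : SL(2, ℤ)) • z) = ((g x : Gamma0 N) : SL(2, ℤ)) • (β (s x) • z))
    (f f' : CuspForm (Gamma0 N) 2)
    (hf' : ∀ τ : ℍ, f' τ = ∑ x, ((f : ℍ → ℂ) ∣[(2 : ℤ)] (β x)) τ) :
    periodMap N f' (Additive.ofMul γ) = ∑ x, periodMap N f (Additive.ofMul (g x)) := by
  obtain ⟨F, hF⟩ := Fermat.Agent.S21.helper21.stmtA N f
  obtain ⟨F', hF'⟩ := Fermat.Agent.S21.helper21.stmtA N f'
  have hD : ∀ τ : ℍ, HasDerivAt ((fun w : ℍ => (∑ x, F (β x • w)) - F' w) ∘ ofComplex) 0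
      (τ : ℂ) := by
    intro τ
    have h1 : HasDerivAt (fun z : ℂ => ∑ x, ((fun w : ℍ => F (β x • w)) ∘ ofComplex) z)
        (∑ x, ((f : ℍ → ℂ) ∣[(2 : ℤ)] β x) τ) (τ : ℂ) :=
      HasDerivAt.fun_sum fun x _ => hasDerivAt_comp_glsmul hF.1 (β x) (hβ x) τ
    have h2 := hF'.1 τ
    have h3 := h1.sub h2
    rw [← hf' τ, sub_self] at h3
    exact h3
  have hconst := Fermat.Agent.S21.helper21.eq_of_hasDerivAt_zero hD
    ((γ : SL(2, ℤ)) • UpperHalfPlane.I) UpperHalfPlane.I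
  rw [Fermat.Agent.S21.helper921.periodMap_apply_of_primitive hF' γ]
  have h6 : ∑ x, F (β x • UpperHalfPlane.I) = ∑ x, F (β (s x) • UpperHalfPlane.I) :=
    (Equiv.sum_comp s (fun x => F (β x • UpperHalfPlane.I))).symm
  have h7 : ∀ x, F (β x • ((γ : SL(2, ℤ)) • UpperHalfPlane.I)) - F (β (s x) • UpperHalfPlane.I)
      = periodMap N f (Additive.ofMul (g x)) := by
    intro x
    rw [hrel x UpperHalfPlane.I, periodMap_apply_of_primitive_at hF (g x)]
  have h8 : F' ((γ : SL(2, ℤ)) • UpperHalfPlane.I) - F' UpperHalfPlane.I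
      = ∑ x, F (β x • ((γ : SL(2, ℤ)) • UpperHalfPlane.I)) - ∑ x, F (β x • UpperHalfPlane.I) := by
    linear_combination -hconst
  rw [h8, h6, ← Finset.sum_sub_distrib]
  exact Finset.sum_congr rfl fun x _ => h7 x

/-- Matrix form of `periodMap_eq_sum_of_reps`: the coset relation is an identity in `GL(2,ℝ)` and
`s` is any bijection. -/
theorem periodMap_eq_sum_of_reps_mul (N : ℕ) [NeZero N] {X : Type*} [Fintype X]
    (β : X → GL (Fin 2) ℝ) (hβ : ∀ x, 0 < (β x).det.val)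
    (s : X → X) (hs : Function.Bijective s) (γ : Gamma0 N) (g : X → Gamma0 N)
    (hrel : ∀ x, β x * Matrix.SpecialLinearGroup.mapGL ℝ (γ : SL(2, ℤ))
        = Matrix.SpecialLinearGroup.mapGL ℝ ((g x : Gamma0 N) : SL(2, ℤ)) * β (s x))
    (f f' : CuspForm (Gamma0 N) 2)
    (hf' : (f' : ℍ → ℂ) = ∑ x, (f : ℍ → ℂ) ∣[(2 : ℤ)] (β x)) :
    periodMap N f' (Additive.ofMul γ) = ∑ x, periodMap N f (Additive.ofMul (g x)) := by
  refine periodMap_eq_sum_of_reps N β hβ (Equiv.ofBijective s hs) γ g (fun x z => ?_) f f'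
    (fun τ => ?_)
  · have h1 : ((γ : SL(2, ℤ)) • z : ℍ) = Matrix.SpecialLinearGroup.mapGL ℝ (γ : SL(2, ℤ)) • z := rfl
    have h2 : (((g x : Gamma0 N) : SL(2, ℤ)) • (β (s x) • z) : ℍ)
        = Matrix.SpecialLinearGroup.mapGL ℝ ((g x : Gamma0 N) : SL(2, ℤ)) • (β (s x) • z) := rfl
    rw [Equiv.ofBijective_apply, h1, h2, ← mul_smul, ← mul_smul, hrel x]
  · rw [hf', Finset.sum_apply]

/-- Integer-matrix form: `α x * γ = g x * α (s x)` in `M₂(ℤ)`, with `β x` the real matrix of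
`α x`. -/
theorem periodMap_eq_sum_of_intReps (N : ℕ) [NeZero N] {X : Type*} [Fintype X]
    (α : X → Matrix (Fin 2) (Fin 2) ℤ) (β : X → GL (Fin 2) ℝ)
    (hαβ : ∀ x, ((β x : GL (Fin 2) ℝ) : Matrix (Fin 2) (Fin 2) ℝ)
      = (α x).map (Int.cast : ℤ → ℝ))
    (hβ : ∀ x, 0 < (β x).det.val)
    (s : X → X) (hs : Function.Bijective s) (γ : Gamma0 N) (g : X → Gamma0 N)
    (hrel : ∀ x, α x * ((γ : SL(2, ℤ)) : Matrix (Fin 2) (Fin 2) ℤ)
        = (((g x : Gamma0 N) : SL(2, ℤ)) : Matrix (Fin 2) (Fin 2) ℤ) * α (s x))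
    (f f' : CuspForm (Gamma0 N) 2)
    (hf' : (f' : ℍ → ℂ) = ∑ x, (f : ℍ → ℂ) ∣[(2 : ℤ)] (β x)) :
    periodMap N f' (Additive.ofMul γ) = ∑ x, periodMap N f (Additive.ofMul (g x)) := by
  refine periodMap_eq_sum_of_reps_mul N β hβ s hs γ g (fun x => ?_) f f' hf'
  apply Units.ext
  have h := congrArg (fun M : Matrix (Fin 2) (Fin 2) ℤ => M.map (Int.cast : ℤ → ℝ)) (hrel x)
  simp only [Matrix.map_mul_intCast] at h
  rw [Units.val_mul, Units.val_mul, hαβ, hαβ]
  exact h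

section Standard

open P2MW.S_ModularForm_heckeT_slash_eq_self_of_mem_Gamma0.ModularForm.HeckeSlashInvariance
open ModularForm

/-- **`T_ℓ`-equivariance** of the period map, for the Prelude representatives `heckeRep ℓ x`
(`x : OnePoint (ZMod ℓ)`) and any family `g` satisfying the coset relation. -/
theorem periodMap_heckeT_eq_sum (N : ℕ) [NeZero N] {ℓ : ℕ} (hℓ : ℓ.Prime) (hℓN : ¬ ℓ ∣ N)
    (γ : Gamma0 N) (s : OnePoint (ZMod ℓ) → OnePoint (ZMod ℓ)) (hs : Function.Bijective s)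
    (g : OnePoint (ZMod ℓ) → Gamma0 N)
    (hrel : ∀ x, heckeRep ℓ x * Matrix.SpecialLinearGroup.mapGL ℝ (γ : SL(2, ℤ))
        = Matrix.SpecialLinearGroup.mapGL ℝ ((g x : Gamma0 N) : SL(2, ℤ)) * heckeRep ℓ (s x))
    (f : CuspForm (Gamma0 N) 2) :
    haveI : NeZero ℓ := ⟨hℓ.ne_zero⟩
    periodMap N (CuspForm.heckeTLin 2 hℓ hℓN f) (Additive.ofMul γ)
      = ∑ x, periodMap N f (Additive.ofMul (g x)) := by
  have : NeZero ℓ := ⟨hℓ.ne_zero⟩
  refine periodMap_eq_sum_of_reps_mul N (heckeRep ℓ) (fun x => ?_) s hs γ g hrel f _ ?_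
  · induction x using OnePoint.rec with
    | infty => exact det_heckeDiagMatrix_pos ℓ
    | coe j => exact det_heckeMatrix_pos ℓ j.val
  · rw [CuspForm.coe_heckeTLin_apply, heckeT_eq_sum_onePoint]

/-- **`U_q`-equivariance** of the period map, for the Prelude representatives
`heckeMatrix q x.val` (`x : ZMod q`) and any family `g` satisfying the coset relation. -/
theorem periodMap_heckeU_eq_sum (N : ℕ) [NeZero N] {q : ℕ} (hq : q.Prime) (hqN : q ∣ N)
    (γ : Gamma0 N) (s : ZMod q → ZMod q) (hs : Function.Bijective s)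
    (g : ZMod q → Gamma0 N)
    (hrel : ∀ x : ZMod q, heckeMatrix q x.val * Matrix.SpecialLinearGroup.mapGL ℝ (γ : SL(2, ℤ))
        = Matrix.SpecialLinearGroup.mapGL ℝ ((g x : Gamma0 N) : SL(2, ℤ))
          * heckeMatrix q (s x).val)
    (f : CuspForm (Gamma0 N) 2) :
    haveI : NeZero q := ⟨hq.ne_zero⟩
    periodMap N (CuspForm.heckeULin 2 hqN f) (Additive.ofMul γ)
      = ∑ x, periodMap N f (Additive.ofMul (g x)) := by
  have : NeZero q := ⟨hq.ne_zero⟩
  refine periodMap_eq_sum_of_reps_mul N (fun x : ZMod q => heckeMatrix q x.val)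
    (fun x => det_heckeMatrix_pos q x.val) s hs γ g hrel f _ ?_
  rw [CuspForm.coe_heckeULin_apply, heckeU_eq_sum_zmod]

end Standard

end Fermat.Agent.S16.helper262
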