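import Mathlib
import Fermat.Prelude.Sol.S_ModularForm_heckeT_slash_eq_self_of_mem_Gamma0
import Fermat.Prelude.Def_ModularCurve_PeriodHomPair

/-!
# S16 lower bound, leaf (H): coset-transfer ("Hecke") operators on `Hom(Γ, A)` — abstract part

`Corr Γ G X` is the data of a family of representatives `α : X → G` for a "Hecke double coset":
for every `x` and `γ ∈ Γ` one has `α x * γ ∈ Γ * α y` for a (unique) `y`.  The associated operator
on `Hom(Γ, A)` is `(C.op A φ) γ = ∑ x, φ (coc x γ)` where `α x * γ = coc x γ * α (act x γ)`.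
-/

set_option autoImplicit false

namespace Fermat.Agent.S16.helper2876

/-- Abstract coset-correspondence data: representatives `α x` of finitely many left `Γ`-cosets
whose union is stable under right multiplication by `Γ`. -/
structure Corr (Γ : Type*) [Group Γ] (G : Type*) [Group G] (X : Type*) where
  /-- the embedding of `Γ` into the ambient group -/
  ι : Γ →* G
  ι_inj : Function.Injective ι
  /-- the coset representatives -/
  α : X → G
  exists_rel : ∀ x γ, ∃ y γ', α x * ι γ = ι γ' * α y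
  distinct : ∀ x y γ, α x = ι γ * α y → x = y

namespace Corr

variable {Γ : Type*} [Group Γ] {G : Type*} [Group G] {X : Type*} (C : Corr Γ G X)

/-- The right action of `Γ` on the index set. -/
noncomputable def act (x : X) (γ : Γ) : X := (C.exists_rel x γ).choose

/-- The cocycle `coc x γ ∈ Γ` with `α x * γ = coc x γ * α (act x γ)`. -/
noncomputable def coc (x : X) (γ : Γ) : Γ := (C.exists_rel x γ).choose_spec.choose

theorem rel (x : X) (γ : Γ) : C.α x * C.ι γ = C.ι (C.coc x γ) * C.α (C.act x γ) :=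
  (C.exists_rel x γ).choose_spec.choose_spec

theorem unique {x : X} {γ : Γ} {y : X} {γ' : Γ} (h : C.α x * C.ι γ = C.ι γ' * C.α y) :
    y = C.act x γ ∧ γ' = C.coc x γ := by
  have h2 := C.rel x γ
  rw [h] at h2
  have h3 : C.α y = C.ι (γ'⁻¹ * C.coc x γ) * C.α (C.act x γ) := by
    rw [map_mul, map_inv, mul_assoc, ← h2, inv_mul_cancel_left]
  have hy := C.distinct _ _ _ h3
  subst hy
  exact ⟨rfl, C.ι_inj (mul_right_cancel h2)⟩

theorem act_coc_mul (x : X) (γ δ : Γ) :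
    C.act (C.act x γ) δ = C.act x (γ * δ) ∧
      C.coc x γ * C.coc (C.act x γ) δ = C.coc x (γ * δ) := by
  apply C.unique
  rw [map_mul, ← mul_assoc, C.rel x γ, mul_assoc, C.rel (C.act x γ) δ, ← mul_assoc, map_mul]

theorem act_mul (x : X) (γ δ : Γ) : C.act x (γ * δ) = C.act (C.act x γ) δ :=
  (C.act_coc_mul x γ δ).1.symm

theorem coc_mul (x : X) (γ δ : Γ) : C.coc x (γ * δ) = C.coc x γ * C.coc (C.act x γ) δ :=
  (C.act_coc_mul x γ δ).2.symm

theorem act_coc_one (x : X) : x = C.act x 1 ∧ (1 : Γ) = C.coc x 1 := by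
  apply C.unique
  rw [map_one, mul_one, one_mul]

@[simp] theorem act_one (x : X) : C.act x 1 = x := (C.act_coc_one x).1.symm

@[simp] theorem coc_one (x : X) : C.coc x 1 = 1 := (C.act_coc_one x).2.symm

/-- `x ↦ act x γ` as a permutation of the index set. -/
noncomputable def actPerm (γ : Γ) : Equiv.Perm X where
  toFun x := C.act x γ
  invFun x := C.act x γ⁻¹
  left_inv x := by
    show C.act (C.act x γ) γ⁻¹ = x
    rw [← C.act_mul, mul_inv_cancel, C.act_one]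
  right_inv x := by
    show C.act (C.act x γ⁻¹) γ = x
    rw [← C.act_mul, inv_mul_cancel, C.act_one]

@[simp] theorem actPerm_apply (γ : Γ) (x : X) : C.actPerm γ x = C.act x γ := rfl

variable [Fintype X]

/-- The coset-transfer operator on `Hom(Γ, A)`: `(op φ) γ = ∑ x, φ (coc x γ)`. -/
noncomputable def op (A : Type*) [AddCommGroup A] :
    (Additive Γ →+ A) →+ (Additive Γ →+ A) where
  toFun φ :=
    { toFun := fun γ => ∑ x, φ (Additive.ofMul (C.coc x (Additive.toMul γ)))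
      map_zero' := by simp
      map_add' := fun γ δ => by
        simp only [toMul_add]
        rw [← Equiv.sum_comp (C.actPerm (Additive.toMul γ))
          (fun x => φ (Additive.ofMul (C.coc x (Additive.toMul δ)))), ← Finset.sum_add_distrib]
        refine Finset.sum_congr rfl fun x _ => ?_
        rw [C.coc_mul, ofMul_mul, map_add, actPerm_apply] }
  map_zero' := by ext; simp
  map_add' φ ψ := by ext γ; simp [Finset.sum_add_distrib]

theorem op_apply {A : Type*} [AddCommGroup A] (φ : Additive Γ →+ A) (γ : Γ) :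
    C.op A φ (Additive.ofMul γ) = ∑ x, φ (Additive.ofMul (C.coc x γ)) := rfl

/-- Choice-free evaluation of the operator. -/
theorem op_apply_of_rel {A : Type*} [AddCommGroup A] (φ : Additive Γ →+ A) (γ : Γ)
    (g : X → Γ) (s : X → X) (h : ∀ x, C.α x * C.ι γ = C.ι (g x) * C.α (s x)) :
    C.op A φ (Additive.ofMul γ) = ∑ x, φ (Additive.ofMul (g x)) := by
  rw [op_apply]
  refine Finset.sum_congr rfl fun x _ => ?_
  rw [(C.unique (h x)).2]

/-- Naturality in the coefficient group. -/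
theorem op_comp {A B : Type*} [AddCommGroup A] [AddCommGroup B] (f : A →+ B)
    (φ : Additive Γ →+ A) : C.op B (f.comp φ) = f.comp (C.op A φ) := by
  refine AddMonoidHom.ext fun γ => ?_
  obtain ⟨γ, rfl⟩ := Additive.ofMul.surjective γ
  rw [AddMonoidHom.comp_apply, op_apply, op_apply, map_sum]
  rfl

theorem op_zsmul {A : Type*} [AddCommGroup A] (c : ℤ) (φ : Additive Γ →+ A) :
    C.op A (c • φ) = c • C.op A φ := map_zsmul _ _ _

/-- The operator commutes with composition by an involutive automorphism of `Γ` that is induced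
by an involutive automorphism of `G` permuting the cosets `Γ α x`. -/
theorem op_comp_aut {A : Type*} [AddCommGroup A] (j : Γ →* Γ) (J : G →* G)
    (hjj : ∀ γ, j (j γ) = γ) (hJJ : ∀ g, J (J g) = g)
    (hJ : ∀ γ, J (C.ι γ) = C.ι (j γ))
    (hα : ∀ x, ∃ y τ, J (C.α x) = C.ι τ * C.α y) (φ : Additive Γ →+ A) :
    C.op A (φ.comp (MonoidHom.toAdditive j)) = (C.op A φ).comp (MonoidHom.toAdditive j) := by
  classical
  choose bar τ hbar using hα
  have hbar_inj : Function.Injective bar := by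
    intro x x' hxx
    have h1 := hbar x
    have h2 := hbar x'
    rw [hxx] at h1
    have h3 : J (C.α x) = J (C.ι (j (τ x * (τ x')⁻¹)) * C.α x') := by
      rw [map_mul, hJ, hjj, h2, h1, map_mul, map_inv]
      group
    have h4 : C.α x = C.ι (j (τ x * (τ x')⁻¹)) * C.α x' := by
      have := congrArg J h3
      rwa [hJJ, hJJ] at this
    exact C.distinct _ _ _ h4
  have hbar_bij : Function.Bijective bar := Finite.injective_iff_bijective.mp hbar_inj
  let e : X ≃ X := Equiv.ofBijective bar hbar_bij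
  have key : ∀ (γ : Γ) (x : X),
      C.coc (bar x) (j γ) = (τ x)⁻¹ * j (C.coc x γ) * τ (C.act x γ) := by
    intro γ x
    have h1 := congrArg J (C.rel x γ)
    rw [map_mul, map_mul, hJ, hJ, hbar x, hbar (C.act x γ)] at h1
    have h2 : C.α (bar x) * C.ι (j γ) =
        C.ι ((τ x)⁻¹ * j (C.coc x γ) * τ (C.act x γ)) * C.α (bar (C.act x γ)) := by
      rw [map_mul, map_mul, map_inv, mul_assoc, mul_assoc, ← h1]
      group
    exact ((C.unique h2).2).symm
  refine AddMonoidHom.ext fun γ => ?_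
  obtain ⟨γ, rfl⟩ := Additive.ofMul.surjective γ
  have hL : C.op A (φ.comp (MonoidHom.toAdditive j)) (Additive.ofMul γ)
      = ∑ x, φ (Additive.ofMul (j (C.coc x γ))) := rfl
  have hR : ((C.op A φ).comp (MonoidHom.toAdditive j)) (Additive.ofMul γ)
      = ∑ x, φ (Additive.ofMul (C.coc x (j γ))) := rfl
  rw [hL, hR, ← Equiv.sum_comp e (fun x => φ (Additive.ofMul (C.coc x (j γ))))]
  have he : ∀ x, e x = bar x := fun x => rfl
  simp only [he, key, ofMul_mul, ofMul_inv, map_add, map_neg]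
  rw [Finset.sum_add_distrib, Finset.sum_add_distrib, Finset.sum_neg_distrib]
  have hperm := Equiv.sum_comp (C.actPerm γ) (fun x => φ (Additive.ofMul (τ x)))
  simp only [actPerm_apply] at hperm
  rw [hperm]
  abel

end Corr

end Fermat.Agent.S16.helper2876

namespace Fermat.Agent.S16.helper2876

open scoped MatrixGroups ModularForm
open Matrix.SpecialLinearGroup UpperHalfPlane CongruenceSubgroup ModularForm Filter Topology
open P2MW.S_ModularForm_heckeT_slash_eq_self_of_mem_Gamma0.ModularForm.HeckeSlashInvariance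

/-! ## Concrete representatives -/

section Reps

variable (ℓ : ℕ) [Fact ℓ.Prime]

theorem prime_ne_zero : ℓ ≠ 0 := (Fact.out : ℓ.Prime).ne_zero

theorem val_heckeRep_infty :
    ((heckeRep ℓ OnePoint.infty : GL (Fin 2) ℝ) : Matrix (Fin 2) (Fin 2) ℝ)
      = !![(ℓ : ℝ), 0; 0, 1] := by
  rw [heckeRep_infty, val_heckeDiagMatrix (prime_ne_zero ℓ)]

theorem val_heckeRep_coe (j : ZMod ℓ) :
    ((heckeRep ℓ (j : OnePoint (ZMod ℓ)) : GL (Fin 2) ℝ) : Matrix (Fin 2) (Fin 2) ℝ)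
      = !![(1 : ℝ), (j.val : ℝ); 0, (ℓ : ℝ)] := by
  rw [heckeRep_coe, val_heckeMatrix (prime_ne_zero ℓ)]

/-- The representatives `heckeRep ℓ x` lie in pairwise distinct left `SL(2,ℤ)`-cosets. -/
theorem heckeRep_distinct (x y : OnePoint (ZMod ℓ)) (g : SL(2, ℤ))
    (h : heckeRep ℓ x = mapGL ℝ g * heckeRep ℓ y) : x = y := by
  have hℓ : (Fact.out : ℓ.Prime) = (Fact.out : ℓ.Prime) := rfl
  have hℓ2 : 2 ≤ ℓ := (Fact.out : ℓ.Prime).two_le
  have hent : ∀ i j : Fin 2, ((heckeRep ℓ x : GL (Fin 2) ℝ) : Matrix (Fin 2) (Fin 2) ℝ) i j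
      = ∑ k : Fin 2, ((g i k : ℤ) : ℝ)
          * ((heckeRep ℓ y : GL (Fin 2) ℝ) : Matrix (Fin 2) (Fin 2) ℝ) k j := by
    intro i j
    rw [h, Matrix.GeneralLinearGroup.coe_mul, Matrix.mul_apply]
    refine Finset.sum_congr rfl fun k _ => ?_
    simp
  induction x using OnePoint.rec with
  | infty =>
    induction y using OnePoint.rec with
    | infty => rfl
    | coe j' =>
      exfalso
      have h10 := hent 1 0
      have h11 := hent 1 1
      rw [val_heckeRep_infty, val_heckeRep_coe] at h10 h11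
      simp [Fin.sum_univ_two] at h10 h11
      have h10' : (g 1 0 : ℤ) = 0 := by exact_mod_cast h10.symm
      rw [h10'] at h11
      have h11' : (1 : ℤ) = g 1 1 * ℓ := by
        have : ((1 : ℤ) : ℝ) = ((g 1 1 * ℓ : ℤ) : ℝ) := by push_cast; simpa using h11
        exact_mod_cast this
      have hdvd : (ℓ : ℤ) ∣ 1 := ⟨g 1 1, by linarith⟩
      have := Int.le_of_dvd one_pos hdvd
      omega
  | coe j =>
    induction y using OnePoint.rec with
    | infty =>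
      exfalso
      have h00 := hent 0 0
      rw [val_heckeRep_infty, val_heckeRep_coe] at h00
      simp [Fin.sum_univ_two] at h00
      have h00' : (1 : ℤ) = g 0 0 * ℓ := by
        have : ((1 : ℤ) : ℝ) = ((g 0 0 * ℓ : ℤ) : ℝ) := by push_cast; simpa using h00
        exact_mod_cast this
      have hdvd : (ℓ : ℤ) ∣ 1 := ⟨g 0 0, by linarith⟩
      have := Int.le_of_dvd one_pos hdvd
      omega
    | coe j' =>
      have h00 := hent 0 0
      have h01 := hent 0 1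
      rw [val_heckeRep_coe, val_heckeRep_coe] at h00 h01
      simp [Fin.sum_univ_two] at h00 h01
      have h00' : (g 0 0 : ℤ) = 1 := by exact_mod_cast h00.symm
      rw [h00'] at h01
      have h01' : (j.val : ℤ) = j'.val + g 0 1 * ℓ := by
        have : ((j.val : ℤ) : ℝ) = ((j'.val + g 0 1 * ℓ : ℤ) : ℝ) := by push_cast; simpa using h01
        exact_mod_cast this
      have hz := congrArg (Int.cast : ℤ → ZMod ℓ) h01'
      push_cast at hz
      rw [ZMod.natCast_zmod_val, ZMod.natCast_zmod_val, ZMod.natCast_self, mul_zero, add_zero] at hz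
      rw [hz]

end Reps

/-! ## The two correspondences `T_ℓ` (`ℓ ∤ N`) and `U_ℓ` (`ℓ ∣ N`) for `Γ₀(N)` -/

section Corrs

variable (N : ℕ) (ℓ : ℕ) [Fact ℓ.Prime]

/-- The embedding `Γ₀(N) → GL₂(ℝ)`. -/
noncomputable def gammaToGL : ↥(Gamma0 N) →* GL (Fin 2) ℝ :=
  (mapGL ℝ).comp (Gamma0 N).subtype

@[simp] theorem gammaToGL_apply (γ : ↥(Gamma0 N)) :
    gammaToGL N γ = mapGL ℝ (γ : SL(2, ℤ)) := rfl

theorem gammaToGL_injective : Function.Injective (gammaToGL N) :=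
  mapGL_injective.comp (Subgroup.subtype_injective _)

theorem dvd_of_mem_Gamma0 (γ : ↥(Gamma0 N)) : (N : ℤ) ∣ (γ : SL(2, ℤ)) 1 0 :=
  (ZMod.intCast_zmod_eq_zero_iff_dvd _ _).mp (Gamma0_mem.mp γ.2)

theorem mem_Gamma0_of_dvd {g : SL(2, ℤ)} (h : (N : ℤ) ∣ g 1 0) : g ∈ Gamma0 N :=
  Gamma0_mem.mpr ((ZMod.intCast_zmod_eq_zero_iff_dvd _ _).mpr h)

/-- The correspondence of `T_ℓ`, `ℓ ∤ N`: representatives `heckeRep ℓ x`, `x ∈ ℙ¹(𝔽_ℓ)`. -/
noncomputable def corrT (hℓN : ¬ ℓ ∣ N) :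
    Corr ↥(Gamma0 N) (GL (Fin 2) ℝ) (OnePoint (ZMod ℓ)) where
  ι := gammaToGL N
  ι_inj := gammaToGL_injective N
  α := heckeRep ℓ
  exists_rel x γ := by
    obtain ⟨g', hg'N, hg'⟩ := heckeRep_mul hℓN (γ : SL(2, ℤ)) (dvd_of_mem_Gamma0 N γ) x
    exact ⟨redMatrix ℓ (γ : SL(2, ℤ)) • x, ⟨g', mem_Gamma0_of_dvd N hg'N⟩, hg'⟩
  distinct x y γ h := heckeRep_distinct ℓ x y (γ : SL(2, ℤ)) h

/-- The correspondence of `U_ℓ`, `ℓ ∣ N`: representatives `heckeMatrix ℓ j`, `j ∈ 𝔽_ℓ`. -/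
noncomputable def corrU (hℓN : ℓ ∣ N) :
    Corr ↥(Gamma0 N) (GL (Fin 2) ℝ) (ZMod ℓ) where
  ι := gammaToGL N
  ι_inj := gammaToGL_injective N
  α := fun x => heckeMatrix ℓ x.val
  exists_rel x γ := by
    have hc : (ℓ : ℤ) ∣ (γ : SL(2, ℤ)) 1 0 :=
      (Int.natCast_dvd_natCast.mpr hℓN).trans (dvd_of_mem_Gamma0 N γ)
    obtain ⟨g', hg', hmul⟩ := heckeMatrix_mul_of_dvd (γ : SL(2, ℤ)) hc x
    refine ⟨affinePerm (γ : SL(2, ℤ)) ((ZMod.intCast_zmod_eq_zero_iff_dvd _ _).mpr hc) x,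
      ⟨g', mem_Gamma0_of_dvd N ?_⟩, hmul⟩
    rw [hg']
    exact Dvd.dvd.mul_left (dvd_of_mem_Gamma0 N γ) _
  distinct x y γ h := by
    have := heckeRep_distinct ℓ (x : OnePoint (ZMod ℓ)) (y : OnePoint (ZMod ℓ)) (γ : SL(2, ℤ))
      (by rw [heckeRep_coe, heckeRep_coe]; exact h)
    exact OnePoint.coe_injective this

/-- The operator `T_ℓ` (`ℓ ∤ N`) on `Hom(Γ₀(N), A)`. -/
noncomputable def heckeHomT (hℓN : ¬ ℓ ∣ N) (A : Type*) [AddCommGroup A] :
    (Additive ↥(Gamma0 N) →+ A) →+ (Additive ↥(Gamma0 N) →+ A) :=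
  (corrT N ℓ hℓN).op A

/-- The operator `U_ℓ` (`ℓ ∣ N`) on `Hom(Γ₀(N), A)`. -/
noncomputable def heckeHomU (hℓN : ℓ ∣ N) (A : Type*) [AddCommGroup A] :
    (Additive ↥(Gamma0 N) →+ A) →+ (Additive ↥(Gamma0 N) →+ A) :=
  (corrU N ℓ hℓN).op A

omit [Fact ℓ.Prime] in
/-- Integer-matrix form of the representatives of `T_ℓ`. -/
def repZ (x : OnePoint (ZMod ℓ)) : Matrix (Fin 2) (Fin 2) ℤ :=
  x.elim !![(ℓ : ℤ), 0; 0, 1] (fun j => !![1, (j.val : ℤ); 0, (ℓ : ℤ)])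

omit [Fact ℓ.Prime] in
@[simp] theorem repZ_infty : repZ ℓ OnePoint.infty = !![(ℓ : ℤ), 0; 0, 1] := rfl

omit [Fact ℓ.Prime] in
@[simp] theorem repZ_coe (j : ZMod ℓ) :
    repZ ℓ (j : OnePoint (ZMod ℓ)) = !![1, (j.val : ℤ); 0, (ℓ : ℤ)] := rfl

theorem val_heckeRep (x : OnePoint (ZMod ℓ)) :
    ((heckeRep ℓ x : GL (Fin 2) ℝ) : Matrix (Fin 2) (Fin 2) ℝ)
      = (repZ ℓ x).map (Int.cast : ℤ → ℝ) := by
  induction x using OnePoint.rec with
  | infty =>
    rw [val_heckeRep_infty, repZ_infty]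
    ext i j; fin_cases i <;> fin_cases j <;> simp
  | coe j =>
    rw [val_heckeRep_coe, repZ_coe]
    ext i j; fin_cases i <;> fin_cases j <;> simp

theorem val_mapGL (g : SL(2, ℤ)) :
    ((mapGL ℝ g : GL (Fin 2) ℝ) : Matrix (Fin 2) (Fin 2) ℝ)
      = (g : Matrix (Fin 2) (Fin 2) ℤ).map (Int.cast : ℤ → ℝ) := by
  ext i j; simp

/-- The coset relation in `GL₂(ℝ)` is equivalent to the relation between integer matrices. -/
theorem rel_iff_repZ (x y : OnePoint (ZMod ℓ)) (γ g : SL(2, ℤ)) :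
    heckeRep ℓ x * mapGL ℝ γ = mapGL ℝ g * heckeRep ℓ y ↔
      repZ ℓ x * (γ : Matrix (Fin 2) (Fin 2) ℤ) = (g : Matrix (Fin 2) (Fin 2) ℤ) * repZ ℓ y := by
  have hinj : Function.Injective
      (fun M : Matrix (Fin 2) (Fin 2) ℤ => M.map (Int.cast : ℤ → ℝ)) :=
    Matrix.map_injective Int.cast_injective
  have hmap : ∀ M M' : Matrix (Fin 2) (Fin 2) ℤ,
      (M * M').map (Int.cast : ℤ → ℝ) = M.map (Int.cast : ℤ → ℝ) * M'.map (Int.cast : ℤ → ℝ) :=
    fun M M' => Matrix.map_mul (f := Int.castRingHom ℝ)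
  constructor
  · intro h
    apply hinj
    have h' := congrArg (fun M : GL (Fin 2) ℝ => (M : Matrix (Fin 2) (Fin 2) ℝ)) h
    simp only [Matrix.GeneralLinearGroup.coe_mul, val_heckeRep, val_mapGL] at h'
    simp only [hmap]
    exact h'
  · intro h
    apply Units.ext
    simp only [Units.val_mul, val_heckeRep, val_mapGL]
    rw [← hmap, ← hmap, h]

end Corrs

/-! ## Choice-free evaluation, naturality -/

section Eval

variable {N : ℕ} {ℓ : ℕ} [Fact ℓ.Prime] {A : Type*} [AddCommGroup A]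

/-- Choice-free evaluation of `T_ℓ` on `Hom(Γ₀(N), A)` (integer matrices, no inverses). -/
theorem heckeHomT_apply_of_rel (hℓN : ¬ ℓ ∣ N) (φ : Additive ↥(Gamma0 N) →+ A) (γ : ↥(Gamma0 N))
    (g : OnePoint (ZMod ℓ) → ↥(Gamma0 N)) (s : OnePoint (ZMod ℓ) → OnePoint (ZMod ℓ))
    (h : ∀ x, repZ ℓ x * ((γ : SL(2, ℤ)) : Matrix (Fin 2) (Fin 2) ℤ)
      = ((g x : SL(2, ℤ)) : Matrix (Fin 2) (Fin 2) ℤ) * repZ ℓ (s x)) :
    heckeHomT N ℓ hℓN A φ (Additive.ofMul γ) = ∑ x, φ (Additive.ofMul (g x)) :=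
  (corrT N ℓ hℓN).op_apply_of_rel φ γ g s fun x =>
    (rel_iff_repZ ℓ x (s x) (γ : SL(2, ℤ)) (g x : SL(2, ℤ))).mpr (h x)

/-- Existence of the data consumed by `heckeHomT_apply_of_rel`. -/
theorem exists_rel_T (hℓN : ¬ ℓ ∣ N) (γ : ↥(Gamma0 N)) :
    ∃ (g : OnePoint (ZMod ℓ) → ↥(Gamma0 N)) (s : Equiv.Perm (OnePoint (ZMod ℓ))),
      ∀ x, repZ ℓ x * ((γ : SL(2, ℤ)) : Matrix (Fin 2) (Fin 2) ℤ)
        = ((g x : SL(2, ℤ)) : Matrix (Fin 2) (Fin 2) ℤ) * repZ ℓ (s x) :=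
  ⟨fun x => (corrT N ℓ hℓN).coc x γ, (corrT N ℓ hℓN).actPerm γ, fun x =>
    (rel_iff_repZ ℓ x _ (γ : SL(2, ℤ)) _).mp ((corrT N ℓ hℓN).rel x γ)⟩

/-- Choice-free evaluation of `U_ℓ` on `Hom(Γ₀(N), A)` (integer matrices, no inverses). -/
theorem heckeHomU_apply_of_rel (hℓN : ℓ ∣ N) (φ : Additive ↥(Gamma0 N) →+ A) (γ : ↥(Gamma0 N))
    (g : ZMod ℓ → ↥(Gamma0 N)) (s : ZMod ℓ → ZMod ℓ)
    (h : ∀ x : ZMod ℓ, repZ ℓ (x : OnePoint (ZMod ℓ)) * ((γ : SL(2, ℤ)) : Matrix (Fin 2) (Fin 2) ℤ)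
      = ((g x : SL(2, ℤ)) : Matrix (Fin 2) (Fin 2) ℤ) * repZ ℓ (s x : OnePoint (ZMod ℓ))) :
    heckeHomU N ℓ hℓN A φ (Additive.ofMul γ) = ∑ x, φ (Additive.ofMul (g x)) :=
  (corrU N ℓ hℓN).op_apply_of_rel φ γ g s fun x => by
    have := (rel_iff_repZ ℓ (x : OnePoint (ZMod ℓ)) (s x : OnePoint (ZMod ℓ))
      (γ : SL(2, ℤ)) (g x : SL(2, ℤ))).mpr (h x)
    rwa [heckeRep_coe, heckeRep_coe] at this

/-- Existence of the data consumed by `heckeHomU_apply_of_rel`. -/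
theorem exists_rel_U (hℓN : ℓ ∣ N) (γ : ↥(Gamma0 N)) :
    ∃ (g : ZMod ℓ → ↥(Gamma0 N)) (s : Equiv.Perm (ZMod ℓ)),
      ∀ x : ZMod ℓ, repZ ℓ (x : OnePoint (ZMod ℓ)) * ((γ : SL(2, ℤ)) : Matrix (Fin 2) (Fin 2) ℤ)
        = ((g x : SL(2, ℤ)) : Matrix (Fin 2) (Fin 2) ℤ) * repZ ℓ (s x : OnePoint (ZMod ℓ)) :=
  ⟨fun x => (corrU N ℓ hℓN).coc x γ, (corrU N ℓ hℓN).actPerm γ, fun x => by
    have := (corrU N ℓ hℓN).rel x γ
    exact (rel_iff_repZ ℓ (x : OnePoint (ZMod ℓ)) _ (γ : SL(2, ℤ)) _).mp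
      (by rw [heckeRep_coe, heckeRep_coe]; exact this)⟩

theorem heckeHomT_comp {B : Type*} [AddCommGroup B] (hℓN : ¬ ℓ ∣ N) (f : A →+ B)
    (φ : Additive ↥(Gamma0 N) →+ A) :
    heckeHomT N ℓ hℓN B (f.comp φ) = f.comp (heckeHomT N ℓ hℓN A φ) :=
  (corrT N ℓ hℓN).op_comp f φ

theorem heckeHomU_comp {B : Type*} [AddCommGroup B] (hℓN : ℓ ∣ N) (f : A →+ B)
    (φ : Additive ↥(Gamma0 N) →+ A) :
    heckeHomU N ℓ hℓN B (f.comp φ) = f.comp (heckeHomU N ℓ hℓN A φ) :=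
  (corrU N ℓ hℓN).op_comp f φ

end Eval

/-! ## The generator indexed by `Nat.Primes` (mirrors the Prelude `heckeFormsGen`) -/

section Gen

variable (N : ℕ) (A : Type*) [AddCommGroup A]

/-- `U_ℓ` if `ℓ ∣ N`, `T_ℓ` otherwise, acting on `Hom(Γ₀(N), A)`. -/
noncomputable def heckeHomGen (ℓ : Nat.Primes) :
    (Additive ↥(Gamma0 N) →+ A) →+ (Additive ↥(Gamma0 N) →+ A) :=
  haveI : Fact (ℓ : ℕ).Prime := ⟨ℓ.2⟩
  if h : (ℓ : ℕ) ∣ N then heckeHomU N ℓ h A else heckeHomT N ℓ h A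

variable {N A}

theorem heckeHomGen_of_dvd {ℓ : Nat.Primes} (h : (ℓ : ℕ) ∣ N) :
    heckeHomGen N A ℓ = (haveI : Fact (ℓ : ℕ).Prime := ⟨ℓ.2⟩; heckeHomU N ℓ h A) :=
  dif_pos h

theorem heckeHomGen_of_not_dvd {ℓ : Nat.Primes} (h : ¬ (ℓ : ℕ) ∣ N) :
    heckeHomGen N A ℓ = (haveI : Fact (ℓ : ℕ).Prime := ⟨ℓ.2⟩; heckeHomT N ℓ h A) :=
  dif_neg h

theorem heckeHomGen_comp {B : Type*} [AddCommGroup B] (ℓ : Nat.Primes) (f : A →+ B)
    (φ : Additive ↥(Gamma0 N) →+ A) :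
    heckeHomGen N B ℓ (f.comp φ) = f.comp (heckeHomGen N A ℓ φ) := by
  have : Fact (ℓ : ℕ).Prime := ⟨ℓ.2⟩
  by_cases h : (ℓ : ℕ) ∣ N
  · rw [heckeHomGen_of_dvd h, heckeHomGen_of_dvd h]
    exact heckeHomU_comp h f φ
  · rw [heckeHomGen_of_not_dvd h, heckeHomGen_of_not_dvd h]
    exact heckeHomT_comp h f φ

end Gen

/-! ## Commutation with the Prelude `charInvolution` (conjugation by `diag(1,-1)`) -/

section Involution

open ModularCurve.Period

/-- The matrix `diag(1,-1)`. -/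
noncomputable def dMat : GL (Fin 2) ℝ :=
  Matrix.GeneralLinearGroup.mkOfDetNeZero !![1, 0; 0, -1] (by simp)

theorem val_dMat : ((dMat : GL (Fin 2) ℝ) : Matrix (Fin 2) (Fin 2) ℝ) = !![1, 0; 0, -1] := rfl

theorem dMat_mul_self : dMat * dMat = 1 := by
  apply Units.ext
  rw [Units.val_mul, val_dMat]
  ext i j; fin_cases i <;> fin_cases j <;> simp [Matrix.mul_apply, Fin.sum_univ_two]

theorem dMat_inv : dMat⁻¹ = dMat := inv_eq_of_mul_eq_one_left dMat_mul_self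

/-- Conjugation by `diag(1,-1)` on `GL₂(ℝ)`. -/
noncomputable def conjD : GL (Fin 2) ℝ →* GL (Fin 2) ℝ := (MulAut.conj dMat).toMonoidHom

theorem conjD_apply (g : GL (Fin 2) ℝ) : conjD g = dMat * g * dMat := by
  show dMat * g * dMat⁻¹ = _
  rw [dMat_inv]

theorem conjD_conjD (g : GL (Fin 2) ℝ) : conjD (conjD g) = g := by
  rw [conjD_apply, conjD_apply]
  calc dMat * (dMat * g * dMat) * dMat = (dMat * dMat) * g * (dMat * dMat) := by group
    _ = g := by rw [dMat_mul_self, one_mul, mul_one]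

theorem val_conjD (g : GL (Fin 2) ℝ) :
    ((conjD g : GL (Fin 2) ℝ) : Matrix (Fin 2) (Fin 2) ℝ)
      = !![g 0 0, -g 0 1; -g 1 0, g 1 1] := by
  rw [conjD_apply, Units.val_mul, Units.val_mul, val_dMat]
  ext i j; fin_cases i <;> fin_cases j <;>
    simp [Matrix.mul_apply, Fin.sum_univ_two, Matrix.vecMul, dotProduct]

theorem conjD_mapGL (γ : SL(2, ℤ)) : conjD (mapGL ℝ γ) = mapGL ℝ (jConjSL γ) := by
  apply Units.ext
  rw [val_conjD, val_mapGL (jConjSL γ), jConjSL_coe]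
  ext i j; fin_cases i <;> fin_cases j <;> simp [jConjMat]

variable (N : ℕ) (ℓ : ℕ) [Fact ℓ.Prime]

theorem conjD_gammaToGL (γ : ↥(Gamma0 N)) :
    conjD (gammaToGL N γ) = gammaToGL N (jConjGamma0 N γ) := by
  rw [gammaToGL_apply, gammaToGL_apply, conjD_mapGL]
  rfl

theorem T_zpow_mem_Gamma0 (m : ℤ) : ModularGroup.T ^ m ∈ Gamma0 N := by
  rw [Gamma0_mem, ModularGroup.coe_T_zpow]
  simp

theorem conjD_heckeRep (x : OnePoint (ZMod ℓ)) :
    ∃ (y : OnePoint (ZMod ℓ)) (τ : ↥(Gamma0 N)),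
      conjD (heckeRep ℓ x) = gammaToGL N τ * heckeRep ℓ y := by
  induction x using OnePoint.rec with
  | infty =>
    refine ⟨OnePoint.infty, 1, ?_⟩
    rw [map_one, one_mul]
    apply Units.ext
    rw [val_conjD, val_heckeRep_infty]
    ext i j; fin_cases i <;> fin_cases j <;> simp
  | coe j =>
    obtain ⟨m, hm⟩ : (ℓ : ℤ) ∣ (j.val : ℤ) + ((-j).val : ℤ) := by
      rw [← ZMod.intCast_zmod_eq_zero_iff_dvd]
      push_cast
      rw [ZMod.natCast_zmod_val, ZMod.natCast_zmod_val, add_neg_cancel]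
    refine ⟨((-j : ZMod ℓ) : OnePoint (ZMod ℓ)), ⟨ModularGroup.T ^ (-m), T_zpow_mem_Gamma0 N _⟩, ?_⟩
    apply Units.ext
    rw [gammaToGL_apply, Units.val_mul, val_conjD, val_mapGL, val_heckeRep_coe, val_heckeRep_coe,
      ModularGroup.coe_T_zpow]
    have hm' : ((j.val : ℤ) : ℝ) + (((-j).val : ℤ) : ℝ) = (ℓ : ℝ) * (m : ℝ) := by
      exact_mod_cast congrArg (Int.cast : ℤ → ℝ) hm
    push_cast at hm'
    ext a b; fin_cases a <;> fin_cases b <;>
      simp [Matrix.mul_apply, Fin.sum_univ_two, -ZMod.natCast_val]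
    linarith

variable {N ℓ} {A : Type*} [AddCommGroup A]

theorem heckeHomT_comp_jConj (hℓN : ¬ ℓ ∣ N) (φ : Additive ↥(Gamma0 N) →+ A) :
    heckeHomT N ℓ hℓN A (φ.comp (MonoidHom.toAdditive (jConjGamma0 N)))
      = (heckeHomT N ℓ hℓN A φ).comp (MonoidHom.toAdditive (jConjGamma0 N)) :=
  (corrT N ℓ hℓN).op_comp_aut (jConjGamma0 N) conjD (jConjGamma0_jConjGamma0 N) conjD_conjD
    (conjD_gammaToGL N) (conjD_heckeRep N ℓ) φ

theorem heckeHomU_comp_jConj (hℓN : ℓ ∣ N) (φ : Additive ↥(Gamma0 N) →+ A) :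
    heckeHomU N ℓ hℓN A (φ.comp (MonoidHom.toAdditive (jConjGamma0 N)))
      = (heckeHomU N ℓ hℓN A φ).comp (MonoidHom.toAdditive (jConjGamma0 N)) := by
  refine (corrU N ℓ hℓN).op_comp_aut (jConjGamma0 N) conjD (jConjGamma0_jConjGamma0 N) conjD_conjD
    (conjD_gammaToGL N) (fun x => ?_) φ
  obtain ⟨y, τ, h⟩ := conjD_heckeRep N ℓ (x : OnePoint (ZMod ℓ))
  induction y using OnePoint.rec with
  | infty =>
    exfalso
    have h10 := congrArg (fun M : GL (Fin 2) ℝ => (M : Matrix (Fin 2) (Fin 2) ℝ) 0 0) h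
    simp only [val_conjD, gammaToGL_apply, Units.val_mul, val_mapGL, val_heckeRep_infty,
      val_heckeRep_coe] at h10
    simp [Matrix.mul_apply, Fin.sum_univ_two] at h10
    have h00' : (1 : ℤ) = (τ : SL(2, ℤ)) 0 0 * ℓ := by
      have : ((1 : ℤ) : ℝ) = (((τ : SL(2, ℤ)) 0 0 * ℓ : ℤ) : ℝ) := by push_cast; simpa using h10
      exact_mod_cast this
    have hdvd : (ℓ : ℤ) ∣ 1 := ⟨(τ : SL(2, ℤ)) 0 0, by linarith⟩
    have := Int.le_of_dvd one_pos hdvd
    have hℓ2 : 2 ≤ ℓ := (Fact.out : ℓ.Prime).two_le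
    omega
  | coe y =>
    exact ⟨y, τ, by rw [heckeRep_coe, heckeRep_coe] at h; exact h⟩

/-- `T_ℓ` on `Hom(Γ₀(N), A)` commutes with the Prelude `charInvolution`. -/
theorem heckeHomT_charInvolution {R : Type*} [Semiring R] [Module R A] (hℓN : ¬ ℓ ∣ N)
    (φ : Additive ↥(Gamma0 N) →+ A) :
    heckeHomT N ℓ hℓN A (charInvolution N R A φ)
      = charInvolution N R A (heckeHomT N ℓ hℓN A φ) :=
  heckeHomT_comp_jConj hℓN φ

/-- `U_ℓ` on `Hom(Γ₀(N), A)` commutes with the Prelude `charInvolution`. -/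
theorem heckeHomU_charInvolution {R : Type*} [Semiring R] [Module R A] (hℓN : ℓ ∣ N)
    (φ : Additive ↥(Gamma0 N) →+ A) :
    heckeHomU N ℓ hℓN A (charInvolution N R A φ)
      = charInvolution N R A (heckeHomU N ℓ hℓN A φ) :=
  heckeHomU_comp_jConj hℓN φ

theorem heckeHomGen_charInvolution {R : Type*} [Semiring R] [Module R A] (q : Nat.Primes)
    (φ : Additive ↥(Gamma0 N) →+ A) :
    heckeHomGen N A q (charInvolution N R A φ)
      = charInvolution N R A (heckeHomGen N A q φ) := by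
  have : Fact (q : ℕ).Prime := ⟨q.2⟩
  by_cases h : (q : ℕ) ∣ N
  · rw [heckeHomGen_of_dvd h]
    exact heckeHomU_charInvolution h φ
  · rw [heckeHomGen_of_not_dvd h]
    exact heckeHomT_charInvolution h φ

end Involution

end Fermat.Agent.S16.helper2876
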