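import Mathlib
import Fermat.Prelude.Def_CuspForm_HeckeEvalForms
import Fermat.Agent.S21.helper921_Wiring
import Fermat.Agent.S21.helper216_Primitive
import Fermat.Agent.S16.helper2876_HeckeHom

/-!
# S16 lower bound, leaf (EQ): Hecke-equivariance of the period map

`periodMap N (T_ℓ f) = heckeHomT (periodMap N f)` and `periodMap N (U_ℓ f) = heckeHomU (periodMap N f)`
for the Prelude period map of weight-2 cusp forms on `Γ₀(N)`, and the resulting transfer statement
for the lower bound of the Eisenstein index.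
-/

set_option autoImplicit false

namespace Fermat.Agent.S16.helper2876

open scoped MatrixGroups ModularForm
open Matrix.SpecialLinearGroup UpperHalfPlane CongruenceSubgroup ModularForm Filter Topology
open ModularCurve ModularCurve.Period
open P2MW.S_ModularForm_heckeT_slash_eq_self_of_mem_Gamma0.ModularForm.HeckeSlashInvariance

/-! ## Analytic preliminaries -/

/-- Chain rule for the action of `GL₂⁺(ℝ)` on the upper half plane, in weight 2. -/
theorem hasDerivAt_comp_glsmul {F f : ℍ → ℂ}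
    (hF : ∀ τ : ℍ, HasDerivAt (F ∘ ofComplex) (f τ) ↑τ) (g : GL (Fin 2) ℝ)
    (hg : 0 < (g : Matrix (Fin 2) (Fin 2) ℝ).det) (w : ℍ) :
    HasDerivAt ((fun z : ℍ => F (g • z)) ∘ ofComplex) ((f ∣[(2:ℤ)] g) w) ↑w := by
  have h1 := (hasStrictDerivAt_smul hg w).hasDerivAt
  have h2 : HasDerivAt (F ∘ ofComplex) (f (g • w)) (↑(g • ofComplex (w : ℂ)) : ℂ) := by
    rw [ofComplex_apply]
    exact hF (g • w)
  have h3 := h2.comp (w : ℂ) h1
  have hfun : ((fun z : ℍ => F (g • z)) ∘ ofComplex) =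
      (F ∘ ofComplex) ∘ (fun z : ℂ => (↑(g • ofComplex z) : ℂ)) := by
    funext z
    simp only [Function.comp_apply, ofComplex_apply]
  rw [hfun]
  refine h3.congr_deriv ?_
  have hdet : (0 : ℝ) < ((Matrix.GeneralLinearGroup.det g : ℝˣ) : ℝ) := by
    rw [Matrix.GeneralLinearGroup.val_det_apply]; exact hg
  rw [ModularForm.slash_apply, UpperHalfPlane.σ, if_pos hdet, abs_of_pos hdet,
    Matrix.GeneralLinearGroup.val_det_apply]
  simp only [ContinuousAlgEquiv.refl_apply]
  rw [zpow_neg, show ((2 : ℤ) - 1) = 1 by norm_num, zpow_one]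
  have : denom g (w : ℂ) ^ (2 : ℤ) = denom g (w : ℂ) ^ 2 := by norm_cast
  rw [this]
  ring

theorem tendsto_im_atImInfty : Tendsto (fun z : ℍ => z.im) atImInfty atTop := tendsto_comap

theorem tendsto_heckeRep_smul (ℓ : ℕ) [Fact ℓ.Prime] (x : OnePoint (ZMod ℓ)) :
    Tendsto (fun z : ℍ => heckeRep ℓ x • z) atImInfty atImInfty := by
  have hℓ : ℓ ≠ 0 := prime_ne_zero ℓ
  have hℓ' : (0 : ℝ) < ℓ := by exact_mod_cast Nat.pos_of_ne_zero hℓ
  rw [atImInfty, tendsto_comap_iff]
  induction x using OnePoint.rec with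
  | infty =>
    have him : ∀ z : ℍ, (heckeRep ℓ OnePoint.infty • z).im = (ℓ : ℝ) * z.im := by
      intro z
      have := congrArg Complex.im (coe_heckeDiagMatrix_smul hℓ z)
      rw [heckeRep_infty]
      simpa using this
    have : (UpperHalfPlane.im ∘ fun z : ℍ => heckeRep ℓ OnePoint.infty • z)
        = fun z : ℍ => (ℓ : ℝ) * z.im := funext him
    rw [this]
    exact Tendsto.const_mul_atTop hℓ' tendsto_im_atImInfty
  | coe j =>
    have him : ∀ z : ℍ, (heckeRep ℓ (j : OnePoint (ZMod ℓ)) • z).im = z.im / (ℓ : ℝ) := by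
      intro z
      have := congrArg Complex.im (coe_heckeMatrix_smul hℓ j.val z)
      rw [heckeRep_coe]
      simpa [-ZMod.natCast_val] using this
    have : (UpperHalfPlane.im ∘ fun z : ℍ => heckeRep ℓ (j : OnePoint (ZMod ℓ)) • z)
        = fun z : ℍ => z.im / (ℓ : ℝ) := funext him
    rw [this]
    exact Tendsto.atTop_div_const hℓ' tendsto_im_atImInfty

theorem det_heckeRep_pos (ℓ : ℕ) [Fact ℓ.Prime] (x : OnePoint (ZMod ℓ)) :
    0 < ((heckeRep ℓ x : GL (Fin 2) ℝ) : Matrix (Fin 2) (Fin 2) ℝ).det := by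
  have hℓ : ℓ ≠ 0 := prime_ne_zero ℓ
  have hℓ' : (0 : ℝ) < ℓ := by exact_mod_cast Nat.pos_of_ne_zero hℓ
  induction x using OnePoint.rec with
  | infty => rw [val_heckeRep_infty, Matrix.det_fin_two_of]; simpa using hℓ'
  | coe j => rw [val_heckeRep_coe, Matrix.det_fin_two_of]; simpa using hℓ'

/-! ## Equivariance of the period map for an abstract correspondence -/

section Abstract

variable {N : ℕ} [NeZero N] {X : Type*} [Fintype X]

/-- If `Tf = ∑ x, f ∣[2] α x` for the representatives of a correspondence `C` on `Γ₀(N)`, then the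
period homomorphism of `Tf` is the coset-transfer of the period homomorphism of `f`. -/
theorem periodMap_eq_op (C : Corr ↥(Gamma0 N) (GL (Fin 2) ℝ) X)
    (hι : ∀ γ : ↥(Gamma0 N), C.ι γ = mapGL ℝ (γ : SL(2, ℤ)))
    (hdet : ∀ x, 0 < ((C.α x : GL (Fin 2) ℝ) : Matrix (Fin 2) (Fin 2) ℝ).det)
    (hlim : ∀ x, Tendsto (fun z : ℍ => C.α x • z) atImInfty atImInfty)
    (f Tf : CuspForm (Gamma0 N) 2)
    (hTf : (Tf : ℍ → ℂ) = ∑ x, (f : ℍ → ℂ) ∣[(2:ℤ)] C.α x) :
    periodMap N Tf = C.op ℂ (periodMap N f) := by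
  obtain ⟨F, hF⟩ := S21.helper216.exists_hasEquivariantPrimitive N f
  obtain ⟨G₀, hG₀⟩ := S21.helper216.exists_hasEquivariantPrimitive N Tf
  set G : ℍ → ℂ := fun z => ∑ x, F (C.α x • z) with hG
  have hGd : ∀ τ : ℍ, HasDerivAt (G ∘ ofComplex) (Tf τ) ↑τ := by
    intro τ
    have h := HasDerivAt.fun_sum (u := Finset.univ)
      (fun x _ => hasDerivAt_comp_glsmul hF.1 (C.α x) (hdet x) τ)
    have e1 : (G ∘ ofComplex) = fun z : ℂ => ∑ x, ((fun z : ℍ => F (C.α x • z)) ∘ ofComplex) z := by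
      funext z; simp [hG]
    have e2 : Tf τ = ∑ x, ((f : ℍ → ℂ) ∣[(2:ℤ)] C.α x) τ := by
      rw [hTf, Finset.sum_apply]
    rw [e1, e2]
    exact h
  have hG0 : Tendsto G atImInfty (𝓝 0) := by
    have h := tendsto_finsetSum (Finset.univ : Finset X)
      (fun x _ => hF.2.1.comp (hlim x))
    simpa [hG] using h
  have hGG : G = G₀ := by
    have hH : ∀ τ : ℍ, HasDerivAt ((fun z : ℍ => G z - G₀ z) ∘ ofComplex) 0 ↑τ := by
      intro τ
      have h3 := (hGd τ).sub (hG₀.1 τ)
      rw [sub_self] at h3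
      exact h3
    have hc : ∀ w : ℍ, G w - G₀ w = G UpperHalfPlane.I - G₀ UpperHalfPlane.I := fun w =>
      S21.helper216.const_of_hasDerivAt_zero hH w UpperHalfPlane.I
    have hlim0 : Tendsto (fun z : ℍ => G z - G₀ z) atImInfty (𝓝 (0 - 0)) := hG0.sub hG₀.2.1
    have hlim1 : Tendsto (fun z : ℍ => G z - G₀ z) atImInfty
        (𝓝 (G UpperHalfPlane.I - G₀ UpperHalfPlane.I)) := by
      rw [show (fun z : ℍ => G z - G₀ z) = fun _ => G UpperHalfPlane.I - G₀ UpperHalfPlane.I from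
        funext hc]
      exact tendsto_const_nhds
    have h0 := tendsto_nhds_unique hlim1 hlim0
    funext z
    have := hc z
    rw [h0] at this
    linear_combination this
  refine AddMonoidHom.ext fun γ => ?_
  obtain ⟨γ, rfl⟩ := Additive.ofMul.surjective γ
  rw [S21.helper921.periodMap_apply_of_primitive hG₀, ← hGG, Corr.op_apply]
  have hx : ∀ x, F (C.α x • ((γ : SL(2, ℤ)) • UpperHalfPlane.I))
      = F (C.α (C.act x γ) • UpperHalfPlane.I) + periodMap N f (Additive.ofMul (C.coc x γ)) := by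
    intro x
    have h1 : C.α x • ((γ : SL(2, ℤ)) • UpperHalfPlane.I)
        = ((C.coc x γ : ↥(Gamma0 N)) : SL(2, ℤ)) • (C.α (C.act x γ) • UpperHalfPlane.I) := by
      show C.α x • (mapGL ℝ (γ : SL(2, ℤ)) • UpperHalfPlane.I)
        = mapGL ℝ ((C.coc x γ : ↥(Gamma0 N)) : SL(2, ℤ)) • (C.α (C.act x γ) • UpperHalfPlane.I)
      rw [← mul_smul, ← mul_smul, ← hι, ← hι, C.rel]
    rw [h1, S21.helper921.periodMap_apply_of_primitive hF]
    have h2 := hF.2.2.1.sub_eq_period (C.coc x γ) (C.α (C.act x γ) • UpperHalfPlane.I)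
    have h3 := hF.2.2.1.sub_eq_period (C.coc x γ) UpperHalfPlane.I
    linear_combination h2 - h3
  simp only [hG]
  rw [← Finset.sum_sub_distrib]
  have hperm := Equiv.sum_comp (C.actPerm γ) (fun x => F (C.α x • UpperHalfPlane.I))
  simp only [Corr.actPerm_apply] at hperm
  calc ∑ x, (F (C.α x • ((γ : SL(2, ℤ)) • UpperHalfPlane.I)) - F (C.α x • UpperHalfPlane.I))
      = ∑ x, (F (C.α (C.act x γ) • UpperHalfPlane.I)
          + periodMap N f (Additive.ofMul (C.coc x γ)) - F (C.α x • UpperHalfPlane.I)) :=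
        Finset.sum_congr rfl fun x _ => by rw [hx x]
    _ = ∑ x, periodMap N f (Additive.ofMul (C.coc x γ)) := by
        rw [Finset.sum_sub_distrib, Finset.sum_add_distrib, hperm]
        ring

end Abstract

/-! ## The operators `T_ℓ`, `U_ℓ` -/

section Concrete

variable {N : ℕ} [NeZero N]

/-- **(EQ)** for `T_ℓ`: the period map intertwines `T_ℓ` on cusp forms with `heckeHomT`. -/
theorem periodMap_heckeTLin {ℓ : ℕ} [Fact ℓ.Prime] (hℓ : ℓ.Prime) (hℓN : ¬ ℓ ∣ N)
    (f : CuspForm (Gamma0 N) 2) :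
    periodMap N (CuspForm.heckeTLin 2 hℓ hℓN f) = heckeHomT N ℓ hℓN ℂ (periodMap N f) := by
  refine periodMap_eq_op (corrT N ℓ hℓN) (fun γ => rfl) (det_heckeRep_pos ℓ)
    (tendsto_heckeRep_smul ℓ) f _ ?_
  rw [CuspForm.coe_heckeTLin_apply, heckeT_eq_sum_onePoint]
  rfl

/-- **(EQ)** for `U_ℓ`: the period map intertwines `U_ℓ` on cusp forms with `heckeHomU`. -/
theorem periodMap_heckeULin {ℓ : ℕ} [Fact ℓ.Prime] (hℓN : ℓ ∣ N)
    (f : CuspForm (Gamma0 N) 2) :
    periodMap N (CuspForm.heckeULin 2 hℓN f) = heckeHomU N ℓ hℓN ℂ (periodMap N f) := by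
  refine periodMap_eq_op (corrU N ℓ hℓN) (fun γ => rfl) (fun x => ?_) (fun x => ?_) f _ ?_
  · have := det_heckeRep_pos ℓ (x : OnePoint (ZMod ℓ))
    rwa [heckeRep_coe] at this
  · have := tendsto_heckeRep_smul ℓ (x : OnePoint (ZMod ℓ))
    rw [heckeRep_coe] at this
    exact this
  · rw [CuspForm.coe_heckeULin_apply, heckeU_eq_sum_zmod]
    rfl

/-- **(EQ)** for the generators of the Prelude Hecke algebra. -/
theorem periodMap_heckeFormsGen (q : Nat.Primes) (f : CuspForm (Gamma0 N) 2) :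
    periodMap N ((CuspForm.heckeFormsGen N 2 q).1 f) = heckeHomGen N ℂ q (periodMap N f) := by
  have : Fact (q : ℕ).Prime := ⟨q.2⟩
  by_cases h : (q : ℕ) ∣ N
  · rw [CuspForm.heckeFormsGen_of_dvd h, heckeHomGen_of_dvd h]
    exact periodMap_heckeULin h f
  · rw [CuspForm.heckeFormsGen_of_not_dvd h, heckeHomGen_of_not_dvd h]
    exact periodMap_heckeTLin q.2 h f

theorem existsPeriodMapLinear (N : ℕ) [NeZero N] : ExistsPeriodMapLinear N :=
  S21.helper921.existsPeriodMapLinear_of_A (S21.helper216.stmtA N)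

end Concrete

/-! ## Transfer along Hecke polynomials and the core of the lower bound -/

section Transfer

variable {N : ℕ} [NeZero N]

/-- For every Hecke polynomial `t` there is a family of endomorphisms `Θ A` of `Hom(Γ₀(N), A)`,
natural in `A`, which corresponds to `t` under the period map, commutes with `charInvolution`,
and acts on every simultaneous eigenvector of the generators by the eigencharacter.
(No commutativity of the operators on `Hom(Γ₀(N), A)` is needed.) -/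
theorem exists_theta (t : ModularCurve.HeckeAlg) :
    ∃ Θ : ∀ (A : Type) [AddCommGroup A],
        (Additive ↥(Gamma0 N) →+ A) →+ (Additive ↥(Gamma0 N) →+ A),
      (∀ (A B : Type) [AddCommGroup A] [AddCommGroup B] (f : A →+ B)
          (φ : Additive ↥(Gamma0 N) →+ A), Θ B (f.comp φ) = f.comp (Θ A φ)) ∧
      (∀ f : CuspForm (Gamma0 N) 2,
          Θ ℂ (periodMap N f) = periodMap N ((CuspForm.heckeEvalForms N 2 t).1 f)) ∧
      (∀ φ : Additive ↥(Gamma0 N) →+ ℂ,
          Θ ℂ (charInvolution N ℂ ℂ φ) = charInvolution N ℂ ℂ (Θ ℂ φ)) ∧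
      (∀ (B : Type) [AddCommGroup B] (ψ₀ : Additive ↥(Gamma0 N) →+ B)
          (e : ModularCurve.HeckeAlg →+* ℤ),
          (∀ q : Nat.Primes, heckeHomGen N B q ψ₀ = e (MvPolynomial.X q) • ψ₀) →
            Θ B ψ₀ = e t • ψ₀) := by
  obtain ⟨pml, hpml⟩ := existsPeriodMapLinear N
  induction t using MvPolynomial.induction_on with
  | C a =>
    refine ⟨fun A _ => a • AddMonoidHom.id _, ?_, ?_, ?_, ?_⟩
    · intro A B _ _ f φ
      refine AddMonoidHom.ext fun γ => ?_
      simp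
    · intro f
      have h1 : ((CuspForm.heckeEvalForms N 2 (MvPolynomial.C a)).1 f) = a • f := by
        rw [CuspForm.heckeEvalForms_C]
        simp
      rw [h1, ← hpml, ← hpml, map_zsmul]
      rfl
    · intro φ
      simp
    · intro B _ ψ₀ e _
      have : e (MvPolynomial.C a) = a := by
        rw [eq_intCast (MvPolynomial.C : ℤ →+* ModularCurve.HeckeAlg) a, map_intCast]
        simp
      rw [this]
      rfl
  | add p q hp hq =>
    obtain ⟨Θp, hp1, hp2, hp3, hp4⟩ := hp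
    obtain ⟨Θq, hq1, hq2, hq3, hq4⟩ := hq
    refine ⟨fun A _ => Θp A + Θq A, ?_, ?_, ?_, ?_⟩
    · intro A B _ _ f φ
      rw [AddMonoidHom.add_apply, AddMonoidHom.add_apply, hp1, hq1, AddMonoidHom.comp_add]
    · intro f
      have h1 : ((CuspForm.heckeEvalForms N 2 (p + q)).1 f)
          = (CuspForm.heckeEvalForms N 2 p).1 f + (CuspForm.heckeEvalForms N 2 q).1 f := by
        rw [map_add]
        rfl
      rw [AddMonoidHom.add_apply, hp2, hq2, h1, ← hpml, ← hpml, ← hpml, map_add]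
    · intro φ
      rw [AddMonoidHom.add_apply, AddMonoidHom.add_apply, hp3, hq3, map_add]
    · intro B _ ψ₀ e he
      rw [AddMonoidHom.add_apply, hp4 B ψ₀ e he, hq4 B ψ₀ e he, map_add, add_smul]
  | mul_X p q hp =>
    obtain ⟨Θp, hp1, hp2, hp3, hp4⟩ := hp
    refine ⟨fun A _ => (Θp A).comp (heckeHomGen N A q), ?_, ?_, ?_, ?_⟩
    · intro A B _ _ f φ
      rw [AddMonoidHom.comp_apply, AddMonoidHom.comp_apply, heckeHomGen_comp, hp1]
    · intro f
      have h1 : ((CuspForm.heckeEvalForms N 2 (p * MvPolynomial.X q)).1 f)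
          = (CuspForm.heckeEvalForms N 2 p).1 ((CuspForm.heckeFormsGen N 2 q).1 f) := by
        rw [map_mul]
        have : CuspForm.heckeEvalForms N 2 (MvPolynomial.X q) = CuspForm.heckeFormsGen N 2 q :=
          CuspForm.heckeEvalForms_heckeGen N 2 q
        rw [this]
        rfl
      rw [AddMonoidHom.comp_apply, ← periodMap_heckeFormsGen, hp2, h1]
    · intro φ
      rw [AddMonoidHom.comp_apply, AddMonoidHom.comp_apply, heckeHomGen_charInvolution, hp3]
    · intro B _ ψ₀ e he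
      rw [AddMonoidHom.comp_apply, he q, map_zsmul, hp4 B ψ₀ e he, map_mul, smul_smul, mul_comm]

/-- **Core of the lower bound** (Shimura-class route).  Given the Eichler–Shimura range statement
(S21), a surjective simultaneous eigenvector `ψ₀ : Γ₀(N) → ℤ/n` of the operators `heckeHomGen` with
eigencharacter `e`, and an integral parabolic lift `ψ` of `ψ₀`: every Hecke polynomial `t` that
vanishes on `S₂(Γ₀(N))` satisfies `n ∣ e t`. -/
theorem lowerBound_core
    (hS21 : LinearMap.range (periodHomPair N) = parabolicHoms ℂ (Gamma0 N) ℂ)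
    (n : ℕ) (ψ₀ : Additive ↥(Gamma0 N) →+ ZMod n) (e : ModularCurve.HeckeAlg →+* ℤ)
    (heig : ∀ q : Nat.Primes, heckeHomGen N (ZMod n) q ψ₀ = e (MvPolynomial.X q) • ψ₀)
    (hsurj : ∃ γ, ψ₀ γ = 1)
    (ψ : Additive ↥(Gamma0 N) →+ ℤ) (hψpar : ψ ∈ parabolicHoms ℤ (Gamma0 N) ℤ)
    (hψ : ∀ γ, ((ψ γ : ℤ) : ZMod n) = ψ₀ γ)
    (t : ModularCurve.HeckeAlg) (ht : CuspForm.heckeEvalForms N 2 t = 0) :
    (n : ℤ) ∣ e t := by
  obtain ⟨Θ, hnat, hEQ, hinv, heig'⟩ := exists_theta (N := N) t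
  obtain ⟨pml, hpml, hdef⟩ := periodHomPair_def N (existsPeriodMapLinear N)
  have h0 : ∀ f : CuspForm (Gamma0 N) 2, Θ ℂ (pml f) = 0 := by
    intro f
    rw [hpml, hEQ, ht]
    have : ((0 : CuspForm.heckeAlgebra N 2 ∅).1 f) = 0 := rfl
    rw [this, ← hpml, map_zero]
  have h1 : ∀ v, Θ ℂ (periodHomPair N v) = 0 := by
    intro v
    rw [hdef, LinearMap.coprod_apply]
    simp only [LinearMap.comp_apply, LinearMap.add_apply, LinearMap.sub_apply, LinearMap.id_apply,
      map_add, map_sub, hinv, h0, map_zero, add_zero, sub_zero]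
  have hpar : (Int.castAddHom ℂ).comp ψ ∈ parabolicHoms ℂ (Gamma0 N) ℂ := by
    intro γ hγ
    have := hψpar γ hγ
    show ((ψ (Additive.ofMul γ) : ℤ) : ℂ) = 0
    rw [this]
    simp
  rw [← hS21] at hpar
  obtain ⟨v, hv⟩ := hpar
  have h2 : Θ ℂ ((Int.castAddHom ℂ).comp ψ) = 0 := by
    rw [← hv]
    exact h1 v
  rw [hnat] at h2
  have h3 : Θ ℤ ψ = 0 := by
    refine AddMonoidHom.ext fun γ => ?_
    have := DFunLike.congr_fun h2 γ
    simpa using this
  have h4 : (Int.castAddHom (ZMod n)).comp ψ = ψ₀ := AddMonoidHom.ext fun γ => hψ γ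
  have h5 : Θ (ZMod n) ψ₀ = 0 := by
    rw [← h4, hnat, h3, AddMonoidHom.comp_zero]
  have h6 := heig' (ZMod n) ψ₀ e heig
  rw [h5] at h6
  obtain ⟨γ, hγ⟩ := hsurj
  have h7 := DFunLike.congr_fun h6 γ
  rw [AddMonoidHom.zero_apply, AddMonoidHom.smul_apply, hγ, zsmul_one] at h7
  exact (ZMod.intCast_zmod_eq_zero_iff_dvd _ _).mp h7.symm

end Transfer

end Fermat.Agent.S16.helper2876
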