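/-
helper3076 — S16, upper bound, leaf T8 (findings #1752): the 2-adic norm argument.

`no_form_one_mod_eight`: for a prime `p ≡ 3 (mod 4)` there is no `G ∈ M₂(Γ₀(p))` whose
`q`-expansion is `1 + 8 h` with `h` having 2-integral coefficients, GIVEN the norm interface
`Stmt_Norm8 p` (the norm to level one of `Bpoly E₄ E₆ G ∈ M₈(Γ₀(p))` has the product
`q^(1/p)`-expansion over the `p + 1` conjugates `G`, `-(1/p) (U_p G)(ζ^j q^(1/p))`).

Proof: every conjugate is `u + 8 (2-integral)`, `u ∈ {1, 5}` (as `-1/p ≡ 1 mod 4`), so by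
`helper3076_TwoAdic` each factor is `256 (Δ + 2 Q)`; the norm is `256^(p+1) (Δ^(p+1) + 2 Q)`,
a level-one form of weight `8 (p + 1)` all of whose coefficients of index `≤ 8(p+1)/12 < p + 1`
lie in `256^(p+1) · 2 · O2`; by level-one Sturm (`helper5604`) so does the coefficient of
index `p + 1`, which is `256^(p+1) (1 + 2 c)`: hence `1/2 ∈ O2`, absurd.
-/
import Fermat.Agent.S16.helper3076_TwoAdic
import Fermat.Agent.S16.helper5604_LevelOneSturm
import Fermat.Prelude.Thm_CongruenceSubgroup_one_mem_strictPeriods_Gamma0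

set_option autoImplicit false

namespace Fermat.Agent.S16.helper3076

open UpperHalfPlane ModularForm ModularFormClass EisensteinSeries CongruenceSubgroup
open scoped MatrixGroups

noncomputable section

/-! ## The ring of 2-integral algebraic numbers -/

/-- `O2 = {x ∈ ℂ | some odd multiple of x is an algebraic integer}`. -/
def O2 : Subring ℂ where
  carrier := {x | ∃ m : ℤ, Odd m ∧ IsIntegral ℤ ((m : ℂ) * x)}
  mul_mem' := by
    rintro x y ⟨m, hm, hx⟩ ⟨n, hn, hy⟩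
    refine ⟨m * n, hm.mul hn, ?_⟩
    have h : ((m * n : ℤ) : ℂ) * (x * y) = ((m : ℂ) * x) * ((n : ℂ) * y) := by push_cast; ring
    rw [h]
    exact hx.mul hy
  one_mem' := ⟨1, odd_one, by simpa using isIntegral_one⟩
  add_mem' := by
    rintro x y ⟨m, hm, hx⟩ ⟨n, hn, hy⟩
    refine ⟨m * n, hm.mul hn, ?_⟩
    have h : ((m * n : ℤ) : ℂ) * (x + y) =
        (n : ℂ) * ((m : ℂ) * x) + (m : ℂ) * ((n : ℂ) * y) := by push_cast; ring
    rw [h]
    have hn' : IsIntegral ℤ (n : ℂ) := by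
      simpa using isIntegral_algebraMap (R := ℤ) (A := ℂ) (x := n)
    have hm' : IsIntegral ℤ (m : ℂ) := by
      simpa using isIntegral_algebraMap (R := ℤ) (A := ℂ) (x := m)
    exact (hn'.mul hx).add (hm'.mul hy)
  zero_mem' := ⟨1, odd_one, by simpa using isIntegral_zero⟩
  neg_mem' := by
    rintro x ⟨m, hm, hx⟩
    exact ⟨m, hm, by rw [mul_neg]; exact hx.neg⟩

theorem mem_O2_iff (x : ℂ) : x ∈ O2 ↔ ∃ m : ℤ, Odd m ∧ IsIntegral ℤ ((m : ℂ) * x) := Iff.rfl

theorem mem_O2_of_isIntegral {x : ℂ} (hx : IsIntegral ℤ x) : x ∈ O2 :=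
  ⟨1, odd_one, by simpa using hx⟩

theorem mem_O2_of_pow_eq_one {ζ : ℂ} {n : ℕ} (hn : 0 < n) (h : ζ ^ n = 1) : ζ ∈ O2 :=
  mem_O2_of_isIntegral (IsIntegral.of_pow hn (h ▸ isIntegral_one))

theorem inv_natCast_mem_O2 {p : ℕ} (hp : Odd p) : ((p : ℂ))⁻¹ ∈ O2 := by
  refine ⟨p, by exact_mod_cast hp, ?_⟩
  have hp0 : (p : ℂ) ≠ 0 := by
    have : p ≠ 0 := fun h => by simp [h] at hp
    exact_mod_cast this
  have h : ((p : ℤ) : ℂ) * ((p : ℂ))⁻¹ = 1 := by
    push_cast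
    exact mul_inv_cancel₀ hp0
  rw [h]
  exact isIntegral_one

theorem inv_two_notMem_O2 : (2 : ℂ)⁻¹ ∉ O2 := by
  rintro ⟨m, hm, hint⟩
  have h1 : ((m : ℂ) * (2 : ℂ)⁻¹) = algebraMap ℚ ℂ ((m : ℚ) / 2) := by
    simp [div_eq_mul_inv]
  rw [h1, isIntegral_algebraMap_iff (algebraMap ℚ ℂ).injective] at hint
  obtain ⟨k, hk⟩ := IsIntegrallyClosed.isIntegral_iff.mp hint
  have h2 : (m : ℚ) = 2 * (k : ℚ) := by
    have : ((k : ℤ) : ℚ) = (m : ℚ) / 2 := by simpa using hk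
    rw [this]; ring
  have h3 : m = 2 * k := by exact_mod_cast h2
  rw [h3] at hm
  exact (Int.not_odd_iff_even.mpr (even_two_mul k)) hm

/-- `-1/p = u + 8 w` with `u ∈ {1, 5}` and `w ∈ O2`, for `p ≡ 3 (mod 4)`. -/
theorem neg_inv_eq (p : ℕ) (hp4 : p % 4 = 3) :
    ∃ w ∈ O2, (-((p : ℂ))⁻¹ = 1 + 8 * w ∨ -((p : ℂ))⁻¹ = 5 + 8 * w) := by
  have hodd : Odd p := Nat.odd_iff.mpr (by omega)
  have hinv := inv_natCast_mem_O2 hodd
  have hp0 : (p : ℂ) ≠ 0 := by
    have : p ≠ 0 := by omega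
    exact_mod_cast this
  rcases (by omega : p % 8 = 7 ∨ p % 8 = 3) with h | h
  · obtain ⟨k, hk⟩ : ∃ k : ℕ, p + 1 = 8 * k := ⟨(p + 1) / 8, by omega⟩
    have hkC : (p : ℂ) + 1 = 8 * (k : ℂ) := by exact_mod_cast hk
    refine ⟨-((k : ℂ) * ((p : ℂ))⁻¹), O2.neg_mem (O2.mul_mem (natCast_mem O2 k) hinv), Or.inl ?_⟩
    field_simp
    linear_combination (-1 : ℂ) * hkC
  · obtain ⟨k, hk⟩ : ∃ k : ℕ, 5 * p + 1 = 8 * k := ⟨(5 * p + 1) / 8, by omega⟩
    have hkC : 5 * (p : ℂ) + 1 = 8 * (k : ℂ) := by exact_mod_cast hk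
    refine ⟨-((k : ℂ) * ((p : ℂ))⁻¹), O2.neg_mem (O2.mul_mem (natCast_mem O2 k) hinv), Or.inr ?_⟩
    field_simp
    linear_combination (-1 : ℂ) * hkC

/-! ## Power series preliminaries -/

/-- `U_p` on power series: `∑ aₙ qⁿ ↦ ∑ a_{pn} qⁿ`. -/
def Up (p : ℕ) (A : PowerSeries ℂ) : PowerSeries ℂ :=
  PowerSeries.mk fun n => PowerSeries.coeff (p * n) A

private lemma coeff_ofNat_mul' (a : ℕ) [a.AtLeastTwo] (f : PowerSeries ℂ) (n : ℕ) :
    PowerSeries.coeff n ((OfNat.ofNat a : PowerSeries ℂ) * f) =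
      (OfNat.ofNat a : ℂ) * PowerSeries.coeff n f := by
  rw [← map_ofNat (PowerSeries.C (R := ℂ)) a, PowerSeries.coeff_C_mul]

theorem Up_one_add_eight_mul (p : ℕ) (hp : p ≠ 0) (h : PowerSeries ℂ) :
    Up p (1 + 8 * h) = 1 + 8 * Up p h := by
  ext n
  rw [Up, PowerSeries.coeff_mk, map_add, map_add, coeff_ofNat_mul', coeff_ofNat_mul',
    PowerSeries.coeff_one, PowerSeries.coeff_one, Up, PowerSeries.coeff_mk]
  simp [hp]

theorem Up_mem (O : Subring ℂ) (p : ℕ) {h : PowerSeries ℂ} (hh : h ∈ coeffRing O) :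
    Up p h ∈ coeffRing O := by
  rw [mem_coeffRing_iff] at hh ⊢
  intro n
  rw [Up, PowerSeries.coeff_mk]
  exact hh _

theorem rescale_mem (O : Subring ℂ) {a : ℂ} (ha : a ∈ O) {h : PowerSeries ℂ}
    (hh : h ∈ coeffRing O) : PowerSeries.rescale a h ∈ coeffRing O := by
  rw [mem_coeffRing_iff] at hh ⊢
  intro n
  rw [PowerSeries.coeff_rescale]
  exact O.mul_mem (O.pow_mem ha n) (hh n)

theorem smul_mem_coeffRing (O : Subring ℂ) {a : ℂ} (ha : a ∈ O) {h : PowerSeries ℂ}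
    (hh : h ∈ coeffRing O) : a • h ∈ coeffRing O := by
  rw [mem_coeffRing_iff] at hh ⊢
  intro n
  rw [PowerSeries.coeff_smul]
  exact O.mul_mem ha (hh n)

theorem C_mem_coeffRing (O : Subring ℂ) {a : ℂ} (ha : a ∈ O) :
    PowerSeries.C a ∈ coeffRing O := by
  rw [mem_coeffRing_iff]
  intro n
  rw [PowerSeries.coeff_C]
  split_ifs
  exacts [ha, O.zero_mem]

/-- The conjugates at the cusp `0` of a form `1 + 8 h` are of the form `u + 8 h'`, `u ∈ {1,5}`. -/
theorem conj_form (p : ℕ) (hp : p ≠ 0) (hp4 : p % 4 = 3) {ζ : ℂ} (hζ : ζ ^ p = 1) (j : ℕ)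
    {h : PowerSeries ℂ} (hh : h ∈ coeffRing O2) :
    ∃ h' ∈ coeffRing O2,
      (-((p : ℂ))⁻¹) • PowerSeries.rescale (ζ ^ j) (Up p (1 + 8 * h)) = 1 + 8 * h' ∨
      (-((p : ℂ))⁻¹) • PowerSeries.rescale (ζ ^ j) (Up p (1 + 8 * h)) = 5 + 8 * h' := by
  obtain ⟨w, hw, hu⟩ := neg_inv_eq p hp4
  have hodd : Odd p := Nat.odd_iff.mpr (by omega)
  have hζ' : ζ ^ j ∈ O2 := O2.pow_mem (mem_O2_of_pow_eq_one (Nat.pos_of_ne_zero hp) hζ) j
  have hc : -((p : ℂ))⁻¹ ∈ O2 := O2.neg_mem (inv_natCast_mem_O2 hodd)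
  have hZ : PowerSeries.rescale (ζ ^ j) (Up p h) ∈ coeffRing O2 :=
    rescale_mem O2 hζ' (Up_mem O2 p hh)
  refine ⟨PowerSeries.C w + (-((p : ℂ))⁻¹) • PowerSeries.rescale (ζ ^ j) (Up p h),
    (coeffRing O2).add_mem (C_mem_coeffRing O2 hw) (smul_mem_coeffRing O2 hc hZ), ?_⟩
  have key : (-((p : ℂ))⁻¹) • PowerSeries.rescale (ζ ^ j) (Up p (1 + 8 * h)) =
      PowerSeries.C (-((p : ℂ))⁻¹) +
        8 * ((-((p : ℂ))⁻¹) • PowerSeries.rescale (ζ ^ j) (Up p h)) := by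
    rw [Up_one_add_eight_mul p hp, map_add, map_one, map_mul, map_ofNat, smul_add,
      mul_smul_comm, PowerSeries.smul_eq_C_mul, mul_one]
  rcases hu with hu | hu
  · left
    rw [key, hu, map_add, map_one, map_mul, map_ofNat]
    ring
  · right
    rw [key, hu, map_add, map_ofNat, map_mul, map_ofNat]
    ring

/-- Product form over a subring: a product of `n` elements `c (D + 2 Qᵢ)` is
`cⁿ (Dⁿ + 2 Q)`. -/
theorem prod_eq_mem {R : Type*} [CommRing R] (A : Subring R) (c D : R) (hD : D ∈ A)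
    {ι : Type*} (t : Finset ι) (y : ι → R) (hy : ∀ i ∈ t, ∃ Q ∈ A, y i = c * (D + 2 * Q)) :
    ∃ Q ∈ A, ∏ i ∈ t, y i = c ^ t.card * (D ^ t.card + 2 * Q) := by
  classical
  induction t using Finset.induction_on with
  | empty => exact ⟨0, A.zero_mem, by simp⟩
  | insert a t ha ih =>
    obtain ⟨Q, hQ, hprod⟩ := ih (fun i hi => hy i (Finset.mem_insert_of_mem hi))
    obtain ⟨Q', hQ', hya⟩ := hy a (Finset.mem_insert_self a t)
    refine ⟨D * Q + Q' * D ^ t.card + (Q' * Q + Q' * Q), ?_, ?_⟩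
    · exact A.add_mem (A.add_mem (A.mul_mem hD hQ) (A.mul_mem hQ' (A.pow_mem hD _)))
        (A.add_mem (A.mul_mem hQ' hQ) (A.mul_mem hQ' hQ))
    · rw [Finset.prod_insert ha, Finset.card_insert_of_notMem ha, hprod, hya]
      ring

/-! ## The `q`-expansion of `Δ` -/

theorem qExpansion_discriminant_mem (O : Subring ℂ) :
    qExpansion 1 discriminant ∈ coeffRing O := by
  have h : qExpansion 1 discriminant = (Dpoly sS rS).map (Int.castRingHom ℂ) := by
    rw [qExpansion_discriminant_eq]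
    exact (map_Dpoly (PowerSeries.map (Int.castRingHom ℂ)) sS rS).symm
  rw [h]
  exact map_int_mem_coeffRing O _

theorem constantCoeff_qExpansion_discriminant :
    PowerSeries.constantCoeff (qExpansion 1 discriminant) = 0 := by
  rw [qExpansion_discriminant_eq, map_Dpoly]
  have hs : PowerSeries.constantCoeff sC = 0 := by
    rw [← PowerSeries.coeff_zero_eq_constantCoeff_apply, coeff_sC]
    simp
  have hr : PowerSeries.constantCoeff rC = 0 := by
    have h := coeff_rC 0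
    rw [← PowerSeries.coeff_zero_eq_constantCoeff_apply]
    have h2 : (24 : ℂ) * PowerSeries.coeff 0 rC = 0 := by rw [h]; simp
    simpa using h2
  rw [hs, hr]
  simp [Dpoly]

theorem coeff_discriminant_pow_of_lt {m n : ℕ} (hn : n < m) :
    PowerSeries.coeff n (qExpansion 1 discriminant ^ m) = 0 := by
  obtain ⟨g, hg⟩ := PowerSeries.X_dvd_iff.mpr constantCoeff_qExpansion_discriminant
  rw [hg, mul_pow, PowerSeries.coeff_X_pow_mul', if_neg (by omega)]

theorem coeff_discriminant_pow_self (m : ℕ) :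
    PowerSeries.coeff m (qExpansion 1 discriminant ^ m) = 1 := by
  obtain ⟨g, hg⟩ := PowerSeries.X_dvd_iff.mpr constantCoeff_qExpansion_discriminant
  have h1 : PowerSeries.coeff 0 g = 1 := by
    have h := discriminant_qExpansion_coeff_one
    rw [hg] at h
    have h2 : PowerSeries.coeff (0 + 1) (PowerSeries.X * g) = PowerSeries.coeff 0 g :=
      PowerSeries.coeff_succ_X_mul 0 g
    rw [← h2]
    simpa using h
  rw [hg, mul_pow, PowerSeries.coeff_X_pow_mul', if_pos le_rfl, Nat.sub_self,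
    PowerSeries.coeff_zero_eq_constantCoeff_apply, map_pow,
    ← PowerSeries.coeff_zero_eq_constantCoeff_apply, h1, one_pow]

/-! ## The norm interface and the main theorem -/

/-- **Norm interface** (to be supplied by the CONJ/NORM modules): for every `G ∈ M₂(Γ₀(p))` the
norm to level one of `Bpoly E₄ E₆ G ∈ M₈(Γ₀(p))` is a level-one form `N` of weight `8 (p + 1)`
with `N(t^p) = B(G(t^p)) * ∏_{j<p} B(-(1/p) (U_p G)(ζ^j t))`, `ζ` a `p`-th root of unity
(level-one coefficients `E₄, E₆` evaluated at `t^p` in every factor). -/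
def Stmt_Norm8 (p : ℕ) (hp : p ≠ 0) : Prop :=
  ∀ G : ModularForm (Gamma0 p) 2, ∃ (k : ℤ) (N : ModularForm 𝒮ℒ k) (ζ : ℂ),
    k = 8 * ((p : ℤ) + 1) ∧ ζ ^ p = 1 ∧
    PowerSeries.expand p hp (qExpansion 1 N) =
      Bpoly (PowerSeries.expand p hp (qExpansion 1 E₄)) (PowerSeries.expand p hp (qExpansion 1 E₆))
          (PowerSeries.expand p hp (qExpansion 1 G)) *
        ∏ j ∈ Finset.range p,
          Bpoly (PowerSeries.expand p hp (qExpansion 1 E₄))
            (PowerSeries.expand p hp (qExpansion 1 E₆))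
            ((-((p : ℂ))⁻¹) • PowerSeries.rescale (ζ ^ j) (Up p (qExpansion 1 G)))

/-- **T8.** For `p ≡ 3 (mod 4)` there is no weight-2 form on `Γ₀(p)` whose `q`-expansion is
`1 + 8 h` with `h` having coefficients in `O2` (2-integral algebraic numbers). -/
theorem no_form_one_mod_eight (p : ℕ) (hp : p ≠ 0) (hp4 : p % 4 = 3) (hN : Stmt_Norm8 p hp)
    (G : ModularForm (Gamma0 p) 2)
    (hG : ∃ h ∈ coeffRing O2, qExpansion 1 G = 1 + 8 * h) : False := by
  obtain ⟨h, hh, hA⟩ := hG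
  obtain ⟨k, N, ζ, hk, hζ, hexp⟩ := hN G
  subst hk
  set D : PowerSeries ℂ := PowerSeries.expand p hp (qExpansion 1 discriminant) with hD
  have hDmem : D ∈ coeffRing O2 := expand_mem_coeffRing O2 p hp (qExpansion_discriminant_mem O2)
  -- the factor at infinity
  have hinf : ∃ Q ∈ coeffRing O2,
      Bpoly (PowerSeries.expand p hp (qExpansion 1 E₄)) (PowerSeries.expand p hp (qExpansion 1 E₆))
        (PowerSeries.expand p hp (qExpansion 1 G)) = 256 * (D + 2 * Q) := by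
    refine Bpoly_qExpansion_expand O2 p hp ⟨PowerSeries.expand p hp h,
      expand_mem_coeffRing O2 p hp hh, Or.inl ?_⟩
    rw [hA, map_add, map_one, map_mul, map_ofNat]
  -- the factors at the cusp 0
  have hzero : ∀ j ∈ Finset.range p, ∃ Q ∈ coeffRing O2,
      Bpoly (PowerSeries.expand p hp (qExpansion 1 E₄)) (PowerSeries.expand p hp (qExpansion 1 E₆))
        ((-((p : ℂ))⁻¹) • PowerSeries.rescale (ζ ^ j) (Up p (qExpansion 1 G))) =
        256 * (D + 2 * Q) := by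
    intro j _
    rw [hA]
    exact Bpoly_qExpansion_expand O2 p hp (conj_form p hp hp4 hζ j hh)
  obtain ⟨Q0, hQ0, hprod⟩ := prod_eq_mem (coeffRing O2) 256 D hDmem (Finset.range p) _ hzero
  obtain ⟨Q1, hQ1, hfac⟩ := hinf
  rw [hfac, hprod, Finset.card_range] at hexp
  -- `N(t^p) = 256^(p+1) * (D^(p+1) + 2 Q)`
  have hexp2 : PowerSeries.expand p hp (qExpansion 1 N) =
      PowerSeries.C ((256 : ℂ) ^ (p + 1)) *
        (PowerSeries.expand p hp (qExpansion 1 discriminant ^ (p + 1)) +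
          PowerSeries.C (2 : ℂ) * (D * Q0 + Q1 * D ^ p + (Q1 * Q0 + Q1 * Q0))) := by
    rw [hexp, map_pow, map_pow, ← hD, map_ofNat, map_ofNat]
    ring
  have hQmem : D * Q0 + Q1 * D ^ p + (Q1 * Q0 + Q1 * Q0) ∈ coeffRing O2 :=
    (coeffRing O2).add_mem
      ((coeffRing O2).add_mem ((coeffRing O2).mul_mem hDmem hQ0)
        ((coeffRing O2).mul_mem hQ1 ((coeffRing O2).pow_mem hDmem _)))
      ((coeffRing O2).add_mem ((coeffRing O2).mul_mem hQ1 hQ0) ((coeffRing O2).mul_mem hQ1 hQ0))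
  set Q : PowerSeries ℂ := D * Q0 + Q1 * D ^ p + (Q1 * Q0 + Q1 * Q0) with hQ
  have hcoeff : ∀ n : ℕ, PowerSeries.coeff n (qExpansion 1 N) =
      (256 : ℂ) ^ (p + 1) * (PowerSeries.coeff n (qExpansion 1 discriminant ^ (p + 1)) +
        2 * PowerSeries.coeff (p * n) Q) := by
    intro n
    rw [← PowerSeries.coeff_expand_mul p hp (qExpansion 1 N) n, hexp2, PowerSeries.coeff_C_mul,
      map_add, PowerSeries.coeff_expand_mul, PowerSeries.coeff_C_mul]
  -- Sturm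
  let I : AddSubgroup ℂ :=
    O2.toAddSubgroup.map (AddMonoidHom.mulLeft ((256 : ℂ) ^ (p + 1) * 2))
  have hI : ∀ x : ℂ, x ∈ I ↔ ∃ c ∈ O2, (256 : ℂ) ^ (p + 1) * 2 * c = x := by
    intro x
    simp only [I, AddSubgroup.mem_map, AddMonoidHom.coe_mulLeft]
    rfl
  have hlt : (8 * ((p : ℤ) + 1)).toNat / 12 < p + 1 := by omega
  have hsturm := helper5604.levelOne_not_congr_pow I N (p + 1) hlt (fun n hn => by
    rw [hI, hcoeff n, coeff_discriminant_pow_of_lt hn]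
    exact ⟨PowerSeries.coeff (p * n) Q, (mem_coeffRing_iff O2 Q).mp hQmem _, by ring⟩)
  rw [hI, hcoeff (p + 1), coeff_discriminant_pow_self] at hsturm
  obtain ⟨c, hc, hceq⟩ := hsturm
  have h256 : ((256 : ℂ) ^ (p + 1)) ≠ 0 := pow_ne_zero _ (by norm_num)
  have hfin : (2 : ℂ)⁻¹ = c - PowerSeries.coeff (p * (p + 1)) Q := by
    have h1 : 2 * c = 1 + 2 * PowerSeries.coeff (p * (p + 1)) Q := by
      have := mul_left_cancel₀ h256 (by rw [← hceq]; ring :
        (256 : ℂ) ^ (p + 1) * (2 * c) =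
          (256 : ℂ) ^ (p + 1) * (1 + 2 * PowerSeries.coeff (p * (p + 1)) Q))
      exact this
    linear_combination (-(1 / 2) : ℂ) * h1
  exact inv_two_notMem_O2 (hfin ▸ O2.sub_mem hc ((mem_coeffRing_iff O2 Q).mp hQmem _))

/-- **T8, consumer form.**  Let `p ≡ 3 (mod 4)` and let `E ∈ M₂(Γ₀(p))` have constant term
`(p - 1)/24` and higher coefficients `a n`.  Then no cusp form `f ∈ S₂(Γ₀(p))` has
`aₙ(f) = a n + 2 cₙ`, `cₙ ∈ ℤ`, for all `n ≥ 1` (i.e. `f ≡ E - (p-1)/24 mod 2`). -/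
theorem no_cuspForm_congr_two (p : ℕ) (hp : p ≠ 0) (hp4 : p % 4 = 3) (hN : Stmt_Norm8 p hp)
    (a : ℕ → ℂ) (E : ModularForm (Gamma0 p) 2)
    (hE0 : PowerSeries.coeff 0 (qExpansion 1 E) = ((p : ℂ) - 1) / 24)
    (hEn : ∀ n, 1 ≤ n → PowerSeries.coeff n (qExpansion 1 E) = a n)
    (f : CuspForm (Gamma0 p) 2)
    (hf : ∀ n, 1 ≤ n → ∃ c : ℤ, PowerSeries.coeff n (qExpansion 1 f) = a n + 2 * (c : ℂ)) :
    False := by
  have hΓ := CongruenceSubgroup.one_mem_strictPeriods_Gamma0 p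
  choose c hc using hf
  obtain ⟨m, hm, hmodd⟩ : ∃ m : ℕ, p = 2 * m + 1 ∧ Odd m :=
    ⟨(p - 1) / 2, by omega, by rw [Nat.odd_iff]; omega⟩
  have hmC : (p : ℂ) - 1 = 2 * (m : ℂ) := by rw [hm]; push_cast; ring
  have hm0 : (m : ℂ) ≠ 0 := by
    have : m ≠ 0 := fun h => by simp [h] at hmodd
    exact_mod_cast this
  set κ : ℂ := 24 / ((p : ℂ) - 1) with hκ
  let G : ModularForm (Gamma0 p) 2 := κ • (E - ModularFormClass.modularForm f)
  have hGq : qExpansion 1 G = κ • (qExpansion 1 E - qExpansion 1 f) := by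
    have h1 := ModularForm.qExpansion_smul one_pos hΓ κ (E - ModularFormClass.modularForm f)
    have h2 := ModularForm.qExpansion_sub one_pos hΓ E (ModularFormClass.modularForm f)
    have h3 : (⇑G : ℍ → ℂ) = κ • ⇑(E - ModularFormClass.modularForm f) := rfl
    have h4 : (⇑(E - ModularFormClass.modularForm f) : ℍ → ℂ) =
        ⇑E - ⇑(ModularFormClass.modularForm f) := rfl
    have h5 : (⇑(ModularFormClass.modularForm f) : ℍ → ℂ) = ⇑f := rfl
    rw [h3, h1, h4, h2, h5]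
  refine no_form_one_mod_eight p hp hp4 hN G
    ⟨PowerSeries.mk fun n => if h : 1 ≤ n then -3 * (c n h : ℂ) * ((m : ℂ))⁻¹ else 0, ?_, ?_⟩
  · rw [mem_coeffRing_iff]
    intro n
    rw [PowerSeries.coeff_mk]
    split_ifs with h
    · exact O2.mul_mem (O2.mul_mem (O2.neg_mem (natCast_mem O2 3)) (intCast_mem O2 _))
        (inv_natCast_mem_O2 hmodd)
    · exact O2.zero_mem
  · have hkey : (24 : ℂ) / (2 * (m : ℂ)) = 12 * ((m : ℂ))⁻¹ := by
      field_simp
      ring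
    ext n
    rw [hGq, PowerSeries.coeff_smul, map_sub, map_add, coeff_ofNat_mul', PowerSeries.coeff_mk,
      PowerSeries.coeff_one]
    by_cases h : 1 ≤ n
    · have hn0 : n ≠ 0 := by omega
      rw [dif_pos h, if_neg hn0, hEn n h, hc n h, hκ, hmC, smul_eq_mul, hkey]
      ring
    · have hn0 : n = 0 := by omega
      subst hn0
      rw [dif_neg h, if_pos rfl, hE0, CuspFormClass.qExpansion_coeff_zero f one_pos hΓ, hκ, hmC,
        smul_eq_mul, hkey]
      have h1 : (m : ℂ) * ((m : ℂ))⁻¹ = 1 := mul_inv_cancel₀ hm0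
      linear_combination h1

end

end Fermat.Agent.S16.helper3076
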