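/-
helper3076 — S16: the Spec leaf `helper312.Stmt_T8 p` from the norm interface
`helper3076.Stmt_Norm8 p hp` (all `p ≡ 3 mod 4`, in particular `p ≡ 7 mod 8`).
-/
import Fermat.Agent.S16.helper3076_TwoAdicNorm
import Fermat.Agent.S16.helper312_Spec

set_option autoImplicit false

namespace Fermat.Agent.S16.helper3076

open UpperHalfPlane ModularFormClass CongruenceSubgroup

theorem div_mem_O2 (a b : ℤ) (hb : Odd b) : (a : ℂ) / (b : ℂ) ∈ O2 := by
  refine ⟨b, hb, ?_⟩
  have hb0 : (b : ℂ) ≠ 0 := by
    have : b ≠ 0 := fun h => by simp [h] at hb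
    exact_mod_cast this
  have h : (b : ℂ) * ((a : ℂ) / (b : ℂ)) = ((a : ℤ) : ℂ) := by
    field_simp
  rw [h]
  simpa using isIntegral_algebraMap (R := ℤ) (A := ℂ) (x := a)

/-- **T8 in the shape of the S16 Spec** (helper312), from the norm interface. -/
theorem stmt_T8_of_norm8 (p : ℕ) (hp : p ≠ 0) (hN : Stmt_Norm8 p hp) : helper312.Stmt_T8 p := by
  intro hp8 G h0 hk
  choose a b hb hab using hk
  refine no_form_one_mod_eight p hp (by omega) hN G
    ⟨PowerSeries.mk fun n => if h : 1 ≤ n then (a n h : ℂ) / (b n h : ℂ) else 0, ?_, ?_⟩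
  · rw [mem_coeffRing_iff]
    intro n
    rw [PowerSeries.coeff_mk]
    split_ifs with h
    · exact div_mem_O2 _ _ (hb n h)
    · exact O2.zero_mem
  · ext n
    have h8 : ∀ f : PowerSeries ℂ, PowerSeries.coeff n ((8 : PowerSeries ℂ) * f) =
        8 * PowerSeries.coeff n f := by
      intro f
      rw [← map_ofNat (PowerSeries.C (R := ℂ)) 8, PowerSeries.coeff_C_mul]
    rw [map_add, h8, PowerSeries.coeff_mk, PowerSeries.coeff_one]
    by_cases h : 1 ≤ n
    · have hn0 : n ≠ 0 := by omega
      rw [dif_pos h, if_neg hn0, zero_add]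
      have := hab n h
      rw [ModularFormClass.qCoeff] at this
      rw [this]
      ring
    · have hn0 : n = 0 := by omega
      subst hn0
      rw [dif_neg h, if_pos rfl, mul_zero, add_zero]
      exact h0

end Fermat.Agent.S16.helper3076
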