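import Mathlib
import Fermat.Prelude.Thm_CongruenceSubgroup_one_mem_strictPeriods_Gamma0
import Fermat.Prelude.Def_FLTPrelim_Modularity

/-!
# The weight-2 Eisenstein series of level `N` (S16-EIS)

`eisFun N z = N * E2 (N z) - E2 z` is a modular form of weight 2 on `Γ₀(N)`; for a prime `p`,
`eisP p = (1/24) • eisFun p` has `q`-expansion `(p - 1)/24 + ∑_{k ≥ 1} σ'(k) q^k`, where `σ'(k)` is
the sum of the divisors of `k` prime to `p`.
-/

set_option autoImplicit false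

open UpperHalfPlane ModularForm Filter Topology EisensteinSeries
open scoped MatrixGroups Manifold Real

namespace Fermat.Agent.S16.helper3422

local notation "mGL" => Matrix.SpecialLinearGroup.mapGL ℝ

/-- `diag(d, 1)` in `GL(2, ℝ)`. -/
noncomputable def dg (d : ℕ) [NeZero d] : GL (Fin 2) ℝ :=
  Matrix.GeneralLinearGroup.mkOfDetNeZero !![(d : ℝ), 0; 0, 1]
    (by simpa [Matrix.det_fin_two] using NeZero.ne d)

@[simp] lemma dg_val (d : ℕ) [NeZero d] : (dg d).val = !![(d : ℝ), 0; 0, 1] := rfl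

lemma dg_det (d : ℕ) [NeZero d] : (dg d).det.val = d := by
  simp [Matrix.GeneralLinearGroup.val_det_apply, Matrix.det_fin_two]

lemma dg_det_pos (d : ℕ) [NeZero d] : 0 < (dg d).det.val := by
  rw [dg_det]
  exact_mod_cast Nat.pos_of_ne_zero (NeZero.ne d)

lemma dg_denom (d : ℕ) [NeZero d] (z : ℂ) : denom (dg d) z = 1 := by
  simp [denom]

lemma coe_dg_smul (d : ℕ) [NeZero d] (τ : ℍ) : ((dg d • τ : ℍ) : ℂ) = d * τ := by
  rw [coe_smul_of_det_pos (dg_det_pos d)]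
  simp [num, denom]

/-- The slash action of a matrix of positive determinant. -/
lemma slash_apply_of_det_pos (f : ℍ → ℂ) (k : ℤ) {g : GL (Fin 2) ℝ} (hg : 0 < g.det.val)
    (τ : ℍ) :
    (f ∣[k] g) τ = f (g • τ) * ((g.det.val : ℝ) : ℂ) ^ (k - 1) * denom g τ ^ (-k) := by
  rw [ModularForm.slash_apply]
  have hσ : σ g = ContinuousAlgEquiv.refl ℝ ℂ := by
    simp only [σ]
    rw [if_pos hg]
  rw [hσ, abs_of_pos hg]
  simp

lemma slash_dg (f : ℍ → ℂ) (d : ℕ) [NeZero d] (τ : ℍ) :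
    (f ∣[(2 : ℤ)] dg d) τ = (d : ℂ) * f (dg d • τ) := by
  rw [slash_apply_of_det_pos f 2 (dg_det_pos d), dg_det, dg_denom]
  simp [mul_comm]


lemma sigma_of_det_pos {g : GL (Fin 2) ℝ} (hg : 0 < g.det.val) (x : ℂ) : σ g x = x := by
  simp only [σ]
  rw [if_pos hg]
  rfl

lemma mGL_det_pos (γ : SL(2, ℤ)) : 0 < (mGL γ).det.val := by
  rw [Matrix.SpecialLinearGroup.det_mapGL]
  exact one_pos

lemma mGL_apply (γ : SL(2, ℤ)) (i j : Fin 2) : (mGL γ) i j = ((γ i j : ℤ) : ℝ) := by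
  show ((mGL γ : GL (Fin 2) ℝ) : Matrix (Fin 2) (Fin 2) ℝ) i j = _
  rw [Matrix.SpecialLinearGroup.mapGL_coe_matrix]
  simp

lemma denom_mGL (γ : SL(2, ℤ)) (z : ℂ) :
    denom (mGL γ) z = ((γ 1 0 : ℤ) : ℂ) * z + ((γ 1 1 : ℤ) : ℂ) := by
  simp [denom, mGL_apply]

lemma D2_apply (γ : SL(2, ℤ)) (z : ℍ) :
    D2 γ z = (2 * π * Complex.I * ((γ 1 0 : ℤ) : ℂ)) / denom (mGL γ) z := rfl

/-- Transformation of the defect `D2` under an upper triangular matrix. -/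
lemma D2_slash_upper {N : ℕ} [NeZero N] {γ β : SL(2, ℤ)} {M : GL (Fin 2) ℝ}
    (hdet : 0 < M.det.val) (hM : M 1 0 = 0) (h : dg N * mGL γ = mGL β * M) (z : ℍ) :
    (D2 β ∣[(2 : ℤ)] M) z = D2 γ z := by
  rw [slash_apply_of_det_pos _ 2 hdet, D2_apply, D2_apply]
  have h10 : ((β 1 0 : ℤ) : ℝ) * M 0 0 = ((γ 1 0 : ℤ) : ℝ) := by
    have h1 := congrArg (fun g : GL (Fin 2) ℝ => g 1 0) h
    simp only [Matrix.GeneralLinearGroup.coe_mul, Matrix.mul_apply, Fin.sum_univ_two, dg_val,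
      mGL_apply, hM] at h1
    simp at h1
    linarith
  have hden : denom (mGL β) ((M • z : ℍ) : ℂ) * denom M z = denom (mGL γ) z := by
    have h1 := denom_cocycle_σ (mGL β) M z
    have h2 := denom_cocycle_σ (dg N) (mGL γ) z
    rw [sigma_of_det_pos hdet] at h1
    rw [sigma_of_det_pos (mGL_det_pos γ), dg_denom, one_mul] at h2
    rw [← h1, ← h, h2]
  have hdetM : M.det.val = M 0 0 * M 1 1 := by
    rw [Matrix.GeneralLinearGroup.val_det_apply, Matrix.det_fin_two, hM]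
    ring
  have hM11 : M 1 1 ≠ 0 := by
    intro h0
    rw [hdetM, h0, mul_zero] at hdet
    exact lt_irrefl _ hdet
  have hdenM : denom M z = ((M 1 1 : ℝ) : ℂ) := by
    simp [denom, hM]
  have hγden : denom (mGL γ) z ≠ 0 := denom_ne_zero _ z
  have hβden : denom (mGL β) ((M • z : ℍ) : ℂ) ≠ 0 := denom_ne_zero _ _
  have hM11' : ((M 1 1 : ℝ) : ℂ) ≠ 0 := by exact_mod_cast hM11
  have h10' : ((β 1 0 : ℤ) : ℂ) * ((M 0 0 : ℝ) : ℂ) = ((γ 1 0 : ℤ) : ℂ) := by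
    exact_mod_cast h10
  rw [hdenM] at hden ⊢
  rw [hdetM, ← hden, ← h10']
  push_cast
  field_simp

/-- **Key identity.** If `diag(N,1) * γ = β * M` with `γ, β ∈ SL(2, ℤ)` and `M` upper triangular
of positive determinant, then `(E2 ∣ diag(N,1)) ∣ γ - E2 ∣ γ = E2 ∣ M - E2`: the non-modular
defect of `E2` cancels. -/
lemma E2_slash_dg_slash {N : ℕ} [NeZero N] {γ β : SL(2, ℤ)} {M : GL (Fin 2) ℝ}
    (hdet : 0 < M.det.val) (hM : M 1 0 = 0) (h : dg N * mGL γ = mGL β * M) :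
    (E2 ∣[(2 : ℤ)] dg N) ∣[(2 : ℤ)] γ - E2 ∣[(2 : ℤ)] γ = E2 ∣[(2 : ℤ)] M - E2 := by
  have e1 : (E2 ∣[(2 : ℤ)] dg N) ∣[(2 : ℤ)] γ = (E2 ∣[(2 : ℤ)] β) ∣[(2 : ℤ)] M := by
    have e2 : (E2 ∣[(2 : ℤ)] dg N) ∣[(2 : ℤ)] γ = (E2 ∣[(2 : ℤ)] dg N) ∣[(2 : ℤ)] (mGL γ) := rfl
    have e3 : (E2 ∣[(2 : ℤ)] β) ∣[(2 : ℤ)] M = (E2 ∣[(2 : ℤ)] (mGL β)) ∣[(2 : ℤ)] M := rfl
    rw [e2, e3, ← SlashAction.slash_mul, h, SlashAction.slash_mul]
  rw [e1]
  ext z
  have hβ : (E2 ∣[(2 : ℤ)] β) (M • z) =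
      E2 (M • z) - (1 / (2 * riemannZeta 2)) * D2 β (M • z) := by
    rw [E2_slash_action β]
    rfl
  have hγ : (E2 ∣[(2 : ℤ)] γ) z = E2 z - (1 / (2 * riemannZeta 2)) * D2 γ z := by
    rw [E2_slash_action γ]
    rfl
  have hD := D2_slash_upper hdet hM h z
  rw [slash_apply_of_det_pos _ 2 hdet] at hD
  simp only [Pi.sub_apply]
  rw [hγ, slash_apply_of_det_pos _ 2 hdet, slash_apply_of_det_pos _ 2 hdet, hβ, ← hD]
  ring

/-- Hermite form: for `γ ∈ SL(2, ℤ)`, `diag(N,1) * γ = β * M` with `β ∈ SL(2, ℤ)` and `M` upper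
triangular of positive determinant. -/
lemma exists_upper (N : ℕ) [NeZero N] (γ : SL(2, ℤ)) :
    ∃ (β : SL(2, ℤ)) (M : GL (Fin 2) ℝ), 0 < M.det.val ∧ M 1 0 = 0 ∧
      dg N * mGL γ = mGL β * M := by
  have hN : (N : ℤ) ≠ 0 := by exact_mod_cast NeZero.ne N
  have hdet : γ 0 0 * γ 1 1 - γ 0 1 * γ 1 0 = 1 := by
    have := γ.det_coe
    rw [Matrix.det_fin_two] at this
    exact this
  obtain ⟨a', ha'⟩ : ∃ a' : ℤ, a' = (N : ℤ) * γ 0 0 := ⟨_, rfl⟩
  obtain ⟨c, hc⟩ : ∃ c : ℤ, c = γ 1 0 := ⟨_, rfl⟩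
  obtain ⟨g, hg⟩ : ∃ g : ℤ, g = ((Int.gcd a' c : ℕ) : ℤ) := ⟨_, rfl⟩
  have hg0 : g ≠ 0 := by
    intro h0
    rw [hg] at h0
    have h0' : Int.gcd a' c = 0 := by exact_mod_cast h0
    rw [Int.gcd_eq_zero_iff] at h0'
    obtain ⟨h1, h2⟩ := h0'
    have h3 : γ 0 0 = 0 := by
      rw [ha'] at h1
      rcases mul_eq_zero.mp h1 with h | h
      · exact absurd h hN
      · exact h
    rw [h3, ← hc, h2] at hdet
    simp at hdet
  obtain ⟨a1, ha1⟩ : g ∣ a' := hg ▸ Int.gcd_dvd_left _ _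
  obtain ⟨c1, hc1⟩ : g ∣ c := hg ▸ Int.gcd_dvd_right _ _
  have hbez : g = a' * Int.gcdA a' c + c * Int.gcdB a' c := hg ▸ Int.gcd_eq_gcd_ab a' c
  obtain ⟨x, hx⟩ : ∃ x : ℤ, x = Int.gcdA a' c := ⟨_, rfl⟩
  obtain ⟨y, hy⟩ : ∃ y : ℤ, y = Int.gcdB a' c := ⟨_, rfl⟩
  rw [← hx, ← hy] at hbez
  have h1 : a1 * x + c1 * y = 1 := by
    have h2 : g * (a1 * x + c1 * y) = g * 1 := by
      calc g * (a1 * x + c1 * y) = (g * a1) * x + (g * c1) * y := by ring
        _ = a' * x + c * y := by rw [← ha1, ← hc1]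
        _ = g := hbez.symm
        _ = g * 1 := (mul_one g).symm
    exact mul_left_cancel₀ hg0 h2
  let β' : SL(2, ℤ) := ⟨!![x, y; -c1, a1], by rw [Matrix.det_fin_two_of]; linarith⟩
  refine ⟨β'⁻¹, mGL β' * (dg N * mGL γ), ?_, ?_, ?_⟩
  · rw [map_mul, map_mul, Matrix.SpecialLinearGroup.det_mapGL, Matrix.SpecialLinearGroup.det_mapGL,
      one_mul, mul_one, dg_det]
    exact_mod_cast Nat.pos_of_ne_zero (NeZero.ne N)
  · show ((mGL β' * (dg N * mGL γ) : GL (Fin 2) ℝ) : Matrix (Fin 2) (Fin 2) ℝ) 1 0 = 0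
    simp only [Matrix.GeneralLinearGroup.coe_mul, Matrix.mul_apply, Fin.sum_univ_two, dg_val]
    have e10 : (mGL β') 1 0 = ((-c1 : ℤ) : ℝ) := mGL_apply β' 1 0
    have e11 : (mGL β') 1 1 = ((a1 : ℤ) : ℝ) := mGL_apply β' 1 1
    have f00 : (mGL γ) 0 0 = ((γ 0 0 : ℤ) : ℝ) := mGL_apply γ 0 0
    have f10 : (mGL γ) 1 0 = ((γ 1 0 : ℤ) : ℝ) := mGL_apply γ 1 0
    simp only [Matrix.of_apply, Matrix.cons_val', Matrix.cons_val_zero, Matrix.cons_val_one,
      Matrix.cons_val_fin_one] at *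
    rw [e10, e11, f00, f10]
    have key : (-c1) * ((N : ℤ) * γ 0 0) + a1 * γ 1 0 = 0 := by
      rw [← ha', ← hc, ha1, hc1]
      ring
    have key' : (((-c1 : ℤ) : ℝ)) * ((N : ℝ) * ((γ 0 0 : ℤ) : ℝ)) + ((a1 : ℤ) : ℝ) * ((γ 1 0 : ℤ) : ℝ) = 0 := by
      exact_mod_cast key
    linarith
  · rw [map_inv, inv_mul_cancel_left]

/-- For `γ ∈ Γ₀(N)`, `diag(N,1) * γ = γ' * diag(N,1)` with `γ' ∈ SL(2, ℤ)`. -/
lemma dg_mul_Gamma0 (N : ℕ) [NeZero N] (γ : SL(2, ℤ))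
    (hγ : γ ∈ CongruenceSubgroup.Gamma0 N) :
    ∃ γ' : SL(2, ℤ), dg N * mGL γ = mGL γ' * dg N := by
  rw [CongruenceSubgroup.Gamma0_mem, ZMod.intCast_zmod_eq_zero_iff_dvd] at hγ
  obtain ⟨c₀, hc₀⟩ := hγ
  have hdet : γ 0 0 * γ 1 1 - γ 0 1 * γ 1 0 = 1 := by
    have := γ.det_coe
    rw [Matrix.det_fin_two] at this
    exact this
  obtain ⟨γ', h00, h01, h10, h11⟩ : ∃ γ' : SL(2, ℤ), γ' 0 0 = γ 0 0 ∧ γ' 0 1 = N * γ 0 1 ∧
      γ' 1 0 = c₀ ∧ γ' 1 1 = γ 1 1 :=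
    ⟨⟨!![γ 0 0, N * γ 0 1; c₀, γ 1 1], by rw [Matrix.det_fin_two_of]; rw [hc₀] at hdet; linarith⟩,
      rfl, rfl, rfl, rfl⟩
  refine ⟨γ', ?_⟩
  have hcR : ((γ 1 0 : ℤ) : ℝ) = N * c₀ := by exact_mod_cast hc₀
  apply Units.ext
  ext i j
  fin_cases i <;> fin_cases j <;>
    simp [Matrix.mul_apply, Fin.sum_univ_two, Matrix.SpecialLinearGroup.mapGL_coe_matrix,
      h00, h01, h10, h11]
  · ring
  · rw [hcR]; ring

/-- The function `z ↦ N * E2 (N z) - E2 z`. -/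
noncomputable def eisFun (N : ℕ) [NeZero N] : ℍ → ℂ := E2 ∣[(2 : ℤ)] dg N - E2

lemma eisFun_apply (N : ℕ) [NeZero N] (z : ℍ) :
    eisFun N z = (N : ℂ) * E2 (dg N • z) - E2 z := by
  simp [eisFun, slash_dg]

/-- Slash of `eisFun N` by an arbitrary element of `SL(2, ℤ)`. -/
lemma eisFun_slash {N : ℕ} [NeZero N] {γ β : SL(2, ℤ)} {M : GL (Fin 2) ℝ}
    (hdet : 0 < M.det.val) (hM : M 1 0 = 0) (h : dg N * mGL γ = mGL β * M) :
    eisFun N ∣[(2 : ℤ)] γ = E2 ∣[(2 : ℤ)] M - E2 := by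
  rw [eisFun, sub_eq_add_neg, SlashAction.add_slash, SlashAction.neg_slash, ← sub_eq_add_neg]
  exact E2_slash_dg_slash hdet hM h

lemma dg_one_zero (N : ℕ) [NeZero N] : (dg N) 1 0 = 0 := by
  show (dg N).val 1 0 = 0
  simp

/-- `N * E2 (N z) - E2 z` as a modular form of weight 2 on `Γ₀(N)`. -/
noncomputable def eisMF (N : ℕ) [NeZero N] : ModularForm (CongruenceSubgroup.Gamma0 N) 2 where
  toFun := eisFun N
  slash_action_eq' := by
    rintro g ⟨γ, hγ, rfl⟩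
    obtain ⟨γ', h⟩ := dg_mul_Gamma0 N γ hγ
    exact eisFun_slash (dg_det_pos N) (dg_one_zero N) h
  holo' := (E2_mdifferentiable.slash 2 (dg N)).sub E2_mdifferentiable
  bdd_at_cusps' := fun {c} hc => by
    have hc' : IsCusp c 𝒮ℒ := hc.mono (Subgroup.map_le_range _ _)
    rw [OnePoint.isBoundedAt_iff_forall_SL2Z hc']
    intro γ _
    obtain ⟨β, M, hdet, hM, h⟩ := exists_upper N γ
    rw [eisFun_slash hdet hM h]
    exact Asymptotics.IsBigO.sub (isBoundedAtImInfty_E2.slash 2 hM) isBoundedAtImInfty_E2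

@[simp] lemma eisMF_apply (N : ℕ) [NeZero N] (z : ℍ) :
    eisMF N z = (N : ℂ) * E2 (dg N • z) - E2 z := eisFun_apply N z

/-- The `q`-expansion coefficients of `eisMF N`: `N - 1` and `24 (σ(m) - N σ(m/N))`. -/
noncomputable def eisCoeff (N m : ℕ) : ℂ :=
  if m = 0 then (N : ℂ) - 1
  else 24 * ((ArithmeticFunction.sigma 1 m : ℂ) -
    (N : ℂ) * (if N ∣ m then (ArithmeticFunction.sigma 1 (m / N) : ℂ) else 0))

theorem hasSum_eisMF (N : ℕ) [NeZero N] (τ : ℍ) :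
    HasSum (fun m : ℕ => eisCoeff N m • Function.Periodic.qParam 1 (τ : ℂ) ^ m) (eisMF N τ) := by
  have hN0 : 0 < N := Nat.pos_of_ne_zero (NeZero.ne N)
  obtain ⟨q, hq⟩ : ∃ q : ℂ, q = Complex.exp (2 * π * Complex.I * (τ : ℂ)) := ⟨_, rfl⟩
  have hqp : Function.Periodic.qParam 1 (τ : ℂ) = q := by
    simp [Function.Periodic.qParam, hq]
  have hqN : Complex.exp (2 * π * Complex.I * ((dg N • τ : ℍ) : ℂ)) = q ^ N := by
    rw [coe_dg_smul, hq, ← Complex.exp_nat_mul]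
    congr 1
    ring
  obtain ⟨e, he⟩ : ∃ e : ℕ → ℂ, e = fun m : ℕ =>
      (if m = 0 then 1 else -24 * (ArithmeticFunction.sigma 1 m : ℂ) : ℂ) := ⟨_, rfl⟩
  have h1 : HasSum (fun m : ℕ => e m • q ^ m) (E2 τ) := by
    have := hasSum_qExpansion_E2 (z := τ)
    rw [← hq] at this
    rw [he]
    exact this
  have h0 : HasSum (fun m : ℕ => e m • (q ^ N) ^ m) (E2 (dg N • τ)) := by
    have := hasSum_qExpansion_E2 (z := dg N • τ)
    rw [hqN] at this
    rw [he]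
    exact this
  have h2 : HasSum (fun m : ℕ => (if N ∣ m then e (m / N) else 0) • q ^ m) (E2 (dg N • τ)) := by
    have hinj : Function.Injective (fun n : ℕ => N * n) := fun a b h =>
      Nat.eq_of_mul_eq_mul_left hN0 h
    rw [← hinj.hasSum_iff]
    · have hfun : ((fun m : ℕ => (if N ∣ m then e (m / N) else 0) • q ^ m) ∘
          fun n : ℕ => N * n) = fun n : ℕ => e n • (q ^ N) ^ n := by
        funext n
        simp only [Function.comp_apply, dvd_mul_right, if_true, Nat.mul_div_cancel_left n hN0,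
          pow_mul]
      rw [hfun]
      exact h0
    · intro x hx
      have hnd : ¬ N ∣ x := fun ⟨y, hy⟩ => hx ⟨y, hy.symm⟩
      simp [hnd]
  have h3 := (h2.mul_left (N : ℂ)).sub h1
  have h4 : (fun m : ℕ => eisCoeff N m • q ^ m) =
      fun b : ℕ => (N : ℂ) * ((if N ∣ b then e (b / N) else 0) • q ^ b) - e b • q ^ b := by
    funext m
    simp only [eisCoeff, he, smul_eq_mul]
    by_cases hm : m = 0
    · subst hm
      simp
    · by_cases hd : N ∣ m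
      · have hmN : m / N ≠ 0 := by
          obtain ⟨t, rfl⟩ := hd
          rw [Nat.mul_div_cancel_left t hN0]
          rintro rfl
          exact hm (mul_zero N)
        simp only [hm, hd, hmN, if_true, if_false]
        ring
      · simp only [hm, hd, if_false]
        ring
  rw [eisMF_apply, hqp, h4]
  exact h3

/-- The `q`-expansion of `eisMF N`. -/
theorem qExpansion_eisMF_coeff (N : ℕ) [NeZero N] (m : ℕ) :
    (qExpansion 1 (eisMF N)).coeff m = eisCoeff N m :=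
  (ModularFormClass.qExpansion_coeff_unique one_pos
    (CongruenceSubgroup.one_mem_strictPeriods_Gamma0 N) (hasSum_eisMF N) m).symm

theorem qCoeff_eisMF (N : ℕ) [NeZero N] (m : ℕ) :
    ModularFormClass.qCoeff (eisMF N) m = eisCoeff N m :=
  qExpansion_eisMF_coeff N m

/-! ### Prime level -/

/-- Sum of the divisors of `k` that are prime to `p`. -/
def sigmaP (p k : ℕ) : ℕ := ∑ d ∈ k.divisors with ¬ p ∣ d, d

lemma sum_divisors_filter_dvd {p m : ℕ} (hp : p.Prime) (hpm : p ∣ m) (hm : m ≠ 0) :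
    ∑ d ∈ m.divisors with p ∣ d, d = p * ∑ d ∈ (m / p).divisors, d := by
  rw [Finset.mul_sum]
  refine Finset.sum_nbij' (fun d => d / p) (fun d => p * d) ?_ ?_ ?_ ?_ ?_
  · intro d hd
    simp only [Finset.mem_filter, Nat.mem_divisors] at hd ⊢
    obtain ⟨⟨hdm, _⟩, hpd⟩ := hd
    refine ⟨?_, ?_⟩
    · obtain ⟨e, rfl⟩ := hpd
      rw [Nat.mul_div_cancel_left e hp.pos]
      exact Nat.dvd_div_of_mul_dvd hdm
    · obtain ⟨t, rfl⟩ := hpm
      rw [Nat.mul_div_cancel_left t hp.pos]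
      rintro rfl
      exact hm (mul_zero p)
  · intro d hd
    simp only [Finset.mem_filter, Nat.mem_divisors] at hd ⊢
    refine ⟨⟨?_, hm⟩, dvd_mul_right p d⟩
    obtain ⟨t, rfl⟩ := hpm
    rw [Nat.mul_div_cancel_left t hp.pos] at hd
    exact mul_dvd_mul_left p hd.1
  · intro d hd
    simp only [Finset.mem_filter] at hd
    exact Nat.mul_div_cancel' hd.2
  · intro d _
    exact Nat.mul_div_cancel_left d hp.pos
  · intro d hd
    simp only [Finset.mem_filter] at hd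
    exact (Nat.mul_div_cancel' hd.2).symm

/-- `σ(m) = σ'(m) + p σ(m/p)` for a prime `p` (the second term only if `p ∣ m`). -/
lemma sigma_one_eq_sigmaP {p m : ℕ} (hp : p.Prime) (hm : m ≠ 0) :
    ArithmeticFunction.sigma 1 m =
      sigmaP p m + p * (if p ∣ m then ArithmeticFunction.sigma 1 (m / p) else 0) := by
  rw [ArithmeticFunction.sigma_one_apply, sigmaP,
    ← Finset.sum_filter_not_add_sum_filter m.divisors (fun d => p ∣ d)]
  congr 1
  by_cases hpm : p ∣ m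
  · rw [if_pos hpm, ArithmeticFunction.sigma_one_apply, sum_divisors_filter_dvd hp hpm hm]
  · rw [if_neg hpm, mul_zero]
    apply Finset.sum_eq_zero
    intro d hd
    simp only [Finset.mem_filter, Nat.mem_divisors] at hd
    exact absurd (hd.2.trans hd.1.1) hpm

/-- The Eisenstein series `E = (p - 1)/24 + ∑_{k ≥ 1} σ'(k) q^k` of weight 2 on `Γ₀(p)`,
`E(z) = (p E2(p z) - E2(z)) / 24`. -/
noncomputable def eisP (p : ℕ) [NeZero p] : ModularForm (CongruenceSubgroup.Gamma0 p) 2 :=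
  (1 / 24 : ℂ) • eisMF p

lemma eisP_apply (p : ℕ) [NeZero p] (z : ℍ) :
    eisP p z = ((p : ℂ) * E2 (dg p • z) - E2 z) / 24 := by
  show (1 / 24 : ℂ) * eisMF p z = _
  rw [eisMF_apply]
  ring

/-- The coefficients of `eisP p`. -/
noncomputable def eisPCoeff (p m : ℕ) : ℂ :=
  if m = 0 then ((p : ℂ) - 1) / 24 else (sigmaP p m : ℂ)

lemma eisPCoeff_eq {p : ℕ} (hp : p.Prime) (m : ℕ) :
    eisPCoeff p m = (1 / 24 : ℂ) * eisCoeff p m := by
  unfold eisPCoeff eisCoeff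
  by_cases hm : m = 0
  · rw [if_pos hm, if_pos hm]
    ring
  · rw [if_neg hm, if_neg hm]
    have h := sigma_one_eq_sigmaP hp hm
    have hc : (ArithmeticFunction.sigma 1 m : ℂ) = (sigmaP p m : ℂ) +
        (p : ℂ) * (if p ∣ m then (ArithmeticFunction.sigma 1 (m / p) : ℂ) else 0) := by
      rw [h]
      by_cases hpm : p ∣ m
      · simp [hpm]
      · simp [hpm]
    rw [hc]
    ring

theorem hasSum_eisP {p : ℕ} [NeZero p] (hp : p.Prime) (τ : ℍ) :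
    HasSum (fun m : ℕ => eisPCoeff p m • Function.Periodic.qParam 1 (τ : ℂ) ^ m) (eisP p τ) := by
  have h := (hasSum_eisMF p τ).mul_left (1 / 24 : ℂ)
  have hfun : (fun m : ℕ => eisPCoeff p m • Function.Periodic.qParam 1 (τ : ℂ) ^ m) =
      fun m : ℕ => (1 / 24 : ℂ) * (eisCoeff p m • Function.Periodic.qParam 1 (τ : ℂ) ^ m) := by
    funext m
    rw [eisPCoeff_eq hp, smul_eq_mul, smul_eq_mul, mul_assoc]
  rw [hfun]
  exact h

/-- **`q`-expansion of the level-`p` Eisenstein series**: constant term `(p - 1)/24`, and the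
coefficient of `q^m` (`m ≥ 1`) is the sum of the divisors of `m` prime to `p`. -/
theorem qExpansion_eisP_coeff {p : ℕ} [NeZero p] (hp : p.Prime) (m : ℕ) :
    (qExpansion 1 (eisP p)).coeff m =
      if m = 0 then ((p : ℂ) - 1) / 24 else (sigmaP p m : ℂ) :=
  (ModularFormClass.qExpansion_coeff_unique one_pos
    (CongruenceSubgroup.one_mem_strictPeriods_Gamma0 p) (hasSum_eisP hp) m).symm

/-- The same statement for the Prelude's `ModularFormClass.qCoeff`. -/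
theorem qCoeff_eisP {p : ℕ} [NeZero p] (hp : p.Prime) (m : ℕ) :
    ModularFormClass.qCoeff (eisP p) m =
      if m = 0 then ((p : ℂ) - 1) / 24 else (sigmaP p m : ℂ) :=
  qExpansion_eisP_coeff hp m

theorem qCoeff_eisP_zero {p : ℕ} [NeZero p] (hp : p.Prime) :
    ModularFormClass.qCoeff (eisP p) 0 = ((p : ℂ) - 1) / 24 := by
  rw [qCoeff_eisP hp, if_pos rfl]

theorem qCoeff_eisP_pos {p : ℕ} [NeZero p] (hp : p.Prime) {m : ℕ} (hm : m ≠ 0) :
    ModularFormClass.qCoeff (eisP p) m = (sigmaP p m : ℂ) := by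
  rw [qCoeff_eisP hp, if_neg hm]

lemma sigmaP_one (p : ℕ) (hp : p.Prime) : sigmaP p 1 = 1 := by
  have h1 : ¬ p ∣ 1 := fun h => hp.one_lt.ne' (Nat.dvd_one.mp h)
  simp [sigmaP, Finset.filter_singleton, h1]

end Fermat.Agent.S16.helper3422
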