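/-
helper3855 — S16-CONJ (board #566).

Conjugates of a weight-2 form on `Γ₀(p)` under `SL(2,ℤ)`:
* explicit coset system `{1} ∪ {(S T^j)⁻¹ : j < p}` as an `Equiv` with the Mathlib quotient used by
  `ModularForm.trace` / `ModularForm.norm` (`cosetEquiv`, `sum_quotient_eq`, `prod_quotient_eq`,
  `card_quotient`);
* the Fricke operator `frickeForm` on `M₂(Γ₀(p))` and `W_p² = 1`;
* the slash identity `f ∣[2] (S T^j) = (f ∣[2] W_p) ∣[2] (1 j; 0 p)`;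
* trace to level one vanishes in weight 2, hence `F ∣[2] W_p = - U_p F`  (`slash_frickeGL_eq`);
* the conjugates: `F ∣[2] (S T^j) = - (U_p F) ∣[2] (1 j; 0 p)`, pointwise and as `q^(1/p)`-expansions.
-/
import Mathlib
import Fermat.Prelude.Def_ModularForm_HeckeOperatorForms
import Fermat.Prelude.Thm_ModularFormClass_qCoeff_heckeU
import Fermat.Prelude.Thm_CongruenceSubgroup_one_mem_strictPeriods_Gamma0

set_option autoImplicit false

noncomputable section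

namespace Fermat.Agent.S16.helper3855

open scoped MatrixGroups ModularForm Pointwise
open UpperHalfPlane ModularForm CongruenceSubgroup Matrix.SpecialLinearGroup

/-- The Fricke matrix `W_p = (0 -1; p 0)` in `GL(2,ℝ)` (junk value `1` for `p = 0`). -/
def frickeGL (p : ℕ) : GL (Fin 2) ℝ :=
  if hp : p = 0 then 1 else
    Matrix.GeneralLinearGroup.mkOfDetNeZero !![0, -1; (p : ℝ), 0]
      (by rw [Matrix.det_fin_two_of]; simpa using hp)

@[simp] theorem val_frickeGL {p : ℕ} (hp : p ≠ 0) :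
    ((frickeGL p : GL (Fin 2) ℝ) : Matrix (Fin 2) (Fin 2) ℝ) = !![0, -1; (p : ℝ), 0] := by
  simp [frickeGL, hp]

theorem det_frickeGL {p : ℕ} (hp : p ≠ 0) : ((frickeGL p).det : ℝ) = p := by
  rw [Matrix.GeneralLinearGroup.val_det_apply, val_frickeGL hp, Matrix.det_fin_two_of]
  ring

theorem det_frickeGL_pos {p : ℕ} (hp : p ≠ 0) : 0 < ((frickeGL p).det : ℝ) := by
  rw [det_frickeGL hp]; exact_mod_cast Nat.pos_of_ne_zero hp

theorem σ_frickeGL {p : ℕ} (hp : p ≠ 0) : UpperHalfPlane.σ (frickeGL p) = .refl ℝ ℂ := by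
  rw [UpperHalfPlane.σ, if_pos (det_frickeGL_pos hp)]

theorem denom_frickeGL {p : ℕ} (hp : p ≠ 0) (τ : ℍ) :
    UpperHalfPlane.denom (frickeGL p) τ = (p : ℂ) * τ := by
  simp [UpperHalfPlane.denom, val_frickeGL hp]

theorem coe_frickeGL_smul {p : ℕ} (hp : p ≠ 0) (τ : ℍ) :
    ((frickeGL p • τ : ℍ) : ℂ) = -1 / ((p : ℂ) * τ) := by
  rw [UpperHalfPlane.coe_smul_of_det_pos (det_frickeGL_pos hp)]
  simp [UpperHalfPlane.num, UpperHalfPlane.denom, val_frickeGL hp]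

theorem slash_frickeGL_apply {p : ℕ} (hp : p ≠ 0) (f : ℍ → ℂ) (τ : ℍ) :
    (f ∣[(2 : ℤ)] frickeGL p) τ = (p : ℂ) * f (frickeGL p • τ) * ((p : ℂ) * τ) ^ (-2 : ℤ) := by
  rw [ModularForm.slash_apply, σ_frickeGL hp, det_frickeGL hp, denom_frickeGL hp]
  simp only [ContinuousAlgEquiv.refl_apply, Nat.abs_cast, Complex.ofReal_natCast]
  rw [show (2 : ℤ) - 1 = 1 by norm_num, zpow_one]
  ring

/-- `S * T ^ j` as an element of `GL(2,ℝ)`. -/
def conjGL (j : ℕ) : GL (Fin 2) ℝ := mapGL ℝ (ModularGroup.S * ModularGroup.T ^ j)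

theorem coe_S_mul_T_pow (j : ℕ) :
    ((ModularGroup.S * ModularGroup.T ^ j : SL(2, ℤ)) : Matrix (Fin 2) (Fin 2) ℤ) =
      !![0, -1; 1, (j : ℤ)] := by
  have hT : ((ModularGroup.T ^ j : SL(2, ℤ)) : Matrix (Fin 2) (Fin 2) ℤ) = !![1, (j : ℤ); 0, 1] := by
    have := ModularGroup.coe_T_zpow (j : ℤ)
    rw [zpow_natCast] at this
    exact this
  rw [Matrix.SpecialLinearGroup.coe_mul, hT, ModularGroup.coe_S]
  ext a b
  fin_cases a <;> fin_cases b <;> simp [Matrix.mul_apply, Fin.sum_univ_two]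

theorem val_conjGL (j : ℕ) :
    ((conjGL j : GL (Fin 2) ℝ) : Matrix (Fin 2) (Fin 2) ℝ) = !![0, -1; 1, (j : ℝ)] := by
  rw [conjGL, Matrix.SpecialLinearGroup.mapGL_coe_matrix, Matrix.SpecialLinearGroup.map_apply_coe,
    coe_S_mul_T_pow]
  ext a b
  fin_cases a <;> fin_cases b <;> simp

theorem det_conjGL (j : ℕ) : ((conjGL j).det : ℝ) = 1 := by
  rw [Matrix.GeneralLinearGroup.val_det_apply, val_conjGL, Matrix.det_fin_two_of]
  ring

theorem det_conjGL_pos (j : ℕ) : 0 < ((conjGL j).det : ℝ) := by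
  rw [det_conjGL]; exact one_pos

theorem σ_conjGL (j : ℕ) : UpperHalfPlane.σ (conjGL j) = .refl ℝ ℂ := by
  rw [UpperHalfPlane.σ, if_pos (det_conjGL_pos j)]

theorem denom_conjGL (j : ℕ) (τ : ℍ) :
    UpperHalfPlane.denom (conjGL j) τ = (τ : ℂ) + j := by
  simp [UpperHalfPlane.denom, val_conjGL]

theorem coe_conjGL_smul (j : ℕ) (τ : ℍ) :
    ((conjGL j • τ : ℍ) : ℂ) = -1 / ((τ : ℂ) + j) := by
  rw [UpperHalfPlane.coe_smul_of_det_pos (det_conjGL_pos j)]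
  simp [UpperHalfPlane.num, UpperHalfPlane.denom, val_conjGL]

theorem slash_conjGL_apply (f : ℍ → ℂ) (j : ℕ) (τ : ℍ) :
    (f ∣[(2 : ℤ)] conjGL j) τ = f (conjGL j • τ) * ((τ : ℂ) + j) ^ (-2 : ℤ) := by
  rw [ModularForm.slash_apply, σ_conjGL, det_conjGL, denom_conjGL]
  simp

/-- The point identity `W_p • (heckeMatrix p j • τ) = (S T^j) • τ`. -/
theorem frickeGL_smul_heckeMatrix_smul {p : ℕ} (hp : p ≠ 0) (j : ℕ) (τ : ℍ) :
    frickeGL p • (heckeMatrix p j • τ) = conjGL j • τ := by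
  have hp' : (p : ℂ) ≠ 0 := by exact_mod_cast hp
  apply UpperHalfPlane.ext
  rw [coe_frickeGL_smul hp, coe_heckeMatrix_smul hp, coe_conjGL_smul]
  rw [mul_div_cancel₀ _ hp']

/-- **Key slash identity** (weight 2): the translate of `f` by `S T^j` is the translate of
`f ∣ W_p` by the `U_p`-matrix `(1 j; 0 p)`. -/
theorem slash_conjGL_eq {p : ℕ} (hp : p ≠ 0) (f : ℍ → ℂ) (j : ℕ) :
    f ∣[(2 : ℤ)] conjGL j = (f ∣[(2 : ℤ)] frickeGL p) ∣[(2 : ℤ)] heckeMatrix p j := by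
  have hp' : (p : ℂ) ≠ 0 := by exact_mod_cast hp
  ext τ
  rw [slash_conjGL_apply, slash_heckeMatrix_apply 2 hp, slash_frickeGL_apply hp,
    frickeGL_smul_heckeMatrix_smul hp, coe_heckeMatrix_smul hp, mul_div_cancel₀ _ hp']
  field_simp

/-- Sum over the `p` translates at the cusp `0` equals `U_p` of the Fricke translate. -/
theorem sum_slash_conjGL_eq {p : ℕ} (hp : p ≠ 0) (f : ℍ → ℂ) :
    ∑ j ∈ Finset.range p, f ∣[(2 : ℤ)] conjGL j = heckeU 2 p (f ∣[(2 : ℤ)] frickeGL p) := by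
  rw [heckeU_def]
  exact Finset.sum_congr rfl fun j _ => slash_conjGL_eq hp f j

theorem val_mapGL_apply (γ : SL(2, ℤ)) (i j : Fin 2) :
    ((mapGL ℝ γ : GL (Fin 2) ℝ) : Matrix (Fin 2) (Fin 2) ℝ) i j = ((γ i j : ℤ) : ℝ) := by
  rw [Matrix.SpecialLinearGroup.mapGL_coe_matrix, Matrix.SpecialLinearGroup.map_apply_coe]
  simp

/-- The Fricke-conjugate of an element of `Γ₀(p)`. -/
def frickeConj (p : ℕ) (γ : SL(2, ℤ)) (c' : ℤ) (hc : γ 1 0 = p * c') : SL(2, ℤ) :=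
  ⟨!![γ 1 1, -c'; -(p : ℤ) * γ 0 1, γ 0 0], by
    have hdet := Matrix.SpecialLinearGroup.det_coe γ
    rw [Matrix.det_fin_two] at hdet
    rw [Matrix.det_fin_two_of]
    rw [hc] at hdet
    linarith⟩

theorem frickeConj_mem (p : ℕ) (γ : SL(2, ℤ)) (c' : ℤ) (hc : γ 1 0 = p * c') :
    frickeConj p γ c' hc ∈ Gamma0 p := by
  rw [Gamma0_mem]
  simp [frickeConj]

theorem frickeGL_mul_mapGL {p : ℕ} (hp : p ≠ 0) (γ : SL(2, ℤ)) (c' : ℤ) (hc : γ 1 0 = p * c') :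
    frickeGL p * mapGL ℝ γ = mapGL ℝ (frickeConj p γ c' hc) * frickeGL p := by
  apply Matrix.GeneralLinearGroup.ext
  intro i j
  rw [Matrix.GeneralLinearGroup.coe_mul, Matrix.GeneralLinearGroup.coe_mul, val_frickeGL hp,
    Matrix.mul_apply, Matrix.mul_apply, Fin.sum_univ_two, Fin.sum_univ_two]
  simp only [val_mapGL_apply]
  have hc' : ((γ 1 0 : ℤ) : ℝ) = (p : ℝ) * (c' : ℝ) := by exact_mod_cast congrArg (Int.cast : ℤ → ℝ) hc
  fin_cases i <;> fin_cases j <;> simp [frickeConj, hc'] <;> ring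


theorem Gamma0_le_conj {p : ℕ} (hp : p ≠ 0) :
    ((Gamma0 p : Subgroup SL(2, ℤ)).map (mapGL ℝ)) ≤
      ConjAct.toConjAct (frickeGL p)⁻¹ • ((Gamma0 p : Subgroup SL(2, ℤ)).map (mapGL ℝ)) := by
  rintro x ⟨γ, hγ, rfl⟩
  rw [map_inv, Subgroup.mem_inv_pointwise_smul_iff, ConjAct.toConjAct_smul]
  have hγ' : γ ∈ Gamma0 p := hγ
  obtain ⟨c', hc⟩ : (p : ℤ) ∣ γ 1 0 := by
    rw [Gamma0_mem] at hγ'
    exact (ZMod.intCast_zmod_eq_zero_iff_dvd _ _).mp hγ'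
  rw [frickeGL_mul_mapGL hp γ c' hc, mul_inv_cancel_right]
  exact Subgroup.mem_map_of_mem _ (frickeConj_mem p γ c' hc)

/-- The Fricke involution `F ↦ F ∣[2] W_p` on `M₂(Γ₀(p))`. -/
def frickeForm {p : ℕ} (hp : p ≠ 0) (F : ModularForm (Gamma0 p) 2) : ModularForm (Gamma0 p) 2 where
  toFun := ⇑F ∣[(2 : ℤ)] frickeGL p
  slash_action_eq' γ hγ :=
    (ModularForm.translate F (frickeGL p)).slash_action_eq' γ (Gamma0_le_conj hp hγ)
  holo' := (ModularForm.translate F (frickeGL p)).holo'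
  bdd_at_cusps' hc :=
    (ModularForm.translate F (frickeGL p)).bdd_at_cusps' (hc.mono (Gamma0_le_conj hp))

@[simp] theorem coe_frickeForm {p : ℕ} (hp : p ≠ 0) (F : ModularForm (Gamma0 p) 2) :
    ⇑(frickeForm hp F) = ⇑F ∣[(2 : ℤ)] frickeGL p := rfl

theorem val_frickeGL_sq {p : ℕ} (hp : p ≠ 0) :
    ((frickeGL p * frickeGL p : GL (Fin 2) ℝ) : Matrix (Fin 2) (Fin 2) ℝ) =
      !![-(p : ℝ), 0; 0, -(p : ℝ)] := by
  rw [Matrix.GeneralLinearGroup.coe_mul, val_frickeGL hp]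
  ext i j
  fin_cases i <;> fin_cases j <;> simp [Matrix.mul_apply, Fin.sum_univ_two]

/-- `W_p ∘ W_p` acts trivially in weight 2. -/
theorem slash_frickeGL_frickeGL {p : ℕ} (hp : p ≠ 0) (f : ℍ → ℂ) :
    (f ∣[(2 : ℤ)] frickeGL p) ∣[(2 : ℤ)] frickeGL p = f := by
  have hp' : (p : ℂ) ≠ 0 := by exact_mod_cast hp
  have hpR : (p : ℝ) ≠ 0 := by exact_mod_cast hp
  rw [← SlashAction.slash_mul]
  have hdet : ((frickeGL p * frickeGL p).det : ℝ) = (p : ℝ) ^ 2 := by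
    rw [Matrix.GeneralLinearGroup.val_det_apply, val_frickeGL_sq hp, Matrix.det_fin_two_of]
    ring
  have hpos : 0 < ((frickeGL p * frickeGL p).det : ℝ) := by
    rw [hdet]; positivity
  ext τ
  have hsmul : (frickeGL p * frickeGL p) • τ = τ := by
    apply UpperHalfPlane.ext
    rw [UpperHalfPlane.coe_smul_of_det_pos hpos]
    simp only [UpperHalfPlane.num, UpperHalfPlane.denom, val_frickeGL_sq hp]
    simp
    field_simp
  rw [ModularForm.slash_apply, UpperHalfPlane.σ, if_pos hpos, hsmul, hdet]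
  simp only [UpperHalfPlane.denom, val_frickeGL_sq hp]
  simp
  field_simp

/-- coset representatives of `Γ₀(p)` in `SL(2,ℤ)` (as left cosets `g Γ₀(p)`). -/
def cosetRep (p : ℕ) : Option (Fin p) → SL(2, ℤ)
  | none => 1
  | some j => (ModularGroup.S * ModularGroup.T ^ (j : ℕ))⁻¹

/-- The quotient map `SL(2,ℤ) → 𝒮ℒ ⧸ Γ₀(p)`. -/
def toQuot (p : ℕ) (g : SL(2, ℤ)) :
    (𝒮ℒ : Subgroup (GL (Fin 2) ℝ)) ⧸
      (((Gamma0 p : Subgroup SL(2, ℤ)).map (mapGL ℝ)).subgroupOf 𝒮ℒ) :=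
  QuotientGroup.mk ((mapGL ℝ).rangeRestrict g)

theorem toQuot_eq_iff (p : ℕ) (g₁ g₂ : SL(2, ℤ)) :
    toQuot p g₁ = toQuot p g₂ ↔ g₁⁻¹ * g₂ ∈ Gamma0 p := by
  rw [toQuot, toQuot, QuotientGroup.eq, Subgroup.mem_subgroupOf]
  rw [← map_inv, ← map_mul, MonoidHom.coe_rangeRestrict]
  exact Subgroup.mem_map_iff_mem Matrix.SpecialLinearGroup.mapGL_injective

theorem toQuot_surjective (p : ℕ) : Function.Surjective (toQuot p) := by
  intro q
  induction q using QuotientGroup.induction_on with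
  | H h =>
    obtain ⟨g, hg⟩ := MonoidHom.rangeRestrict_surjective (mapGL ℝ (n := Fin 2) (R := ℤ)) h
    exact ⟨g, by rw [toQuot, hg]⟩

theorem S_mul_T_pow_mul_apply_one_zero (j : ℕ) (g : SL(2, ℤ)) :
    ((ModularGroup.S * ModularGroup.T ^ j * g : SL(2, ℤ)) : Matrix (Fin 2) (Fin 2) ℤ) 1 0 =
      g 0 0 + j * g 1 0 := by
  rw [Matrix.SpecialLinearGroup.coe_mul, coe_S_mul_T_pow, Matrix.mul_apply, Fin.sum_univ_two]
  simp

theorem cosetRep_injective (p : ℕ) [Fact p.Prime] :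
    Function.Injective (fun o => toQuot p (cosetRep p o)) := by
  have hp : p.Prime := Fact.out
  intro o₁ o₂ h
  rw [toQuot_eq_iff] at h
  rw [Gamma0_mem] at h
  rcases o₁ with _ | i <;> rcases o₂ with _ | j
  · rfl
  · exfalso
    simp only [cosetRep, inv_one, one_mul] at h
    have h2 : ((ModularGroup.S * ModularGroup.T ^ (j : ℕ))⁻¹ : SL(2, ℤ)) 1 0 = -1 := by
      rw [Matrix.SpecialLinearGroup.coe_inv, coe_S_mul_T_pow, Matrix.adjugate_fin_two_of]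
      simp
    rw [h2] at h
    simp at h
  · exfalso
    simp only [cosetRep, inv_inv, mul_one] at h
    rw [coe_S_mul_T_pow] at h
    simp at h
  · simp only [cosetRep, inv_inv] at h
    have h2 : ((ModularGroup.S * ModularGroup.T ^ (i : ℕ) *
        (ModularGroup.S * ModularGroup.T ^ (j : ℕ))⁻¹ : SL(2, ℤ)) : Matrix (Fin 2) (Fin 2) ℤ) 1 0 =
          (j : ℤ) - (i : ℤ) := by
      rw [S_mul_T_pow_mul_apply_one_zero, Matrix.SpecialLinearGroup.coe_inv, coe_S_mul_T_pow,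
        Matrix.adjugate_fin_two_of]
      simp
      ring
    rw [h2, ZMod.intCast_zmod_eq_zero_iff_dvd] at h
    have hij : (i : ℕ) = (j : ℕ) := by
      have h1 : ((i : ℕ) : ℤ) ≡ ((j : ℕ) : ℤ) [ZMOD (p : ℤ)] := by
        exact (Int.modEq_iff_dvd.mpr h)
      have := Nat.ModEq.eq_of_lt_of_lt (Int.natCast_modEq_iff.mp h1) i.2 j.2
      exact this
    exact congrArg some (Fin.ext hij)


theorem cosetRep_surjective (p : ℕ) [Fact p.Prime] :
    Function.Surjective (fun o => toQuot p (cosetRep p o)) := by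
  have hp : p.Prime := Fact.out
  intro q
  obtain ⟨g, rfl⟩ := toQuot_surjective p q
  by_cases hdiv : (p : ℤ) ∣ g 1 0
  · refine ⟨none, ?_⟩
    show toQuot p (cosetRep p none) = toQuot p g
    rw [toQuot_eq_iff, Gamma0_mem]
    simp only [cosetRep, inv_one, one_mul]
    exact (ZMod.intCast_zmod_eq_zero_iff_dvd _ _).mpr hdiv
  · have hne : ((g 1 0 : ℤ) : ZMod p) ≠ 0 := by
      rwa [Ne, ZMod.intCast_zmod_eq_zero_iff_dvd]
    let j : ZMod p := -((g 0 0 : ℤ) : ZMod p) * (((g 1 0 : ℤ) : ZMod p))⁻¹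
    refine ⟨some ⟨j.val, ZMod.val_lt j⟩, ?_⟩
    show toQuot p (cosetRep p (some ⟨j.val, ZMod.val_lt j⟩)) = toQuot p g
    rw [toQuot_eq_iff, Gamma0_mem]
    simp only [cosetRep, inv_inv]
    rw [S_mul_T_pow_mul_apply_one_zero]
    push_cast
    rw [ZMod.natCast_zmod_val]
    show ((g 0 0 : ℤ) : ZMod p) + (-((g 0 0 : ℤ) : ZMod p) * (((g 1 0 : ℤ) : ZMod p))⁻¹) *
      ((g 1 0 : ℤ) : ZMod p) = 0
    field_simp
    ring

/-- The explicit coset system `{1} ∪ {(S T^j)⁻¹ : j < p}` of `Γ₀(p)` in `SL(2,ℤ)`,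
as an equivalence with the Mathlib quotient used by `ModularForm.trace` / `ModularForm.norm`. -/
def cosetEquiv (p : ℕ) [Fact p.Prime] :
    Option (Fin p) ≃ ((𝒮ℒ : Subgroup (GL (Fin 2) ℝ)) ⧸
      (((Gamma0 p : Subgroup SL(2, ℤ)).map (mapGL ℝ)).subgroupOf 𝒮ℒ)) :=
  Equiv.ofBijective (fun o => toQuot p (cosetRep p o)) ⟨cosetRep_injective p, cosetRep_surjective p⟩

theorem cosetEquiv_apply (p : ℕ) [Fact p.Prime] (o : Option (Fin p)) :
    cosetEquiv p o = toQuot p (cosetRep p o) := rfl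

theorem quotientFunc_toQuot {p : ℕ} {k : ℤ} (F : ModularForm (Gamma0 p) k) (g : SL(2, ℤ)) :
    SlashInvariantForm.quotientFunc F (toQuot p g) = ⇑F ∣[k] (mapGL ℝ g⁻¹ : GL (Fin 2) ℝ) := by
  rw [toQuot]
  erw [SlashInvariantForm.quotientFunc_mk]
  rw [MonoidHom.coe_rangeRestrict, map_inv]

theorem quotientFunc_cosetEquiv_none {p : ℕ} [Fact p.Prime] {k : ℤ} (F : ModularForm (Gamma0 p) k) :
    SlashInvariantForm.quotientFunc F (cosetEquiv p none) = ⇑F := by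
  rw [cosetEquiv_apply, quotientFunc_toQuot]
  simp [cosetRep]

theorem quotientFunc_cosetEquiv_some {p : ℕ} [Fact p.Prime] {k : ℤ} (F : ModularForm (Gamma0 p) k)
    (j : Fin p) :
    SlashInvariantForm.quotientFunc F (cosetEquiv p (some j)) = ⇑F ∣[k] conjGL (j : ℕ) := by
  rw [cosetEquiv_apply, quotientFunc_toQuot]
  simp [cosetRep, conjGL]

/-- Any function on the coset space sums as `value at 1` + `sum over the S T^j`. -/
theorem sum_quotient_eq {p : ℕ} [Fact p.Prime] {M : Type*} [AddCommMonoid M]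
    [Fintype ((𝒮ℒ : Subgroup (GL (Fin 2) ℝ)) ⧸
      (((Gamma0 p : Subgroup SL(2, ℤ)).map (mapGL ℝ)).subgroupOf 𝒮ℒ))]
    (φ : ((𝒮ℒ : Subgroup (GL (Fin 2) ℝ)) ⧸
      (((Gamma0 p : Subgroup SL(2, ℤ)).map (mapGL ℝ)).subgroupOf 𝒮ℒ)) → M) :
    ∑ q, φ q = φ (cosetEquiv p none) + ∑ j : Fin p, φ (cosetEquiv p (some j)) := by
  rw [← (cosetEquiv p).sum_comp, Fintype.sum_option]

theorem prod_quotient_eq {p : ℕ} [Fact p.Prime] {M : Type*} [CommMonoid M]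
    [Fintype ((𝒮ℒ : Subgroup (GL (Fin 2) ℝ)) ⧸
      (((Gamma0 p : Subgroup SL(2, ℤ)).map (mapGL ℝ)).subgroupOf 𝒮ℒ))]
    (φ : ((𝒮ℒ : Subgroup (GL (Fin 2) ℝ)) ⧸
      (((Gamma0 p : Subgroup SL(2, ℤ)).map (mapGL ℝ)).subgroupOf 𝒮ℒ)) → M) :
    ∏ q, φ q = φ (cosetEquiv p none) * ∏ j : Fin p, φ (cosetEquiv p (some j)) := by
  rw [← (cosetEquiv p).prod_comp, Fintype.prod_option]

theorem card_quotient (p : ℕ) [Fact p.Prime] :
    Nat.card ((𝒮ℒ : Subgroup (GL (Fin 2) ℝ)) ⧸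
      (((Gamma0 p : Subgroup SL(2, ℤ)).map (mapGL ℝ)).subgroupOf 𝒮ℒ)) = p + 1 := by
  rw [← Nat.card_congr (cosetEquiv p)]
  simp


/-! ### Trace to level one and the relation `W_p = -U_p` -/

/-- The trace of a weight-2 form of level `Γ₀(p)` to level one vanishes:
`F + U_p (F ∣ W_p) = 0`. -/
theorem add_heckeU_slash_frickeGL_eq_zero {p : ℕ} [Fact p.Prime] (F : ModularForm (Gamma0 p) 2) :
    ⇑F + heckeU 2 p (⇑F ∣[(2 : ℤ)] frickeGL p) = 0 := by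
  have hp : p ≠ 0 := (Fact.out : p.Prime).ne_zero
  have : NeZero p := ⟨hp⟩
  have h0 : ModularForm.trace 𝒮ℒ F = 0 := by
    have : Subsingleton (ModularForm 𝒮ℒ 2) := rank_zero_iff.mp levelOne_weight_two_rank_zero
    exact Subsingleton.elim _ _
  have h1 : (⇑(ModularForm.trace 𝒮ℒ F) : ℍ → ℂ) = 0 := by rw [h0]; rfl
  rw [ModularForm.coe_trace] at h1
  let : Fintype ((𝒮ℒ : Subgroup (GL (Fin 2) ℝ)) ⧸
      (((Gamma0 p : Subgroup SL(2, ℤ)).map (mapGL ℝ)).subgroupOf 𝒮ℒ)) := Fintype.ofFinite _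
  rw [sum_quotient_eq (p := p), quotientFunc_cosetEquiv_none] at h1
  simp_rw [quotientFunc_cosetEquiv_some] at h1
  rw [Fin.sum_univ_eq_sum_range (fun j => ⇑F ∣[(2 : ℤ)] conjGL j) p, sum_slash_conjGL_eq hp] at h1
  exact h1

/-- **`W_p = -U_p` on `M₂(Γ₀(p))`.** -/
theorem slash_frickeGL_eq {p : ℕ} [Fact p.Prime] (F : ModularForm (Gamma0 p) 2) :
    ⇑F ∣[(2 : ℤ)] frickeGL p = -heckeU 2 p ⇑F := by
  have hp : p ≠ 0 := (Fact.out : p.Prime).ne_zero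
  have h := add_heckeU_slash_frickeGL_eq_zero (frickeForm hp F)
  rw [coe_frickeForm, slash_frickeGL_frickeGL hp] at h
  exact eq_neg_of_add_eq_zero_left h

/-- `U_p² = 1` on `M₂(Γ₀(p))`. -/
theorem heckeU_heckeU_eq {p : ℕ} [Fact p.Prime] (F : ModularForm (Gamma0 p) 2) :
    heckeU 2 p (heckeU 2 p ⇑F) = ⇑F := by
  have h := add_heckeU_slash_frickeGL_eq_zero F
  rw [slash_frickeGL_eq, heckeU_neg] at h
  exact (eq_of_sub_eq_zero (by rw [sub_eq_add_neg]; exact h)).symm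

/-- **Conjugates at the cusp `0`**: `F ∣[2] (S T^j) = -(U_p F) ∣[2] (1 j; 0 p)`. -/
theorem slash_conjGL_eq_neg_heckeU {p : ℕ} [Fact p.Prime] (F : ModularForm (Gamma0 p) 2) (j : ℕ) :
    ⇑F ∣[(2 : ℤ)] conjGL j = -(heckeU 2 p ⇑F ∣[(2 : ℤ)] heckeMatrix p j) := by
  have hp : p ≠ 0 := (Fact.out : p.Prime).ne_zero
  rw [slash_conjGL_eq hp, slash_frickeGL_eq, SlashAction.neg_slash]

/-- Pointwise form: `(F ∣[2] (S T^j))(τ) = -(1/p) (U_p F)((τ + j)/p)`. -/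
theorem slash_conjGL_apply_eq {p : ℕ} [Fact p.Prime] (F : ModularForm (Gamma0 p) 2) (j : ℕ)
    (τ : ℍ) :
    (⇑F ∣[(2 : ℤ)] conjGL j) τ = -((p : ℂ)⁻¹ * heckeU 2 p ⇑F (heckeMatrix p j • τ)) := by
  have hp : p ≠ 0 := (Fact.out : p.Prime).ne_zero
  rw [slash_conjGL_eq_neg_heckeU, Pi.neg_apply, slash_heckeMatrix_apply 2 hp]

end Fermat.Agent.S16.helper3855
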