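/-
helper3855 — S16 trace surface (consumed by the landed A1 "one-trace" files).

On top of `helper3855_Conj` (coset system, `W_p = -U_p`, `U_p² = 1` in weight 2):
* `coe_trace_eq`   : `trace 𝒮ℒ F = F + ∑_{j<p} F ∣[k] (S T^j)` for any weight;
* `upInvol`        : `Up p (Up p (qExpansion 1 G)) = qExpansion 1 G` for `G ∈ M₂(Γ₀(p))`;
* `traceFour`      : for `G H ∈ M₂(Γ₀(p))` there is `N ∈ M₄(SL₂(ℤ))` with
  `qExp N = qExp G * qExp H + p⁻¹ • Up p (Up p (qExp G) * Up p (qExp H))`,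
where `Up p A = PowerSeries.mk fun n => PowerSeries.coeff (p * n) A` is written out.
-/
import Mathlib
import Fermat.Agent.S16.helper3855_Conj

set_option autoImplicit false

noncomputable section

namespace Fermat.Agent.S16.helper3855

open scoped MatrixGroups ModularForm Pointwise
open UpperHalfPlane ModularForm CongruenceSubgroup Matrix.SpecialLinearGroup

/-- `a_n(U_p F) = a_{pn}(F)` for `F ∈ M_k(Γ₀(p))`. -/
theorem coeff_qExpansion_heckeU {p : ℕ} [Fact p.Prime] {k : ℤ} (F : ModularForm (Gamma0 p) k)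
    (n : ℕ) :
    PowerSeries.coeff n (qExpansion 1 (heckeU k p ⇑F)) =
      PowerSeries.coeff (p * n) (qExpansion 1 F) := by
  have hp : p ≠ 0 := (Fact.out : p.Prime).ne_zero
  have h := ModularFormClass.qCoeff_heckeU F (CongruenceSubgroup.one_mem_strictPeriods_Gamma0 p)
    hp n
  rw [mul_comm]
  exact h

theorem qExpansion_heckeU_eq {p : ℕ} [Fact p.Prime] {k : ℤ} (F : ModularForm (Gamma0 p) k) :
    qExpansion 1 (heckeU k p ⇑F) =
      PowerSeries.mk fun n => PowerSeries.coeff (p * n) (qExpansion 1 F) := by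
  ext n
  rw [coeff_qExpansion_heckeU, PowerSeries.coeff_mk]

/-- **`UpInvol`**: `U_p² = 1` on q-expansions of `M₂(Γ₀(p))`. -/
theorem upInvol (p : ℕ) [Fact p.Prime] (G : ModularForm (Gamma0 p) 2) :
    PowerSeries.mk (fun n => PowerSeries.coeff (p * n)
      (PowerSeries.mk fun n => PowerSeries.coeff (p * n) (qExpansion 1 G))) = qExpansion 1 G := by
  have hp : p ≠ 0 := (Fact.out : p.Prime).ne_zero
  have : NeZero p := ⟨hp⟩
  have h1 := qExpansion_heckeU_eq (ModularForm.heckeULin 2 (dvd_refl p) G)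
  rw [ModularForm.coe_heckeULin_apply, heckeU_heckeU_eq, qExpansion_heckeU_eq] at h1
  exact h1.symm

/-- Coefficient form of `upInvol`. -/
theorem coeff_mul_mul_qExpansion (p : ℕ) [Fact p.Prime] (G : ModularForm (Gamma0 p) 2) (n : ℕ) :
    PowerSeries.coeff (p * (p * n)) (qExpansion 1 G) = PowerSeries.coeff n (qExpansion 1 G) := by
  have h := congrArg (PowerSeries.coeff n) (upInvol p G)
  simpa [PowerSeries.coeff_mk] using h

/-- The trace to level one of a form on `Γ₀(p)` (any weight), over the explicit coset system. -/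
theorem coe_trace_eq {p : ℕ} [Fact p.Prime] {k : ℤ} (F : ModularForm (Gamma0 p) k) :
    (⇑(ModularForm.trace 𝒮ℒ F) : ℍ → ℂ) = ⇑F + ∑ j ∈ Finset.range p, ⇑F ∣[k] conjGL j := by
  have hp : p ≠ 0 := (Fact.out : p.Prime).ne_zero
  have : NeZero p := ⟨hp⟩
  rw [ModularForm.coe_trace]
  let : Fintype ((𝒮ℒ : Subgroup (GL (Fin 2) ℝ)) ⧸
      (((Gamma0 p : Subgroup SL(2, ℤ)).map (mapGL ℝ)).subgroupOf 𝒮ℒ)) := Fintype.ofFinite _
  rw [sum_quotient_eq (p := p), quotientFunc_cosetEquiv_none]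
  simp_rw [quotientFunc_cosetEquiv_some]
  rw [Fin.sum_univ_eq_sum_range (fun j => ⇑F ∣[k] conjGL j) p]

/-- **`TraceFour`**: the trace of `G * H` to level one, on q-expansions. -/
theorem traceFour (p : ℕ) [Fact p.Prime] (G H : ModularForm (Gamma0 p) 2) :
    ∃ N : ModularForm 𝒮ℒ 4, qExpansion 1 N = qExpansion 1 G * qExpansion 1 H +
      (p : ℂ)⁻¹ • PowerSeries.mk (fun n => PowerSeries.coeff (p * n)
        (PowerSeries.mk (fun n => PowerSeries.coeff (p * n) (qExpansion 1 G)) *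
          PowerSeries.mk (fun n => PowerSeries.coeff (p * n) (qExpansion 1 H)))) := by
  have hp : p ≠ 0 := (Fact.out : p.Prime).ne_zero
  have hp' : (p : ℂ) ≠ 0 := by exact_mod_cast hp
  have : NeZero p := ⟨hp⟩
  have hper := CongruenceSubgroup.one_mem_strictPeriods_Gamma0 p
  let UG := ModularForm.heckeULin 2 (dvd_refl p) G
  let UH := ModularForm.heckeULin 2 (dvd_refl p) H
  let K : ModularForm (Gamma0 p) (2 + 2) := UG.mul UH
  let UK := ModularForm.heckeULin (2 + 2) (dvd_refl p) K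
  refine ⟨ModularForm.mcast (by norm_num) (ModularForm.trace 𝒮ℒ (G.mul H)), ?_⟩
  have key : (⇑(ModularForm.trace 𝒮ℒ (G.mul H)) : ℍ → ℂ) =
      ⇑(G.mul H) + ⇑((p : ℂ)⁻¹ • UK) := by
    rw [coe_trace_eq]
    congr 1
    ext τ
    rw [Finset.sum_apply, FunLike.coe_smul, Pi.smul_apply,
      ModularForm.coe_heckeULin_apply, heckeU_apply (2 + 2) hp, smul_eq_mul, Finset.mul_sum,
      Finset.mul_sum]
    refine Finset.sum_congr rfl fun j _ => ?_
    rw [ModularForm.coe_mul]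
    have h1 : (⇑G * ⇑H) ∣[(2 + 2 : ℤ)] conjGL j =
        (⇑G ∣[(2 : ℤ)] conjGL j) * (⇑H ∣[(2 : ℤ)] conjGL j) :=
      ModularForm.mul_slash_SL2 2 2 (ModularGroup.S * ModularGroup.T ^ j) ⇑G ⇑H
    rw [h1, Pi.mul_apply, slash_conjGL_apply_eq, slash_conjGL_apply_eq]
    show _ = (p : ℂ)⁻¹ * ((p : ℂ)⁻¹ * (heckeU 2 p ⇑G (heckeMatrix p j • τ) *
      heckeU 2 p ⇑H (heckeMatrix p j • τ)))
    ring
  have hq : qExpansion 1 (ModularForm.mcast (by norm_num : (2 : ℤ) + 2 = 4)
      (ModularForm.trace 𝒮ℒ (G.mul H))) = qExpansion 1 (⇑(G.mul H) + ⇑((p : ℂ)⁻¹ • UK)) := by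
    rw [ModularForm.qExpansion_mcast, key]
  have h3 : qExpansion 1 ⇑((p : ℂ)⁻¹ • UK) = (p : ℂ)⁻¹ • qExpansion 1 ⇑UK := by
    rw [FunLike.coe_smul]
    exact ModularForm.qExpansion_smul one_pos hper _ UK
  have h4 : qExpansion 1 ⇑UK = PowerSeries.mk (fun n => PowerSeries.coeff (p * n)
        (PowerSeries.mk (fun n => PowerSeries.coeff (p * n) (qExpansion 1 G)) *
          PowerSeries.mk (fun n => PowerSeries.coeff (p * n) (qExpansion 1 H)))) := by
    show qExpansion 1 (heckeU (2 + 2) p ⇑K) = _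
    rw [qExpansion_heckeU_eq]
    have h5 : qExpansion 1 ⇑K = qExpansion 1 ⇑UG * qExpansion 1 ⇑UH :=
      ModularForm.qExpansion_mul one_pos hper UG UH
    have h6 : qExpansion 1 ⇑UG = PowerSeries.mk (fun n => PowerSeries.coeff (p * n)
        (qExpansion 1 G)) := qExpansion_heckeU_eq G
    have h7 : qExpansion 1 ⇑UH = PowerSeries.mk (fun n => PowerSeries.coeff (p * n)
        (qExpansion 1 H)) := qExpansion_heckeU_eq H
    rw [h5, h6, h7]
  rw [hq, ModularForm.qExpansion_add one_pos hper (G.mul H) ((p : ℂ)⁻¹ • UK),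
    ModularForm.qExpansion_mul one_pos hper, h3, h4]

end Fermat.Agent.S16.helper3855
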