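/-
helper3855 — S16: the two-cusp calculus on `M_k(Γ₀(p))` (general weight), NORM-free.

For `X ∈ M_k(Γ₀(p))` put `X♯(z) := (X ∣_k S)(p z) = p^(1-k) • (X ∣[k] W_p)(z)` (`sharp X`).  Then
* `sharp` is additive, `ℂ`-linear and multiplicative, `sharp (sharp X) = ((-p)^k)⁻¹ • X`;
* for `E` of level one, `sharp E = E(p z)`, with q-expansion `PowerSeries.expand p _ (qExp E)`;
* in weight 2, `qExp (sharp G) = -p⁻¹ • U_p (qExp G)`;
* `qExp (trace X) = qExp X + p • U_p (qExp (sharp X))` where `trace X ∈ M_k(SL₂(ℤ))`.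

`TwoCusp p k A B` is the Prop "some `X ∈ M_k(Γ₀(p))` has `qExp X = A` and `qExp X♯ = B`", with the
closure rules `add / smul / neg / sub / mul / pow / swap / levelOne / wt2 / trace`.
-/
import Mathlib
import Fermat.Agent.S16.helper3855_TraceFour

set_option autoImplicit false

noncomputable section

namespace Fermat.Agent.S16.helper3855

open scoped MatrixGroups ModularForm Pointwise
open UpperHalfPlane ModularForm CongruenceSubgroup Matrix.SpecialLinearGroup

/-! ### The Fricke operator in general weight -/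

theorem slash_frickeGL_apply_weight {p : ℕ} (hp : p ≠ 0) (k : ℤ) (f : ℍ → ℂ) (τ : ℍ) :
    (f ∣[k] frickeGL p) τ =
      (p : ℂ) ^ (k - 1) * f (frickeGL p • τ) * ((p : ℂ) * τ) ^ (-k) := by
  rw [ModularForm.slash_apply, σ_frickeGL hp, det_frickeGL hp, denom_frickeGL hp]
  simp only [ContinuousAlgEquiv.refl_apply, Nat.abs_cast, Complex.ofReal_natCast]
  ring

/-- The Fricke operator `F ↦ F ∣[k] W_p` on `M_k(Γ₀(p))`. -/
def frickeFormK {p : ℕ} (hp : p ≠ 0) {k : ℤ} (F : ModularForm (Gamma0 p) k) :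
    ModularForm (Gamma0 p) k where
  toFun := ⇑F ∣[k] frickeGL p
  slash_action_eq' γ hγ :=
    (ModularForm.translate F (frickeGL p)).slash_action_eq' γ (Gamma0_le_conj hp hγ)
  holo' := (ModularForm.translate F (frickeGL p)).holo'
  bdd_at_cusps' hc :=
    (ModularForm.translate F (frickeGL p)).bdd_at_cusps' (hc.mono (Gamma0_le_conj hp))

@[simp] theorem coe_frickeFormK {p : ℕ} (hp : p ≠ 0) {k : ℤ} (F : ModularForm (Gamma0 p) k) :
    ⇑(frickeFormK hp F) = ⇑F ∣[k] frickeGL p := rfl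

/-- `X♯ := p^(1-k) • (X ∣[k] W_p)`, i.e. `X♯(z) = (X ∣_k S)(p z)`. -/
def sharp {p : ℕ} [Fact p.Prime] {k : ℤ} (F : ModularForm (Gamma0 p) k) :
    ModularForm (Gamma0 p) k :=
  (p : ℂ) ^ (1 - k) • frickeFormK (Fact.out : p.Prime).ne_zero F

theorem coe_sharp {p : ℕ} [Fact p.Prime] {k : ℤ} (F : ModularForm (Gamma0 p) k) :
    ⇑(sharp F) = (p : ℂ) ^ (1 - k) • (⇑F ∣[k] frickeGL p) := rfl

theorem sharp_apply {p : ℕ} [Fact p.Prime] {k : ℤ} (F : ModularForm (Gamma0 p) k) (τ : ℍ) :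
    sharp F τ = F (frickeGL p • τ) * ((p : ℂ) * τ) ^ (-k) := by
  have hp : p ≠ 0 := (Fact.out : p.Prime).ne_zero
  have hp' : (p : ℂ) ≠ 0 := by exact_mod_cast hp
  rw [coe_sharp, Pi.smul_apply, slash_frickeGL_apply_weight hp, smul_eq_mul, ← mul_assoc,
    ← mul_assoc, ← zpow_add₀ hp']
  simp

theorem natCast_mul_coe_ne_zero {p : ℕ} (hp : p ≠ 0) (τ : ℍ) : (p : ℂ) * (τ : ℂ) ≠ 0 :=
  mul_ne_zero (by exact_mod_cast hp) τ.ne_zero

theorem sharp_add {p : ℕ} [Fact p.Prime] {k : ℤ} (F G : ModularForm (Gamma0 p) k) :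
    sharp (F + G) = sharp F + sharp G := by
  ext τ
  show sharp (F + G) τ = sharp F τ + sharp G τ
  rw [sharp_apply, sharp_apply, sharp_apply]
  show (F (frickeGL p • τ) + G (frickeGL p • τ)) * _ = _
  ring

theorem sharp_smul {p : ℕ} [Fact p.Prime] {k : ℤ} (c : ℂ) (F : ModularForm (Gamma0 p) k) :
    sharp (c • F) = c • sharp F := by
  ext τ
  show sharp (c • F) τ = c * sharp F τ
  rw [sharp_apply, sharp_apply]
  show (c * F (frickeGL p • τ)) * _ = _
  ring

theorem sharp_neg {p : ℕ} [Fact p.Prime] {k : ℤ} (F : ModularForm (Gamma0 p) k) :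
    sharp (-F) = -sharp F := by
  ext τ
  show sharp (-F) τ = -sharp F τ
  rw [sharp_apply, sharp_apply]
  show (-F (frickeGL p • τ)) * _ = _
  ring

theorem sharp_mul {p : ℕ} [Fact p.Prime] {k l : ℤ} (F : ModularForm (Gamma0 p) k)
    (G : ModularForm (Gamma0 p) l) : sharp (F.mul G) = (sharp F).mul (sharp G) := by
  have hp : p ≠ 0 := (Fact.out : p.Prime).ne_zero
  ext τ
  show sharp (F.mul G) τ = sharp F τ * sharp G τ
  rw [sharp_apply, sharp_apply, sharp_apply, neg_add,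
    zpow_add₀ (natCast_mul_coe_ne_zero hp τ)]
  show (F (frickeGL p • τ) * G (frickeGL p • τ)) * _ = _
  ring

theorem frickeGL_smul_frickeGL_smul {p : ℕ} (hp : p ≠ 0) (τ : ℍ) :
    frickeGL p • (frickeGL p • τ) = τ := by
  have hp' : (p : ℂ) ≠ 0 := by exact_mod_cast hp
  apply UpperHalfPlane.ext
  rw [coe_frickeGL_smul hp, coe_frickeGL_smul hp]
  have := τ.ne_zero
  field_simp

/-- `sharp ∘ sharp = (-p)^(-k)`. -/
theorem sharp_sharp {p : ℕ} [Fact p.Prime] {k : ℤ} (F : ModularForm (Gamma0 p) k) :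
    sharp (sharp F) = ((-(p : ℂ)) ^ k)⁻¹ • F := by
  have hp : p ≠ 0 := (Fact.out : p.Prime).ne_zero
  have hp' : (p : ℂ) ≠ 0 := by exact_mod_cast hp
  ext τ
  show sharp (sharp F) τ = ((-(p : ℂ)) ^ k)⁻¹ * F τ
  rw [sharp_apply, sharp_apply, frickeGL_smul_frickeGL_smul hp, coe_frickeGL_smul hp, mul_assoc,
    ← mul_zpow, zpow_neg]
  have h1 : (p : ℂ) * (-1 / ((p : ℂ) * (τ : ℂ))) * ((p : ℂ) * (τ : ℂ)) = -(p : ℂ) := by
    have := τ.ne_zero
    field_simp
  rw [h1, mul_comm]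

/-! ### Level-one forms: `E♯(z) = E(p z)` -/

/-- Restriction of a level-one form to `Γ₀(p)`. -/
def restrictForm (p : ℕ) {k : ℤ} (E : ModularForm 𝒮ℒ k) : ModularForm (Gamma0 p) k where
  toFun := ⇑E
  slash_action_eq' γ hγ := E.slash_action_eq' γ (Subgroup.map_le_range _ _ hγ)
  holo' := E.holo'
  bdd_at_cusps' hc := E.bdd_at_cusps' (hc.mono (Subgroup.map_le_range _ _))

@[simp] theorem coe_restrictForm (p : ℕ) {k : ℤ} (E : ModularForm 𝒮ℒ k) :
    ⇑(restrictForm p E) = ⇑E := rfl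

theorem frickeGL_eq_S_mul_diag {p : ℕ} (hp : p ≠ 0) :
    frickeGL p = mapGL ℝ ModularGroup.S * heckeDiagMatrix p := by
  apply Matrix.GeneralLinearGroup.ext
  intro i j
  rw [Matrix.GeneralLinearGroup.coe_mul, val_frickeGL hp, val_heckeDiagMatrix hp,
    Matrix.mul_apply, Fin.sum_univ_two]
  simp only [val_mapGL_apply]
  fin_cases i <;> fin_cases j <;> simp [ModularGroup.S]

theorem sharp_restrictForm_apply {p : ℕ} [Fact p.Prime] {k : ℤ} (E : ModularForm 𝒮ℒ k) (τ : ℍ) :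
    sharp (restrictForm p E) τ = E (heckeDiagMatrix p • τ) := by
  have hp : p ≠ 0 := (Fact.out : p.Prime).ne_zero
  have hp' : (p : ℂ) ≠ 0 := by exact_mod_cast hp
  have hS : ⇑E ∣[k] (mapGL ℝ ModularGroup.S : GL (Fin 2) ℝ) = ⇑E :=
    E.slash_action_eq' _ ⟨ModularGroup.S, rfl⟩
  rw [coe_sharp, Pi.smul_apply, coe_restrictForm, frickeGL_eq_S_mul_diag hp,
    SlashAction.slash_mul, hS, slash_heckeDiagMatrix_apply k hp, smul_eq_mul, ← mul_assoc,
    ← zpow_add₀ hp']
  simp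

theorem qParam_heckeDiagMatrix_smul {p : ℕ} (hp : p ≠ 0) (τ : ℍ) :
    Function.Periodic.qParam 1 ((heckeDiagMatrix p • τ : ℍ) : ℂ) =
      Function.Periodic.qParam 1 (τ : ℂ) ^ p := by
  rw [coe_heckeDiagMatrix_smul hp, Function.Periodic.qParam, Function.Periodic.qParam,
    ← Complex.exp_nat_mul]
  congr 1
  push_cast
  ring

/-- The q-expansion of `E(p z)` is `expand p` of the q-expansion of `E`. -/
theorem qExpansion_sharp_restrictForm {p : ℕ} [Fact p.Prime] {k : ℤ} (E : ModularForm 𝒮ℒ k) :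
    qExpansion 1 (sharp (restrictForm p E)) =
      PowerSeries.expand p (Fact.out : p.Prime).ne_zero (qExpansion 1 E) := by
  have hp : p ≠ 0 := (Fact.out : p.Prime).ne_zero
  have hper := CongruenceSubgroup.one_mem_strictPeriods_Gamma0 p
  ext m
  symm
  refine ModularFormClass.qExpansion_coeff_unique
    (c := fun m => PowerSeries.coeff m (PowerSeries.expand p hp (qExpansion 1 E))) one_pos hper
    (f := sharp (restrictForm p E)) (fun τ => ?_) m
  rw [sharp_restrictForm_apply]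
  have h1 := ModularForm.hasSum_qExpansion (f := E) one_pos one_mem_strictPeriods_SL
    (heckeDiagMatrix p • τ)
  rw [qParam_heckeDiagMatrix_smul hp] at h1
  have hinj : Function.Injective (fun n : ℕ => p * n) :=
    mul_right_injective₀ hp
  refine (hinj.hasSum_iff ?_).mp ?_
  · intro m hm
    have hnd : ¬ p ∣ m := fun ⟨n, hn⟩ => hm ⟨n, hn.symm⟩
    simp [PowerSeries.coeff_expand_of_not_dvd p hp _ hnd]
  · convert h1 using 1
    ext n
    simp [Function.comp, PowerSeries.coeff_expand_mul, pow_mul]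

/-! ### Trace to level one in general weight -/

theorem slash_conjGL_apply_weight (k : ℤ) (f : ℍ → ℂ) (j : ℕ) (τ : ℍ) :
    (f ∣[k] conjGL j) τ = f (conjGL j • τ) * ((τ : ℂ) + j) ^ (-k) := by
  rw [ModularForm.slash_apply, σ_conjGL, det_conjGL, denom_conjGL]
  simp

/-- The conjugate of `F` by `S T^j` is `F♯((z + j)/p)`. -/
theorem slash_conjGL_eq_sharp {p : ℕ} [Fact p.Prime] {k : ℤ} (F : ModularForm (Gamma0 p) k)
    (j : ℕ) (τ : ℍ) : (⇑F ∣[k] conjGL j) τ = sharp F (heckeMatrix p j • τ) := by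
  have hp : p ≠ 0 := (Fact.out : p.Prime).ne_zero
  have hp' : (p : ℂ) ≠ 0 := by exact_mod_cast hp
  rw [slash_conjGL_apply_weight, sharp_apply, frickeGL_smul_heckeMatrix_smul hp,
    coe_heckeMatrix_smul hp, mul_div_cancel₀ _ hp']

/-- `trace X = X + p • U_p (X♯)` as functions, in any weight. -/
theorem coe_trace_eq_sharp {p : ℕ} [Fact p.Prime] {k : ℤ} (F : ModularForm (Gamma0 p) k) :
    (⇑(ModularForm.trace 𝒮ℒ F) : ℍ → ℂ) = ⇑F + (p : ℂ) • heckeU k p ⇑(sharp F) := by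
  have hp : p ≠ 0 := (Fact.out : p.Prime).ne_zero
  have hp' : (p : ℂ) ≠ 0 := by exact_mod_cast hp
  rw [coe_trace_eq]
  congr 1
  ext τ
  rw [Finset.sum_apply, Pi.smul_apply, heckeU_apply k hp, smul_eq_mul, ← mul_assoc,
    mul_inv_cancel₀ hp', one_mul]
  exact Finset.sum_congr rfl fun j _ => slash_conjGL_eq_sharp F j τ

/-- `qExp (trace X) = qExp X + p • U_p (qExp X♯)`, in any weight. -/
theorem qExpansion_trace_eq {p : ℕ} [Fact p.Prime] {k : ℤ} (F : ModularForm (Gamma0 p) k) :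
    qExpansion 1 (ModularForm.trace 𝒮ℒ F) = qExpansion 1 F +
      (p : ℂ) • PowerSeries.mk (fun n => PowerSeries.coeff (p * n) (qExpansion 1 (sharp F))) := by
  have hp : p ≠ 0 := (Fact.out : p.Prime).ne_zero
  have : NeZero p := ⟨hp⟩
  have hper := CongruenceSubgroup.one_mem_strictPeriods_Gamma0 p
  let US := ModularForm.heckeULin k (dvd_refl p) (sharp F)
  have key : (⇑(ModularForm.trace 𝒮ℒ F) : ℍ → ℂ) = ⇑F + ⇑((p : ℂ) • US) := by
    rw [coe_trace_eq_sharp]; rfl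
  have h3 : qExpansion 1 ⇑((p : ℂ) • US) = (p : ℂ) • qExpansion 1 ⇑US := by
    rw [FunLike.coe_smul]
    exact ModularForm.qExpansion_smul one_pos hper _ US
  have h4 : qExpansion 1 ⇑US = PowerSeries.mk (fun n => PowerSeries.coeff (p * n)
      (qExpansion 1 (sharp F))) := qExpansion_heckeU_eq (sharp F)
  rw [key, ModularForm.qExpansion_add one_pos hper F ((p : ℂ) • US), h3, h4]

/-! ### Weight 2: `G♯ = -p⁻¹ • U_p G` -/

theorem coe_sharp_two {p : ℕ} [Fact p.Prime] (G : ModularForm (Gamma0 p) 2) :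
    ⇑(sharp G) = -((p : ℂ)⁻¹ • heckeU 2 p ⇑G) := by
  rw [coe_sharp, slash_frickeGL_eq, smul_neg]
  norm_num

theorem qExpansion_sharp_two {p : ℕ} [Fact p.Prime] (G : ModularForm (Gamma0 p) 2) :
    qExpansion 1 (sharp G) = -((p : ℂ)⁻¹ •
      PowerSeries.mk (fun n => PowerSeries.coeff (p * n) (qExpansion 1 G))) := by
  have hp : p ≠ 0 := (Fact.out : p.Prime).ne_zero
  have : NeZero p := ⟨hp⟩
  have hper := CongruenceSubgroup.one_mem_strictPeriods_Gamma0 p
  let UG := ModularForm.heckeULin 2 (dvd_refl p) G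
  have key : (⇑(sharp G) : ℍ → ℂ) = -⇑((p : ℂ)⁻¹ • UG) := by
    rw [coe_sharp_two]; rfl
  have h3 : qExpansion 1 ⇑((p : ℂ)⁻¹ • UG) = (p : ℂ)⁻¹ • qExpansion 1 ⇑UG := by
    rw [FunLike.coe_smul]
    exact ModularForm.qExpansion_smul one_pos hper _ UG
  have h4 : qExpansion 1 ⇑UG = PowerSeries.mk (fun n => PowerSeries.coeff (p * n)
      (qExpansion 1 G)) := qExpansion_heckeU_eq G
  rw [key, ModularForm.qExpansion_neg one_pos hper ((p : ℂ)⁻¹ • UG), h3, h4]

/-! ### The two-cusp calculus -/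

/-- `TwoCusp p k A B`: some `X ∈ M_k(Γ₀(p))` has q-expansion `A` and `X♯` has q-expansion `B`,
where `X♯(z) = (X ∣_k S)(p z)`. -/
def TwoCusp (p : ℕ) [Fact p.Prime] (k : ℤ) (A B : PowerSeries ℂ) : Prop :=
  ∃ X : ModularForm (Gamma0 p) k, qExpansion 1 X = A ∧ qExpansion 1 (sharp X) = B

namespace TwoCusp

variable {p : ℕ} [Fact p.Prime] {k l : ℤ} {A B C D : PowerSeries ℂ}

theorem of_form (X : ModularForm (Gamma0 p) k) :
    TwoCusp p k (qExpansion 1 X) (qExpansion 1 (sharp X)) := ⟨X, rfl, rfl⟩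

theorem cast (h : TwoCusp p k A B) (hkl : k = l) : TwoCusp p l A B := hkl ▸ h

theorem congr (h : TwoCusp p k A B) (hA : A = C) (hB : B = D) : TwoCusp p k C D := hA ▸ hB ▸ h

theorem add (h₁ : TwoCusp p k A B) (h₂ : TwoCusp p k C D) : TwoCusp p k (A + C) (B + D) := by
  obtain ⟨X, rfl, rfl⟩ := h₁
  obtain ⟨Y, rfl, rfl⟩ := h₂
  have hper := CongruenceSubgroup.one_mem_strictPeriods_Gamma0 p
  refine ⟨X + Y, ?_, ?_⟩
  · exact ModularForm.qExpansion_add one_pos hper X Y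
  · rw [sharp_add]
    exact ModularForm.qExpansion_add one_pos hper (sharp X) (sharp Y)

theorem smul (c : ℂ) (h : TwoCusp p k A B) : TwoCusp p k (c • A) (c • B) := by
  obtain ⟨X, rfl, rfl⟩ := h
  have hper := CongruenceSubgroup.one_mem_strictPeriods_Gamma0 p
  refine ⟨c • X, ?_, ?_⟩
  · rw [FunLike.coe_smul]
    exact ModularForm.qExpansion_smul one_pos hper c X
  · rw [sharp_smul, FunLike.coe_smul]
    exact ModularForm.qExpansion_smul one_pos hper c (sharp X)

theorem neg (h : TwoCusp p k A B) : TwoCusp p k (-A) (-B) := by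
  have := h.smul (-1)
  simpa using this

theorem sub (h₁ : TwoCusp p k A B) (h₂ : TwoCusp p k C D) : TwoCusp p k (A - C) (B - D) := by
  rw [sub_eq_add_neg, sub_eq_add_neg]
  exact h₁.add h₂.neg

theorem mul (h₁ : TwoCusp p k A B) (h₂ : TwoCusp p l C D) :
    TwoCusp p (k + l) (A * C) (B * D) := by
  obtain ⟨X, rfl, rfl⟩ := h₁
  obtain ⟨Y, rfl, rfl⟩ := h₂
  have hper := CongruenceSubgroup.one_mem_strictPeriods_Gamma0 p
  refine ⟨X.mul Y, ?_, ?_⟩
  · exact ModularForm.qExpansion_mul one_pos hper X Y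
  · rw [sharp_mul]
    exact ModularForm.qExpansion_mul one_pos hper (sharp X) (sharp Y)

theorem one : TwoCusp p 0 1 1 := by
  have hp : p ≠ 0 := (Fact.out : p.Prime).ne_zero
  refine ⟨1, ?_, ?_⟩
  · rw [ModularForm.one_coe_eq_one]
    exact qExpansion_one 1
  · have h : (⇑(sharp (1 : ModularForm (Gamma0 p) 0)) : ℍ → ℂ) = 1 := by
      ext τ
      rw [sharp_apply]
      simp
    rw [h]
    exact qExpansion_one 1

theorem const (c : ℂ) : TwoCusp p 0 (PowerSeries.C c) (PowerSeries.C c) := by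
  have h := (one (p := p)).smul c
  have e : c • (1 : PowerSeries ℂ) = PowerSeries.C c := by
    rw [PowerSeries.smul_eq_C_mul, mul_one]
  rwa [e] at h

theorem pow (h : TwoCusp p k A B) (n : ℕ) : TwoCusp p (n * k) (A ^ n) (B ^ n) := by
  induction n with
  | zero => simpa using (one (p := p))
  | succ n ih =>
    rw [pow_succ, pow_succ]
    exact (ih.mul h).cast (by push_cast; ring)

/-- Exchange of the two cusps. -/
theorem swap (h : TwoCusp p k A B) : TwoCusp p k B (((-(p : ℂ)) ^ k)⁻¹ • A) := by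
  obtain ⟨X, rfl, rfl⟩ := h
  have hper := CongruenceSubgroup.one_mem_strictPeriods_Gamma0 p
  refine ⟨sharp X, rfl, ?_⟩
  rw [sharp_sharp, FunLike.coe_smul]
  exact ModularForm.qExpansion_smul one_pos hper _ X

/-- A level-one form `E`: expansions `E(q)` and `E(q^p)`. -/
theorem levelOne (E : ModularForm 𝒮ℒ k) :
    TwoCusp p k (qExpansion 1 E)
      (PowerSeries.expand p (Fact.out : p.Prime).ne_zero (qExpansion 1 E)) :=
  ⟨restrictForm p E, rfl, qExpansion_sharp_restrictForm E⟩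

/-- `V_p` of a level-one form: expansions `E(q^p)` and `(-p)^(-k) E(q)`. -/
theorem levelOne_expand (E : ModularForm 𝒮ℒ k) :
    TwoCusp p k (PowerSeries.expand p (Fact.out : p.Prime).ne_zero (qExpansion 1 E))
      (((-(p : ℂ)) ^ k)⁻¹ • qExpansion 1 E) :=
  (levelOne (p := p) E).swap

/-- A weight-2 form: expansions `G` and `-p⁻¹ U_p G`. -/
theorem wt2 (G : ModularForm (Gamma0 p) 2) :
    TwoCusp p 2 (qExpansion 1 G)
      (-((p : ℂ)⁻¹ • PowerSeries.mk (fun n => PowerSeries.coeff (p * n) (qExpansion 1 G)))) :=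
  ⟨G, rfl, qExpansion_sharp_two G⟩

/-- In weight 2 the second expansion is determined by the first. -/
theorem eq_of_wt2 (h : TwoCusp p 2 A B) :
    B = -((p : ℂ)⁻¹ • PowerSeries.mk (fun n => PowerSeries.coeff (p * n) A)) := by
  obtain ⟨X, rfl, rfl⟩ := h
  exact qExpansion_sharp_two X

theorem coeff_of_wt2 (h : TwoCusp p 2 A B) (n : ℕ) :
    PowerSeries.coeff n B = -((p : ℂ)⁻¹ * PowerSeries.coeff (p * n) A) := by
  rw [h.eq_of_wt2]
  simp

/-- **Trace**: a level-one form of the same weight with q-expansion `A + p • U_p B`. -/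
theorem trace (h : TwoCusp p k A B) :
    ∃ N : ModularForm 𝒮ℒ k, qExpansion 1 N =
      A + (p : ℂ) • PowerSeries.mk (fun n => PowerSeries.coeff (p * n) B) := by
  obtain ⟨X, rfl, rfl⟩ := h
  have : NeZero p := ⟨(Fact.out : p.Prime).ne_zero⟩
  exact ⟨ModularForm.trace 𝒮ℒ X, qExpansion_trace_eq X⟩

theorem trace_coeff (h : TwoCusp p k A B) :
    ∃ N : ModularForm 𝒮ℒ k, ∀ n, PowerSeries.coeff n (qExpansion 1 N) =
      PowerSeries.coeff n A + (p : ℂ) * PowerSeries.coeff (p * n) B := by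
  obtain ⟨N, hN⟩ := h.trace
  refine ⟨N, fun n => ?_⟩
  rw [hN]
  simp

theorem natCast_mul (n : ℕ) (h : TwoCusp p k A B) :
    TwoCusp p k ((n : PowerSeries ℂ) * A) ((n : PowerSeries ℂ) * B) := by
  have h' := h.smul (n : ℂ)
  have e : ∀ Z : PowerSeries ℂ, (n : ℂ) • Z = (n : PowerSeries ℂ) * Z := fun Z => by
    rw [Nat.cast_smul_eq_nsmul, nsmul_eq_mul]
  rwa [e, e] at h'

/-- The quartic `27 X⁴ - 18 Q X² - 8 R X - Q²` (weights `2, 4, 6 ↦ 8`) at both cusps. -/
theorem quartic {E F : PowerSeries ℂ} (hG : TwoCusp p 2 A B) (h4 : TwoCusp p 4 C D)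
    (h6 : TwoCusp p 6 E F) :
    TwoCusp p 8 (27 * A ^ 4 - 18 * C * A ^ 2 - 8 * E * A - C ^ 2)
      (27 * B ^ 4 - 18 * D * B ^ 2 - 8 * F * B - D ^ 2) := by
  have t1 : TwoCusp p 8 (27 * A ^ 4) (27 * B ^ 4) := by
    have := ((hG.pow 4).cast (l := 8) (by norm_num)).natCast_mul 27
    simpa using this
  have t2 : TwoCusp p 8 (18 * C * A ^ 2) (18 * D * B ^ 2) := by
    have := ((h4.mul ((hG.pow 2).cast (l := 4) (by norm_num))).cast (l := 8)
      (by norm_num)).natCast_mul 18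
    simpa [mul_assoc] using this
  have t3 : TwoCusp p 8 (8 * E * A) (8 * F * B) := by
    have := ((h6.mul hG).cast (l := 8) (by norm_num)).natCast_mul 8
    simpa [mul_assoc] using this
  have t4 : TwoCusp p 8 (C ^ 2) (D ^ 2) := (h4.pow 2).cast (by norm_num)
  exact ((t1.sub t2).sub t3).sub t4

end TwoCusp

end Fermat.Agent.S16.helper3855
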