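/-
S16 shared core "CONJ/NORM" (helper407): the two-cusp dictionary for modular forms on `Γ₀(p)`.

* `HasTExp p g G`: `g τ = ∑ G_n t^n` with `t = exp(2πiτ/p)`, on all of `ℍ`; ring calculus,
  uniqueness, holomorphy, boundedness at `i∞`.
* `fricke F`: the Fricke involution `F ∣[k] [[0,-1],[p,0]]` on `M_k(Γ₀(p))`.
* coset enumeration `1, S T^j (j < p)` of `Γ₀(p) \ SL(2,ℤ)`, and the `t`-expansions of the
  conjugates `F ∣[k] S T^j`.
* weight 2: `qExpansion 1 (fricke F) = - Up p (qExpansion 1 F)`.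
* elementary symmetric functions (norm, trace, ...) of weighted homogeneous polynomial
  expressions in forms on `Γ₀(p)` are level-one forms with explicit formal expansions.
-/
import Mathlib

open UpperHalfPlane Filter Function Matrix
open scoped Manifold Topology MatrixGroups ModularForm

namespace Fermat.Agent.S16.helper407

noncomputable section

/-! ### `t`-expansions -/

/-- The local parameter `t = exp (2πiτ/p)` at the cusp `∞` (for the period `p`). -/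
def tpar (p : ℕ) (τ : ℍ) : ℂ := Function.Periodic.qParam (p : ℝ) (τ : ℂ)

theorem tpar_ne_zero (p : ℕ) (τ : ℍ) : tpar p τ ≠ 0 := Function.Periodic.qParam_ne_zero _

theorem norm_tpar_lt_one (p : ℕ) [NeZero p] (τ : ℍ) : ‖tpar p τ‖ < 1 :=
  Function.Periodic.norm_qParam_lt_one (by exact_mod_cast Nat.pos_of_ne_zero (NeZero.ne p)) τ.im_pos

theorem exists_tpar_eq (p : ℕ) [NeZero p] {z : ℂ} (hz : ‖z‖ < 1) (hz0 : z ≠ 0) :
    ∃ τ : ℍ, tpar p τ = z := by
  have hN : (0 : ℝ) < p := by exact_mod_cast Nat.pos_of_ne_zero (NeZero.ne p)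
  exact ⟨⟨Function.Periodic.invQParam p z,
    Function.Periodic.im_invQParam_pos_of_norm_lt_one hN hz hz0⟩,
    Function.Periodic.qParam_right_inv hN.ne' hz0⟩

/-- `g` has the expansion `G` in the parameter `t = exp (2πiτ/p)`, convergent on all of `ℍ`. -/
def HasTExp (p : ℕ) (g : ℍ → ℂ) (G : PowerSeries ℂ) : Prop :=
  ∀ τ : ℍ, HasSum (fun n : ℕ => PowerSeries.coeff n G * tpar p τ ^ n) (g τ)

theorem HasTExp.summable_norm {p : ℕ} {g : ℍ → ℂ} {G : PowerSeries ℂ} (h : HasTExp p g G)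
    (τ : ℍ) : Summable (fun n : ℕ => ‖PowerSeries.coeff n G * tpar p τ ^ n‖) :=
  (h τ).summable.norm

theorem hasTExp_const (p : ℕ) (c : ℂ) : HasTExp p (fun _ => c) (PowerSeries.C c) := by
  intro τ
  have h := hasSum_single (f := fun n : ℕ => PowerSeries.coeff n (PowerSeries.C c : PowerSeries ℂ)
    * tpar p τ ^ n) 0 (fun n hn => by
      simp only [PowerSeries.coeff_C, if_neg hn, zero_mul])
  simpa using h

theorem hasTExp_zero (p : ℕ) : HasTExp p 0 0 := by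
  intro τ
  simp [hasSum_zero]

theorem hasTExp_one (p : ℕ) : HasTExp p 1 1 := by
  have := hasTExp_const p 1
  rw [map_one] at this
  exact this

theorem HasTExp.add {p : ℕ} {g₁ g₂ : ℍ → ℂ} {G₁ G₂ : PowerSeries ℂ}
    (h₁ : HasTExp p g₁ G₁) (h₂ : HasTExp p g₂ G₂) : HasTExp p (g₁ + g₂) (G₁ + G₂) := by
  intro τ
  have := (h₁ τ).add (h₂ τ)
  convert this using 1
  · funext n; rw [map_add, add_mul]
  · rfl

theorem HasTExp.neg {p : ℕ} {g : ℍ → ℂ} {G : PowerSeries ℂ} (h : HasTExp p g G) :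
    HasTExp p (-g) (-G) := by
  intro τ
  have := (h τ).neg
  simpa only [map_neg, neg_mul, Pi.neg_apply] using this

theorem HasTExp.sub {p : ℕ} {g₁ g₂ : ℍ → ℂ} {G₁ G₂ : PowerSeries ℂ}
    (h₁ : HasTExp p g₁ G₁) (h₂ : HasTExp p g₂ G₂) : HasTExp p (g₁ - g₂) (G₁ - G₂) := by
  rw [sub_eq_add_neg, sub_eq_add_neg]
  exact h₁.add h₂.neg

theorem HasTExp.smul {p : ℕ} {g : ℍ → ℂ} {G : PowerSeries ℂ} (h : HasTExp p g G) (c : ℂ) :
    HasTExp p (c • g) (c • G) := by
  intro τ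
  have := (h τ).mul_left c
  simpa only [PowerSeries.coeff_smul, smul_eq_mul, Pi.smul_apply, mul_assoc] using this

theorem HasTExp.mul {p : ℕ} {g₁ g₂ : ℍ → ℂ} {G₁ G₂ : PowerSeries ℂ}
    (h₁ : HasTExp p g₁ G₁) (h₂ : HasTExp p g₂ G₂) : HasTExp p (g₁ * g₂) (G₁ * G₂) := by
  intro τ
  have hs := summable_norm_sum_mul_antidiagonal_of_summable_norm (h₁.summable_norm τ)
    (h₂.summable_norm τ)
  have ht := tsum_mul_tsum_eq_tsum_sum_antidiagonal_of_summable_norm (h₁.summable_norm τ)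
    (h₂.summable_norm τ)
  rw [(h₁ τ).tsum_eq, (h₂ τ).tsum_eq] at ht
  have hfun : (fun n : ℕ => PowerSeries.coeff n (G₁ * G₂) * tpar p τ ^ n) = fun n : ℕ =>
      ∑ kl ∈ Finset.HasAntidiagonal.antidiagonal n, (PowerSeries.coeff kl.1 G₁ * tpar p τ ^ kl.1) *
        (PowerSeries.coeff kl.2 G₂ * tpar p τ ^ kl.2) := by
    funext n
    rw [PowerSeries.coeff_mul, Finset.sum_mul]
    refine Finset.sum_congr rfl fun kl hkl => ?_
    rw [← (Finset.HasAntidiagonal.mem_antidiagonal.mp hkl), pow_add]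
    ring
  rw [hfun, Pi.mul_apply, ht]
  exact hs.of_norm.hasSum

theorem HasTExp.pow {p : ℕ} {g : ℍ → ℂ} {G : PowerSeries ℂ} (h : HasTExp p g G) (n : ℕ) :
    HasTExp p (g ^ n) (G ^ n) := by
  induction n with
  | zero => simpa using hasTExp_one p
  | succ n ih => rw [pow_succ, pow_succ]; exact ih.mul h

theorem hasTExp_finset_sum {p : ℕ} {ι : Type*} (s : Finset ι) (g : ι → ℍ → ℂ)
    (G : ι → PowerSeries ℂ) (h : ∀ i ∈ s, HasTExp p (g i) (G i)) :
    HasTExp p (∑ i ∈ s, g i) (∑ i ∈ s, G i) := by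
  classical
  induction s using Finset.induction_on with
  | empty => simpa using hasTExp_zero p
  | insert a s ha ih =>
    rw [Finset.sum_insert ha, Finset.sum_insert ha]
    exact (h a (Finset.mem_insert_self a s)).add
      (ih fun i hi => h i (Finset.mem_insert_of_mem hi))

theorem hasTExp_finset_prod {p : ℕ} {ι : Type*} (s : Finset ι) (g : ι → ℍ → ℂ)
    (G : ι → PowerSeries ℂ) (h : ∀ i ∈ s, HasTExp p (g i) (G i)) :
    HasTExp p (∏ i ∈ s, g i) (∏ i ∈ s, G i) := by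
  classical
  induction s using Finset.induction_on with
  | empty => simpa using hasTExp_one p
  | insert a s ha ih =>
    rw [Finset.prod_insert ha, Finset.prod_insert ha]
    exact (h a (Finset.mem_insert_self a s)).mul
      (ih fun i hi => h i (Finset.mem_insert_of_mem hi))

/-! ### analytic consequences -/

/-- The function on the unit disc defined by a power series. -/
def psFun (G : PowerSeries ℂ) (z : ℂ) : ℂ := ∑' n : ℕ, PowerSeries.coeff n G * z ^ n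

theorem HasTExp.hasSum_disc {p : ℕ} [NeZero p] {g : ℍ → ℂ} {G : PowerSeries ℂ}
    (h : HasTExp p g G) {z : ℂ} (hz : ‖z‖ < 1) :
    HasSum (fun n : ℕ => PowerSeries.coeff n G * z ^ n) (psFun G z) := by
  have hs : Summable (fun n : ℕ => PowerSeries.coeff n G * z ^ n) := by
    by_cases hz0 : z = 0
    · subst hz0
      exact (hasSum_single (f := fun n : ℕ => PowerSeries.coeff n G * (0 : ℂ) ^ n) 0
        (fun n hn => by simp [hn])).summable
    · obtain ⟨τ, rfl⟩ := exists_tpar_eq p hz hz0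
      exact (h τ).summable
  exact hs.hasSum

theorem HasTExp.psFun_tpar {p : ℕ} {g : ℍ → ℂ} {G : PowerSeries ℂ}
    (h : HasTExp p g G) (τ : ℍ) : psFun G (tpar p τ) = g τ := (h τ).tsum_eq

theorem HasTExp.hasFPowerSeriesOnBall {p : ℕ} [NeZero p] {g : ℍ → ℂ} {G : PowerSeries ℂ}
    (h : HasTExp p g G) :
    HasFPowerSeriesOnBall (psFun G)
      (FormalMultilinearSeries.ofScalars ℂ (fun n => PowerSeries.coeff n G)) 0 1 := by
  constructor
  · refine le_of_forall_lt_imp_le_of_dense fun s hs ↦ ?_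
    lift s to NNReal using hs.ne_top
    have hs' : (s : ℝ) < 1 := by exact_mod_cast hs
    let : FiniteDimensional ℝ ℂ := Complex.basisOneI.finiteDimensional_of_finite
    apply FormalMultilinearSeries.le_radius_of_summable
    have := (h.hasSum_disc (z := (s : ℝ)) (by simpa using hs')).summable.norm
    simpa [smul_eq_mul, norm_mul, mul_comm, mul_left_comm, mul_assoc] using this
  · exact one_pos
  · intro y hy
    have hy' : ‖y‖ < 1 := by
      rw [← ENNReal.coe_one, Metric.eball_coe, NNReal.coe_one, mem_ball_zero_iff] at hy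
      exact hy
    simpa [mul_comm] using h.hasSum_disc hy'

theorem HasTExp.differentiableOn {p : ℕ} [NeZero p] {g : ℍ → ℂ} {G : PowerSeries ℂ}
    (h : HasTExp p g G) : DifferentiableOn ℂ (psFun G) (Metric.ball 0 1) := by
  have := h.hasFPowerSeriesOnBall.differentiableOn
  rwa [← ENNReal.ofReal_one, Metric.eball_ofReal] at this

/-- **Uniqueness**: the zero function only has the zero expansion. -/
theorem HasTExp.eq_zero {p : ℕ} [NeZero p] {G : PowerSeries ℂ}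
    (h : HasTExp p (0 : ℍ → ℂ) G) : G = 0 := by
  have hb := h.hasFPowerSeriesOnBall
  have hzero : ∀ z : ℂ, ‖z‖ < 1 → z ≠ 0 → psFun G z = 0 := by
    intro z hz hz0
    obtain ⟨τ, rfl⟩ := exists_tpar_eq p hz hz0
    rw [h.psFun_tpar τ, Pi.zero_apply]
  have hev : ∀ᶠ z in 𝓝[≠] (0 : ℂ), psFun G z = 0 := by
    have h1 : ∀ᶠ z in 𝓝 (0 : ℂ), ‖z‖ < 1 := by
      have : Metric.ball (0 : ℂ) 1 ∈ 𝓝 (0 : ℂ) := Metric.ball_mem_nhds 0 one_pos
      filter_upwards [this] with z hz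
      simpa using hz
    have h2 : ∀ᶠ z in 𝓝[≠] (0 : ℂ), ‖z‖ < 1 := h1.filter_mono nhdsWithin_le_nhds
    filter_upwards [h2, self_mem_nhdsWithin] with z hz hz0
    exact hzero z hz hz0
  have h0 : ∀ᶠ z in 𝓝 (0 : ℂ), psFun G z = 0 := by
    rcases hb.analyticAt.eventually_eq_zero_or_eventually_ne_zero with h1 | h1
    · exact h1
    · exfalso
      obtain ⟨z, hz, hz'⟩ := (hev.and h1).exists
      exact hz' hz
  have hp := (hb.hasFPowerSeriesAt.congr (g := 0) h0).eq_zero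
  ext n
  have h1 : (FormalMultilinearSeries.ofScalars ℂ (fun n => PowerSeries.coeff n G)).coeff n =
      (0 : FormalMultilinearSeries ℂ ℂ ℂ).coeff n := by rw [hp]
  rw [FormalMultilinearSeries.coeff_ofScalars] at h1
  simpa [FormalMultilinearSeries.coeff] using h1

theorem HasTExp.unique {p : ℕ} [NeZero p] {g : ℍ → ℂ} {G₁ G₂ : PowerSeries ℂ}
    (h₁ : HasTExp p g G₁) (h₂ : HasTExp p g G₂) : G₁ = G₂ := by
  have h := h₁.sub h₂
  rw [sub_self] at h
  exact sub_eq_zero.mp h.eq_zero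

/-- Holomorphy from an expansion. -/
theorem HasTExp.mdiff {p : ℕ} [NeZero p] {g : ℍ → ℂ} {G : PowerSeries ℂ}
    (h : HasTExp p g G) : MDiff g := by
  rw [UpperHalfPlane.mdifferentiable_iff]
  have hq : Differentiable ℂ (Function.Periodic.qParam (p : ℝ)) :=
    Function.Periodic.differentiable_qParam
  have hN : (0 : ℝ) < p := by exact_mod_cast Nat.pos_of_ne_zero (NeZero.ne p)
  have hF : DifferentiableOn ℂ (fun z : ℂ => psFun G (Function.Periodic.qParam (p : ℝ) z))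
      {z | 0 < z.im} := by
    refine h.differentiableOn.comp hq.differentiableOn ?_
    intro z hz
    simpa using Function.Periodic.norm_qParam_lt_one hN hz
  refine hF.congr fun z hz => ?_
  have hz' : 0 < z.im := hz
  have hτ := h.psFun_tpar ⟨z, hz'⟩
  simp only [Function.comp_apply, UpperHalfPlane.ofComplex_apply_of_im_pos hz']
  exact hτ.symm

/-- Boundedness at `i∞` from an expansion. -/
theorem HasTExp.isBoundedAtImInfty {p : ℕ} [NeZero p] {g : ℍ → ℂ} {G : PowerSeries ℂ}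
    (h : HasTExp p g G) : IsBoundedAtImInfty g := by
  have hN : (0 : ℝ) < p := by exact_mod_cast Nat.pos_of_ne_zero (NeZero.ne p)
  exact isBoundedAtImInfty_of_hasSum_qExpansion (c := fun n => PowerSeries.coeff n G) hN
    (fun τ => by simpa [smul_eq_mul, tpar] using h τ)

/-! ### The Fricke involution -/

/-- `Γ₀(p)` as a subgroup of `GL(2, ℝ)`. -/
abbrev G0 (p : ℕ) : Subgroup (GL (Fin 2) ℝ) :=
  ((CongruenceSubgroup.Gamma0 p : Subgroup SL(2, ℤ)) : Subgroup (GL (Fin 2) ℝ))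

/-- The Fricke matrix `[[0, -1], [p, 0]]`. -/
def Wp (p : ℕ) [NeZero p] : GL (Fin 2) ℝ :=
  .mkOfDetNeZero !![0, -1; (p : ℝ), 0] (by
    simp [Matrix.det_fin_two]
    exact NeZero.ne p)

theorem coe_Wp (p : ℕ) [NeZero p] : (Wp p : Matrix (Fin 2) (Fin 2) ℝ) = !![0, -1; (p : ℝ), 0] := rfl

theorem det_Wp (p : ℕ) [NeZero p] : (Wp p).det.val = (p : ℝ) := by
  simp [Wp, Matrix.det_fin_two]

theorem exists_fricke_comm (p : ℕ) [NeZero p] {γ : SL(2, ℤ)} (hγ : γ ∈ CongruenceSubgroup.Gamma0 p) :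
    ∃ γ' ∈ CongruenceSubgroup.Gamma0 p,
      Wp p * SpecialLinearGroup.mapGL ℝ γ = SpecialLinearGroup.mapGL ℝ γ' * Wp p ∧
      SpecialLinearGroup.mapGL ℝ γ * Wp p = Wp p * SpecialLinearGroup.mapGL ℝ γ' := by
  rw [CongruenceSubgroup.Gamma0_mem] at hγ
  obtain ⟨c', hc'⟩ := (ZMod.intCast_zmod_eq_zero_iff_dvd _ _).mp hγ
  have hdet : γ 0 0 * γ 1 1 - γ 0 1 * γ 1 0 = 1 := by
    have := γ.det_coe
    rw [Matrix.det_fin_two] at this
    exact this
  obtain ⟨γ', h00, h01, h10, h11⟩ : ∃ γ' : SL(2, ℤ), γ' 0 0 = γ 1 1 ∧ γ' 0 1 = -c' ∧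
      γ' 1 0 = -((p : ℤ) * γ 0 1) ∧ γ' 1 1 = γ 0 0 := by
    refine ⟨⟨!![γ 1 1, -c'; -((p : ℤ) * γ 0 1), γ 0 0], ?_⟩, rfl, rfl, rfl, rfl⟩
    rw [Matrix.det_fin_two_of]
    rw [hc'] at hdet
    linear_combination hdet
  refine ⟨γ', ?_, ?_, ?_⟩
  · rw [CongruenceSubgroup.Gamma0_mem, h10]
    simp
  · apply Units.ext
    ext i j
    fin_cases i <;> fin_cases j <;>
      simp [coe_Wp, Matrix.mul_apply, Fin.sum_univ_two, hc', h00, h01, h10, h11] <;> ring
  · apply Units.ext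
    ext i j
    fin_cases i <;> fin_cases j <;>
      simp [coe_Wp, Matrix.mul_apply, Fin.sum_univ_two, hc', h00, h01, h10, h11] <;> ring

open ConjAct Pointwise in
theorem conj_Wp_G0 (p : ℕ) [NeZero p] : toConjAct (Wp p)⁻¹ • G0 p = G0 p := by
  ext g
  rw [map_inv, Subgroup.mem_inv_pointwise_smul_iff, toConjAct_smul]
  constructor
  · rintro ⟨γ, hγ, hg⟩
    obtain ⟨γ', hγ', -, h2⟩ := exists_fricke_comm p hγ
    refine ⟨γ', hγ', ?_⟩
    have : g = (Wp p)⁻¹ * (SpecialLinearGroup.mapGL ℝ γ) * Wp p := by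
      rw [hg]; group
    rw [this, mul_assoc, h2, ← mul_assoc, inv_mul_cancel, one_mul]
  · rintro ⟨γ, hγ, rfl⟩
    obtain ⟨γ', hγ', h1, -⟩ := exists_fricke_comm p hγ
    refine ⟨γ', hγ', ?_⟩
    rw [h1, mul_assoc, mul_inv_cancel, mul_one]

/-- The Fricke involution on `M_k(Γ₀(p))`: `F ↦ F ∣[k] [[0,-1],[p,0]]`. -/
def fricke {p : ℕ} [NeZero p] {k : ℤ} (F : ModularForm (G0 p) k) : ModularForm (G0 p) k :=
  (ModularForm.translate F (Wp p)).mcast rfl (conj_Wp_G0 p).symm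

theorem coe_fricke {p : ℕ} [NeZero p] {k : ℤ} (F : ModularForm (G0 p) k) :
    ⇑(fricke F) = (⇑F) ∣[k] (Wp p) := rfl

/-! ### Change of parameter -/

/-- The root of unity `ζ = exp(2πi/p)`. -/
def zeta (p : ℕ) : ℂ := Complex.exp (2 * Real.pi * Complex.I / p)

theorem zeta_pow_self (p : ℕ) [NeZero p] : zeta p ^ p = 1 := by
  have hp : (p : ℂ) ≠ 0 := Nat.cast_ne_zero.mpr (NeZero.ne p)
  rw [zeta, ← Complex.exp_nat_mul, mul_div_cancel₀ _ hp]
  exact Complex.exp_two_pi_mul_I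

theorem tpar_one_eq (p : ℕ) [NeZero p] (τ : ℍ) : tpar 1 τ = tpar p τ ^ p := by
  have hp : (p : ℂ) ≠ 0 := Nat.cast_ne_zero.mpr (NeZero.ne p)
  rw [tpar, tpar, Function.Periodic.qParam, Function.Periodic.qParam, ← Complex.exp_nat_mul]
  congr 1
  push_cast
  field_simp

theorem tpar_vadd (p : ℕ) (j : ℕ) (τ : ℍ) : tpar p ((j : ℝ) +ᵥ τ) = zeta p ^ j * tpar p τ := by
  rw [tpar, tpar, zeta, Function.Periodic.qParam, Function.Periodic.qParam, ← Complex.exp_nat_mul,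
    ← Complex.exp_add]
  congr 1
  rw [UpperHalfPlane.coe_vadd]
  push_cast
  ring

theorem tpar_one_of_coe_eq (p : ℕ) {τ τ' : ℍ} (h : (τ' : ℂ) = (τ : ℂ) / p) :
    tpar 1 τ' = tpar p τ := by
  rw [tpar, tpar, Function.Periodic.qParam, Function.Periodic.qParam, h]
  congr 1
  push_cast
  ring

/-- A `q`-expansion is a `t`-expansion in `t^p`. -/
theorem HasTExp.expand {p : ℕ} [NeZero p] {g : ℍ → ℂ} {A : PowerSeries ℂ} (h : HasTExp 1 g A) :
    HasTExp p g (PowerSeries.expand p (NeZero.ne p) A) := by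
  intro τ
  have h1 := h τ
  rw [tpar_one_eq p τ] at h1
  have hinj : Function.Injective (fun m : ℕ => p * m) :=
    fun a b hab => Nat.eq_of_mul_eq_mul_left (Nat.pos_of_ne_zero (NeZero.ne p)) hab
  refine (hinj.hasSum_iff ?_).mp ?_
  · intro n hn
    have : ¬ p ∣ n := fun ⟨m, hm⟩ => hn ⟨m, hm.symm⟩
    rw [PowerSeries.coeff_expand_of_not_dvd p (NeZero.ne p) A this, zero_mul]
  · convert h1 using 1
    funext m
    simp only [Function.comp_apply, PowerSeries.coeff_expand_mul, pow_mul]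

/-- Translation by `j` rescales the expansion by `ζ^j`. -/
theorem HasTExp.vadd {p : ℕ} {g : ℍ → ℂ} {G : PowerSeries ℂ} (h : HasTExp p g G) (j : ℕ) :
    HasTExp p (fun τ => g ((j : ℝ) +ᵥ τ)) (PowerSeries.rescale (zeta p ^ j) G) := by
  intro τ
  have h1 := h ((j : ℝ) +ᵥ τ)
  rw [tpar_vadd] at h1
  convert h1 using 1
  funext n
  rw [PowerSeries.coeff_rescale, mul_pow]
  ring

/-- `τ ↦ g(τ/p)` has as `t`-expansion the `q`-expansion of `g`. -/
theorem HasTExp.comp_div {p : ℕ} {g g' : ℍ → ℂ} {G : PowerSeries ℂ} (h : HasTExp 1 g G)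
    (hg : ∀ τ : ℍ, ∃ τ' : ℍ, (τ' : ℂ) = (τ : ℂ) / p ∧ g' τ = g τ') : HasTExp p g' G := by
  intro τ
  obtain ⟨τ', hτ', hgg⟩ := hg τ
  have h1 := h τ'
  rw [tpar_one_of_coe_eq p hτ'] at h1
  rw [hgg]
  exact h1

/-- Uniqueness against the `q`-expansion of a form with period `1`. -/
theorem HasTExp.eq_expand {p : ℕ} [NeZero p] {g : ℍ → ℂ} {A G : PowerSeries ℂ}
    (h : HasTExp 1 g A) (h' : HasTExp p g G) : PowerSeries.expand p (NeZero.ne p) A = G :=
  h.expand.unique h'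

/-! ### Expansions of the conjugates `F ∣ S T^j` -/

theorem T_mem_Gamma0 (p : ℕ) : ModularGroup.T ∈ CongruenceSubgroup.Gamma0 p := by
  rw [CongruenceSubgroup.Gamma0_mem]
  simp [ModularGroup.T]

theorem one_mem_strictPeriods_G0 (p : ℕ) : (1 : ℝ) ∈ (G0 p).strictPeriods := by
  rw [Subgroup.strictPeriods_eq_zmultiples_one_of_T_mem (T_mem_Gamma0 p)]
  exact AddSubgroup.mem_zmultiples 1

theorem hasTExp_one_modularForm {p : ℕ} [NeZero p] {k : ℤ} (F : ModularForm (G0 p) k) :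
    HasTExp 1 F (qExpansion 1 F) := by
  intro τ
  have := ModularForm.hasSum_qExpansion (h := 1) F one_pos (one_mem_strictPeriods_G0 p) τ
  simpa [tpar] using this

theorem hasTExp_one_levelOne {k : ℤ} (E : ModularForm 𝒮ℒ k) :
    HasTExp 1 E (qExpansion 1 E) := by
  intro τ
  have := ModularForm.hasSum_qExpansion (h := 1) E one_pos (by simp) τ
  simpa [tpar] using this

/-- The point `τ/p` of the upper half plane. -/
def divP (p : ℕ) [NeZero p] (τ : ℍ) : ℍ :=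
  ⟨(τ : ℂ) / p, by
    have hp : (0 : ℝ) < p := by exact_mod_cast Nat.pos_of_ne_zero (NeZero.ne p)
    have : ((τ : ℂ) / p).im = τ.im / p := by
      rw [show ((p : ℂ)) = ((p : ℝ) : ℂ) by norm_cast, Complex.div_ofReal_im]; rfl
    rw [this]
    exact div_pos τ.im_pos hp⟩

theorem coe_divP (p : ℕ) [NeZero p] (τ : ℍ) : ((divP p τ : ℍ) : ℂ) = (τ : ℂ) / p := rfl

theorem Wp_smul_divP (p : ℕ) [NeZero p] (τ : ℍ) : Wp p • divP p τ = ModularGroup.S • τ := by
  have hp : (0 : ℝ) < p := by exact_mod_cast Nat.pos_of_ne_zero (NeZero.ne p)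
  have hpc : (p : ℂ) ≠ 0 := Nat.cast_ne_zero.mpr (NeZero.ne p)
  apply UpperHalfPlane.ext
  rw [coe_smul_of_det_pos (by rw [det_Wp]; exact hp), modular_S_smul]
  simp only [num, denom, coe_Wp, coe_divP]
  simp
  field_simp

theorem denom_Wp_divP (p : ℕ) [NeZero p] (τ : ℍ) : denom (Wp p) (divP p τ) = τ := by
  have hpc : (p : ℂ) ≠ 0 := Nat.cast_ne_zero.mpr (NeZero.ne p)
  simp only [denom, coe_Wp, coe_divP]
  simp
  field_simp

theorem slash_S_apply {p : ℕ} [NeZero p] {k : ℤ} (F : ModularForm (G0 p) k) (τ : ℍ) :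
    ((⇑F) ∣[k] ModularGroup.S) τ = (p : ℂ) ^ (1 - k) * fricke F (divP p τ) := by
  have hp : (0 : ℝ) < p := by exact_mod_cast Nat.pos_of_ne_zero (NeZero.ne p)
  have hpc : (p : ℂ) ≠ 0 := Nat.cast_ne_zero.mpr (NeZero.ne p)
  rw [ModularForm.SL_slash_apply, ModularGroup.denom_S, coe_fricke, ModularForm.slash_apply,
    Wp_smul_divP, denom_Wp_divP, det_Wp]
  have hσ : σ (Wp p) = ContinuousAlgEquiv.refl ℝ ℂ := by
    unfold σ
    rw [if_pos (by rw [det_Wp]; exact hp)]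
  rw [hσ, abs_of_pos hp]
  simp only [ContinuousAlgEquiv.refl_apply]
  have : (p : ℂ) ^ (1 - k) * (((p : ℝ) : ℂ)) ^ (k - 1) = 1 := by
    rw [Complex.ofReal_natCast, ← zpow_add₀ hpc]
    simp
  linear_combination (F (ModularGroup.S • τ) * (τ : ℂ) ^ (-k)) * this.symm


theorem slash_T_pow_apply (g : ℍ → ℂ) (k : ℤ) (j : ℕ) (τ : ℍ) :
    (g ∣[k] (ModularGroup.T ^ j)) τ = g ((j : ℝ) +ᵥ τ) := by
  rw [ModularForm.SL_slash_apply]
  have h1 : (ModularGroup.T ^ j) • τ = (j : ℝ) +ᵥ τ := by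
    have := modular_T_zpow_smul τ (j : ℤ)
    rw [zpow_natCast] at this
    rw [this]
    norm_cast
  have h2 : denom (SpecialLinearGroup.toGL ((SpecialLinearGroup.map (Int.castRingHom ℝ))
      (ModularGroup.T ^ j))) (τ : ℂ) = 1 := by
    have h3 := ModularGroup.coe_T_zpow (j : ℤ)
    rw [zpow_natCast] at h3
    have e10 : (ModularGroup.T ^ j) 1 0 = 0 := by rw [h3]; rfl
    have e11 : (ModularGroup.T ^ j) 1 1 = 1 := by rw [h3]; rfl
    rw [ModularGroup.denom_apply, e10, e11]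
    simp
  rw [h1, h2, _root_.one_zpow, mul_one]

theorem slash_ST_apply {p : ℕ} [NeZero p] {k : ℤ} (F : ModularForm (G0 p) k) (j : ℕ) (τ : ℍ) :
    ((⇑F) ∣[k] (ModularGroup.S * ModularGroup.T ^ j)) τ =
      (p : ℂ) ^ (1 - k) * fricke F (divP p ((j : ℝ) +ᵥ τ)) := by
  rw [SlashAction.slash_mul, slash_T_pow_apply, slash_S_apply]

/-- The `t`-expansion of the conjugate `F ∣ S T^j`. -/
theorem hasTExp_slash_ST {p : ℕ} [NeZero p] {k : ℤ} (F : ModularForm (G0 p) k) (j : ℕ) :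
    HasTExp p ((⇑F) ∣[k] (ModularGroup.S * ModularGroup.T ^ j))
      ((p : ℂ) ^ (1 - k) • PowerSeries.rescale (zeta p ^ j) (qExpansion 1 (fricke F))) := by
  have h1 : HasTExp p (fun τ => fricke F (divP p τ)) (qExpansion 1 (fricke F)) :=
    (hasTExp_one_modularForm (fricke F)).comp_div (fun τ => ⟨divP p τ, coe_divP p τ, rfl⟩)
  have h2 := (h1.vadd j).smul ((p : ℂ) ^ (1 - k))
  intro τ
  have h3 := h2 τ
  rw [slash_ST_apply]
  exact h3

/-- The `t`-expansion of `F` itself. -/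
theorem hasTExp_self {p : ℕ} [NeZero p] {k : ℤ} (F : ModularForm (G0 p) k) :
    HasTExp p F (PowerSeries.expand p (NeZero.ne p) (qExpansion 1 F)) :=
  (hasTExp_one_modularForm F).expand

/-! ### Coset enumeration of `Γ₀(p) \ SL(2, ℤ)` -/

theorem coe_ST (j : ℕ) : ((ModularGroup.S * ModularGroup.T ^ j : SL(2, ℤ)) : Matrix (Fin 2) (Fin 2) ℤ)
    = !![0, -1; 1, (j : ℤ)] := by
  have h3 := ModularGroup.coe_T_zpow (j : ℤ)
  rw [zpow_natCast] at h3
  rw [Matrix.SpecialLinearGroup.coe_mul, h3, ModularGroup.coe_S]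
  ext a b
  fin_cases a <;> fin_cases b <;> simp [Matrix.mul_apply, Fin.sum_univ_two]

/-- Coset representatives of `Γ₀(p) \ SL(2, ℤ)`: `1` and `S T^j`, `j < p`. -/
def rep (p : ℕ) : Option (Fin p) → SL(2, ℤ)
  | none => 1
  | some j => ModularGroup.S * ModularGroup.T ^ (j : ℕ)

/-- The representatives as elements of `𝒮ℒ`. -/
def repGL (p : ℕ) (x : Option (Fin p)) : 𝒮ℒ :=
  ⟨Matrix.SpecialLinearGroup.mapGL ℝ (rep p x), ⟨rep p x, rfl⟩⟩

/-- The enumeration of the cosets `𝒮ℒ ⧸ Γ₀(p)`. -/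
def cosetMap (p : ℕ) (x : Option (Fin p)) : 𝒮ℒ ⧸ (G0 p).subgroupOf 𝒮ℒ :=
  QuotientGroup.mk (repGL p x)⁻¹

theorem mapGL_mem_G0 (p : ℕ) (γ : SL(2, ℤ)) :
    Matrix.SpecialLinearGroup.mapGL ℝ γ ∈ G0 p ↔ γ ∈ CongruenceSubgroup.Gamma0 p :=
  Subgroup.mem_map_iff_mem Matrix.SpecialLinearGroup.mapGL_injective

theorem cosetMap_eq_iff (p : ℕ) (x y : Option (Fin p)) :
    cosetMap p x = cosetMap p y ↔ rep p x * (rep p y)⁻¹ ∈ CongruenceSubgroup.Gamma0 p := by
  rw [cosetMap, cosetMap, QuotientGroup.eq, Subgroup.mem_subgroupOf, ← mapGL_mem_G0]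
  simp [repGL]

theorem cosetMap_eq_mk_iff (p : ℕ) (x : Option (Fin p)) (γ : SL(2, ℤ)) :
    cosetMap p x = QuotientGroup.mk (⟨Matrix.SpecialLinearGroup.mapGL ℝ γ, ⟨γ, rfl⟩⟩ : 𝒮ℒ) ↔
      rep p x * γ ∈ CongruenceSubgroup.Gamma0 p := by
  rw [cosetMap, QuotientGroup.eq, Subgroup.mem_subgroupOf, ← mapGL_mem_G0]
  simp [repGL]


theorem rep_mul_inv_apply_some_some (p : ℕ) (i j : Fin p) :
    (rep p (some i) * (rep p (some j))⁻¹) 1 0 = (j : ℤ) - (i : ℤ) := by
  simp only [rep]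
  rw [Matrix.SpecialLinearGroup.coe_mul, Matrix.SpecialLinearGroup.coe_inv, coe_ST, coe_ST,
    Matrix.adjugate_fin_two]
  simp [Matrix.mul_apply, Fin.sum_univ_two]
  ring

theorem rep_mul_inv_apply_none_some (p : ℕ) (j : Fin p) :
    (rep p none * (rep p (some j))⁻¹) 1 0 = -1 := by
  simp only [rep, one_mul]
  rw [Matrix.SpecialLinearGroup.coe_inv, coe_ST, Matrix.adjugate_fin_two]
  simp

theorem rep_mul_inv_apply_some_none (p : ℕ) (i : Fin p) :
    (rep p (some i) * (rep p none)⁻¹) 1 0 = 1 := by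
  simp only [rep, inv_one, mul_one]
  rw [coe_ST]
  simp

theorem rep_some_mul_apply (p : ℕ) (j : Fin p) (γ : SL(2, ℤ)) :
    (rep p (some j) * γ) 1 0 = γ 0 0 + (j : ℤ) * γ 1 0 := by
  simp only [rep]
  rw [Matrix.SpecialLinearGroup.coe_mul, coe_ST]
  simp [Matrix.mul_apply, Fin.sum_univ_two]

theorem cosetMap_injective (p : ℕ) [Fact p.Prime] : Function.Injective (cosetMap p) := by
  have hp : p.Prime := Fact.out
  have h1 : ¬ (p : ℤ) ∣ 1 := by
    intro h
    have := Int.natCast_dvd_natCast.mp (by simpa using h : ((p : ℕ) : ℤ) ∣ ((1 : ℕ) : ℤ))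
    exact hp.one_lt.ne' (Nat.dvd_one.mp this)
  intro x y hxy
  rw [cosetMap_eq_iff, CongruenceSubgroup.Gamma0_mem] at hxy
  rcases x with _ | i <;> rcases y with _ | j
  · rfl
  · exfalso
    rw [rep_mul_inv_apply_none_some, ZMod.intCast_zmod_eq_zero_iff_dvd] at hxy
    exact h1 ((dvd_neg).mp hxy)
  · exfalso
    rw [rep_mul_inv_apply_some_none, ZMod.intCast_zmod_eq_zero_iff_dvd] at hxy
    exact h1 hxy
  · rw [rep_mul_inv_apply_some_some, ZMod.intCast_zmod_eq_zero_iff_dvd] at hxy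
    have hlt : |(j : ℤ) - (i : ℤ)| < (p : ℤ) := by
      have hi := i.2
      have hj := j.2
      rw [abs_lt]
      constructor <;> omega
    have h0 := Int.eq_zero_of_abs_lt_dvd hxy hlt
    congr 1
    apply Fin.ext
    omega

theorem cosetMap_surjective (p : ℕ) [Fact p.Prime] : Function.Surjective (cosetMap p) := by
  have hp : p.Prime := Fact.out
  intro q
  induction q using QuotientGroup.induction_on with
  | H g =>
    obtain ⟨g, γ, rfl⟩ := g
    by_cases hc : ((γ 1 0 : ℤ) : ZMod p) = 0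
    · refine ⟨none, ?_⟩
      rw [cosetMap_eq_mk_iff, CongruenceSubgroup.Gamma0_mem]
      simpa [rep] using hc
    · set j : ZMod p := -((γ 0 0 : ℤ) : ZMod p) * ((γ 1 0 : ℤ) : ZMod p)⁻¹ with hj
      have : NeZero p := ⟨hp.ne_zero⟩
      refine ⟨some ⟨j.val, ZMod.val_lt j⟩, ?_⟩
      rw [cosetMap_eq_mk_iff, CongruenceSubgroup.Gamma0_mem, rep_some_mul_apply]
      push_cast
      rw [ZMod.natCast_zmod_val, hj, neg_mul, neg_mul, inv_mul_cancel_right₀ hc]
      ring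

/-- The enumeration `Option (Fin p) ≃ 𝒮ℒ ⧸ Γ₀(p)`. -/
def cosetEquiv (p : ℕ) [Fact p.Prime] : Option (Fin p) ≃ (𝒮ℒ ⧸ (G0 p).subgroupOf 𝒮ℒ) :=
  Equiv.ofBijective (cosetMap p) ⟨cosetMap_injective p, cosetMap_surjective p⟩

theorem cosetEquiv_apply (p : ℕ) [Fact p.Prime] (x : Option (Fin p)) :
    cosetEquiv p x = cosetMap p x := rfl

/-- The conjugates of `F`: `quotientFunc F` at the coset of `x` is `F ∣[k] rep x`. -/
theorem quotientFunc_cosetMap {p : ℕ} {k : ℤ} (F : ModularForm (G0 p) k) (x : Option (Fin p)) :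
    SlashInvariantForm.quotientFunc F (cosetMap p x) = (⇑F) ∣[k] (rep p x) := by
  rw [cosetMap]
  show SlashInvariantForm.quotientFunc F (⟦(repGL p x)⁻¹⟧) = _
  rw [SlashInvariantForm.quotientFunc_mk]
  simp only [repGL, InvMemClass.coe_inv, inv_inv]
  rfl

/-! ### Conjugates, trace zero in weight 2, and `F|W = -U_p F` -/

/-- The formal `U_p` operator: `(Up A)_n = A_{pn}`. -/
def Up (p : ℕ) (A : PowerSeries ℂ) : PowerSeries ℂ := PowerSeries.mk fun n => PowerSeries.coeff (p * n) A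

@[simp] theorem coeff_Up (p : ℕ) (A : PowerSeries ℂ) (n : ℕ) :
    PowerSeries.coeff n (Up p A) = PowerSeries.coeff (p * n) A := by
  simp [Up]

/-- The `t`-expansions of the `p + 1` conjugates of a form with expansions `A` at `∞` and
`C` (of its Fricke transform). -/
def cs (p : ℕ) [NeZero p] (k : ℤ) (A C : PowerSeries ℂ) : Option (Fin p) → PowerSeries ℂ
  | none => PowerSeries.expand p (NeZero.ne p) A
  | some j => (p : ℂ) ^ (1 - k) • PowerSeries.rescale (zeta p ^ (j : ℕ)) C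

/-- The conjugates of `F`. -/
def conj {p : ℕ} {k : ℤ} (F : ModularForm (G0 p) k) (x : Option (Fin p)) : ℍ → ℂ :=
  (⇑F) ∣[k] (rep p x)

theorem conj_none {p : ℕ} {k : ℤ} (F : ModularForm (G0 p) k) : conj F none = ⇑F := by
  simp [conj, rep]

theorem hasTExp_conj {p : ℕ} [NeZero p] {k : ℤ} (F : ModularForm (G0 p) k) (x : Option (Fin p)) :
    HasTExp p (conj F x) (cs p k (qExpansion 1 F) (qExpansion 1 (fricke F)) x) := by
  rcases x with _ | j
  · rw [conj_none]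
    exact hasTExp_self F
  · exact hasTExp_slash_ST F j

theorem quotientFunc_cosetEquiv {p : ℕ} [Fact p.Prime] {k : ℤ} (F : ModularForm (G0 p) k)
    (x : Option (Fin p)) :
    SlashInvariantForm.quotientFunc F (cosetEquiv p x) = conj F x :=
  quotientFunc_cosetMap F x

/-- The trace to level one is the sum of the conjugates. -/
theorem trace_apply {p : ℕ} [Fact p.Prime] {k : ℤ} (F : ModularForm (G0 p) k) :
    ⇑(ModularForm.trace 𝒮ℒ F) = ∑ x : Option (Fin p), conj F x := by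
  rw [ModularForm.coe_trace]
  let := Fintype.ofFinite (𝒮ℒ ⧸ (G0 p).subgroupOf 𝒮ℒ)
  rw [← Equiv.sum_comp (cosetEquiv p)]
  refine Finset.sum_congr rfl fun x _ => ?_
  exact quotientFunc_cosetEquiv F x

theorem sum_conj_eq_zero {p : ℕ} [Fact p.Prime] (F : ModularForm (G0 p) 2) :
    ∑ x : Option (Fin p), conj F x = 0 := by
  rw [← trace_apply]
  have := rank_zero_iff_forall_zero.mp ModularForm.levelOne_weight_two_rank_zero
    (ModularForm.trace 𝒮ℒ F)
  rw [this]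
  rfl


theorem denom_Wp (p : ℕ) [NeZero p] (z : ℂ) : denom (Wp p) z = (p : ℂ) * z := by
  simp [denom, coe_Wp]

theorem sigma_Wp (p : ℕ) [NeZero p] : σ (Wp p) = ContinuousAlgEquiv.refl ℝ ℂ := by
  have hp : (0 : ℝ) < p := by exact_mod_cast Nat.pos_of_ne_zero (NeZero.ne p)
  unfold σ
  rw [if_pos (by rw [det_Wp]; exact hp)]

theorem coe_Wp_smul (p : ℕ) [NeZero p] (τ : ℍ) : ((Wp p • τ : ℍ) : ℂ) = -1 / ((p : ℂ) * τ) := by
  have hp : (0 : ℝ) < p := by exact_mod_cast Nat.pos_of_ne_zero (NeZero.ne p)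
  rw [coe_smul_of_det_pos (by rw [det_Wp]; exact hp), denom_Wp]
  simp [num, coe_Wp]

theorem fricke_apply {p : ℕ} [NeZero p] {k : ℤ} (F : ModularForm (G0 p) k) (τ : ℍ) :
    fricke F τ = F (Wp p • τ) * (p : ℂ) ^ (k - 1) * ((p : ℂ) * τ) ^ (-k) := by
  have hp : (0 : ℝ) < p := by exact_mod_cast Nat.pos_of_ne_zero (NeZero.ne p)
  rw [coe_fricke, ModularForm.slash_apply, sigma_Wp, denom_Wp, det_Wp, abs_of_pos hp]
  simp

theorem Wp_smul_Wp_smul (p : ℕ) [NeZero p] (τ : ℍ) : Wp p • Wp p • τ = τ := by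
  have hpc : (p : ℂ) ≠ 0 := Nat.cast_ne_zero.mpr (NeZero.ne p)
  apply UpperHalfPlane.ext
  rw [coe_Wp_smul, coe_Wp_smul]
  have hτ : (τ : ℂ) ≠ 0 := ne_zero τ
  field_simp

theorem fricke_fricke_apply {p : ℕ} [NeZero p] {k : ℤ} (F : ModularForm (G0 p) k) (τ : ℍ) :
    fricke (fricke F) τ = (p : ℂ) ^ (k - 2) * (-1) ^ k * F τ := by
  have hpc : (p : ℂ) ≠ 0 := Nat.cast_ne_zero.mpr (NeZero.ne p)
  have hτ : (τ : ℂ) ≠ 0 := ne_zero τ
  rw [fricke_apply, fricke_apply, Wp_smul_Wp_smul, coe_Wp_smul]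
  have h1 : ((p : ℂ) * (-1 / ((p : ℂ) * τ))) ^ (-k) * ((p : ℂ) * τ) ^ (-k) = ((-1 : ℂ) * p) ^ (-k) := by
    rw [← mul_zpow]
    congr 1
    field_simp
  have h2 : ((-1 : ℂ) * p) ^ (-k) = (-1) ^ k * (p : ℂ) ^ (-k) := by
    rw [mul_zpow]
    congr 1
    rw [_root_.zpow_neg, ← _root_.inv_zpow]
    norm_num
  have h3 : (p : ℂ) ^ (k - 1) * (p : ℂ) ^ (k - 1) * (p : ℂ) ^ (-k) = (p : ℂ) ^ (k - 2) := by
    rw [← zpow_add₀ hpc, ← zpow_add₀ hpc]
    congr 1
    ring
  calc F τ * (p : ℂ) ^ (k - 1) * ((p : ℂ) * (-1 / ((p : ℂ) * τ))) ^ (-k) * (p : ℂ) ^ (k - 1) *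
        ((p : ℂ) * τ) ^ (-k)
      = F τ * ((p : ℂ) ^ (k - 1) * (p : ℂ) ^ (k - 1)) *
          (((p : ℂ) * (-1 / ((p : ℂ) * τ))) ^ (-k) * ((p : ℂ) * τ) ^ (-k)) := by ring
    _ = F τ * ((p : ℂ) ^ (k - 1) * (p : ℂ) ^ (k - 1)) * ((-1) ^ k * (p : ℂ) ^ (-k)) := by
        rw [h1, h2]
    _ = F τ * ((p : ℂ) ^ (k - 1) * (p : ℂ) ^ (k - 1) * (p : ℂ) ^ (-k)) * (-1) ^ k := by ring
    _ = (p : ℂ) ^ (k - 2) * (-1) ^ k * F τ := by rw [h3]; ring

theorem fricke_fricke_two {p : ℕ} [NeZero p] (F : ModularForm (G0 p) 2) : fricke (fricke F) = F := by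
  ext τ
  rw [fricke_fricke_apply]
  norm_num


/-- Trace zero in weight 2, at the level of expansions: `U_p (F|W) = -F`. -/
theorem Up_qExpansion_fricke {p : ℕ} [Fact p.Prime] (F : ModularForm (G0 p) 2) :
    Up p (qExpansion 1 (fricke F)) = - qExpansion 1 F := by
  have hpc : (p : ℂ) ≠ 0 := Nat.cast_ne_zero.mpr (NeZero.ne p)
  have h0 : HasTExp p (∑ x : Option (Fin p), conj F x)
      (∑ x : Option (Fin p), cs p 2 (qExpansion 1 F) (qExpansion 1 (fricke F)) x) :=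
    hasTExp_finset_sum _ _ _ (fun x _ => hasTExp_conj F x)
  rw [sum_conj_eq_zero] at h0
  have hz := h0.eq_zero
  ext n
  have h1 := congrArg (PowerSeries.coeff (p * n)) hz
  rw [Fintype.sum_option, map_add, map_sum] at h1
  simp only [cs, PowerSeries.coeff_expand_mul, PowerSeries.coeff_smul, PowerSeries.coeff_rescale,
    map_zero] at h1
  have h2 : ∀ j : Fin p, (zeta p ^ (j : ℕ)) ^ (p * n) = 1 := by
    intro j
    rw [← pow_mul, mul_comm (j : ℕ), mul_assoc, pow_mul, zeta_pow_self, one_pow]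
  simp only [h2, one_mul, Finset.sum_const, Finset.card_univ, Fintype.card_fin, nsmul_eq_mul,
    smul_eq_mul] at h1
  rw [coeff_Up, map_neg]
  have h3 : (p : ℂ) * ((p : ℂ) ^ (1 - 2 : ℤ) * PowerSeries.coeff (p * n) (qExpansion 1 (fricke F)))
      = PowerSeries.coeff (p * n) (qExpansion 1 (fricke F)) := by
    rw [← mul_assoc]
    have : (p : ℂ) * (p : ℂ) ^ (1 - 2 : ℤ) = 1 := by
      rw [show (1 - 2 : ℤ) = -1 by norm_num, _root_.zpow_neg_one, mul_inv_cancel₀ hpc]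
    rw [this, one_mul]
  rw [h3] at h1
  exact eq_neg_of_add_eq_zero_right h1

/-- **Weight 2**: the expansion of the Fricke transform is `-U_p` of the expansion. -/
theorem qExpansion_fricke_two {p : ℕ} [Fact p.Prime] (F : ModularForm (G0 p) 2) :
    qExpansion 1 (fricke F) = - Up p (qExpansion 1 F) := by
  have h := Up_qExpansion_fricke (fricke F)
  rw [fricke_fricke_two] at h
  rw [h, neg_neg]

end

end Fermat.Agent.S16.helper407
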