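import Fermat.Agent.S16.helper385_NormCases
import Fermat.Agent.S16.helper407_Conj
import Fermat.Agent.S16.helper3855_Conj
import Fermat.Agent.S16.helper7249_Conjugates
import Fermat.Agent.S16.helper5604_LevelOneSturm

set_option autoImplicit false

/-!
# S16, upper bound: the norm cases, modular forms side

Hypothesis-free versions of the two norm cases (consumers of the conjugates dictionary
`helper407_Conj`, the coset product `helper7249.coe_norm_eq_prod`, the weight two relation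
`helper3855.slash_frickeGL_eq` and the level one Sturm bound `helper5604.levelOne_coeff_mem`):

* `no_one_mod_nine`: `p ≡ 2 mod 3`, no `G ∈ M_2(Γ₀(p))` with `q`-expansion `≡ 1 mod 9`;
* `no_one_mod_ell`: `ℓ ≥ 5` prime, `ℓ ∣ p + 1`, no `G ∈ M_2(Γ₀(p))` with `q`-expansion
  `≡ 1 mod ℓ`.

Here "`≡ 1` modulo `m`" means: constant term `1`, all other coefficients in `m • Oint ℓ`
(`Oint ℓ` = the `ℓ`-integral algebraic numbers; rational numbers with denominator prime to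
`ℓ` belong to it).  Intermediate result: `norm_expansion`, the `q`-expansion of the norm of
`Zform p G α β γ = α G E₄ + β E₆ + γ G³` as a product over the `p + 1` conjugates.
-/

namespace Fermat.Agent.S16.helper385

open UpperHalfPlane ModularForm Matrix.SpecialLinearGroup CongruenceSubgroup
open scoped MatrixGroups ModularForm
open Fermat.Agent.S16.helper407

noncomputable section

lemma G0_le_SL (p : ℕ) : G0 p ≤ 𝒮ℒ := Subgroup.map_le_range _ _

/-- A level one form as a form of level `Γ₀(p)`. -/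
def restr (p : ℕ) {k : ℤ} (E : ModularForm 𝒮ℒ k) : ModularForm (G0 p) k where
  toFun := E
  slash_action_eq' A hA := E.slash_action_eq' A (G0_le_SL p hA)
  holo' := E.holo'
  bdd_at_cusps' hc := E.bdd_at_cusps' (hc.mono (G0_le_SL p))

@[simp] lemma coe_restr (p : ℕ) {k : ℤ} (E : ModularForm 𝒮ℒ k) : ⇑(restr p E) = ⇑E := rfl

/-- The weight `6` form `α G E₄ + β E₆ + γ G³`. -/
def Zform (p : ℕ) (G : ModularForm (G0 p) 2) (α β γ : ℂ) : ModularForm (G0 p) 6 :=
  α • (mcast (by norm_num) (G.mul (restr p E₄)) : ModularForm (G0 p) 6)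
    + β • (mcast (by norm_num) (restr p E₆) : ModularForm (G0 p) 6)
    + γ • (mcast (by norm_num) (G.pow 3) : ModularForm (G0 p) 6)

lemma coe_Zform (p : ℕ) (G : ModularForm (G0 p) 2) (α β γ : ℂ) :
    ⇑(Zform p G α β γ) = α • (⇑G * ⇑E₄) + β • ⇑E₆ + γ • (⇑G * ⇑G * ⇑G) := by
  ext τ
  show α * (G τ * E₄ τ) + β * E₆ τ + γ * ((1 : ℂ) * G τ * G τ * G τ) =
    α * (G τ * E₄ τ) + β * E₆ τ + γ * (G τ * G τ * G τ)
  ring

/-- Level one forms are invariant under the slash action of `SL(2, ℤ)`. -/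
lemma levelOne_slash {k : ℤ} (E : ModularForm 𝒮ℒ k) (A : SL(2, ℤ)) : (⇑E) ∣[k] A = ⇑E :=
  SlashInvariantForm.slash_action_eqn E (mapGL ℝ A) ⟨A, rfl⟩

/-- The conjugates of `Zform`. -/
lemma Zform_slash (p : ℕ) (G : ModularForm (G0 p) 2) (α β γ : ℂ) (A : SL(2, ℤ)) :
    (⇑(Zform p G α β γ)) ∣[(6 : ℤ)] A =
      α • (((⇑G) ∣[(2 : ℤ)] A) * ⇑E₄) + β • ⇑E₆ + γ • (((⇑G) ∣[(2 : ℤ)] A) ^ 3) := by
  have h4 : (⇑E₄ : ℍ → ℂ) ∣[(4 : ℤ)] A = ⇑E₄ := levelOne_slash E₄ A
  have h6 : (⇑E₆ : ℍ → ℂ) ∣[(6 : ℤ)] A = ⇑E₆ := levelOne_slash E₆ A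
  have hmul : ((⇑G : ℍ → ℂ) * ⇑E₄) ∣[(6 : ℤ)] A = ((⇑G) ∣[(2 : ℤ)] A) * ⇑E₄ := by
    have := mul_slash_SL2 2 4 A (⇑G) (⇑E₄)
    rw [h4] at this
    exact this
  have hcube : ((⇑G : ℍ → ℂ) * ⇑G * ⇑G) ∣[(6 : ℤ)] A = ((⇑G) ∣[(2 : ℤ)] A) ^ 3 := by
    have h1 := mul_slash_SL2 2 2 A (⇑G) (⇑G)
    have h2 := mul_slash_SL2 (2 + 2) 2 A ((⇑G : ℍ → ℂ) * ⇑G) (⇑G)
    rw [h1] at h2
    rw [show (6 : ℤ) = 2 + 2 + 2 by norm_num, h2]
    ring
  rw [coe_Zform, SlashAction.add_slash, SlashAction.add_slash, SL_smul_slash, SL_smul_slash,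
    SL_smul_slash, hmul, h6, hcube]

/-- The `t`-expansion of a conjugate of `Zform`, from that of the conjugate of `G`. -/
lemma hasTExp_Z_of (p : ℕ) [NeZero p] (α β γ : ℂ) (g : ℍ → ℂ) (x : PowerSeries ℂ)
    (hg : HasTExp p g x) :
    HasTExp p (α • (g * ⇑E₄) + β • ⇑E₆ + γ • (g ^ 3))
      (P6 α β γ x (PowerSeries.expand p (NeZero.ne p) (qExpansion 1 E₄))
        (PowerSeries.expand p (NeZero.ne p) (qExpansion 1 E₆))) := by
  have h4 : HasTExp p (⇑E₄) (PowerSeries.expand p (NeZero.ne p) (qExpansion 1 E₄)) :=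
    (hasTExp_one_levelOne E₄).expand
  have h6 : HasTExp p (⇑E₆) (PowerSeries.expand p (NeZero.ne p) (qExpansion 1 E₆)) :=
    (hasTExp_one_levelOne E₆).expand
  exact (((hg.mul h4).smul α).add (h6.smul β)).add ((hg.pow 3).smul γ)

/-- The series of the conjugate `G ∣ S T ^ j`. -/
def conjSer (p : ℕ) [NeZero p] (G : ModularForm (G0 p) 2) (j : ℕ) : PowerSeries ℂ :=
  (p : ℂ) ^ (1 - 2 : ℤ) • PowerSeries.rescale (zeta p ^ j) (qExpansion 1 (fricke G))

lemma Wp_eq_frickeGL (p : ℕ) [NeZero p] : Wp p = helper3855.frickeGL p := by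
  apply Units.ext
  rw [helper3855.val_frickeGL (NeZero.ne p)]
  rfl

/-- Weight two: the `q`-expansion of the Fricke transform is `-U_p`. -/
lemma coeff_qExpansion_fricke (p : ℕ) [Fact p.Prime] (G : ModularForm (G0 p) 2) (n : ℕ) :
    haveI : NeZero p := ⟨(Fact.out : p.Prime).ne_zero⟩
    (qExpansion 1 (fricke G)).coeff n = -(qExpansion 1 G).coeff (n * p) := by
  have : NeZero p := ⟨(Fact.out : p.Prime).ne_zero⟩
  have hΓ : (1 : ℝ) ∈ (G0 p).strictPeriods := one_mem_strictPeriods_G0 p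
  have h1 : ⇑(fricke G) = -ModularForm.heckeU 2 p ⇑G := by
    rw [coe_fricke, Wp_eq_frickeGL]
    exact helper3855.slash_frickeGL_eq G
  have h2 : ModularForm.heckeU 2 p ⇑G = -⇑(fricke G) := by
    rw [h1, neg_neg]
  have h3 := ModularFormClass.qCoeff_heckeU G hΓ (NeZero.ne p) n
  rw [ModularForm.coeffHeckeU_apply] at h3
  unfold ModularFormClass.qCoeff at h3
  rw [h2, ModularForm.qExpansion_neg one_pos hΓ (fricke G), map_neg] at h3
  rw [← h3, neg_neg]

lemma coeff_conjSer (p : ℕ) [Fact p.Prime] (G : ModularForm (G0 p) 2) (j n : ℕ) :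
    haveI : NeZero p := ⟨(Fact.out : p.Prime).ne_zero⟩
    (conjSer p G j).coeff n = -((qExpansion 1 G).coeff (p * n)) / p * zeta p ^ (j * n) := by
  have : NeZero p := ⟨(Fact.out : p.Prime).ne_zero⟩
  have hp0 : (p : ℂ) ≠ 0 := Nat.cast_ne_zero.mpr (NeZero.ne p)
  rw [conjSer, PowerSeries.coeff_smul, PowerSeries.coeff_rescale, coeff_qExpansion_fricke,
    mul_comm n p, pow_mul, smul_eq_mul]
  have : (p : ℂ) ^ (1 - 2 : ℤ) = (p : ℂ)⁻¹ := by
    rw [show (1 - 2 : ℤ) = -1 by norm_num, zpow_neg_one]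
  rw [this]
  field_simp

/-- **The norm expansion in weight `6`.** -/
theorem norm_expansion (p : ℕ) [Fact p.Prime] (G : ModularForm (G0 p) 2) (α β γ : ℂ) :
    haveI : NeZero p := ⟨(Fact.out : p.Prime).ne_zero⟩
    PowerSeries.expand p (NeZero.ne p) (qExpansion 1 (ModularForm.norm 𝒮ℒ (Zform p G α β γ))) =
      P6 α β γ (PowerSeries.expand p (NeZero.ne p) (qExpansion 1 G))
          (PowerSeries.expand p (NeZero.ne p) (qExpansion 1 E₄))
          (PowerSeries.expand p (NeZero.ne p) (qExpansion 1 E₆)) *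
        ∏ j ∈ Finset.range p, P6 α β γ (conjSer p G j)
          (PowerSeries.expand p (NeZero.ne p) (qExpansion 1 E₄))
          (PowerSeries.expand p (NeZero.ne p) (qExpansion 1 E₆)) := by
  have : NeZero p := ⟨(Fact.out : p.Prime).ne_zero⟩
  set Z := Zform p G α β γ with hZ
  have hnorm := helper7249.coe_norm_eq_prod p Z
  -- the expansion at infinity
  have hinf : HasTExp p (⇑Z) (P6 α β γ (PowerSeries.expand p (NeZero.ne p) (qExpansion 1 G))
      (PowerSeries.expand p (NeZero.ne p) (qExpansion 1 E₄))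
      (PowerSeries.expand p (NeZero.ne p) (qExpansion 1 E₆))) := by
    have := hasTExp_Z_of p α β γ (⇑G) _ (hasTExp_self G)
    rw [hZ, coe_Zform]
    convert this using 2
    ext τ
    simp [pow_succ]
  -- the expansions at the other conjugates
  have hconj : ∀ j : ℕ, HasTExp p ((⇑Z) ∣[(6 : ℤ)] (ModularGroup.S * ModularGroup.T ^ j))
      (P6 α β γ (conjSer p G j) (PowerSeries.expand p (NeZero.ne p) (qExpansion 1 E₄))
        (PowerSeries.expand p (NeZero.ne p) (qExpansion 1 E₆))) := by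
    intro j
    rw [hZ, Zform_slash]
    exact hasTExp_Z_of p α β γ _ _ (hasTExp_slash_ST G j)
  have hprod : HasTExp p (⇑(ModularForm.norm 𝒮ℒ Z))
      (P6 α β γ (PowerSeries.expand p (NeZero.ne p) (qExpansion 1 G))
          (PowerSeries.expand p (NeZero.ne p) (qExpansion 1 E₄))
          (PowerSeries.expand p (NeZero.ne p) (qExpansion 1 E₆)) *
        ∏ j : Fin p, P6 α β γ (conjSer p G (j : ℕ))
          (PowerSeries.expand p (NeZero.ne p) (qExpansion 1 E₄))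
          (PowerSeries.expand p (NeZero.ne p) (qExpansion 1 E₆))) := by
    rw [hnorm]
    exact hinf.mul (hasTExp_finset_prod Finset.univ _ _ (fun j _ => hconj (j : ℕ)))
  have h1 : HasTExp 1 (⇑(ModularForm.norm 𝒮ℒ Z)) (qExpansion 1 (ModularForm.norm 𝒮ℒ Z)) :=
    hasTExp_one_levelOne _
  rw [h1.eq_expand hprod]
  congr 1
  exact Fin.prod_univ_eq_prod_range (fun j => P6 α β γ (conjSer p G j)
    (PowerSeries.expand p (NeZero.ne p) (qExpansion 1 E₄))
    (PowerSeries.expand p (NeZero.ne p) (qExpansion 1 E₆))) p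

/-- The multiples of `ℓ` in the `ℓ`-integral algebraic numbers. -/
def smulOint (ℓ : ℕ) : AddSubgroup ℂ where
  carrier := {x | ∃ y ∈ Oint ℓ, x = ℓ * y}
  zero_mem' := ⟨0, (Oint ℓ).zero_mem, by simp⟩
  add_mem' := by
    rintro _ _ ⟨y, hy, rfl⟩ ⟨y', hy', rfl⟩
    exact ⟨y + y', (Oint ℓ).add_mem hy hy', by ring⟩
  neg_mem' := by
    rintro _ ⟨y, hy, rfl⟩
    exact ⟨-y, (Oint ℓ).neg_mem hy, by ring⟩

lemma mem_smulOint (ℓ : ℕ) (x : ℂ) : x ∈ smulOint ℓ ↔ ∃ y ∈ Oint ℓ, x = ℓ * y := Iff.rfl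

open ArithmeticFunction (sigma)

lemma coeff_qExpansion_E4 (n : ℕ) :
    (qExpansion 1 E₄).coeff n = if n = 0 then 1 else 240 * (sigma 3 n : ℂ) := by
  have h := EisensteinSeries.E_qExpansion_coeff (k := 4) (by norm_num) ⟨2, rfl⟩ n
  have hb : bernoulli 4 = -1 / 30 := by decide +kernel
  rw [show (E₄ : ModularForm 𝒮ℒ 4) = E (k := 4) (by norm_num) from rfl, h, hb]
  split_ifs
  · rfl
  · push_cast; norm_num

lemma coeff_qExpansion_E6 (n : ℕ) :
    (qExpansion 1 E₆).coeff n = if n = 0 then 1 else -504 * (sigma 5 n : ℂ) := by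
  have h := EisensteinSeries.E_qExpansion_coeff (k := 6) (by norm_num) ⟨3, rfl⟩ n
  have hb : bernoulli 6 = 1 / 42 := by decide +kernel
  rw [show (E₆ : ModularForm 𝒮ℒ 6) = E (k := 6) (by norm_num) from rfl, h, hb]
  split_ifs
  · rfl
  · push_cast; norm_num

/-- The level one Sturm bound for the norm of a weight `6` form of level `Γ₀(p)`. -/
lemma sturm_norm_six (p : ℕ) [Fact p.Prime] (Z : ModularForm (G0 p) 6) (I : AddSubgroup ℂ)
    (h : ∀ n ≤ (p + 1) / 2, (qExpansion 1 (ModularForm.norm 𝒮ℒ Z)).coeff n ∈ I) (n : ℕ) :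
    (qExpansion 1 (ModularForm.norm 𝒮ℒ Z)).coeff n ∈ I := by
  have : NeZero p := ⟨(Fact.out : p.Prime).ne_zero⟩
  refine helper5604.levelOne_coeff_mem I (ModularForm.norm 𝒮ℒ Z) (fun m hm => h m ?_) n
  have hc := helper7249.card_Q p
  rw [hc] at hm
  have : ((6 : ℤ) * ((p + 1 : ℕ) : ℤ)).toNat = 6 * (p + 1) := by
    rw [show ((6 : ℤ) * ((p + 1 : ℕ) : ℤ)) = ((6 * (p + 1) : ℕ) : ℤ) by push_cast; ring]
    exact Int.toNat_natCast _
  rw [this] at hm
  omega

/-- **`ℓ = 3`, `p ≡ 2 mod 3`**: there is no `G ∈ M_2(Γ₀(p))` whose `q`-expansion is `1`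
modulo `9` (constant term `1`, all other coefficients in `9` times the `3`-integral
algebraic numbers). -/
theorem no_one_mod_nine (p : ℕ) [Fact p.Prime] (hp3 : p % 3 = 2) (G : ModularForm (G0 p) 2)
    (h0 : (qExpansion 1 G).coeff 0 = 1)
    (hG : ∀ n, 1 ≤ n → ∃ x ∈ Oint 3, (qExpansion 1 G).coeff n = 9 * x) : False := by
  have hp := (Fact.out : p.Prime)
  have : NeZero p := ⟨hp.ne_zero⟩
  refine no_one_mod_nine_core' p hp hp3 (qExpansion 1 G) (qExpansion 1 E₄) (qExpansion 1 E₆)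
    (qExpansion 1 (ModularForm.norm 𝒮ℒ (Zform p G 0
      (1 / 9 - ((p : ℂ) ^ 3 + 1) / (9 * (p : ℂ) ^ 3)) (-(1 / 9)))))
    (conjSer p G) (zeta p) (zeta_pow_self p) h0 hG coeff_qExpansion_E6
    (fun j _ n => coeff_conjSer p G j n) (norm_expansion p G _ _ _) ?_
  intro hlow n
  have := sturm_norm_six p _ (smulOint 3) (fun m hm => by
    obtain ⟨y, hy, hye⟩ := hlow m hm
    exact ⟨y, hy, by rw [hye]; norm_num⟩) n
  obtain ⟨y, hy, hye⟩ := this
  exact ⟨y, hy, by rw [hye]; norm_num⟩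

/-- **`ℓ ≥ 5`, `ℓ ∣ p + 1`**: there is no `G ∈ M_2(Γ₀(p))` whose `q`-expansion is `1`
modulo `ℓ`. -/
theorem no_one_mod_ell (p ℓ : ℕ) [Fact p.Prime] (hℓ : ℓ.Prime) (h5 : 5 ≤ ℓ) (hdvd : ℓ ∣ p + 1)
    (G : ModularForm (G0 p) 2) (h0 : (qExpansion 1 G).coeff 0 = 1)
    (hG : ∀ n, 1 ≤ n → ∃ x ∈ Oint ℓ, (qExpansion 1 G).coeff n = ℓ * x) : False := by
  have hp := (Fact.out : p.Prime)
  have : NeZero p := ⟨hp.ne_zero⟩
  refine no_one_mod_ell_core p ℓ hp hℓ h5 hdvd (qExpansion 1 G) (qExpansion 1 E₄)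
    (qExpansion 1 E₆) (qExpansion 1 (ModularForm.norm 𝒮ℒ (Zform p G 2 1 (-3))))
    (conjSer p G) (zeta p) (zeta_pow_self p) h0 hG coeff_qExpansion_E4 coeff_qExpansion_E6
    (fun j _ n => coeff_conjSer p G j n) (norm_expansion p G _ _ _) ?_
  intro hlow n
  exact sturm_norm_six p _ (smulOint ℓ) (fun m hm => hlow m hm) n

end

end Fermat.Agent.S16.helper385
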