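import Fermat.Agent.S16.helper385_ThreeAdic

set_option autoImplicit false

/-!
# S16, upper bound: the norm cases `ℓ ∣ p + 1` (`ℓ ≥ 5`) and `ℓ = 3`, power series cores

For `G ∈ M_2(Γ₀(p))` and complex numbers `α β γ` put `Z = α G E₄ + β E₆ + γ G³`, a form of
weight `6` and level `p`.  Its conjugates under `SL₂(ℤ)` are obtained by replacing `G` by its
conjugates, so the `q`-expansion of the norm of `Z` (a level one form of weight `6 (p + 1)`)
is, after `q = t ^ p`, the product of the series `P6 α β γ x E₄ E₆`, `x` running over the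
expansions of the conjugates of `G`.

* `no_one_mod_ell_core`: `ℓ ≥ 5` prime, `ℓ ∣ p + 1`: there is no `G ≡ 1 mod ℓ`
  (`Z = 2 G E₄ + E₆ - 3 G³` is `≡ -24 q + …` at every conjugate).
* `no_one_mod_nine_core'`: `p ≡ 2 mod 3`: there is no `G ≡ 1 mod 9`
  (restatement of `no_one_mod_nine_core` in terms of `P6`).

Both are stated against the expansion of the norm and the level one Sturm bound as hypotheses.
-/

namespace Fermat.Agent.S16.helper385

open PowerSeries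
open ArithmeticFunction (sigma)

/-- The series `α x E₄ + β E₆ + γ x³`. -/
noncomputable def P6 (α β γ : ℂ) (x E4 E6 : PowerSeries ℂ) : PowerSeries ℂ :=
  α • (x * E4) + β • E6 + γ • x ^ 3

section ringIdentities

variable {𝔸 : Type*} [CommRing 𝔸]

/-- A product of elements congruent to `Ψ` modulo `m` is congruent to a power of `Ψ`. -/
lemma prod_congr_mod (𝕆 : Subring 𝔸) (m Ψ : 𝔸) (hm : m ∈ 𝕆) (hΨ : Ψ ∈ 𝕆) {ι : Type*}
    (s : Finset ι) (f B : ι → 𝔸) (hB : ∀ j ∈ s, B j ∈ 𝕆) (hf : ∀ j ∈ s, f j = Ψ + m * B j) :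
    ∃ C ∈ 𝕆, ∏ j ∈ s, f j = Ψ ^ s.card + m * C := by
  classical
  induction s using Finset.induction_on with
  | empty => exact ⟨0, 𝕆.zero_mem, by simp⟩
  | insert a s ha ih =>
    obtain ⟨C, hC, hprod⟩ := ih (fun j hj => hB j (Finset.mem_insert_of_mem hj))
      (fun j hj => hf j (Finset.mem_insert_of_mem hj))
    refine ⟨Ψ * C + B a * Ψ ^ s.card + m * B a * C, ?_, ?_⟩
    · have hBa := hB a (Finset.mem_insert_self a s)
      exact 𝕆.add_mem (𝕆.add_mem (𝕆.mul_mem hΨ hC) (𝕆.mul_mem hBa (𝕆.pow_mem hΨ _)))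
        (𝕆.mul_mem (𝕆.mul_mem hm hBa) hC)
    · rw [Finset.prod_insert ha, hprod, hf a (Finset.mem_insert_self a s),
        Finset.card_insert_of_notMem ha]
      ring

/-- The expansion of `2 x E₄ + E₆ - 3 x³` for `x ≡ 1` modulo `m`. -/
lemma serEll_eq (x v m E4 E6 S3 S5 : 𝔸) (hx : x = 1 + m * v) (hE4 : E4 = 1 + 240 * S3)
    (hE6 : E6 = 1 - 504 * S5) :
    2 * (x * E4) + E6 + (-3) * x ^ 3 =
      (480 * S3 - 504 * S5) + m * (-7 * v + 480 * v * S3 - 9 * m * v ^ 2 - 3 * m ^ 2 * v ^ 3) := by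
  subst hx hE4 hE6
  ring

end ringIdentities

/-- An integer prime to `ℓ` is not divisible by `ℓ` in the `ℓ`-integral algebraic numbers. -/
lemma int_not_mem_smul_Oint (ℓ : ℕ) (hℓ : 2 ≤ ℓ) (N : ℤ) (hN : IsCoprime N (ℓ : ℤ)) (y : ℂ)
    (hy : y ∈ Oint ℓ) : (N : ℂ) ≠ ℓ * y := by
  intro h
  obtain ⟨u, v, huv⟩ := hN
  refine one_not_mem_smul_Oint ℓ hℓ (u * y + v)
    ((Oint ℓ).add_mem ((Oint ℓ).mul_mem (intCast_mem _ u) hy) (intCast_mem _ v)) ?_
  have : ((u * N + v * ℓ : ℤ) : ℂ) = 1 := by exact_mod_cast congrArg (Int.cast : ℤ → ℂ) huv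
  push_cast at this
  linear_combination -this + (u : ℂ) * h

/-- **Core of the case `ℓ ≥ 5`, `ℓ ∣ p + 1`.**  `a` is the `q`-expansion of a hypothetical
`G ∈ M_2(Γ₀(p))` congruent to `1` modulo `ℓ`, `e4`, `e6` those of `E₄`, `E₆`, `c j` the
expansion of `G ∣ S T ^ j` in `t = q ^ (1 / p)`, and `qN` the `q`-expansion of the norm of
`2 G E₄ + E₆ - 3 G³`, a level one form of weight `6 (p + 1)`, for which `hSturm` is the Sturm
bound modulo `ℓ`. -/
theorem no_one_mod_ell_core (p ℓ : ℕ) (hp : p.Prime) (hℓ : ℓ.Prime) (h5 : 5 ≤ ℓ)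
    (hdvd : ℓ ∣ p + 1)
    (a e4 e6 qN : PowerSeries ℂ) (c : ℕ → PowerSeries ℂ) (ζ : ℂ) (hζ : ζ ^ p = 1)
    (ha0 : a.coeff 0 = 1) (ha : ∀ n, 1 ≤ n → ∃ x ∈ Oint ℓ, a.coeff n = ℓ * x)
    (he4 : ∀ n, e4.coeff n = if n = 0 then 1 else 240 * (sigma 3 n : ℂ))
    (he6 : ∀ n, e6.coeff n = if n = 0 then 1 else -504 * (sigma 5 n : ℂ))
    (hc : ∀ j < p, ∀ n, (c j).coeff n = -(a.coeff (p * n)) / p * ζ ^ (j * n))
    (hN : PowerSeries.expand p hp.ne_zero qN =
      P6 2 1 (-3) (PowerSeries.expand p hp.ne_zero a) (PowerSeries.expand p hp.ne_zero e4)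
          (PowerSeries.expand p hp.ne_zero e6) *
        ∏ j ∈ Finset.range p, P6 2 1 (-3) (c j) (PowerSeries.expand p hp.ne_zero e4)
          (PowerSeries.expand p hp.ne_zero e6))
    (hSturm : (∀ n ≤ (p + 1) / 2, ∃ y ∈ Oint ℓ, qN.coeff n = ℓ * y) →
      ∀ n, ∃ y ∈ Oint ℓ, qN.coeff n = ℓ * y) : False := by
  classical
  set O := Oint ℓ with hO
  set ex := PowerSeries.expand (R := ℂ) p hp.ne_zero with hex
  have hp0 : (p : ℂ) ≠ 0 := by exact_mod_cast hp.ne_zero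
  have hℓ0 : (ℓ : ℂ) ≠ 0 := by exact_mod_cast hℓ.ne_zero
  have hpcop : p.Coprime ℓ := by
    rw [Nat.coprime_comm, Nat.Prime.coprime_iff_not_dvd hℓ]
    intro h
    have h1 : ℓ ∣ 1 := (Nat.dvd_add_right h).mp hdvd
    have := Nat.le_of_dvd one_pos h1
    omega
  have hζO : ζ ∈ O :=
    mem_Oint_of_isIntegral ℓ (IsIntegral.of_pow hp.pos (by rw [hζ]; exact isIntegral_one))
  have hnat : ∀ k : ℕ, (k : ℂ) ∈ O := fun k => natCast_mem O k
  have hpinv : (1 / p : ℂ) ∈ O := by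
    refine mem_Oint_of_mul_eq_int ℓ p hpcop (1 : ℤ) ?_
    push_cast; field_simp
  -- level one series
  set S3 : PowerSeries ℂ := PowerSeries.mk fun n => (sigma 3 n : ℂ) with hS3
  set S5 : PowerSeries ℂ := PowerSeries.mk fun n => (sigma 5 n : ℂ) with hS5
  have hS3O : S3 ∈ coeffSubring O := fun n => by rw [hS3, PowerSeries.coeff_mk]; exact hnat _
  have hS5O : S5 ∈ coeffSubring O := fun n => by rw [hS5, PowerSeries.coeff_mk]; exact hnat _
  have he4eq : e4 = 1 + 240 * S3 := by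
    ext n
    rw [he4 n, map_add, coeff_ofNat_mul, PowerSeries.coeff_one, hS3, PowerSeries.coeff_mk]
    rcases Nat.eq_zero_or_pos n with rfl | hn
    · simp
    · rw [if_neg hn.ne', if_neg hn.ne']; ring
  have he6eq : e6 = 1 - 504 * S5 := by
    ext n
    rw [he6 n, map_sub, coeff_ofNat_mul, PowerSeries.coeff_one, hS5, PowerSeries.coeff_mk]
    rcases Nat.eq_zero_or_pos n with rfl | hn
    · simp
    · rw [if_neg hn.ne', if_neg hn.ne']; ring
  -- `a = 1 + ℓ h`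
  set h : PowerSeries ℂ := PowerSeries.mk fun n => if n = 0 then 0 else a.coeff n / ℓ with hh
  have hhO : h ∈ coeffSubring O := fun n => by
    rw [hh, PowerSeries.coeff_mk]
    split_ifs with hn
    · exact O.zero_mem
    · obtain ⟨x, hx, hxe⟩ := ha n (Nat.one_le_iff_ne_zero.mpr hn)
      rw [hxe]
      have : (ℓ : ℂ) * x / ℓ = x := by field_simp
      rw [this]; exact hx
  set Lc : PowerSeries ℂ := PowerSeries.C (ℓ : ℂ) with hLc
  have hLcO : Lc ∈ coeffSubring O := C_mem_coeffSubring O (hnat ℓ)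
  have haeq : a = 1 + Lc * h := by
    ext n
    rw [map_add, hLc, PowerSeries.coeff_C_mul, PowerSeries.coeff_one, hh, PowerSeries.coeff_mk]
    rcases Nat.eq_zero_or_pos n with rfl | hn
    · simp [ha0]
    · rw [if_neg hn.ne', if_neg hn.ne']; field_simp; ring
  -- the conjugates `c j = 1 + ℓ v j`
  obtain ⟨m₀, hm₀⟩ := hdvd
  have hm₀' : (p : ℂ) + 1 = ℓ * m₀ := by exact_mod_cast congrArg (Nat.cast : ℕ → ℂ) hm₀
  set v : ℕ → PowerSeries ℂ := fun j =>
    PowerSeries.mk fun n => if n = 0 then -(m₀ : ℂ) * (1 / p)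
      else -(h.coeff (p * n)) * (1 / p) * ζ ^ (j * n) with hv
  have hvO : ∀ j, v j ∈ coeffSubring O := fun j n => by
    rw [hv]
    simp only [PowerSeries.coeff_mk]
    split_ifs with hn
    · exact O.mul_mem (O.neg_mem (hnat _)) hpinv
    · exact O.mul_mem (O.mul_mem (O.neg_mem (hhO _)) hpinv) (O.pow_mem hζO _)
  have hceq : ∀ j < p, c j = 1 + Lc * v j := by
    intro j hj
    ext n
    rw [hc j hj n, map_add, hLc, PowerSeries.coeff_C_mul, PowerSeries.coeff_one, hv]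
    simp only [PowerSeries.coeff_mk]
    rcases Nat.eq_zero_or_pos n with rfl | hn
    · simp only [mul_zero, pow_zero, if_true, ha0]
      field_simp
      linear_combination -hm₀'
    · have hpn : p * n ≠ 0 := Nat.mul_ne_zero hp.ne_zero hn.ne'
      rw [if_neg hn.ne', if_neg hn.ne', hh, PowerSeries.coeff_mk, if_neg hpn]
      field_simp
      ring
  -- expansions
  set T3 := ex S3 with hT3
  set T5 := ex S5 with hT5
  set H := ex h with hH
  have hT3O : T3 ∈ coeffSubring O := expand_mem_coeffSubring O p hp.ne_zero hS3O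
  have hT5O : T5 ∈ coeffSubring O := expand_mem_coeffSubring O p hp.ne_zero hS5O
  have hHO : H ∈ coeffSubring O := expand_mem_coeffSubring O p hp.ne_zero hhO
  have hE4 : ex e4 = 1 + 240 * T3 := by
    rw [he4eq, hT3]; simp only [map_mul, map_add, map_one, map_ofNat]
  have hE6 : ex e6 = 1 - 504 * T5 := by
    rw [he6eq, hT5]; simp only [map_sub, map_mul, map_one, map_ofNat]
  have hA : ex a = 1 + Lc * H := by
    rw [haeq, hH, hLc, hex]
    simp only [map_mul, map_add, map_one, PowerSeries.expand_C]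
  have hnumO : ∀ k : ℕ, ((k : ℕ) : PowerSeries ℂ) ∈ coeffSubring O :=
    fun k => natCast_mem (coeffSubring O) k
  set Θ : PowerSeries ℂ := 480 * T3 - 504 * T5 with hΘ
  have e480 : (480 : PowerSeries ℂ) = ((480 : ℕ) : PowerSeries ℂ) := by norm_num
  have e504 : (504 : PowerSeries ℂ) = ((504 : ℕ) : PowerSeries ℂ) := by norm_num
  have e7 : (-7 : PowerSeries ℂ) = -((7 : ℕ) : PowerSeries ℂ) := by norm_num
  have e9 : (9 : PowerSeries ℂ) = ((9 : ℕ) : PowerSeries ℂ) := by norm_num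
  have e3 : (3 : PowerSeries ℂ) = ((3 : ℕ) : PowerSeries ℂ) := by norm_num
  have hΘO : Θ ∈ coeffSubring O := by
    rw [hΘ, e480, e504]
    exact (coeffSubring O).sub_mem ((coeffSubring O).mul_mem (hnumO _) hT3O)
      ((coeffSubring O).mul_mem (hnumO _) hT5O)
  have hBmem : ∀ w ∈ coeffSubring O,
      -7 * w + 480 * w * T3 - 9 * Lc * w ^ 2 - 3 * Lc ^ 2 * w ^ 3 ∈ coeffSubring O := by
    intro w hw
    rw [e7, e480, e9, e3]
    set 𝕆 := coeffSubring O
    exact 𝕆.sub_mem (𝕆.sub_mem (𝕆.add_mem (𝕆.mul_mem (𝕆.neg_mem (hnumO _)) hw)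
      (𝕆.mul_mem (𝕆.mul_mem (hnumO _) hw) hT3O))
      (𝕆.mul_mem (𝕆.mul_mem (hnumO _) hLcO) (𝕆.pow_mem hw 2)))
      (𝕆.mul_mem (𝕆.mul_mem (hnumO _) (𝕆.pow_mem hLcO 2)) (𝕆.pow_mem hw 3))
  have hP6 : ∀ x : PowerSeries ℂ, P6 2 1 (-3) x (ex e4) (ex e6) =
      2 * (x * ex e4) + ex e6 + (-3) * x ^ 3 := by
    intro x
    rw [P6, PowerSeries.smul_eq_C_mul, PowerSeries.smul_eq_C_mul, PowerSeries.smul_eq_C_mul,
      map_ofNat, map_one, map_neg, map_ofNat, one_mul]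
  have hinf : P6 2 1 (-3) (ex a) (ex e4) (ex e6) =
      Θ + Lc * (-7 * H + 480 * H * T3 - 9 * Lc * H ^ 2 - 3 * Lc ^ 2 * H ^ 3) := by
    rw [hP6]
    exact serEll_eq (ex a) H Lc (ex e4) (ex e6) T3 T5 hA hE4 hE6
  set B : ℕ → PowerSeries ℂ := fun j =>
    -7 * v j + 480 * v j * T3 - 9 * Lc * (v j) ^ 2 - 3 * Lc ^ 2 * (v j) ^ 3 with hB
  have hconj : ∀ j ∈ Finset.range p, P6 2 1 (-3) (c j) (ex e4) (ex e6) = Θ + Lc * B j := by
    intro j hj
    rw [hP6]
    exact serEll_eq (c j) (v j) Lc (ex e4) (ex e6) T3 T5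
      (hceq j (Finset.mem_range.mp hj)) hE4 hE6
  obtain ⟨Cc, hCcO, hprod⟩ := prod_congr_mod (coeffSubring O) Lc Θ hLcO hΘO (Finset.range p)
    (fun j => P6 2 1 (-3) (c j) (ex e4) (ex e6)) B (fun j _ => hBmem _ (hvO j)) hconj
  rw [Finset.card_range] at hprod
  set Ainf : PowerSeries ℂ := -7 * H + 480 * H * T3 - 9 * Lc * H ^ 2 - 3 * Lc ^ 2 * H ^ 3
    with hAinf
  have hAinfO : Ainf ∈ coeffSubring O := hBmem _ hHO
  set D : PowerSeries ℂ := Θ * Cc + Ainf * Θ ^ p + Lc * Ainf * Cc with hD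
  have hDO : D ∈ coeffSubring O := by
    set 𝕆 := coeffSubring O
    exact 𝕆.add_mem (𝕆.add_mem (𝕆.mul_mem hΘO hCcO)
      (𝕆.mul_mem hAinfO (𝕆.pow_mem hΘO p))) (𝕆.mul_mem (𝕆.mul_mem hLcO hAinfO) hCcO)
  set θ : PowerSeries ℂ := 480 * S3 - 504 * S5 with hθ
  have hΘθ : Θ = ex θ := by
    rw [hΘ, hθ, hT3, hT5]; simp only [map_sub, map_mul, map_ofNat]
  have hNeq : ex qN = ex (θ ^ (p + 1)) + Lc * D := by
    rw [hN, hinf, hprod, hD, map_pow, ← hΘθ]
    ring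
  have hcoeff : ∀ n, qN.coeff n = (θ ^ (p + 1)).coeff n + ℓ * D.coeff (p * n) := by
    intro n
    have := congrArg (PowerSeries.coeff (p * n)) hNeq
    rw [hex, PowerSeries.coeff_expand_mul, map_add, PowerSeries.coeff_expand_mul, hLc,
      PowerSeries.coeff_C_mul] at this
    exact this
  -- `θ = X θ₁`, `θ₁(0) = -24`
  have hθ0 : PowerSeries.constantCoeff θ = 0 := by
    rw [← PowerSeries.coeff_zero_eq_constantCoeff_apply, hθ, map_sub, coeff_ofNat_mul,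
      coeff_ofNat_mul, hS3, hS5, PowerSeries.coeff_mk, PowerSeries.coeff_mk]
    simp
  obtain ⟨θ₁, hθ₁⟩ := PowerSeries.X_dvd_iff.mpr hθ0
  have hθ₁0 : PowerSeries.constantCoeff θ₁ = -24 := by
    have := congrArg (PowerSeries.coeff 1) hθ₁
    rw [show (1 : ℕ) = 0 + 1 from rfl, PowerSeries.coeff_succ_X_mul,
      PowerSeries.coeff_zero_eq_constantCoeff_apply, hθ, map_sub, coeff_ofNat_mul,
      coeff_ofNat_mul, hS3, hS5, PowerSeries.coeff_mk, PowerSeries.coeff_mk] at this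
    rw [← this]
    simp
    norm_num
  have hfact : θ ^ (p + 1) = PowerSeries.X ^ (p + 1) * θ₁ ^ (p + 1) := by
    rw [hθ₁]; ring
  have hlow : ∀ n < p + 1, (θ ^ (p + 1)).coeff n = 0 :=
    PowerSeries.X_pow_dvd_iff.mp ⟨_, hfact⟩
  have hhigh : (θ ^ (p + 1)).coeff (p + 1) = (-24) ^ (p + 1) := by
    have := PowerSeries.coeff_X_pow_mul (θ₁ ^ (p + 1)) (p + 1) 0
    rw [zero_add] at this
    rw [hfact, this, PowerSeries.coeff_zero_eq_constantCoeff_apply, map_pow, hθ₁0]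
  -- Sturm
  have hS := hSturm (fun n hn => by
    have hnp : n < p + 1 := by
      have := hp.two_le
      omega
    exact ⟨D.coeff (p * n), hDO _, by rw [hcoeff n, hlow n hnp, zero_add]⟩)
  obtain ⟨y, hyO, hy⟩ := hS (p + 1)
  rw [hcoeff (p + 1), hhigh] at hy
  have hcop : IsCoprime ((-24 : ℤ) ^ (p + 1)) (ℓ : ℤ) := by
    apply IsCoprime.pow_left
    rw [IsCoprime.neg_left_iff]
    have : Nat.Coprime 24 ℓ := by
      rw [Nat.coprime_comm, Nat.Prime.coprime_iff_not_dvd hℓ]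
      intro hd
      have h24 : (24 : ℕ) = 2 ^ 3 * 3 := by norm_num
      rw [h24] at hd
      rcases (Nat.Prime.dvd_mul hℓ).mp hd with h2 | h3
      · have := Nat.le_of_dvd (by norm_num) (hℓ.dvd_of_dvd_pow h2); omega
      · have := Nat.le_of_dvd (by norm_num) h3; omega
    exact_mod_cast Nat.isCoprime_iff_coprime.mpr this
  refine int_not_mem_smul_Oint ℓ hℓ.two_le ((-24 : ℤ) ^ (p + 1)) hcop (y - D.coeff (p * (p + 1)))
    (O.sub_mem hyO (hDO _)) ?_
  push_cast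
  linear_combination hy

/-- Restatement of `no_one_mod_nine_core` in terms of `P6`. -/
theorem no_one_mod_nine_core' (p : ℕ) (hp : p.Prime) (hp3 : p % 3 = 2)
    (a e4 e6 qN : PowerSeries ℂ) (c : ℕ → PowerSeries ℂ) (ζ : ℂ) (hζ : ζ ^ p = 1)
    (ha0 : a.coeff 0 = 1) (ha : ∀ n, 1 ≤ n → ∃ x ∈ Oint 3, a.coeff n = 9 * x)
    (he6 : ∀ n, e6.coeff n = if n = 0 then 1 else -504 * (sigma 5 n : ℂ))
    (hc : ∀ j < p, ∀ n, (c j).coeff n = -(a.coeff (p * n)) / p * ζ ^ (j * n))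
    (hN : PowerSeries.expand p hp.ne_zero qN =
      P6 0 (1 / 9 - ((p : ℂ) ^ 3 + 1) / (9 * (p : ℂ) ^ 3)) (-(1 / 9))
          (PowerSeries.expand p hp.ne_zero a) (PowerSeries.expand p hp.ne_zero e4)
          (PowerSeries.expand p hp.ne_zero e6) *
        ∏ j ∈ Finset.range p, P6 0 (1 / 9 - ((p : ℂ) ^ 3 + 1) / (9 * (p : ℂ) ^ 3)) (-(1 / 9))
          (c j) (PowerSeries.expand p hp.ne_zero e4) (PowerSeries.expand p hp.ne_zero e6))
    (hSturm : (∀ n ≤ (p + 1) / 2, ∃ y ∈ Oint 3, qN.coeff n = 3 * y) →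
      ∀ n, ∃ y ∈ Oint 3, qN.coeff n = 3 * y) : False := by
  have hP : ∀ x : PowerSeries ℂ,
      P6 0 (1 / 9 - ((p : ℂ) ^ 3 + 1) / (9 * (p : ℂ) ^ 3)) (-(1 / 9)) x
        (PowerSeries.expand p hp.ne_zero e4) (PowerSeries.expand p hp.ne_zero e6) =
      (1 / 9 : ℂ) • (PowerSeries.expand p hp.ne_zero e6 - x ^ 3)
        - (((p : ℂ) ^ 3 + 1) / (9 * (p : ℂ) ^ 3)) • PowerSeries.expand p hp.ne_zero e6 := by
    intro x
    rw [P6, zero_smul, zero_add, sub_smul, smul_sub, neg_smul]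
    abel
  refine no_one_mod_nine_core p hp hp3 a e6 qN c ζ hζ ha0 ha he6 hc ?_ hSturm
  rw [hN, hP]
  exact congrArg _ (Finset.prod_congr rfl fun j _ => hP (c j))

end Fermat.Agent.S16.helper385
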