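import Mathlib

set_option autoImplicit false

/-!
# S16, upper bound at `ℓ = 3`, `p ≡ 2 mod 3`: the formal power series core

There is no `G ∈ M_2(Γ₀(p))` with `3`-integral `q`-expansion congruent to `1` modulo `9`.
Norm-only argument (findings row 1856): with `e' = (1 + p⁻³)/9` the weight `6` form
`Z = (E₆ - G³)/9 - e' E₆` is congruent to `ψ - e'` at infinity and to `ψ` at every other
conjugate (`ψ = ∑ σ(n) qⁿ`), so its norm to level one is `(ψ - e') ψ ^ p` modulo `3`, of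
`q`-order `≥ p`, which is more than the level one Sturm bound `(p + 1) / 2` allows, while its
coefficient at `q ^ (p + 1)` is `1` modulo `3`.

This file contains the pure algebra: `Oint ℓ` (the `ℓ`-integral algebraic numbers in `ℂ`),
the congruences, and the final contradiction `no_one_mod_nine_core`, stated against the
expansion of the norm as a hypothesis.
-/

namespace Fermat.Agent.S16.helper385

open PowerSeries

/-- The `ℓ`-integral algebraic numbers: complex numbers `x` such that `b * x` is an algebraic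
integer for some natural number `b` prime to `ℓ`. -/
def Oint (ℓ : ℕ) : Subring ℂ where
  carrier := {x | ∃ b : ℕ, b.Coprime ℓ ∧ IsIntegral ℤ ((b : ℂ) * x)}
  zero_mem' := ⟨1, Nat.coprime_one_left ℓ, by simpa using isIntegral_zero⟩
  one_mem' := ⟨1, Nat.coprime_one_left ℓ, by simpa using isIntegral_one⟩
  add_mem' := by
    rintro x y ⟨b, hb, hx⟩ ⟨b', hb', hy⟩
    refine ⟨b * b', Nat.Coprime.mul_left hb hb', ?_⟩
    have hb1 : IsIntegral ℤ (b : ℂ) := by
      simpa using isIntegral_algebraMap (R := ℤ) (A := ℂ) (x := (b : ℤ))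
    have hb2 : IsIntegral ℤ (b' : ℂ) := by
      simpa using isIntegral_algebraMap (R := ℤ) (A := ℂ) (x := (b' : ℤ))
    have := (hb2.mul hx).add (hb1.mul hy)
    have e : ((b * b' : ℕ) : ℂ) * (x + y) = (b' : ℂ) * ((b : ℂ) * x) + (b : ℂ) * ((b' : ℂ) * y) := by
      push_cast; ring
    rw [e]; exact this
  mul_mem' := by
    rintro x y ⟨b, hb, hx⟩ ⟨b', hb', hy⟩
    refine ⟨b * b', Nat.Coprime.mul_left hb hb', ?_⟩
    have := hx.mul hy
    have e : ((b * b' : ℕ) : ℂ) * (x * y) = (b : ℂ) * x * ((b' : ℂ) * y) := by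
      push_cast; ring
    rw [e]; exact this
  neg_mem' := by
    rintro x ⟨b, hb, hx⟩
    refine ⟨b, hb, ?_⟩
    have := hx.neg
    have e : (b : ℂ) * (-x) = -((b : ℂ) * x) := by ring
    rw [e]; exact this

lemma mem_Oint_iff (ℓ : ℕ) (x : ℂ) :
    x ∈ Oint ℓ ↔ ∃ b : ℕ, b.Coprime ℓ ∧ IsIntegral ℤ ((b : ℂ) * x) := Iff.rfl

lemma mem_Oint_of_isIntegral (ℓ : ℕ) {x : ℂ} (hx : IsIntegral ℤ x) : x ∈ Oint ℓ :=
  ⟨1, Nat.coprime_one_left ℓ, by simpa using hx⟩

lemma mem_Oint_of_mul_eq_int (ℓ : ℕ) {x : ℂ} (b : ℕ) (hb : b.Coprime ℓ) (m : ℤ)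
    (h : (b : ℂ) * x = m) : x ∈ Oint ℓ :=
  ⟨b, hb, by rw [h]; exact isIntegral_algebraMap (R := ℤ) (A := ℂ) (x := m)⟩

/-- `1` is not divisible by `ℓ` in the ring of `ℓ`-integral algebraic numbers. -/
lemma one_not_mem_smul_Oint (ℓ : ℕ) (hℓ : 2 ≤ ℓ) (y : ℂ) (hy : y ∈ Oint ℓ) :
    (1 : ℂ) ≠ ℓ * y := by
  intro h
  obtain ⟨b, hb, hint⟩ := hy
  have hℓ0 : (ℓ : ℂ) ≠ 0 := by
    have : ℓ ≠ 0 := by omega
    exact_mod_cast this
  have hyv : y = ((1 / ℓ : ℚ) : ℂ) := by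
    push_cast
    field_simp
    linear_combination -h
  have hq : IsIntegral ℤ (((b : ℚ) * (1 / ℓ) : ℚ) : ℂ) := by
    have : (((b : ℚ) * (1 / ℓ) : ℚ) : ℂ) = (b : ℂ) * y := by
      rw [hyv]; push_cast; ring
    rw [this]; exact hint
  have hq' : IsIntegral ℤ ((b : ℚ) * (1 / ℓ) : ℚ) := by
    have := (isIntegral_algebraMap_iff (R := ℤ) (A := ℚ) (B := ℂ)
      (algebraMap ℚ ℂ).injective (x := ((b : ℚ) * (1 / ℓ) : ℚ))).mp
    exact this (by simpa using hq)
  obtain ⟨m, hm⟩ := IsIntegrallyClosed.isIntegral_iff.mp hq'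
  have hbm : (b : ℤ) = m * ℓ := by
    have h1 : (m : ℚ) = (b : ℚ) * (1 / ℓ) := by simpa using hm
    have hℓq : (ℓ : ℚ) ≠ 0 := by
      have : ℓ ≠ 0 := by omega
      exact_mod_cast this
    have h2 : (b : ℚ) = m * ℓ := by
      rw [h1]; field_simp
    exact_mod_cast h2
  have hdvd : (ℓ : ℤ) ∣ b := ⟨m, by rw [hbm]; ring⟩
  have hdvd' : ℓ ∣ b := by exact_mod_cast hdvd
  have := Nat.Coprime.eq_one_of_dvd hb.symm hdvd'
  omega

/-- Power series whose coefficients lie in a subring. -/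
def coeffSubring (O : Subring ℂ) : Subring (PowerSeries ℂ) where
  carrier := {f | ∀ n, f.coeff n ∈ O}
  zero_mem' := fun n => by simp
  one_mem' := fun n => by
    rw [PowerSeries.coeff_one]; split_ifs
    · exact O.one_mem
    · exact O.zero_mem
  add_mem' := fun {f g} hf hg n => by
    rw [map_add]; exact O.add_mem (hf n) (hg n)
  mul_mem' := fun {f g} hf hg n => by
    rw [PowerSeries.coeff_mul]
    exact O.sum_mem fun x _ => O.mul_mem (hf _) (hg _)
  neg_mem' := fun {f} hf n => by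
    rw [map_neg]; exact O.neg_mem (hf n)

lemma mem_coeffSubring_iff (O : Subring ℂ) (f : PowerSeries ℂ) :
    f ∈ coeffSubring O ↔ ∀ n, f.coeff n ∈ O := Iff.rfl

lemma C_mem_coeffSubring (O : Subring ℂ) {x : ℂ} (hx : x ∈ O) :
    (PowerSeries.C x : PowerSeries ℂ) ∈ coeffSubring O := fun n => by
  rw [PowerSeries.coeff_C]; split_ifs
  · exact hx
  · exact O.zero_mem

lemma expand_mem_coeffSubring (O : Subring ℂ) (p : ℕ) (hp : p ≠ 0) {f : PowerSeries ℂ}
    (hf : f ∈ coeffSubring O) : PowerSeries.expand p hp f ∈ coeffSubring O := fun n => by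
  rw [PowerSeries.coeff_expand]; split_ifs
  · exact hf _
  · exact O.zero_mem

section ringIdentities

variable {𝔸 : Type*} [CommRing 𝔸]

/-- The expansion of `Z` at infinity, up to `3`. -/
lemma serInf_eq (x9 A E Ψ R H e : 𝔸) (hx : x9 * 9 = 1) (hA : A = 1 + 9 * H)
    (hE : E = 1 - 504 * (Ψ + 3 * R)) :
    x9 * (E - A ^ 3) - e * E =
      Ψ - e + 3 * (-19 * Ψ - 56 * R - H - 9 * H ^ 2 - 27 * H ^ 3 + 168 * e * Ψ + 504 * e * R) := by
  subst hA hE
  linear_combination (-56 * Ψ - 168 * R - 3 * H - 27 * H ^ 2 - 81 * H ^ 3) * hx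

/-- The expansion of `Z` at the other conjugates, up to `3`. -/
lemma serConj_eq (x9 cj c u E Ψ R e : 𝔸) (hx : x9 * 9 = 1) (hcj : cj = c * (1 + 9 * u))
    (hc : c ^ 3 = 1 - 9 * e) (hE : E = 1 - 504 * (Ψ + 3 * R)) :
    x9 * (E - cj ^ 3) - e * E =
      Ψ + 3 * (-19 * Ψ - 56 * R - (1 - 9 * e) * (u + 9 * u ^ 2 + 27 * u ^ 3)
        + 168 * e * Ψ + 504 * e * R) := by
  subst hcj hE
  linear_combination (-56 * Ψ - 168 * R + e - 3 * (1 - 9 * e) * (u + 9 * u ^ 2 + 27 * u ^ 3)) * hx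
    - x9 * (1 + 9 * u) ^ 3 * hc

/-- A product of elements congruent to `Ψ` modulo `3` is congruent to a power of `Ψ`. -/
lemma prod_congr_three (𝕆 : Subring 𝔸) (Ψ : 𝔸) (hΨ : Ψ ∈ 𝕆) {ι : Type*} (s : Finset ι)
    (f B : ι → 𝔸) (hB : ∀ j ∈ s, B j ∈ 𝕆) (hf : ∀ j ∈ s, f j = Ψ + 3 * B j) :
    ∃ C ∈ 𝕆, ∏ j ∈ s, f j = Ψ ^ s.card + 3 * C := by
  classical
  induction s using Finset.induction_on with
  | empty => exact ⟨0, 𝕆.zero_mem, by simp⟩
  | insert a s ha ih =>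
    obtain ⟨C, hC, hprod⟩ := ih (fun j hj => hB j (Finset.mem_insert_of_mem hj))
      (fun j hj => hf j (Finset.mem_insert_of_mem hj))
    refine ⟨Ψ * C + B a * Ψ ^ s.card + 3 * B a * C, ?_, ?_⟩
    · have hBa := hB a (Finset.mem_insert_self a s)
      have h3 : (3 : 𝔸) ∈ 𝕆 := by
        have : (3 : 𝔸) = ((3 : ℕ) : 𝔸) := by norm_num
        rw [this]; exact natCast_mem 𝕆 3
      exact 𝕆.add_mem (𝕆.add_mem (𝕆.mul_mem hΨ hC) (𝕆.mul_mem hBa (𝕆.pow_mem hΨ _)))
        (𝕆.mul_mem (𝕆.mul_mem h3 hBa) hC)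
    · rw [Finset.prod_insert ha, hprod, hf a (Finset.mem_insert_self a s),
        Finset.card_insert_of_notMem ha]
      ring

end ringIdentities

open ArithmeticFunction (sigma)

/-- `σ₅(n) ≡ σ₁(n)` modulo `3`. -/
lemma sigma_five_sub_sigma_one (n : ℕ) : ∃ m : ℤ, (sigma 5 n : ℤ) - sigma 1 n = 3 * m := by
  have key : ∀ d : ℕ, (3 : ℤ) ∣ (d : ℤ) ^ 5 - (d : ℤ) ^ 1 := by
    intro d
    have h : ∀ x : ZMod 3, x ^ 5 - x ^ 1 = 0 := by decide
    have h' := h (d : ZMod 3)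
    have := (ZMod.intCast_zmod_eq_zero_iff_dvd ((d : ℤ) ^ 5 - (d : ℤ) ^ 1) 3).mp
      (by push_cast; exact h')
    exact_mod_cast this
  have : (3 : ℤ) ∣ (sigma 5 n : ℤ) - sigma 1 n := by
    rw [ArithmeticFunction.sigma_apply, ArithmeticFunction.sigma_apply]
    push_cast
    rw [← Finset.sum_sub_distrib]
    exact Finset.dvd_sum fun d _ => key d
  exact this

lemma coeff_ofNat_mul (k : ℕ) [k.AtLeastTwo] (f : PowerSeries ℂ) (n : ℕ) :
    ((OfNat.ofNat k : PowerSeries ℂ) * f).coeff n = (OfNat.ofNat k : ℂ) * f.coeff n := by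
  rw [← map_ofNat (PowerSeries.C : ℂ →+* PowerSeries ℂ) k, PowerSeries.coeff_C_mul]

lemma ofNat_mem_coeffSubring (O : Subring ℂ) (k : ℕ) [k.AtLeastTwo] :
    (OfNat.ofNat k : PowerSeries ℂ) ∈ coeffSubring O := by
  rw [← map_ofNat (PowerSeries.C : ℂ →+* PowerSeries ℂ) k]
  refine C_mem_coeffSubring O ?_
  rw [← Nat.cast_ofNat (R := ℂ) (n := k)]
  exact natCast_mem O _

/-- **Core of the `ℓ = 3`, `p ≡ 2 mod 3` case.**  `a` is the `q`-expansion of a hypothetical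
`G ∈ M_2(Γ₀(p))` congruent to `1` modulo `9`, `e6` that of `E₆`, `c j` the expansion of
`G ∣ S T ^ j` in `t = q ^ (1 / p)`, and `qN` the `q`-expansion of the norm of
`(E₆ - G ^ 3) / 9 - e' E₆`, a level one form of weight `6 (p + 1)`, for which `hSturm` is the
Sturm bound modulo `3`. -/
theorem no_one_mod_nine_core (p : ℕ) (hp : p.Prime) (hp3 : p % 3 = 2)
    (a e6 qN : PowerSeries ℂ) (c : ℕ → PowerSeries ℂ) (ζ : ℂ) (hζ : ζ ^ p = 1)
    (ha0 : a.coeff 0 = 1) (ha : ∀ n, 1 ≤ n → ∃ x ∈ Oint 3, a.coeff n = 9 * x)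
    (he6 : ∀ n, e6.coeff n = if n = 0 then 1 else -504 * (sigma 5 n : ℂ))
    (hc : ∀ j < p, ∀ n, (c j).coeff n = -(a.coeff (p * n)) / p * ζ ^ (j * n))
    (hN : PowerSeries.expand p hp.ne_zero qN =
      ((1 / 9 : ℂ) • (PowerSeries.expand p hp.ne_zero e6 - (PowerSeries.expand p hp.ne_zero a) ^ 3)
          - (((p : ℂ) ^ 3 + 1) / (9 * (p : ℂ) ^ 3)) • PowerSeries.expand p hp.ne_zero e6) *
        ∏ j ∈ Finset.range p, ((1 / 9 : ℂ) • (PowerSeries.expand p hp.ne_zero e6 - (c j) ^ 3)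
          - (((p : ℂ) ^ 3 + 1) / (9 * (p : ℂ) ^ 3)) • PowerSeries.expand p hp.ne_zero e6))
    (hSturm : (∀ n ≤ (p + 1) / 2, ∃ y ∈ Oint 3, qN.coeff n = 3 * y) →
      ∀ n, ∃ y ∈ Oint 3, qN.coeff n = 3 * y) : False := by
  classical
  set O := Oint 3 with hO
  set ex := PowerSeries.expand (R := ℂ) p hp.ne_zero with hex
  set e' : ℂ := ((p : ℂ) ^ 3 + 1) / (9 * (p : ℂ) ^ 3) with he'
  have hp0 : (p : ℂ) ≠ 0 := by exact_mod_cast hp.ne_zero
  have hpcop : p.Coprime 3 := by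
    rw [Nat.coprime_primes hp Nat.prime_three]
    rintro rfl; omega
  -- the constants
  have he'O : e' ∈ O := by
    obtain ⟨m, hm⟩ : ∃ m : ℕ, p = 3 * m + 2 := ⟨p / 3, by omega⟩
    refine mem_Oint_of_mul_eq_int 3 (p ^ 3) (Nat.Coprime.pow_left 3 hpcop)
      (3 * m ^ 3 + 6 * m ^ 2 + 4 * m + 1 : ℤ) ?_
    rw [he']
    have hpm : (p : ℂ) = 3 * m + 2 := by exact_mod_cast hm
    push_cast
    field_simp
    rw [hpm]; ring
  set cc : ℂ := -1 / p with hcc
  have hccO : cc ∈ O := by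
    refine mem_Oint_of_mul_eq_int 3 p hpcop (-1 : ℤ) ?_
    rw [hcc]; push_cast; field_simp
  have hcc3 : cc ^ 3 = 1 - 9 * e' := by
    rw [hcc, he']; field_simp; ring
  have hζO : ζ ∈ O :=
    mem_Oint_of_isIntegral 3 (IsIntegral.of_pow hp.pos (by rw [hζ]; exact isIntegral_one))
  have hnat : ∀ k : ℕ, (k : ℂ) ∈ O := fun k => natCast_mem O k
  have hint : ∀ k : ℤ, (k : ℂ) ∈ O := fun k => intCast_mem O k
  -- the series `ψ = ∑ σ(n) qⁿ` and `r = (S₅ - ψ) / 3`
  choose m hm using sigma_five_sub_sigma_one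
  set ψ : PowerSeries ℂ := PowerSeries.mk fun n => (sigma 1 n : ℂ) with hψ
  set r : PowerSeries ℂ := PowerSeries.mk fun n => (m n : ℂ) with hr
  have hψO : ψ ∈ coeffSubring O := fun n => by rw [hψ, PowerSeries.coeff_mk]; exact hnat _
  have hrO : r ∈ coeffSubring O := fun n => by rw [hr, PowerSeries.coeff_mk]; exact hint _
  have he6eq : e6 = 1 - 504 * (ψ + 3 * r) := by
    ext n
    have h5 : (sigma 5 n : ℂ) = sigma 1 n + 3 * m n := by
      have := hm n
      have h' : ((sigma 5 n : ℤ) : ℂ) - ((sigma 1 n : ℤ) : ℂ) = 3 * (m n : ℂ) := by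
        exact_mod_cast congrArg (Int.cast : ℤ → ℂ) this
      push_cast at h'
      linear_combination h'
    rw [he6 n, map_sub, coeff_ofNat_mul, map_add, coeff_ofNat_mul, PowerSeries.coeff_one, hψ, hr,
      PowerSeries.coeff_mk, PowerSeries.coeff_mk]
    rcases Nat.eq_zero_or_pos n with rfl | hn
    · have h0 : (sigma 5 0 : ℂ) = 0 := by simp
      have h1 : (sigma 1 0 : ℂ) = 0 := by simp
      rw [h0] at h5
      simp only [if_true]
      rw [h1] at h5 ⊢
      linear_combination (-504 : ℂ) * h5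
    · rw [if_neg hn.ne', if_neg hn.ne', h5]; ring
  -- `a = 1 + 9 h`
  set h : PowerSeries ℂ := PowerSeries.mk fun n => if n = 0 then 0 else a.coeff n / 9 with hh
  have hhO : h ∈ coeffSubring O := fun n => by
    rw [hh, PowerSeries.coeff_mk]
    split_ifs with hn
    · exact O.zero_mem
    · obtain ⟨x, hx, hxe⟩ := ha n (Nat.one_le_iff_ne_zero.mpr hn)
      rw [hxe]
      have : (9 : ℂ) * x / 9 = x := by field_simp
      rw [this]; exact hx
  have haeq : a = 1 + 9 * h := by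
    ext n
    rw [map_add, coeff_ofNat_mul, PowerSeries.coeff_one, hh, PowerSeries.coeff_mk]
    rcases Nat.eq_zero_or_pos n with rfl | hn
    · simp [ha0]
    · rw [if_neg hn.ne', if_neg hn.ne']; ring
  -- the conjugates `c j = cc (1 + 9 u j)`
  set u : ℕ → PowerSeries ℂ := fun j =>
    PowerSeries.mk fun n => if n = 0 then 0 else h.coeff (p * n) * ζ ^ (j * n) with hu
  have huO : ∀ j, u j ∈ coeffSubring O := fun j n => by
    rw [hu]
    simp only [PowerSeries.coeff_mk]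
    split_ifs with hn
    · exact O.zero_mem
    · exact O.mul_mem (hhO _) (O.pow_mem hζO _)
  have hceq : ∀ j < p, c j = PowerSeries.C cc * (1 + 9 * u j) := by
    intro j hj
    ext n
    rw [hc j hj n, PowerSeries.coeff_C_mul, map_add, coeff_ofNat_mul, PowerSeries.coeff_one, hu]
    simp only [PowerSeries.coeff_mk]
    rcases Nat.eq_zero_or_pos n with rfl | hn
    · simp only [mul_zero, pow_zero, if_true, ha0, hcc]; ring
    · have hpn : p * n ≠ 0 := Nat.mul_ne_zero hp.ne_zero hn.ne'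
      rw [if_neg hn.ne', if_neg hn.ne', hh, PowerSeries.coeff_mk, if_neg hpn, hcc]
      field_simp
      ring
  -- expansions
  set x9 : PowerSeries ℂ := PowerSeries.C (1 / 9 : ℂ) with hx9
  have hx : x9 * 9 = 1 := by
    rw [hx9, ← map_ofNat (PowerSeries.C : ℂ →+* PowerSeries ℂ) 9, ← map_mul]
    norm_num
  set eS : PowerSeries ℂ := PowerSeries.C e' with heS
  have heSO : eS ∈ coeffSubring O := C_mem_coeffSubring O he'O
  have hCcc3 : (PowerSeries.C cc : PowerSeries ℂ) ^ 3 = 1 - 9 * eS := by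
    rw [← map_pow, hcc3, heS, map_sub, map_mul, map_one, map_ofNat]
  set Ψ := ex ψ with hΨ
  set Rr := ex r with hRr
  set H := ex h with hH
  have hΨO : Ψ ∈ coeffSubring O := expand_mem_coeffSubring O p hp.ne_zero hψO
  have hRrO : Rr ∈ coeffSubring O := expand_mem_coeffSubring O p hp.ne_zero hrO
  have hHO : H ∈ coeffSubring O := expand_mem_coeffSubring O p hp.ne_zero hhO
  have hE : ex e6 = 1 - 504 * (Ψ + 3 * Rr) := by
    rw [he6eq, hΨ, hRr]
    simp only [map_sub, map_mul, map_add, map_one, map_ofNat]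
  have hA : ex a = 1 + 9 * H := by
    rw [haeq, hH]
    simp only [map_mul, map_add, map_one, map_ofNat]
  have h3O : (3 : PowerSeries ℂ) ∈ coeffSubring O := ofNat_mem_coeffSubring O 3
  have hnumO : ∀ k : ℕ, ((k : ℕ) : PowerSeries ℂ) ∈ coeffSubring O :=
    fun k => natCast_mem (coeffSubring O) k
  -- the expansion at infinity
  set Ainf : PowerSeries ℂ :=
    -19 * Ψ - 56 * Rr - H - 9 * H ^ 2 - 27 * H ^ 3 + 168 * eS * Ψ + 504 * eS * Rr with hAinf
  have hAinfO : Ainf ∈ coeffSubring O := by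
    rw [hAinf]
    have e19 : (-19 : PowerSeries ℂ) = -((19 : ℕ) : PowerSeries ℂ) := by norm_num
    have e56 : (56 : PowerSeries ℂ) = ((56 : ℕ) : PowerSeries ℂ) := by norm_num
    have e9 : (9 : PowerSeries ℂ) = ((9 : ℕ) : PowerSeries ℂ) := by norm_num
    have e27 : (27 : PowerSeries ℂ) = ((27 : ℕ) : PowerSeries ℂ) := by norm_num
    have e168 : (168 : PowerSeries ℂ) = ((168 : ℕ) : PowerSeries ℂ) := by norm_num
    have e504 : (504 : PowerSeries ℂ) = ((504 : ℕ) : PowerSeries ℂ) := by norm_num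
    rw [e19, e56, e9, e27, e168, e504]
    set 𝕆 := coeffSubring O
    have n19 := hnumO 19; have n56 := hnumO 56; have n9 := hnumO 9; have n27 := hnumO 27
    have n168 := hnumO 168; have n504 := hnumO 504
    exact 𝕆.add_mem (𝕆.add_mem (𝕆.sub_mem (𝕆.sub_mem (𝕆.sub_mem (𝕆.sub_mem
      (𝕆.mul_mem (𝕆.neg_mem n19) hΨO) (𝕆.mul_mem n56 hRrO)) hHO)
      (𝕆.mul_mem n9 (𝕆.pow_mem hHO 2))) (𝕆.mul_mem n27 (𝕆.pow_mem hHO 3)))
      (𝕆.mul_mem (𝕆.mul_mem n168 heSO) hΨO)) (𝕆.mul_mem (𝕆.mul_mem n504 heSO) hRrO)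
  have hinf : (1 / 9 : ℂ) • (ex e6 - (ex a) ^ 3) - e' • ex e6 = Ψ - eS + 3 * Ainf := by
    rw [PowerSeries.smul_eq_C_mul, PowerSeries.smul_eq_C_mul]
    exact serInf_eq x9 (ex a) (ex e6) Ψ Rr H eS hx hA hE
  -- the expansions at the other conjugates
  set B : ℕ → PowerSeries ℂ := fun j =>
    -19 * Ψ - 56 * Rr - (1 - 9 * eS) * (u j + 9 * (u j) ^ 2 + 27 * (u j) ^ 3)
      + 168 * eS * Ψ + 504 * eS * Rr with hB
  have hBO : ∀ j, B j ∈ coeffSubring O := by
    intro j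
    rw [hB]
    have e19 : (-19 : PowerSeries ℂ) = -((19 : ℕ) : PowerSeries ℂ) := by norm_num
    have e56 : (56 : PowerSeries ℂ) = ((56 : ℕ) : PowerSeries ℂ) := by norm_num
    have e9 : (9 : PowerSeries ℂ) = ((9 : ℕ) : PowerSeries ℂ) := by norm_num
    have e27 : (27 : PowerSeries ℂ) = ((27 : ℕ) : PowerSeries ℂ) := by norm_num
    have e168 : (168 : PowerSeries ℂ) = ((168 : ℕ) : PowerSeries ℂ) := by norm_num
    have e504 : (504 : PowerSeries ℂ) = ((504 : ℕ) : PowerSeries ℂ) := by norm_num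
    simp only []
    rw [e19, e56, e9, e27, e168, e504]
    set 𝕆 := coeffSubring O
    have n19 := hnumO 19; have n56 := hnumO 56; have n9 := hnumO 9; have n27 := hnumO 27
    have n168 := hnumO 168; have n504 := hnumO 504
    have huj := huO j
    exact 𝕆.add_mem (𝕆.add_mem (𝕆.sub_mem (𝕆.sub_mem
      (𝕆.mul_mem (𝕆.neg_mem n19) hΨO) (𝕆.mul_mem n56 hRrO))
      (𝕆.mul_mem (𝕆.sub_mem 𝕆.one_mem (𝕆.mul_mem n9 heSO))
        (𝕆.add_mem (𝕆.add_mem huj (𝕆.mul_mem n9 (𝕆.pow_mem huj 2)))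
          (𝕆.mul_mem n27 (𝕆.pow_mem huj 3)))))
      (𝕆.mul_mem (𝕆.mul_mem n168 heSO) hΨO)) (𝕆.mul_mem (𝕆.mul_mem n504 heSO) hRrO)
  have hconj : ∀ j ∈ Finset.range p,
      (1 / 9 : ℂ) • (ex e6 - (c j) ^ 3) - e' • ex e6 = Ψ + 3 * B j := by
    intro j hj
    rw [PowerSeries.smul_eq_C_mul, PowerSeries.smul_eq_C_mul]
    exact serConj_eq x9 (c j) (PowerSeries.C cc) (u j) (ex e6) Ψ Rr eS hx
      (hceq j (Finset.mem_range.mp hj)) hCcc3 hE
  obtain ⟨Cc, hCcO, hprod⟩ := prod_congr_three (coeffSubring O) Ψ hΨO (Finset.range p)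
    (fun j => (1 / 9 : ℂ) • (ex e6 - (c j) ^ 3) - e' • ex e6) B (fun j _ => hBO j) hconj
  rw [Finset.card_range] at hprod
  -- the norm
  set D : PowerSeries ℂ := (Ψ - eS) * Cc + Ainf * Ψ ^ p + 3 * Ainf * Cc with hD
  have hDO : D ∈ coeffSubring O := by
    set 𝕆 := coeffSubring O
    exact 𝕆.add_mem (𝕆.add_mem (𝕆.mul_mem (𝕆.sub_mem hΨO heSO) hCcO)
      (𝕆.mul_mem hAinfO (𝕆.pow_mem hΨO p))) (𝕆.mul_mem (𝕆.mul_mem h3O hAinfO) hCcO)
  have hNeq : ex qN = ex ((ψ - PowerSeries.C e') * ψ ^ p) + 3 * D := by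
    rw [hN, hinf, hprod, hD, map_mul, map_sub, map_pow, ← hΨ, hex, PowerSeries.expand_C, ← heS]
    ring
  have hcoeff : ∀ n, qN.coeff n = ((ψ - PowerSeries.C e') * ψ ^ p).coeff n + 3 * D.coeff (p * n) := by
    intro n
    have := congrArg (PowerSeries.coeff (p * n)) hNeq
    rw [hex, PowerSeries.coeff_expand_mul, map_add, PowerSeries.coeff_expand_mul,
      coeff_ofNat_mul] at this
    exact this
  -- `ψ = X ψ₁`
  have hψ0 : PowerSeries.constantCoeff ψ = 0 := by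
    rw [← PowerSeries.coeff_zero_eq_constantCoeff_apply, hψ, PowerSeries.coeff_mk]; simp
  obtain ⟨ψ₁, hψ₁⟩ := PowerSeries.X_dvd_iff.mpr hψ0
  have hψ₁0 : PowerSeries.constantCoeff ψ₁ = 1 := by
    have := congrArg (PowerSeries.coeff 1) hψ₁
    rw [show (1 : ℕ) = 0 + 1 from rfl, PowerSeries.coeff_succ_X_mul, hψ, PowerSeries.coeff_mk,
      PowerSeries.coeff_zero_eq_constantCoeff_apply] at this
    rw [← this]; simp
  have hψ₁1 : PowerSeries.coeff 1 ψ₁ = 3 := by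
    have := congrArg (PowerSeries.coeff 2) hψ₁
    rw [show (2 : ℕ) = 1 + 1 from rfl, PowerSeries.coeff_succ_X_mul, hψ, PowerSeries.coeff_mk] at this
    rw [← this]
    have : sigma 1 (1 + 1) = 3 := by decide
    rw [this]; norm_num
  have hfact : (ψ - PowerSeries.C e') * ψ ^ p =
      PowerSeries.X ^ p * ((PowerSeries.X * ψ₁ - PowerSeries.C e') * ψ₁ ^ p) := by
    rw [hψ₁]; ring
  have hlow : ∀ n < p, ((ψ - PowerSeries.C e') * ψ ^ p).coeff n = 0 := by
    have : (PowerSeries.X : PowerSeries ℂ) ^ p ∣ (ψ - PowerSeries.C e') * ψ ^ p :=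
      ⟨_, hfact⟩
    exact PowerSeries.X_pow_dvd_iff.mp this
  have hhigh : ((ψ - PowerSeries.C e') * ψ ^ p).coeff (p + 1) = 1 - 3 * p * e' := by
    have hF1c : PowerSeries.coeff 1 (PowerSeries.X * ψ₁ - PowerSeries.C e') = 1 := by
      rw [map_sub, show (1 : ℕ) = 0 + 1 from rfl, PowerSeries.coeff_succ_X_mul,
        PowerSeries.coeff_zero_eq_constantCoeff_apply, hψ₁0, PowerSeries.coeff_C]
      simp
    have hF10 : PowerSeries.constantCoeff (PowerSeries.X * ψ₁ - PowerSeries.C e') = -e' := by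
      rw [map_sub, map_mul, PowerSeries.constantCoeff_X, PowerSeries.constantCoeff_C]
      ring
    have hF2c : PowerSeries.coeff 1 (ψ₁ ^ p) = 3 * p := by
      rw [PowerSeries.coeff_one_pow, hψ₁0, hψ₁1]
      simp; ring
    have hF20 : PowerSeries.constantCoeff (ψ₁ ^ p) = 1 := by
      rw [map_pow, hψ₁0, one_pow]
    rw [hfact, add_comm p 1, PowerSeries.coeff_X_pow_mul, PowerSeries.coeff_one_mul,
      hF1c, hF10, hF2c, hF20]
    ring
  -- Sturm
  have hS := hSturm (fun n hn => by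
    have hnp : n < p := by
      have := hp.two_le
      omega
    exact ⟨D.coeff (p * n), hDO _, by rw [hcoeff n, hlow n hnp, zero_add]⟩)
  obtain ⟨y, hyO, hy⟩ := hS (p + 1)
  rw [hcoeff (p + 1), hhigh] at hy
  refine one_not_mem_smul_Oint 3 (by norm_num) (y + p * e' - D.coeff (p * (p + 1)))
    (O.sub_mem (O.add_mem hyO (O.mul_mem (hnat p) he'O)) (hDO _)) ?_
  push_cast
  linear_combination hy

end Fermat.Agent.S16.helper385
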