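import Mathlib
import Fermat.Agent.Lib.helper386_QExpBridge
import Fermat.Agent.S24.helper3874_RamanujanJ

/-!
# S16, leaf L1-MOD (helper4027), part 1: formal `q`-series of `E₂`, `E₄`, `E₆` over `ℤ`
and the Ramanujan identities as identities of formal power series.

* `theta` : the operator `q d/dq` on formal power series.
* `E2Z`, `E4Z`, `E6Z : PowerSeries ℤ`.
* `qExpansion_E2`, `qExpansion_E₄`, `qExpansion_E₆` : bridges to Mathlib's analytic objects.
* `ramanujan_E2Z`, `ramanujan_E4Z`, `ramanujan_E6Z` : the three Ramanujan identities in `ℤ⟦q⟧`.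
* `E4Z_cube_sub_E6Z_sq` : `E4Z ^ 3 - E6Z ^ 2 = 1728 * deltaSeries`.
-/

set_option autoImplicit false

open UpperHalfPlane hiding I
open Real Complex ModularForm EisensteinSeries Derivative Filter Topology Function
open scoped MatrixGroups Manifold

namespace Fermat.Agent.S16.helper4027

local notation "𝕢" => Periodic.qParam

/-! ## The operator `θ = q d/dq` on formal power series -/

section Theta

variable {R : Type*} [CommRing R]

/-- `θ = q d/dq` on formal power series. -/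
noncomputable def theta (f : PowerSeries R) : PowerSeries R :=
  PowerSeries.mk fun n => (n : R) * PowerSeries.coeff n f

@[simp] lemma coeff_theta (f : PowerSeries R) (n : ℕ) :
    PowerSeries.coeff n (theta f) = (n : R) * PowerSeries.coeff n f :=
  PowerSeries.coeff_mk _ _

lemma theta_add (f g : PowerSeries R) : theta (f + g) = theta f + theta g := by
  ext n; simp [mul_add]

lemma theta_sub (f g : PowerSeries R) : theta (f - g) = theta f - theta g := by
  ext n; simp [mul_sub]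

lemma theta_neg (f : PowerSeries R) : theta (-f) = -theta f := by
  ext n; simp

lemma theta_zero : theta (0 : PowerSeries R) = 0 := by
  ext n; simp

lemma theta_C (c : R) : theta (PowerSeries.C c) = 0 := by
  ext n
  rcases Nat.eq_zero_or_pos n with rfl | hn
  · simp
  · simp [PowerSeries.coeff_C, hn.ne']

lemma theta_one : theta (1 : PowerSeries R) = 0 := by
  simpa using theta_C (1 : R)

lemma theta_mul (f g : PowerSeries R) : theta (f * g) = theta f * g + f * theta g := by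
  ext n
  simp only [coeff_theta, PowerSeries.coeff_mul, map_add, Finset.mul_sum]
  rw [← Finset.sum_add_distrib]
  refine Finset.sum_congr rfl ?_
  rintro ⟨i, j⟩ hij
  have hn : i + j = n := Finset.HasAntidiagonal.mem_antidiagonal.mp hij
  subst hn
  push_cast
  ring

lemma theta_C_mul (c : R) (f : PowerSeries R) :
    theta (PowerSeries.C c * f) = PowerSeries.C c * theta f := by
  rw [theta_mul, theta_C, zero_mul, zero_add]

lemma theta_pow (f : PowerSeries R) (n : ℕ) :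
    theta (f ^ (n + 1)) = ((n + 1 : ℕ) : PowerSeries R) * f ^ n * theta f := by
  induction n with
  | zero => simp
  | succ n ih =>
    rw [pow_succ, theta_mul, ih]
    push_cast
    ring

lemma map_theta {S : Type*} [CommRing S] (φ : R →+* S) (f : PowerSeries R) :
    PowerSeries.map φ (theta f) = theta (PowerSeries.map φ f) := by
  ext n; simp

end Theta

/-! ## The integer `q`-series -/

/-- The formal series `∑ σ_j(n) qⁿ` over `ℤ`. -/
noncomputable def sigSeries (j : ℕ) : PowerSeries ℤ :=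
  PowerSeries.mk fun n => (ArithmeticFunction.sigma j n : ℤ)

@[simp] lemma coeff_sigSeries (j n : ℕ) :
    PowerSeries.coeff n (sigSeries j) = (ArithmeticFunction.sigma j n : ℤ) :=
  PowerSeries.coeff_mk _ _

/-- `E₂ = 1 - 24 ∑ σ₁(n) qⁿ` as an integer power series. -/
noncomputable def E2Z : PowerSeries ℤ :=
  PowerSeries.mk fun n => if n = 0 then 1 else -24 * (ArithmeticFunction.sigma 1 n : ℤ)

/-- `E₄ = 1 + 240 ∑ σ₃(n) qⁿ` as an integer power series. -/
noncomputable def E4Z : PowerSeries ℤ :=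
  PowerSeries.mk fun n => if n = 0 then 1 else 240 * (ArithmeticFunction.sigma 3 n : ℤ)

/-- `E₆ = 1 - 504 ∑ σ₅(n) qⁿ` as an integer power series. -/
noncomputable def E6Z : PowerSeries ℤ :=
  PowerSeries.mk fun n => if n = 0 then 1 else -504 * (ArithmeticFunction.sigma 5 n : ℤ)

lemma coeff_E2Z (n : ℕ) : PowerSeries.coeff n E2Z =
    if n = 0 then 1 else -24 * (ArithmeticFunction.sigma 1 n : ℤ) := PowerSeries.coeff_mk _ _

lemma coeff_E4Z (n : ℕ) : PowerSeries.coeff n E4Z =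
    if n = 0 then 1 else 240 * (ArithmeticFunction.sigma 3 n : ℤ) := PowerSeries.coeff_mk _ _

lemma coeff_E6Z (n : ℕ) : PowerSeries.coeff n E6Z =
    if n = 0 then 1 else -504 * (ArithmeticFunction.sigma 5 n : ℤ) := PowerSeries.coeff_mk _ _

/-- The `q`-expansion of `E₄` is `E4Z`. -/
theorem qExpansion_E₄ : qExpansion 1 E₄ = E4Z.map (Int.castRingHom ℂ) := by
  ext m
  rw [EisensteinSeries.E_qExpansion_coeff (by norm_num : 3 ≤ 4) ⟨2, rfl⟩ m, PowerSeries.coeff_map,
    coeff_E4Z]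
  have hb : bernoulli 4 = -1 / 30 := by decide +kernel
  split_ifs with h
  · simp
  · rw [hb, eq_intCast]
    push_cast
    ring

/-- The `q`-expansion of `E₆` is `E6Z`. -/
theorem qExpansion_E₆ : qExpansion 1 E₆ = E6Z.map (Int.castRingHom ℂ) := by
  ext m
  rw [EisensteinSeries.E_qExpansion_coeff (by norm_num : 3 ≤ 6) ⟨3, rfl⟩ m, PowerSeries.coeff_map,
    coeff_E6Z]
  have hb : bernoulli 6 = 1 / 42 := by decide +kernel
  split_ifs with h
  · simp
  · rw [hb, eq_intCast]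
    push_cast
    ring

/-! ## Nice functions: periodic, holomorphic, bounded at `i∞` -/

open Fermat.Agent.S24.helper3874

/-- A function on `ℍ` that is `1`-periodic, holomorphic and bounded at `i∞`. -/
structure Nice (f : ℍ → ℂ) : Prop where
  per : Periodic (f ∘ ofComplex) (1 : ℝ)
  hol : MDiff f
  bdd : IsBoundedAtImInfty f

lemma Nice.analytic {f : ℍ → ℂ} (hf : Nice f) : AnalyticAt ℂ (cuspFunction 1 f) 0 :=
  analyticAt_cuspFunction_zero one_pos hf.per hf.hol hf.bdd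

lemma Nice.hasSum {f : ℍ → ℂ} (hf : Nice f) (τ : ℍ) :
    HasSum (fun m : ℕ => (qExpansion 1 f).coeff m • 𝕢 1 τ ^ m) (f τ) :=
  hasSum_qExpansion one_pos hf.per hf.hol hf.bdd τ

lemma Nice.mul {f g : ℍ → ℂ} (hf : Nice f) (hg : Nice g) : Nice (f * g) where
  per := by
    have : (f * g) ∘ ofComplex = (f ∘ ofComplex) * (g ∘ ofComplex) := rfl
    rw [this]
    exact hf.per.mul hg.per
  hol := hf.hol.mul hg.hol
  bdd := hf.bdd.mul hg.bdd

lemma Nice.add {f g : ℍ → ℂ} (hf : Nice f) (hg : Nice g) : Nice (f + g) where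
  per := by
    have : (f + g) ∘ ofComplex = (f ∘ ofComplex) + (g ∘ ofComplex) := rfl
    rw [this]
    exact hf.per.add hg.per
  hol := hf.hol.add hg.hol
  bdd := hf.bdd.add hg.bdd

lemma Nice.sub {f g : ℍ → ℂ} (hf : Nice f) (hg : Nice g) : Nice (f - g) where
  per := by
    have : (f - g) ∘ ofComplex = (f ∘ ofComplex) - (g ∘ ofComplex) := rfl
    rw [this]
    exact hf.per.sub hg.per
  hol := hf.hol.sub hg.hol
  bdd := hf.bdd.sub hg.bdd

lemma Nice.smul {f : ℍ → ℂ} (hf : Nice f) (c : ℂ) : Nice (c • f) where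
  per := by
    intro w
    have h := hf.per w
    simp only [comp_apply, Pi.smul_apply] at h ⊢
    rw [h]
  hol := hf.hol.const_smul c
  bdd := hf.bdd.const_smul_left c

lemma nice_E2 : Nice E2 := ⟨periodic_E2, E2_mdifferentiable, isBoundedAtImInfty_E2⟩

lemma nice_levelOne {k : ℤ} (F : ModularForm 𝒮ℒ k) : Nice (F : ℍ → ℂ) :=
  ⟨periodic_of_levelOne F, ModularFormClass.holo F, isBoundedAtImInfty_of_levelOne F⟩

/-- Uniqueness of `q`-expansion coefficients for plain functions on `ℍ`. -/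
theorem qExpansion_coeff_unique' {f : ℍ → ℂ} {c : ℕ → ℂ}
    (hfanalytic : AnalyticAt ℂ (cuspFunction 1 f) 0)
    (hf : ∀ τ : ℍ, HasSum (fun m ↦ c m • 𝕢 1 τ ^ m) (f τ)) (m : ℕ) :
    c m = (qExpansion 1 f).coeff m := by
  have h1 := (hasFPowerSeriesOnBall_cuspFunction one_pos hfanalytic hf).hasFPowerSeriesAt
  have h2 : HasFPowerSeriesAt (cuspFunction 1 f)
      (FormalMultilinearSeries.ofScalars ℂ fun m ↦ (qExpansion 1 f).coeff m) 0 := by
    simpa [qExpansion_coeff, div_eq_mul_inv, mul_comm] using hfanalytic.hasFPowerSeriesAt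
  simpa [FormalMultilinearSeries.coeff_ofScalars] using
    congr_arg (FormalMultilinearSeries.coeff · m) (h1.eq_formalMultilinearSeries h2)

/-- Termwise differentiation of the `q`-expansion. -/
theorem Nice.hasSum_D {f : ℍ → ℂ} (hf : Nice f) (τ : ℍ) :
    HasSum (fun m : ℕ => ((m : ℂ) * (qExpansion 1 f).coeff m) • 𝕢 1 τ ^ m) (D f τ) := by
  have hq : ‖𝕢 1 (τ : ℂ)‖ < 1 := Periodic.norm_qParam_lt_one one_pos τ.im_pos
  have hdiff : DifferentiableOn ℂ (cuspFunction 1 f) (Metric.ball 0 1) :=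
    differentiableOn_cuspFunction_ball one_pos hf.per hf.hol hf.bdd
  have hdiff' : DifferentiableOn ℂ (deriv (cuspFunction 1 f)) (Metric.ball 0 1) :=
    hdiff.deriv Metric.isOpen_ball
  have h1 := Complex.hasSum_taylorSeries_on_ball hdiff' (z := 𝕢 1 (τ : ℂ)) (by simpa using hq)
  have h2 := h1.mul_left (𝕢 1 (τ : ℂ))
  have hfun : (fun n : ℕ => (((n + 1 : ℕ) : ℂ) * (qExpansion 1 f).coeff (n + 1)) •
        𝕢 1 (τ : ℂ) ^ (n + 1)) =
      fun i : ℕ => 𝕢 1 (τ : ℂ) * (((i.factorial : ℕ) : ℂ)⁻¹ • (𝕢 1 (τ : ℂ) - 0) ^ i •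
        iteratedDeriv i (deriv (cuspFunction 1 f)) 0) := by
    funext n
    rw [qExpansion_coeff, ← iteratedDeriv_succ', Nat.factorial_succ]
    simp only [sub_zero, smul_eq_mul, Nat.cast_mul, Nat.cast_succ]
    have hn : ((n : ℂ) + 1) ≠ 0 := by exact_mod_cast Nat.succ_ne_zero n
    have hfac : ((n.factorial : ℕ) : ℂ) ≠ 0 := by exact_mod_cast Nat.factorial_ne_zero n
    field_simp
    ring
  rw [← hfun] at h2
  rw [normalizedDeriv_eq_qParam_mul hf.per hf.hol hf.bdd τ]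
  have h3 := (hasSum_nat_add_iff' (f := fun m : ℕ => ((m : ℂ) * (qExpansion 1 f).coeff m) •
    𝕢 1 (τ : ℂ) ^ m) 1).mp (by simpa using h2)
  simpa using h3

/-- The `q`-expansion of `D f` is `θ` of the `q`-expansion of `f`. -/
theorem Nice.qExpansion_D {f : ℍ → ℂ} (hf : Nice f)
    (hD : AnalyticAt ℂ (cuspFunction 1 (D f)) 0) :
    qExpansion 1 (D f) = theta (qExpansion 1 f) := by
  ext m
  rw [coeff_theta]
  exact (qExpansion_coeff_unique' hD (fun τ => hf.hasSum_D τ) m).symm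

/-- The `q`-expansion of `E2` is `E2Z`. -/
theorem qExpansion_E2 : qExpansion 1 E2 = E2Z.map (Int.castRingHom ℂ) := by
  ext m
  have hsum : ∀ τ : ℍ, HasSum (fun m : ℕ ↦ (if m = 0 then (1 : ℂ) else
      -24 * (ArithmeticFunction.sigma 1 m : ℂ)) • 𝕢 1 τ ^ m) (E2 τ) := by
    intro τ
    simpa only [Function.Periodic.qParam, ofReal_one, div_one] using hasSum_qExpansion_E2 (z := τ)
  rw [← qExpansion_coeff_unique' nice_E2.analytic hsum m,
    PowerSeries.coeff_map, coeff_E2Z, eq_intCast]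
  split_ifs with h
  · simp
  · push_cast
    ring

/-! ## Ramanujan's identity for `E2` (analytic) -/

lemma one_slash_apply (γ : SL(2, ℤ)) (z : ℍ) :
    ((fun _ : ℍ => (1 : ℂ)) ∣[(1 : ℤ)] γ) z = (denom γ z)⁻¹ := by
  rw [ModularForm.SL_slash_apply]
  simp

lemma D2_eq (γ : SL(2, ℤ)) :
    D2 γ = (2 * π * I * (γ 1 0 : ℂ)) • ((fun _ : ℍ => (1 : ℂ)) ∣[(1 : ℤ)] γ) := by
  funext z
  simp [D2, one_slash_apply, div_eq_mul_inv]

lemma mdiff_one_slash (γ : SL(2, ℤ)) : MDiff ((fun _ : ℍ => (1 : ℂ)) ∣[(1 : ℤ)] γ) := by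
  rw [ModularForm.SL_slash]
  exact (mdifferentiable_const).slash 1 _

lemma mdiff_D2 (γ : SL(2, ℤ)) : MDiff (D2 γ) := by
  rw [D2_eq]
  exact (mdiff_one_slash γ).const_smul _

lemma D_D2 (γ : SL(2, ℤ)) (z : ℍ) :
    D (D2 γ) z = -((γ 1 0 : ℂ)) ^ 2 / (denom γ z) ^ 2 := by
  rw [D2_eq, normalizedDerivOfComplex_smul _ _ (mdiff_one_slash γ)]
  have h := congrFun (normalizedDerivOfComplex_SL_slash (k := 1) (F := fun _ : ℍ => (1 : ℂ))
    mdifferentiable_const (γ := γ)) z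
  have h0 : D (fun _ : ℍ => (1 : ℂ)) = 0 := normalizedDerivOfComplex_const 1
  have hz := denom_ne_zero γ z
  have hpi : (2 * (π : ℂ) * I) ≠ 0 := two_pi_I_ne_zero'
  simp only [Pi.smul_apply, smul_eq_mul, h, Pi.sub_apply, h0, SlashAction.zero_slash,
    Pi.zero_apply, zero_sub, one_slash_apply]
  field_simp
  push_cast
  ring

/-- The function `D E2 - E2² / 12`, which is a modular form of weight `4`. -/
noncomputable def psiFun : ℍ → ℂ := D E2 - (12⁻¹ : ℂ) • (E2 * E2)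

lemma psiFun_apply (z : ℍ) : psiFun z = D E2 z - 12⁻¹ * (E2 z * E2 z) := rfl

lemma psiFun_slash (γ : SL(2, ℤ)) : psiFun ∣[(4 : ℤ)] γ = psiFun := by
  have hD := normalizedDerivOfComplex_SL_slash (k := 2) E2_mdifferentiable (γ := γ)
  have hE := E2_slash_action γ
  have hmul := ModularForm.mul_slash_SL2 2 2 γ E2 E2
  have hsub : D (E2 ∣[(2 : ℤ)] γ) = D E2 - (1 / (2 * riemannZeta 2)) • D (D2 γ) := by
    rw [hE, normalizedDerivOfComplex_sub _ _ E2_mdifferentiable ((mdiff_D2 γ).const_smul _),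
      normalizedDerivOfComplex_smul _ _ (mdiff_D2 γ)]
  funext z
  have hz := denom_ne_zero γ z
  have hpi : (2 * (π : ℂ) * I) ≠ 0 := two_pi_I_ne_zero'
  have hpi' : (π : ℂ) ≠ 0 := by exact_mod_cast Real.pi_ne_zero
  have h1 := congrFun hD z
  have h2 := congrFun hsub z
  have h3 := congrFun hmul z
  have h4 := congrFun hE z
  have h5 := D_D2 γ z
  have hpsi : (psiFun ∣[(4 : ℤ)] γ) z =
      (D E2 ∣[(2 + 2 : ℤ)] γ) z - 12⁻¹ * ((E2 * E2) ∣[(2 + 2 : ℤ)] γ) z := by
    have : (4 : ℤ) = 2 + 2 := by norm_num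
    rw [this, psiFun, sub_eq_add_neg, SlashAction.add_slash, SlashAction.neg_slash,
      ModularForm.SL_smul_slash]
    simp [sub_eq_add_neg]
  rw [hpsi, h3, psiFun_apply]
  simp only [Pi.sub_apply, Pi.smul_apply, smul_eq_mul, Pi.mul_apply] at h1 h2 h4 ⊢
  rw [h4] at h1 ⊢
  rw [h2, h5] at h1
  have key : (D E2 ∣[(2 + 2 : ℤ)] γ) z = D E2 z - 1 / (2 * riemannZeta 2) *
      (-((γ 1 0 : ℂ)) ^ 2 / (denom γ z) ^ 2) + ((2 : ℤ) : ℂ) * (2 * π * I)⁻¹ *
      ((γ 1 0 : ℂ) / denom γ z) * (E2 z - 1 / (2 * riemannZeta 2) * D2 γ z) := by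
    linear_combination -h1
  rw [key]
  simp only [D2, riemannZeta_two]
  have hI3 : I ^ 3 = -I := by rw [pow_succ, I_sq]; ring
  field_simp
  push_cast
  ring_nf
  simp only [hI3, I_sq]
  ring

lemma mdiff_psiFun : MDiff psiFun :=
  (normalizedDerivOfComplex_mdifferentiable E2_mdifferentiable).sub
    ((E2_mdifferentiable.mul E2_mdifferentiable).const_smul _)

lemma tendsto_psiFun : Tendsto psiFun atImInfty (𝓝 (-(12⁻¹ : ℂ))) := by
  have h1 : Tendsto (D E2) atImInfty (𝓝 0) :=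
    isZeroAtImInfty_normalizedDeriv periodic_E2 E2_mdifferentiable isBoundedAtImInfty_E2
  have h2 := (tendsto_E2.mul tendsto_E2).const_mul (12⁻¹ : ℂ)
  have h3 := h1.sub h2
  have hfun : psiFun = fun z => D E2 z - 12⁻¹ * (E2 z * E2 z) := by
    funext z
    rfl
  rw [hfun]
  convert h3 using 2
  norm_num

/-- `D E2 - E2² / 12` as a level-one modular form of weight `4`. -/
noncomputable def psiMF : ModularForm 𝒮ℒ 4 where
  toFun := psiFun
  slash_action_eq' := fun _ ⟨γ, hγ⟩ ↦ hγ ▸ psiFun_slash γ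
  holo' := mdiff_psiFun
  bdd_at_cusps' {c} hc := by
    rw [Subgroup.IsArithmetic.isCusp_iff_isCusp_SL2Z] at hc
    rw [OnePoint.isBoundedAt_iff_forall_SL2Z hc]
    intro γ _
    rw [psiFun_slash γ]
    exact tendsto_psiFun.isBigO_one ℝ

/-- **Ramanujan's identity for `E2`**: `D E2 = (E2² - E₄) / 12`. -/
theorem ramanujan_E2 (z : ℍ) : D E2 z = 12⁻¹ * (E2 z * E2 z - E₄ z) := by
  have h := eq_mul_of_rank_one levelOne_weight_four_rank_one E₄ psiMF tendsto_E₄ tendsto_psiFun z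
  have h2 : psiMF z = D E2 z - 12⁻¹ * (E2 z * E2 z) := rfl
  rw [h2] at h
  linear_combination h

/-! ## Ramanujan's identities for the `q`-expansions -/

lemma D_E2_eq : D E2 = (12⁻¹ : ℂ) • (E2 * E2 - (E₄ : ℍ → ℂ)) := by
  funext z
  simpa using ramanujan_E2 z

lemma D_E₄_eq : D (E₄ : ℍ → ℂ) = (3⁻¹ : ℂ) • (E2 * (E₄ : ℍ → ℂ) - (E₆ : ℍ → ℂ)) := by
  funext z
  have h := ramanujan_E₄ z
  simp only [Pi.smul_apply, Pi.sub_apply, Pi.mul_apply, smul_eq_mul]
  rw [h]
  ring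

lemma D_E₆_eq : D (E₆ : ℍ → ℂ) =
    (2⁻¹ : ℂ) • (E2 * (E₆ : ℍ → ℂ) - (E₄ : ℍ → ℂ) * (E₄ : ℍ → ℂ)) := by
  funext z
  have h := ramanujan_E₆ z
  simp only [Pi.smul_apply, Pi.sub_apply, Pi.mul_apply, smul_eq_mul]
  rw [h]
  ring

theorem theta_qExpansion_E2 : theta (qExpansion 1 E2) =
    (12⁻¹ : ℂ) • (qExpansion 1 E2 * qExpansion 1 E2 - qExpansion 1 E₄) := by
  have hn : Nice (E2 * E2 - (E₄ : ℍ → ℂ)) := (nice_E2.mul nice_E2).sub (nice_levelOne E₄)
  have hD : AnalyticAt ℂ (cuspFunction 1 (D E2)) 0 := by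
    rw [D_E2_eq]
    exact (hn.smul _).analytic
  rw [← nice_E2.qExpansion_D hD, D_E2_eq, UpperHalfPlane.qExpansion_smul hn.analytic,
    UpperHalfPlane.qExpansion_sub (nice_E2.mul nice_E2).analytic (nice_levelOne E₄).analytic,
    UpperHalfPlane.qExpansion_mul nice_E2.analytic nice_E2.analytic]

theorem theta_qExpansion_E₄ : theta (qExpansion 1 E₄) =
    (3⁻¹ : ℂ) • (qExpansion 1 E2 * qExpansion 1 E₄ - qExpansion 1 E₆) := by
  have hn : Nice (E2 * (E₄ : ℍ → ℂ) - (E₆ : ℍ → ℂ)) :=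
    (nice_E2.mul (nice_levelOne E₄)).sub (nice_levelOne E₆)
  have hD : AnalyticAt ℂ (cuspFunction 1 (D (E₄ : ℍ → ℂ))) 0 := by
    rw [D_E₄_eq]
    exact (hn.smul _).analytic
  rw [← (nice_levelOne E₄).qExpansion_D hD, D_E₄_eq, UpperHalfPlane.qExpansion_smul hn.analytic,
    UpperHalfPlane.qExpansion_sub (nice_E2.mul (nice_levelOne E₄)).analytic
      (nice_levelOne E₆).analytic,
    UpperHalfPlane.qExpansion_mul nice_E2.analytic (nice_levelOne E₄).analytic]

theorem theta_qExpansion_E₆ : theta (qExpansion 1 E₆) =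
    (2⁻¹ : ℂ) • (qExpansion 1 E2 * qExpansion 1 E₆ - qExpansion 1 E₄ * qExpansion 1 E₄) := by
  have hn : Nice (E2 * (E₆ : ℍ → ℂ) - (E₄ : ℍ → ℂ) * (E₄ : ℍ → ℂ)) :=
    (nice_E2.mul (nice_levelOne E₆)).sub ((nice_levelOne E₄).mul (nice_levelOne E₄))
  have hD : AnalyticAt ℂ (cuspFunction 1 (D (E₆ : ℍ → ℂ))) 0 := by
    rw [D_E₆_eq]
    exact (hn.smul _).analytic
  rw [← (nice_levelOne E₆).qExpansion_D hD, D_E₆_eq, UpperHalfPlane.qExpansion_smul hn.analytic,
    UpperHalfPlane.qExpansion_sub (nice_E2.mul (nice_levelOne E₆)).analytic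
      ((nice_levelOne E₄).mul (nice_levelOne E₄)).analytic,
    UpperHalfPlane.qExpansion_mul nice_E2.analytic (nice_levelOne E₆).analytic,
    UpperHalfPlane.qExpansion_mul (nice_levelOne E₄).analytic (nice_levelOne E₄).analytic]

lemma ofNat_mul_smul_inv (n : ℕ) [n.AtLeastTwo] (p : PowerSeries ℂ) :
    (OfNat.ofNat n : PowerSeries ℂ) * ((OfNat.ofNat n : ℂ)⁻¹ • p) = p := by
  have h : (OfNat.ofNat n : PowerSeries ℂ) = PowerSeries.C (OfNat.ofNat n : ℂ) :=
    (map_ofNat (PowerSeries.C (R := ℂ)) n).symm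
  have hn : (OfNat.ofNat n : ℂ) ≠ 0 := OfNat.ofNat_ne_zero n
  ext m
  rw [h, PowerSeries.coeff_C_mul, PowerSeries.coeff_smul, smul_eq_mul, mul_inv_cancel_left₀ hn]

/-- **Ramanujan** (formal): `12 θ E₂ = E₂² - E₄` in `ℤ⟦q⟧`. -/
theorem ramanujan_E2Z : 12 * theta E2Z = E2Z * E2Z - E4Z := by
  apply PowerSeries.map_injective (Int.castRingHom ℂ) Int.cast_injective
  simp only [map_mul, map_sub, map_theta, ← qExpansion_E2, ← qExpansion_E₄, map_ofNat]
  rw [theta_qExpansion_E2, ofNat_mul_smul_inv]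

/-- **Ramanujan** (formal): `3 θ E₄ = E₂ E₄ - E₆` in `ℤ⟦q⟧`. -/
theorem ramanujan_E4Z : 3 * theta E4Z = E2Z * E4Z - E6Z := by
  apply PowerSeries.map_injective (Int.castRingHom ℂ) Int.cast_injective
  simp only [map_mul, map_sub, map_theta, ← qExpansion_E2, ← qExpansion_E₄, ← qExpansion_E₆,
    map_ofNat]
  rw [theta_qExpansion_E₄, ofNat_mul_smul_inv]

/-- **Ramanujan** (formal): `2 θ E₆ = E₂ E₆ - E₄²` in `ℤ⟦q⟧`. -/
theorem ramanujan_E6Z : 2 * theta E6Z = E2Z * E6Z - E4Z * E4Z := by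
  apply PowerSeries.map_injective (Int.castRingHom ℂ) Int.cast_injective
  simp only [map_mul, map_sub, map_theta, ← qExpansion_E2, ← qExpansion_E₄, ← qExpansion_E₆,
    map_ofNat]
  rw [theta_qExpansion_E₆, ofNat_mul_smul_inv]

/-- `E₄³ - E₆² = 1728 Δ` in `ℤ⟦q⟧`. -/
theorem E4Z_cube_sub_E6Z_sq :
    1728 * Fermat.Agent.Lib.helper386.deltaSeries = E4Z * E4Z * E4Z - E6Z * E6Z := by
  apply PowerSeries.map_injective (Int.castRingHom ℂ) Int.cast_injective
  simp only [map_mul, map_sub, ← qExpansion_E₄, ← qExpansion_E₆,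
    ← Fermat.Agent.Lib.helper386.qExpansion_discriminant, map_ofNat]
  have h4 := nice_levelOne E₄
  have h6 := nice_levelOne E₆
  have hn : Nice ((E₄ : ℍ → ℂ) * (E₄ : ℍ → ℂ) * (E₄ : ℍ → ℂ) - (E₆ : ℍ → ℂ) * (E₆ : ℍ → ℂ)) :=
    ((h4.mul h4).mul h4).sub (h6.mul h6)
  have hfun : (ModularForm.discriminant : ℍ → ℂ) = (1728⁻¹ : ℂ) •
      ((E₄ : ℍ → ℂ) * (E₄ : ℍ → ℂ) * (E₄ : ℍ → ℂ) - (E₆ : ℍ → ℂ) * (E₆ : ℍ → ℂ)) := by
    funext z
    simp only [Pi.smul_apply, Pi.sub_apply, Pi.mul_apply, smul_eq_mul]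
    rw [discriminant_eq_E₄_cube_sub_E₆_sq z]
    ring
  rw [hfun, UpperHalfPlane.qExpansion_smul hn.analytic,
    UpperHalfPlane.qExpansion_sub ((h4.mul h4).mul h4).analytic (h6.mul h6).analytic,
    UpperHalfPlane.qExpansion_mul (h4.mul h4).analytic h4.analytic,
    UpperHalfPlane.qExpansion_mul h4.analytic h4.analytic,
    UpperHalfPlane.qExpansion_mul h6.analytic h6.analytic, ofNat_mul_smul_inv]

end Fermat.Agent.S16.helper4027
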