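/-
S16 shared core "CONJ/NORM", part 2 (helper407): conjugate families and their symmetric functions.

* `exists_levelOne_of_hasTExp`: an `SL(2, ℤ)`-covariant function with a `t`-expansion is a
  level-one modular form whose `q`-expansion is determined by the `t`-expansion.
* `IsConjFamily p κ c V`: a family `c x` (`x` over the `p + 1` cosets of `Γ₀(p)`) permuted by
  `SL(2, ℤ)` with weight `κ`, with `t`-expansions `V x`; closed under ring operations and
  weighted homogeneous polynomial expressions.  Instances: conjugates of forms on `Γ₀(p)`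
  (`isConjFamily_conj`, weight 2: `isConjFamily_conj_two`), level-one forms
  (`isConjFamily_levelOne`), `V_p` of level-one forms (`isConjFamily_Vp`).
* `IsConjFamily.exists_esymm / exists_norm / exists_trace`: elementary symmetric functions, norm
  and trace are level-one forms `N` with `expand p (qExpansion 1 N)` the corresponding formal
  expression in the `V x`.
* `sum_rescale_zeta`, `sum_cs`: the formal trace.
-/
import Fermat.Agent.S16.helper407_Conj

open UpperHalfPlane Filter Function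
open scoped Manifold Topology MatrixGroups ModularForm

namespace Fermat.Agent.S16.helper407

noncomputable section

/-! ### Level-one forms from expansions -/

/-- A function on `ℍ` that transforms with weight `k` under `SL(2, ℤ)` and has a `t`-expansion
is a level-one modular form, and its `q`-expansion is determined by the `t`-expansion. -/
theorem exists_levelOne_of_hasTExp {p : ℕ} [NeZero p] {k : ℤ} {g : ℍ → ℂ} {G : PowerSeries ℂ}
    (hinv : ∀ γ : SL(2, ℤ), g ∣[k] γ = g) (h : HasTExp p g G) :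
    ∃ N : ModularForm 𝒮ℒ k, ⇑N = g ∧
      PowerSeries.expand p (NeZero.ne p) (qExpansion 1 N) = G := by
  let N : ModularForm 𝒮ℒ k :=
    { toFun := g
      slash_action_eq' := by
        rintro γ ⟨γ₀, rfl⟩
        exact hinv γ₀
      holo' := h.mdiff
      bdd_at_cusps' := by
        intro c hc
        rw [OnePoint.isBoundedAt_iff_forall_SL2Z hc]
        intro γ _
        rw [hinv γ]
        exact h.isBoundedAtImInfty }
  refine ⟨N, rfl, ?_⟩
  exact (hasTExp_one_levelOne N).eq_expand h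

/-- Pointwise form of `SL(2, ℤ)`-invariance. -/
theorem slash_eq_of_forall_smul {k : ℕ} {g : ℍ → ℂ}
    (h : ∀ (γ : SL(2, ℤ)) (τ : ℍ), g (γ • τ) = denom γ τ ^ k * g τ) (γ : SL(2, ℤ)) :
    g ∣[(k : ℤ)] γ = g := by
  funext τ
  rw [ModularForm.SL_slash_apply, h γ τ, zpow_neg, zpow_natCast]
  have hd : denom γ τ ^ k ≠ 0 := pow_ne_zero _ (denom_ne_zero _ τ)
  field_simp


/-! ### The action of `SL(2, ℤ)` on the conjugates -/

/-- The element of `𝒮ℒ` attached to `γ ∈ SL(2, ℤ)`. -/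
def toSL (γ : SL(2, ℤ)) : 𝒮ℒ := ⟨Matrix.SpecialLinearGroup.mapGL ℝ γ, ⟨γ, rfl⟩⟩

/-- The (right) action of `γ ∈ SL(2, ℤ)` on the index set of the conjugates. -/
def perm (p : ℕ) [Fact p.Prime] (γ : SL(2, ℤ)) : Equiv.Perm (Option (Fin p)) :=
  (cosetEquiv p).trans ((MulAction.toPerm (toSL γ)⁻¹).trans (cosetEquiv p).symm)

theorem cosetMap_perm (p : ℕ) [Fact p.Prime] (γ : SL(2, ℤ)) (x : Option (Fin p)) :
    cosetMap p (perm p γ x) = (toSL γ)⁻¹ • cosetMap p x := by
  have : cosetEquiv p (perm p γ x) = (toSL γ)⁻¹ • cosetEquiv p x := by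
    simp [perm]
  exact this

theorem rep_mul_mem (p : ℕ) [Fact p.Prime] (γ : SL(2, ℤ)) (x : Option (Fin p)) :
    rep p x * γ * (rep p (perm p γ x))⁻¹ ∈ CongruenceSubgroup.Gamma0 p := by
  have h := cosetMap_perm p γ x
  rw [cosetMap, cosetMap] at h
  have h' : (QuotientGroup.mk (repGL p (perm p γ x))⁻¹ : 𝒮ℒ ⧸ (G0 p).subgroupOf 𝒮ℒ) =
      QuotientGroup.mk ((toSL γ)⁻¹ * (repGL p x)⁻¹) := h
  rw [QuotientGroup.eq, Subgroup.mem_subgroupOf] at h'
  have h2 : Matrix.SpecialLinearGroup.mapGL ℝ (rep p (perm p γ x) * γ⁻¹ * (rep p x)⁻¹) ∈ G0 p := by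
    convert h' using 1
    simp [repGL, toSL, mul_assoc]
  rw [mapGL_mem_G0] at h2
  have h3 := inv_mem h2
  convert h3 using 1
  group

/-- `SL(2, ℤ)` permutes the translates `f ∣ rep x` of a `Γ₀(p)`-invariant function. -/
theorem slash_rep_slash {p : ℕ} [Fact p.Prime] {k : ℤ} {f : ℍ → ℂ}
    (hf : ∀ δ ∈ CongruenceSubgroup.Gamma0 p, f ∣[k] δ = f) (γ : SL(2, ℤ)) (x : Option (Fin p)) :
    (f ∣[k] rep p x) ∣[k] γ = f ∣[k] rep p (perm p γ x) := by
  have h := rep_mul_mem p γ x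
  have h2 : rep p x * γ = (rep p x * γ * (rep p (perm p γ x))⁻¹) * rep p (perm p γ x) := by group
  rw [← SlashAction.slash_mul, h2, SlashAction.slash_mul, hf _ h]

theorem slash_of_mem_Gamma0 {p : ℕ} {k : ℤ} (F : ModularForm (G0 p) k) (δ : SL(2, ℤ))
    (hδ : δ ∈ CongruenceSubgroup.Gamma0 p) : (⇑F) ∣[k] δ = ⇑F := by
  rw [ModularForm.SL_slash]
  exact SlashInvariantFormClass.slash_action_eq F _ ((mapGL_mem_G0 p δ).mpr hδ)

theorem conj_slash {p : ℕ} [Fact p.Prime] {k : ℤ} (F : ModularForm (G0 p) k) (γ : SL(2, ℤ))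
    (x : Option (Fin p)) : (conj F x) ∣[k] γ = conj F (perm p γ x) :=
  slash_rep_slash (slash_of_mem_Gamma0 F) γ x

/-- Pointwise form of a slash identity, with natural number weight. -/
theorem apply_smul_of_slash_eq {κ : ℕ} {f g : ℍ → ℂ} {γ : SL(2, ℤ)} (h : f ∣[(κ : ℤ)] γ = g)
    (τ : ℍ) : f (γ • τ) = denom γ τ ^ κ * g τ := by
  have h1 := congrFun h τ
  rw [ModularForm.SL_slash_apply, zpow_neg, zpow_natCast] at h1
  have hd : denom γ τ ^ κ ≠ 0 := pow_ne_zero _ (denom_ne_zero _ τ)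
  rw [← h1]
  field_simp


/-! ### Conjugate families -/

/-- A *conjugate family of weight `κ`*: functions `c x` (`x` running over the `p + 1` cosets
`1, S T^j`) permuted by `SL(2, ℤ)` with automorphy factor of weight `κ`, together with their
expansions `V x` in `t = exp(2πiτ/p)`. -/
structure IsConjFamily (p : ℕ) [Fact p.Prime] (κ : ℕ) (c : Option (Fin p) → ℍ → ℂ)
    (V : Option (Fin p) → PowerSeries ℂ) : Prop where
  smul : ∀ (γ : SL(2, ℤ)) (x : Option (Fin p)) (τ : ℍ),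
    c x (γ • τ) = denom γ τ ^ κ * c (perm p γ x) τ
  texp : ∀ x, HasTExp p (c x) (V x)

/-- The conjugates of a form on `Γ₀(p)`. -/
theorem isConjFamily_conj {p : ℕ} [Fact p.Prime] {κ : ℕ} (F : ModularForm (G0 p) (κ : ℤ)) :
    IsConjFamily p κ (conj F) (cs p κ (qExpansion 1 F) (qExpansion 1 (fricke F))) where
  smul γ x τ := apply_smul_of_slash_eq (conj_slash F γ x) τ
  texp x := hasTExp_conj F x

/-- The conjugates of a weight-2 form on `Γ₀(p)`: `expand p A` and
`-(1/p) • rescale ζ^j (U_p A)`. -/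
theorem isConjFamily_conj_two {p : ℕ} [Fact p.Prime] (H : ModularForm (G0 p) 2) :
    IsConjFamily p 2 (conj H) (cs p 2 (qExpansion 1 H) (-Up p (qExpansion 1 H))) := by
  have h := isConjFamily_conj (p := p) (κ := 2) H
  rw [qExpansion_fricke_two] at h
  exact h

/-- A level-one form is its own conjugate. -/
theorem isConjFamily_levelOne {p : ℕ} [Fact p.Prime] {κ : ℕ} (E : ModularForm 𝒮ℒ (κ : ℤ)) :
    IsConjFamily p κ (fun _ => ⇑E)
      (fun _ => PowerSeries.expand p (NeZero.ne p) (qExpansion 1 E)) where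
  smul γ x τ := by
    have h : (⇑E) ∣[(κ : ℤ)] γ = ⇑E := by
      rw [ModularForm.SL_slash]
      exact SlashInvariantFormClass.slash_action_eq E _ ⟨γ, rfl⟩
    exact apply_smul_of_slash_eq h τ
  texp x := (hasTExp_one_levelOne E).expand

theorem isConjFamily_const (p : ℕ) [Fact p.Prime] (a : ℂ) :
    IsConjFamily p 0 (fun _ _ => a) (fun _ => PowerSeries.C a) where
  smul γ x τ := by simp
  texp x := hasTExp_const p a

theorem IsConjFamily.mul {p : ℕ} [Fact p.Prime] {κ₁ κ₂ : ℕ} {c₁ c₂ : Option (Fin p) → ℍ → ℂ}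
    {V₁ V₂ : Option (Fin p) → PowerSeries ℂ} (h₁ : IsConjFamily p κ₁ c₁ V₁)
    (h₂ : IsConjFamily p κ₂ c₂ V₂) :
    IsConjFamily p (κ₁ + κ₂) (fun x => c₁ x * c₂ x) (fun x => V₁ x * V₂ x) where
  smul γ x τ := by
    simp only [Pi.mul_apply]
    rw [h₁.smul, h₂.smul, pow_add]
    ring
  texp x := (h₁.texp x).mul (h₂.texp x)

theorem IsConjFamily.add {p : ℕ} [Fact p.Prime] {κ : ℕ} {c₁ c₂ : Option (Fin p) → ℍ → ℂ}
    {V₁ V₂ : Option (Fin p) → PowerSeries ℂ} (h₁ : IsConjFamily p κ c₁ V₁)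
    (h₂ : IsConjFamily p κ c₂ V₂) :
    IsConjFamily p κ (fun x => c₁ x + c₂ x) (fun x => V₁ x + V₂ x) where
  smul γ x τ := by
    simp only [Pi.add_apply]
    rw [h₁.smul, h₂.smul]
    ring
  texp x := (h₁.texp x).add (h₂.texp x)

theorem IsConjFamily.smul' {p : ℕ} [Fact p.Prime] {κ : ℕ} {c : Option (Fin p) → ℍ → ℂ}
    {V : Option (Fin p) → PowerSeries ℂ} (h : IsConjFamily p κ c V) (a : ℂ) :
    IsConjFamily p κ (fun x => a • c x) (fun x => a • V x) where
  smul γ x τ := by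
    simp only [Pi.smul_apply, smul_eq_mul]
    rw [h.smul]
    ring
  texp x := (h.texp x).smul a

theorem IsConjFamily.neg {p : ℕ} [Fact p.Prime] {κ : ℕ} {c : Option (Fin p) → ℍ → ℂ}
    {V : Option (Fin p) → PowerSeries ℂ} (h : IsConjFamily p κ c V) :
    IsConjFamily p κ (fun x => -c x) (fun x => -V x) where
  smul γ x τ := by
    simp only [Pi.neg_apply]
    rw [h.smul]
    ring
  texp x := (h.texp x).neg

theorem IsConjFamily.sub {p : ℕ} [Fact p.Prime] {κ : ℕ} {c₁ c₂ : Option (Fin p) → ℍ → ℂ}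
    {V₁ V₂ : Option (Fin p) → PowerSeries ℂ} (h₁ : IsConjFamily p κ c₁ V₁)
    (h₂ : IsConjFamily p κ c₂ V₂) :
    IsConjFamily p κ (fun x => c₁ x - c₂ x) (fun x => V₁ x - V₂ x) where
  smul γ x τ := by
    simp only [Pi.sub_apply]
    rw [h₁.smul, h₂.smul]
    ring
  texp x := (h₁.texp x).sub (h₂.texp x)

theorem IsConjFamily.pow {p : ℕ} [Fact p.Prime] {κ : ℕ} {c : Option (Fin p) → ℍ → ℂ}
    {V : Option (Fin p) → PowerSeries ℂ} (h : IsConjFamily p κ c V) (n : ℕ) :
    IsConjFamily p (n * κ) (fun x => c x ^ n) (fun x => V x ^ n) where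
  smul γ x τ := by
    simp only [Pi.pow_apply]
    rw [h.smul, mul_pow, ← pow_mul, mul_comm κ n]
  texp x := (h.texp x).pow n

/-- Change the (propositionally equal) weight. -/
theorem IsConjFamily.weight_congr {p : ℕ} [Fact p.Prime] {κ κ' : ℕ}
    {c : Option (Fin p) → ℍ → ℂ} {V : Option (Fin p) → PowerSeries ℂ}
    (h : IsConjFamily p κ c V) (hκ : κ = κ') : IsConjFamily p κ' c V := hκ ▸ h


/-! ### Elementary symmetric functions of a conjugate family -/

theorem esymm_map_mul {ι : Type*} (s : Finset ι) (f : ι → ℂ) (a : ℂ) (n : ℕ) :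
    (s.val.map fun x => a * f x).esymm n = a ^ n * (s.val.map f).esymm n := by
  rw [Finset.esymm_map_val, Finset.esymm_map_val, Finset.mul_sum]
  refine Finset.sum_congr rfl fun t ht => ?_
  rw [Finset.prod_mul_distrib, Finset.prod_const, (Finset.mem_powersetCard.mp ht).2]

theorem esymm_map_perm {ι : Type*} [Fintype ι] (σ : Equiv.Perm ι) (f : ι → ℂ) (n : ℕ) :
    ((Finset.univ : Finset ι).val.map fun x => f (σ x)).esymm n =
      ((Finset.univ : Finset ι).val.map f).esymm n := by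
  have : ((Finset.univ : Finset ι).val.map fun x => f (σ x)) =
      (((Finset.univ : Finset ι).val.map σ).map f) := by
    rw [Multiset.map_map]
    rfl
  rw [this, Multiset.map_univ_val_equiv]

theorem hasTExp_esymm {p : ℕ} {ι : Type*} (s : Finset ι) (c : ι → ℍ → ℂ)
    (V : ι → PowerSeries ℂ) (h : ∀ x ∈ s, HasTExp p (c x) (V x)) (n : ℕ) :
    HasTExp p (fun τ => (s.val.map fun x => c x τ).esymm n) ((s.val.map V).esymm n) := by
  have h1 : (fun τ => (s.val.map fun x => c x τ).esymm n) =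
      ∑ t ∈ s.powersetCard n, ∏ x ∈ t, c x := by
    funext τ
    rw [Finset.esymm_map_val, Finset.sum_apply]
    refine Finset.sum_congr rfl fun t _ => ?_
    rw [Finset.prod_apply]
  rw [h1, Finset.esymm_map_val]
  refine hasTExp_finset_sum _ _ _ fun t ht => ?_
  refine hasTExp_finset_prod _ _ _ fun x hx => ?_
  exact h x ((Finset.mem_powersetCard.mp ht).1 hx)

/-- **Elementary symmetric functions** of a conjugate family are level-one forms with the
expected formal expansion. -/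
theorem IsConjFamily.exists_esymm {p : ℕ} [Fact p.Prime] {w : ℕ}
    {c : Option (Fin p) → ℍ → ℂ} {V : Option (Fin p) → PowerSeries ℂ}
    (h : IsConjFamily p w c V) (n : ℕ) :
    ∃ N : ModularForm 𝒮ℒ ((w * n : ℕ) : ℤ),
      (∀ τ, N τ = ((Finset.univ : Finset (Option (Fin p))).val.map fun x => c x τ).esymm n) ∧
      PowerSeries.expand p (NeZero.ne p) (qExpansion 1 N) =
        ((Finset.univ : Finset (Option (Fin p))).val.map V).esymm n := by
  have hT := hasTExp_esymm (p := p) Finset.univ c V (fun x _ => h.texp x) n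
  have hinv : ∀ γ : SL(2, ℤ),
      (fun τ => ((Finset.univ : Finset (Option (Fin p))).val.map fun x => c x τ).esymm n)
        ∣[((w * n : ℕ) : ℤ)] γ =
      (fun τ => ((Finset.univ : Finset (Option (Fin p))).val.map fun x => c x τ).esymm n) := by
    apply slash_eq_of_forall_smul
    intro γ τ
    have h1 : (fun x => c x (γ • τ)) = fun x => denom γ τ ^ w * c (perm p γ x) τ := by
      funext x
      exact h.smul γ x τ
    rw [h1, esymm_map_mul, esymm_map_perm (perm p γ) (fun x => c x τ), ← pow_mul]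
  obtain ⟨N, hN, hexp⟩ := exists_levelOne_of_hasTExp hinv hT
  exact ⟨N, fun τ => congrFun hN τ, hexp⟩

/-- **Norm** of a conjugate family. -/
theorem IsConjFamily.exists_norm {p : ℕ} [Fact p.Prime] {w : ℕ}
    {c : Option (Fin p) → ℍ → ℂ} {V : Option (Fin p) → PowerSeries ℂ}
    (h : IsConjFamily p w c V) :
    ∃ N : ModularForm 𝒮ℒ ((w * (p + 1) : ℕ) : ℤ),
      (∀ τ, N τ = ∏ x : Option (Fin p), c x τ) ∧
      PowerSeries.expand p (NeZero.ne p) (qExpansion 1 N) = ∏ x : Option (Fin p), V x := by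
  have hT : HasTExp p (∏ x : Option (Fin p), c x) (∏ x : Option (Fin p), V x) :=
    hasTExp_finset_prod _ _ _ (fun x _ => h.texp x)
  have hinv : ∀ γ : SL(2, ℤ), (∏ x : Option (Fin p), c x) ∣[((w * (p + 1) : ℕ) : ℤ)] γ =
      ∏ x : Option (Fin p), c x := by
    apply slash_eq_of_forall_smul
    intro γ τ
    rw [Finset.prod_apply, Finset.prod_apply]
    have h1 : ∀ x : Option (Fin p), c x (γ • τ) = denom γ τ ^ w * c (perm p γ x) τ :=
      fun x => h.smul γ x τ
    rw [Finset.prod_congr rfl (fun x _ => h1 x), Finset.prod_mul_distrib, Finset.prod_const,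
      Finset.card_univ, Fintype.card_option, Fintype.card_fin, ← pow_mul,
      Equiv.prod_comp (perm p γ) (fun x => c x τ)]
  obtain ⟨N, hN, hexp⟩ := exists_levelOne_of_hasTExp hinv hT
  refine ⟨N, fun τ => ?_, hexp⟩
  rw [hN, Finset.prod_apply]

/-- **Trace** of a conjugate family. -/
theorem IsConjFamily.exists_trace {p : ℕ} [Fact p.Prime] {w : ℕ}
    {c : Option (Fin p) → ℍ → ℂ} {V : Option (Fin p) → PowerSeries ℂ}
    (h : IsConjFamily p w c V) :
    ∃ N : ModularForm 𝒮ℒ (w : ℤ),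
      (∀ τ, N τ = ∑ x : Option (Fin p), c x τ) ∧
      PowerSeries.expand p (NeZero.ne p) (qExpansion 1 N) = ∑ x : Option (Fin p), V x := by
  have hT : HasTExp p (∑ x : Option (Fin p), c x) (∑ x : Option (Fin p), V x) :=
    hasTExp_finset_sum _ _ _ (fun x _ => h.texp x)
  have hinv : ∀ γ : SL(2, ℤ), (∑ x : Option (Fin p), c x) ∣[(w : ℤ)] γ =
      ∑ x : Option (Fin p), c x := by
    apply slash_eq_of_forall_smul
    intro γ τ
    rw [Finset.sum_apply, Finset.sum_apply]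
    have h1 : ∀ x : Option (Fin p), c x (γ • τ) = denom γ τ ^ w * c (perm p γ x) τ :=
      fun x => h.smul γ x τ
    rw [Finset.sum_congr rfl (fun x _ => h1 x), ← Finset.mul_sum,
      Equiv.sum_comp (perm p γ) (fun x => c x τ)]
  obtain ⟨N, hN, hexp⟩ := exists_levelOne_of_hasTExp hinv hT
  refine ⟨N, fun τ => ?_, hexp⟩
  rw [hN, Finset.sum_apply]


/-! ### Weighted homogeneous polynomial expressions -/

theorem hasTExp_mvPolynomial_eval {p : ℕ} {ι : Type*} (g : ι → ℍ → ℂ) (G : ι → PowerSeries ℂ)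
    (h : ∀ i, HasTExp p (g i) (G i)) (Φ : MvPolynomial ι ℂ) :
    HasTExp p (fun τ => MvPolynomial.eval (fun i => g i τ) Φ) (MvPolynomial.aeval G Φ) := by
  induction Φ using MvPolynomial.induction_on with
  | C a =>
    simp only [MvPolynomial.eval_C, MvPolynomial.aeval_C]
    exact hasTExp_const p a
  | add Φ Ψ hΦ hΨ =>
    simp only [map_add]
    exact hΦ.add hΨ
  | mul_X Φ i hΦ =>
    simp only [map_mul, MvPolynomial.eval_X, MvPolynomial.aeval_X]
    exact hΦ.mul (h i)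

theorem eval_smul_of_isWeightedHomogeneous {ι : Type*} (κ : ι → ℕ) {Φ : MvPolynomial ι ℂ}
    {w : ℕ} (hΦ : Φ.IsWeightedHomogeneous κ w) (a : ℂ) (y : ι → ℂ) :
    MvPolynomial.eval (fun i => a ^ κ i * y i) Φ = a ^ w * MvPolynomial.eval y Φ := by
  rw [MvPolynomial.eval_eq, MvPolynomial.eval_eq, Finset.mul_sum]
  refine Finset.sum_congr rfl fun d hd => ?_
  have hw : Finsupp.weight κ d = w := hΦ (MvPolynomial.mem_support_iff.mp hd)
  have h1 : ∏ i ∈ d.support, (a ^ κ i * y i) ^ d i =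
      a ^ w * ∏ i ∈ d.support, y i ^ d i := by
    simp only [mul_pow, Finset.prod_mul_distrib, ← pow_mul, Finset.prod_pow_eq_pow_sum]
    congr 2
    rw [← hw, Finsupp.weight_apply, Finsupp.sum]
    refine Finset.sum_congr rfl fun i _ => ?_
    rw [smul_eq_mul, mul_comm]
  rw [h1]
  ring

/-- A weighted homogeneous polynomial in conjugate families is a conjugate family. -/
theorem IsConjFamily.eval {p : ℕ} [Fact p.Prime] {ι : Type*} (κ : ι → ℕ)
    {c : ι → Option (Fin p) → ℍ → ℂ} {V : ι → Option (Fin p) → PowerSeries ℂ}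
    (h : ∀ i, IsConjFamily p (κ i) (c i) (V i)) {Φ : MvPolynomial ι ℂ} {w : ℕ}
    (hΦ : Φ.IsWeightedHomogeneous κ w) :
    IsConjFamily p w (fun x τ => MvPolynomial.eval (fun i => c i x τ) Φ)
      (fun x => MvPolynomial.aeval (fun i => V i x) Φ) where
  smul γ x τ := by
    have h1 : (fun i => c i x (γ • τ)) = fun i => denom γ τ ^ κ i * c i (perm p γ x) τ := by
      funext i
      exact (h i).smul γ x τ
    rw [h1, eval_smul_of_isWeightedHomogeneous κ hΦ]
  texp x := hasTExp_mvPolynomial_eval _ _ (fun i => (h i).texp x) Φ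


/-! ### The family of `V_p B : τ ↦ B(pτ)` for a level-one form `B` -/

/-- The point `p τ` of the upper half plane. -/
def mulP (p : ℕ) [NeZero p] (τ : ℍ) : ℍ :=
  ⟨(p : ℂ) * (τ : ℂ), by
    have hp : (0 : ℝ) < p := by exact_mod_cast Nat.pos_of_ne_zero (NeZero.ne p)
    have : ((p : ℂ) * (τ : ℂ)).im = p * τ.im := by
      rw [show ((p : ℂ)) = ((p : ℝ) : ℂ) by norm_cast, Complex.im_ofReal_mul]
      rfl
    rw [this]
    exact mul_pos hp τ.im_pos⟩

theorem coe_mulP (p : ℕ) [NeZero p] (τ : ℍ) : ((mulP p τ : ℍ) : ℂ) = (p : ℂ) * (τ : ℂ) := rfl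

/-- `V_p B`. -/
def Vp (p : ℕ) [NeZero p] (B : ℍ → ℂ) : ℍ → ℂ := fun τ => B (mulP p τ)


theorem Vp_slash_of_mem_Gamma0 {p : ℕ} [NeZero p] {κ : ℕ} (B : ModularForm 𝒮ℒ (κ : ℤ))
    (δ : SL(2, ℤ)) (hδ : δ ∈ CongruenceSubgroup.Gamma0 p) :
    (Vp p B) ∣[(κ : ℤ)] δ = Vp p B := by
  rw [CongruenceSubgroup.Gamma0_mem] at hδ
  obtain ⟨c', hc'⟩ := (ZMod.intCast_zmod_eq_zero_iff_dvd _ _).mp hδ
  have hdet : δ 0 0 * δ 1 1 - δ 0 1 * δ 1 0 = 1 := by
    have := δ.det_coe
    rw [Matrix.det_fin_two] at this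
    exact this
  obtain ⟨δ', h00, h01, h10, h11⟩ : ∃ δ' : SL(2, ℤ), δ' 0 0 = δ 0 0 ∧ δ' 0 1 = (p : ℤ) * δ 0 1 ∧
      δ' 1 0 = c' ∧ δ' 1 1 = δ 1 1 := by
    refine ⟨⟨!![δ 0 0, (p : ℤ) * δ 0 1; c', δ 1 1], ?_⟩, rfl, rfl, rfl, rfl⟩
    rw [Matrix.det_fin_two_of]
    rw [hc'] at hdet
    linear_combination hdet
  have hB : (⇑B) ∣[(κ : ℤ)] δ' = ⇑B := by
    rw [ModularForm.SL_slash]
    exact SlashInvariantFormClass.slash_action_eq B _ ⟨δ', rfl⟩
  funext τ
  have hden : denom δ' (mulP p τ) = denom δ τ := by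
    rw [ModularGroup.denom_apply, ModularGroup.denom_apply, h10, h11, hc', coe_mulP]
    push_cast
    ring
  have hpt : mulP p (δ • τ) = δ' • mulP p τ := by
    apply UpperHalfPlane.ext
    rw [coe_mulP, UpperHalfPlane.coe_specialLinearGroup_apply,
      UpperHalfPlane.coe_specialLinearGroup_apply, coe_mulP]
    have hd1 : ((δ 1 0 : ℤ) : ℂ) * (τ : ℂ) + ((δ 1 1 : ℤ) : ℂ) ≠ 0 := by
      have := denom_ne_zero δ τ
      rwa [ModularGroup.denom_apply] at this
    simp only [algebraMap_int_eq, Int.coe_castRingHom]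
    rw [h00, h01, h10, h11]
    rw [hc'] at hd1 ⊢
    push_cast at hd1 ⊢
    have hd2 : (c' : ℂ) * ((p : ℂ) * (τ : ℂ)) + ((δ 1 1 : ℤ) : ℂ) ≠ 0 := by
      convert hd1 using 1
      ring
    field_simp
  rw [ModularForm.SL_slash_apply]
  have h1 := apply_smul_of_slash_eq hB (mulP p τ)
  simp only [Vp]
  rw [hpt, h1, hden, zpow_neg, zpow_natCast]
  have hd : denom δ τ ^ κ ≠ 0 := pow_ne_zero _ (denom_ne_zero _ τ)
  field_simp


theorem tpar_one_mulP (p : ℕ) [NeZero p] (τ : ℍ) : tpar 1 (mulP p τ) = tpar 1 τ ^ p := by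
  rw [tpar, tpar, Function.Periodic.qParam, Function.Periodic.qParam, ← Complex.exp_nat_mul,
    coe_mulP]
  congr 1
  push_cast
  ring

theorem hasSum_expand {p : ℕ} [NeZero p] {A : PowerSeries ℂ} {z v : ℂ}
    (h : HasSum (fun m : ℕ => PowerSeries.coeff m A * (z ^ p) ^ m) v) :
    HasSum (fun n : ℕ => PowerSeries.coeff n (PowerSeries.expand p (NeZero.ne p) A) * z ^ n) v := by
  have hinj : Function.Injective (fun m : ℕ => p * m) :=
    fun a b hab => Nat.eq_of_mul_eq_mul_left (Nat.pos_of_ne_zero (NeZero.ne p)) hab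
  refine (hinj.hasSum_iff ?_).mp ?_
  · intro n hn
    have : ¬ p ∣ n := fun ⟨m, hm⟩ => hn ⟨m, hm.symm⟩
    rw [PowerSeries.coeff_expand_of_not_dvd p (NeZero.ne p) A this, zero_mul]
  · convert h using 1
    funext m
    simp only [Function.comp_apply, PowerSeries.coeff_expand_mul, pow_mul]

theorem hasTExp_one_Vp {p : ℕ} [NeZero p] {k : ℤ} (B : ModularForm 𝒮ℒ k) :
    HasTExp 1 (Vp p B) (PowerSeries.expand p (NeZero.ne p) (qExpansion 1 B)) := by
  intro τ
  have h := hasTExp_one_levelOne B (mulP p τ)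
  rw [tpar_one_mulP] at h
  exact hasSum_expand h

theorem mulP_S_smul (p : ℕ) [NeZero p] (τ : ℍ) :
    mulP p (ModularGroup.S • τ) = ModularGroup.S • divP p τ := by
  have hpc : (p : ℂ) ≠ 0 := Nat.cast_ne_zero.mpr (NeZero.ne p)
  have hτ : (τ : ℂ) ≠ 0 := ne_zero τ
  apply UpperHalfPlane.ext
  rw [coe_mulP, modular_S_smul, modular_S_smul]
  simp only [coe_divP]
  show (p : ℂ) * (-(τ : ℂ))⁻¹ = (-((τ : ℂ) / p))⁻¹
  field_simp

theorem Vp_slash_S_apply {p : ℕ} [NeZero p] {κ : ℕ} (B : ModularForm 𝒮ℒ (κ : ℤ)) (τ : ℍ) :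
    ((Vp p B) ∣[(κ : ℤ)] ModularGroup.S) τ = ((p : ℂ) ^ κ)⁻¹ * B (divP p τ) := by
  have hpc : (p : ℂ) ≠ 0 := Nat.cast_ne_zero.mpr (NeZero.ne p)
  have hτ : (τ : ℂ) ≠ 0 := ne_zero τ
  have hB : (⇑B) ∣[(κ : ℤ)] ModularGroup.S = ⇑B := by
    rw [ModularForm.SL_slash]
    exact SlashInvariantFormClass.slash_action_eq B _ ⟨ModularGroup.S, rfl⟩
  have h1 := apply_smul_of_slash_eq hB (divP p τ)
  rw [ModularForm.SL_slash_apply, ModularGroup.denom_S]
  simp only [Vp]
  rw [mulP_S_smul, h1, ModularGroup.denom_S, coe_divP, zpow_neg, zpow_natCast, div_pow]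
  field_simp

/-- The formal conjugates of `V_p B`. -/
def csV (p : ℕ) [NeZero p] (κ : ℕ) (A : PowerSeries ℂ) : Option (Fin p) → PowerSeries ℂ
  | none => PowerSeries.expand p (NeZero.ne p) (PowerSeries.expand p (NeZero.ne p) A)
  | some j => ((p : ℂ) ^ κ)⁻¹ • PowerSeries.rescale (zeta p ^ (j : ℕ)) A

/-- The conjugates of `V_p B` for a level-one form `B`. -/
def conjV {p : ℕ} [NeZero p] {κ : ℕ} (B : ModularForm 𝒮ℒ (κ : ℤ)) (x : Option (Fin p)) : ℍ → ℂ :=
  (Vp p B) ∣[(κ : ℤ)] rep p x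

theorem conjV_none {p : ℕ} [NeZero p] {κ : ℕ} (B : ModularForm 𝒮ℒ (κ : ℤ)) :
    conjV B (none : Option (Fin p)) = Vp p B := by
  simp [conjV, rep]

theorem conjV_some_apply {p : ℕ} [NeZero p] {κ : ℕ} (B : ModularForm 𝒮ℒ (κ : ℤ)) (j : Fin p)
    (τ : ℍ) : conjV B (some j) τ = ((p : ℂ) ^ κ)⁻¹ * B (divP p (((j : ℕ) : ℝ) +ᵥ τ)) := by
  simp only [conjV, rep]
  rw [SlashAction.slash_mul, slash_T_pow_apply, Vp_slash_S_apply]

theorem isConjFamily_Vp {p : ℕ} [Fact p.Prime] {κ : ℕ} (B : ModularForm 𝒮ℒ (κ : ℤ)) :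
    IsConjFamily p κ (conjV B) (csV p κ (qExpansion 1 B)) where
  smul γ x τ :=
    apply_smul_of_slash_eq (slash_rep_slash (Vp_slash_of_mem_Gamma0 B) γ x) τ
  texp x := by
    rcases x with _ | j
    · rw [conjV_none]
      exact (hasTExp_one_Vp B).expand
    · have h1 : HasTExp p (fun τ => B (divP p τ)) (qExpansion 1 B) :=
        (hasTExp_one_levelOne B).comp_div (fun τ => ⟨divP p τ, coe_divP p τ, rfl⟩)
      have h2 := (h1.vadd (j : ℕ)).smul (((p : ℂ) ^ κ)⁻¹)
      intro τ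
      have h3 := h2 τ
      rw [conjV_some_apply]
      exact h3


/-! ### The trace formula for the formal conjugates -/

theorem zeta_isPrimitiveRoot (p : ℕ) [NeZero p] : IsPrimitiveRoot (zeta p) p :=
  Complex.isPrimitiveRoot_exp p (NeZero.ne p)

theorem sum_zeta_pow (p : ℕ) [NeZero p] (n : ℕ) :
    ∑ j : Fin p, (zeta p ^ (j : ℕ)) ^ n = if p ∣ n then (p : ℂ) else 0 := by
  split_ifs with h
  · obtain ⟨m, rfl⟩ := h
    have : ∀ j : Fin p, (zeta p ^ (j : ℕ)) ^ (p * m) = 1 := by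
      intro j
      rw [← pow_mul, mul_comm (j : ℕ), mul_assoc, pow_mul, zeta_pow_self, one_pow]
    simp [this]
  · have h1 : zeta p ^ n ≠ 1 := fun h1 =>
      h ((zeta_isPrimitiveRoot p).pow_eq_one_iff_dvd n |>.mp h1)
    have h2 : ∑ j : Fin p, (zeta p ^ (j : ℕ)) ^ n = ∑ j ∈ Finset.range p, (zeta p ^ n) ^ j := by
      rw [Finset.sum_range]
      refine Finset.sum_congr rfl fun j _ => ?_
      rw [← pow_mul, ← pow_mul, mul_comm]
    rw [h2, geom_sum_eq h1, ← pow_mul, mul_comm, pow_mul, zeta_pow_self, one_pow, sub_self,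
      zero_div]

/-- Roots of unity filter: `∑_j C(ζ^j t) = p · (U_p C)(t^p)`. -/
theorem sum_rescale_zeta (p : ℕ) [NeZero p] (C : PowerSeries ℂ) :
    ∑ j : Fin p, PowerSeries.rescale (zeta p ^ (j : ℕ)) C =
      (p : ℂ) • PowerSeries.expand p (NeZero.ne p) (Up p C) := by
  ext n
  rw [map_sum, PowerSeries.coeff_smul, PowerSeries.coeff_expand]
  simp only [PowerSeries.coeff_rescale]
  rw [← Finset.sum_mul, sum_zeta_pow]
  split_ifs with h
  · rw [coeff_Up, Nat.mul_div_cancel' h, smul_eq_mul]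
  · simp

/-- The formal trace: `∑ₓ cs x = A(t^p) + p^(2-k) (U_p C)(t^p)`. -/
theorem sum_cs (p : ℕ) [NeZero p] (k : ℤ) (A C : PowerSeries ℂ) :
    ∑ x : Option (Fin p), cs p k A C x =
      PowerSeries.expand p (NeZero.ne p) (A + (p : ℂ) ^ (2 - k) • Up p C) := by
  have hpc : (p : ℂ) ≠ 0 := Nat.cast_ne_zero.mpr (NeZero.ne p)
  rw [Fintype.sum_option]
  simp only [cs]
  rw [← Finset.smul_sum, sum_rescale_zeta, map_add, smul_smul]
  congr 1
  rw [show (2 - k : ℤ) = (1 - k) + 1 by ring, zpow_add₀ hpc, zpow_one]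
  rw [PowerSeries.expand_smul]

end
end Fermat.Agent.S16.helper407
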