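import Mathlib

/-!
# S16, upper bound at `l = 2`, `p ≡ 7 mod 8`: the supersingular obstruction (algebraic core)

Author: helper414.  Findings row #2237.

Let `c₄ = A⁴ - 24A`, `c₆ = -A⁶ + 36A³ - 216`, `Δ = A³ - 27` in `ℤ[A]` (the invariants of the
`Γ₁(3)`-family `y² + Axy + y = x³`).  We prove:

* `isIntegral_of_isRelPrime` (coprime lemma): over a UFD `S`, if `a`, `b` are
  relatively prime and `a • w`, `b • w` are integral over `S`, then `w` is integral over `S`.
* `no_integral_pair`: there are no `g`, `f` integral over `ℤ[A]` (in a field containing `ℤ[A]`) with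
  `g * c₄ - N * c₆ = 8 * f`, `N` odd.
-/

set_option autoImplicit false

namespace Fermat.Agent.S16.helper414

open Polynomial

section Coprime

variable {S L : Type*} [CommRing S] [IsDomain S] [UniqueFactorizationMonoid S] [Field L]
  [Algebra S L] [Module.IsTorsionFree S L]

/-- **Coprime lemma.**  If `a`, `b` are relatively prime elements of a unique factorisation domain
`S` and `a • w`, `b • w` are both integral over `S`, then `w` is integral over `S`. -/
theorem isIntegral_of_isRelPrime {a b : S} (hab : IsRelPrime a b) (ha : a ≠ 0) (hb : b ≠ 0)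
    {w : L} (h1 : IsIntegral S (a • w)) (h2 : IsIntegral S (b • w)) : IsIntegral S w := by
  -- minimal polynomials of `b • (a • w) = a • (b • w)`
  have e1 := IsIntegrallyClosed.minpoly_smul hb h1
  have e2 := IsIntegrallyClosed.minpoly_smul ha h2
  have hcomm : b • a • w = a • b • w := smul_comm b a w
  rw [hcomm] at e1
  have e : (minpoly S (a • w)).scaleRoots b = (minpoly S (b • w)).scaleRoots a := e1.symm.trans e2
  have hroot : aeval (a • w) (minpoly S (a • w)) = 0 := minpoly.aeval S (a • w)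
  have hPm : (minpoly S (a • w)).Monic := minpoly.monic h1
  set P := minpoly S (a • w) with hP
  set Q := minpoly S (b • w) with hQ
  set d := P.natDegree with hd
  have hdeg : d = Q.natDegree := by
    have := congrArg natDegree e
    simpa [natDegree_scaleRoots] using this
  -- coefficientwise: `P.coeff i * b ^ (d - i) = Q.coeff i * a ^ (d - i)`
  have hcoeff : ∀ i, P.coeff i * b ^ (d - i) = Q.coeff i * a ^ (d - i) := by
    intro i
    have := congrArg (fun p => p.coeff i) e
    simp only [coeff_scaleRoots] at this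
    rw [← hdeg] at this
    exact this
  -- hence `a ^ (d - i) ∣ P.coeff i`
  have hdvd : ∀ i, a ^ (d - i) ∣ P.coeff i := by
    intro i
    have h3 : a ^ (d - i) ∣ P.coeff i * b ^ (d - i) := by
      rw [hcoeff i]; exact dvd_mul_left _ _
    exact (hab.pow (m := d - i) (n := d - i)).dvd_of_dvd_mul_right h3
  choose c hc using hdvd
  -- the monic polynomial `X ^ d + ∑_{i < d} c i X ^ i` kills `w`
  refine ⟨X ^ d + ∑ i : Fin d, C (c i) * X ^ (i : ℕ), monic_X_pow_add (degree_sum_fin_lt _), ?_⟩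
  have ha' : (algebraMap S L a) ≠ 0 := by
    rw [Ne, FaithfulSMul.algebraMap_eq_zero_iff]; exact ha
  have key : algebraMap S L a ^ d *
      (w ^ d + ∑ i ∈ Finset.range d, algebraMap S L (c i) * w ^ i) = 0 := by
    rw [aeval_eq_sum_range, Finset.sum_range_succ, ← hd, hPm.coeff_natDegree, one_smul] at hroot
    rw [← hroot, mul_add, Finset.mul_sum, add_comm]
    congr 1
    · refine Finset.sum_congr rfl fun i hi => ?_
      have hi' : i < d := Finset.mem_range.mp hi
      rw [hc i, Algebra.smul_def, Algebra.smul_def, map_mul, map_pow, mul_pow]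
      have : algebraMap S L a ^ d = algebraMap S L a ^ (d - i) * algebraMap S L a ^ i := by
        rw [← pow_add, Nat.sub_add_cancel hi'.le]
      rw [this]; ring
    · rw [Algebra.smul_def, mul_pow]
  have key' := (mul_eq_zero.mp key).resolve_left (pow_ne_zero _ ha')
  rw [← key']
  simp only [eval₂_add, eval₂_pow, eval₂_X, eval₂_finsetSum, eval₂_mul, eval₂_C]
  rw [Fin.sum_univ_eq_sum_range (fun i => algebraMap S L (c i) * w ^ i) d]

end Coprime

section Local

/-- `X` and `2` are relatively prime in `ℤ[X]`. -/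
theorem isRelPrime_X_two : IsRelPrime (X : ℤ[X]) 2 := by
  rw [irreducible_X.isRelPrime_iff_not_dvd, X_dvd_iff]
  have : (2 : ℤ[X]) = C 2 := rfl
  rw [this, coeff_C_zero]
  norm_num

variable {L : Type*} [Field L] [Algebra ℤ[X] L] [Module.IsTorsionFree ℤ[X] L]

/-- `1` is not in the ideal generated by `A` and `2` in the integral closure of `ℤ[A]`. -/
theorem one_ne_X_mul_sub_two_mul {x y : L} (hx : IsIntegral ℤ[X] x) (hy : IsIntegral ℤ[X] y) :
    algebraMap ℤ[X] L X * x - 2 * y ≠ 1 := by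
  intro h
  let O := integralClosure ℤ[X] L
  let φ : ℤ[X] →+* ZMod 2 := (Int.castRingHom (ZMod 2)).comp (evalRingHom (0 : ℤ))
  have hprime : (RingHom.ker φ).IsPrime := RingHom.ker_isPrime φ
  have hinj : Function.Injective (algebraMap ℤ[X] O) := by
    intro a b hab
    have := congrArg (algebraMap O L) hab
    rw [← IsScalarTower.algebraMap_apply, ← IsScalarTower.algebraMap_apply] at this
    exact FaithfulSMul.algebraMap_injective ℤ[X] L this
  obtain ⟨Q, hQ, hQP⟩ := Ideal.exists_ideal_over_prime_of_isIntegral_of_isDomain (S := O)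
    (RingHom.ker φ) (by rw [(RingHom.injective_iff_ker_eq_bot _).mp hinj]; exact bot_le)
  have hX : algebraMap ℤ[X] O X ∈ Q := by
    have : (X : ℤ[X]) ∈ Ideal.comap (algebraMap ℤ[X] O) Q := by
      rw [hQP, RingHom.mem_ker]; simp [φ]
    exact this
  have h2 : algebraMap ℤ[X] O 2 ∈ Q := by
    have : (2 : ℤ[X]) ∈ Ideal.comap (algebraMap ℤ[X] O) Q := by
      rw [hQP, RingHom.mem_ker]; simp [φ]; rfl
    exact this
  have h1 : (1 : O) ∈ Q := by
    have e : (1 : O) = algebraMap ℤ[X] O X * ⟨x, hx⟩ - algebraMap ℤ[X] O 2 * ⟨y, hy⟩ := by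
      apply Subtype.ext
      simp only [OneMemClass.coe_one, Subalgebra.coe_sub, Subalgebra.coe_mul,
        Subalgebra.coe_algebraMap, map_ofNat]
      exact h.symm
    rw [e]
    exact Q.sub_mem (Q.mul_mem_right _ hX) (Q.mul_mem_right _ h2)
  exact hQ.ne_top ((Ideal.eq_top_iff_one Q).mpr h1)

/-- **The supersingular obstruction at `2`.**  Let `c₄ = A⁴ - 24A`, `c₆ = -A⁶ + 36A³ - 216` be the
invariants of `y² + Axy + y = x³`.  There are no `g`, `f` integral over `ℤ[A]` with
`g * c₄ - N * c₆ = 8 * f`, `N` odd: i.e. `N * c₆` does not lie in the ideal `(8, c₄)` of any integral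
extension of `ℤ[A]`. -/
theorem no_integral_pair {g f : L} (hg : IsIntegral ℤ[X] g) (hf : IsIntegral ℤ[X] f) {N : ℤ}
    (hN : Odd N) :
    g * algebraMap ℤ[X] L (X ^ 4 - 24 * X) -
      (N : L) * algebraMap ℤ[X] L (-X ^ 6 + 36 * X ^ 3 - 216) ≠ 8 * f := by
  intro h
  obtain ⟨A, hA⟩ : ∃ A : L, A = algebraMap ℤ[X] L X := ⟨_, rfl⟩
  have hAint : IsIntegral ℤ[X] A := hA ▸ isIntegral_algebraMap
  have hNint : IsIntegral ℤ[X] (N : L) := by
    rw [← map_intCast (algebraMap ℤ[X] L) N]; exact isIntegral_algebraMap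
  have hnum : ∀ n : ℕ, IsIntegral ℤ[X] (n : L) := fun n => by
    rw [← map_natCast (algebraMap ℤ[X] L) n]; exact isIntegral_algebraMap
  have h' : g * (A ^ 4 - 24 * A) - (N : L) * (-A ^ 6 + 36 * A ^ 3 - 216) = 8 * f := by
    rw [map_sub, map_sub, map_add, map_neg, map_mul, map_mul, map_pow, map_pow, map_pow,
      map_ofNat, map_ofNat, map_ofNat, ← hA] at h
    exact h
  -- step 1
  obtain ⟨u, hu⟩ : ∃ u : L, u = g * A + N * A ^ 3 - 36 * N := ⟨_, rfl⟩
  obtain ⟨v, hv⟩ : ∃ v : L, v = f + 3 * A * g - 27 * N := ⟨_, rfl⟩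
  have huv : A ^ 3 * u = 8 * v := by rw [hu, hv]; linear_combination h'
  have huint : IsIntegral ℤ[X] u := by
    rw [hu]
    exact ((hg.mul hAint).add (hNint.mul (hAint.pow 3))).sub ((by exact_mod_cast hnum 36 :
      IsIntegral ℤ[X] (36 : L)).mul hNint)
  have hvint : IsIntegral ℤ[X] v := by
    rw [hv]
    exact (hf.add (((by exact_mod_cast hnum 3 : IsIntegral ℤ[X] (3 : L)).mul hAint).mul hg)).sub
      ((by exact_mod_cast hnum 27 : IsIntegral ℤ[X] (27 : L)).mul hNint)
  have h2 : (2 : L) ≠ 0 := by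
    rw [← map_ofNat (algebraMap ℤ[X] L) 2, Ne, FaithfulSMul.algebraMap_eq_zero_iff]; norm_num
  have h8 : (8 : L) ≠ 0 := by
    have : (8 : L) = 2 ^ 3 := by norm_num
    rw [this]; exact pow_ne_zero _ h2
  have h4 : (4 : L) ≠ 0 := by
    have : (4 : L) = 2 ^ 2 := by norm_num
    rw [this]; exact pow_ne_zero _ h2
  have hw : IsIntegral ℤ[X] (u / 8) := by
    refine isIntegral_of_isRelPrime (a := (X : ℤ[X]) ^ 3) (b := (2 : ℤ[X]) ^ 3)
      (isRelPrime_X_two.pow) (pow_ne_zero _ X_ne_zero) (by norm_num) ?_ ?_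
    · have : ((X : ℤ[X]) ^ 3) • (u / 8) = v := by
        rw [Algebra.smul_def, map_pow, ← hA]
        field_simp
        linear_combination huv
      rw [this]; exact hvint
    · have : ((2 : ℤ[X]) ^ 3) • (u / 8) = u := by
        rw [Algebra.smul_def, map_pow, map_ofNat]
        field_simp
        ring
      rw [this]; exact huint
  -- step 2
  obtain ⟨w, hw'⟩ : ∃ w : L, w = u / 8 := ⟨_, rfl⟩
  rw [← hw'] at hw
  have hxint : IsIntegral ℤ[X] (g + N * A ^ 2) := hg.add (hNint.mul (hAint.pow 2))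
  have hrel2 : A * (g + N * A ^ 2) = 4 * (9 * N + 2 * w) := by
    rw [hw', hu]; field_simp; ring
  have hw2 : IsIntegral ℤ[X] ((g + N * A ^ 2) / 4) := by
    refine isIntegral_of_isRelPrime (a := (X : ℤ[X])) (b := (2 : ℤ[X]) ^ 2)
      (by simpa using isRelPrime_X_two.pow (m := 1) (n := 2)) X_ne_zero (by norm_num) ?_ ?_
    · have : (X : ℤ[X]) • ((g + N * A ^ 2) / 4) = 9 * N + 2 * w := by
        rw [Algebra.smul_def, ← hA]
        field_simp
        linear_combination hrel2
      rw [this]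
      exact ((by exact_mod_cast hnum 9 : IsIntegral ℤ[X] (9 : L)).mul hNint).add
        ((by exact_mod_cast hnum 2 : IsIntegral ℤ[X] (2 : L)).mul hw)
    · have : ((2 : ℤ[X]) ^ 2) • ((g + N * A ^ 2) / 4) = g + N * A ^ 2 := by
        rw [Algebra.smul_def, map_pow, map_ofNat]
        field_simp
        ring
      rw [this]; exact hxint
  -- step 3
  obtain ⟨k, hk⟩ := hN
  have hNk : (N : L) = 2 * k + 1 := by rw [hk]; push_cast; ring
  have hkint : IsIntegral ℤ[X] (9 * (k : L) + 4) := by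
    have : (9 * (k : L) + 4) = algebraMap ℤ[X] L ((9 * k + 4 : ℤ) : ℤ[X]) := by
      rw [map_intCast]; push_cast; ring
    rw [this]; exact isIntegral_algebraMap
  have hfin : algebraMap ℤ[X] L X * ((g + N * A ^ 2) / 4) - 2 * (w + (9 * (k : L) + 4)) = 1 := by
    rw [← hA]
    field_simp
    linear_combination hrel2 + 36 * hNk
  exact one_ne_X_mul_sub_two_mul hw2 (hw.add hkint) hfin

end Local

section Core

/-- The supersingular specialisation `ℤ[E₄, E₆, Δ] → ℤ[A]`:
`E₄ ↦ A⁴ - 24A`, `E₆ ↦ -A⁶ + 36A³ - 216`, `Δ ↦ A³ - 27`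
(invariants `c₄`, `c₆`, `Δ` of the curve `y² + Axy + y = x³`). -/
noncomputable def spec : MvPolynomial (Fin 3) ℤ →ₐ[ℤ] ℤ[X] :=
  MvPolynomial.aeval ![X ^ 4 - 24 * X, -X ^ 6 + 36 * X ^ 3 - 216, X ^ 3 - 27]

/-- The relation `E₄³ - E₆² = 1728 Δ` is respected by `spec`. -/
theorem spec_relation :
    spec (MvPolynomial.X 0 ^ 3 - MvPolynomial.X 1 ^ 2 - 1728 * MvPolynomial.X 2) = 0 := by
  simp only [spec, map_sub, map_mul, map_pow, MvPolynomial.aeval_X, map_ofNat]
  simp only [Matrix.cons_val_zero, Matrix.cons_val_one, Matrix.cons_val]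
  ring

/-- **Algebraic core of the case `l = 2`, `p ≡ 7 mod 8` of the S16 upper bound.**

Let `e4 e6 dl G F` be elements of a commutative ring `B` (think: `E₄`, `E₆`, `Δ` and the
hypothetical weight-2 form `G ≡ 1 mod 8` on `Γ₀(p)`, `F = (G E₄ - E₆)/8`, inside the ring of
holomorphic functions on the upper half plane).  Assume

* `hker`: every integer polynomial relation between `e4, e6, dl` is killed by the supersingular
  specialisation `spec` (true for `E₄, E₆, Δ`, whose relation ideal is generated by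
  `E₄³ - E₆² - 1728 Δ`);
* `hG`, `hF`: for an odd integer `N`, `N * G` and `N * F` are integral over `ℤ[e4, e6, dl]`;
* `h`: `8 * F = G * e4 - e6`.

Then `False`. -/
theorem core {B : Type*} [CommRing B] (e4 e6 dl G F : B) {N : ℤ} (hN : Odd N)
    (hker : ∀ P : MvPolynomial (Fin 3) ℤ,
      MvPolynomial.aeval (R := ℤ) ![e4, e6, dl] P = 0 → spec P = 0)
    (hG : ∃ p : (MvPolynomial (Fin 3) ℤ)[X], p.Monic ∧
      p.eval₂ (MvPolynomial.aeval (R := ℤ) ![e4, e6, dl]).toRingHom ((N : B) * G) = 0)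
    (hF : ∃ p : (MvPolynomial (Fin 3) ℤ)[X], p.Monic ∧
      p.eval₂ (MvPolynomial.aeval (R := ℤ) ![e4, e6, dl]).toRingHom ((N : B) * F) = 0)
    (h : 8 * F = G * e4 - e6) : False := by
  classical
  let R₀ := MvPolynomial (Fin 3) ℤ
  let ev : R₀ →+* B := (MvPolynomial.aeval (R := ℤ) ![e4, e6, dl]).toRingHom
  let _ : Algebra R₀ B := ev.toAlgebra
  have hev : ∀ r : R₀, algebraMap R₀ B r = MvPolynomial.aeval (R := ℤ) ![e4, e6, dl] r :=
    fun r => rfl
  have hGi : IsIntegral R₀ ((N : B) * G) := hG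
  have hFi : IsIntegral R₀ ((N : B) * F) := hF
  let B₂ := integralClosure R₀ B
  let φ : R₀ →+* ℤ[X] := spec.toRingHom
  have hP : (RingHom.ker φ).IsPrime := RingHom.ker_isPrime φ
  obtain ⟨Q, -, hQ, hQP⟩ := Ideal.exists_ideal_over_prime_of_isIntegral (S := B₂)
    (RingHom.ker φ) ⊥ (by
      intro r hr
      rw [Ideal.mem_comap, Ideal.mem_bot] at hr
      have h0 : algebraMap R₀ B r = 0 := by
        have := congrArg (algebraMap B₂ B) hr
        rwa [← IsScalarTower.algebraMap_apply, map_zero] at this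
      exact hker r ((hev r).symm.trans h0))
  -- the domain `D = B₂ / Q`, integral over `R = R₀ / ker φ ↪ ℤ[X]`
  let D := B₂ ⧸ Q
  let θ₀ : R₀ →+* D := (Ideal.Quotient.mk Q).comp (algebraMap R₀ B₂)
  have hθ₀ : RingHom.ker θ₀ = RingHom.ker φ := by
    rw [← hQP]
    ext r
    simp only [θ₀, RingHom.mem_ker, RingHom.comp_apply, Ideal.mem_comap]
    exact Ideal.Quotient.eq_zero_iff_mem
  let R := R₀ ⧸ RingHom.ker φ
  let a₁ : R →+* D := Ideal.Quotient.lift (RingHom.ker φ) θ₀
    (fun a ha => by rw [← hθ₀] at ha; exact ha)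
  have ha₁ : Function.Injective a₁ :=
    RingHom.lift_injective_of_ker_le_ideal _ _ (le_of_eq hθ₀)
  let a₂ : R →+* ℤ[X] := RingHom.kerLift φ
  have ha₂ : Function.Injective a₂ := RingHom.kerLift_injective φ
  let M := AlgebraicClosure (FractionRing ℤ[X])
  have hMinj : Function.Injective (algebraMap ℤ[X] M) := by
    rw [IsScalarTower.algebraMap_eq ℤ[X] (FractionRing ℤ[X]) M]
    exact (algebraMap (FractionRing ℤ[X]) M).injective.comp (IsFractionRing.injective _ _)
  have : FaithfulSMul ℤ[X] M := (faithfulSMul_iff_algebraMap_injective ℤ[X] M).mpr hMinj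
  let algRD : Algebra R D := a₁.toAlgebra
  let algRM : Algebra R M := ((algebraMap ℤ[X] M).comp a₂).toAlgebra
  have : FaithfulSMul R D := (faithfulSMul_iff_algebraMap_injective R D).mpr ha₁
  have : FaithfulSMul R M := (faithfulSMul_iff_algebraMap_injective R M).mpr (hMinj.comp ha₂)
  have hcomp : (algebraMap R D).comp (Ideal.Quotient.mk (RingHom.ker φ)) = θ₀ :=
    RingHom.ext fun r => by
      change a₁ (Ideal.Quotient.mk (RingHom.ker φ) r) = θ₀ r
      exact Ideal.Quotient.lift_mk _ _ _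
  have : Algebra.IsIntegral R D := by
    refine ⟨fun x => ?_⟩
    obtain ⟨b, rfl⟩ := Ideal.Quotient.mk_surjective x
    obtain ⟨p, hp, hp0⟩ := Algebra.IsIntegral.isIntegral (R := R₀) b
    refine ⟨p.map (Ideal.Quotient.mk (RingHom.ker φ)), hp.map _, ?_⟩
    rw [eval₂_map, hcomp]
    have := congrArg (Ideal.Quotient.mk Q) hp0
    rw [hom_eval₂, map_zero] at this
    exact this
  let ψ : D →ₐ[R] M := IsAlgClosed.lift
  let T : B₂ →+* M := ψ.toRingHom.comp (Ideal.Quotient.mk Q)
  have hT : ∀ r : R₀, T (algebraMap R₀ B₂ r) = algebraMap ℤ[X] M (φ r) := by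
    intro r
    have e1 : (Ideal.Quotient.mk Q) (algebraMap R₀ B₂ r) =
        algebraMap R D (Ideal.Quotient.mk (RingHom.ker φ) r) :=
      (RingHom.congr_fun hcomp r).symm
    change ψ ((Ideal.Quotient.mk Q) (algebraMap R₀ B₂ r)) = _
    rw [e1, ψ.commutes]
    rfl
  have hTint : ∀ b : B₂, IsIntegral ℤ[X] (T b) := by
    intro b
    obtain ⟨p, hp, hp0⟩ := Algebra.IsIntegral.isIntegral (R := R₀) b
    refine ⟨p.map φ, hp.map _, ?_⟩
    have hc : (algebraMap ℤ[X] M).comp φ = T.comp (algebraMap R₀ B₂) :=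
      RingHom.ext fun r => (hT r).symm
    rw [eval₂_map, hc]
    have := congrArg T hp0
    rw [hom_eval₂, map_zero] at this
    exact this
  -- the two integral elements and their relation
  let gB : B₂ := ⟨(N : B) * G, hGi⟩
  let fB : B₂ := ⟨(N : B) * F, hFi⟩
  have hrel : 8 * fB = gB * algebraMap R₀ B₂ (MvPolynomial.X 0) -
      (N : B₂) * algebraMap R₀ B₂ (MvPolynomial.X 1) := by
    apply Subtype.ext
    have e0 : algebraMap R₀ B (MvPolynomial.X 0) = e4 := by
      rw [hev, MvPolynomial.aeval_X]; rfl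
    have e1 : algebraMap R₀ B (MvPolynomial.X 1) = e6 := by
      rw [hev, MvPolynomial.aeval_X]; rfl
    have c0 : ((algebraMap R₀ B₂ (MvPolynomial.X 0) : B₂) : B) = e4 := e0
    have c1 : ((algebraMap R₀ B₂ (MvPolynomial.X 1) : B₂) : B) = e6 := e1
    have c8 : (((8 : B₂)) : B) = 8 := rfl
    have cN : (((N : B₂)) : B) = N := rfl
    rw [Subalgebra.coe_mul, Subalgebra.coe_sub, Subalgebra.coe_mul, Subalgebra.coe_mul,
      c0, c1, c8, cN]
    change 8 * ((N : B) * F) = (N : B) * G * e4 - (N : B) * e6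
    linear_combination (N : B) * h
  have hrelM := congrArg T hrel
  rw [map_mul, map_sub, map_mul, map_mul, hT, hT, map_ofNat, map_intCast] at hrelM
  have s0 : φ (MvPolynomial.X 0) = X ^ 4 - 24 * X := by
    change spec (MvPolynomial.X 0) = _
    rw [spec, MvPolynomial.aeval_X]; rfl
  have s1 : φ (MvPolynomial.X 1) = -X ^ 6 + 36 * X ^ 3 - 216 := by
    change spec (MvPolynomial.X 1) = _
    rw [spec, MvPolynomial.aeval_X]; rfl
  rw [s0, s1] at hrelM
  exact no_integral_pair (hTint gB) (hTint fB) hN hrelM.symm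

end Core

end Fermat.Agent.S16.helper414
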