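/-
helper4369 — S16 leaf HC, adapter to the top-level spec `helper312.Stmt_HC`.
-/
import Fermat.Agent.S16.helper312_Spec
import Fermat.Agent.S16.helper4369_HeckeCommutator

set_option autoImplicit false

namespace Fermat.Agent.S16.helper4369

/-- The Hecke-commutator leaf of the S16 spec, for every prime `p`. -/
theorem stmt_HC (p : ℕ) [Fact p.Prime] : helper312.Stmt_HC p := by
  intro G c M h0 hk
  refine dvd_of_congruent_const p G c M h0 fun k hk1 => ?_
  obtain ⟨z, hz⟩ := hk k hk1
  exact ⟨z, by rw [hz]; push_cast; ring⟩

end Fermat.Agent.S16.helper4369
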