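/-
helper4426 — S16, T8 (2-adic norm case): ADAPTERS to the Spec shapes.

`helper4426_TwoAdicNorm` proves T8 unconditionally.  Here it is restated, verbatim, in the `Prop`
shapes consumed by the assemblies on main:

* `stmt_T8_master p : helper1808.Stmt_T8 p`  (master file, = `hT8` of `helper9202.upper_core`);
* `stmt_T8'_master p : helper1808.Stmt_T8' p`;
* `stmt_T8_spec p : helper312.Stmt_T8 p`     (Spec of helper312).

Each holds for every prime `p` (the hypothesis `p % 8 = 7` is part of the statements).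
-/
import Fermat.Agent.S16.helper4426_TwoAdicNorm
import Fermat.Agent.S16.helper1808_Master
import Fermat.Agent.S16.helper312_Spec

set_option autoImplicit false

open UpperHalfPlane ModularFormClass CongruenceSubgroup
open scoped MatrixGroups

namespace Fermat.Agent.S16.helper4426

/-- A quotient of integers with odd denominator, rewritten with a natural odd denominator. -/
lemma exists_natCast_odd_div (a b : ℤ) (hb : Odd b) :
    ∃ (a' : ℤ) (b' : ℕ), Odd b' ∧ (a : ℂ) / (b : ℂ) = (a' : ℂ) / (b' : ℂ) := by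
  have hodd : Odd b.natAbs := Int.natAbs_odd.mpr hb
  rcases Int.natAbs_eq b with h | h
  · refine ⟨a, b.natAbs, hodd, ?_⟩
    have hbC : (b : ℂ) = ((b.natAbs : ℕ) : ℂ) := by
      have := congrArg (Int.cast : ℤ → ℂ) h
      rwa [Int.cast_natCast] at this
    rw [hbC]
  · refine ⟨-a, b.natAbs, hodd, ?_⟩
    have hbC : (b : ℂ) = -((b.natAbs : ℕ) : ℂ) := by
      have := congrArg (Int.cast : ℤ → ℂ) h
      rwa [Int.cast_neg, Int.cast_natCast] at this
    rw [hbC, Int.cast_neg, div_neg, neg_div]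

/-- **T8 in the shape of `helper312_Spec`.** -/
theorem stmt_T8_spec (p : ℕ) [Fact p.Prime] : helper312.Stmt_T8 p := by
  intro hp8 G h0 hk
  refine no_unit_mod_eight_rat p (by omega) G h0 fun k hk1 => ?_
  obtain ⟨a, b, hb, hab⟩ := hk k hk1
  obtain ⟨a', b', hb', he⟩ := exists_natCast_odd_div a b hb
  refine ⟨a', b', hb', ?_⟩
  have hab' : PowerSeries.coeff k (qExpansion 1 G) = 8 * (a : ℂ) / (b : ℂ) := hab
  rw [hab', mul_div_assoc, he]

/-- **T8 in the shape of the master file** (`helper1808_Master`, = `hT8` of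
`helper9202.upper_core`). -/
theorem stmt_T8_master (p : ℕ) [Fact p.Prime] : helper1808.Stmt_T8 p := by
  intro hp8 G u hu h0 hk
  have hu0 : (u : ℂ) ≠ 0 := by
    have : u ≠ 0 := fun h => by simp [h] at hu
    exact_mod_cast this
  refine no_unit_mod_eight_rat p (by omega) ((u : ℂ)⁻¹ • G) ?_ fun k hk1 => ?_
  · have h := helper9202.qCoeff_smul (u : ℂ)⁻¹ G 0
    rw [h0] at h
    have h' : PowerSeries.coeff 0 (qExpansion 1 (⇑((u : ℂ)⁻¹ • G))) = (u : ℂ)⁻¹ * (u : ℂ) := h
    rw [h', inv_mul_cancel₀ hu0]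
  · obtain ⟨z, hz⟩ := hk k hk1
    obtain ⟨a', b', hb', he⟩ := exists_natCast_odd_div z u hu
    refine ⟨a', b', hb', ?_⟩
    have h := helper9202.qCoeff_smul (u : ℂ)⁻¹ G k
    rw [hz] at h
    have h' : PowerSeries.coeff k (qExpansion 1 (⇑((u : ℂ)⁻¹ • G))) =
        (u : ℂ)⁻¹ * (8 * (z : ℂ)) := h
    rw [h', ← he]
    field_simp

/-- **T8' in the shape of the master file.** -/
theorem stmt_T8'_master (p : ℕ) [Fact p.Prime] : helper1808.Stmt_T8' p := by
  intro hp8 H h0 hk
  obtain ⟨z, hz⟩ := h0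
  refine stmt_T8_master p hp8 H (1 + 8 * z) ⟨4 * z, by ring⟩ ?_ hk
  rw [hz]
  push_cast
  ring

end Fermat.Agent.S16.helper4426
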