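/-
S16 helper (helper489): the "Deuring obstruction" — the algebraic core of the 2-adic case
`p ≡ 7 (mod 8)` of the upper bound for the Eisenstein ideal index.

Let `R` be an integrally closed domain, `a : R`, `E₄ = a⁴ - 24a`, `E₆ = a⁶ - 36a³ + 216`
(the `c₄`, `-c₆` of Deuring's curve `y² + a xy + y = x³`).  If `Q`, `P ∈ R[T]` are monic,
`n = deg Q`, and `8ⁿ P(T) = Qʰ(8T + E₆, E₄)` (i.e. the roots of `P` are `(E₄ g - E₆)/8` for the
roots `g` of `Q`), then `8ⁿ ∣ a³ⁿ Qʰ(a³ - 12, a)` in `R`.

For `R = A[X]`, `a = X` this is impossible when `2` is not a unit of `A` (constant coefficient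
`(-12)ⁿ`).
-/
import Mathlib

set_option autoImplicit false

namespace Fermat.Agent.S16.helper489

open Polynomial

/-- The homogenisation of `Q` (with respect to the degree bound `n`) evaluated at `(U, V)`:
`∑ₖ Q.coeff k * U ^ k * V ^ (n - k)`. -/
noncomputable def homEval {S : Type*} [CommRing S] (Q : S[X]) (n : ℕ) (U V : S) : S :=
  ∑ k ∈ Finset.range (n + 1), Q.coeff k * U ^ k * V ^ (n - k)

theorem homEval_map {S T : Type*} [CommRing S] [CommRing T] (f : S →+* T) (Q : S[X]) (n : ℕ)
    (U V : S) : homEval (Q.map f) n (f U) (f V) = f (homEval Q n U V) := by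
  simp [homEval, map_sum, coeff_map]

/-- Over a field, for a monic split polynomial of degree `n`, the homogenisation is the product
of the linear forms `U - g V` over the roots. -/
theorem homEval_eq_prod {L : Type*} [Field L] (Q : L[X]) (hQ : Q.Monic) (hs : Q.Splits)
    (U V : L) :
    homEval Q Q.natDegree U V = (Q.roots.map (fun g => U - g * V)).prod := by
  have hcard : Q.roots.card = Q.natDegree := splits_iff_card_roots.mp hs
  by_cases hV : V = 0
  · subst hV
    have h1 : homEval Q Q.natDegree U 0 = U ^ Q.natDegree := by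
      unfold homEval
      rw [Finset.sum_eq_single Q.natDegree]
      · rw [coeff_natDegree, hQ.leadingCoeff]; simp
      · intro k hk hkn
        have : k < Q.natDegree := lt_of_le_of_ne (Nat.lt_succ_iff.mp (Finset.mem_range.mp hk)) hkn
        have h0 : (0 : L) ^ (Q.natDegree - k) = 0 := zero_pow (by omega)
        rw [h0, mul_zero]
      · intro h; exact absurd (Finset.mem_range.mpr (Nat.lt_succ_self _)) h
    rw [h1]
    simp [hcard]
  · have h1 : homEval Q Q.natDegree U V = V ^ Q.natDegree * Q.eval (U / V) := by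
      unfold homEval
      rw [eval_eq_sum_range, Finset.mul_sum]
      refine Finset.sum_congr rfl fun k hk => ?_
      have hk' : k ≤ Q.natDegree := Nat.lt_succ_iff.mp (Finset.mem_range.mp hk)
      have : V ^ Q.natDegree = V ^ (Q.natDegree - k) * V ^ k := by
        rw [← pow_add, Nat.sub_add_cancel hk']
      rw [this, div_pow]
      field_simp
    rw [h1, hs.eval_eq_prod_roots_of_monic hQ, ← hcard]
    rw [← Multiset.prod_replicate, ← Multiset.map_const', ← Multiset.prod_map_mul]
    refine congrArg Multiset.prod (Multiset.map_congr rfl fun g _ => ?_)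
    field_simp

section General

variable {R : Type*} [CommRing R] [IsDomain R] [IsIntegrallyClosed R]

/-- **Key divisibility.** -/
theorem key_divisibility (a : R) (Q P : R[X]) (hQ : Q.Monic) (hP : P.Monic) (h8 : (8 : R) ≠ 0)
    (hPQ : C ((8 : R) ^ Q.natDegree) * P =
      ∑ k ∈ Finset.range (Q.natDegree + 1),
        C (Q.coeff k) * (C 8 * X + C (a ^ 6 - 36 * a ^ 3 + 216)) ^ k *
          C ((a ^ 4 - 24 * a) ^ (Q.natDegree - k))) :
    (8 : R) ^ Q.natDegree ∣ a ^ (3 * Q.natDegree) * homEval Q Q.natDegree (a ^ 3 - 12) a := by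
  classical
  set n := Q.natDegree with hn
  let K := FractionRing R
  let L := AlgebraicClosure K
  let φ : R →+* L := algebraMap R L
  have hφK : Function.Injective (algebraMap R K) := IsFractionRing.injective R K
  have hφ : Function.Injective φ := by
    have : (φ : R → L) = (algebraMap K L) ∘ (algebraMap R K) := by
      funext x
      exact IsScalarTower.algebraMap_apply R K L x
    rw [this]
    exact (algebraMap K L).injective.comp hφK
  have h8L : φ 8 ≠ 0 := by
    intro h
    exact h8 (hφ (by rw [h, map_zero]))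
  set QL := Q.map φ with hQL
  have hQLm : QL.Monic := hQ.map φ
  have hQLd : QL.natDegree = n := hQ.natDegree_map φ
  have hQLs : QL.Splits := IsAlgClosed.splits QL
  -- the elements attached to a root
  let y : L → L := fun g => (φ (a ^ 4 - 24 * a) * g - φ (a ^ 6 - 36 * a ^ 3 + 216)) / φ 8
  let lam : L → L := fun g => y g + 3 * φ a * (g - φ a ^ 2) + 27
  have hg_int : ∀ g ∈ QL.roots, IsIntegral R g := by
    intro g hg
    refine ⟨Q, hQ, ?_⟩
    rw [← eval_map]
    exact (mem_roots'.mp hg).2
  have hy_int : ∀ g ∈ QL.roots, IsIntegral R (y g) := by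
    intro g hg
    refine ⟨P, hP, ?_⟩
    rw [← eval_map]
    have hmap := congrArg (fun p => (p.map φ).eval (y g)) hPQ
    simp only [Polynomial.map_mul, Polynomial.map_sum, Polynomial.map_pow, Polynomial.map_add,
      map_C, map_X, eval_mul, eval_finsetSum, eval_pow, eval_add, eval_C, eval_X] at hmap
    have hy8 : φ 8 * y g + φ (a ^ 6 - 36 * a ^ 3 + 216) = φ (a ^ 4 - 24 * a) * g := by
      have : φ 8 * y g = φ (a ^ 4 - 24 * a) * g - φ (a ^ 6 - 36 * a ^ 3 + 216) := by
        simp only [y]
        rw [mul_comm, div_mul_cancel₀ _ h8L]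
      rw [this]
      ring
    have hsum : ∑ k ∈ Finset.range (n + 1),
        φ (Q.coeff k) * (φ 8 * y g + φ (a ^ 6 - 36 * a ^ 3 + 216)) ^ k *
          φ ((a ^ 4 - 24 * a) ^ (n - k)) = φ (a ^ 4 - 24 * a) ^ n * QL.eval g := by
      rw [eval_eq_sum_range, hQLd, Finset.mul_sum]
      refine Finset.sum_congr rfl fun k hk => ?_
      have hk' : k ≤ n := Nat.lt_succ_iff.mp (Finset.mem_range.mp hk)
      rw [hy8, hQL, coeff_map, map_pow, mul_pow]
      have : φ (a ^ 4 - 24 * a) ^ n = φ (a ^ 4 - 24 * a) ^ k * φ (a ^ 4 - 24 * a) ^ (n - k) := by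
        rw [← pow_add, Nat.add_sub_cancel' hk']
      rw [this]
      ring
    rw [hsum, (mem_roots'.mp hg).2, mul_zero] at hmap
    rcases mul_eq_zero.mp hmap with h | h
    · exact absurd (by simpa using h) (pow_ne_zero n h8L)
    · exact h
  have hlam_int : ∀ g ∈ QL.roots, IsIntegral R (lam g) := by
    intro g hg
    have h3 : IsIntegral R (3 * φ a * (g - φ a ^ 2)) := by
      have e : (3 : L) * φ a = φ (3 * a) := by rw [map_mul, map_ofNat]
      rw [e]
      exact (isIntegral_algebraMap).mul ((hg_int g hg).sub ((isIntegral_algebraMap).pow 2))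
    have h27 : IsIntegral R (27 : L) := by
      have e : (27 : L) = φ 27 := (map_ofNat φ 27).symm
      rw [e]
      exact isIntegral_algebraMap
    exact ((hy_int g hg).add h3).add h27
  have hy8' : ∀ g, φ 8 * y g = φ (a ^ 4 - 24 * a) * g - φ (a ^ 6 - 36 * a ^ 3 + 216) := by
    intro g
    simp only [y]
    rw [mul_comm, div_mul_cancel₀ _ h8L]
  have hlam8 : ∀ g, φ 8 * lam g = φ a ^ 3 * (φ a * g - (φ a ^ 3 - 12)) := by
    intro g
    simp only [lam]
    rw [mul_add, mul_add, hy8' g]
    simp only [map_sub, map_add, map_mul, map_pow, map_ofNat]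
    ring
  -- the product of the `lam g`
  have hprod_int : IsIntegral R ((QL.roots.map lam).prod) := by
    refine IsIntegral.multiset_prod ?_
    intro x hx
    obtain ⟨g, hg, rfl⟩ := Multiset.mem_map.mp hx
    exact hlam_int g hg
  have hcard : QL.roots.card = n := by
    rw [splits_iff_card_roots.mp hQLs, hQLd]
  set M : R := (-1) ^ n * (a ^ (3 * n) * homEval Q n (a ^ 3 - 12) a) with hM
  have hprod : φ 8 ^ n * (QL.roots.map lam).prod = φ M := by
    have h1 : φ 8 ^ n * (QL.roots.map lam).prod = (QL.roots.map (fun g => φ 8 * lam g)).prod := by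
      rw [Multiset.prod_map_mul, Multiset.map_const', Multiset.prod_replicate, hcard]
    have h2 : (QL.roots.map (fun g => φ 8 * lam g)).prod
        = (QL.roots.map (fun g => (-(φ a ^ 3)) * ((φ a ^ 3 - 12) - g * φ a))).prod := by
      refine congrArg Multiset.prod (Multiset.map_congr rfl fun g _ => ?_)
      rw [hlam8]; ring
    have h3 : (QL.roots.map (fun g => (-(φ a ^ 3)) * ((φ a ^ 3 - 12) - g * φ a))).prod
        = (-(φ a ^ 3)) ^ n * homEval QL QL.natDegree (φ a ^ 3 - 12) (φ a) := by
      rw [homEval_eq_prod QL hQLm hQLs, Multiset.prod_map_mul, Multiset.map_const',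
        Multiset.prod_replicate, hcard]
    have h4 : homEval QL QL.natDegree (φ a ^ 3 - 12) (φ a) = φ (homEval Q n (a ^ 3 - 12) a) := by
      have e12 : φ a ^ 3 - 12 = φ (a ^ 3 - 12) := by rw [map_sub, map_pow, map_ofNat]
      rw [hQLd, hQL, e12, homEval_map]
    rw [h1, h2, h3, h4, hM]
    simp only [map_mul, map_pow, map_neg, map_one]
    ring
  -- descend to the fraction field and use integral closedness
  let x : K := algebraMap R K M / algebraMap R K ((8 : R) ^ n)
  have h8K : algebraMap R K ((8 : R) ^ n) ≠ 0 := by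
    intro h
    exact pow_ne_zero n h8 (hφK (by rw [h, map_zero]))
  have hx : algebraMap K L x = (QL.roots.map lam).prod := by
    have e1 : algebraMap K L (algebraMap R K M) = φ M :=
      (IsScalarTower.algebraMap_apply R K L M).symm
    have e2 : algebraMap K L (algebraMap R K ((8 : R) ^ n)) = φ 8 ^ n := by
      rw [← IsScalarTower.algebraMap_apply R K L, ← map_pow]
    simp only [x]
    rw [map_div₀, e1, e2, ← hprod]
    exact mul_div_cancel_left₀ _ (pow_ne_zero n h8L)
  have hx_int : IsIntegral R x := by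
    have : IsIntegral R (algebraMap K L x) := hx ▸ hprod_int
    exact (isIntegral_algebraMap_iff (algebraMap K L).injective).mp this
  obtain ⟨r, hr⟩ := IsIntegrallyClosed.isIntegral_iff.mp hx_int
  have hMr : M = r * (8 : R) ^ n := by
    have key : algebraMap R K M = algebraMap R K r * algebraMap R K ((8 : R) ^ n) := by
      rw [hr]
      simp only [x]
      rw [div_mul_cancel₀ _ h8K]
    apply hφK
    rw [key, ← map_mul]
  refine ⟨(-1) ^ n * r, ?_⟩
  have hsq : ((-1 : R) ^ n) * ((-1) ^ n) = 1 := by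
    rw [← mul_pow]; simp
  calc a ^ (3 * n) * homEval Q n (a ^ 3 - 12) a
      = ((-1 : R) ^ n * (-1) ^ n) * (a ^ (3 * n) * homEval Q n (a ^ 3 - 12) a) := by
        rw [hsq, one_mul]
    _ = (-1) ^ n * M := by rw [hM]; ring
    _ = (8 : R) ^ n * ((-1) ^ n * r) := by rw [hMr]; ring

end General

section PolynomialRing

variable {A : Type*} [CommRing A] [IsDomain A] [IsIntegrallyClosed A]

/-- **Deuring obstruction.** Over `A[X]` (with `A` an integrally closed domain in which `2` is
neither zero nor a unit) there are no monic `Q`, `P` of positive degree `n` with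
`8ⁿ P(T) = Qʰ(8T + E₆, E₄)`, `E₄ = X⁴ - 24X`, `E₆ = X⁶ - 36X³ + 216`. -/
theorem deuring_obstruction (h2 : ¬ IsUnit (2 : A)) (h20 : (2 : A) ≠ 0)
    (Q P : (A[X])[X]) (hQ : Q.Monic) (hP : P.Monic) (hn : Q.natDegree ≠ 0)
    (hPQ : C ((8 : A[X]) ^ Q.natDegree) * P =
      ∑ k ∈ Finset.range (Q.natDegree + 1),
        C (Q.coeff k) * (C 8 * X + C ((X : A[X]) ^ 6 - 36 * X ^ 3 + 216)) ^ k *
          C (((X : A[X]) ^ 4 - 24 * X) ^ (Q.natDegree - k))) : False := by
  set n := Q.natDegree with hn'
  have h8A : (8 : A) ≠ 0 := by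
    have : (8 : A) = 2 ^ 3 := by norm_num
    rw [this]
    exact pow_ne_zero 3 h20
  have e8 : (8 : A[X]) = C (8 : A) := (map_ofNat (C : A →+* A[X]) 8).symm
  have h8 : (8 : A[X]) ≠ 0 := by
    rw [e8]
    exact fun h => h8A (C_eq_zero.mp h)
  obtain ⟨r, hr⟩ := key_divisibility (X : A[X]) Q P hQ hP h8 hPQ
  -- compare the coefficients of `X ^ (3 n)`
  have hc : ((X : A[X]) ^ (3 * n) * homEval Q n ((X : A[X]) ^ 3 - 12) X).coeff (3 * n)
      = ((8 : A[X]) ^ n * r).coeff (3 * n) := by rw [hr]
  rw [coeff_X_pow_mul', if_pos le_rfl, Nat.sub_self, e8, ← C_pow, coeff_C_mul] at hc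
  -- the constant coefficient of the homogenisation
  have hN0 : (homEval Q n ((X : A[X]) ^ 3 - 12) X).coeff 0 = (-12) ^ n := by
    rw [coeff_zero_eq_eval_zero]
    unfold homEval
    rw [eval_finsetSum, Finset.sum_eq_single n]
    · have hlead : Q.coeff n = 1 := hQ.coeff_natDegree
      rw [hlead]
      simp
    · intro k hk hkn
      have hlt : k < n := lt_of_le_of_ne (Nat.lt_succ_iff.mp (Finset.mem_range.mp hk)) hkn
      rw [eval_mul, eval_pow (n := n - k), eval_X, zero_pow (by omega), mul_zero]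
    · intro h
      exact absurd (Finset.mem_range.mpr (Nat.lt_succ_self _)) h
  rw [hN0] at hc
  -- `(-12)ⁿ = 8ⁿ c` forces `2 ∣ 1`
  have h4 : (4 : A) ^ n ≠ 0 := by
    have : (4 : A) = 2 ^ 2 := by norm_num
    rw [this]
    exact pow_ne_zero n (pow_ne_zero 2 h20)
  have hc' : (4 : A) ^ n * (-3) ^ n = 4 ^ n * (2 ^ n * r.coeff (3 * n)) := by
    have e1 : (-12 : A) ^ n = 4 ^ n * (-3) ^ n := by rw [← mul_pow]; norm_num
    have e2 : (8 : A) ^ n = 4 ^ n * 2 ^ n := by rw [← mul_pow]; norm_num
    rw [← e1, hc, e2]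
    ring
  have h3 : (-3 : A) ^ n = 2 ^ n * r.coeff (3 * n) := mul_left_cancel₀ h4 hc'
  have hd1 : (2 : A) ∣ (-3) ^ n := by
    rw [h3]
    exact Dvd.dvd.mul_right (dvd_pow_self 2 hn) _
  have hd2 : (2 : A) ∣ (-3) ^ n - 1 := by
    have : ((-3 : A) - 1) ∣ (-3) ^ n - 1 ^ n := sub_dvd_pow_sub_pow (-3 : A) 1 n
    rw [one_pow] at this
    refine Dvd.dvd.trans ⟨-2, by norm_num⟩ this
  have hd : (2 : A) ∣ 1 := by
    have := dvd_sub hd1 hd2
    simpa using this
  exact h2 (isUnit_of_dvd_one hd)

end PolynomialRing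

end Fermat.Agent.S16.helper489
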