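/-
helper5941 — S16 leaf "S16-DUAL": the Hecke-duality reduction of the frozen statement S16
(Mazur's index theorem `#(T/I) = (p-1)/gcd(p-1,12)` in the Prelude's packaging).

Notation: `Phi p : HeckeAlg →+* heckeLatticeAlgebra p ∅` is exactly the ring homomorphism of the
frozen statement, `ev p : HeckeAlg →+* ℤ` is evaluation at the Eisenstein system
(`eisensteinIdeal p = ker (ev p)`), `sigmaP p k` is the sum of the divisors of `k` prime to `p`,
`acoef p g k : ℤ` is the `k`-th q-coefficient of a lattice element.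

Main results (all hypothesis-passing, no unproved statements):
* `card_eq_of_ker`      : `(∀ P, Phi p P = 0 → n ∣ ev p P) → (∃ P, Phi p P = 0 ∧ ev p P = n) →`
                          `Nat.card (T ⧸ I) = n`   (frozen shape of the quotient).
* `dvd_ev_of_cuspForm`  : lower bound from ONE cusp form with integer coefficients
                          `a k ≡ sigmaP p k (mod n)` for all `k ≥ 1`.
* `dvd_ev_of_complex_ker` : lower bound in kernel form over `ℂ` (needs `HasIntegralStructure p 2`).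
* `exists_ker_of_form_bound` : upper bound from "every modulus `M` for which some cusp form with
                          integer coefficients is `≡ sigmaP (mod M)` divides `n`".
* `s16_of_bounds`       : the frozen statement of S16 from the two q-expansion statements.
* by-products: `exists_Pk` (Hecke polynomials `P_k` with `a₁(P_k g) = a_k(g)`, `ev P_k = σ'(k)`),
  `eq_zero_of_pairing`, `beta_surjective` (perfectness of `(g,t) ↦ a₁(t g)` on the lattice side),
  `sigmaP_mul_prime`, `sigmaP_mul_self`, `Phi_surjective`, `exists_form_of_char`.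
-/
import Mathlib
import Fermat.Prelude.Def_CuspForm_HeckeLocal
import Fermat.Prelude.Def_CuspForm_HeckeEvalForms
import Fermat.Prelude.Def_HeckeGalois_EichlerShimura
import Fermat.Prelude.Def_ModularCurve_ModularUnit
import Fermat.Agent.Lib.helper229_HeckeLattice

set_option autoImplicit false
set_option linter.unusedSectionVars false
open ModularCurve CuspForm CongruenceSubgroup ModularFormClass
open Fermat.Agent.Lib.helper229

namespace Fermat.Agent.S16.helper5941

section SigmaP

/-- `sigmaP p k` = sum of the divisors `d` of `k` that are not divisible by `p`. -/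
def sigmaP (p k : ℕ) : ℤ := ∑ d ∈ k.divisors, if p ∣ d then 0 else (d : ℤ)

theorem sigmaP_one (p : ℕ) (hp : p.Prime) : sigmaP p 1 = 1 := by
  have h : ¬ p ∣ 1 := hp.one_lt.ne' ∘ Nat.dvd_one.mp
  simp [sigmaP, h]

theorem sigmaP_mul_self (p : ℕ) (hp : p.Prime) (k : ℕ) (hk : 1 ≤ k) :
    sigmaP p (k * p) = sigmaP p k := by
  unfold sigmaP
  symm
  apply Finset.sum_subset
  · intro d hd
    rw [Nat.mem_divisors] at hd ⊢
    exact ⟨Dvd.dvd.mul_right hd.1 p, Nat.mul_ne_zero (by omega) hp.ne_zero⟩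
  · intro d hd hd'
    rw [Nat.mem_divisors] at hd hd'
    by_cases hpd : p ∣ d
    · simp [hpd]
    · exfalso
      exact hd' ⟨(Nat.Coprime.symm ((Nat.Prime.coprime_iff_not_dvd hp).mpr hpd)).dvd_of_dvd_mul_right
        hd.1, by omega⟩

theorem sigmaP_mul_prime (p : ℕ) (hp : p.Prime) (l : ℕ) (hl : l.Prime) (hlp : l ≠ p)
    (k : ℕ) (hk : 1 ≤ k) :
    sigmaP p (k * l) + (if l ∣ k then (l : ℤ) * sigmaP p (k / l) else 0)
      = (1 + (l : ℤ)) * sigmaP p k := by
  classical
  set f : ℕ → ℤ := fun d => if p ∣ d then 0 else (d : ℤ) with hf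
  have hfl : ∀ e : ℕ, f (e * l) = (l : ℤ) * f e := by
    intro e
    simp only [hf]
    have : p ∣ e * l ↔ p ∣ e := by
      constructor
      · intro h
        rcases (Nat.Prime.dvd_mul hp).mp h with h | h
        · exact h
        · exact absurd ((Nat.prime_dvd_prime_iff_eq hp hl).mp h).symm hlp
      · intro h; exact Dvd.dvd.mul_right h l
    by_cases hpe : p ∣ e
    · simp [this, hpe]
    · simp [this, hpe]; ring
  have hinj : Function.Injective (fun e : ℕ => e * l) := fun a b hab =>
    Nat.eq_of_mul_eq_mul_right hl.pos hab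
  have hunion : (k * l).divisors = k.divisors ∪ k.divisors.image (fun e => e * l) := by
    ext d
    simp only [Nat.mem_divisors, Finset.mem_union, Finset.mem_image]
    constructor
    · rintro ⟨hd, -⟩
      by_cases hld : l ∣ d
      · obtain ⟨e, rfl⟩ := hld
        right
        refine ⟨e, ⟨?_, by omega⟩, by ring⟩
        rw [mul_comm k l] at hd
        exact Nat.dvd_of_mul_dvd_mul_left hl.pos hd
      · left
        exact ⟨(Nat.Coprime.symm ((Nat.Prime.coprime_iff_not_dvd hl).mpr hld)).dvd_of_dvd_mul_right hd,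
          by omega⟩
    · rintro (⟨hd, -⟩ | ⟨e, ⟨he, -⟩, rfl⟩)
      · exact ⟨Dvd.dvd.mul_right hd l, Nat.mul_ne_zero (by omega) hl.ne_zero⟩
      · exact ⟨Nat.mul_dvd_mul he (dvd_refl l), Nat.mul_ne_zero (by omega) hl.ne_zero⟩
  have hinter : k.divisors ∩ k.divisors.image (fun e => e * l)
      = if l ∣ k then (k / l).divisors.image (fun e => e * l) else ∅ := by
    ext d
    simp only [Finset.mem_inter, Nat.mem_divisors, Finset.mem_image]
    split_ifs with hlk
    · simp only [Finset.mem_image, Nat.mem_divisors]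
      constructor
      · rintro ⟨⟨hd, -⟩, e, ⟨he, -⟩, rfl⟩
        refine ⟨e, ⟨?_, ?_⟩, rfl⟩
        · exact Nat.dvd_div_of_mul_dvd (by rwa [mul_comm] at hd)
        · exact (Nat.div_pos (Nat.le_of_dvd (by omega) hlk) hl.pos).ne'
      · rintro ⟨e, ⟨he, -⟩, rfl⟩
        have h1 : e * l ∣ k := by
          have := Nat.mul_dvd_mul he (dvd_refl l)
          rwa [Nat.div_mul_cancel hlk] at this
        exact ⟨⟨h1, by omega⟩, e, ⟨Dvd.dvd.trans (Dvd.intro _ rfl) h1, by omega⟩, rfl⟩
    · simp only [Finset.notMem_empty, iff_false]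
      rintro ⟨⟨hd, -⟩, e, -, rfl⟩
      exact hlk (Dvd.dvd.trans (Dvd.intro_left _ rfl) hd)
  have key := Finset.sum_union_inter (s₁ := k.divisors)
    (s₂ := k.divisors.image (fun e => e * l)) (f := f)
  rw [← hunion, hinter, Finset.sum_image (fun a _ b _ hab => hinj hab)] at key
  have h2 : (∑ x ∈ k.divisors, f (x * l)) = (l : ℤ) * sigmaP p k := by
    simp only [hfl, sigmaP, Finset.mul_sum]
    rfl
  have h3 : (∑ x ∈ (if l ∣ k then (k / l).divisors.image (fun e => e * l) else ∅), f x)
      = if l ∣ k then (l : ℤ) * sigmaP p (k / l) else 0 := by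
    split_ifs with hlk
    · rw [Finset.sum_image (fun a _ b _ hab => hinj hab)]
      simp only [hfl, sigmaP, Finset.mul_sum]
      rfl
    · simp
  rw [h2, h3] at key
  have h4 : sigmaP p (k * l) = ∑ x ∈ (k * l).divisors, f x := rfl
  have h5 : sigmaP p k = ∑ x ∈ k.divisors, f x := rfl
  rw [h4, key, ← h5]
  ring

end SigmaP

section Setup

variable (p : ℕ) [Fact p.Prime]

/-- The ring homomorphism of the frozen statement S16. -/
noncomputable def Phi : HeckeAlg →+* ↥(heckeLatticeAlgebra p ∅) :=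
  (latticeRestrictHom p ∅).toRingHom.comp (heckeEvalForms p 2)

/-- Evaluation at the Eisenstein system; `eisensteinIdeal p` is its kernel. -/
noncomputable def ev : HeckeAlg →+* ℤ := (MvPolynomial.aeval (eisensteinSystem p)).toRingHom

theorem mem_eisensteinIdeal_iff (P : HeckeAlg) : P ∈ eisensteinIdeal p ↔ ev p P = 0 :=
  mem_eigenIdeal_iff _ _

theorem ev_C (a : ℤ) : ev p (MvPolynomial.C a) = a := by
  simp [ev]

theorem ev_X (l : Nat.Primes) : ev p (MvPolynomial.X l) = eisensteinSystem p l := by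
  simp [ev]

/-- The integer `k`-th `q`-coefficient of an element of the integral lattice. -/
noncomputable def acoef (g : ↥(intLattice p 2)) (k : ℕ) : ℤ :=
  (intQ_of_mem_intLattice g.2 k).choose

theorem acoef_spec (g : ↥(intLattice p 2)) (k : ℕ) :
    qCoeff (g : CuspForm (Gamma0 p) 2) k = (acoef p g k : ℂ) :=
  (intQ_of_mem_intLattice g.2 k).choose_spec

theorem acoef_eq_iff (g : ↥(intLattice p 2)) (k : ℕ) (m : ℤ) :
    acoef p g k = m ↔ qCoeff (g : CuspForm (Gamma0 p) 2) k = (m : ℂ) := by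
  rw [acoef_spec]
  exact Int.cast_inj.symm

theorem acoef_zero_index (g : ↥(intLattice p 2)) : acoef p g 0 = 0 := by
  rw [acoef_eq_iff, qCoeff_zero_eq_zero]; simp

theorem acoef_add (g h : ↥(intLattice p 2)) (k : ℕ) :
    acoef p (g + h) k = acoef p g k + acoef p h k := by
  rw [acoef_eq_iff]
  have := (qCoeffLin p 2 k).map_add (g : CuspForm (Gamma0 p) 2) (h : CuspForm (Gamma0 p) 2)
  simp only [qCoeffLin_apply] at this
  rw [Submodule.coe_add, this, acoef_spec, acoef_spec]
  push_cast; rfl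

theorem acoef_zsmul (c : ℤ) (g : ↥(intLattice p 2)) (k : ℕ) :
    acoef p (c • g) k = c * acoef p g k := by
  rw [acoef_eq_iff]
  have := map_zsmul (qCoeffLin p 2 k) c (g : CuspForm (Gamma0 p) 2)
  simp only [qCoeffLin_apply] at this
  rw [Submodule.coe_smul, this, acoef_spec]
  simp

/-- `k`-th coefficient as a `ℤ`-linear functional on the lattice. -/
noncomputable def acoefLin (k : ℕ) : ↥(intLattice p 2) →ₗ[ℤ] ℤ where
  toFun g := acoef p g k
  map_add' g h := acoef_add p g h k
  map_smul' c g := by simpa using acoef_zsmul p c g k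

@[simp] theorem acoefLin_apply (k : ℕ) (g : ↥(intLattice p 2)) : acoefLin p k g = acoef p g k := rfl

theorem eq_zero_of_acoef (g : ↥(intLattice p 2)) (h : ∀ k, 1 ≤ k → acoef p g k = 0) : g = 0 := by
  apply Subtype.ext
  apply eq_zero_of_forall_qCoeff_eq_zero
  intro n
  rcases Nat.eq_zero_or_pos n with rfl | hn
  · exact qCoeff_zero_eq_zero _
  · rw [acoef_spec, h n hn]; simp

/-- Underlying cusp form of the action of `Phi p P`. -/
theorem coe_Phi_apply (P : HeckeAlg) (g : ↥(intLattice p 2)) :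
    (((Phi p P : ↥(heckeLatticeAlgebra p ∅)) : Module.End ℤ ↥(intLattice p 2)) g :
      CuspForm (Gamma0 p) 2)
      = ((heckeEvalForms p 2 P : ↥(heckeAlgebra p 2 ∅)) :
          Module.End ℂ (CuspForm (Gamma0 p) 2)) (g : CuspForm (Gamma0 p) 2) := rfl

end Setup

section Operators

variable (p : ℕ) [Fact p.Prime]

/-! ### Action of the generators on coefficients -/

theorem Phi_X (l : Nat.Primes) : Phi p (MvPolynomial.X l)
    = latticeRestrictHom p ∅ (heckeFormsGen p 2 l) := by
  show (latticeRestrictHom p ∅) (heckeEvalForms p 2 (heckeGen l)) = _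
  rw [heckeEvalForms_heckeGen]

theorem not_dvd_of_ne (l : Nat.Primes) (hl : (l : ℕ) ≠ p) : ¬ (l : ℕ) ∣ p := fun h =>
  hl ((Nat.prime_dvd_prime_iff_eq l.2 (Fact.out : p.Prime)).mp h)

theorem acoef_Phi_X_of_ne (l : Nat.Primes) (hl : (l : ℕ) ≠ p) (g : ↥(intLattice p 2)) (k : ℕ) :
    acoef p ((Phi p (MvPolynomial.X l)).1 g) k
      = acoef p g (k * l) + if (l : ℕ) ∣ k then (l : ℤ) * acoef p g (k / l) else 0 := by
  rw [acoef_eq_iff, coe_Phi_apply]
  have h1 : heckeEvalForms p 2 (MvPolynomial.X l) = heckeFormsGen p 2 l :=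
    heckeEvalForms_heckeGen p 2 l
  rw [h1, heckeFormsGen_of_not_dvd (not_dvd_of_ne p l hl), heckeAlgebra.coe_T,
    qCoeff_heckeTLin, acoef_spec, acoef_spec]
  split_ifs with h
  · push_cast
    norm_num
  · push_cast
    ring

theorem acoef_Phi_X_self (l : Nat.Primes) (hl : (l : ℕ) = p) (g : ↥(intLattice p 2)) (k : ℕ) :
    acoef p ((Phi p (MvPolynomial.X l)).1 g) k = acoef p g (k * l) := by
  rw [acoef_eq_iff, coe_Phi_apply]
  have h1 : heckeEvalForms p 2 (MvPolynomial.X l) = heckeFormsGen p 2 l :=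
    heckeEvalForms_heckeGen p 2 l
  have hdvd : (l : ℕ) ∣ p := hl ▸ dvd_refl _
  rw [h1, heckeFormsGen_of_dvd hdvd, heckeAlgebra.coe_U,
    qCoeff_heckeULin l.2.ne_zero hdvd, acoef_spec]

theorem Phi_mul_apply (P Q : HeckeAlg) (g : ↥(intLattice p 2)) :
    (Phi p (P * Q)).1 g = (Phi p P).1 ((Phi p Q).1 g) := by
  rw [map_mul]; rfl

theorem Phi_add_apply (P Q : HeckeAlg) (g : ↥(intLattice p 2)) :
    (Phi p (P + Q)).1 g = (Phi p P).1 g + (Phi p Q).1 g := by
  rw [map_add]; rfl

theorem Phi_sub_apply (P Q : HeckeAlg) (g : ↥(intLattice p 2)) :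
    (Phi p (P - Q)).1 g = (Phi p P).1 g - (Phi p Q).1 g := by
  rw [map_sub]; rfl

theorem Phi_C_apply (a : ℤ) (g : ↥(intLattice p 2)) :
    (Phi p (MvPolynomial.C a)).1 g = a • g := by
  have h : Phi p (MvPolynomial.C a) = (a : ↥(heckeLatticeAlgebra p ∅)) := by
    rw [eq_intCast (MvPolynomial.C (σ := Nat.Primes) (R := ℤ)) a, map_intCast]
  rw [h]
  simp

theorem Phi_one_apply (g : ↥(intLattice p 2)) : (Phi p 1).1 g = g := by
  rw [map_one]; rfl

theorem Phi_comm_apply (P : HeckeAlg) (t : ↥(heckeLatticeAlgebra p ∅)) (g : ↥(intLattice p 2)) :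
    (Phi p P).1 (t.1 g) = t.1 ((Phi p P).1 g) := by
  have h := congrArg Subtype.val (mul_comm (Phi p P) t)
  exact LinearMap.congr_fun h g

/-! ### Congruence to the Eisenstein system is preserved -/

/-- `g ≡ c · σ'` modulo `n` (positive-index coefficients). -/
def Cong (n : ℕ) (g : ↥(intLattice p 2)) (c : ℤ) : Prop :=
  ∀ k, 1 ≤ k → (n : ℤ) ∣ acoef p g k - c * sigmaP p k

theorem cong_Phi (n : ℕ) (P : HeckeAlg) :
    ∀ (g : ↥(intLattice p 2)) (c : ℤ), Cong p n g c → Cong p n ((Phi p P).1 g) (c * ev p P) := by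
  have hp : p.Prime := Fact.out
  induction P using MvPolynomial.induction_on with
  | C a =>
    intro g c hg k hk
    rw [Phi_C_apply, acoef_zsmul, ev_C]
    have e : a * acoef p g k - c * a * sigmaP p k = a * (acoef p g k - c * sigmaP p k) := by ring
    rw [e]
    exact Dvd.dvd.mul_left (hg k hk) a
  | add P Q hP hQ =>
    intro g c hg k hk
    rw [Phi_add_apply, acoef_add, map_add]
    have e : acoef p ((Phi p P).1 g) k + acoef p ((Phi p Q).1 g) k
        - c * (ev p P + ev p Q) * sigmaP p k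
        = (acoef p ((Phi p P).1 g) k - c * ev p P * sigmaP p k)
          + (acoef p ((Phi p Q).1 g) k - c * ev p Q * sigmaP p k) := by ring
    rw [e]
    exact dvd_add (hP g c hg k hk) (hQ g c hg k hk)
  | mul_X P l hP =>
    intro g c hg
    rw [Phi_mul_apply, map_mul]
    have key : Cong p n ((Phi p (MvPolynomial.X l)).1 g) (c * ev p (MvPolynomial.X l)) := by
      intro k hk
      by_cases hl : (l : ℕ) = p
      · rw [acoef_Phi_X_self p l hl, ev_X, eisensteinSystem_of_dvd (hl ▸ dvd_refl _)]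
        have h1 := hg (k * l) (Nat.mul_pos hk l.2.pos)
        have h2 : sigmaP p (k * l) = sigmaP p k := by
          rw [hl]; exact sigmaP_mul_self p hp k hk
        rw [h2] at h1
        rw [mul_one]
        exact h1
      · rw [acoef_Phi_X_of_ne p l hl, ev_X, eisensteinSystem_of_not_dvd (not_dvd_of_ne p l hl)]
        have h1 := hg (k * l) (Nat.mul_pos hk l.2.pos)
        have hσ := sigmaP_mul_prime p hp l l.2 hl k hk
        by_cases hlk : (l : ℕ) ∣ k
        · rw [if_pos hlk] at hσ ⊢
          have h2 := hg (k / l) (Nat.div_pos (Nat.le_of_dvd hk hlk) l.2.pos)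
          have e : acoef p g (k * l) + ((l : ℕ) : ℤ) * acoef p g (k / l)
              - c * (1 + ((l : ℕ) : ℤ)) * sigmaP p k
              = (acoef p g (k * l) - c * sigmaP p (k * l))
                + ((l : ℕ) : ℤ) * (acoef p g (k / l) - c * sigmaP p (k / l)) := by
            linear_combination c * hσ
          rw [e]
          exact dvd_add h1 (Dvd.dvd.mul_left h2 _)
        · rw [if_neg hlk] at hσ ⊢
          have e : acoef p g (k * l) + 0 - c * (1 + ((l : ℕ) : ℤ)) * sigmaP p k
              = acoef p g (k * l) - c * sigmaP p (k * l) := by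
            linear_combination c * hσ
          rw [e]
          exact h1
    have h3 := hP _ _ key
    have e : c * (ev p P * ev p (MvPolynomial.X l)) = c * ev p (MvPolynomial.X l) * ev p P := by
      ring
    rw [e]
    exact h3

/-- Lower bound from a cusp form congruent to the Eisenstein system. -/
theorem dvd_ev_of_form (n : ℕ) (f : ↥(intLattice p 2)) (hf : Cong p n f 1)
    (P : HeckeAlg) (hP : Phi p P = 0) : (n : ℤ) ∣ ev p P := by
  have hp : p.Prime := Fact.out
  have h := cong_Phi p n P f 1 hf 1 le_rfl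
  rw [hP] at h
  have h0 : ((0 : ↥(heckeLatticeAlgebra p ∅)).1) f = 0 := rfl
  rw [h0, sigmaP_one p hp] at h
  have h1 : acoef p (0 : ↥(intLattice p 2)) 1 = 0 := by
    rw [acoef_eq_iff]
    have := (qCoeffLin p 2 1).map_zero
    simpa using this
  rw [h1] at h
  have : (n : ℤ) ∣ -(0 - 1 * ev p P * 1) := (dvd_neg).mpr h
  convert this using 1
  ring

/-! ### The Hecke operators `T_k` -/

theorem exists_Pk : ∀ k : ℕ, 1 ≤ k → ∃ P : HeckeAlg,
    (∀ g : ↥(intLattice p 2), acoef p ((Phi p P).1 g) 1 = acoef p g k) ∧ ev p P = sigmaP p k := by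
  have hp : p.Prime := Fact.out
  intro k
  induction k using Nat.strong_induction_on with
  | _ k ih =>
    intro hk
    rcases Nat.lt_or_ge k 2 with hk2 | hk2
    · have hk1 : k = 1 := by omega
      subst hk1
      exact ⟨1, fun g => by rw [Phi_one_apply], by rw [map_one, sigmaP_one p hp]⟩
    · have hl : k.minFac.Prime := Nat.minFac_prime (by omega)
      have hlk : k.minFac ∣ k := Nat.minFac_dvd k
      set l : Nat.Primes := ⟨k.minFac, hl⟩ with hldef
      have hlval : (l : ℕ) = k.minFac := rfl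
      have hk'pos : 1 ≤ k / l := Nat.div_pos (Nat.le_of_dvd hk hlk) hl.pos
      have hk'lt : k / l < k := Nat.div_lt_self hk hl.one_lt
      have hkeq : k / l * l = k := Nat.div_mul_cancel hlk
      obtain ⟨P', hP', hev'⟩ := ih (k / l) hk'lt hk'pos
      by_cases hlp : (l : ℕ) = p
      · refine ⟨P' * MvPolynomial.X l, fun g => ?_, ?_⟩
        · rw [Phi_mul_apply, hP', acoef_Phi_X_self p l hlp, hkeq]
        · rw [map_mul, hev', ev_X, eisensteinSystem_of_dvd (hlp ▸ dvd_refl _), mul_one]
          have hkeq' : k / l * p = k := by rw [← hlp]; exact hkeq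
          have := sigmaP_mul_self p hp (k / l) hk'pos
          rw [hkeq'] at this
          exact this.symm
      · have hσ := sigmaP_mul_prime p hp l hl hlp (k / l) hk'pos
        rw [hkeq] at hσ
        by_cases hlk' : (l : ℕ) ∣ k / l
        · have hk''pos : 1 ≤ k / l / l := Nat.div_pos (Nat.le_of_dvd hk'pos hlk') hl.pos
          have hk''lt : k / l / l < k := lt_of_le_of_lt (Nat.div_le_self _ _) hk'lt
          obtain ⟨P'', hP'', hev''⟩ := ih (k / l / l) hk''lt hk''pos
          rw [if_pos hlk'] at hσ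
          refine ⟨P' * MvPolynomial.X l - MvPolynomial.C (l : ℤ) * P'', fun g => ?_, ?_⟩
          · rw [Phi_sub_apply, Phi_mul_apply, Phi_mul_apply, Phi_C_apply]
            have h1 := (acoefLin p 1).map_sub ((Phi p P').1 ((Phi p (MvPolynomial.X l)).1 g))
              ((l : ℤ) • (Phi p P'').1 g)
            simp only [acoefLin_apply] at h1
            rw [h1, acoef_zsmul, hP', hP'', acoef_Phi_X_of_ne p l hlp, if_pos hlk', hkeq]
            ring
          · rw [map_sub, map_mul, map_mul, hev', hev'', ev_X, ev_C,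
              eisensteinSystem_of_not_dvd (not_dvd_of_ne p l hlp)]
            linear_combination -hσ
        · rw [if_neg hlk'] at hσ
          refine ⟨P' * MvPolynomial.X l, fun g => ?_, ?_⟩
          · rw [Phi_mul_apply, hP', acoef_Phi_X_of_ne p l hlp, if_neg hlk', hkeq, add_zero]
          · rw [map_mul, hev', ev_X, eisensteinSystem_of_not_dvd (not_dvd_of_ne p l hlp)]
            linear_combination -hσ

/-- Non-degeneracy of the pairing `(t, g) ↦ a₁(t g)` in the Hecke variable. -/
theorem eq_zero_of_pairing (t : ↥(heckeLatticeAlgebra p ∅))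
    (h : ∀ g : ↥(intLattice p 2), acoef p (t.1 g) 1 = 0) : t = 0 := by
  apply Subtype.ext
  apply LinearMap.ext
  intro g
  show t.1 g = 0
  apply eq_zero_of_acoef
  intro k hk
  obtain ⟨P, hP, -⟩ := exists_Pk p k hk
  rw [← hP (t.1 g), Phi_comm_apply]
  exact h _

end Operators

section AbstractDuality

/-- Abstract duality lemma: a `ℤ`-linear map `β : L → Hom(T, ℤ)` with saturated range and
non-degenerate in the `T`-variable is surjective (`T` finite free). -/
theorem surjective_of_saturated_of_nondegenerate {L T : Type*} [AddCommGroup L] [AddCommGroup T]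
    [Module.Finite ℤ T] [Module.Free ℤ T]
    (β : L →ₗ[ℤ] Module.Dual ℤ T)
    (hsat : ∀ (ψ : Module.Dual ℤ T) (N : ℤ), N ≠ 0 → N • ψ ∈ LinearMap.range β →
      ψ ∈ LinearMap.range β)
    (hnd : ∀ t : T, (∀ g : L, β g t = 0) → t = 0) :
    Function.Surjective β := by
  intro ψ
  set R := LinearMap.range β with hR
  have htf : Module.IsTorsionFree ℤ (Module.Dual ℤ T ⧸ R) :=
    Module.IsTorsionFree.of_smul_eq_zero (by
      intro r q hrq
      by_cases hr : r = 0
      · exact Or.inl hr
      · right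
        obtain ⟨φ, rfl⟩ := Submodule.Quotient.mk_surjective R q
        have h1 : r • φ ∈ R := by
          rw [← Submodule.Quotient.mk_smul] at hrq
          exact (Submodule.Quotient.mk_eq_zero R).mp hrq
        exact (Submodule.Quotient.mk_eq_zero R).mpr (hsat φ r hr h1))
  have : Module.Free ℤ (Module.Dual ℤ T ⧸ R) := Module.free_of_finite_type_torsion_free'
  have hzero : ∀ c : (Module.Dual ℤ T ⧸ R) →ₗ[ℤ] ℤ, c = 0 := by
    intro c
    set ψ0 : Module.Dual ℤ (Module.Dual ℤ T) := c ∘ₗ R.mkQ with hψ0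
    set t0 : T := (Module.evalEquiv ℤ T).symm ψ0 with ht0def
    have he : Module.evalEquiv ℤ T t0 = ψ0 := (Module.evalEquiv ℤ T).apply_symm_apply ψ0
    have ht0 : ∀ d : Module.Dual ℤ T, d t0 = ψ0 d := by
      intro d
      rw [← he]
      rfl
    have ht0z : t0 = 0 := hnd t0 (fun g => by
      rw [ht0, hψ0]
      show c (R.mkQ (β g)) = 0
      have : R.mkQ (β g) = 0 := (Submodule.Quotient.mk_eq_zero R).mpr ⟨g, rfl⟩
      rw [this, map_zero])
    have hψ0z : ψ0 = 0 := by rw [← he, ht0z, map_zero]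
    apply LinearMap.ext
    intro q
    obtain ⟨φ, rfl⟩ := Submodule.Quotient.mk_surjective R q
    exact congrArg (fun e => e φ) hψ0z
  have hq : R.mkQ ψ = 0 := by
    apply (Module.Free.chooseBasis ℤ (Module.Dual ℤ T ⧸ R)).ext_elem
    intro i
    have := hzero ((Module.Free.chooseBasis ℤ (Module.Dual ℤ T ⧸ R)).coord i)
    have h2 := congrArg (fun e => e (R.mkQ ψ)) this
    simpa using h2
  exact (Submodule.Quotient.mk_eq_zero R).mp hq

end AbstractDuality

section Pairing

variable (p : ℕ) [Fact p.Prime]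

/-! ### The pairing `(g, t) ↦ a₁(t g)` and its perfectness on the lattice side -/

/-- The pairing `L → Hom_ℤ(T, ℤ)`, `g ↦ (t ↦ a₁(t g))`. -/
noncomputable def beta : ↥(intLattice p 2) →ₗ[ℤ] Module.Dual ℤ ↥(heckeLatticeAlgebra p ∅) :=
  LinearMap.mk₂ ℤ (fun g t => acoef p (t.1 g) 1)
    (fun g g' t => by rw [map_add, acoef_add])
    (fun c g t => by rw [map_zsmul, acoef_zsmul]; rfl)
    (fun g t t' => by
      have : (t + t').1 g = t.1 g + t'.1 g := rfl
      rw [this, acoef_add])
    (fun c g t => by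
      have : (c • t).1 g = c • t.1 g := rfl
      rw [this, acoef_zsmul]; rfl)

theorem beta_apply (g : ↥(intLattice p 2)) (t : ↥(heckeLatticeAlgebra p ∅)) :
    beta p g t = acoef p (t.1 g) 1 := rfl

set_option maxHeartbeats 1000000 in
set_option synthInstance.maxHeartbeats 400000 in
theorem beta_saturated (ψ : Module.Dual ℤ ↥(heckeLatticeAlgebra p ∅)) (N : ℤ) (hN : N ≠ 0)
    (g : ↥(intLattice p 2)) (h : beta p g = N • ψ) : ∃ f : ↥(intLattice p 2), beta p f = ψ := by
  choose Pk hPk _ using exists_Pk p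
  have hcoef : ∀ k (hk : 1 ≤ k), acoef p g k = N * ψ (Phi p (Pk k hk)) := by
    intro k hk
    rw [← hPk k hk g, ← beta_apply, h]
    simp
  have hNC : (N : ℂ) ≠ 0 := Int.cast_ne_zero.mpr hN
  set f0 : CuspForm (Gamma0 p) 2 := ((N : ℂ)⁻¹) • (g : CuspForm (Gamma0 p) 2) with hf0def
  have hf0 : IntQ f0 := by
    intro k
    rcases Nat.eq_zero_or_pos k with rfl | hk
    · exact ⟨0, by rw [qCoeff_zero_eq_zero]; simp⟩
    · refine ⟨ψ (Phi p (Pk k hk)), ?_⟩
      have h1 := (qCoeffLin p 2 k).map_smul ((N : ℂ)⁻¹) (g : CuspForm (Gamma0 p) 2)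
      simp only [qCoeffLin_apply] at h1
      rw [hf0def, h1, acoef_spec, hcoef k hk]
      push_cast
      rw [smul_eq_mul, ← mul_assoc, inv_mul_cancel₀ hNC, one_mul]
  set f : ↥(intLattice p 2) := ⟨f0, mem_intLattice_of_intQ hf0⟩ with hfdef
  have hNf : N • f = g := by
    apply Subtype.ext
    show N • f0 = (g : CuspForm (Gamma0 p) 2)
    rw [hf0def, ← Int.cast_smul_eq_zsmul ℂ N, smul_smul, mul_inv_cancel₀ hNC, one_smul]
  refine ⟨f, ?_⟩
  apply LinearMap.ext
  intro t
  have h2 : N * beta p f t = N * ψ t := by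
    have h3 : beta p g t = (N • ψ) t := by rw [h]
    rw [← hNf, map_zsmul] at h3
    simpa using h3
  exact mul_left_cancel₀ hN h2

end Pairing

section Core

/-- Abstract lifting lemma: an additive map from a finite free `ℤ`-module to `ZMod m` lifts
to `ℤ`. -/
theorem exists_int_lift {T : Type*} [AddCommGroup T] [Module.Free ℤ T] (m : ℕ)
    (χ : T →+ ZMod m) : ∃ ψ : T →ₗ[ℤ] ℤ, ∀ t, ((ψ t : ℤ) : ZMod m) = χ t := by
  obtain ⟨ψ, hψ⟩ := Module.projective_lifting_property
    (Int.castAddHom (ZMod m)).toIntLinearMap χ.toIntLinearMap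
    (fun x => ZMod.intCast_surjective x)
  exact ⟨ψ, fun t => congrArg (fun e => e t) hψ⟩

variable (p : ℕ) [Fact p.Prime]

set_option maxHeartbeats 1000000 in
set_option synthInstance.maxHeartbeats 400000 in
theorem beta_surjective : Function.Surjective (beta p) := by
  apply surjective_of_saturated_of_nondegenerate
  · rintro ψ N hN ⟨g, hg⟩
    exact beta_saturated p ψ N hN g hg
  · intro t ht
    exact eq_zero_of_pairing p t (fun g => ht g)

theorem heckeEvalForms_surjective : Function.Surjective (heckeEvalForms p 2) := by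
  have hp : p.Prime := Fact.out
  have h1 : (MvPolynomial.aeval (R := ℤ) (heckeFormsGen p 2)).range = ⊤ := by
    rw [← Algebra.adjoin_range_eq_range_aeval, eq_top_iff]
    have h2 : Algebra.adjoin ℤ ((Subtype.val : ↥(heckeAlgebra p 2 ∅) → _) ⁻¹'
        (heckeGenerators p 2 ∅)) = ⊤ := Algebra.adjoin_adjoin_coe_preimage
    rw [← h2]
    apply Algebra.adjoin_mono
    rintro x hx
    rcases hx with ⟨l, hl, hlN, -, hx⟩ | ⟨q, hqN, hq, -, hx⟩
    · refine ⟨⟨l, hl⟩, ?_⟩
      apply Subtype.ext
      rw [heckeFormsGen_of_not_dvd (show ¬ ((⟨l, hl⟩ : Nat.Primes) : ℕ) ∣ p from hlN),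
        heckeAlgebra.coe_T, hx]
    · refine ⟨⟨q, hq⟩, ?_⟩
      apply Subtype.ext
      rw [heckeFormsGen_of_dvd (show ((⟨q, hq⟩ : Nat.Primes) : ℕ) ∣ p from hqN),
        heckeAlgebra.coe_U, hx]
  intro x
  have hx : x ∈ (MvPolynomial.aeval (R := ℤ) (heckeFormsGen p 2)).range := h1 ▸ Algebra.mem_top
  obtain ⟨P, hP⟩ := hx
  exact ⟨P, hP⟩

theorem Phi_surjective : Function.Surjective (Phi p) :=
  (latticeRestrictHom_surjective p ∅).comp (heckeEvalForms_surjective p)

/-- The Eisenstein character modulo `n`, given the lower bound. -/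
theorem exists_char (n : ℕ) (hL : ∀ P, Phi p P = 0 → (n : ℤ) ∣ ev p P) :
    ∃ χ : ↥(heckeLatticeAlgebra p ∅) →+* ZMod n, ∀ P, χ (Phi p P) = ((ev p P : ℤ) : ZMod n) := by
  have hker : RingHom.ker (Phi p) ≤ RingHom.ker ((Int.castRingHom (ZMod n)).comp (ev p)) := by
    intro P hP
    rw [RingHom.mem_ker] at hP ⊢
    rw [RingHom.comp_apply]
    exact (ZMod.intCast_zmod_eq_zero_iff_dvd _ _).mpr (hL P hP)
  refine ⟨(Phi p).liftOfSurjective (Phi_surjective p) ⟨_, hker⟩, fun P => ?_⟩
  rw [RingHom.liftOfSurjective_comp_apply]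
  rfl

/-- From a character `T → ℤ/m` lifting the Eisenstein system to a cusp form congruent to the
Eisenstein series modulo `m` (Hecke duality). -/
theorem exists_form_of_char (m : ℕ) (χ : ↥(heckeLatticeAlgebra p ∅) →+* ZMod m)
    (hχ : ∀ P, χ (Phi p P) = ((ev p P : ℤ) : ZMod m)) :
    ∃ f : ↥(intLattice p 2), Cong p m f 1 := by
  obtain ⟨ψ, hψ⟩ := exists_int_lift m χ.toAddMonoidHom
  obtain ⟨f, hf⟩ := beta_surjective p ψ
  refine ⟨f, fun k hk => ?_⟩
  obtain ⟨P, hP, hev⟩ := exists_Pk p k hk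
  rw [one_mul, ← hP f, ← beta_apply, hf, ← hev, ← ZMod.intCast_zmod_eq_zero_iff_dvd]
  push_cast
  rw [hψ, ← hχ P]
  simp

set_option maxHeartbeats 1000000 in
set_option synthInstance.maxHeartbeats 400000 in
/-- CORE: the cardinality of the Eisenstein quotient from the two kernel statements. -/
theorem card_eq_of_ker (n : ℕ) (hL : ∀ P, Phi p P = 0 → (n : ℤ) ∣ ev p P)
    (hU : ∃ P, Phi p P = 0 ∧ ev p P = n) :
    Nat.card (↥(heckeLatticeAlgebra p ∅) ⧸
        Ideal.map ((latticeRestrictHom p ∅).toRingHom.comp (heckeEvalForms p 2))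
          (eisensteinIdeal p)) = n := by
  obtain ⟨χ, hχ⟩ := exists_char p n hL
  obtain ⟨P0, hP0, hev0⟩ := hU
  have hχsurj : Function.Surjective χ := by
    intro x
    obtain ⟨a, rfl⟩ := ZMod.intCast_surjective x
    exact ⟨Phi p (MvPolynomial.C a), by rw [hχ, ev_C]⟩
  have hker : Ideal.map ((latticeRestrictHom p ∅).toRingHom.comp (heckeEvalForms p 2))
      (eisensteinIdeal p) = RingHom.ker χ := by
    apply le_antisymm
    · rw [Ideal.map_le_iff_le_comap]
      intro P hP
      rw [mem_eisensteinIdeal_iff] at hP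
      rw [Ideal.mem_comap, RingHom.mem_ker]
      show χ (Phi p P) = 0
      rw [hχ, hP]; simp
    · intro t ht
      rw [RingHom.mem_ker] at ht
      obtain ⟨P, rfl⟩ := Phi_surjective p t
      rw [hχ, ZMod.intCast_zmod_eq_zero_iff_dvd] at ht
      obtain ⟨c, hc⟩ := ht
      have h1 : Phi p (P - MvPolynomial.C c * P0) = Phi p P := by
        rw [map_sub, map_mul, hP0, mul_zero, sub_zero]
      have h2 : P - MvPolynomial.C c * P0 ∈ eisensteinIdeal p := by
        rw [mem_eisensteinIdeal_iff, map_sub, map_mul, ev_C, hev0, hc]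
        ring
      rw [← h1]
      exact Ideal.mem_map_of_mem _ h2
  rw [hker, Nat.card_congr (RingHom.quotientKerEquivOfSurjective hχsurj).toEquiv, Nat.card_zmod]

/-- UPPER: if every modulus `M` for which some lattice form is congruent to the Eisenstein
series divides `n`, then `n` is the Eisenstein value of a polynomial acting as zero. -/
theorem exists_ker_of_bound (n : ℕ)
    (hB : ∀ M : ℕ, (∃ f : ↥(intLattice p 2), Cong p M f 1) → M ∣ n) :
    ∃ P, Phi p P = 0 ∧ ev p P = n := by
  have hsurj : Function.Surjective (ev p) := fun a => ⟨MvPolynomial.C a, ev_C p a⟩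
  set J : Ideal ℤ := Ideal.map (ev p) (RingHom.ker (Phi p)) with hJ
  set m : ℕ := (Submodule.IsPrincipal.generator J).natAbs with hm
  have hJm : J = Ideal.span {(m : ℤ)} := by
    rw [hm, Int.span_natAbs, Ideal.span_singleton_generator]
  have h1 : ∀ P, Phi p P = 0 → (m : ℤ) ∣ ev p P := by
    intro P hP
    have : ev p P ∈ J := Ideal.mem_map_of_mem _ (RingHom.mem_ker.mpr hP)
    rw [hJm] at this
    exact Ideal.mem_span_singleton.mp this
  have h2 : ∃ P, Phi p P = 0 ∧ ev p P = m := by
    have : (m : ℤ) ∈ J := by rw [hJm]; exact Ideal.mem_span_singleton_self _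
    obtain ⟨P, hP, hPm⟩ := (Ideal.mem_map_iff_of_surjective (ev p) hsurj).mp this
    exact ⟨P, RingHom.mem_ker.mp hP, hPm⟩
  obtain ⟨χ, hχ⟩ := exists_char p m h1
  obtain ⟨c, hc⟩ := hB m (exists_form_of_char p m χ hχ)
  obtain ⟨P0, hP0, hev0⟩ := h2
  refine ⟨MvPolynomial.C (c : ℤ) * P0, by rw [map_mul, hP0, mul_zero], ?_⟩
  rw [map_mul, ev_C, hev0, hc]
  push_cast
  ring

end Core

section Wiring

variable (p : ℕ) [Fact p.Prime]

/-- A cusp form with integer coefficients congruent to `σ'` modulo `n`, as a lattice element. -/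
theorem exists_cong_of_form (n : ℕ) (f : CuspForm (Gamma0 p) 2) (a : ℕ → ℤ)
    (hfa : ∀ k, qCoeff f k = (a k : ℂ)) (hcong : ∀ k, 1 ≤ k → (n : ℤ) ∣ a k - sigmaP p k) :
    ∃ g : ↥(intLattice p 2), Cong p n g 1 := by
  refine ⟨⟨f, mem_intLattice_of_intQ (fun k => ⟨a k, hfa k⟩)⟩, fun k hk => ?_⟩
  have h : acoef p ⟨f, mem_intLattice_of_intQ (fun k => ⟨a k, hfa k⟩)⟩ k = a k :=
    (acoef_eq_iff p _ k (a k)).mpr (hfa k)
  rw [h, one_mul]
  exact hcong k hk

/-- (D2) LOWER bound from a cusp form congruent to the Eisenstein series modulo `n`. -/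
theorem dvd_ev_of_cuspForm (n : ℕ) (f : CuspForm (Gamma0 p) 2) (a : ℕ → ℤ)
    (hfa : ∀ k, qCoeff f k = (a k : ℂ)) (hcong : ∀ k, 1 ≤ k → (n : ℤ) ∣ a k - sigmaP p k)
    (P : HeckeAlg) (hP : Phi p P = 0) : (n : ℤ) ∣ ev p P := by
  obtain ⟨g, hg⟩ := exists_cong_of_form p n f a hfa hcong
  exact dvd_ev_of_form p n g hg P hP

/-- (D2') LOWER bound in kernel form over `ℂ`: if every Hecke polynomial acting as zero on
`S₂(Γ₀(p))` has Eisenstein value divisible by `n`, the same holds for polynomials acting as zero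
on the integral lattice (uses the integral structure, i.e. S23). -/
theorem dvd_ev_of_complex_ker (hint : HasIntegralStructure p 2) (n : ℕ)
    (hL : ∀ P : HeckeAlg, heckeEvalForms p 2 P = 0 → (n : ℤ) ∣ ev p P)
    (P : HeckeAlg) (hP : Phi p P = 0) : (n : ℤ) ∣ ev p P := by
  apply hL P
  have h := (latticeRestrictHom_bijective p ∅ hint).1
  apply h
  rw [map_zero]
  exact hP

/-- (D3) UPPER bound from the q-expansion statement. -/
theorem exists_ker_of_form_bound (n : ℕ)
    (hB : ∀ (M : ℕ) (f : CuspForm (Gamma0 p) 2) (a : ℕ → ℤ), (∀ k, qCoeff f k = (a k : ℂ)) →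
      (∀ k, 1 ≤ k → (M : ℤ) ∣ a k - sigmaP p k) → M ∣ n) :
    ∃ P, Phi p P = 0 ∧ ev p P = n := by
  apply exists_ker_of_bound
  rintro M ⟨g, hg⟩
  refine hB M (g : CuspForm (Gamma0 p) 2) (acoef p g) (acoef_spec p g) (fun k hk => ?_)
  have := hg k hk
  rwa [one_mul] at this

/-- Kernel-form wiring: lower bound (kernel form) + upper bound (q-expansion form). -/
theorem card_eq_of_ker_of_form_bound (n : ℕ)
    (hL : ∀ P, Phi p P = 0 → (n : ℤ) ∣ ev p P)
    (hB : ∀ (M : ℕ) (f : CuspForm (Gamma0 p) 2) (a : ℕ → ℤ), (∀ k, qCoeff f k = (a k : ℂ)) →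
      (∀ k, 1 ≤ k → (M : ℤ) ∣ a k - sigmaP p k) → M ∣ n) :
    Nat.card (↥(heckeLatticeAlgebra p ∅) ⧸
        Ideal.map ((latticeRestrictHom p ∅).toRingHom.comp (heckeEvalForms p 2))
          (eisensteinIdeal p)) = n :=
  card_eq_of_ker p n hL (exists_ker_of_form_bound p n hB)

/-- (D4) FINAL WIRING: the frozen statement S16 from
(A) one cusp form congruent to `∑ σ'(k) q^k` modulo `n = eisensteinNumerator p`, and
(B) any modulus `M` admitting such a congruence divides `n`. -/
theorem s16_of_bounds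
    (hA : ∃ (f : CuspForm (Gamma0 p) 2) (a : ℕ → ℤ), (∀ k, qCoeff f k = (a k : ℂ)) ∧
      ∀ k, 1 ≤ k → ((eisensteinNumerator p : ℕ) : ℤ) ∣ a k - sigmaP p k)
    (hB : ∀ (M : ℕ) (f : CuspForm (Gamma0 p) 2) (a : ℕ → ℤ), (∀ k, qCoeff f k = (a k : ℂ)) →
      (∀ k, 1 ≤ k → (M : ℤ) ∣ a k - sigmaP p k) → M ∣ eisensteinNumerator p) :
    Nat.card (↥(heckeLatticeAlgebra p ∅) ⧸
        Ideal.map ((latticeRestrictHom p ∅).toRingHom.comp (heckeEvalForms p 2))
          (eisensteinIdeal p)) = eisensteinNumerator p := by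
  obtain ⟨f, a, hfa, hcong⟩ := hA
  exact card_eq_of_ker_of_form_bound p _ (dvd_ev_of_cuspForm p _ f a hfa hcong) hB

end Wiring

end Fermat.Agent.S16.helper5941
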