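/-
helper5941 — S16: the DUALITY leaf of the S16 spec, hypothesis-free.

`stmt_Dual p : helper312.Stmt_Dual p`, i.e. for every `M : ℕ`, if `M` divides the Eisenstein
value of every Hecke polynomial acting as zero on the integral lattice, then some cusp form of
weight 2 on `Γ₀(p)` has `k`-th q-coefficient `≡ σ'(k) (mod M)` for all `k ≥ 1`
(Hecke duality: perfectness of `(t, f) ↦ a₁(t f)`), derived from `helper5941_Duality`.
Also the same statement with integrality of all coefficients recorded (`duality_int`).
-/
import Mathlib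
import Fermat.Agent.S16.helper5941_Duality
import Fermat.Agent.S16.helper312_Spec

set_option autoImplicit false
set_option linter.unusedSectionVars false
open ModularCurve CuspForm CongruenceSubgroup ModularFormClass

namespace Fermat.Agent.S16.helper5941

/-- The two definitions of `σ'` (ℕ-valued filter form of the spec, ℤ-valued `if` form here). -/
theorem sigmaP_eq_spec (p k : ℕ) : sigmaP p k = ((helper312.sigmaP p k : ℕ) : ℤ) := by
  unfold sigmaP helper312.sigmaP
  rw [Finset.sum_filter]
  push_cast
  apply Finset.sum_congr rfl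
  intro d _
  by_cases h : p ∣ d <;> simp [h]

variable (p : ℕ) [Fact p.Prime]

theorem Phi_eq_spec : Phi p = helper2246.phi p := rfl

theorem ev_eq_spec : ev p = helper2246.eis p := rfl

/-- Duality with all the information: a lattice element congruent to `σ'` modulo `M`. -/
theorem duality_int (M : ℕ)
    (h : ∀ t : HeckeAlg, helper2246.phi p t = 0 → (M : ℤ) ∣ helper2246.eis p t) :
    ∃ g : CuspForm (Gamma0 p) 2, g ∈ intLattice p 2 ∧ ∀ k : ℕ, 1 ≤ k →
      ∃ c : ℤ, qCoeff g k = (((helper312.sigmaP p k : ℤ) + (M : ℤ) * c : ℤ) : ℂ) := by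
  obtain ⟨χ, hχ⟩ := exists_char p M h
  obtain ⟨f, hf⟩ := exists_form_of_char p M χ hχ
  refine ⟨(f : CuspForm (Gamma0 p) 2), f.2, fun k hk => ?_⟩
  obtain ⟨c, hc⟩ := hf k hk
  refine ⟨c, ?_⟩
  rw [acoef_spec]
  congr 1
  rw [one_mul, sigmaP_eq_spec] at hc
  linarith

/-- The DUALITY leaf of the S16 spec. -/
theorem stmt_Dual : helper312.Stmt_Dual p := by
  intro M h
  obtain ⟨g, -, hg⟩ := duality_int p M h
  exact ⟨g, hg⟩

end Fermat.Agent.S16.helper5941
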