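/-
helper5980 — S16, the 2-adic case `p ≡ 7 mod 8` of the upper bound (findings #2169).

Pure commutative algebra (Mathlib only).  Main results:

* `isIntegral_of_smul_of_smul` : over an integrally closed domain `A` (with `DecompositionMonoid`),
  if `u • b` and `v • b` are integral over `A` and `u`, `v` are relatively prime, then `b` is
  integral over `A` ("Hartogs").
* `deuring_algebra` : there are no `γ, ξ₄, ξ₆` integral over `ℤ[X]` (inside a field extension) with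
    `γ ^ 2 = m ^ 2 * (X ^ 4 - 24 * X) + 8 * ξ₄`,
    `γ ^ 3 = m ^ 3 * (X ^ 6 - 36 * X ^ 3 + 216) + 8 * ξ₆`,   `m` odd.
  (`X ^ 4 - 24 * X = c₄`, `X ^ 6 - 36 * X ^ 3 + 216 = -c₆` of the Deuring curve
  `y ^ 2 + X x y + y = x ^ 3`.)
* `deuring_contradiction` : the same for a transcendental element `a` of a field, integrality being
  over the subring generated by `a` (`RingHom.IsIntegralElem (aeval a)`).
* `deuring_contradiction'` : the same with integrality over `ℤ̄[a]`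
  (`Algebra.adjoin (integralClosure ℤ Ω) {a}`).
-/
import Mathlib

open Polynomial

namespace Fermat.Agent.S16.helper5980

/-- "Hartogs" lemma: if `u • b` and `v • b` are integral over an integrally closed
domain with `u`, `v` relatively prime, then `b` is integral. -/
theorem isIntegral_of_smul_of_smul {A Ω : Type*} [CommRing A] [IsDomain A]
    [IsIntegrallyClosed A] [DecompositionMonoid A]
    [CommRing Ω] [IsDomain Ω] [Algebra A Ω] [FaithfulSMul A Ω]
    {u v : A} (huv : IsRelPrime u v) (hu : u ≠ 0) (hv : v ≠ 0) {b : Ω}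
    (h1 : IsIntegral A (u • b)) (h2 : IsIntegral A (v • b)) : IsIntegral A b := by
  classical
  have e1 := IsIntegrallyClosed.minpoly_smul hv h1
  have e2 := IsIntegrallyClosed.minpoly_smul hu h2
  rw [smul_comm v u b, e2] at e1
  have hPm : (minpoly A (u • b)).Monic := minpoly.monic h1
  have hdeg : (minpoly A (v • b)).natDegree = (minpoly A (u • b)).natDegree := by
    have := congrArg natDegree e1
    simpa [natDegree_scaleRoots] using this
  have hdvd : ∀ i, u ^ ((minpoly A (u • b)).natDegree - i) ∣ (minpoly A (u • b)).coeff i := by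
    intro i
    have hc := congrArg (fun p => p.coeff i) e1
    simp only [coeff_scaleRoots, hdeg] at hc
    have h3 : u ^ ((minpoly A (u • b)).natDegree - i) ∣
        (minpoly A (u • b)).coeff i * v ^ ((minpoly A (u • b)).natDegree - i) :=
      ⟨(minpoly A (v • b)).coeff i, by rw [← hc]; ring⟩
    exact (huv.pow).dvd_of_dvd_mul_right h3
  choose f hf using hdvd
  set d := (minpoly A (u • b)).natDegree with hd
  refine ⟨X ^ d + ∑ i ∈ Finset.range d, C (f i) * X ^ i, ?_, ?_⟩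
  · apply monic_X_pow_add
    refine (degree_sum_le _ _).trans_lt ?_
    refine (Finset.sup_lt_iff (WithBot.bot_lt_coe d)).mpr ?_
    intro i hi
    exact (degree_C_mul_X_pow_le i (f i)).trans_lt (WithBot.coe_lt_coe.mpr (Finset.mem_range.mp hi))
  · have hu' : (u ^ d) • (eval₂ (algebraMap A Ω) b (X ^ d + ∑ i ∈ Finset.range d, C (f i) * X ^ i)) = 0 := by
      have h0 : aeval (u • b) (minpoly A (u • b)) = 0 := minpoly.aeval A (u • b)
      rw [hPm.as_sum] at h0
      rw [← h0]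
      simp only [eval₂_add, eval₂_pow, eval₂_X, eval₂_finsetSum, eval₂_mul, eval₂_C, map_add,
        map_pow, aeval_X, map_sum, map_mul, aeval_C, smul_add, Finset.smul_sum]
      congr 1
      · rw [_root_.smul_pow]
      · apply Finset.sum_congr rfl
        intro i hi
        have hi' : i ≤ d := (Finset.mem_range.mp hi).le
        rw [hf i, _root_.smul_pow, Algebra.smul_def, Algebra.smul_def, map_mul, map_pow, map_pow]
        have : (algebraMap A Ω u) ^ d = (algebraMap A Ω u) ^ (d - i) * (algebraMap A Ω u) ^ i := by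
          rw [← pow_add, Nat.sub_add_cancel hi']
        rw [this, map_pow]
        ring
    rcases smul_eq_zero.mp hu' with h | h
    · exact absurd h (pow_ne_zero _ hu)
    · exact h

theorem not_X_dvd_four : ¬ (X : ℤ[X]) ∣ 4 := by
  rw [X_dvd_iff]; simp

theorem not_X_dvd_eight : ¬ (X : ℤ[X]) ∣ 8 := by
  rw [X_dvd_iff]; simp

theorem isRelPrime_X_four : IsRelPrime (X : ℤ[X]) 4 :=
  (irreducible_X.isRelPrime_iff_not_dvd).mpr not_X_dvd_four

theorem isRelPrime_sq_mul_X_cube_eight (m : ℤ) (hm : Odd m) :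
    IsRelPrime (C (m ^ 2) * X ^ 3 : ℤ[X]) 8 := by
  refine IsRelPrime.mul_left ?_ ?_
  · have h1 : IsCoprime m 2 := by
      obtain ⟨k, rfl⟩ := hm
      exact ⟨1, -k, by ring⟩
    have h2 : IsCoprime (m ^ 2) (2 ^ 3) := IsCoprime.pow h1
    have h3 : IsCoprime (C (m ^ 2) : ℤ[X]) (C (2 ^ 3)) := h2.map C
    have h4 : (C (2 ^ 3) : ℤ[X]) = 8 := by
      have : ((2 : ℤ) ^ 3) = 8 := by norm_num
      rw [this]; simp
    rw [h4] at h3
    exact h3.isRelPrime
  · exact IsRelPrime.pow_left ((irreducible_X.isRelPrime_iff_not_dvd).mpr not_X_dvd_eight)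

/-- The reduction `ℤ[X] → ZMod 2`, `X ↦ 0`. -/
noncomputable def redTwo : ℤ[X] →+* ZMod 2 :=
  (Int.castRingHom (ZMod 2)).comp (evalRingHom (0 : ℤ))

theorem redTwo_C (n : ℤ) : redTwo (C n) = (n : ZMod 2) := by
  simp [redTwo]

theorem deuring_algebra_aux {Ω : Type*} [Field Ω] [Algebra ℤ[X] Ω] [FaithfulSMul ℤ[X] Ω]
    (m : ℤ) (hm : Odd m) {γ ξ₄ ξ₆ x mm : Ω}
    (hx : x = algebraMap ℤ[X] Ω X) (hmm : mm = algebraMap ℤ[X] Ω (C m))
    (hγ : IsIntegral ℤ[X] γ) (hξ₄ : IsIntegral ℤ[X] ξ₄) (hξ₆ : IsIntegral ℤ[X] ξ₆)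
    (h2 : γ ^ 2 = mm ^ 2 * (x ^ 4 - 24 * x) + 8 * ξ₄)
    (h3 : γ ^ 3 = mm ^ 3 * (x ^ 6 - 36 * x ^ 3 + 216) + 8 * ξ₆) :
    False := by
  have hinj : Function.Injective (algebraMap ℤ[X] Ω) := FaithfulSMul.algebraMap_injective _ _
  have hxint : IsIntegral ℤ[X] x := hx ▸ isIntegral_algebraMap
  have hmint : IsIntegral ℤ[X] mm := hmm ▸ isIntegral_algebraMap
  have hnat : ∀ n : ℕ, IsIntegral ℤ[X] (n : Ω) := fun n => by
    have : (n : Ω) = algebraMap ℤ[X] Ω (n : ℤ[X]) := by simp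
    rw [this]; exact isIntegral_algebraMap
  have hx0 : x ≠ 0 := by
    rw [hx]; intro h
    exact X_ne_zero (hinj (by rw [h, map_zero]))
  have hcz : ∀ n : ℕ, n ≠ 0 → (n : Ω) ≠ 0 := by
    intro n hn h
    have h1 : algebraMap ℤ[X] Ω (n : ℤ[X]) = algebraMap ℤ[X] Ω 0 := by simpa using h
    exact hn (by exact_mod_cast hinj h1)
  have h8 : (8 : Ω) ≠ 0 := by exact_mod_cast hcz 8 (by norm_num)
  have h4 : (4 : Ω) ≠ 0 := by exact_mod_cast hcz 4 (by norm_num)
  -- the auxiliary elements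
  set β : Ω := γ - mm * x ^ 2 with hβ
  set ξ₄' : Ω := ξ₄ - 3 * mm ^ 2 * x with hξ₄'
  set κ : Ω := 27 * mm ^ 3 + ξ₆ - mm * x ^ 2 * ξ₄' - ξ₄' * β with hκ
  have hβint : IsIntegral ℤ[X] β := hγ.sub (hmint.mul (hxint.pow 2))
  have hξ₄'int : IsIntegral ℤ[X] ξ₄' :=
    hξ₄.sub ((((hnat 3).mul (hmint.pow 2)).mul hxint))
  have hκint : IsIntegral ℤ[X] κ := by
    refine (((((hnat 27).mul (hmint.pow 3)).add hξ₆).sub ?_).sub (hξ₄'int.mul hβint))
    exact (hmint.mul (hxint.pow 2)).mul hξ₄'int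
  have key : mm ^ 2 * x ^ 3 * (x * β + 36 * mm) = 8 * κ := by
    simp only [hκ, hξ₄', hβ]
    linear_combination h3 - γ * h2
  -- first Hartogs step: b := (x β + 36 m) / 8 is integral
  set b : Ω := (x * β + 36 * mm) / 8 with hb
  have hb8 : (8 : ℤ[X]) • b = x * β + 36 * mm := by
    rw [Algebra.smul_def, hb]
    rw [map_ofNat (algebraMap ℤ[X] Ω) 8]; field_simp
  have hbu : (C (m ^ 2) * X ^ 3 : ℤ[X]) • b = κ := by
    rw [Algebra.smul_def, hb, map_mul, C_pow, map_pow, map_pow, ← hx, ← hmm]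
    field_simp
    linear_combination key
  have hbint : IsIntegral ℤ[X] b := by
    refine isIntegral_of_smul_of_smul (isRelPrime_sq_mul_X_cube_eight m hm) ?_ (by norm_num) ?_ ?_
    · have hm0 : m ≠ 0 := by rintro rfl; simp at hm
      exact mul_ne_zero (C_ne_zero.mpr (pow_ne_zero 2 hm0)) (pow_ne_zero 3 X_ne_zero)
    · rw [hbu]; exact hκint
    · rw [hb8]; exact (hxint.mul hβint).add ((hnat 36).mul hmint)
  -- second Hartogs step: e := β / 4 is integral
  set e : Ω := β / 4 with he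
  have he4 : (4 : ℤ[X]) • e = β := by
    rw [Algebra.smul_def, he]
    rw [map_ofNat (algebraMap ℤ[X] Ω) 4]; field_simp
  have heX : (X : ℤ[X]) • e = 2 * b - 9 * mm := by
    rw [Algebra.smul_def, he, hb, ← hx]
    field_simp
    ring
  have heint : IsIntegral ℤ[X] e := by
    refine isIntegral_of_smul_of_smul isRelPrime_X_four X_ne_zero (by norm_num) ?_ ?_
    · rw [heX]; exact ((hnat 2).mul hbint).sub ((hnat 9).mul hmint)
    · rw [he4]; exact hβint
  -- endgame: 9 m = 2 b - x e with b, e integral; reduce modulo a prime over (2, X)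
  have hfin : algebraMap ℤ[X] Ω (C (9 * m)) = 2 * b - x * e := by
    have h9 : algebraMap ℤ[X] Ω (C (9 * m)) = 9 * mm := by
      rw [C_mul, map_mul, ← hmm]
      congr 1
      exact map_ofNat (algebraMap ℤ[X] Ω) 9
    have hxe : x * e = 2 * b - 9 * mm := by rw [← heX, Algebra.smul_def, ← hx]
    rw [h9]
    linear_combination hxe
  let B := integralClosure ℤ[X] Ω
  let b' : B := ⟨b, hbint⟩
  let e' : B := ⟨e, heint⟩
  have hfinB : algebraMap ℤ[X] B (C (9 * m)) = 2 * b' - algebraMap ℤ[X] B X * e' := by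
    apply Subtype.ext
    simp only [b', e']
    push_cast
    rw [← hx]
    exact hfin
  have hprime : (RingHom.ker redTwo).IsPrime := RingHom.ker_isPrime redTwo
  have hker : RingHom.ker (algebraMap ℤ[X] B) ≤ RingHom.ker redTwo := by
    intro p hp
    have hp' : algebraMap ℤ[X] Ω p = 0 := by
      have := congrArg (fun z : B => (z : Ω)) (RingHom.mem_ker.mp hp)
      simpa using this
    have : p = 0 := hinj (by rw [hp', map_zero])
    rw [this]; exact Ideal.zero_mem _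
  obtain ⟨Q, hQp, hQ⟩ := Ideal.exists_ideal_over_prime_of_isIntegral_of_isDomain (S := B)
    (RingHom.ker redTwo) hker
  have hmemQ : ∀ p : ℤ[X], redTwo p = 0 → algebraMap ℤ[X] B p ∈ Q := by
    intro p hp
    have : p ∈ Q.comap (algebraMap ℤ[X] B) := by rw [hQ]; exact RingHom.mem_ker.mpr hp
    exact this
  have h2Q : (2 : B) ∈ Q := by
    have := hmemQ 2 (by simp [redTwo]; rfl)
    rwa [map_ofNat] at this
  have hXQ : algebraMap ℤ[X] B X ∈ Q := hmemQ X (by simp [redTwo])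
  have h9Q : algebraMap ℤ[X] B (C (9 * m)) ∈ Q := by
    rw [hfinB]
    exact Q.sub_mem (Q.mul_mem_right _ h2Q) (Q.mul_mem_right _ hXQ)
  have h9P : C (9 * m) ∈ RingHom.ker redTwo := by
    rw [← hQ]; exact h9Q
  have : redTwo (C (9 * m)) = 1 := by
    obtain ⟨k, rfl⟩ := hm
    have h20 : (2 : ZMod 2) = 0 := rfl
    have h91 : (9 : ZMod 2) = 1 := rfl
    rw [redTwo_C]
    push_cast
    rw [h20, h91]
    ring
  rw [RingHom.mem_ker, this] at h9P
  exact one_ne_zero h9P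

/-- The algebra core of the 2-adic case `p ≡ 7 mod 8` of S16: no `γ, ξ₄, ξ₆` integral over `ℤ[X]`
satisfy `γ² = m² c₄ + 8 ξ₄`, `γ³ = m³ (-c₆) + 8 ξ₆` for the Deuring invariants
`c₄ = X⁴ - 24 X`, `-c₆ = X⁶ - 36 X³ + 216`, `m` odd. -/
theorem deuring_algebra {Ω : Type*} [Field Ω] [Algebra ℤ[X] Ω] [FaithfulSMul ℤ[X] Ω]
    (m : ℤ) (hm : Odd m) {γ ξ₄ ξ₆ : Ω}
    (hγ : IsIntegral ℤ[X] γ) (hξ₄ : IsIntegral ℤ[X] ξ₄) (hξ₆ : IsIntegral ℤ[X] ξ₆)
    (h2 : γ ^ 2 = algebraMap ℤ[X] Ω (C m) ^ 2 *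
        (algebraMap ℤ[X] Ω X ^ 4 - 24 * algebraMap ℤ[X] Ω X) + 8 * ξ₄)
    (h3 : γ ^ 3 = algebraMap ℤ[X] Ω (C m) ^ 3 *
        (algebraMap ℤ[X] Ω X ^ 6 - 36 * algebraMap ℤ[X] Ω X ^ 3 + 216) + 8 * ξ₆) :
    False :=
  deuring_algebra_aux m hm rfl rfl hγ hξ₄ hξ₆ h2 h3

/-- Version for a transcendental element `a` of a field: integrality over the subring `ℤ[a]`. -/
theorem deuring_contradiction {Ω : Type*} [Field Ω] (a : Ω) (ha : Transcendental ℤ a)
    (m : ℤ) (hm : Odd m) {γ ξ₄ ξ₆ : Ω}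
    (hγ : ((aeval a : ℤ[X] →ₐ[ℤ] Ω) : ℤ[X] →+* Ω).IsIntegralElem γ)
    (hξ₄ : ((aeval a : ℤ[X] →ₐ[ℤ] Ω) : ℤ[X] →+* Ω).IsIntegralElem ξ₄)
    (hξ₆ : ((aeval a : ℤ[X] →ₐ[ℤ] Ω) : ℤ[X] →+* Ω).IsIntegralElem ξ₆)
    (h2 : γ ^ 2 = (m : Ω) ^ 2 * (a ^ 4 - 24 * a) + 8 * ξ₄)
    (h3 : γ ^ 3 = (m : Ω) ^ 3 * (a ^ 6 - 36 * a ^ 3 + 216) + 8 * ξ₆) : False := by
  let _ : Algebra ℤ[X] Ω := ((aeval a : ℤ[X] →ₐ[ℤ] Ω) : ℤ[X] →+* Ω).toAlgebra
  have hinj : Function.Injective (algebraMap ℤ[X] Ω) := transcendental_iff_injective.mp ha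
  have : FaithfulSMul ℤ[X] Ω := (faithfulSMul_iff_algebraMap_injective ℤ[X] Ω).mpr hinj
  have hX : algebraMap ℤ[X] Ω X = a := aeval_X a
  have hC : algebraMap ℤ[X] Ω (C m) = (m : Ω) := by
    show aeval a (C m) = (m : Ω)
    rw [aeval_C]; simp
  exact deuring_algebra_aux m hm hX.symm hC.symm hγ hξ₄ hξ₆ h2 h3

/-- Every element of `ℤ̄[a]` (the subalgebra generated by `a` over the algebraic integers of `Ω`)
is integral over `ℤ[a]`, hence so is everything integral over `ℤ̄[a]`. -/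
theorem isIntegralElem_aeval_of_isIntegral_adjoin {Ω : Type*} [Field Ω] (a : Ω) {γ : Ω}
    (h : IsIntegral (Algebra.adjoin (integralClosure ℤ Ω) {a}) γ) :
    ((aeval a : ℤ[X] →ₐ[ℤ] Ω) : ℤ[X] →+* Ω).IsIntegralElem γ := by
  let _ : Algebra ℤ[X] Ω := ((aeval a : ℤ[X] →ₐ[ℤ] Ω) : ℤ[X] →+* Ω).toAlgebra
  have hX : algebraMap ℤ[X] Ω X = a := aeval_X a
  show IsIntegral ℤ[X] γ
  -- every element of `ℤ̄[a]` is integral over `ℤ[X]`
  have hgen : ∀ z ∈ Algebra.adjoin (integralClosure ℤ Ω) {a}, IsIntegral ℤ[X] z := by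
    intro z hz
    refine Algebra.adjoin_induction (p := fun z _ => IsIntegral ℤ[X] z) ?_ ?_ ?_ ?_ hz
    · intro y hy
      rw [Set.mem_singleton_iff] at hy
      rw [hy, ← hX]; exact isIntegral_algebraMap
    · intro r
      have hr : IsIntegral ℤ (r : Ω) := r.2
      obtain ⟨p, hp, hp0⟩ := hr
      refine ⟨p.map (algebraMap ℤ ℤ[X]), hp.map _, ?_⟩
      rw [eval₂_map]
      have : (algebraMap ℤ[X] Ω).comp (algebraMap ℤ ℤ[X]) = algebraMap ℤ Ω := by
        ext n; simp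
      rw [this]; exact hp0
    · intro x y _ _ hx hy; exact hx.add hy
    · intro x y _ _ hx hy; exact hx.mul hy
  obtain ⟨p, hp, hp0⟩ := h
  -- `γ` is integral over the subring of integral elements
  have hγ : IsIntegral (integralClosure ℤ[X] Ω) γ := by
    let φ : Algebra.adjoin (integralClosure ℤ Ω) {a} →+* integralClosure ℤ[X] Ω :=
      { toFun := fun z => ⟨z.1, hgen z.1 z.2⟩
        map_one' := rfl
        map_mul' := fun _ _ => rfl
        map_zero' := rfl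
        map_add' := fun _ _ => rfl }
    refine ⟨p.map φ, hp.map _, ?_⟩
    rw [eval₂_map]
    have : (algebraMap (integralClosure ℤ[X] Ω) Ω).comp φ =
        algebraMap (Algebra.adjoin (integralClosure ℤ Ω) {a}) Ω := by
      ext z; rfl
    rw [this]; exact hp0
  exact isIntegral_trans (A := integralClosure ℤ[X] Ω) γ hγ

/-- Final form: integrality over `ℤ̄[a]`. -/
theorem deuring_contradiction' {Ω : Type*} [Field Ω] (a : Ω) (ha : Transcendental ℤ a)
    (m : ℤ) (hm : Odd m) {γ ξ₄ ξ₆ : Ω}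
    (hγ : IsIntegral (Algebra.adjoin (integralClosure ℤ Ω) {a}) γ)
    (hξ₄ : IsIntegral (Algebra.adjoin (integralClosure ℤ Ω) {a}) ξ₄)
    (hξ₆ : IsIntegral (Algebra.adjoin (integralClosure ℤ Ω) {a}) ξ₆)
    (h2 : γ ^ 2 = (m : Ω) ^ 2 * (a ^ 4 - 24 * a) + 8 * ξ₄)
    (h3 : γ ^ 3 = (m : Ω) ^ 3 * (a ^ 6 - 36 * a ^ 3 + 216) + 8 * ξ₆) : False :=
  deuring_contradiction a ha m hm (isIntegralElem_aeval_of_isIntegral_adjoin a hγ)
    (isIntegralElem_aeval_of_isIntegral_adjoin a hξ₄)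
    (isIntegralElem_aeval_of_isIntegral_adjoin a hξ₆) h2 h3

end Fermat.Agent.S16.helper5980
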