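import Mathlib

/-!
# S16, upper bound, `l = 2`, `p ≡ 7 mod 8`: the commutative-algebra core

Mathlib-only, statement-agnostic.

* `cdl` ("coprime division lemma"): over `B = A[X]` integrally closed, if `u, v` are integral over
  `B` and `X ^ k * u = C a * v`, then `u / C a` is integral over `B`.
* `no_integral_solution`: there are no `x, y` integral over `ℤ[X]` (inside a field) with
  `x * (X^4 - 24 X) - (X^6 - 36 X^3 + 216) = 8 y`.
-/

namespace Fermat.Agent.S16.helper6065

open Polynomial

section Scale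

variable {B : Type*} [CommRing B] [IsDomain B]
variable {L : Type*} [Field L] [Algebra B L] [Module.IsTorsionFree B L]

/-- If the coefficients of the minimal polynomial of `u` are suitably divisible by powers of `m`,
then `u / m` is integral. -/
lemma isIntegral_div_of_dvd_coeff {u : L} (hu : IsIntegral B u) {m : B} (hm : m ≠ 0)
    (h : ∀ i, m ^ ((minpoly B u).natDegree - i) ∣ (minpoly B u).coeff i) :
    IsIntegral B (u / algebraMap B L m) := by
  classical
  set p := minpoly B u with hp
  set d := p.natDegree with hd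
  choose q hq using h
  have hmL : algebraMap B L m ≠ 0 := by
    intro h0
    exact hm ((FaithfulSMul.algebraMap_injective B L) (by rw [h0, map_zero]))
  let pw : B[X] := ∑ i ∈ Finset.range (d + 1), C (q i) * X ^ i
  have hcoeff : ∀ i, i ≤ d → pw.coeff i = q i := by
    intro i hi
    simp only [pw, finsetSum_coeff, coeff_C_mul, coeff_X_pow]
    rw [Finset.sum_eq_single i]
    · simp
    · intro j _ hji
      simp [hji.symm]
    · intro hi'
      exact absurd (Finset.mem_range.2 (Nat.lt_succ_of_le hi)) hi'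
  have hqd : q d = 1 := by
    have := hq d
    rw [Nat.sub_self, pow_zero, one_mul] at this
    rw [← this]
    exact (minpoly.monic hu).coeff_natDegree
  have hdeg : pw.natDegree ≤ d := by
    refine natDegree_sum_le_of_forall_le _ _ (fun i hi => ?_)
    refine (natDegree_C_mul_X_pow_le _ _).trans ?_
    exact Nat.lt_succ_iff.1 (Finset.mem_range.1 hi)
  have hmonic : pw.Monic :=
    monic_of_natDegree_le_of_coeff_eq_one d hdeg (by rw [hcoeff d le_rfl, hqd])
  refine ⟨pw, hmonic, ?_⟩
  -- evaluate
  have hev : aeval u p = 0 := minpoly.aeval B u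
  have hsum : aeval u p = ∑ i ∈ Finset.range (d + 1), algebraMap B L (p.coeff i) * u ^ i := by
    rw [aeval_eq_sum_range]
    simp [Algebra.smul_def, hd]
  have key : algebraMap B L m ^ d * aeval (u / algebraMap B L m) pw = aeval u p := by
    rw [hsum]
    simp only [pw, map_sum, map_mul, aeval_C, map_pow, aeval_X, Finset.mul_sum]
    refine Finset.sum_congr rfl (fun i hi => ?_)
    have hi' : i ≤ d := Nat.lt_succ_iff.1 (Finset.mem_range.1 hi)
    rw [hq i, map_mul, map_pow, div_pow]
    have : algebraMap B L m ^ d = algebraMap B L m ^ (d - i) * algebraMap B L m ^ i := by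
      rw [← pow_add, Nat.sub_add_cancel hi']
    rw [this]
    field_simp
  rw [← aeval_def]
  have : algebraMap B L m ^ d * aeval (u / algebraMap B L m) pw = 0 := by rw [key, hev]
  exact (mul_eq_zero.1 this).resolve_left (pow_ne_zero _ hmL)

variable [IsIntegrallyClosed B]

/-- The minimal polynomial of `c * u` is `scaleRoots (minpoly u) c`. -/
lemma minpoly_mul_eq_scaleRoots {u : L} (hu : IsIntegral B u) {c : B} (hc : c ≠ 0) :
    minpoly B (algebraMap B L c * u) = scaleRoots (minpoly B u) c := by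
  have hz : IsIntegral B (algebraMap B L c * u) := (isIntegral_algebraMap).mul hu
  -- `Q` is monic and kills `c * u`
  have hQmonic : (scaleRoots (minpoly B u) c).Monic := (monic_scaleRoots_iff c).2 (minpoly.monic hu)
  have hQ : aeval (algebraMap B L c * u) (scaleRoots (minpoly B u) c) = 0 :=
    scaleRoots_aeval_eq_zero (minpoly.aeval B u)
  have hdvd : minpoly B (algebraMap B L c * u) ∣ scaleRoots (minpoly B u) c :=
    minpoly.isIntegrallyClosed_dvd hz hQ
  -- degree comparison
  have hM : aeval u ((minpoly B (algebraMap B L c * u)).comp (C c * X)) = 0 := by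
    rw [aeval_comp]
    simp only [map_mul, aeval_C, aeval_X]
    exact minpoly.aeval B _
  have hdvd2 : minpoly B u ∣ (minpoly B (algebraMap B L c * u)).comp (C c * X) :=
    minpoly.isIntegrallyClosed_dvd hu hM
  have hdegX : (C c * X : B[X]).natDegree = 1 := natDegree_C_mul_X c hc
  have hne : (minpoly B (algebraMap B L c * u)).comp (C c * X) ≠ 0 := by
    intro h0
    have := congrArg natDegree h0
    rw [natDegree_comp, hdegX, mul_one, natDegree_zero] at this
    have h1 : (minpoly B (algebraMap B L c * u)).natDegree ≠ 0 :=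
      (minpoly.natDegree_pos hz).ne'
    exact h1 this
  have hle : (minpoly B u).natDegree ≤ (minpoly B (algebraMap B L c * u)).natDegree := by
    have := natDegree_le_of_dvd hdvd2 hne
    rwa [natDegree_comp, hdegX, mul_one] at this
  exact (eq_of_monic_of_dvd_of_natDegree_le (minpoly.monic hz) hQmonic hdvd
    (by rw [natDegree_scaleRoots]; exact hle)).symm

lemma scaleRoots_eq_of_mul_eq {u v : L} (hu : IsIntegral B u) (hv : IsIntegral B v) {c m : B}
    (hc : c ≠ 0) (hm : m ≠ 0) (h : algebraMap B L c * u = algebraMap B L m * v) :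
    scaleRoots (minpoly B u) c = scaleRoots (minpoly B v) m := by
  rw [← minpoly_mul_eq_scaleRoots hu hc, h, minpoly_mul_eq_scaleRoots hv hm]

end Scale

section CDL

variable {A : Type*} [CommRing A] [IsDomain A] [IsIntegrallyClosed A[X]]
variable {L : Type*} [Field L] [Algebra A[X] L] [Module.IsTorsionFree A[X] L]

/-- **Coprime division lemma.** If `u, v` are integral over `A[X]` and `X ^ k * u = C a * v`,
then `u / C a` is integral over `A[X]`. -/
theorem cdl {u v : L} (hu : IsIntegral A[X] u) (hv : IsIntegral A[X] v) {a : A} (ha : a ≠ 0)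
    (k : ℕ) (h : algebraMap A[X] L (X ^ k) * u = algebraMap A[X] L (C a) * v) :
    IsIntegral A[X] (u / algebraMap A[X] L (C a)) := by
  have hCa : (C a : A[X]) ≠ 0 := by simpa using ha
  have hXk : (X ^ k : A[X]) ≠ 0 := pow_ne_zero _ X_ne_zero
  have hsc := scaleRoots_eq_of_mul_eq hu hv hXk hCa h
  have hdeg : (minpoly A[X] u).natDegree = (minpoly A[X] v).natDegree := by
    have := congrArg natDegree hsc
    rwa [natDegree_scaleRoots, natDegree_scaleRoots] at this
  refine isIntegral_div_of_dvd_coeff hu hCa (fun i => ?_)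
  have hc := congrArg (fun P => P.coeff i) hsc
  simp only [coeff_scaleRoots] at hc
  rw [← hdeg] at hc
  -- `coeff i (minpoly u) * (X^k)^(d-i) = coeff i (minpoly v) * (C a)^(d-i)`
  set n := (minpoly A[X] u).natDegree - i
  have h1 : (C a) ^ n ∣ X ^ (k * n) * (minpoly A[X] u).coeff i := by
    refine ⟨(minpoly A[X] v).coeff i, ?_⟩
    rw [pow_mul, mul_comm, hc, mul_comm]
  rw [← C_pow] at h1 ⊢
  rw [C_dvd_iff_dvd_coeff] at h1 ⊢
  intro j
  have := h1 (j + k * n)
  rwa [coeff_X_pow_mul] at this

end CDL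

section Main

variable {L : Type*} [Field L] [Algebra ℤ[X] L] [Module.IsTorsionFree ℤ[X] L]

/-- `9 = 2 w - t σ` is impossible for `w, σ` integral over `ℤ[X]` (`t` the image of `X`):
the ideal `(2, X)` is maximal and survives in every integral extension. -/
lemma nine_ne (w σ : L) (hw : IsIntegral ℤ[X] w) (hσ : IsIntegral ℤ[X] σ)
    (h : (9 : L) = 2 * w - algebraMap ℤ[X] L X * σ) : False := by
  let φ : ℤ[X] →+* ZMod 2 := eval₂RingHom (Int.castRingHom (ZMod 2)) 0
  have hφ : Function.Surjective φ := by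
    intro z
    obtain ⟨n, rfl⟩ := ZMod.intCast_surjective z
    exact ⟨C n, by simp [φ]⟩
  let P : Ideal ℤ[X] := RingHom.ker φ
  have : P.IsMaximal := RingHom.ker_isMaximal_of_surjective φ hφ
  let S := integralClosure ℤ[X] L
  have hker : RingHom.ker (algebraMap ℤ[X] S) ≤ P := by
    intro z hz
    have hz' : algebraMap ℤ[X] L z = 0 := by
      have := congrArg (algebraMap S L) (RingHom.mem_ker.1 hz)
      rwa [← IsScalarTower.algebraMap_apply, map_zero] at this
    have : z = 0 := (FaithfulSMul.algebraMap_injective ℤ[X] L) (by rw [hz', map_zero])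
    rw [this]; exact P.zero_mem
  obtain ⟨Q, hQ, hQP⟩ := Ideal.exists_ideal_over_maximal_of_isIntegral (S := S) P hker
  let w' : S := ⟨w, hw⟩
  let σ' : S := ⟨σ, hσ⟩
  have h2 : algebraMap ℤ[X] S 2 ∈ Q := by
    have : (2 : ℤ[X]) ∈ P := by
      change φ 2 = 0
      simp only [map_ofNat]
      decide
    rw [← hQP] at this
    exact this
  have hX : algebraMap ℤ[X] S X ∈ Q := by
    have : (X : ℤ[X]) ∈ P := by
      change φ X = 0
      simp [φ]
    rw [← hQP] at this
    exact this
  have h9 : algebraMap ℤ[X] S 9 = algebraMap ℤ[X] S 2 * w' - algebraMap ℤ[X] S X * σ' := by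
    apply Subtype.ext
    show algebraMap ℤ[X] L 9 = algebraMap ℤ[X] L 2 * w - algebraMap ℤ[X] L X * σ
    rw [map_ofNat, map_ofNat]
    exact h
  have h9Q : algebraMap ℤ[X] S 9 ∈ Q := by
    rw [h9]
    exact Q.sub_mem (Q.mul_mem_right _ h2) (Q.mul_mem_right _ hX)
  have h9P : (9 : ℤ[X]) ∈ P := by
    rw [← hQP]; exact h9Q
  have : φ 9 = 0 := h9P
  simp only [map_ofNat] at this
  revert this
  decide

/-- **Main algebraic obstruction.** No `x, y` integral over `ℤ[X]` satisfy
`x * c₄(t) - e₆(t) = 8 y`, where `c₄(t) = t^4 - 24 t`, `e₆(t) = t^6 - 36 t^3 + 216` are the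
`c₄` and `-c₆` of the Weierstrass curve `y² + t x y + y = x³`. -/
theorem no_integral_solution (x y : L) (hx : IsIntegral ℤ[X] x) (hy : IsIntegral ℤ[X] y)
    (h : x * algebraMap ℤ[X] L (X ^ 4 - 24 * X) - algebraMap ℤ[X] L (X ^ 6 - 36 * X ^ 3 + 216)
      = 8 * y) : False := by
  set t : L := algebraMap ℤ[X] L X with ht
  have htI : IsIntegral ℤ[X] t := isIntegral_algebraMap
  have hnum : ∀ n : ℕ, IsIntegral ℤ[X] (n : L) := fun n => by
    rw [← map_natCast (algebraMap ℤ[X] L)]; exact isIntegral_algebraMap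
  have h' : x * (t ^ 4 - 24 * t) - (t ^ 6 - 36 * t ^ 3 + 216) = 8 * y := by
    simpa [ht, map_ofNat] using h
  -- first division
  set u : L := t * x - t ^ 3 + 36 with hu
  set v : L := y + 3 * t * x + 27 with hv
  have huI : IsIntegral ℤ[X] u := by
    have := ((htI.mul hx).sub (htI.pow 3)).add (hnum 36)
    simpa [hu] using this
  have hvI : IsIntegral ℤ[X] v := by
    have := (hy.add (((hnum 3).mul htI).mul hx)).add (hnum 27)
    simpa [hv] using this
  have h8 : algebraMap ℤ[X] L (C (8 : ℤ)) = 8 := by simp [map_ofNat]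
  have h4 : algebraMap ℤ[X] L (C (4 : ℤ)) = 4 := by simp [map_ofNat]
  have huv : algebraMap ℤ[X] L (X ^ 3) * u = algebraMap ℤ[X] L (C (8 : ℤ)) * v := by
    rw [h8, map_pow, ← ht, hu, hv]
    linear_combination h'
  have hwI : IsIntegral ℤ[X] (u / algebraMap ℤ[X] L (C (8 : ℤ))) :=
    cdl huI hvI (by norm_num) 3 huv
  rw [h8] at hwI
  set w : L := u / 8 with hw
  have h8L : (8 : L) ≠ 0 := by
    intro h0
    have : algebraMap ℤ[X] L (C (8 : ℤ)) = 0 := by rw [h8, h0]
    have := (FaithfulSMul.algebraMap_injective ℤ[X] L) (this.trans (map_zero _).symm)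
    simp at this
  have hu8 : u = 8 * w := by rw [hw]; field_simp
  -- second division
  set s₁ : L := x - t ^ 2 with hs₁
  set r : L := 2 * w - 9 with hr
  have hs₁I : IsIntegral ℤ[X] s₁ := hx.sub (htI.pow 2)
  have hrI : IsIntegral ℤ[X] r := by
    have := ((hnum 2).mul hwI).sub (hnum 9)
    simpa [hr] using this
  have hsr : algebraMap ℤ[X] L (X ^ 1) * s₁ = algebraMap ℤ[X] L (C (4 : ℤ)) * r := by
    rw [h4, pow_one, ← ht, hs₁, hr]
    have : t * x - t ^ 3 + 36 = 8 * w := by rw [← hu8]
    linear_combination this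
  have hσI : IsIntegral ℤ[X] (s₁ / algebraMap ℤ[X] L (C (4 : ℤ))) :=
    cdl hs₁I hrI (by norm_num) 1 hsr
  rw [h4] at hσI
  have h4L : (4 : L) ≠ 0 := by
    intro h0
    apply h8L
    have : (8 : L) = 2 * 4 := by norm_num
    rw [this, h0, mul_zero]
  refine nine_ne w (s₁ / 4) hwI hσI ?_
  have hsr' : t * s₁ = 4 * r := by
    have := hsr
    rwa [h4, pow_one, ← ht] at this
  have : t * (s₁ / 4) = r := by
    field_simp
    linear_combination hsr'
  rw [← ht, this, hr]
  ring

end Main

section Extension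

/-- A ring hom from `R` into an algebraically closed field extends along any integral extension
`R ⊆ S` (lying-over + `IsAlgClosed.lift`). -/
theorem exists_ringHom_extension {R S : Type*} [CommRing R] [CommRing S] [Algebra R S]
    [Algebra.IsIntegral R S] (hinj : Function.Injective (algebraMap R S))
    {Ω : Type*} [Field Ω] [IsAlgClosed Ω] (φ : R →+* Ω) :
    ∃ ψ : S →+* Ω, ψ.comp (algebraMap R S) = φ := by
  classical
  let 𝔭 : Ideal R := RingHom.ker φ
  have h𝔭 : 𝔭.IsPrime := RingHom.ker_isPrime φ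
  have hker : RingHom.ker (algebraMap R S) ≤ 𝔭 := by
    rw [(RingHom.injective_iff_ker_eq_bot _).1 hinj]; exact bot_le
  obtain ⟨𝔮, -, h𝔮prime, hcomap⟩ := Ideal.exists_ideal_over_prime_of_isIntegral 𝔭 (⊥ : Ideal S)
    (by rw [Ideal.comap_bot_of_injective _ hinj]; exact bot_le)
  have hover : 𝔮.LiesOver 𝔭 := ⟨hcomap.symm⟩
  -- the induced injection `R ⧸ 𝔭 → Ω`
  let φbar : R ⧸ 𝔭 →+* Ω := Ideal.Quotient.lift 𝔭 φ (fun a ha => ha)
  have hφbar : Function.Injective φbar := RingHom.kerLift_injective φ
  let _ : Algebra (R ⧸ 𝔭) Ω := φbar.toAlgebra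
  have : Module.IsTorsionFree (R ⧸ 𝔭) Ω := Module.isTorsionFree_iff_algebraMap_injective.2 hφbar
  have : Module.IsTorsionFree (R ⧸ 𝔭) (S ⧸ 𝔮) :=
    Module.isTorsionFree_iff_algebraMap_injective.2 (FaithfulSMul.algebraMap_injective _ _)
  have : Algebra.IsAlgebraic (R ⧸ 𝔭) (S ⧸ 𝔮) := Algebra.IsIntegral.isAlgebraic
  let f : (S ⧸ 𝔮) →ₐ[R ⧸ 𝔭] Ω := IsAlgClosed.lift
  refine ⟨f.toRingHom.comp (Ideal.Quotient.mk 𝔮), ?_⟩
  ext r
  show f (Ideal.Quotient.mk 𝔮 (algebraMap R S r)) = φ r
  have h1 := f.commutes (Ideal.Quotient.mk 𝔭 r)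
  rw [Ideal.Quotient.algebraMap_mk_of_liesOver] at h1
  rw [h1, RingHom.algebraMap_toAlgebra]
  exact Ideal.Quotient.lift_mk _ _ _

end Extension

section Package

/-- **Abstract form of the `l = 2` supersingular obstruction.**
`R` plays the role of `ℤ[E₄, E₆, Δ]` (level-one forms with integral `q`-expansion), `S` of a ring
of functions containing the level-`p` forms, `ev` of the evaluation on the Weierstrass family
`y² + t x y + y = x³` (`E₄ ↦ t⁴ - 24 t`, `E₆ ↦ t⁶ - 36 t³ + 216`).  If `g` and `k` are integral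
over `R` then `g * E₄ - E₆ = 8 k` is impossible. -/
theorem no_integral_pair {R S : Type*} [CommRing R] [CommRing S] [Algebra R S]
    (hinj : Function.Injective (algebraMap R S))
    (ev : R →+* ℤ[X]) (e4 e6 : R) (h4 : ev e4 = X ^ 4 - 24 * X)
    (h6 : ev e6 = X ^ 6 - 36 * X ^ 3 + 216)
    (g k : S) (hg : IsIntegral R g) (hk : IsIntegral R k)
    (h : g * algebraMap R S e4 - algebraMap R S e6 = 8 * k) : False := by
  classical
  let S' := integralClosure R S
  let Ω := AlgebraicClosure (FractionRing ℤ[X])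
  have hinjΩ : Function.Injective (algebraMap ℤ[X] Ω) := by
    rw [IsScalarTower.algebraMap_eq ℤ[X] (FractionRing ℤ[X]) Ω]
    exact (algebraMap (FractionRing ℤ[X]) Ω).injective.comp (IsFractionRing.injective _ _)
  have : Module.IsTorsionFree ℤ[X] Ω := Module.isTorsionFree_iff_algebraMap_injective.2 hinjΩ
  have hinj' : Function.Injective (algebraMap R S') := by
    intro a b hab
    apply hinj
    have := congrArg (algebraMap S' S) hab
    rwa [← IsScalarTower.algebraMap_apply, ← IsScalarTower.algebraMap_apply] at this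
  obtain ⟨ψ, hψ⟩ := exists_ringHom_extension (S := S') hinj' ((algebraMap ℤ[X] Ω).comp ev)
  let g' : S' := ⟨g, hg⟩
  let k' : S' := ⟨k, hk⟩
  have hg' : IsIntegral R g' :=
    (isIntegral_algHom_iff (IsScalarTower.toAlgHom R S' S) Subtype.val_injective
      (x := g')).1 hg
  have hk' : IsIntegral R k' :=
    (isIntegral_algHom_iff (IsScalarTower.toAlgHom R S' S) Subtype.val_injective
      (x := k')).1 hk
  have hx : IsIntegral ℤ[X] (ψ g') := IsIntegral.map_of_comp_eq ev ψ hψ.symm hg'
  have hy : IsIntegral ℤ[X] (ψ k') := IsIntegral.map_of_comp_eq ev ψ hψ.symm hk'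
  have hrel : g' * algebraMap R S' e4 - algebraMap R S' e6 = 8 * k' := by
    apply Subtype.ext
    exact h
  have hψ4 : ψ (algebraMap R S' e4) = algebraMap ℤ[X] Ω (X ^ 4 - 24 * X) := by
    rw [← h4]; exact congrArg (fun f : R →+* Ω => f e4) hψ
  have hψ6 : ψ (algebraMap R S' e6) = algebraMap ℤ[X] Ω (X ^ 6 - 36 * X ^ 3 + 216) := by
    rw [← h6]; exact congrArg (fun f : R →+* Ω => f e6) hψ
  refine no_integral_solution (ψ g') (ψ k') hx hy ?_
  have := congrArg ψ hrel
  rw [map_sub, map_mul, map_mul, hψ4, hψ6, map_ofNat] at this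
  exact this

end Package

end Fermat.Agent.S16.helper6065
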