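/-
helper6766 — S16, upper bound, 2-adic case `p ≡ 3 (mod 4)`: the NORM-FREE ending.

Mathematics (helper6101, team chat #63; the quartic is that of findings #1752, helper3076):
let `H ∈ M_2(Γ₀(p))` have `q`-expansion `A = u + 8 h` (`u` odd, `h` integral) and put
`Z = Bpoly(E₄, E₆, H)/256 ∈ M_8(Γ₀(p))`.  For a form `f` of weight `k` on `Γ₀(p)` write
`f♯(z) = (f ∣[k] S)(p z)` (so `f ∣[k] S T^j (z) = f♯((z + j)/p)`); `♯` is multiplicative,
`E♯ = E(p z)` for level-one `E`, `H♯ = -(1/p) U_p H` in weight 2, `f♯♯ = (-p)^(-k) f`, and the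
trace of `f` to level one has `q`-expansion `a_n(f) + p a_{pn}(f♯)`.
By the ring identity of helper3076, `Z = Δ + 2Q` and `Z♯ = Δ(q^p) + 2Q'` over `ℤ_(2)`.
The trace of `F = Z^(2p) (Z♯)^p` (weight `24 p`) is therefore congruent modulo `2` to
`Δ^(2p) Δ(q^p)^p + p^(1-8p) U_p(Δ(q^p)^(2p) Δ^p) = p^(1-8p) q^(2p+1) + O(q^(2p+2))`,
which contradicts the level-one Sturm bound (`2p + 1 > 24p/12`).

No norm, no `ζ_p`, no `q^(1/p)`-expansion, no product formula: only the trace.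

The file is hypothesis-passing: the modular input is an abstract "two-cusp pair calculus"
`P k A A♯` ("some weight-`k` form on `Γ₀(p)` has expansions `A` at `∞` and `A♯` for `f♯`").
-/
import Mathlib
import Fermat.Prelude.Def_FLTPrelim_Modularity
import Fermat.Agent.S16.helper3076_TwoAdic
import Fermat.Agent.S16.helper5604_LevelOneSturm

set_option autoImplicit false

namespace Fermat.Agent.S16.helper6766

open UpperHalfPlane ModularForm ModularFormClass EisensteinSeries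
open scoped MatrixGroups
open Fermat.Agent.S16.helper3076 (Bpoly coeffRing mem_coeffRing_iff)

noncomputable section

/-! ## The ring `ℤ_(2) ⊆ ℂ` -/

/-- The ring `ℤ_(2)` of rational numbers with odd denominator, inside `ℂ`. -/
def O2 : Subring ℂ where
  carrier := {x | ∃ a b : ℤ, Odd b ∧ x * b = a}
  mul_mem' := by
    rintro x y ⟨a, b, hb, h⟩ ⟨c, d, hd, h'⟩
    exact ⟨a * c, b * d, hb.mul hd, by push_cast; rw [← h, ← h']; ring⟩
  one_mem' := ⟨1, 1, odd_one, by simp⟩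
  add_mem' := by
    rintro x y ⟨a, b, hb, h⟩ ⟨c, d, hd, h'⟩
    exact ⟨a * d + c * b, b * d, hb.mul hd, by push_cast; rw [← h, ← h']; ring⟩
  zero_mem' := ⟨0, 1, odd_one, by simp⟩
  neg_mem' := by
    rintro x ⟨a, b, hb, h⟩
    exact ⟨-a, b, hb, by push_cast; rw [← h]; ring⟩

theorem mem_O2_iff (x : ℂ) : x ∈ O2 ↔ ∃ a b : ℤ, Odd b ∧ x * b = a := Iff.rfl

theorem inv_natCast_mem_O2 {p : ℕ} (hp : Odd p) : (p : ℂ)⁻¹ ∈ O2 := by
  have hp0 : (p : ℂ) ≠ 0 := by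
    rcases hp with ⟨m, rfl⟩
    have h : (2 * m + 1 : ℕ) ≠ 0 := by omega
    exact_mod_cast h
  exact ⟨1, p, by exact_mod_cast hp, by push_cast; exact inv_mul_cancel₀ hp0⟩

theorem two_mul_ne_one {x : ℂ} (hx : x ∈ O2) : 2 * x ≠ 1 := by
  obtain ⟨a, b, hb, h⟩ := hx
  intro h2
  have h3 : (b : ℂ) = 2 * a := by
    have : (2 * x) * b = 2 * a := by rw [mul_assoc, h]
    rw [h2, one_mul] at this
    exact this
  have h4 : b = 2 * a := by exact_mod_cast h3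
  rcases hb with ⟨m, hm⟩
  omega

/-- The additive subgroup `2 ℤ_(2)`. -/
def I2 : AddSubgroup ℂ := O2.toAddSubgroup.map (AddMonoidHom.mulLeft (2 : ℂ))

theorem mem_I2_iff (y : ℂ) : y ∈ I2 ↔ ∃ x ∈ O2, 2 * x = y := by
  unfold I2
  rw [AddSubgroup.mem_map]
  rfl

/-! ## Small power-series lemmas -/

theorem coeff_ofNat_mul (a : ℕ) [a.AtLeastTwo] (f : PowerSeries ℂ) (n : ℕ) :
    PowerSeries.coeff n ((OfNat.ofNat a : PowerSeries ℂ) * f) =
      (OfNat.ofNat a : ℂ) * PowerSeries.coeff n f := by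
  rw [← map_ofNat (PowerSeries.C (R := ℂ)) a, PowerSeries.coeff_C_mul]

theorem ofNat_mul_eq_smul (a : ℕ) [a.AtLeastTwo] (f : PowerSeries ℂ) :
    (OfNat.ofNat a : PowerSeries ℂ) * f = (OfNat.ofNat a : ℂ) • f := by
  rw [← map_ofNat (PowerSeries.C (R := ℂ)) a, PowerSeries.smul_eq_C_mul]

/-- Congruence modulo `2` of power series with coefficients in `ℤ_(2)`. -/
def Cong2 (X Y : PowerSeries ℂ) : Prop := ∃ R ∈ coeffRing O2, X = Y + 2 * R

theorem Cong2.mul {X Y X' Y' : PowerSeries ℂ} (h : Cong2 X Y) (h' : Cong2 X' Y')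
    (hY : Y ∈ coeffRing O2) (hY' : Y' ∈ coeffRing O2) : Cong2 (X * X') (Y * Y') := by
  obtain ⟨R, hR, rfl⟩ := h
  obtain ⟨R', hR', rfl⟩ := h'
  refine ⟨Y * R' + R * Y' + 2 * (R * R'), ?_, by ring⟩
  exact Subring.add_mem _ (Subring.add_mem _ (Subring.mul_mem _ hY hR')
    (Subring.mul_mem _ hR hY')) (Subring.mul_mem _ (ofNat_mem _ 2)
    (Subring.mul_mem _ hR hR'))

theorem Cong2.refl (Y : PowerSeries ℂ) : Cong2 Y Y :=
  ⟨0, Subring.zero_mem _, by ring⟩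

theorem Cong2.pow {X Y : PowerSeries ℂ} (h : Cong2 X Y) (hY : Y ∈ coeffRing O2) (n : ℕ) :
    Cong2 (X ^ n) (Y ^ n) := by
  induction n with
  | zero => simpa using Cong2.refl 1
  | succ n ih =>
    rw [pow_succ, pow_succ]
    exact ih.mul h (Subring.pow_mem _ hY n) hY

theorem coeff_ofNat (a : ℕ) [a.AtLeastTwo] (n : ℕ) :
    PowerSeries.coeff n (OfNat.ofNat a : PowerSeries ℂ) = if n = 0 then (OfNat.ofNat a : ℂ) else 0 := by
  rw [← map_ofNat (PowerSeries.C (R := ℂ)) a, PowerSeries.coeff_C]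

/-- A power series with constant coefficient `v + 8 c₀` (`v ∈ {1, 5}`, `c₀ ∈ ℤ_(2)`) and higher
coefficients in `8 ℤ_(2)` is of the form `1 + 8 h` or `5 + 8 h`. -/
theorem exists_form (X : PowerSeries ℂ) (v : ℤ) (hv : v = 1 ∨ v = 5) (c0 : ℂ) (hc0 : c0 ∈ O2)
    (h0 : PowerSeries.coeff 0 X = v + 8 * c0)
    (h8 : ∀ n : ℕ, 1 ≤ n → ∃ c ∈ O2, PowerSeries.coeff n X = 8 * c) :
    ∃ h ∈ coeffRing O2, X = 1 + 8 * h ∨ X = 5 + 8 * h := by
  classical
  choose c hc hc' using h8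
  let cc : ℕ → ℂ := fun n => if hn : 1 ≤ n then c n hn else c0
  have hcc : ∀ n, cc n ∈ O2 := by
    intro n
    simp only [cc]
    split_ifs with hn
    · exact hc n hn
    · exact hc0
  refine ⟨PowerSeries.mk cc, (mem_coeffRing_iff O2 _).mpr fun n => by
    rw [PowerSeries.coeff_mk]; exact hcc n, ?_⟩
  have key : ∀ n, PowerSeries.coeff n X =
      (if n = 0 then (v : ℂ) else 0) + 8 * cc n := by
    intro n
    by_cases hn : n = 0
    · subst hn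
      simp only [cc, if_true]
      rw [h0]
      simp
    · have hn1 : 1 ≤ n := Nat.one_le_iff_ne_zero.mpr hn
      simp only [cc, hn, if_false, dif_pos hn1, zero_add]
      exact hc' n hn1
  rcases hv with rfl | rfl
  · left
    ext n
    rw [key n, map_add, coeff_ofNat_mul, PowerSeries.coeff_mk, PowerSeries.coeff_one]
    split_ifs <;> simp
  · right
    ext n
    rw [key n, map_add, coeff_ofNat_mul, PowerSeries.coeff_mk, coeff_ofNat]
    split_ifs <;> simp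

/-- `Δ = q · (unit)`. -/
theorem discriminant_eq_X_mul :
    ∃ U : PowerSeries ℂ, U ∈ coeffRing O2 ∧ PowerSeries.constantCoeff U = 1 ∧
      qExpansion 1 discriminant = PowerSeries.X * U := by
  refine ⟨ModularCurve.dedekindEtaUnit.map (Int.castRingHom ℂ),
    helper3076.map_int_mem_coeffRing O2 _, ?_, ?_⟩
  · rw [← PowerSeries.coeff_zero_eq_constantCoeff_apply, PowerSeries.coeff_map,
      PowerSeries.coeff_zero_eq_constantCoeff_apply, ModularCurve.constantCoeff_dedekindEtaUnit]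
    simp
  · rw [Lib.helper386.qExpansion_discriminant, Lib.helper386.deltaSeries_eq, map_mul,
      PowerSeries.map_X]

/-! ## The pair calculus and the main theorem -/

section Calculus

variable (P : ℤ → PowerSeries ℂ → PowerSeries ℂ → Prop)

theorem P_cast {k l : ℤ} {A As A' As' : PowerSeries ℂ} (hk : k = l) (hA : A = A') (hAs : As = As')
    (h : P k A As) : P l A' As' := by
  subst hk hA hAs
  exact h

theorem P_pow
    (h_mul : ∀ (k l : ℤ) (A As B Bs : PowerSeries ℂ), P k A As → P l B Bs →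
      P (k + l) (A * B) (As * Bs))
    {k : ℤ} {A As : PowerSeries ℂ} (hA : P k A As) (n : ℕ) (hn : 0 < n) (m : ℤ)
    (hm : m = (n : ℤ) * k) : P m (A ^ n) (As ^ n) := by
  subst hm
  induction n, hn using Nat.le_induction with
  | base => exact P_cast P (by simp) (by simp) (by simp) hA
  | succ n hn ih =>
    exact P_cast P (by push_cast; ring) (pow_succ A n).symm (pow_succ As n).symm
      (h_mul _ _ _ _ _ _ ih hA)

end Calculus

/-- **The 2-adic case via one trace (core).**  `u ≡ 1 (mod 4)`. -/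
theorem core (p : ℕ) (hp : p.Prime) (hp4 : p % 4 = 3)
    (P : ℤ → PowerSeries ℂ → PowerSeries ℂ → Prop)
    (h_mul : ∀ (k l : ℤ) (A As B Bs : PowerSeries ℂ), P k A As → P l B Bs →
      P (k + l) (A * B) (As * Bs))
    (h_add : ∀ (k : ℤ) (A As B Bs : PowerSeries ℂ), P k A As → P k B Bs →
      P k (A + B) (As + Bs))
    (h_smul : ∀ (k : ℤ) (c : ℂ) (A As : PowerSeries ℂ), P k A As → P k (c • A) (c • As))
    (h_swap : ∀ (k : ℤ) (A As : PowerSeries ℂ), P k A As →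
      P k As (((-(p : ℂ)) ^ k)⁻¹ • A))
    (h_lvl : ∀ (k : ℤ) (E : ModularForm 𝒮ℒ k),
      P k (qExpansion 1 E) (PowerSeries.expand p hp.ne_zero (qExpansion 1 E)))
    (h_tr : ∀ (k : ℤ) (A As : PowerSeries ℂ), P k A As → ∃ N : ModularForm 𝒮ℒ k, ∀ n : ℕ,
      PowerSeries.coeff n (qExpansion 1 N) =
        PowerSeries.coeff n A + (p : ℂ) * PowerSeries.coeff (p * n) As)
    (A As : PowerSeries ℂ) (hA : P 2 A As)
    (hW2 : ∀ n : ℕ, PowerSeries.coeff n As = -(p : ℂ)⁻¹ * PowerSeries.coeff (p * n) A)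
    (u : ℤ) (hu : u % 4 = 1) (h0 : PowerSeries.coeff 0 A = u)
    (h8 : ∀ n : ℕ, 1 ≤ n → ∃ z : ℤ, PowerSeries.coeff n A = 8 * z) : False := by
  have hp0 : p ≠ 0 := hp.ne_zero
  have hp2 : 2 ≤ p := hp.two_le
  have hpodd : Odd p := by rw [Nat.odd_iff]; omega
  have hpC : (p : ℂ) ≠ 0 := by exact_mod_cast hp0
  have hpinv : (p : ℂ)⁻¹ ∈ O2 := inv_natCast_mem_O2 hpodd
  have hpO : (p : ℂ) ∈ O2 := natCast_mem O2 p
  -- the shapes of `A` and `As`
  have hAform : ∃ h ∈ coeffRing O2, A = 1 + 8 * h ∨ A = 5 + 8 * h := by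
    have hu8 : u % 8 = 1 ∨ u % 8 = 5 := by omega
    refine exists_form A (u % 8) hu8 ((u / 8 : ℤ) : ℂ) (intCast_mem O2 _) ?_ ?_
    · rw [h0]
      have : u = u % 8 + 8 * (u / 8) := by omega
      exact_mod_cast this
    · intro n hn
      obtain ⟨z, hz⟩ := h8 n hn
      exact ⟨z, intCast_mem O2 z, hz⟩
  have hAsform : ∃ h ∈ coeffRing O2, As = 1 + 8 * h ∨ As = 5 + 8 * h := by
    obtain ⟨v, hv, w, hw⟩ : ∃ v : ℤ, (v = 1 ∨ v = 5) ∧ ∃ w : ℤ, v * p + u = -8 * w := by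
      have hp8 : (p : ℤ) % 8 = 3 ∨ (p : ℤ) % 8 = 7 := by omega
      have hu8 : u % 8 = 1 ∨ u % 8 = 5 := by omega
      rcases hp8 with hp8 | hp8 <;> rcases hu8 with hu8 | hu8
      · exact ⟨5, Or.inr rfl, -((5 * p + u) / 8), by omega⟩
      · exact ⟨1, Or.inl rfl, -((1 * p + u) / 8), by omega⟩
      · exact ⟨1, Or.inl rfl, -((1 * p + u) / 8), by omega⟩
      · exact ⟨5, Or.inr rfl, -((5 * p + u) / 8), by omega⟩
    refine exists_form As v hv ((w : ℂ) * (p : ℂ)⁻¹) (O2.mul_mem (intCast_mem O2 w) hpinv) ?_ ?_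
    · rw [hW2 0, mul_zero, h0]
      have hw' : (v : ℂ) * p + u = -8 * w := by exact_mod_cast hw
      field_simp
      linear_combination (-1 : ℂ) * hw'
    · intro n hn
      obtain ⟨z, hz⟩ := h8 (p * n) (Nat.mul_pos hp.pos hn)
      refine ⟨-(p : ℂ)⁻¹ * z, O2.mul_mem (O2.neg_mem hpinv) (intCast_mem O2 z), ?_⟩
      rw [hW2 n, hz]
      ring
  -- the level-one series
  obtain ⟨e4, he4⟩ : ∃ x, x = qExpansion 1 E₄ := ⟨_, rfl⟩
  obtain ⟨e6, he6⟩ : ∃ x, x = qExpansion 1 E₆ := ⟨_, rfl⟩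
  obtain ⟨D, hD⟩ : ∃ x, x = qExpansion 1 discriminant := ⟨_, rfl⟩
  obtain ⟨Q, hQ, hBQ⟩ := helper3076.Bpoly_qExpansion_infty O2 hAform
  obtain ⟨Q', hQ', hBQ'⟩ := helper3076.Bpoly_qExpansion_expand O2 p hp0 hAsform
  rw [← he4, ← he6, ← hD] at hBQ hBQ'
  have h4 : P 4 e4 (PowerSeries.expand p hp0 e4) := he4 ▸ h_lvl 4 E₄
  have h6 : P 6 e6 (PowerSeries.expand p hp0 e6) := he6 ▸ h_lvl 6 E₆
  obtain ⟨e4s, he4s⟩ : ∃ x, x = PowerSeries.expand p hp0 e4 := ⟨_, rfl⟩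
  obtain ⟨e6s, he6s⟩ : ∃ x, x = PowerSeries.expand p hp0 e6 := ⟨_, rfl⟩
  obtain ⟨Ds, hDs⟩ : ∃ x, x = PowerSeries.expand p hp0 D := ⟨_, rfl⟩
  rw [← he4s, ← he6s, ← hDs] at hBQ'
  rw [← he4s] at h4
  rw [← he6s] at h6
  -- `(Bpoly(E₄,E₆,H), its sharp)` is a pair of weight 8
  have hBsmul : ∀ (x y X : PowerSeries ℂ), Bpoly x y X =
      (27 : ℂ) • X ^ 4 + (-18 : ℂ) • (x * X ^ 2) + (-8 : ℂ) • (y * X) + (-1 : ℂ) • (x * x) := by
    intro x y X
    simp only [Bpoly, PowerSeries.smul_eq_C_mul, map_neg, map_ofNat, map_one]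
    ring
  have hB : P 8 (Bpoly e4 e6 A) (Bpoly e4s e6s As) := by
    have hA4 : P 8 (A ^ 4) (As ^ 4) := P_pow P h_mul hA 4 (by norm_num) 8 (by norm_num)
    have hA2 : P 4 (A ^ 2) (As ^ 2) := P_pow P h_mul hA 2 (by norm_num) 4 (by norm_num)
    have t1 := h_smul 8 27 _ _ hA4
    have t2 : P 8 ((-18 : ℂ) • (e4 * A ^ 2)) ((-18 : ℂ) • (e4s * As ^ 2)) :=
      h_smul 8 (-18) _ _ (P_cast P (by norm_num) rfl rfl (h_mul 4 4 _ _ _ _ h4 hA2))
    have t3 : P 8 ((-8 : ℂ) • (e6 * A)) ((-8 : ℂ) • (e6s * As)) :=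
      h_smul 8 (-8) _ _ (P_cast P (by norm_num) rfl rfl (h_mul 6 2 _ _ _ _ h6 hA))
    have t4 : P 8 ((-1 : ℂ) • (e4 * e4)) ((-1 : ℂ) • (e4s * e4s)) :=
      h_smul 8 (-1) _ _ (P_cast P (by norm_num) rfl rfl (h_mul 4 4 _ _ _ _ h4 h4))
    have hsum := h_add 8 _ _ _ _ (h_add 8 _ _ _ _ (h_add 8 _ _ _ _ t1 t2) t3) t4
    rw [hBsmul e4 e6 A, hBsmul e4s e6s As]
    exact hsum
  -- `Z = Bpoly / 256` and its sharp
  obtain ⟨Zq, hZqdef⟩ : ∃ x, x = (256 : ℂ)⁻¹ • Bpoly e4 e6 A := ⟨_, rfl⟩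
  obtain ⟨Zs, hZsdef⟩ : ∃ x, x = (256 : ℂ)⁻¹ • Bpoly e4s e6s As := ⟨_, rfl⟩
  have hZ : P 8 Zq Zs := by
    rw [hZqdef, hZsdef]
    exact h_smul 8 _ _ _ hB
  have hZq : Zq = D + 2 * Q := by
    rw [hZqdef, hBQ, ofNat_mul_eq_smul 256, smul_smul, inv_mul_cancel₀ (by norm_num), one_smul]
  have hZs : Zs = Ds + 2 * Q' := by
    rw [hZsdef, hBQ', ofNat_mul_eq_smul 256, smul_smul, inv_mul_cancel₀ (by norm_num), one_smul]
  -- the swapped pair
  obtain ⟨c8, hc8def⟩ : ∃ x, x = ((-(p : ℂ)) ^ (8 : ℤ))⁻¹ := ⟨_, rfl⟩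
  have hc8 : c8 = ((p : ℂ) ^ 8)⁻¹ := by
    rw [hc8def, show (8 : ℤ) = ((8 : ℕ) : ℤ) from rfl, zpow_natCast]
    congr 1
    ring
  have hZsw : P 8 Zs (c8 • Zq) := hc8def ▸ h_swap 8 _ _ hZ
  -- the test form `F = Z^(2p) (Z♯)^p` of weight `24 p`
  have hF1 : P (((2 * p : ℕ) : ℤ) * 8) (Zq ^ (2 * p)) (Zs ^ (2 * p)) :=
    P_pow P h_mul hZ (2 * p) (by omega) _ rfl
  have hF2 : P ((p : ℤ) * 8) (Zs ^ p) ((c8 • Zq) ^ p) :=
    P_pow P h_mul hZsw p hp.pos _ rfl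
  obtain ⟨N, hN⟩ := h_tr _ _ _ (h_mul _ _ _ _ _ _ hF1 hF2)
  -- congruences modulo 2
  obtain ⟨U, hUmem, hU0, hDU⟩ := discriminant_eq_X_mul
  rw [← hD] at hDU
  have hDmem : D ∈ coeffRing O2 := by
    rw [hDU]
    exact Subring.mul_mem _ ((mem_coeffRing_iff O2 _).mpr fun n => by
      rw [PowerSeries.coeff_X]; split_ifs
      · exact O2.one_mem
      · exact O2.zero_mem) hUmem
  have hDsmem : Ds ∈ coeffRing O2 := by
    rw [hDs]; exact helper3076.expand_mem_coeffRing O2 p hp0 hDmem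
  have cZq : Cong2 Zq D := ⟨Q, hQ, hZq⟩
  have cZs : Cong2 Zs Ds := ⟨Q', hQ', hZs⟩
  obtain ⟨R1, hR1, hFeq⟩ : Cong2 (Zq ^ (2 * p) * Zs ^ p) (D ^ (2 * p) * Ds ^ p) :=
    (cZq.pow hDmem _).mul (cZs.pow hDsmem _) (Subring.pow_mem _ hDmem _)
      (Subring.pow_mem _ hDsmem _)
  obtain ⟨R2, hR2, hGeq⟩ : Cong2 (Zs ^ (2 * p) * Zq ^ p) (Ds ^ (2 * p) * D ^ p) :=
    (cZs.pow hDsmem _).mul (cZq.pow hDmem _) (Subring.pow_mem _ hDsmem _)
      (Subring.pow_mem _ hDmem _)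
  have hFs : Zs ^ (2 * p) * (c8 • Zq) ^ p = (c8 ^ p) • (Ds ^ (2 * p) * D ^ p + 2 * R2) := by
    rw [smul_pow, mul_smul_comm, hGeq]
  -- leading terms
  obtain ⟨Us, hUsdef⟩ : ∃ x, x = PowerSeries.expand p hp0 U := ⟨_, rfl⟩
  have hDsU : Ds = PowerSeries.X ^ p * Us := by
    rw [hDs, hDU, map_mul, PowerSeries.expand_X, hUsdef]
  have hUs0 : PowerSeries.constantCoeff Us = 1 := by
    rw [hUsdef, PowerSeries.constantCoeff_expand, hU0]
  have hlead1 : D ^ (2 * p) * Ds ^ p =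
      PowerSeries.X ^ (2 * p + p * p) * (U ^ (2 * p) * Us ^ p) := by
    rw [hDU, hDsU]; ring
  have hlead2 : Ds ^ (2 * p) * D ^ p =
      PowerSeries.X ^ (p * (2 * p + 1)) * (Us ^ (2 * p) * U ^ p) := by
    rw [hDU, hDsU]; ring
  have hW0 : PowerSeries.coeff 0 (Us ^ (2 * p) * U ^ p) = 1 := by
    rw [PowerSeries.coeff_zero_eq_constantCoeff_apply, map_mul, map_pow, map_pow, hUs0, hU0]
    simp
  have hc1 : ∀ n : ℕ, n ≤ 2 * p + 1 → PowerSeries.coeff n (D ^ (2 * p) * Ds ^ p) = 0 := by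
    intro n hn
    rw [hlead1, PowerSeries.coeff_X_pow_mul', if_neg]
    have : 4 ≤ p * p := by nlinarith
    omega
  have hc2 : ∀ n : ℕ, n < 2 * p + 1 → PowerSeries.coeff (p * n) (Ds ^ (2 * p) * D ^ p) = 0 := by
    intro n hn
    rw [hlead2, PowerSeries.coeff_X_pow_mul', if_neg]
    exact not_le.mpr (Nat.mul_lt_mul_of_pos_left hn hp.pos)
  have hc3 : PowerSeries.coeff (p * (2 * p + 1)) (Ds ^ (2 * p) * D ^ p) = 1 := by
    rw [hlead2, PowerSeries.coeff_X_pow_mul', if_pos le_rfl, Nat.sub_self, hW0]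
  -- the coefficients of the trace
  have hc8O : c8 ∈ O2 := by
    rw [hc8, ← inv_pow]; exact O2.pow_mem hpinv 8
  have hcoef : ∀ n : ℕ, PowerSeries.coeff n (qExpansion 1 N) =
      PowerSeries.coeff n (D ^ (2 * p) * Ds ^ p) +
        (p : ℂ) * c8 ^ p * PowerSeries.coeff (p * n) (Ds ^ (2 * p) * D ^ p) +
      2 * (PowerSeries.coeff n R1 + (p : ℂ) * c8 ^ p * PowerSeries.coeff (p * n) R2) := by
    intro n
    rw [hN n, hFeq, hFs, PowerSeries.coeff_smul, map_add, map_add, coeff_ofNat_mul,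
      coeff_ofNat_mul, smul_eq_mul]
    ring
  have hxO : ∀ n : ℕ,
      PowerSeries.coeff n R1 + (p : ℂ) * c8 ^ p * PowerSeries.coeff (p * n) R2 ∈ O2 := by
    intro n
    exact O2.add_mem ((mem_coeffRing_iff O2 _).mp hR1 n)
      (O2.mul_mem (O2.mul_mem hpO (O2.pow_mem hc8O p)) ((mem_coeffRing_iff O2 _).mp hR2 _))
  -- level-one Sturm
  have hwt : (((2 * p : ℕ) : ℤ) * 8 + (p : ℤ) * 8).toNat / 12 < 2 * p + 1 := by
    push_cast
    omega
  have hmem := helper5604.levelOne_not_congr_pow I2 N (2 * p + 1) hwt (fun n hn => by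
    rw [hcoef n, hc1 n hn.le, hc2 n hn, mul_zero, add_zero, zero_add]
    exact (mem_I2_iff _).mpr ⟨_, hxO n, rfl⟩)
  rw [hcoef, hc1 _ le_rfl, hc3, mul_one, zero_add] at hmem
  obtain ⟨y, hy, hy2⟩ := (mem_I2_iff _).mp hmem
  -- `p * c8^p = 2 * (y - x)` contradicts `1/2 ∉ ℤ_(2)`
  refine two_mul_ne_one (x := (y - (PowerSeries.coeff (2 * p + 1) R1 +
    (p : ℂ) * c8 ^ p * PowerSeries.coeff (p * (2 * p + 1)) R2)) * ((p : ℂ) ^ 8) ^ p * (p : ℂ)⁻¹)
    (O2.mul_mem (O2.mul_mem (O2.sub_mem hy (hxO _)) (O2.pow_mem (O2.pow_mem hpO 8) p)) hpinv) ?_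
  have h1 : c8 ^ p * ((p : ℂ) ^ 8) ^ p = 1 := by
    rw [← mul_pow, hc8, inv_mul_cancel₀ (pow_ne_zero 8 hpC), one_pow]
  have h2 : 2 * (y - (PowerSeries.coeff (2 * p + 1) R1 +
      (p : ℂ) * c8 ^ p * PowerSeries.coeff (p * (2 * p + 1)) R2)) = (p : ℂ) * c8 ^ p := by
    linear_combination hy2
  calc 2 * ((y - (PowerSeries.coeff (2 * p + 1) R1 +
        (p : ℂ) * c8 ^ p * PowerSeries.coeff (p * (2 * p + 1)) R2)) * ((p : ℂ) ^ 8) ^ p * (p : ℂ)⁻¹)
      = (2 * (y - (PowerSeries.coeff (2 * p + 1) R1 +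
        (p : ℂ) * c8 ^ p * PowerSeries.coeff (p * (2 * p + 1)) R2))) * ((p : ℂ) ^ 8) ^ p * (p : ℂ)⁻¹ := by
        ring
    _ = (p : ℂ) * (c8 ^ p * ((p : ℂ) ^ 8) ^ p) * (p : ℂ)⁻¹ := by rw [h2]; ring
    _ = 1 := by rw [h1, mul_one, mul_inv_cancel₀ hpC]

/-- **The 2-adic case via one trace.**  Let `P` be a two-cusp pair calculus for `Γ₀(p)`,
`p ≡ 3 (mod 4)`.  A weight-2 pair `(A, A♯)` with `A♯ = -(1/p) U_p A`, `a_0(A)` an odd integer and
`a_n(A) ∈ 8ℤ` for `n ≥ 1` does not exist. -/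
theorem no_form_of_pairCalculus (p : ℕ) (hp : p.Prime) (hp4 : p % 4 = 3)
    (P : ℤ → PowerSeries ℂ → PowerSeries ℂ → Prop)
    (h_mul : ∀ (k l : ℤ) (A As B Bs : PowerSeries ℂ), P k A As → P l B Bs →
      P (k + l) (A * B) (As * Bs))
    (h_add : ∀ (k : ℤ) (A As B Bs : PowerSeries ℂ), P k A As → P k B Bs →
      P k (A + B) (As + Bs))
    (h_smul : ∀ (k : ℤ) (c : ℂ) (A As : PowerSeries ℂ), P k A As → P k (c • A) (c • As))
    (h_swap : ∀ (k : ℤ) (A As : PowerSeries ℂ), P k A As →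
      P k As (((-(p : ℂ)) ^ k)⁻¹ • A))
    (h_lvl : ∀ (k : ℤ) (E : ModularForm 𝒮ℒ k),
      P k (qExpansion 1 E) (PowerSeries.expand p hp.ne_zero (qExpansion 1 E)))
    (h_tr : ∀ (k : ℤ) (A As : PowerSeries ℂ), P k A As → ∃ N : ModularForm 𝒮ℒ k, ∀ n : ℕ,
      PowerSeries.coeff n (qExpansion 1 N) =
        PowerSeries.coeff n A + (p : ℂ) * PowerSeries.coeff (p * n) As)
    (A As : PowerSeries ℂ) (hA : P 2 A As)
    (hW2 : ∀ n : ℕ, PowerSeries.coeff n As = -(p : ℂ)⁻¹ * PowerSeries.coeff (p * n) A)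
    (u : ℤ) (hu : Odd u) (h0 : PowerSeries.coeff 0 A = u)
    (h8 : ∀ n : ℕ, 1 ≤ n → ∃ z : ℤ, PowerSeries.coeff n A = 8 * z) : False := by
  have hu4 : u % 4 = 1 ∨ u % 4 = 3 := by
    rcases hu with ⟨m, rfl⟩
    omega
  rcases hu4 with h1 | h3
  · exact core p hp hp4 P h_mul h_add h_smul h_swap h_lvl h_tr A As hA hW2 u h1 h0 h8
  · refine core p hp hp4 P h_mul h_add h_smul h_swap h_lvl h_tr (-A) (-As) ?_ ?_ (-u)
      (by omega) ?_ ?_
    · have h := h_smul 2 (-1) A As hA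
      rwa [neg_one_smul, neg_one_smul] at h
    · intro n
      rw [map_neg, map_neg, hW2 n]
      ring
    · rw [map_neg, h0]
      push_cast
      ring
    · intro n hn
      obtain ⟨z, hz⟩ := h8 n hn
      exact ⟨-z, by rw [map_neg, hz]; push_cast; ring⟩

/-! ## Provider-facing interface -/

/-- A **two-cusp pair calculus** for `Γ₀(p)`: `P k A A♯` is meant to say that some modular form
`f` of weight `k` on `Γ₀(p)` has `q`-expansion `A`, while `f♯(z) := (f ∣[k] S)(p z)`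
(`= p^(1-k) (f ∣[k] W_p)(z)` for the Fricke matrix `W_p = [[0,-1],[p,0]]`) has `q`-expansion
`A♯`.  The fields are the standard closure properties; `tr` is the trace to level one and `wt2`
is `H♯ = -(1/p) U_p H` in weight 2. -/
structure PairCalculus (p : ℕ) (hp0 : p ≠ 0)
    (P : ℤ → PowerSeries ℂ → PowerSeries ℂ → Prop) : Prop where
  mul : ∀ (k l : ℤ) (A As B Bs : PowerSeries ℂ), P k A As → P l B Bs →
    P (k + l) (A * B) (As * Bs)
  add : ∀ (k : ℤ) (A As B Bs : PowerSeries ℂ), P k A As → P k B Bs → P k (A + B) (As + Bs)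
  smul : ∀ (k : ℤ) (c : ℂ) (A As : PowerSeries ℂ), P k A As → P k (c • A) (c • As)
  swap : ∀ (k : ℤ) (A As : PowerSeries ℂ), P k A As → P k As (((-(p : ℂ)) ^ k)⁻¹ • A)
  lvl : ∀ (k : ℤ) (E : ModularForm 𝒮ℒ k),
    P k (qExpansion 1 E) (PowerSeries.expand p hp0 (qExpansion 1 E))
  tr : ∀ (k : ℤ) (A As : PowerSeries ℂ), P k A As → ∃ N : ModularForm 𝒮ℒ k, ∀ n : ℕ,
    PowerSeries.coeff n (qExpansion 1 N) =
      PowerSeries.coeff n A + (p : ℂ) * PowerSeries.coeff (p * n) As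
  wt2 : ∀ G : ModularForm (CongruenceSubgroup.Gamma0 p) 2, ∃ As : PowerSeries ℂ,
    P 2 (qExpansion 1 G) As ∧
      ∀ n : ℕ, PowerSeries.coeff n As = -(p : ℂ)⁻¹ * PowerSeries.coeff (p * n) (qExpansion 1 G)

/-- The modular input of the trace route: some pair calculus exists. -/
def Stmt_PairCalculus (p : ℕ) (hp0 : p ≠ 0) : Prop :=
  ∃ P : ℤ → PowerSeries ℂ → PowerSeries ℂ → Prop, PairCalculus p hp0 P

/-- **T8 (trace route), in the shape consumed by `helper9202.upper_core`.**  For a prime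
`p ≡ 3 (mod 4)` (in particular `p ≡ 7 (mod 8)`), given a pair calculus for `Γ₀(p)`, there is
no `G ∈ M_2(Γ₀(p))` with `a_0(G)` an odd integer and `a_k(G) ∈ 8ℤ` for all `k ≥ 1`. -/
theorem t8_of_pairCalculus (p : ℕ) (hp : p.Prime) (hp4 : p % 4 = 3)
    (hcalc : Stmt_PairCalculus p hp.ne_zero)
    (G : ModularForm (CongruenceSubgroup.Gamma0 p) 2) (u : ℤ) (hu : Odd u)
    (h0 : qCoeff G 0 = (u : ℂ)) (h8 : ∀ k, 1 ≤ k → ∃ z : ℤ, qCoeff G k = 8 * (z : ℂ)) :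
    False := by
  obtain ⟨P, hP⟩ := hcalc
  obtain ⟨As, hAs, hW2⟩ := hP.wt2 G
  exact no_form_of_pairCalculus p hp hp4 P hP.mul hP.add hP.smul hP.swap hP.lvl hP.tr
    (qExpansion 1 G) As hAs hW2 u hu h0 h8

end

end Fermat.Agent.S16.helper6766
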