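/-
helper6802 — S16 leaf A1 ("ONE-TRACE bound", findings #1826 (A1)), PART 1: pure power-series algebra.

If `A = c + h₀` (`h₀ ∈ qℤ⟦q⟧`) is the `q`-expansion of `G ∈ M₂(Γ₀(p))`, `Es = (p-1)/24 + ∑ σ'(k) q^k`
the `q`-expansion of the Eisenstein series of level `p`, and the trace of `G·E` to level one
(`= A·Es + p⁻¹ U_p((U_p A)·Es)`) is a multiple of `E₄`, then `c·(p+1) ∈ ℤ`.
-/
import Mathlib
import Fermat.Prelude.Def_FLTPrelim_Modularity
import Fermat.Prelude.Thm_CongruenceSubgroup_one_mem_strictPeriods_Gamma0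

set_option autoImplicit false

open PowerSeries UpperHalfPlane ModularForm CongruenceSubgroup
open scoped ArithmeticFunction.sigma MatrixGroups

namespace Fermat.Agent.S16.helper6802

/-- Sum of the divisors of `k` prime to `p`. -/
def sigmaP (p k : ℕ) : ℕ := ∑ d ∈ k.divisors with ¬ p ∣ d, d

/-- The formal `U_p` operator on power series. -/
noncomputable def Up (p : ℕ) (A : PowerSeries ℂ) : PowerSeries ℂ :=
  PowerSeries.mk fun n => PowerSeries.coeff (p * n) A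

@[simp] lemma coeff_Up (p n : ℕ) (A : PowerSeries ℂ) :
    PowerSeries.coeff n (Up p A) = PowerSeries.coeff (p * n) A := by
  simp [Up]

lemma sigmaP_one (p : ℕ) (hp : 2 ≤ p) : sigmaP p 1 = 1 := by
  have h : ¬ p ∣ 1 := by
    intro h
    have := Nat.le_of_dvd one_pos h
    omega
  simp [sigmaP, Finset.filter_singleton, h]

lemma sigmaP_two (p : ℕ) (hp : 3 ≤ p) : sigmaP p 2 = 3 := by
  have h1 : ¬ p ∣ 1 := by
    intro h
    have := Nat.le_of_dvd one_pos h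
    omega
  have h2 : ¬ p ∣ 2 := by
    intro h
    have := Nat.le_of_dvd two_pos h
    omega
  have hd : Nat.divisors 2 = {1, 2} := Nat.prime_two.divisors
  rw [sigmaP, hd, Finset.filter_insert, if_pos h1, Finset.filter_singleton, if_pos h2]
  rfl

lemma sigmaP_prime (p : ℕ) (hp : p.Prime) : sigmaP p p = 1 := by
  have h1 : ¬ p ∣ 1 := by
    intro h
    have := Nat.le_of_dvd one_pos h
    have := hp.two_le
    omega
  rw [sigmaP, hp.divisors, Finset.filter_insert, if_pos h1, Finset.filter_singleton,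
    if_neg (by simp)]
  simp

lemma sigmaP_mul (p k : ℕ) (hp : p.Prime) (hk : k ≠ 0) : sigmaP p (p * k) = sigmaP p k := by
  unfold sigmaP
  refine Finset.sum_congr ?_ fun _ _ => rfl
  ext d
  simp only [Finset.mem_filter, Nat.mem_divisors]
  constructor
  · rintro ⟨⟨hd, -⟩, hpd⟩
    refine ⟨⟨?_, hk⟩, hpd⟩
    have hcop : Nat.Coprime d p := (Nat.Prime.coprime_iff_not_dvd hp).mpr hpd |>.symm
    exact hcop.dvd_of_dvd_mul_left hd
  · rintro ⟨⟨hd, -⟩, hpd⟩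
    exact ⟨⟨hd.mul_left p, mul_ne_zero hp.ne_zero hk⟩, hpd⟩

/-- The integers inside `ℂ`. -/
abbrev Zc : Subring ℂ := (Int.castRingHom ℂ).range

lemma mem_Zc_iff (x : ℂ) : x ∈ Zc ↔ ∃ z : ℤ, x = z := by
  constructor
  · rintro ⟨z, rfl⟩
    exact ⟨z, rfl⟩
  · rintro ⟨z, rfl⟩
    exact ⟨z, rfl⟩

/-- Convolution with integral tails: the middle terms of the coefficient of a product are
integers. -/
lemma coeff_mul_tail (B Es : PowerSeries ℂ) (hB : ∀ k, 1 ≤ k → coeff k B ∈ Zc)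
    (hE : ∀ k, 1 ≤ k → coeff k Es ∈ Zc) (k : ℕ) (hk : 1 ≤ k) :
    coeff k (B * Es) - coeff 0 B * coeff k Es - coeff k B * coeff 0 Es ∈ Zc := by
  obtain ⟨m, rfl⟩ : ∃ m, k = m + 1 := ⟨k - 1, by omega⟩
  rw [PowerSeries.coeff_mul,
    Finset.Nat.sum_antidiagonal_eq_sum_range_succ (fun i j => coeff i B * coeff j Es),
    Finset.sum_range_succ, Finset.sum_range_succ']
  have hsum : ∑ i ∈ Finset.range m, coeff (i + 1) B * coeff (m + 1 - (i + 1)) Es ∈ Zc := by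
    refine Subring.sum_mem _ fun i hi => ?_
    have him : i < m := Finset.mem_range.mp hi
    exact Subring.mul_mem _ (hB _ (by omega)) (hE _ (by omega))
  have heq : (∑ i ∈ Finset.range m, coeff (i + 1) B * coeff (m + 1 - (i + 1)) Es +
      coeff 0 B * coeff (m + 1 - 0) Es + coeff (m + 1) B * coeff (m + 1 - (m + 1)) Es) -
      coeff 0 B * coeff (m + 1) Es - coeff (m + 1) B * coeff 0 Es =
      ∑ i ∈ Finset.range m, coeff (i + 1) B * coeff (m + 1 - (i + 1)) Es := by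
    simp only [Nat.sub_zero, Nat.sub_self]
    ring
  rw [heq]
  exact hsum

lemma prime_mod_six {p : ℕ} (hp : p.Prime) (hp5 : 5 ≤ p) : p % 6 = 1 ∨ p % 6 = 5 := by
  have h2 : ¬ 2 ∣ p := fun h => by
    have := (Nat.prime_dvd_prime_iff_eq Nat.prime_two hp).mp h
    omega
  have h3 : ¬ 3 ∣ p := fun h => by
    have := (Nat.prime_dvd_prime_iff_eq Nat.prime_three hp).mp h
    omega
  omega

lemma prime_sq_eq {p : ℕ} (hp : p.Prime) (hp5 : 5 ≤ p) : ∃ N : ℕ, p * p = 24 * N + 1 := by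
  rcases prime_mod_six hp hp5 with h | h
  · obtain ⟨s, rfl⟩ : ∃ s, p = 6 * s + 1 := ⟨p / 6, by omega⟩
    rcases Nat.even_or_odd' s with ⟨r, rfl | rfl⟩
    · exact ⟨6 * r * r + r, by ring⟩
    · exact ⟨6 * r * r + 7 * r + 2, by ring⟩
  · obtain ⟨s, rfl⟩ : ∃ s, p = 6 * s + 5 := ⟨p / 6, by omega⟩
    rcases Nat.even_or_odd' s with ⟨r, rfl | rfl⟩
    · exact ⟨6 * r * r + 5 * r + 1, by ring⟩
    · exact ⟨6 * r * r + 11 * r + 5, by ring⟩

/-- **A1, coefficient form.** For every `k ≥ 1`, `c (p+1) (σ'(k) - 10 (p-1) σ₃(k))` is an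
integer. -/
theorem trace_key (p : ℕ) (hp : p.Prime) (hp5 : 5 ≤ p) (A Es T : PowerSeries ℂ) (c : ℂ)
    (hA0 : coeff 0 A = c) (hAint : ∀ k, 1 ≤ k → ∃ z : ℤ, coeff k A = z)
    (hUU : ∀ n, coeff (p * (p * n)) A = coeff n A)
    (hE0 : coeff 0 Es = ((p : ℂ) - 1) / 24)
    (hE : ∀ k, 1 ≤ k → coeff k Es = (sigmaP p k : ℂ))
    (hT : ∀ k, 1 ≤ k → coeff k T = 240 * (σ 3 k : ℂ) * coeff 0 T)
    (hTr : A * Es + (p : ℂ)⁻¹ • Up p (Up p A * Es) = T) (k : ℕ) (hk : 1 ≤ k) :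
    ∃ z : ℤ, c * ((p : ℂ) + 1) * ((sigmaP p k : ℂ) - 10 * ((p : ℂ) - 1) * (σ 3 k : ℂ)) = z := by
  have hp0 : p ≠ 0 := hp.ne_zero
  have hP : (p : ℂ) ≠ 0 := Nat.cast_ne_zero.mpr hp0
  have hAZ : ∀ k, 1 ≤ k → coeff k A ∈ Zc := fun k hk => (mem_Zc_iff _).mpr (hAint k hk)
  have hEZ : ∀ k, 1 ≤ k → coeff k Es ∈ Zc := fun k hk => by
    rw [hE k hk]
    exact (mem_Zc_iff _).mpr ⟨(sigmaP p k : ℤ), by push_cast; rfl⟩
  have hUZ : ∀ k, 1 ≤ k → coeff k (Up p A) ∈ Zc := fun k hk => by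
    rw [coeff_Up]
    exact hAZ _ (Nat.mul_pos hp.pos hk)
  obtain ⟨zk, hzk⟩ := hAint k hk
  obtain ⟨z1, hz1⟩ := (mem_Zc_iff _).mp (coeff_mul_tail A Es hAZ hEZ k hk)
  have hpk : 1 ≤ p * k := Nat.mul_pos hp.pos hk
  obtain ⟨z2, hz2⟩ := (mem_Zc_iff _).mp (coeff_mul_tail (Up p A) Es hUZ hEZ (p * k) hpk)
  obtain ⟨N, hN⟩ := prime_sq_eq hp hp5
  have hNc : (p : ℂ) * (p : ℂ) = 24 * (N : ℂ) + 1 := by exact_mod_cast hN
  -- coefficient 0 of the trace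
  have h0 : coeff 0 T = c * (((p : ℂ) - 1) / 24) + (p : ℂ)⁻¹ * (c * (((p : ℂ) - 1) / 24)) := by
    rw [← hTr]
    simp only [map_add, PowerSeries.coeff_smul, coeff_Up, Nat.mul_zero, smul_eq_mul,
      PowerSeries.coeff_mul, Finset.Nat.antidiagonal_zero, Finset.sum_singleton, hA0, hE0]
  -- coefficient k of the trace
  have hkT : coeff k T = coeff k (A * Es) + (p : ℂ)⁻¹ * coeff (p * k) (Up p A * Es) := by
    rw [← hTr]
    simp only [map_add, PowerSeries.coeff_smul, coeff_Up, smul_eq_mul]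
  rw [hT k hk, h0] at hkT
  rw [hA0, hE k hk, hzk, hE0] at hz1
  rw [coeff_Up, Nat.mul_zero, hA0, hE (p * k) hpk, sigmaP_mul p k hp (by omega), coeff_Up,
    hUU k, hzk, hE0] at hz2
  refine ⟨-(N : ℤ) * zk - (p : ℤ) * z1 - z2, ?_⟩
  push_cast
  have hu : (p : ℂ) * (p : ℂ)⁻¹ = 1 := mul_inv_cancel₀ hP
  generalize (p : ℂ)⁻¹ = u at hu hkT
  generalize (sigmaP p k : ℂ) = s at hz1 hz2 ⊢
  generalize (σ 3 k : ℂ) = t at hkT ⊢
  generalize coeff k (A * Es) = X1 at hz1 hkT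
  generalize coeff (p * k) (Up p A * Es) = X2 at hz2 hkT
  generalize (p : ℂ) = P at hu hkT hz1 hz2 hNc ⊢
  linear_combination (-P) * hkT - P * hz1 - (P * u) * hz2 -
    (c * s + zk * ((P - 1) / 24) + z2 - 240 * t * c * ((P - 1) / 24)) * hu - (zk / 24) * hNc

lemma sigma_three_prime {q : ℕ} (hq : q.Prime) : σ 3 q = 1 + q ^ 3 := by
  rw [ArithmeticFunction.sigma_apply, hq.divisors, Finset.sum_pair hq.one_lt.ne]
  simp

/-- **A1 (ONE-TRACE bound), power-series form.** If `A = c + h₀` with `h₀ ∈ qℤ⟦q⟧`,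
`U_p U_p A = A`, and `A·Es + p⁻¹ U_p((U_p A)·Es)` is a multiple of the `E₄`-series
(`Es = (p-1)/24 + ∑ σ'(k) q^k`), then `c (p+1) ∈ ℤ`. -/
theorem trace_bound (p : ℕ) (hp : p.Prime) (hp5 : 5 ≤ p) (A Es T : PowerSeries ℂ) (c : ℂ)
    (hA0 : coeff 0 A = c) (hAint : ∀ k, 1 ≤ k → ∃ z : ℤ, coeff k A = z)
    (hUU : ∀ n, coeff (p * (p * n)) A = coeff n A)
    (hE0 : coeff 0 Es = ((p : ℂ) - 1) / 24)
    (hE : ∀ k, 1 ≤ k → coeff k Es = (sigmaP p k : ℂ))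
    (hT : ∀ k, 1 ≤ k → coeff k T = 240 * (σ 3 k : ℂ) * coeff 0 T)
    (hTr : A * Es + (p : ℂ)⁻¹ • Up p (Up p A * Es) = T) :
    ∃ z : ℤ, c * ((p : ℂ) + 1) = z := by
  have key := trace_key p hp hp5 A Es T c hA0 hAint hUU hE0 hE hT hTr
  obtain ⟨n1, h1⟩ := key 1 le_rfl
  obtain ⟨n2, h2⟩ := key 2 (by norm_num)
  obtain ⟨np, hpp⟩ := key p hp.pos
  have hs1 : σ 3 1 = 1 := by simp [ArithmeticFunction.sigma_apply]
  rw [sigmaP_one p (by omega), hs1] at h1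
  rw [sigmaP_two p (by omega), sigma_three_prime Nat.prime_two] at h2
  rw [sigmaP_prime p hp, sigma_three_prime hp] at hpp
  push_cast at h1 h2 hpp
  rcases prime_mod_six hp hp5 with h | h
  · obtain ⟨s, rfl⟩ : ∃ s, p = 6 * s + 1 := ⟨p / 6, by omega⟩
    refine ⟨n1 + 10 * (s : ℤ) * (9 * n1 - n2), ?_⟩
    push_cast at h1 h2 ⊢
    linear_combination (1 + 90 * (s : ℂ)) * h1 - 10 * (s : ℂ) * h2
  · obtain ⟨s, rfl⟩ : ∃ s, p = 6 * s + 5 := ⟨p / 6, by omega⟩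
    refine ⟨np + 10 * (6 * (s : ℤ) + 4) * ((s : ℤ) + 1) *
      ((6 * (s : ℤ) + 5) ^ 2 - (6 * (s : ℤ) + 5) + 1) * (9 * n1 - n2), ?_⟩
    push_cast at h1 h2 hpp ⊢
    linear_combination hpp + 10 * (6 * (s : ℂ) + 4) * ((s : ℂ) + 1) *
      ((6 * (s : ℂ) + 5) ^ 2 - (6 * (s : ℂ) + 5) + 1) * (9 * h1 - h2)

/-! ### UB-GLUE: the number-theoretic assembly of the upper bound -/

lemma gcd_mul_gcd (p : ℕ) (hp : p.Prime) (hp5 : 5 ≤ p) :
    Nat.gcd (p - 1) 12 * Nat.gcd (p + 1) 12 = 24 := by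
  have h6 := prime_mod_six hp hp5
  have h12 : p % 12 = 1 ∨ p % 12 = 5 ∨ p % 12 = 7 ∨ p % 12 = 11 := by omega
  rcases h12 with h | h | h | h
  · obtain ⟨s, rfl⟩ : ∃ s, p = 12 * s + 1 := ⟨p / 12, by omega⟩
    have e1 : 12 * s + 1 - 1 = 12 * s + 0 := by omega
    have e2 : 12 * s + 1 + 1 = 12 * s + 2 := by omega
    rw [e1, e2, Nat.gcd_mul_left_add_left, Nat.gcd_mul_left_add_left]
    rfl
  · obtain ⟨s, rfl⟩ : ∃ s, p = 12 * s + 5 := ⟨p / 12, by omega⟩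
    have e1 : 12 * s + 5 - 1 = 12 * s + 4 := by omega
    have e2 : 12 * s + 5 + 1 = 12 * s + 6 := by omega
    rw [e1, e2, Nat.gcd_mul_left_add_left, Nat.gcd_mul_left_add_left]
    rfl
  · obtain ⟨s, rfl⟩ : ∃ s, p = 12 * s + 7 := ⟨p / 12, by omega⟩
    have e1 : 12 * s + 7 - 1 = 12 * s + 6 := by omega
    have e2 : 12 * s + 7 + 1 = 12 * s + 8 := by omega
    rw [e1, e2, Nat.gcd_mul_left_add_left, Nat.gcd_mul_left_add_left]
    rfl
  · obtain ⟨s, rfl⟩ : ∃ s, p = 12 * s + 11 := ⟨p / 12, by omega⟩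
    have e1 : 12 * s + 11 - 1 = 12 * s + 10 := by omega
    have e2 : 12 * s + 11 + 1 = 12 * (s + 1) + 0 := by omega
    rw [e1, e2, Nat.gcd_mul_left_add_left, Nat.gcd_mul_left_add_left]
    rfl

/-- **UB-GLUE (number theory).** From the ONE-TRACE bound `24 m ∣ p² - 1` and the three
"no unit form" exclusions (`ℓ ≥ 5`, `ℓ ∣ p+1`; `9 ∣ p+1`; `8 ∣ p+1`) one gets
`m ∣ (p-1)/gcd(p-1,12)`. -/
theorem dvd_eisNum_of (p m : ℕ) (hp : p.Prime) (hp5 : 5 ≤ p)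
    (hA1 : 24 * m ∣ (p - 1) * (p + 1))
    (hℓ : ∀ ℓ : ℕ, ℓ.Prime → 5 ≤ ℓ → ℓ ∣ p + 1 → ¬ ℓ ∣ m)
    (h9 : 9 ∣ p + 1 → ¬ 3 ∣ m)
    (h8 : 8 ∣ p + 1 → ¬ 2 ∣ m) :
    m ∣ (p - 1) / Nat.gcd (p - 1) 12 := by
  have hgh := gcd_mul_gcd p hp hp5
  obtain ⟨a, ha⟩ : Nat.gcd (p - 1) 12 ∣ p - 1 := Nat.gcd_dvd_left _ _
  obtain ⟨b, hb⟩ : Nat.gcd (p + 1) 12 ∣ p + 1 := Nat.gcd_dvd_left _ _
  have hh12 : ∀ d : ℕ, d ∣ p + 1 → d ∣ 12 → d ∣ Nat.gcd (p + 1) 12 := fun d h1 h2 =>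
    Nat.dvd_gcd h1 h2
  generalize Nat.gcd (p - 1) 12 = g at hgh ha ⊢
  generalize Nat.gcd (p + 1) 12 = h at hgh hb hh12
  have hg0 : 0 < g := by
    rcases Nat.eq_zero_or_pos g with h0 | h0
    · rw [h0] at hgh; omega
    · exact h0
  have hdiv : (p - 1) / g = a := by rw [ha]; exact Nat.mul_div_cancel_left a hg0
  rw [hdiv]
  have hmab : m ∣ a * b := by
    have h1 : (p - 1) * (p + 1) = 24 * (a * b) := by rw [ha, hb, ← hgh]; ring
    rw [h1] at hA1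
    exact Nat.dvd_of_mul_dvd_mul_left (by norm_num) hA1
  have hcop : Nat.Coprime m b := by
    refine Nat.coprime_of_dvd fun ℓ hℓp hℓm hℓb => ?_
    have hℓp1 : ℓ ∣ p + 1 := by rw [hb]; exact Dvd.dvd.mul_left hℓb h
    by_cases h5 : 5 ≤ ℓ
    · exact hℓ ℓ hℓp h5 hℓp1 hℓm
    · have h23 : ℓ = 2 ∨ ℓ = 3 := by
        have h2 := hℓp.two_le
        have h4 : ℓ ≠ 4 := fun h4 => by rw [h4] at hℓp; exact absurd hℓp (by decide)
        omega
      rcases h23 with rfl | rfl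
      · refine h8 ?_ hℓm
        have h2h : 2 ∣ h := hh12 2 hℓp1 (by norm_num)
        have h4q : 4 ∣ p + 1 := by rw [hb]; exact Nat.mul_dvd_mul h2h hℓb
        have h4h : 4 ∣ h := hh12 4 h4q (by norm_num)
        rw [hb]
        exact Nat.mul_dvd_mul h4h hℓb
      · refine h9 ?_ hℓm
        have h3h : 3 ∣ h := hh12 3 hℓp1 (by norm_num)
        rw [hb]
        exact Nat.mul_dvd_mul h3h hℓb
  exact hcop.dvd_of_dvd_mul_right hmab

/-! ### PART 2: the ONE-TRACE bound for forms, against Prop-valued interfaces -/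

/-- Interface (CONJ/trace): the trace to level one of a product of two weight-2 forms of level
`Γ₀(p)` is a level-one form of weight 4 with `q`-expansion `A·B + p⁻¹ U_p((U_p A)(U_p B))`. -/
def TraceProdStmt (p : ℕ) : Prop :=
  ∀ G E : ModularForm (Gamma0 p) 2, ∃ F : ModularForm 𝒮ℒ 4,
    qExpansion 1 F = qExpansion 1 G * qExpansion 1 E +
      (p : ℂ)⁻¹ • Up p (Up p (qExpansion 1 G) * Up p (qExpansion 1 E))

/-- Interface (CONJ): `U_p² = 1` on `M₂(Γ₀(p))`, on `q`-coefficients. -/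
def UpUpStmt (p : ℕ) : Prop :=
  ∀ (G : ModularForm (Gamma0 p) 2) (n : ℕ),
    coeff (p * (p * n)) (qExpansion 1 G) = coeff n (qExpansion 1 G)

/-- Interface (EIS): the Eisenstein series of weight 2 and level `p`. -/
def EisStmt (p : ℕ) : Prop :=
  ∃ E : ModularForm (Gamma0 p) 2, coeff 0 (qExpansion 1 E) = ((p : ℂ) - 1) / 24 ∧
    ∀ k, 1 ≤ k → coeff k (qExpansion 1 E) = (sigmaP p k : ℂ)

/-- A level-one form of weight 4 is a multiple of `E₄`: its `q`-coefficients are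
`240 σ₃(k)` times the constant term. -/
lemma coeff_weight_four (F : ModularForm 𝒮ℒ 4) (k : ℕ) (hk : 1 ≤ k) :
    coeff k (qExpansion 1 F) = 240 * (σ 3 k : ℂ) * coeff 0 (qExpansion 1 F) := by
  have hfin : Module.finrank ℂ (ModularForm 𝒮ℒ 4) = 1 :=
    Module.finrank_eq_of_rank_eq (by simpa using levelOne_weight_four_rank_one)
  have hE : (E₄ : ModularForm 𝒮ℒ 4) ≠ 0 := EisensteinSeries.E_ne_zero (by norm_num) ⟨2, rfl⟩
  obtain ⟨κ, rfl⟩ := (finrank_eq_one_iff_of_nonzero' _ hE).mp hfin F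
  have hq : qExpansion 1 (⇑(κ • (E₄ : ModularForm 𝒮ℒ 4))) = κ • qExpansion 1 E₄ := by
    rw [FunLike.coe_smul]
    exact ModularForm.qExpansion_smul one_pos one_mem_strictPeriods_SL κ E₄
  have h4 : ∀ m : ℕ, coeff m (qExpansion 1 E₄) = if m = 0 then 1 else 240 * (σ 3 m : ℂ) := by
    intro m
    rw [EisensteinSeries.E_qExpansion_coeff (by norm_num) ⟨2, rfl⟩ m,
      show bernoulli 4 = -1 / 30 by
        rw [bernoulli_eq_bernoulli'_of_ne_one (by norm_num), bernoulli'_four]]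
    split_ifs
    · rfl
    · push_cast
      ring
  rw [hq, PowerSeries.coeff_smul, PowerSeries.coeff_smul, h4 k, h4 0, if_neg (by omega), if_pos rfl]
  simp only [smul_eq_mul]
  ring

/-- **A1 (ONE-TRACE bound) for forms.** Let `p ≥ 5` be prime. If a cusp form `f ∈ S₂(Γ₀(p))` has
`a_k(f) ≡ σ'(k) (mod m)` for all `k ≥ 1` (with `a_k(f) - σ'(k) ∈ mℤ`), then `24 m ∣ p² - 1`. -/
theorem trace_bound_form (p : ℕ) [hpf : Fact p.Prime] (hp5 : 5 ≤ p)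
    (hTrace : TraceProdStmt p) (hUU : UpUpStmt p) (hEis : EisStmt p)
    (m : ℕ) (hm : 0 < m) (f : CuspForm (Gamma0 p) 2)
    (hf : ∀ k, 1 ≤ k → ∃ z : ℤ, ModularFormClass.qCoeff f k = (sigmaP p k : ℂ) + m * z) :
    24 * m ∣ (p - 1) * (p + 1) := by
  have hp := hpf.out
  have hΓ := one_mem_strictPeriods_Gamma0 p
  obtain ⟨E, hE0, hEk⟩ := hEis
  have hmC : (m : ℂ) ≠ 0 := Nat.cast_ne_zero.mpr hm.ne'
  set fM : ModularForm (Gamma0 p) 2 := ModularFormClass.modularForm f with hfM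
  set G : ModularForm (Gamma0 p) 2 := (m : ℂ)⁻¹ • (E - fM) with hG
  have hfMq : qExpansion 1 (⇑fM) = qExpansion 1 (⇑f) := rfl
  have hGq : qExpansion 1 (⇑G) = (m : ℂ)⁻¹ • (qExpansion 1 E - qExpansion 1 f) := by
    rw [hG, FunLike.coe_smul, ModularForm.qExpansion_smul one_pos hΓ (m : ℂ)⁻¹ (E - fM),
      FunLike.coe_sub, ModularForm.qExpansion_sub one_pos hΓ E fM, hfMq]
  have hf0 : coeff 0 (qExpansion 1 (⇑f)) = 0 :=
    CuspFormClass.qExpansion_coeff_zero f one_pos hΓ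
  obtain ⟨F, hF⟩ := hTrace G E
  have hUpE : Up p (qExpansion 1 E) = qExpansion 1 E := by
    ext n
    rw [coeff_Up]
    rcases Nat.eq_zero_or_pos n with rfl | hn
    · rw [Nat.mul_zero]
    · rw [hEk n hn, hEk (p * n) (Nat.mul_pos hp.pos hn), sigmaP_mul p n hp hn.ne']
  rw [hUpE] at hF
  have hA0 : coeff 0 (qExpansion 1 (⇑G)) = ((p : ℂ) - 1) / (24 * m) := by
    rw [hGq, PowerSeries.coeff_smul, map_sub, hE0, hf0, smul_eq_mul, sub_zero]
    field_simp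
  have hAint : ∀ k, 1 ≤ k → ∃ z : ℤ, coeff k (qExpansion 1 (⇑G)) = z := by
    intro k hk
    obtain ⟨z, hz⟩ := hf k hk
    refine ⟨-z, ?_⟩
    rw [hGq, PowerSeries.coeff_smul, map_sub, hEk k hk]
    have hz' : coeff k (qExpansion 1 (⇑f)) = (sigmaP p k : ℂ) + m * z := hz
    rw [hz', smul_eq_mul]
    push_cast
    field_simp
    ring
  obtain ⟨z, hz⟩ := trace_bound p hp hp5 (qExpansion 1 G) (qExpansion 1 E) (qExpansion 1 F)
    (((p : ℂ) - 1) / (24 * m)) hA0 hAint (hUU G) hE0 hEk (coeff_weight_four F) hF.symm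
  have hp1 : 1 ≤ p := hp.pos
  have hint : (((p - 1) * (p + 1) : ℕ) : ℤ) = ((24 * m : ℕ) : ℤ) * z := by
    have hC : ((((p - 1) * (p + 1) : ℕ) : ℤ) : ℂ) = ((((24 * m : ℕ) : ℤ) * z : ℤ) : ℂ) := by
      push_cast [Nat.cast_sub hp1]
      rw [← hz]
      field_simp
    exact_mod_cast hC
  exact Int.natCast_dvd_natCast.mp ⟨z, hint⟩

end Fermat.Agent.S16.helper6802
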