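/-
S16, leaf A1 (the "one trace" upper bound), formal core.

For a prime `p ≥ 5` let `E = (p-1)/24 + ∑ σ'(k) q^k` (σ' = sum of the divisors prime to `p`)
and `E4 = 1 + 240 ∑ σ₃(k) q^k`.  If a power series `A = c + ∑_{k ≥ 1} a_k q^k` with `a_k ∈ ℤ`
satisfies `U_p U_p A = A` and
  `A * E + p⁻¹ • U_p ((U_p A) * E) = lam • E4`
then `(p + 1) * c ∈ ℤ`.
-/
import Mathlib

set_option autoImplicit false

namespace Fermat.Agent.S16.helper705

open PowerSeries

/-- The formal operator `U_p` on power series: `a_n ↦ a_{p n}`. -/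
noncomputable def Up {R : Type*} [Semiring R] (p : ℕ) (f : PowerSeries R) : PowerSeries R :=
  PowerSeries.mk fun n => PowerSeries.coeff (p * n) f

@[simp] lemma coeff_Up {R : Type*} [Semiring R] (p n : ℕ) (f : PowerSeries R) :
    PowerSeries.coeff n (Up p f) = PowerSeries.coeff (p * n) f := by
  simp [Up]

/-- Sum of the divisors of `k` that are prime to `p`. -/
def sigmaP (p k : ℕ) : ℕ := ∑ d ∈ k.divisors with ¬ p ∣ d, d

lemma sigmaP_zero (p : ℕ) : sigmaP p 0 = 0 := by simp [sigmaP]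

lemma sigmaP_one (p : ℕ) (hp : 2 ≤ p) : sigmaP p 1 = 1 := by
  have : ¬ p ∣ 1 := by
    intro h
    have := Nat.le_of_dvd one_pos h
    omega
  simp [sigmaP, Finset.filter_singleton, this]

lemma sigmaP_mul_self (p : ℕ) (hp : p.Prime) (k : ℕ) : sigmaP p (p * k) = sigmaP p k := by
  unfold sigmaP
  congr 1
  ext d
  simp only [Finset.mem_filter, Nat.mem_divisors]
  constructor
  · rintro ⟨⟨hd, hne⟩, hpd⟩
    refine ⟨⟨?_, ?_⟩, hpd⟩
    · exact (Nat.Coprime.dvd_mul_left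
        ((Nat.Prime.coprime_iff_not_dvd hp).mpr hpd).symm).mp hd
    · rintro rfl; simp at hne
  · rintro ⟨⟨hd, hne⟩, hpd⟩
    exact ⟨⟨Dvd.dvd.mul_left hd p, mul_ne_zero hp.ne_zero hne⟩, hpd⟩

lemma sigmaP_two (p : ℕ) (hp : 3 ≤ p) : sigmaP p 2 = 3 := by
  have h2 : ¬ p ∣ 2 := by
    intro h
    have := Nat.le_of_dvd two_pos h
    omega
  have h1 : ¬ p ∣ 1 := by
    intro h
    have := Nat.le_of_dvd one_pos h
    omega
  have hdiv : (2 : ℕ).divisors = {1, 2} := by decide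
  rw [sigmaP, hdiv, Finset.filter_true_of_mem]
  · simp
  · intro d hd
    simp only [Finset.mem_insert, Finset.mem_singleton] at hd
    rcases hd with rfl | rfl
    · exact h1
    · exact h2

lemma sigmaP_prime (p : ℕ) (hp : p.Prime) : sigmaP p p = 1 := by
  have := sigmaP_mul_self p hp 1
  rw [mul_one] at this
  rw [this, sigmaP_one p hp.two_le]

/-- Coefficients of the level `p` Eisenstein series `(p-1)/24 + ∑ σ'(k) q^k`. -/
noncomputable def eisCoeff (p k : ℕ) : ℂ :=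
  if k = 0 then ((p : ℂ) - 1) / 24 else (sigmaP p k : ℂ)

/-- The formal level `p` Eisenstein series `(p-1)/24 + ∑ σ'(k) q^k`. -/
noncomputable def eisSer (p : ℕ) : PowerSeries ℂ := PowerSeries.mk (eisCoeff p)

/-- Coefficients of `E4 = 1 + 240 ∑ σ₃(k) q^k`. -/
noncomputable def e4Coeff (k : ℕ) : ℂ :=
  if k = 0 then 1 else 240 * (ArithmeticFunction.sigma 3 k : ℂ)

/-- The formal series `E4 = 1 + 240 ∑ σ₃(k) q^k`. -/
noncomputable def e4Ser : PowerSeries ℂ := PowerSeries.mk e4Coeff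

/-- The integral part `∑ σ'(k) q^k` of the Eisenstein series. -/
def sigSerZ (p : ℕ) : PowerSeries ℤ := PowerSeries.mk fun k => (sigmaP p k : ℤ)

lemma eisSer_eq (p : ℕ) :
    eisSer p = C (((p : ℂ) - 1) / 24) + PowerSeries.map (Int.castRingHom ℂ) (sigSerZ p) := by
  ext k
  rcases Nat.eq_zero_or_pos k with rfl | hk
  · rw [map_add, coeff_map, coeff_C, if_pos rfl]
    simp [eisSer, eisCoeff, sigSerZ, sigmaP_zero]
  · have hk' : k ≠ 0 := by omega
    rw [map_add, coeff_map, coeff_C, if_neg hk']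
    simp [eisSer, eisCoeff, sigSerZ, hk']

/-- Splitting off the constant term of a series with integral higher coefficients. -/
lemma exists_int_part (A : PowerSeries ℂ)
    (hA : ∀ k : ℕ, 1 ≤ k → ∃ z : ℤ, PowerSeries.coeff k A = z) :
    ∃ h0 : PowerSeries ℤ, PowerSeries.constantCoeff h0 = 0 ∧
      A = C (PowerSeries.coeff 0 A) + PowerSeries.map (Int.castRingHom ℂ) h0 := by
  classical
  choose! z hz using hA
  refine ⟨PowerSeries.mk fun k => if k = 0 then 0 else z k, ?_, ?_⟩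
  · rw [← coeff_zero_eq_constantCoeff_apply, coeff_mk, if_pos rfl]
  · ext k
    rcases Nat.eq_zero_or_pos k with rfl | hk
    · rw [map_add, coeff_map, coeff_C, if_pos rfl, coeff_mk, if_pos rfl]
      simp
    · have hk' : k ≠ 0 := by omega
      rw [map_add, coeff_map, coeff_C, if_neg hk', coeff_mk, if_neg hk', hz k hk]
      simp

/-- Coefficient of a product of two "constant + integral" series. -/
lemma coeff_split_mul (c e0 : ℂ) (h d : PowerSeries ℤ) (k : ℕ) (hk : k ≠ 0) :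
    PowerSeries.coeff k ((C c + PowerSeries.map (Int.castRingHom ℂ) h) *
        (C e0 + PowerSeries.map (Int.castRingHom ℂ) d)) =
      c * ((PowerSeries.coeff k d : ℤ) : ℂ) + ((PowerSeries.coeff k h : ℤ) : ℂ) * e0 +
        ((PowerSeries.coeff k (h * d) : ℤ) : ℂ) := by
  have : (C c + PowerSeries.map (Int.castRingHom ℂ) h) *
        (C e0 + PowerSeries.map (Int.castRingHom ℂ) d) =
      C (c * e0) + C c * PowerSeries.map (Int.castRingHom ℂ) d +
        PowerSeries.map (Int.castRingHom ℂ) h * C e0 +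
        PowerSeries.map (Int.castRingHom ℂ) (h * d) := by
    rw [map_mul, map_mul]; ring
  rw [this]
  simp only [map_add, coeff_C, if_neg hk, coeff_C_mul, coeff_mul_C, coeff_map, eq_intCast,
    zero_add]

/-- The integer `w_k = σ'(k) - 10 (p-1) σ₃(k)`. -/
def wInt (p k : ℕ) : ℤ :=
  (sigmaP p k : ℤ) - 10 * ((p : ℤ) - 1) * (ArithmeticFunction.sigma 3 k : ℤ)

lemma exists_sq_sub_one (p : ℕ) (hp : p.Prime) (h5 : 5 ≤ p) :
    ∃ m : ℕ, p * p = 24 * m + 1 := by
  have h2 : p % 2 = 1 := by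
    rcases hp.eq_two_or_odd with h | h
    · omega
    · exact h
  have h3 : p % 3 ≠ 0 := by
    intro h
    have : 3 ∣ p := Nat.dvd_of_mod_eq_zero h
    have := (Nat.prime_dvd_prime_iff_eq Nat.prime_three hp).mp this
    omega
  have key : ∀ r : ℕ, r < 24 → r % 2 = 1 → r % 3 ≠ 0 → (r * r) % 24 = 1 := by decide
  have hr : (p * p) % 24 = 1 := by
    rw [Nat.mul_mod]
    apply key
    · exact Nat.mod_lt _ (by norm_num)
    · omega
    · omega
  refine ⟨p * p / 24, ?_⟩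
  have := Nat.div_add_mod (p * p) 24
  omega

/-- Coefficient extraction: each `w_k * (p+1) * c` is an integer. -/
lemma onetrace_coeff (p : ℕ) (hp : p.Prime) (h5 : 5 ≤ p) (A : PowerSeries ℂ)
    (hA : ∀ k : ℕ, 1 ≤ k → ∃ z : ℤ, PowerSeries.coeff k A = z)
    (hUU : Up p (Up p A) = A) (lam : ℂ)
    (hid : A * eisSer p + (p : ℂ)⁻¹ • Up p (Up p A * eisSer p) = lam • e4Ser)
    (k : ℕ) (hk : 1 ≤ k) :
    ∃ N : ℤ, ((p : ℂ) + 1) * PowerSeries.coeff 0 A * (wInt p k : ℂ) = N := by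
  obtain ⟨h0, hh0, hAeq⟩ := exists_int_part A hA
  have hp0 : p ≠ 0 := hp.ne_zero
  have hpC : (p : ℂ) ≠ 0 := by exact_mod_cast hp0
  have hk0 : k ≠ 0 := by omega
  have hpk0 : p * k ≠ 0 := mul_ne_zero hp0 hk0
  set c : ℂ := PowerSeries.coeff 0 A with hc
  set e0 : ℂ := ((p : ℂ) - 1) / 24 with he0
  -- coefficients of `A` at positive indices
  have hAn : ∀ n : ℕ, n ≠ 0 → PowerSeries.coeff n A = ((PowerSeries.coeff n h0 : ℤ) : ℂ) := by
    intro n hn
    rw [hAeq, map_add, coeff_C, if_neg hn, zero_add, coeff_map, eq_intCast]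
  -- `U_p A` again has the shape "constant + integral"
  have hUp : Up p A = C c + PowerSeries.map (Int.castRingHom ℂ) (Up p h0) := by
    ext n
    rw [coeff_Up, map_add, coeff_map, coeff_Up, coeff_C]
    rcases Nat.eq_zero_or_pos n with rfl | hn
    · have h00 : PowerSeries.coeff 0 h0 = 0 := by
        rw [coeff_zero_eq_constantCoeff_apply]; exact hh0
      rw [mul_zero, if_pos rfl, h00]
      simp [hc]
    · have hn0 : n ≠ 0 := by omega
      rw [if_neg hn0, zero_add, hAn _ (mul_ne_zero hp0 hn0), eq_intCast]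
  -- the invariance under `U_p^2`
  have hUUk : ((PowerSeries.coeff (p * (p * k)) h0 : ℤ) : ℂ) = ((PowerSeries.coeff k h0 : ℤ) : ℂ) := by
    have := congrArg (PowerSeries.coeff k) hUU
    rw [coeff_Up, coeff_Up, hAn _ (mul_ne_zero hp0 hpk0), hAn _ hk0] at this
    exact this
  -- constant coefficient of the identity
  have h0eq : c * e0 + (p : ℂ)⁻¹ * (c * e0) = lam := by
    have := congrArg (PowerSeries.coeff 0) hid
    simp only [map_add, coeff_smul, coeff_Up, mul_zero, smul_eq_mul, coeff_mul,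
      Finset.Nat.antidiagonal_zero, Finset.sum_singleton, e4Ser, eisSer, coeff_mk, e4Coeff,
      eisCoeff, ↓reduceIte, mul_one] at this
    exact this
  -- `k`-th coefficient of the identity
  have hkeq : (c * ((sigmaP p k : ℤ) : ℂ) + ((PowerSeries.coeff k h0 : ℤ) : ℂ) * e0 +
        ((PowerSeries.coeff k (h0 * sigSerZ p) : ℤ) : ℂ)) +
      (p : ℂ)⁻¹ * (c * ((sigmaP p k : ℤ) : ℂ) + ((PowerSeries.coeff k h0 : ℤ) : ℂ) * e0 +
        ((PowerSeries.coeff (p * k) (Up p h0 * sigSerZ p) : ℤ) : ℂ)) =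
      lam * (240 * (ArithmeticFunction.sigma 3 k : ℂ)) := by
    have := congrArg (PowerSeries.coeff k) hid
    rw [map_add, coeff_smul, coeff_Up, smul_eq_mul, coeff_smul, smul_eq_mul] at this
    rw [hUp, eisSer_eq, coeff_split_mul _ _ _ _ _ hpk0] at this
    nth_rewrite 1 [hAeq] at this
    rw [coeff_split_mul _ _ _ _ _ hk0] at this
    simp only [sigSerZ, coeff_mk, coeff_Up, e4Ser, e4Coeff, if_neg hk0] at this
    rw [hUUk, sigmaP_mul_self p hp k] at this
    simpa [sigSerZ] using this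
  obtain ⟨m, hm⟩ := exists_sq_sub_one p hp h5
  have hmC : (p : ℂ) * (p : ℂ) = 24 * (m : ℂ) + 1 := by exact_mod_cast hm
  refine ⟨-((m : ℤ) * PowerSeries.coeff k h0 + (p : ℤ) * PowerSeries.coeff k (h0 * sigSerZ p) +
    PowerSeries.coeff (p * k) (Up p h0 * sigSerZ p)), ?_⟩
  rw [← h0eq] at hkeq
  have h24 : (24 : ℂ) ≠ 0 := by norm_num
  apply mul_left_cancel₀ h24
  apply mul_left_cancel₀ hpC
  rw [he0] at hkeq
  field_simp at hkeq
  simp only [wInt]
  push_cast
  linear_combination (p : ℂ) * hkeq - ((p : ℂ) * (PowerSeries.coeff k h0 : ℤ)) * hmC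

lemma sigma_three_one : ArithmeticFunction.sigma 3 1 = 1 := by
  simp [ArithmeticFunction.sigma_apply]

lemma sigma_three_two : ArithmeticFunction.sigma 3 2 = 9 := by
  have hdiv : (2 : ℕ).divisors = {1, 2} := by decide
  rw [ArithmeticFunction.sigma_apply, hdiv]
  simp

lemma sigma_three_prime (p : ℕ) (hp : p.Prime) : ArithmeticFunction.sigma 3 p = 1 + p ^ 3 := by
  rw [ArithmeticFunction.sigma_apply, hp.divisors, Finset.sum_pair hp.one_lt.ne]
  simp

lemma wInt_one (p : ℕ) (hp : 2 ≤ p) : wInt p 1 = 1 - 10 * ((p : ℤ) - 1) := by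
  simp [wInt, sigmaP_one p hp]

lemma wInt_two (p : ℕ) (hp : 3 ≤ p) : wInt p 2 = 3 - 90 * ((p : ℤ) - 1) := by
  simp only [wInt, sigmaP_two p hp, sigma_three_two]
  push_cast
  ring

lemma wInt_prime (p : ℕ) (hp : p.Prime) :
    wInt p p = 1 - 10 * ((p : ℤ) - 1) * (1 + (p : ℤ) ^ 3) := by
  simp only [wInt, sigmaP_prime p hp, sigma_three_prime p hp]
  push_cast
  ring

/-- **Formal core of the one-trace bound.**  If `A = c + ∑_{k ≥ 1} a_k q^k` with `a_k ∈ ℤ`,
`U_p U_p A = A` and `A * E + p⁻¹ • U_p ((U_p A) * E) = lam • E4`, then `(p + 1) c ∈ ℤ`. -/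
theorem onetrace_core (p : ℕ) (hp : p.Prime) (h5 : 5 ≤ p) (A : PowerSeries ℂ)
    (hA : ∀ k : ℕ, 1 ≤ k → ∃ z : ℤ, PowerSeries.coeff k A = z)
    (hUU : Up p (Up p A) = A) (lam : ℂ)
    (hid : A * eisSer p + (p : ℂ)⁻¹ • Up p (Up p A * eisSer p) = lam • e4Ser) :
    ∃ z : ℤ, ((p : ℂ) + 1) * PowerSeries.coeff 0 A = z := by
  obtain ⟨N1, h1⟩ := onetrace_coeff p hp h5 A hA hUU lam hid 1 le_rfl
  obtain ⟨N2, h2⟩ := onetrace_coeff p hp h5 A hA hUU lam hid 2 (by norm_num)
  obtain ⟨Np, h3⟩ := onetrace_coeff p hp h5 A hA hUU lam hid p hp.one_le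
  rw [wInt_one p (by omega)] at h1
  rw [wInt_two p (by omega)] at h2
  rw [wInt_prime p hp] at h3
  push_cast at h1 h2 h3
  set X : ℂ := ((p : ℂ) + 1) * PowerSeries.coeff 0 A with hX
  have hmod2 : p % 2 = 1 := by
    rcases hp.eq_two_or_odd with h | h
    · omega
    · exact h
  have hmod3 : p % 3 ≠ 0 := by
    intro h
    have : 3 ∣ p := Nat.dvd_of_mod_eq_zero h
    have := (Nat.prime_dvd_prime_iff_eq Nat.prime_three hp).mp this
    omega
  have hcases : p % 6 = 1 ∨ p % 6 = 5 := by omega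
  rcases hcases with h6 | h6
  · -- `p = 6 m + 1`
    obtain ⟨m, hm⟩ : ∃ m : ℕ, p = 6 * m + 1 := ⟨p / 6, by omega⟩
    have hmC : (p : ℂ) = 6 * (m : ℂ) + 1 := by exact_mod_cast hm
    refine ⟨N1 * (1 + 90 * (m : ℤ)) - N2 * (10 * (m : ℤ)), ?_⟩
    rw [hmC] at h1 h2
    push_cast
    linear_combination (1 + 90 * (m : ℂ)) * h1 - 10 * (m : ℂ) * h2
  · -- `p = 6 m + 5`
    obtain ⟨m, hm⟩ : ∃ m : ℕ, p = 6 * m + 5 := ⟨p / 6, by omega⟩
    have hmC : (p : ℂ) = 6 * (m : ℂ) + 5 := by exact_mod_cast hm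
    refine ⟨Np + (10 * (6 * (m : ℤ) + 4) * ((m : ℤ) + 1) *
      ((6 * (m : ℤ) + 5) ^ 2 - (6 * (m : ℤ) + 5) + 1)) * (9 * N1 - N2), ?_⟩
    rw [hmC] at h1 h2 h3
    push_cast
    linear_combination h3 + (10 * (6 * (m : ℂ) + 4) * ((m : ℂ) + 1) *
      ((6 * (m : ℂ) + 5) ^ 2 - (6 * (m : ℂ) + 5) + 1)) * (9 * h1 - h2)

/-! ### Analytic wrapper (hypothesis-passing) -/

open UpperHalfPlane ModularForm ModularFormClass CongruenceSubgroup MatrixGroups EisensteinSeries

/-- `U_p` fixes the formal Eisenstein series of level `p`. -/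
lemma Up_eisSer (p : ℕ) (hp : p.Prime) : Up p (eisSer p) = eisSer p := by
  ext n
  rw [coeff_Up]
  rcases Nat.eq_zero_or_pos n with rfl | hn
  · simp
  · have hn0 : n ≠ 0 := by omega
    have hpn0 : p * n ≠ 0 := mul_ne_zero hp.ne_zero hn0
    simp [eisSer, eisCoeff, hn0, hpn0, sigmaP_mul_self p hp n]

/-- The `q`-expansion of `E₄` is the formal series `e4Ser`. -/
lemma qExpansion_E4_eq : qExpansion 1 E₄ = e4Ser := by
  ext m
  rw [E_qExpansion_coeff (by norm_num) ⟨2, rfl⟩ m]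
  have hb : bernoulli 4 = -1 / 30 := by decide +kernel
  rcases Nat.eq_zero_or_pos m with rfl | hm
  · simp [e4Ser, e4Coeff]
  · have hm0 : m ≠ 0 := by omega
    simp only [e4Ser, e4Coeff, coeff_mk, if_neg hm0, hb]
    push_cast
    norm_num

/-- Interface: the trace to level one of a product of two weight `2` forms on `Γ₀(p)`,
with its `q`-expansion (`Tr(G H) = G H + p⁻¹ U_p((U_p G)(U_p H))`). -/
def Stmt_TraceFour (p : ℕ) : Prop :=
  ∀ G H : ModularForm (Gamma0 p) 2, ∃ T : ModularForm 𝒮ℒ 4,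
    qExpansion 1 T = qExpansion 1 G * qExpansion 1 H +
      (p : ℂ)⁻¹ • Up p (Up p (qExpansion 1 G) * Up p (qExpansion 1 H))

/-- Interface: `U_p² = 1` on `M₂(Γ₀(p))` (from `W_p = -U_p`, `W_p² = 1`). -/
def Stmt_UpUp (p : ℕ) : Prop :=
  ∀ G : ModularForm (Gamma0 p) 2, Up p (Up p (qExpansion 1 G)) = qExpansion 1 G

/-- Interface: the Eisenstein series of weight `2` and level `p`. -/
def Stmt_Eis (p : ℕ) : Prop :=
  ∃ E : ModularForm (Gamma0 p) 2, qExpansion 1 E = eisSer p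

/-- The target statement of leaf A1: for `G ∈ M₂(Γ₀(p))` with integral higher coefficients,
`(p + 1) a₀(G) ∈ ℤ`. -/
def Stmt_OneTrace (p : ℕ) : Prop :=
  ∀ G : ModularForm (Gamma0 p) 2,
    (∀ k : ℕ, 1 ≤ k → ∃ z : ℤ, (qExpansion 1 G).coeff k = z) →
      ∃ z : ℤ, ((p : ℂ) + 1) * (qExpansion 1 G).coeff 0 = z

/-- **One-trace bound** (A1 of the S16 upper bound), from the three interfaces. -/
theorem stmt_OneTrace (p : ℕ) (hp : p.Prime) (h5 : 5 ≤ p) (hT : Stmt_TraceFour p)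
    (hU : Stmt_UpUp p) (hE : Stmt_Eis p) : Stmt_OneTrace p := by
  intro G hG
  obtain ⟨E, hEq⟩ := hE
  obtain ⟨T, hTq⟩ := hT G E
  have hrank : Module.finrank ℂ (ModularForm 𝒮ℒ 4) = 1 :=
    Module.finrank_eq_of_rank_eq ModularForm.levelOne_weight_four_rank_one
  obtain ⟨lam, hlam⟩ :=
    (finrank_eq_one_iff_of_nonzero' (E₄ : ModularForm 𝒮ℒ 4)
      (E_ne_zero (by norm_num) ⟨2, rfl⟩)).mp hrank T
  have hTq' : qExpansion 1 T = lam • e4Ser := by
    rw [← hlam, ← qExpansion_E4_eq]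
    exact ModularForm.qExpansion_smul one_pos one_mem_strictPeriods_SL lam E₄
  rw [hEq, Up_eisSer p hp, hTq'] at hTq
  exact onetrace_core p hp h5 (qExpansion 1 G) hG (hU G) lam hTq.symm

end Fermat.Agent.S16.helper705
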