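/-
S16 (helper7249): the ONE-TRACE leaf in the exact shape of the top-level spec
`helper312.Stmt_A1`, from the Eisenstein leaf `helper312.Stmt_Eis`.
(Formal core: `helper1566.onetrace`; modular inputs `TraceFour`, `UpInvol`:
`helper7249_TraceFour`.)
-/
import Fermat.Agent.S16.helper7249_TraceFour
import Fermat.Agent.S16.helper312_Spec

set_option autoImplicit false

open UpperHalfPlane ModularForm CongruenceSubgroup

namespace Fermat.Agent.S16.helper7249

/-- The one-trace leaf `helper312.Stmt_A1 p` (for a prime `p ≥ 5`), given the Eisenstein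
leaf `helper312.Stmt_Eis p`. -/
theorem stmt_A1 (p : ℕ) [Fact p.Prime] (h5 : 5 ≤ p) (hEis : helper312.Stmt_Eis p) :
    helper312.Stmt_A1 p := by
  intro G hG
  obtain ⟨E, hE0, hE⟩ := hEis
  exact onetrace_of_eis p h5 ⟨E, hE0, hE⟩ G hG

end Fermat.Agent.S16.helper7249
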