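import Mathlib
import Fermat.Prelude.Def_FLTPrelim_Modularity
import Fermat.Prelude.Thm_CongruenceSubgroup_one_mem_strictPeriods_Gamma0
import Fermat.Prelude.Def_ModularCurve_ModularUnit

/-!
# S16, leaf TE: the "one trace" bound  (helper736)

For a weight-two form `G = c + h` on `Γ₀(p)` (`p ≥ 5` prime) whose higher `q`-coefficients are
integers, the trace of `G · E` to level one (`E = (p-1)/24 + ∑ σ'(k) q^k` the Eisenstein series
of level `p`) lies in `M₄(SL₂(ℤ)) = ℂ E₄`.  Comparing `q`-expansions gives `(p+1) c ∈ ℤ`.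

Everything here is at the level of formal power series; the analytic input is the single
hypothesis `hTR` (the `q`-expansion of the trace), to be supplied by the CONJ/NORM modules.
-/

open PowerSeries

namespace Fermat.Agent.S16.helper736

set_option autoImplicit false

noncomputable section

/-- The formal `U_p` operator on power series: `a_n ↦ a_{pn}`. -/
def Up {R : Type*} [Semiring R] (p : ℕ) (A : PowerSeries R) : PowerSeries R :=
  PowerSeries.mk fun n => PowerSeries.coeff (p * n) A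

@[simp] lemma coeff_Up {R : Type*} [Semiring R] (p n : ℕ) (A : PowerSeries R) :
    PowerSeries.coeff n (Up p A) = PowerSeries.coeff (p * n) A := by
  simp [Up]

lemma Up_add {R : Type*} [Semiring R] (p : ℕ) (A B : PowerSeries R) :
    Up p (A + B) = Up p A + Up p B := by
  ext n; simp

lemma Up_map {R S : Type*} [Semiring R] [Semiring S] (f : R →+* S) (p : ℕ) (A : PowerSeries R) :
    Up p (PowerSeries.map f A) = PowerSeries.map f (Up p A) := by
  ext n; simp

lemma Up_C {R : Type*} [Semiring R] {p : ℕ} (hp : p ≠ 0) (c : R) :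
    Up p (PowerSeries.C c) = PowerSeries.C c := by
  ext n
  simp only [coeff_Up, PowerSeries.coeff_C]
  by_cases h : n = 0
  · simp [h]
  · simp [hp, h]

/-- Sum of the divisors of `k` that are prime to `p`. -/
def sigmaP (p k : ℕ) : ℕ := ∑ d ∈ k.divisors with ¬ p ∣ d, d

lemma sigmaP_mul_self {p : ℕ} (hp : p.Prime) {k : ℕ} (hk : k ≠ 0) :
    sigmaP p (p * k) = sigmaP p k := by
  unfold sigmaP
  apply Finset.sum_congr _ (fun _ _ => rfl)
  ext d
  simp only [Finset.mem_filter, Nat.mem_divisors]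
  constructor
  · rintro ⟨⟨hd, _⟩, hpd⟩
    refine ⟨⟨?_, hk⟩, hpd⟩
    exact (Nat.Coprime.dvd_mul_left ((Nat.Prime.coprime_iff_not_dvd hp).mpr hpd).symm).mp hd
  · rintro ⟨⟨hd, _⟩, hpd⟩
    exact ⟨⟨hd.mul_left p, mul_ne_zero hp.ne_zero hk⟩, hpd⟩

/-- The integral part `∑_{k ≥ 1} σ'(k) q^k` of the level-`p` Eisenstein series. -/
def deltaZ (p : ℕ) : PowerSeries ℤ :=
  PowerSeries.mk fun n => if n = 0 then 0 else (sigmaP p n : ℤ)

/-- The `q`-expansion `(p-1)/24 + ∑ σ'(k) q^k` of the weight-two Eisenstein series of level `p`. -/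
def eisSer (p : ℕ) : PowerSeries ℂ :=
  PowerSeries.mk fun n => if n = 0 then ((p : ℂ) - 1) / 24 else (sigmaP p n : ℂ)

lemma eisSer_eq (p : ℕ) :
    eisSer p = PowerSeries.C (((p : ℂ) - 1) / 24) +
      PowerSeries.map (Int.castRingHom ℂ) (deltaZ p) := by
  ext n
  rw [map_add, PowerSeries.coeff_C, PowerSeries.coeff_map]
  by_cases h : n = 0
  · subst h; simp [eisSer, deltaZ]
  · simp [eisSer, deltaZ, h]

lemma Up_deltaZ {p : ℕ} (hp : p.Prime) : Up p (deltaZ p) = deltaZ p := by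
  ext n
  by_cases h : n = 0
  · subst h; simp [deltaZ]
  · simp [deltaZ, h, hp.ne_zero, sigmaP_mul_self hp h]


/-! ### The coefficient identity -/

section Core

variable {p : ℕ} (hp : p.Prime) (c lam : ℂ) (Az : PowerSeries ℤ) (E4 : PowerSeries ℂ)

local notation "ι" => PowerSeries.map (Int.castRingHom ℂ)

/-- The series `A = c + ∑ a_k q^k` attached to the constant `c` and the integral part `Az`. -/
def serA (c : ℂ) (Az : PowerSeries ℤ) : PowerSeries ℂ := PowerSeries.C c + ι Az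

lemma mul_expand (c e : ℂ) (X D : PowerSeries ℤ) :
    (PowerSeries.C c + ι X) * (PowerSeries.C e + ι D) =
      PowerSeries.C (c * e) + PowerSeries.C c * ι D + ι X * PowerSeries.C e + ι (X * D) := by
  rw [map_mul, map_mul]; ring

lemma coeff_mul_expand (c e : ℂ) (X D : PowerSeries ℤ) (n : ℕ) :
    PowerSeries.coeff n ((PowerSeries.C c + ι X) * (PowerSeries.C e + ι D)) =
      PowerSeries.coeff n (PowerSeries.C (c * e) : PowerSeries ℂ) + c * ((PowerSeries.coeff n D : ℤ) : ℂ) +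
        ((PowerSeries.coeff n X : ℤ) : ℂ) * e + ((PowerSeries.coeff n (X * D) : ℤ) : ℂ) := by
  rw [mul_expand, map_add, map_add, map_add, PowerSeries.coeff_C_mul, PowerSeries.coeff_mul_C,
    PowerSeries.coeff_map, PowerSeries.coeff_map, PowerSeries.coeff_map]
  simp

include hp in
/-- Coefficient `0` of the trace identity: `lam = c e₀ (1 + 1/p)`. -/
lemma te_coeff_zero (hAz0 : PowerSeries.coeff 0 Az = 0) (hE40 : PowerSeries.coeff 0 E4 = 1)
    (hTR : serA c Az * eisSer p + (p : ℂ)⁻¹ • Up p (Up p (serA c Az) * eisSer p) = lam • E4) :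
    lam = c * (((p : ℂ) - 1) / 24) * (1 + (p : ℂ)⁻¹) := by
  have h := congrArg (PowerSeries.coeff 0) hTR
  have hUpA : Up p (serA c Az) = PowerSeries.C c + ι (Up p Az) := by
    rw [serA, Up_add, Up_C hp.ne_zero, Up_map]
  rw [hUpA, serA, eisSer_eq] at h
  simp only [map_add, PowerSeries.coeff_smul, coeff_Up, mul_zero, coeff_mul_expand,
    smul_eq_mul] at h
  have hD0 : PowerSeries.coeff 0 (deltaZ p) = 0 := by simp [deltaZ]
  have h1 : PowerSeries.coeff 0 (Az * deltaZ p) = 0 := by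
    rw [PowerSeries.coeff_zero_eq_constantCoeff_apply, map_mul,
      ← PowerSeries.coeff_zero_eq_constantCoeff_apply, hAz0, zero_mul]
  have h2 : PowerSeries.coeff 0 (Up p Az * deltaZ p) = 0 := by
    rw [PowerSeries.coeff_zero_eq_constantCoeff_apply, map_mul,
      ← PowerSeries.coeff_zero_eq_constantCoeff_apply (deltaZ p), hD0, mul_zero]
  simp only [hD0, h1, h2, hAz0, hE40, PowerSeries.coeff_zero_C, Int.cast_zero, mul_zero,
    zero_mul, add_zero, mul_one] at h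
  rw [← h]; ring

include hp in
/-- Coefficient `k ≥ 1` of the trace identity. -/
lemma te_coeff_pos (hUU : Up p (Up p Az) = Az)
    (hTR : serA c Az * eisSer p + (p : ℂ)⁻¹ • Up p (Up p (serA c Az) * eisSer p) = lam • E4)
    {k : ℕ} (hk : k ≠ 0) :
    (c * (sigmaP p k : ℂ) + ((PowerSeries.coeff k Az : ℤ) : ℂ) * (((p : ℂ) - 1) / 24)
        + ((PowerSeries.coeff k (Az * deltaZ p) : ℤ) : ℂ))
      + (p : ℂ)⁻¹ * (c * (sigmaP p k : ℂ) + ((PowerSeries.coeff k Az : ℤ) : ℂ) * (((p : ℂ) - 1) / 24)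
        + ((PowerSeries.coeff (p * k) (Up p Az * deltaZ p) : ℤ) : ℂ))
      = lam * PowerSeries.coeff k E4 := by
  have h := congrArg (PowerSeries.coeff k) hTR
  have hUpA : Up p (serA c Az) = PowerSeries.C c + ι (Up p Az) := by
    rw [serA, Up_add, Up_C hp.ne_zero, Up_map]
  rw [hUpA, serA, eisSer_eq] at h
  simp only [map_add, PowerSeries.coeff_smul, coeff_Up, coeff_mul_expand, smul_eq_mul] at h
  have hpk : p * k ≠ 0 := mul_ne_zero hp.ne_zero hk
  have hD : PowerSeries.coeff k (deltaZ p) = (sigmaP p k : ℤ) := by simp [deltaZ, hk]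
  have hD' : PowerSeries.coeff (p * k) (deltaZ p) = (sigmaP p k : ℤ) := by
    simp [deltaZ, hpk, sigmaP_mul_self hp hk]
  have hA' : PowerSeries.coeff (p * (p * k)) Az = PowerSeries.coeff k Az := by
    have := congrArg (PowerSeries.coeff k) hUU
    simpa using this
  rw [hD, hD', hA', PowerSeries.coeff_C, PowerSeries.coeff_C, if_neg hk, if_neg hpk] at h
  rw [← h]; push_cast; ring


lemma prime_sq_sub_one {p : ℕ} (hp : p.Prime) (hp5 : 5 ≤ p) :
    ∃ r : ℤ, ((p : ℤ) ^ 2 - 1) = 24 * r := by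
  have h2 : p % 2 = 1 := by
    rcases Nat.Prime.eq_two_or_odd hp with h | h
    · omega
    · exact h
  have h3 : p % 3 ≠ 0 := by
    intro h
    have := (Nat.prime_dvd_prime_iff_eq Nat.prime_three hp).mp (Nat.dvd_of_mod_eq_zero h)
    omega
  have h24 : p % 24 = 1 ∨ p % 24 = 5 ∨ p % 24 = 7 ∨ p % 24 = 11 ∨ p % 24 = 13 ∨ p % 24 = 17 ∨
      p % 24 = 19 ∨ p % 24 = 23 := by omega
  have hsq : p ^ 2 % 24 = 1 := by
    rw [Nat.pow_mod]
    rcases h24 with h | h | h | h | h | h | h | h <;> rw [h]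
  obtain ⟨q, hq⟩ : ∃ q : ℕ, p ^ 2 = 24 * q + 1 := ⟨p ^ 2 / 24, by
    have := Nat.div_add_mod (p ^ 2) 24
    rw [hsq] at this
    exact this.symm⟩
  refine ⟨(q : ℤ), ?_⟩
  have h' : ((p : ℤ)) ^ 2 = 24 * (q : ℤ) + 1 := by exact_mod_cast hq
  linarith

lemma sigmaP_one {p : ℕ} (hp : p.Prime) : sigmaP p 1 = 1 := by
  have h1 : ¬ p ∣ 1 := hp.one_lt.ne' ∘ Nat.dvd_one.mp
  rw [sigmaP, Nat.divisors_one, Finset.filter_singleton, if_pos h1]
  simp

lemma sigmaP_two {p : ℕ} (hp : p.Prime) (hp5 : 5 ≤ p) : sigmaP p 2 = 3 := by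
  have h1 : ¬ p ∣ 1 := hp.one_lt.ne' ∘ Nat.dvd_one.mp
  have h2 : ¬ p ∣ 2 := fun h => by have := Nat.le_of_dvd (by norm_num) h; omega
  have hd : (2 : ℕ).divisors = {1, 2} := by decide
  rw [sigmaP, hd, Finset.filter_insert, if_pos h1, Finset.filter_singleton, if_pos h2]
  simp

lemma sigmaP_self {p : ℕ} (hp : p.Prime) : sigmaP p p = 1 := by
  have h1 : ¬ p ∣ 1 := hp.one_lt.ne' ∘ Nat.dvd_one.mp
  rw [sigmaP, Nat.Prime.divisors hp, Finset.filter_insert, if_pos h1, Finset.filter_singleton,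
    if_neg (by simp)]
  simp

section Integrality

include hp in
/-- The key integrality: `(p+1) c (σ'(k) - 10 (p-1) σ₃(k)) ∈ ℤ` for all `k ≥ 1`. -/
lemma te_weighted (hp5 : 5 ≤ p) (hAz0 : PowerSeries.coeff 0 Az = 0) (hUU : Up p (Up p Az) = Az)
    (hE4 : ∀ n : ℕ, PowerSeries.coeff n E4 = if n = 0 then 1 else 240 * (ArithmeticFunction.sigma 3 n : ℂ))
    (hTR : serA c Az * eisSer p + (p : ℂ)⁻¹ • Up p (Up p (serA c Az) * eisSer p) = lam • E4)
    {k : ℕ} (hk : k ≠ 0) :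
    ∃ z : ℤ, ((p : ℂ) + 1) * c * ((sigmaP p k : ℂ) - 10 * ((p : ℂ) - 1) * (ArithmeticFunction.sigma 3 k : ℂ)) = z := by
  obtain ⟨r, hr⟩ := prime_sq_sub_one hp hp5
  have hlam := te_coeff_zero hp c lam Az E4 hAz0 (by simpa using hE4 0) hTR
  have hpos := te_coeff_pos hp c lam Az E4 hUU hTR hk
  rw [hE4 k, if_neg hk, hlam] at hpos
  have hp0 : (p : ℂ) ≠ 0 := by exact_mod_cast hp.ne_zero
  have hr' : ((p : ℂ) ^ 2 - 1) = 24 * (r : ℂ) := by exact_mod_cast hr
  refine ⟨-(r * PowerSeries.coeff k Az + (p : ℤ) * PowerSeries.coeff k (Az * deltaZ p) +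
    PowerSeries.coeff (p * k) (Up p Az * deltaZ p)), ?_⟩
  push_cast
  field_simp at hpos
  have hr'' : ((p : ℂ) - 1) * ((p : ℂ) + 1) = 24 * (r : ℂ) := by rw [← hr']; ring
  linear_combination ((1 : ℂ) / 24) * hpos - (((PowerSeries.coeff k Az : ℤ) : ℂ) / 24) * hr''


lemma sigma_three_one : ArithmeticFunction.sigma 3 1 = 1 := by
  simp [ArithmeticFunction.sigma_apply]

lemma sigma_three_two : ArithmeticFunction.sigma 3 2 = 9 := by
  have hd : (2 : ℕ).divisors = {1, 2} := by decide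
  rw [ArithmeticFunction.sigma_apply, hd]
  simp

include hp in
lemma sigma_three_prime : ArithmeticFunction.sigma 3 p = 1 + p ^ 3 := by
  rw [ArithmeticFunction.sigma_apply, Nat.Prime.sum_divisors hp]
  simp [add_comm]

include hp in
/-- **The one-trace bound**, power series form: `(p+1) c ∈ ℤ`. -/
theorem te_integral (hp5 : 5 ≤ p) (hAz0 : PowerSeries.coeff 0 Az = 0)
    (hUU : Up p (Up p Az) = Az)
    (hE4 : ∀ n : ℕ, PowerSeries.coeff n E4 =
      if n = 0 then 1 else 240 * (ArithmeticFunction.sigma 3 n : ℂ))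
    (hTR : serA c Az * eisSer p + (p : ℂ)⁻¹ • Up p (Up p (serA c Az) * eisSer p) = lam • E4) :
    ∃ z : ℤ, ((p : ℂ) + 1) * c = z := by
  obtain ⟨z1, h1⟩ := te_weighted hp c lam Az E4 hp5 hAz0 hUU hE4 hTR one_ne_zero
  obtain ⟨z2, h2⟩ := te_weighted hp c lam Az E4 hp5 hAz0 hUU hE4 hTR two_ne_zero
  obtain ⟨zp, h3⟩ := te_weighted hp c lam Az E4 hp5 hAz0 hUU hE4 hTR hp.ne_zero
  rw [sigmaP_one hp, sigma_three_one] at h1
  rw [sigmaP_two hp hp5, sigma_three_two] at h2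
  rw [sigmaP_self hp, sigma_three_prime hp] at h3
  push_cast at h1 h2 h3
  have h2' : p % 2 = 1 := by
    rcases Nat.Prime.eq_two_or_odd hp with h | h
    · omega
    · exact h
  have h3' : p % 3 ≠ 0 := by
    intro h
    have := (Nat.prime_dvd_prime_iff_eq Nat.prime_three hp).mp (Nat.dvd_of_mod_eq_zero h)
    omega
  have h6 : p % 6 = 1 ∨ p % 6 = 5 := by omega
  rcases h6 with h | h
  · obtain ⟨s, hs⟩ : ∃ s : ℕ, p = 6 * s + 1 := ⟨p / 6, by omega⟩
    refine ⟨z1 + 10 * (s : ℤ) * (9 * z1 - z2), ?_⟩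
    have hpc : (p : ℂ) = 6 * (s : ℂ) + 1 := by exact_mod_cast hs
    push_cast
    rw [← h1, ← h2, hpc]
    ring
  · obtain ⟨s, hs⟩ : ∃ s : ℕ, p = 6 * s + 5 := ⟨p / 6, by omega⟩
    refine ⟨zp + 10 * ((p : ℤ) - 1) * ((s : ℤ) + 1) * ((p : ℤ) ^ 2 - (p : ℤ) + 1) * (9 * z1 - z2),
      ?_⟩
    have hpc : (p : ℂ) = 6 * (s : ℂ) + 5 := by exact_mod_cast hs
    have hs' : (s : ℂ) = ((p : ℂ) - 5) / 6 := by rw [hpc]; ring
    push_cast
    rw [← h1, ← h2, ← h3, hs']
    ring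

end Integrality

end Core


/-! ### Modular-form level statement -/

section Forms

open UpperHalfPlane CongruenceSubgroup ModularFormClass
open scoped MatrixGroups

/-- INTERFACE (CONJ/NORM modules): the `q`-expansion of the trace to level one of the product
of two weight-two forms of level `p`.  (`(G H)|S T^j (z) = p⁻² (U_p G · U_p H)((z+j)/p)`.) -/
def Stmt_TraceFour (p : ℕ) : Prop :=
  ∀ G H : ModularForm (Gamma0 p) 2, ∃ N : ModularForm 𝒮ℒ 4,
    qExpansion 1 N = qExpansion 1 G * qExpansion 1 H +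
      (p : ℂ)⁻¹ • Up p (Up p (qExpansion 1 G) * Up p (qExpansion 1 H))

/-- INTERFACE (CONJ modules): `U_p² = 1` on `M₂(Γ₀(p))` (Fricke involution squared). -/
def Stmt_UpUp (p : ℕ) : Prop :=
  ∀ G : ModularForm (Gamma0 p) 2, Up p (Up p (qExpansion 1 G)) = qExpansion 1 G

/-- INTERFACE (EIS modules): the Eisenstein series of weight two and level `p`. -/
def Stmt_Eis (p : ℕ) : Prop :=
  ∃ E : ModularForm (Gamma0 p) 2, qExpansion 1 E = eisSer p

lemma Up_eisSer {p : ℕ} (hp : p.Prime) : Up p (eisSer p) = eisSer p := by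
  rw [eisSer_eq, Up_add, Up_C hp.ne_zero, Up_map, Up_deltaZ hp]

lemma coeff_qExpansion_E4 (n : ℕ) :
    PowerSeries.coeff n (qExpansion 1 ModularForm.E₄) =
      if n = 0 then 1 else 240 * (ArithmeticFunction.sigma 3 n : ℂ) := by
  have hb : bernoulli 4 = -1 / 30 := by
    rw [bernoulli_eq_bernoulli'_of_ne_one (by norm_num), bernoulli'_four]
  rw [EisensteinSeries.E_qExpansion_coeff (by norm_num) ⟨2, rfl⟩ n]
  split_ifs with h
  · rfl
  · rw [hb]; push_cast; norm_num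

lemma exists_smul_E4 (N : ModularForm 𝒮ℒ 4) : ∃ lam : ℂ, N = lam • ModularForm.E₄ := by
  have h1 : Module.finrank ℂ (ModularForm 𝒮ℒ 4) = 1 :=
    Module.rank_eq_one_iff_finrank_eq_one.mp ModularForm.levelOne_weight_four_rank_one
  obtain ⟨lam, hlam⟩ := (finrank_eq_one_iff_of_nonzero' ModularForm.E₄
    (EisensteinSeries.E_ne_zero (by norm_num) ⟨2, rfl⟩)).mp h1 N
  exact ⟨lam, hlam.symm⟩

/-- **Leaf TE.**  A cusp form congruent to `∑ σ'(k) q^k` modulo `m` forces `24 m ∣ p² - 1`. -/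
theorem te_bound {p : ℕ} (hp : p.Prime) (hp5 : 5 ≤ p) (hTR : Stmt_TraceFour p)
    (hUU : Stmt_UpUp p) (hE : Stmt_Eis p) (m : ℕ) (hm : 0 < m) (f : CuspForm (Gamma0 p) 2)
    (hf : ∀ k : ℕ, 0 < k → ∃ c : ℤ, qCoeff f k = (((sigmaP p k : ℤ) + m * c : ℤ) : ℂ)) :
    24 * m ∣ p ^ 2 - 1 := by
  obtain ⟨E, hEq⟩ := hE
  have hΓ := CongruenceSubgroup.one_mem_strictPeriods_Gamma0 p
  choose! cf hcf using hf
  set Az : PowerSeries ℤ := PowerSeries.mk fun k => if k = 0 then 0 else - cf k with hAz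
  have hm0 : (m : ℂ) ≠ 0 := by exact_mod_cast hm.ne'
  set G : ModularForm (Gamma0 p) 2 := (m : ℂ)⁻¹ • (E - ModularFormClass.modularForm f) with hGdef
  set c : ℂ := (((p : ℂ) - 1) / 24) / m with hc
  have hGq : qExpansion 1 G = serA c Az := by
    have h1 : (G : ℍ → ℂ) = (m : ℂ)⁻¹ • ((E : ℍ → ℂ) - (f : ℍ → ℂ)) := by
      ext z; simp [hGdef]
    have h2 : qExpansion 1 (G : ℍ → ℂ) = (m : ℂ)⁻¹ • (qExpansion 1 E - qExpansion 1 f) := by
      rw [h1, ← ModularForm.qExpansion_sub one_pos hΓ E f]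
      exact ModularForm.qExpansion_smul one_pos hΓ (m : ℂ)⁻¹ (E - ModularFormClass.modularForm f)
    rw [h2, hEq]
    ext k
    rw [PowerSeries.coeff_smul, map_sub, serA, map_add, PowerSeries.coeff_C,
      PowerSeries.coeff_map]
    by_cases hk : k = 0
    · subst hk
      have h0 : PowerSeries.coeff 0 (qExpansion 1 f) = 0 :=
        CuspFormClass.qExpansion_coeff_zero f one_pos hΓ
      rw [h0]
      simp [eisSer, hAz, hc]
      field_simp
    · have hk' := hcf k (Nat.pos_of_ne_zero hk)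
      rw [ModularFormClass.qCoeff] at hk'
      rw [hk']
      simp [eisSer, hAz, hk]
      field_simp
  obtain ⟨N, hN⟩ := hTR G E
  obtain ⟨lam, hlam⟩ := exists_smul_E4 N
  have hNq : qExpansion 1 N = lam • qExpansion 1 ModularForm.E₄ := by
    rw [hlam]
    exact ModularForm.qExpansion_smul one_pos one_mem_strictPeriods_SL lam
      ModularForm.E₄
  rw [hGq, hEq, Up_eisSer hp, hNq] at hN
  have hUUz : Up p (Up p Az) = Az := by
    have h := hUU G
    rw [hGq] at h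
    ext k
    have hk := congrArg (PowerSeries.coeff k) h
    simp only [coeff_Up, serA, map_add, PowerSeries.coeff_C, PowerSeries.coeff_map] at hk
    by_cases hk0 : k = 0
    · subst hk0; simp
    · have hpk : p * (p * k) ≠ 0 := mul_ne_zero hp.ne_zero (mul_ne_zero hp.ne_zero hk0)
      rw [if_neg hpk, if_neg hk0, zero_add, zero_add] at hk
      simp only [coeff_Up]
      simp only [eq_intCast] at hk
      exact_mod_cast hk
  have hAz0 : PowerSeries.coeff 0 Az = 0 := by simp [hAz]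
  obtain ⟨z, hz⟩ := te_integral hp c lam Az (qExpansion 1 ModularForm.E₄) hp5 hAz0 hUUz
    coeff_qExpansion_E4 hN.symm
  have hz' : ((p : ℤ) ^ 2 - 1 : ℤ) = 24 * m * z := by
    have : (((p : ℤ) ^ 2 - 1 : ℤ) : ℂ) = ((24 * m * z : ℤ) : ℂ) := by
      push_cast
      rw [← hz, hc]
      field_simp
      ring
    exact_mod_cast this
  have hp1 : 1 ≤ p ^ 2 := Nat.one_le_pow _ _ hp.pos
  have : ((24 * m : ℕ) : ℤ) ∣ ((p ^ 2 - 1 : ℕ) : ℤ) := by
    rw [Nat.cast_sub hp1]
    push_cast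
    exact ⟨z, hz'⟩
  exact Int.natCast_dvd_natCast.mp this


/-! ### Arithmetic assembly of the upper bound -/

/-- Pure arithmetic: from `24 m ∣ p² - 1` (TE), `m ∣ p - 1` (HC) and `2 ∤ m` when `8 ∣ p + 1`
(T8) conclude `m ∣ (p - 1) / gcd (p - 1, 12)`. -/
theorem dvd_eisensteinNumerator_of {p : ℕ} (hp : p.Prime) (hp5 : 5 ≤ p) {m : ℕ}
    (hTE : 24 * m ∣ p ^ 2 - 1) (hHC : m ∣ p - 1) (hT8 : 8 ∣ p + 1 → ¬ 2 ∣ m) :
    m ∣ ModularCurve.eisensteinNumerator p := by
  have h2 : p % 2 = 1 := by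
    rcases Nat.Prime.eq_two_or_odd hp with h | h
    · omega
    · exact h
  have h3 : p % 3 ≠ 0 := by
    intro h
    have := (Nat.prime_dvd_prime_iff_eq Nat.prime_three hp).mp (Nat.dvd_of_mod_eq_zero h)
    omega
  obtain ⟨t, ht⟩ := hHC
  have hm0 : 0 < m := by
    rcases Nat.eq_zero_or_pos m with h | h
    · subst h; omega
    · exact h
  -- `24 ∣ t * (p + 1)`
  have h24 : 24 ∣ t * (p + 1) := by
    have hfac : p ^ 2 - 1 = m * (t * (p + 1)) := by
      have h1 : p ^ 2 - 1 = (p - 1) * (p + 1) := by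
        zify [Nat.one_le_pow 2 p hp.pos, hp.one_le]; ring
      rw [h1, ht]; ring
    rw [hfac, mul_comm 24 m] at hTE
    exact (Nat.mul_dvd_mul_iff_left hm0).mp hTE
  -- (a) `3 ∣ p - 1 → 3 ∣ t`
  have ha : 3 ∣ p - 1 → 3 ∣ t := by
    intro h
    have hc : Nat.Coprime 3 (p + 1) := by
      rw [Nat.Prime.coprime_iff_not_dvd Nat.prime_three]; omega
    exact hc.dvd_of_dvd_mul_right (Dvd.dvd.trans (by norm_num) h24)
  -- (b) `4 ∣ p - 1 → 4 ∣ t`
  have hb : 4 ∣ p - 1 → 4 ∣ t := by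
    intro h
    obtain ⟨u, hu⟩ : ∃ u, p + 1 = 2 * u := ⟨(p + 1) / 2, by omega⟩
    have hu1 : u % 2 = 1 := by omega
    have h12 : 12 ∣ t * u := by
      have : 2 * 12 ∣ 2 * (t * u) := by
        have h' : t * (p + 1) = 2 * (t * u) := by rw [hu]; ring
        rw [← h']; exact h24
      exact (Nat.mul_dvd_mul_iff_left (by norm_num)).mp this
    have hc : Nat.Coprime 4 u := by
      have : Nat.Coprime 2 u := by
        rw [Nat.Prime.coprime_iff_not_dvd Nat.prime_two]; omega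
      exact Nat.Coprime.pow_left 2 this
    exact hc.dvd_of_dvd_mul_right (Dvd.dvd.trans (by norm_num) h12)
  -- (c) `2 ∣ t`
  have hcc : 2 ∣ t := by
    by_contra hodd
    have hc : Nat.Coprime 8 t := by
      have : Nat.Coprime 2 t := (Nat.Prime.coprime_iff_not_dvd Nat.prime_two).mpr hodd
      exact Nat.Coprime.pow_left 3 this
    have h8 : 8 ∣ p + 1 := hc.dvd_of_dvd_mul_left (Dvd.dvd.trans (by norm_num) h24)
    have hm2 : 2 ∣ m := by
      have : 2 ∣ m * t := by rw [← ht]; omega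
      rcases (Nat.Prime.dvd_mul Nat.prime_two).mp this with h | h
      · exact h
      · exact absurd h hodd
    exact hT8 h8 hm2
  -- conclusion: `gcd (p - 1) 12 ∣ t`
  have hd : Nat.gcd (p - 1) 12 ∣ t := by
    have h12 : p % 12 = 1 ∨ p % 12 = 5 ∨ p % 12 = 7 ∨ p % 12 = 11 := by omega
    have hg : Nat.gcd (p - 1) 12 = Nat.gcd ((p - 1) % 12) 12 := by
      rw [Nat.gcd_comm, Nat.gcd_rec 12 (p - 1)]
    rw [hg]
    rcases h12 with h | h | h | h
    · have : (p - 1) % 12 = 0 := by omega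
      rw [this]
      have h3' : 3 ∣ t := ha (by omega)
      have h4' : 4 ∣ t := hb (by omega)
      exact Nat.Coprime.mul_dvd_of_dvd_of_dvd (by norm_num : Nat.Coprime 3 4) h3' h4'
    · have : (p - 1) % 12 = 4 := by omega
      rw [this]
      exact hb (by omega)
    · have : (p - 1) % 12 = 6 := by omega
      rw [this]
      have h3' : 3 ∣ t := ha (by omega)
      exact Nat.Coprime.mul_dvd_of_dvd_of_dvd (by norm_num : Nat.Coprime 3 2) h3' hcc
    · have : (p - 1) % 12 = 10 := by omega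
      rw [this]
      exact hcc
  rw [ModularCurve.eisensteinNumerator]
  apply Nat.dvd_div_of_mul_dvd
  generalize Nat.gcd (p - 1) 12 = d at hd ⊢
  obtain ⟨s, rfl⟩ := hd
  rw [ht]
  exact ⟨s, by ring⟩


/-- A cusp form of level `p` whose `q`-coefficients are congruent to `σ'(k)` modulo `m`
(for all `k ≥ 1`). -/
def CongEis (p m : ℕ) (f : CuspForm (Gamma0 p) 2) : Prop :=
  ∀ k : ℕ, 0 < k → ∃ c : ℤ, qCoeff f k = (((sigmaP p k : ℤ) + m * c : ℤ) : ℂ)

lemma CongEis.of_dvd {p m m' : ℕ} {f : CuspForm (Gamma0 p) 2} (h : CongEis p m f)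
    (hd : m' ∣ m) : CongEis p m' f := by
  intro k hk
  obtain ⟨c, hc⟩ := h k hk
  obtain ⟨e, rfl⟩ := hd
  exact ⟨e * c, by rw [hc]; push_cast; ring⟩

/-- **Upper bound assembly.**  TE (`24 m ∣ p² - 1`, this file), HC (`m ∣ p - 1`) and T8
(no cusp form `≡ σ'` mod `2` when `8 ∣ p + 1`) give the full upper bound
`m ∣ (p - 1) / gcd (p - 1, 12)` for every cusp form congruent to `σ'` modulo `m`. -/
theorem ub_of_TE_HC_T8 {p : ℕ} (hp : p.Prime) (hp5 : 5 ≤ p)
    (hTE : ∀ (m : ℕ) (f : CuspForm (Gamma0 p) 2), 0 < m → CongEis p m f → 24 * m ∣ p ^ 2 - 1)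
    (hHC : ∀ (m : ℕ) (f : CuspForm (Gamma0 p) 2), 0 < m → CongEis p m f → m ∣ p - 1)
    (hT8 : 8 ∣ p + 1 → ∀ f : CuspForm (Gamma0 p) 2, ¬ CongEis p 2 f)
    (m : ℕ) (f : CuspForm (Gamma0 p) 2) (hm : 0 < m) (hf : CongEis p m f) :
    m ∣ ModularCurve.eisensteinNumerator p :=
  dvd_eisensteinNumerator_of hp hp5 (hTE m f hm hf) (hHC m f hm hf)
    (fun h8 h2 => hT8 h8 f (hf.of_dvd h2))

/-- The upper bound with the TE input discharged from the analytic interfaces. -/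
theorem ub_of_interfaces {p : ℕ} (hp : p.Prime) (hp5 : 5 ≤ p) (hTR : Stmt_TraceFour p)
    (hUU : Stmt_UpUp p) (hE : Stmt_Eis p)
    (hHC : ∀ (m : ℕ) (f : CuspForm (Gamma0 p) 2), 0 < m → CongEis p m f → m ∣ p - 1)
    (hT8 : 8 ∣ p + 1 → ∀ f : CuspForm (Gamma0 p) 2, ¬ CongEis p 2 f)
    (m : ℕ) (f : CuspForm (Gamma0 p) 2) (hm : 0 < m) (hf : CongEis p m f) :
    m ∣ ModularCurve.eisensteinNumerator p :=
  ub_of_TE_HC_T8 hp hp5 (fun m f hm hf => te_bound hp hp5 hTR hUU hE m hm f hf) hHC hT8 m f hm hf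

end Forms

end

end Fermat.Agent.S16.helper736
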