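import Fermat.Prelude.Def_CuspForm_HeckeLocal
import Fermat.Prelude.Def_CuspForm_HeckeEvalForms
import Fermat.Prelude.Def_HeckeGalois_EichlerShimura
import Fermat.Prelude.Def_ModularCurve_ModularUnit

/-!
# S16: bridge from the frozen statement to two arithmetic interfaces

Author: helper7427.

Let `psi : HeckeAlg →+* heckeLatticeAlgebra p ∅` be the evaluation map (the map whose image of the
Eisenstein ideal appears in the frozen statement) and `eis : HeckeAlg →ₐ[ℤ] ℤ` the Eisenstein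
character (`X_ℓ ↦ 1 + ℓ` for `ℓ ≠ p`, `X_p ↦ 1`), whose kernel is `eisensteinIdeal p` by definition.

* `psi_surjective` : `psi` is surjective;
* `card_of_LB_UB` : the frozen statement follows from
  - (LB) `psi t = 0 → (eisensteinNumerator p : ℤ) ∣ eis t` for all `t`, and
  - (UB) `∃ t, psi t = 0 ∧ eis t = eisensteinNumerator p`;
* `psi_eq_zero_iff` : `psi t = 0` iff the operator `heckeEvalForms p 2 t` kills the integral lattice.
-/

set_option autoImplicit false

open ModularCurve CuspForm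

namespace Fermat.Agent.S16.helper7427

variable (p : ℕ) [Fact p.Prime]

/-- The evaluation map from the abstract Hecke algebra `ℤ[X_ℓ]` to the Hecke algebra acting on
the lattice of integral weight-2 cusp forms of level `Γ₀(p)`. -/
noncomputable def psi : HeckeAlg →+* ↥(heckeLatticeAlgebra p ∅) :=
  (latticeRestrictHom p ∅).toRingHom.comp (heckeEvalForms p 2)

/-- The Eisenstein character. -/
noncomputable def eis : HeckeAlg →ₐ[ℤ] ℤ := MvPolynomial.aeval (eisensteinSystem p)

omit [Fact p.Prime] in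
theorem mem_eisensteinIdeal_iff (t : HeckeAlg) : t ∈ eisensteinIdeal p ↔ eis p t = 0 :=
  mem_eigenIdeal_iff _ t

omit [Fact p.Prime] in
theorem eis_C (a : ℤ) : eis p (MvPolynomial.C a) = a := by
  simp [eis]

theorem eis_heckeGen_of_ne {ℓ : Nat.Primes} (h : (ℓ : ℕ) ≠ p) :
    eis p (heckeGen ℓ) = 1 + (ℓ : ℕ) := by
  have hnd : ¬ (ℓ : ℕ) ∣ p := fun hd =>
    h (((Nat.prime_dvd_prime_iff_eq ℓ.2 (Fact.out : p.Prime)).mp hd))
  simp [eis, eisensteinSystem_of_not_dvd hnd]

omit [Fact p.Prime] in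
theorem eis_heckeGen_self {ℓ : Nat.Primes} (h : (ℓ : ℕ) = p) :
    eis p (heckeGen ℓ) = 1 := by
  have hd : (ℓ : ℕ) ∣ p := h ▸ dvd_rfl
  simp [eis, eisensteinSystem_of_dvd hd]

theorem heckeEvalForms_surjective (k : ℤ) : Function.Surjective (heckeEvalForms p k) := by
  rintro ⟨x, hx⟩
  suffices h : ∃ t : HeckeAlg,
      ((heckeEvalForms p k t : heckeAlgebra p k ∅) :
        Module.End ℂ (CuspForm (CongruenceSubgroup.Gamma0 p) k)) = x by
    obtain ⟨t, ht⟩ := h
    exact ⟨t, Subtype.ext ht⟩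
  induction hx using Algebra.adjoin_induction with
  | mem y hy =>
    rcases hy with ⟨ℓ, hℓ, hℓN, -, rfl⟩ | ⟨q, hqN, hq, -, rfl⟩
    · refine ⟨heckeGen ⟨ℓ, hℓ⟩, ?_⟩
      rw [heckeEvalForms_heckeGen_of_not_dvd (N := p) (k := k) (ℓ := ⟨ℓ, hℓ⟩) hℓN]
      rfl
    · refine ⟨heckeGen ⟨q, hq⟩, ?_⟩
      rw [heckeEvalForms_heckeGen_of_dvd (N := p) (k := k) (q := ⟨q, hq⟩) hqN]
      rfl
  | algebraMap r =>
    refine ⟨MvPolynomial.C r, ?_⟩
    rw [heckeEvalForms_C]
    rfl
  | add y z _ _ hy hz =>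
    obtain ⟨s, hs⟩ := hy
    obtain ⟨t, ht⟩ := hz
    exact ⟨s + t, by rw [map_add, ← hs, ← ht]; rfl⟩
  | mul y z _ _ hy hz =>
    obtain ⟨s, hs⟩ := hy
    obtain ⟨t, ht⟩ := hz
    exact ⟨s * t, by rw [map_mul, ← hs, ← ht]; rfl⟩

theorem psi_surjective : Function.Surjective (psi p) := by
  intro y
  obtain ⟨x, rfl⟩ := latticeRestrictHom_surjective p ∅ y
  obtain ⟨t, rfl⟩ := heckeEvalForms_surjective p 2 x
  exact ⟨t, rfl⟩

theorem psi_C (a : ℤ) : psi p (MvPolynomial.C a) = algebraMap ℤ _ a := by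
  simp only [psi, RingHom.comp_apply, heckeEvalForms_C]
  exact (latticeRestrictHom p ∅).commutes a

/-- `psi t` as an endomorphism of the lattice is the restriction of `heckeEvalForms p 2 t`. -/
theorem psi_apply_coe (t : HeckeAlg) (f : ↥(intLattice p 2)) :
    (((psi p t : ↥(heckeLatticeAlgebra p ∅)) : Module.End ℤ ↥(intLattice p 2)) f :
        CuspForm (CongruenceSubgroup.Gamma0 p) 2) =
      ((heckeEvalForms p 2 t : heckeAlgebra p 2 ∅) :
        Module.End ℂ (CuspForm (CongruenceSubgroup.Gamma0 p) 2)) f := rfl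

theorem psi_eq_zero_iff (t : HeckeAlg) :
    psi p t = 0 ↔ ∀ f ∈ intLattice p 2,
      ((heckeEvalForms p 2 t : heckeAlgebra p 2 ∅) :
        Module.End ℂ (CuspForm (CongruenceSubgroup.Gamma0 p) 2)) f = 0 := by
  constructor
  · intro h f hf
    have := psi_apply_coe p t ⟨f, hf⟩
    rw [h] at this
    exact this.symm
  · intro h
    apply Subtype.ext
    refine LinearMap.ext fun f => Subtype.ext ?_
    rw [psi_apply_coe]
    exact h f.1 f.2

/-- **Bridge.**  The frozen statement S16 follows from the lower bound (LB) and the upper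
bound (UB), both stated in the abstract Hecke algebra `ℤ[X_ℓ]`. -/
theorem card_of_LB_UB
    (hLB : ∀ t : HeckeAlg, psi p t = 0 → (eisensteinNumerator p : ℤ) ∣ eis p t)
    (hUB : ∃ t : HeckeAlg, psi p t = 0 ∧ eis p t = (eisensteinNumerator p : ℤ)) :
    Nat.card (↥(heckeLatticeAlgebra p ∅) ⧸
        Ideal.map ((latticeRestrictHom p ∅).toRingHom.comp (heckeEvalForms p 2))
          (eisensteinIdeal p)) =
      eisensteinNumerator p := by
  change Nat.card (↥(heckeLatticeAlgebra p ∅) ⧸ Ideal.map (psi p) (eisensteinIdeal p)) = _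
  set J : Ideal ↥(heckeLatticeAlgebra p ∅) := Ideal.map (psi p) (eisensteinIdeal p) with hJ
  set n : ℕ := eisensteinNumerator p with hn
  have hmemJ : ∀ y, y ∈ J ↔ ∃ s ∈ eisensteinIdeal p, psi p s = y := fun y =>
    Ideal.mem_map_iff_of_surjective (psi p) (psi_surjective p)
  let f : ℤ →+* (↥(heckeLatticeAlgebra p ∅) ⧸ J) :=
    (Ideal.Quotient.mk J).comp (algebraMap ℤ ↥(heckeLatticeAlgebra p ∅))
  have hf_surj : Function.Surjective f := by
    intro y
    obtain ⟨y, rfl⟩ := Ideal.Quotient.mk_surjective y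
    obtain ⟨t, rfl⟩ := psi_surjective p y
    refine ⟨eis p t, ?_⟩
    change Ideal.Quotient.mk J (algebraMap ℤ _ (eis p t)) = Ideal.Quotient.mk J (psi p t)
    rw [eq_comm, Ideal.Quotient.eq, hmemJ]
    refine ⟨t - MvPolynomial.C (eis p t), ?_, ?_⟩
    · rw [mem_eisensteinIdeal_iff, map_sub, eis_C, sub_self]
    · rw [map_sub, psi_C]
  have hker : RingHom.ker f = Ideal.span {(n : ℤ)} := by
    ext a
    rw [RingHom.mem_ker, Ideal.mem_span_singleton]
    change Ideal.Quotient.mk J (algebraMap ℤ _ a) = 0 ↔ _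
    rw [Ideal.Quotient.eq_zero_iff_mem, hmemJ]
    constructor
    · rintro ⟨s, hs, hsa⟩
      have h0 : psi p (MvPolynomial.C a - s) = 0 := by
        rw [map_sub, psi_C, hsa, sub_self]
      have := hLB _ h0
      rw [map_sub, eis_C, (mem_eisensteinIdeal_iff p s).mp hs, sub_zero] at this
      exact this
    · rintro ⟨c, rfl⟩
      obtain ⟨t0, ht0, ht0n⟩ := hUB
      refine ⟨MvPolynomial.C ((n : ℤ) * c) - t0 * MvPolynomial.C c, ?_, ?_⟩
      · have h1 : eis p (t0 * MvPolynomial.C c) = (n : ℤ) * c := by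
          rw [map_mul, eis_C, ht0n]
        rw [mem_eisensteinIdeal_iff, map_sub, eis_C, h1, sub_self]
      · have h2 : psi p (t0 * MvPolynomial.C c) = 0 := by
          rw [map_mul, ht0, zero_mul]
        rw [map_sub, h2, sub_zero, psi_C]
  have e1 : (ℤ ⧸ RingHom.ker f) ≃+* (↥(heckeLatticeAlgebra p ∅) ⧸ J) :=
    RingHom.quotientKerEquivOfSurjective hf_surj
  have e2 : (ℤ ⧸ Ideal.span {(n : ℤ)}) ≃+* ZMod n := Int.quotientSpanNatEquivZMod n
  rw [← Nat.card_congr e1.toEquiv, hker, Nat.card_congr e2.toEquiv, Nat.card_zmod]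

/-- The gcd form of the two interfaces: the ideal `eis (ker psi)` of `ℤ` is generated by
`eisensteinNumerator p`. -/
theorem card_of_ideal_eq
    (h : Ideal.map (eis p).toRingHom (RingHom.ker (psi p)) =
      Ideal.span {(eisensteinNumerator p : ℤ)}) :
    Nat.card (↥(heckeLatticeAlgebra p ∅) ⧸
        Ideal.map ((latticeRestrictHom p ∅).toRingHom.comp (heckeEvalForms p 2))
          (eisensteinIdeal p)) =
      eisensteinNumerator p := by
  have hsurj : Function.Surjective (eis p).toRingHom := fun a => ⟨MvPolynomial.C a, eis_C p a⟩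
  have hmem : ∀ a : ℤ, a ∈ Ideal.map (eis p).toRingHom (RingHom.ker (psi p)) ↔
      ∃ t ∈ RingHom.ker (psi p), eis p t = a := fun a =>
    Ideal.mem_map_iff_of_surjective _ hsurj
  refine card_of_LB_UB p ?_ ?_
  · intro t ht
    have : eis p t ∈ Ideal.map (eis p).toRingHom (RingHom.ker (psi p)) :=
      (hmem _).mpr ⟨t, ht, rfl⟩
    rw [h, Ideal.mem_span_singleton] at this
    exact this
  · have : (eisensteinNumerator p : ℤ) ∈
        Ideal.map (eis p).toRingHom (RingHom.ker (psi p)) := by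
      rw [h]; exact Ideal.mem_span_singleton_self _
    obtain ⟨t, ht, hte⟩ := (hmem _).mp this
    exact ⟨t, ht, hte⟩

end Fermat.Agent.S16.helper7427
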