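/-
helper7477 — S16, upper bound: the TRACE interface for the 2-adic leaf T8.

For `G ∈ M₂(Γ₀(p))` (`p` prime) and `m : ℕ`, the trace to level one of
`F = Bpoly E₄ E₆ G ^ m ∈ M_{8m}(Γ₀(p))` is a level-one form of weight `8 m` with `q`-expansion

  `Bpoly e₄ e₆ A ^ m + p • U_p (Bpoly (V_p e₄) (V_p e₆) (-(1/p) U_p A) ^ m)`,

`A = qExpansion 1 G`, `e₄, e₆` the expansions of `E₄, E₆`, `V_p = PowerSeries.expand p`.
(`Tr F = F + p U_p (F^♯)`, `G^♯ = -(1/p) U_p G`, `E^♯ = V_p E` for level-one `E`.)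

Built on `helper407_Conj` (conjugates `F ∣ S T^j`, their `t`-expansions, trace = sum of the
conjugates, weight 2: `qExpansion (fricke G) = - U_p (qExpansion G)`).  No norm, no product of
conjugates: only the sum over `j` of `rescale (ζ^j)`, which is `p • V_p ∘ U_p`.
-/
import Fermat.Agent.S16.helper407_Conj
import Fermat.Agent.S16.helper3076_TwoAdic

set_option autoImplicit false

namespace Fermat.Agent.S16.helper7477

open UpperHalfPlane ModularForm ModularFormClass EisensteinSeries CongruenceSubgroup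
open scoped MatrixGroups

open Fermat.Agent.S16.helper3076 (Bpoly)
open Fermat.Agent.S16.helper407 (HasTExp G0 zeta conj cs rep)

noncomputable section

/-! ## Roots of unity -/

theorem sum_zeta_pow (p : ℕ) [Fact p.Prime] (n : ℕ) :
    ∑ j : Fin p, (zeta p ^ (j : ℕ)) ^ n = if p ∣ n then (p : ℂ) else 0 := by
  have hp : p.Prime := Fact.out
  have hprim : IsPrimitiveRoot (zeta p) p := Complex.isPrimitiveRoot_exp p hp.ne_zero
  rw [Fin.sum_univ_eq_sum_range (fun j => (zeta p ^ j) ^ n) p]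
  split_ifs with h
  · obtain ⟨d, rfl⟩ := h
    have : ∀ j ∈ Finset.range p, (zeta p ^ j) ^ (p * d) = 1 := by
      intro j _
      rw [← pow_mul, mul_comm j, mul_assoc, pow_mul, hprim.pow_eq_one, one_pow]
    rw [Finset.sum_congr rfl this]
    simp
  · have hcop : Nat.Coprime n p := ((Nat.Prime.coprime_iff_not_dvd hp).mpr h).symm
    have hprim' : IsPrimitiveRoot (zeta p ^ n) p := hprim.pow_of_coprime n hcop
    have := hprim'.geom_sum_eq_zero hp.one_lt
    rw [← this]
    refine Finset.sum_congr rfl fun j _ => ?_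
    rw [← pow_mul, ← pow_mul, mul_comm]

/-- `∑_j Y(ζ^j t) = p • (U_p Y)(t^p)`. -/
theorem sum_rescale_zeta (p : ℕ) [Fact p.Prime] (Y : PowerSeries ℂ) :
    ∑ j : Fin p, PowerSeries.rescale (zeta p ^ (j : ℕ)) Y =
      (p : ℂ) • PowerSeries.expand p (NeZero.ne p) (helper407.Up p Y) := by
  ext n
  rw [map_sum, PowerSeries.coeff_smul, PowerSeries.coeff_expand]
  simp only [PowerSeries.coeff_rescale]
  rw [← Finset.sum_mul, sum_zeta_pow]
  split_ifs with h
  · obtain ⟨d, rfl⟩ := h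
    rw [helper407.coeff_Up, Nat.mul_div_cancel_left d (Nat.pos_of_ne_zero (NeZero.ne p))]
    simp
  · simp

/-- A series in `t^p` is fixed by `t ↦ ζ^j t`. -/
theorem rescale_zeta_expand (p : ℕ) [Fact p.Prime] (j : ℕ) (A : PowerSeries ℂ) :
    PowerSeries.rescale (zeta p ^ j) (PowerSeries.expand p (NeZero.ne p) A) =
      PowerSeries.expand p (NeZero.ne p) A := by
  ext n
  rw [PowerSeries.coeff_rescale, PowerSeries.coeff_expand]
  split_ifs with h
  · obtain ⟨d, rfl⟩ := h
    rw [← pow_mul, mul_comm j, mul_assoc, pow_mul, helper407.zeta_pow_self, one_pow, one_mul]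
  · simp

/-! ## Conjugates, pointwise -/

/-- Restriction of a level-one form to `Γ₀(p)`. -/
def restrictLevel (p : ℕ) {k : ℤ} (E : ModularForm 𝒮ℒ k) : ModularForm (G0 p) k where
  toFun := E
  slash_action_eq' γ hγ := E.slash_action_eq' γ (by
    obtain ⟨g, -, rfl⟩ := hγ
    exact ⟨g, rfl⟩)
  holo' := E.holo'
  bdd_at_cusps' hc := E.bdd_at_cusps' (hc.mono (by
    rintro _ ⟨g, -, rfl⟩
    exact ⟨g, rfl⟩))

@[simp] theorem coe_restrictLevel (p : ℕ) {k : ℤ} (E : ModularForm 𝒮ℒ k) :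
    ⇑(restrictLevel p E) = ⇑E := rfl

/-- The conjugate `F ∣ rep x` at `τ` is `F τ' * u ^ k`, and level-one forms satisfy
`E τ' * u ^ k = E τ`, for a common point `τ'` and a common factor `u ≠ 0`. -/
theorem exists_conj_factor (p : ℕ) (x : Option (Fin p)) (τ : ℍ) :
    ∃ (τ' : ℍ) (u : ℂ), u ≠ 0 ∧
      (∀ {k : ℤ} (F : ModularForm (G0 p) k), conj F x τ = F τ' * u ^ k) ∧
      (∀ {k : ℤ} (E : ModularForm 𝒮ℒ k), E τ' * u ^ k = E τ) := by
  refine ⟨rep p x • τ, (denom (rep p x) τ)⁻¹, inv_ne_zero (denom_ne_zero _ τ), ?_, ?_⟩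
  · intro k F
    rw [conj, ModularForm.SL_slash_apply, inv_zpow']
  · intro k E
    have h := SlashInvariantFormClass.slash_action_eq E
      (Matrix.SpecialLinearGroup.mapGL ℝ (rep p x)) ⟨rep p x, rfl⟩
    have h2 : ((⇑E) ∣[k] (rep p x)) τ = E τ := congrFun h τ
    rw [ModularForm.SL_slash_apply] at h2
    rw [inv_zpow']
    exact h2

/-! ## The form `Bpoly E₄ E₆ G` of weight 8 and its powers -/

/-- `Bpoly E₄ E₆ G = 27 G⁴ - 18 E₄ G² - 8 E₆ G - E₄²` as a modular form of weight 8 on `Γ₀(p)`. -/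
def bForm {p : ℕ} (G : ModularForm (G0 p) 2) : ModularForm (G0 p) 8 :=
  (27 : ℂ) • ModularForm.mcast (by norm_num) (G.pow 4)
    - (18 : ℂ) • ModularForm.mcast (by norm_num) ((restrictLevel p E₄).mul (G.pow 2))
    - (8 : ℂ) • ModularForm.mcast (by norm_num) ((restrictLevel p E₆).mul G)
    - ModularForm.mcast (by norm_num) ((restrictLevel p E₄).pow 2)

theorem coe_bForm {p : ℕ} (G : ModularForm (G0 p) 2) :
    ⇑(bForm G) = Bpoly (⇑E₄) (⇑E₆) (⇑G) := by
  funext τ
  simp only [bForm, Bpoly, sub_apply, smul_apply, ModularForm.coe_mcast,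
    ModularForm.coe_pow, ModularForm.coe_mul, coe_restrictLevel, Pi.sub_apply, Pi.mul_apply,
    Pi.pow_apply, Pi.ofNat_apply, smul_eq_mul]
  ring

/-- The conjugates of `Bpoly E₄ E₆ G ^ m` are `Bpoly E₄ E₆ (conjugate of G) ^ m`. -/
theorem conj_bForm_pow {p : ℕ} (G : ModularForm (G0 p) 2) (m : ℕ) (x : Option (Fin p)) :
    conj ((bForm G).pow m) x = Bpoly (⇑E₄) (⇑E₆) (conj G x) ^ m := by
  funext τ
  obtain ⟨τ', u, hu, hF, hE⟩ := exists_conj_factor p x τ
  have h4 := hE E₄
  have h6 := hE E₆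
  have h2 := hF G
  have key : Bpoly (⇑E₄) (⇑E₆) (⇑G) τ' * u ^ (8 : ℤ) = Bpoly (⇑E₄) (⇑E₆) (conj G x) τ := by
    simp only [Bpoly, Pi.sub_apply, Pi.mul_apply, Pi.pow_apply, Pi.ofNat_apply]
    simp only [zpow_ofNat] at h4 h6 h2 ⊢
    rw [h2, ← h4, ← h6]
    ring
  rw [hF, ModularForm.coe_pow, coe_bForm, Pi.pow_apply, Pi.pow_apply, ← key, mul_pow,
    ← zpow_natCast (u ^ (8 : ℤ)) m, ← zpow_mul, mul_comm (8 : ℤ)]

/-! ## `t`-expansions -/

theorem hasTExp_ofNat (p : ℕ) (n : ℕ) [n.AtLeastTwo] :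
    HasTExp p (OfNat.ofNat n : ℍ → ℂ) (OfNat.ofNat n : PowerSeries ℂ) := by
  have h := helper407.hasTExp_const p (OfNat.ofNat n : ℂ)
  rw [map_ofNat] at h
  exact h

theorem hasTExp_bpoly {p : ℕ} {a b g : ℍ → ℂ} {A B X : PowerSeries ℂ}
    (ha : HasTExp p a A) (hb : HasTExp p b B) (hg : HasTExp p g X) :
    HasTExp p (Bpoly a b g) (Bpoly A B X) := by
  unfold Bpoly
  exact ((((hasTExp_ofNat p 27).mul (hg.pow 4)).sub
    (((hasTExp_ofNat p 18).mul ha).mul (hg.pow 2))).sub
    (((hasTExp_ofNat p 8).mul hb).mul hg)).sub (ha.pow 2)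

/-- **Trace formula.**  If the conjugate at `∞` of `F` has `t`-expansion `Y₀(t^p)` and the
conjugates `F ∣ S T^j` have `t`-expansions `Y(ζ^j t)`, then the trace of `F` to level one has
`q`-expansion `Y₀ + p • U_p Y`. -/
theorem qExpansion_trace_eq {p : ℕ} [Fact p.Prime] {k : ℤ} (F : ModularForm (G0 p) k)
    (Y0 Y : PowerSeries ℂ)
    (h0 : HasTExp p (conj F none) (PowerSeries.expand p (NeZero.ne p) Y0))
    (hj : ∀ j : Fin p, HasTExp p (conj F (some j)) (PowerSeries.rescale (zeta p ^ (j : ℕ)) Y)) :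
    qExpansion 1 (ModularForm.trace 𝒮ℒ F) = Y0 + (p : ℂ) • helper407.Up p Y := by
  have h1 : HasTExp p (⇑(ModularForm.trace 𝒮ℒ F)) (PowerSeries.expand p (NeZero.ne p) Y0 +
      ∑ j : Fin p, PowerSeries.rescale (zeta p ^ (j : ℕ)) Y) := by
    rw [helper407.trace_apply, Fintype.sum_option]
    exact h0.add (helper407.hasTExp_finset_sum _ _ _ (fun j _ => hj j))
  have h2 := (helper407.hasTExp_one_levelOne (ModularForm.trace 𝒮ℒ F)).eq_expand h1
  rw [sum_rescale_zeta] at h2
  ext n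
  have h3 := congrArg (PowerSeries.coeff (p * n)) h2
  rw [PowerSeries.coeff_expand_mul, map_add, PowerSeries.coeff_expand_mul, PowerSeries.coeff_smul,
    PowerSeries.coeff_expand_mul] at h3
  rw [map_add, PowerSeries.coeff_smul]
  exact h3

/-! ## The trace of `Bpoly E₄ E₆ G ^ m` -/

/-- The `q`-expansion of the trace to level one of `Bpoly E₄ E₆ G ^ m`. -/
theorem qExpansion_trace_bForm_pow {p : ℕ} [Fact p.Prime] (G : ModularForm (G0 p) 2) (m : ℕ) :
    qExpansion 1 (ModularForm.trace 𝒮ℒ ((bForm G).pow m)) =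
      Bpoly (qExpansion 1 E₄) (qExpansion 1 E₆) (qExpansion 1 G) ^ m +
        (p : ℂ) • helper407.Up p
          (Bpoly (PowerSeries.expand p (NeZero.ne p) (qExpansion 1 E₄))
            (PowerSeries.expand p (NeZero.ne p) (qExpansion 1 E₆))
            ((-((p : ℂ))⁻¹) • helper407.Up p (qExpansion 1 G)) ^ m) := by
  have hp0 : p ≠ 0 := NeZero.ne p
  have hpc : (p : ℂ) ≠ 0 := Nat.cast_ne_zero.mpr hp0
  have h4 : HasTExp p (⇑E₄) (PowerSeries.expand p hp0 (qExpansion 1 E₄)) :=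
    (helper407.hasTExp_one_levelOne E₄).expand
  have h6 : HasTExp p (⇑E₆) (PowerSeries.expand p hp0 (qExpansion 1 E₆)) :=
    (helper407.hasTExp_one_levelOne E₆).expand
  refine qExpansion_trace_eq _ _ _ ?_ ?_
  · rw [conj_bForm_pow]
    have hG := helper407.hasTExp_conj G none
    have h := (hasTExp_bpoly h4 h6 hG).pow m
    have e : PowerSeries.expand p hp0
        (Bpoly (qExpansion 1 E₄) (qExpansion 1 E₆) (qExpansion 1 G) ^ m) =
        Bpoly (PowerSeries.expand p hp0 (qExpansion 1 E₄))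
          (PowerSeries.expand p hp0 (qExpansion 1 E₆))
          (cs p 2 (qExpansion 1 G) (qExpansion 1 (helper407.fricke G)) none) ^ m := by
      simp only [Bpoly, cs, map_pow, map_sub, map_mul, map_ofNat]
    rw [e]
    exact h
  · intro j
    rw [conj_bForm_pow]
    have hG := helper407.hasTExp_conj G (some j)
    have h := (hasTExp_bpoly h4 h6 hG).pow m
    have e : PowerSeries.rescale (zeta p ^ (j : ℕ))
        (Bpoly (PowerSeries.expand p hp0 (qExpansion 1 E₄))
          (PowerSeries.expand p hp0 (qExpansion 1 E₆))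
          ((-((p : ℂ))⁻¹) • helper407.Up p (qExpansion 1 G)) ^ m) =
        Bpoly (PowerSeries.expand p hp0 (qExpansion 1 E₄))
          (PowerSeries.expand p hp0 (qExpansion 1 E₆))
          (cs p 2 (qExpansion 1 G) (qExpansion 1 (helper407.fricke G)) (some j)) ^ m := by
      have e1 : PowerSeries.rescale (zeta p ^ (j : ℕ))
          ((-((p : ℂ))⁻¹) • helper407.Up p (qExpansion 1 G)) =
          cs p 2 (qExpansion 1 G) (qExpansion 1 (helper407.fricke G)) (some j) := by
        rw [cs, helper407.qExpansion_fricke_two]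
        ext n
        rw [PowerSeries.coeff_rescale, PowerSeries.coeff_smul, PowerSeries.coeff_smul,
          PowerSeries.coeff_rescale, map_neg]
        have : (p : ℂ) ^ (1 - 2 : ℤ) = ((p : ℂ))⁻¹ := by
          rw [show (1 - 2 : ℤ) = -1 by norm_num, zpow_neg_one]
        rw [this]
        simp only [smul_eq_mul]
        ring
      simp only [Bpoly, map_pow, map_sub, map_mul, map_ofNat, rescale_zeta_expand, e1]
    rw [e]
    exact h

/-- **Trace interface for T8** (stated with the `U_p` of `helper407`). -/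
theorem exists_trace_bpoly_pow (p : ℕ) [Fact p.Prime] (G : ModularForm (Gamma0 p) 2) (m : ℕ) :
    ∃ (k : ℤ) (N : ModularForm 𝒮ℒ k), k = 8 * (m : ℤ) ∧
      qExpansion 1 N =
        Bpoly (qExpansion 1 E₄) (qExpansion 1 E₆) (qExpansion 1 G) ^ m +
          (p : ℂ) • helper407.Up p
            (Bpoly (PowerSeries.expand p (NeZero.ne p) (qExpansion 1 E₄))
              (PowerSeries.expand p (NeZero.ne p) (qExpansion 1 E₆))
              ((-((p : ℂ))⁻¹) • helper407.Up p (qExpansion 1 G)) ^ m) :=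
  ⟨(m : ℤ) * 8, ModularForm.trace 𝒮ℒ ((bForm G).pow m), by ring, qExpansion_trace_bForm_pow G m⟩

end

end Fermat.Agent.S16.helper7477
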