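/-
helper7477 — S16, upper bound, leaf T8 on the TRACE interface alone.

`no_form_one_mod_eight_of_trace`: for `p ≡ 3 (mod 4)` there is no `G ∈ M₂(Γ₀(p))` whose
`q`-expansion is `1 + 8 h` with `h` having 2-integral coefficients, GIVEN the trace interface
`TraceB p`: for every `m` the trace to level one of `Bpoly E₄ E₆ G ^ m ∈ M_{8m}(Γ₀(p))` is a
level-one form of weight `8 m` with `q`-expansion

  `B(A)^m + p • U_p (B^♯ ^ m)`,   `B^♯ = Bpoly (V_p E₄) (V_p E₆) (-(1/p) U_p A)`,  `A = q-exp of G`.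

No norm, no `q^(1/p)`, no roots of unity.  Proof: write `p + 1 = 2^c · o` with `o` odd and take
`m = 2^c`.  By `helper3076_TwoAdic`, `B(A) = 256 (Δ + 2 Q₁)` and `B^♯ = 256 (V_p Δ + 2 Q₂)` with
2-integral `Q₁, Q₂` (here `-1/p ≡ 1` or `5 mod 8`).  Since `(a + 2 b)^(2^c) ≡ a^(2^c)` modulo
`2^(c+1)`, the trace is `256^m ((1 + p) Δ^m + 2^(c+1) W)` with `W` 2-integral: all its
coefficients of index `< m` lie in `256^m 2^(c+1) O2`, and `8 m / 12 < m`, so by the level-one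
Sturm bound (`helper5604`) the coefficient of index `m` does too; it is
`256^m (2^c o + 2^(c+1) w)`, whence `1/2 ∈ O2`: absurd.
-/
import Fermat.Agent.S16.helper3076_TwoAdicNorm

set_option autoImplicit false

namespace Fermat.Agent.S16.helper7477

open UpperHalfPlane ModularForm ModularFormClass EisensteinSeries CongruenceSubgroup
open scoped MatrixGroups

open Fermat.Agent.S16.helper3076

noncomputable section

/-- `(a + 2 b)^(2^c) = a^(2^c) + 2^(c+1) w` with `w` in any subring containing `a, b`. -/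
theorem pow_two_pow_eq {R : Type*} [CommRing R] (A : Subring R) {a b : R} (ha : a ∈ A)
    (hb : b ∈ A) (c : ℕ) :
    ∃ w ∈ A, (a + 2 * b) ^ (2 ^ c) = a ^ (2 ^ c) + 2 ^ (c + 1) * w := by
  induction c with
  | zero => exact ⟨b, hb, by ring⟩
  | succ c ih =>
    obtain ⟨w, hw, h⟩ := ih
    refine ⟨a ^ (2 ^ c) * w + 2 ^ c * w ^ 2, ?_, ?_⟩
    · exact A.add_mem (A.mul_mem (A.pow_mem ha _) hw)
        (A.mul_mem (A.pow_mem (ofNat_mem A 2) _) (A.pow_mem hw _))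
    · rw [pow_succ 2 c, pow_mul, h]
      ring

/-- **Trace interface** (supplied by `helper7477_TraceB` from the conjugate expansions of
`helper407_Conj`): the trace to level one of `Bpoly E₄ E₆ G ^ m`. -/
def TraceB (p : ℕ) (hp : p ≠ 0) : Prop :=
  ∀ (G : ModularForm (Gamma0 p) 2) (m : ℕ), ∃ (k : ℤ) (N : ModularForm 𝒮ℒ k),
    k = 8 * (m : ℤ) ∧
    qExpansion 1 N =
      Bpoly (qExpansion 1 E₄) (qExpansion 1 E₆) (qExpansion 1 G) ^ m +
        (p : ℂ) • Up p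
          (Bpoly (PowerSeries.expand p hp (qExpansion 1 E₄))
            (PowerSeries.expand p hp (qExpansion 1 E₆))
            ((-((p : ℂ))⁻¹) • Up p (qExpansion 1 G)) ^ m)

private lemma coeff_Up (p : ℕ) (A : PowerSeries ℂ) (n : ℕ) :
    PowerSeries.coeff n (Up p A) = PowerSeries.coeff (p * n) A := by
  rw [Up, PowerSeries.coeff_mk]

/-- **T8 via one trace.**  For `p ≡ 3 (mod 4)` there is no weight-2 form on `Γ₀(p)` whose
`q`-expansion is `1 + 8 h` with `h` having coefficients in `O2`. -/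
theorem no_form_one_mod_eight_of_trace (p : ℕ) (hp : p ≠ 0) (hp4 : p % 4 = 3)
    (hTr : TraceB p hp) (G : ModularForm (Gamma0 p) 2)
    (hG : ∃ h ∈ coeffRing O2, qExpansion 1 G = 1 + 8 * h) : False := by
  obtain ⟨h, hh, hA⟩ := hG
  obtain ⟨c, o, ho, hpc⟩ : ∃ c o : ℕ, Odd o ∧ p + 1 = 2 ^ c * o :=
    Nat.exists_eq_two_pow_mul_odd (Nat.succ_ne_zero p)
  have hm : 0 < 2 ^ c := by positivity
  obtain ⟨k, N, hk, hexp⟩ := hTr G (2 ^ c)
  subst hk
  have hodd : Odd p := Nat.odd_iff.mpr (by omega)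
  have hpO : (p : ℂ) ∈ O2 := natCast_mem O2 p
  set D : PowerSeries ℂ := qExpansion 1 discriminant with hD
  have hDmem : D ∈ coeffRing O2 := qExpansion_discriminant_mem O2
  -- the factor at infinity
  obtain ⟨Q1, hQ1, hinf⟩ := Bpoly_qExpansion_infty O2 (X := qExpansion 1 G) ⟨h, hh, Or.inl hA⟩
  -- the factor at the cusp 0
  have hX : ∃ h' ∈ coeffRing O2,
      (-((p : ℂ))⁻¹) • Up p (qExpansion 1 G) = 1 + 8 * h' ∨
      (-((p : ℂ))⁻¹) • Up p (qExpansion 1 G) = 5 + 8 * h' := by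
    have := conj_form p hp hp4 (ζ := 1) (one_pow p) 0 hh
    simpa only [pow_zero, PowerSeries.rescale_one, RingHom.id_apply, ← hA] using this
  obtain ⟨Q2, hQ2, hzero⟩ := Bpoly_qExpansion_expand O2 p hp hX
  rw [hinf, hzero, ← hD] at hexp
  -- the `2^c`-th powers
  obtain ⟨w1, hw1, e1⟩ := pow_two_pow_eq (coeffRing O2) hDmem hQ1 c
  obtain ⟨w2, hw2, e2⟩ := pow_two_pow_eq (coeffRing O2) (expand_mem_coeffRing O2 p hp hDmem) hQ2 c
  have hexp2 : qExpansion 1 N =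
      PowerSeries.C ((256 : ℂ) ^ (2 ^ c)) * (D ^ (2 ^ c) + PowerSeries.C ((2 : ℂ) ^ (c + 1)) * w1) +
        (p : ℂ) • Up p (PowerSeries.C ((256 : ℂ) ^ (2 ^ c)) *
          (PowerSeries.expand p hp (D ^ (2 ^ c)) + PowerSeries.C ((2 : ℂ) ^ (c + 1)) * w2)) := by
    rw [hexp, mul_pow, mul_pow, e1, e2, map_pow, map_pow, map_pow, map_ofNat, map_ofNat]
  have hcoeff : ∀ n : ℕ, PowerSeries.coeff n (qExpansion 1 N) =
      (256 : ℂ) ^ (2 ^ c) * (((p : ℂ) + 1) * PowerSeries.coeff n (D ^ (2 ^ c)) +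
        (2 : ℂ) ^ (c + 1) * (PowerSeries.coeff n w1 + (p : ℂ) * PowerSeries.coeff (p * n) w2)) := by
    intro n
    rw [hexp2, map_add, PowerSeries.coeff_smul, coeff_Up, PowerSeries.coeff_C_mul,
      PowerSeries.coeff_C_mul, map_add, map_add, PowerSeries.coeff_C_mul, PowerSeries.coeff_C_mul,
      PowerSeries.coeff_expand_mul]
    simp only [smul_eq_mul]
    ring
  have hwn : ∀ n : ℕ, PowerSeries.coeff n w1 + (p : ℂ) * PowerSeries.coeff (p * n) w2 ∈ O2 :=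
    fun n => O2.add_mem ((mem_coeffRing_iff O2 w1).mp hw1 n)
      (O2.mul_mem hpO ((mem_coeffRing_iff O2 w2).mp hw2 _))
  -- Sturm
  let I : AddSubgroup ℂ :=
    O2.toAddSubgroup.map (AddMonoidHom.mulLeft ((256 : ℂ) ^ (2 ^ c) * (2 : ℂ) ^ (c + 1)))
  have hI : ∀ x : ℂ, x ∈ I ↔ ∃ z ∈ O2, (256 : ℂ) ^ (2 ^ c) * (2 : ℂ) ^ (c + 1) * z = x := by
    intro x
    simp only [I, AddSubgroup.mem_map, AddMonoidHom.coe_mulLeft]
    rfl
  have hlt : (8 * ((2 ^ c : ℕ) : ℤ)).toNat / 12 < 2 ^ c := by omega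
  have hsturm := helper5604.levelOne_not_congr_pow I N (2 ^ c) hlt (fun n hn => by
    rw [hI, hcoeff n, hD, coeff_discriminant_pow_of_lt hn]
    exact ⟨_, hwn n, by ring⟩)
  rw [hI, hcoeff (2 ^ c), hD, coeff_discriminant_pow_self] at hsturm
  obtain ⟨z, hz, hzeq⟩ := hsturm
  have h256 : ((256 : ℂ) ^ (2 ^ c)) ≠ 0 := pow_ne_zero _ (by norm_num)
  have h2c : ((2 : ℂ) ^ c) ≠ 0 := pow_ne_zero _ (by norm_num)
  have hpC : (p : ℂ) + 1 = (2 : ℂ) ^ c * (o : ℂ) := by exact_mod_cast hpc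
  obtain ⟨t, ht⟩ := ho
  set y : ℂ := PowerSeries.coeff (2 ^ c) w1 + (p : ℂ) * PowerSeries.coeff (p * 2 ^ c) w2 with hy
  have h1 : (2 : ℂ) ^ (c + 1) * z = (2 : ℂ) ^ c * (o : ℂ) + (2 : ℂ) ^ (c + 1) * y := by
    have := mul_left_cancel₀ h256 (by rw [← hpC]; linear_combination hzeq :
      (256 : ℂ) ^ (2 ^ c) * ((2 : ℂ) ^ (c + 1) * z) =
        (256 : ℂ) ^ (2 ^ c) * ((2 : ℂ) ^ c * (o : ℂ) + (2 : ℂ) ^ (c + 1) * y))
    exact this
  have h2 : 2 * z = (o : ℂ) + 2 * y := by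
    have := mul_left_cancel₀ h2c (by rw [pow_succ] at h1; linear_combination h1 :
      (2 : ℂ) ^ c * (2 * z) = (2 : ℂ) ^ c * ((o : ℂ) + 2 * y))
    exact this
  have hoC : (o : ℂ) = 2 * (t : ℂ) + 1 := by exact_mod_cast congrArg (Nat.cast : ℕ → ℂ) ht
  have hfin : (2 : ℂ)⁻¹ = z - y - (t : ℂ) := by
    rw [hoC] at h2
    linear_combination (-(1 / 2) : ℂ) * h2
  exact inv_two_notMem_O2 (hfin ▸ O2.sub_mem (O2.sub_mem hz (hwn _)) (natCast_mem O2 t))

end

end Fermat.Agent.S16.helper7477
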