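/-
helper7477 — S16, upper bound, leaf T8 (the 2-adic case), UNCONDITIONAL:
for a prime `p ≡ 3 (mod 4)` (in particular `p ≡ 7 (mod 8)`) there is no `G ∈ M₂(Γ₀(p))` with
`q`-expansion `≡ 1 (mod 8)` (2-integral coefficients).

Assembly of
* `helper7477_TwoAdicTrace.no_form_one_mod_eight_of_trace` (2-adic core on the trace interface,
  on top of the ring identities of `helper3076_TwoAdic` and the level-one Sturm bound of
  `helper5604`), and
* `helper7477_TraceB.exists_trace_bpoly_pow` (the trace interface, from the conjugate expansions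
  of `helper407_Conj`).

Consumer shapes: `no_form_one_mod_eight` (same hypothesis on `G` as
`helper3076.no_form_one_mod_eight`, no norm hypothesis), `t8_of_coeff` (= body of
`helper312.Stmt_T8`), `t8_of_odd_const` (= the `hT8` hypothesis of `helper9202.upper_core`).
-/
import Fermat.Agent.S16.helper7477_TwoAdicTrace
import Fermat.Agent.S16.helper7477_TraceB
import Fermat.Prelude.Def_FLTPrelim_Modularity

set_option autoImplicit false

namespace Fermat.Agent.S16.helper7477

open UpperHalfPlane ModularForm ModularFormClass EisensteinSeries CongruenceSubgroup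
open scoped MatrixGroups

open Fermat.Agent.S16.helper3076 (O2 coeffRing mem_coeffRing_iff mem_O2_iff)

noncomputable section

/-- The trace interface holds for every prime `p`. -/
theorem traceB (p : ℕ) [Fact p.Prime] : TraceB p (NeZero.ne p) :=
  fun G m => exists_trace_bpoly_pow p G m

/-- **T8.**  For a prime `p ≡ 3 (mod 4)` there is no weight-2 form on `Γ₀(p)` whose `q`-expansion
is `1 + 8 h` with `h` having coefficients in `O2` (2-integral algebraic numbers). -/
theorem no_form_one_mod_eight (p : ℕ) [Fact p.Prime] (hp4 : p % 4 = 3)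
    (G : ModularForm (Gamma0 p) 2)
    (hG : ∃ h ∈ coeffRing O2, qExpansion 1 G = 1 + 8 * h) : False :=
  no_form_one_mod_eight_of_trace p (NeZero.ne p) hp4 (traceB p) G hG

/-- **T8, coefficient form** (the body of `helper312.Stmt_T8`, for `p ≡ 3 (mod 4)`). -/
theorem t8_of_coeff (p : ℕ) [Fact p.Prime] (hp4 : p % 4 = 3) (G : ModularForm (Gamma0 p) 2)
    (h0 : qCoeff G 0 = 1)
    (hk : ∀ k : ℕ, 1 ≤ k → ∃ a b : ℤ, Odd b ∧ qCoeff G k = 8 * (a : ℂ) / (b : ℂ)) : False := by
  refine no_form_one_mod_eight p hp4 G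
    ⟨PowerSeries.mk fun n => if n = 0 then 0 else PowerSeries.coeff n (qExpansion 1 G) / 8, ?_, ?_⟩
  · rw [mem_coeffRing_iff]
    intro n
    rw [PowerSeries.coeff_mk]
    split_ifs with hn
    · exact O2.zero_mem
    · obtain ⟨a, b, hb, hab⟩ := hk n (Nat.one_le_iff_ne_zero.mpr hn)
      rw [mem_O2_iff]
      refine ⟨b, hb, ?_⟩
      have hb0 : (b : ℂ) ≠ 0 := by
        have : b ≠ 0 := fun h => by simp [h] at hb
        exact_mod_cast this
      have e : (b : ℂ) * (PowerSeries.coeff n (qExpansion 1 G) / 8) = ((a : ℤ) : ℂ) := by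
        have hab' : PowerSeries.coeff n (qExpansion 1 G) = 8 * (a : ℂ) / (b : ℂ) := hab
        rw [hab']
        field_simp
      rw [e]
      exact isIntegral_algebraMap (R := ℤ) (A := ℂ) (x := a)
  · ext n
    rw [map_add, ← map_ofNat (PowerSeries.C (R := ℂ)) 8, PowerSeries.coeff_C_mul,
      PowerSeries.coeff_mk, PowerSeries.coeff_one]
    split_ifs with hn
    · subst hn
      have h0' : PowerSeries.coeff 0 (qExpansion 1 G) = 1 := h0
      rw [h0']
      simp
    · ring

/-- **T8, odd constant term** (the hypothesis `hT8` of `helper9202.upper_core`,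
for `p ≡ 3 (mod 4)`). -/
theorem t8_of_odd_const (p : ℕ) [Fact p.Prime] (hp4 : p % 4 = 3) (G : ModularForm (Gamma0 p) 2)
    (u : ℤ) (hu : Odd u) (h0 : qCoeff G 0 = (u : ℂ))
    (hk : ∀ k : ℕ, 1 ≤ k → ∃ z : ℤ, qCoeff G k = 8 * (z : ℂ)) : False := by
  have hu0 : (u : ℂ) ≠ 0 := by
    have : u ≠ 0 := fun h => by simp [h] at hu
    exact_mod_cast this
  have hq : ∀ n : ℕ, qCoeff (((u : ℂ)⁻¹ • G : ModularForm (Gamma0 p) 2)) n =
      (u : ℂ)⁻¹ * qCoeff G n := by
    intro n
    unfold qCoeff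
    have h := ModularForm.qExpansion_smul one_pos (helper407.one_mem_strictPeriods_G0 p)
      ((u : ℂ)⁻¹) G
    have e : (⇑(((u : ℂ)⁻¹ • G : ModularForm (Gamma0 p) 2)) : ℍ → ℂ) = (u : ℂ)⁻¹ • (⇑G : ℍ → ℂ) :=
      rfl
    rw [e, h, PowerSeries.coeff_smul, smul_eq_mul]
  refine t8_of_coeff p hp4 ((u : ℂ)⁻¹ • G) ?_ ?_
  · rw [hq, h0, inv_mul_cancel₀ hu0]
  · intro k hk1
    obtain ⟨z, hz⟩ := hk k hk1
    refine ⟨z, u, hu, ?_⟩
    rw [hq, hz]
    field_simp

end

end Fermat.Agent.S16.helper7477
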