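/-
helper7577 — S16 leaf "HC" (Hecke-commutator bound), backup copy of board row 589.

For `H ∈ M_2(Γ₀(N))` and a seed `D ∈ M_k(Γ₀(N))`, both with integer `q`-coefficients, and a
prime `m ∤ N`, the commutator `Φ_m := T_m^{(2+k)}(H·D) − H·T_m^{(k)}(D)` satisfies
`a_n(Φ_m) ≡ a_0(H)·m^{k-1}(m²−1)·d_{n/m}  (mod ℓ^t)` whenever `a_n(H) ≡ 0 (mod ℓ^t)` for `n ≥ 1`.
Finiteness of the set of mod-`ℓ` reductions of integral forms of weight `2+k` (Sturm bound)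
then forces `ℓ^t ∣ m² − 1` for all large primes `m`, and Dirichlet gives `ℓ^t ∣ 24`.
-/
import Mathlib
import Fermat.Prelude.Def_FLTPrelim_Modularity
import Fermat.Prelude.Def_ModularForm_HeckeOperatorForms
import Fermat.Prelude.Thm_ModularFormClass_qCoeff_heckeT
import Fermat.Prelude.Thm_CongruenceSubgroup_one_mem_strictPeriods_Gamma0
import Fermat.Prelude.Thm_ModularForm_sturm_bound_Gamma0

set_option autoImplicit false

namespace Fermat.Agent.S16.helper7577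

open ModularFormClass CongruenceSubgroup UpperHalfPlane

section QCoeff

variable {N : ℕ} {k : ℤ}

theorem qCoeff_add (f g : ModularForm (Gamma0 N) k) (n : ℕ) :
    qCoeff (⇑(f + g)) n = qCoeff f n + qCoeff g n := by
  change (qExpansion 1 (⇑(f + g))).coeff n = (qExpansion 1 f).coeff n + (qExpansion 1 g).coeff n
  rw [FunLike.coe_add,
    ModularForm.qExpansion_add one_pos (one_mem_strictPeriods_Gamma0 N) f g, map_add]

theorem qCoeff_sub (f g : ModularForm (Gamma0 N) k) (n : ℕ) :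
    qCoeff (⇑(f - g)) n = qCoeff f n - qCoeff g n := by
  change (qExpansion 1 (⇑(f - g))).coeff n = (qExpansion 1 f).coeff n - (qExpansion 1 g).coeff n
  rw [FunLike.coe_sub,
    ModularForm.qExpansion_sub one_pos (one_mem_strictPeriods_Gamma0 N) f g, map_sub]

theorem qCoeff_smul (c : ℂ) (f : ModularForm (Gamma0 N) k) (n : ℕ) :
    qCoeff (⇑(c • f)) n = c * qCoeff f n := by
  change (qExpansion 1 (⇑(c • f))).coeff n = c * (qExpansion 1 f).coeff n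
  rw [FunLike.coe_smul,
    ModularForm.qExpansion_smul one_pos (one_mem_strictPeriods_Gamma0 N) c f]
  simp

theorem qCoeff_mul {a b : ℤ} (f : ModularForm (Gamma0 N) a) (g : ModularForm (Gamma0 N) b)
    (n : ℕ) :
    qCoeff (f.mul g) n = ∑ x ∈ Finset.HasAntidiagonal.antidiagonal n, qCoeff f x.1 * qCoeff g x.2 := by
  change (qExpansion 1 (⇑(f.mul g))).coeff n = _
  rw [ModularForm.qExpansion_mul one_pos (one_mem_strictPeriods_Gamma0 N) f g,
    PowerSeries.coeff_mul]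
  rfl

theorem qCoeff_heckeTLin {m : ℕ} (hm : m.Prime) (hmN : ¬ m ∣ N)
    (f : ModularForm (Gamma0 N) k) (n : ℕ) :
    qCoeff (ModularForm.heckeTLin k hm hmN f) n =
      qCoeff f (n * m) + if m ∣ n then (m : ℂ) ^ (k - 1) * qCoeff f (n / m) else 0 := by
  rw [ModularForm.coe_heckeTLin_apply,
    ModularFormClass.qCoeff_heckeT f (one_mem_strictPeriods_Gamma0 N) hm.ne_zero n]
  rfl

end QCoeff

theorem qCoeff_zero (N : ℕ) (k : ℤ) (n : ℕ) : qCoeff (⇑(0 : ModularForm (Gamma0 N) k)) n = 0 := by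
  have := qCoeff_smul (0 : ℂ) (0 : ModularForm (Gamma0 N) k) n
  simpa using this

theorem qCoeff_neg {N : ℕ} {k : ℤ} (f : ModularForm (Gamma0 N) k) (n : ℕ) :
    qCoeff (⇑(-f)) n = -qCoeff f n := by
  have := qCoeff_smul (-1 : ℂ) f n
  simpa using this

section Bound

variable (N : ℕ) [NeZero N] (k : ℤ)

/-- Integer sequences which are the `q`-coefficient sequences of a modular form of weight `k`
and level `Γ₀(N)`. -/
def intSeqs : AddSubgroup (ℕ → ℤ) where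
  carrier := {c | ∃ F : ModularForm (Gamma0 N) k, ∀ n, qCoeff F n = (c n : ℂ)}
  zero_mem' := ⟨0, fun n => by rw [qCoeff_zero]; simp⟩
  add_mem' := by
    rintro c c' ⟨F, hF⟩ ⟨F', hF'⟩
    exact ⟨F + F', fun n => by rw [qCoeff_add, hF n, hF' n]; simp⟩
  neg_mem' := by
    rintro c ⟨F, hF⟩
    exact ⟨-F, fun n => by rw [qCoeff_neg, hF n]; simp⟩

theorem intSeqs_eq_zero_of_sturm {c : ℕ → ℤ} (hc : c ∈ intSeqs N k)
    (h : ∀ n : ℕ, n ≤ (k * (Gamma0 N).index).toNat / 12 → c n = 0) : c = 0 := by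
  obtain ⟨F, hF⟩ := hc
  have hF0 : F = 0 := by
    apply ModularForm.sturm_bound_Gamma0 N F
    intro n hn
    have := hF n
    rw [h n hn] at this
    simpa [qCoeff] using this
  funext n
  have := hF n
  rw [hF0, qCoeff_zero] at this
  exact_mod_cast this.symm

theorem intSeqs_finite : Module.Finite ℤ (AddSubgroup.toIntSubmodule (intSeqs N k)) := by
  let B0 := (k * (Gamma0 N).index).toNat / 12
  let res : (ℕ → ℤ) →ₗ[ℤ] (Fin (B0 + 1) → ℤ) :=
    LinearMap.funLeft ℤ ℤ (fun i : Fin (B0 + 1) => (i : ℕ))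
  refine Module.Finite.of_injective (res.domRestrict (AddSubgroup.toIntSubmodule (intSeqs N k))) ?_
  rw [← LinearMap.ker_eq_bot, Submodule.eq_bot_iff]
  rintro ⟨c, hc⟩ hker
  rw [LinearMap.mem_ker] at hker
  have hc0 : c = 0 := by
    apply intSeqs_eq_zero_of_sturm N k hc
    intro n hn
    have := congrFun hker ⟨n, Nat.lt_succ_of_le hn⟩
    simpa [res, LinearMap.funLeft] using this
  subst hc0
  rfl

/-- There is a bound `B` such that an integral form of weight `k` whose coefficients `c n`,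
`1 ≤ n ≤ B`, are all divisible by `ℓ` has all coefficients `c n`, `1 ≤ n`, divisible by `ℓ`. -/
theorem exists_bound (ℓ : ℕ) [Fact ℓ.Prime] :
    ∃ B : ℕ, ∀ (F : ModularForm (Gamma0 N) k) (c : ℕ → ℤ), (∀ n, qCoeff F n = (c n : ℂ)) →
      (∀ n, 1 ≤ n → n ≤ B → (ℓ : ℤ) ∣ c n) → ∀ n, 1 ≤ n → (ℓ : ℤ) ∣ c n := by
  classical
  -- a finite generating set of the lattice of integral coefficient sequences
  obtain ⟨S, hS⟩ := (Module.Finite.iff_fg (R := ℤ)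
    (N := AddSubgroup.toIntSubmodule (intSeqs N k))).mp (intSeqs_finite N k)
  let red : (ℕ → ℤ) → (ℕ → ZMod ℓ) := fun c n => (c n : ZMod ℓ)
  let W : Submodule (ZMod ℓ) (ℕ → ZMod ℓ) := Submodule.span (ZMod ℓ) (red '' (S : Set (ℕ → ℤ)))
  have hWfg : W.FG := Submodule.fg_span ((Finset.finite_toSet S).image red)
  have : Module.Finite (ZMod ℓ) W := Module.Finite.iff_fg.mpr hWfg
  have : Finite W := Module.finite_of_finite (ZMod ℓ)
  have hspan : ∀ c ∈ Submodule.span ℤ (S : Set (ℕ → ℤ)), red c ∈ W := by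
    intro c hc'
    induction hc' using Submodule.span_induction with
    | mem x hx => exact Submodule.subset_span ⟨x, hx, rfl⟩
    | zero =>
      have : red 0 = 0 := by funext n; simp [red]
      rw [this]; exact W.zero_mem
    | add x y _ _ hx hy =>
      have : red (x + y) = red x + red y := by funext n; simp [red]
      rw [this]; exact W.add_mem hx hy
    | smul a x _ hx =>
      have : red (a • x) = (a : ZMod ℓ) • red x := by funext n; simp [red]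
      rw [this]; exact W.smul_mem _ hx
  have hmem : ∀ c ∈ intSeqs N k, red c ∈ W := by
    intro c hc
    exact hspan c (by rw [hS]; exact hc)
  -- index of the first nonzero coefficient `n ≥ 1`
  let idx : W → ℕ := fun w =>
    if h : ∃ n, 1 ≤ n ∧ (w : ℕ → ZMod ℓ) n ≠ 0 then Nat.find h else 0
  obtain ⟨B, hB⟩ := (Set.finite_range idx).bddAbove
  refine ⟨B, fun F c hF hc n hn => ?_⟩
  by_contra hcon
  have hcW : red c ∈ W := hmem c ⟨F, hF⟩
  have hex : ∃ n, 1 ≤ n ∧ ((⟨red c, hcW⟩ : W) : ℕ → ZMod ℓ) n ≠ 0 := by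
    refine ⟨n, hn, ?_⟩
    simp only [red]
    rwa [Ne, ZMod.intCast_zmod_eq_zero_iff_dvd]
  have hle : idx ⟨red c, hcW⟩ ≤ B := hB ⟨⟨red c, hcW⟩, rfl⟩
  have hidx : idx ⟨red c, hcW⟩ = Nat.find hex := dif_pos hex
  obtain ⟨h1, h2⟩ := Nat.find_spec hex
  apply h2
  simp only [red]
  rw [ZMod.intCast_zmod_eq_zero_iff_dvd]
  exact hc _ h1 (hidx ▸ hle)

end Bound

section Commutator

/-- Cauchy product of integer sequences. -/
def conv (a b : ℕ → ℤ) (n : ℕ) : ℤ :=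
  ∑ x ∈ Finset.HasAntidiagonal.antidiagonal n, a x.1 * b x.2

/-- The formal Hecke operator `T_m` of weight `κ + 1` on integer sequences. -/
def heckeSeq (κ m : ℕ) (d : ℕ → ℤ) (n : ℕ) : ℤ :=
  d (n * m) + if m ∣ n then (m : ℤ) ^ κ * d (n / m) else 0

theorem heckeSeq_apply (κ m : ℕ) (d : ℕ → ℤ) (n : ℕ) :
    heckeSeq κ m d n = d (n * m) + if m ∣ n then (m : ℤ) ^ κ * d (n / m) else 0 := rfl

/-- The coefficients of the Hecke commutator `T_m^{(κ+3)}(H·D) − H·T_m^{(κ+1)}(D)`. -/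
def commSeq (κ m : ℕ) (a d : ℕ → ℤ) (n : ℕ) : ℤ :=
  heckeSeq (κ + 2) m (conv a d) n - conv a (heckeSeq κ m d) n

theorem conv_dvd_sub {E : ℤ} {a : ℕ → ℤ} (ha : ∀ i, 1 ≤ i → E ∣ a i) (b : ℕ → ℤ) (n : ℕ) :
    E ∣ conv a b n - a 0 * b n := by
  unfold conv
  rw [Finset.Nat.sum_antidiagonal_eq_sum_range_succ (fun i j => a i * b j) n,
    Finset.sum_range_succ']
  simp only [Nat.sub_zero, add_sub_cancel_right]
  exact Finset.dvd_sum fun i _ => Dvd.dvd.mul_right (ha _ (Nat.succ_le_succ (Nat.zero_le i))) _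

theorem commSeq_dvd_sub {E : ℤ} {a : ℕ → ℤ} (ha : ∀ i, 1 ≤ i → E ∣ a i) (κ m : ℕ)
    (d : ℕ → ℤ) (n : ℕ) :
    E ∣ commSeq κ m a d n -
      a 0 * (if m ∣ n then (m : ℤ) ^ κ * ((m : ℤ) ^ 2 - 1) * d (n / m) else 0) := by
  have h1 := conv_dvd_sub ha d (n * m)
  have h2 := conv_dvd_sub ha d (n / m)
  have h3 := conv_dvd_sub ha (heckeSeq κ m d) n
  rw [heckeSeq_apply] at h3
  rw [commSeq, heckeSeq_apply]
  by_cases hmn : m ∣ n
  · rw [if_pos hmn] at h3 ⊢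
    rw [if_pos hmn]
    have := dvd_sub (dvd_add h1 (Dvd.dvd.mul_left h2 ((m : ℤ) ^ (κ + 2)))) h3
    have key : conv a d (n * m) + (m : ℤ) ^ (κ + 2) * conv a d (n / m) - conv a (heckeSeq κ m d) n -
        a 0 * ((m : ℤ) ^ κ * ((m : ℤ) ^ 2 - 1) * d (n / m)) =
      conv a d (n * m) - a 0 * d (n * m) + (m : ℤ) ^ (κ + 2) * (conv a d (n / m) - a 0 * d (n / m)) -
        (conv a (heckeSeq κ m d) n - a 0 * (d (n * m) + (m : ℤ) ^ κ * d (n / m))) := by ring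
    rw [key]
    exact this
  · rw [if_neg hmn] at h3 ⊢
    rw [if_neg hmn]
    have := dvd_sub h1 h3
    have key : conv a d (n * m) + 0 - conv a (heckeSeq κ m d) n - a 0 * 0 =
      conv a d (n * m) - a 0 * d (n * m) - (conv a (heckeSeq κ m d) n - a 0 * (d (n * m) + 0)) := by
      ring
    rw [key]
    exact this

variable {N : ℕ}

theorem qCoeff_mul_int {k₁ k₂ : ℤ} (F : ModularForm (Gamma0 N) k₁) (G : ModularForm (Gamma0 N) k₂)
    (a b : ℕ → ℤ) (hF : ∀ n, qCoeff F n = (a n : ℂ)) (hG : ∀ n, qCoeff G n = (b n : ℂ)) (n : ℕ) :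
    qCoeff (F.mul G) n = (conv a b n : ℂ) := by
  rw [qCoeff_mul, conv]
  push_cast
  exact Finset.sum_congr rfl fun x _ => by rw [hF, hG]

theorem qCoeff_heckeTLin_int {k : ℤ} {m : ℕ} (hm : m.Prime) (hmN : ¬ m ∣ N)
    (F : ModularForm (Gamma0 N) k) (κ : ℕ) (hk : k - 1 = (κ : ℤ)) (c : ℕ → ℤ)
    (hF : ∀ n, qCoeff F n = (c n : ℂ)) (n : ℕ) :
    qCoeff (ModularForm.heckeTLin k hm hmN F) n = (heckeSeq κ m c n : ℂ) := by
  rw [qCoeff_heckeTLin, hk, zpow_natCast, hF, heckeSeq_apply]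
  push_cast
  split_ifs <;> simp [hF]

/-- The Hecke commutator of `H` (weight 2) and `D` (weight `κ + 1`). -/
noncomputable def comm (κ : ℕ) {m : ℕ} (hm : m.Prime) (hmN : ¬ m ∣ N)
    (H : ModularForm (Gamma0 N) 2) (D : ModularForm (Gamma0 N) ((κ : ℤ) + 1)) :
    ModularForm (Gamma0 N) (2 + ((κ : ℤ) + 1)) :=
  ModularForm.heckeTLin (2 + ((κ : ℤ) + 1)) hm hmN (H.mul D) -
    H.mul (ModularForm.heckeTLin ((κ : ℤ) + 1) hm hmN D)

theorem qCoeff_comm (κ : ℕ) {m : ℕ} (hm : m.Prime) (hmN : ¬ m ∣ N)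
    (H : ModularForm (Gamma0 N) 2) (D : ModularForm (Gamma0 N) ((κ : ℤ) + 1))
    (a d : ℕ → ℤ) (hH : ∀ n, qCoeff H n = (a n : ℂ)) (hD : ∀ n, qCoeff D n = (d n : ℂ)) (n : ℕ) :
    qCoeff (comm κ hm hmN H D) n = (commSeq κ m a d n : ℂ) := by
  rw [comm, qCoeff_sub,
    qCoeff_heckeTLin_int hm hmN (H.mul D) (κ + 2) (by push_cast; ring) (conv a d)
      (qCoeff_mul_int H D a d hH hD),
    qCoeff_mul_int H (ModularForm.heckeTLin _ hm hmN D) a (heckeSeq κ m d) hH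
      (qCoeff_heckeTLin_int hm hmN D κ (by ring) d hD),
    commSeq]
  push_cast
  rfl

end Commutator

section Main

variable (N : ℕ) [NeZero N]

/-- **Hecke-commutator lemma.** If `H ∈ M_2(Γ₀(N))` has integer coefficients with `ℓ ∤ a_0` and
`ℓ^t ∣ a_n` for `n ≥ 1`, and `D ∈ M_{κ+1}(Γ₀(N))` has integer coefficients, one of which (of
positive index) is prime to `ℓ`, then `ℓ^t ∣ m² − 1` for every large prime `m`. -/
theorem exists_bound_pow_dvd_sq_sub_one (κ : ℕ)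
    (H : ModularForm (Gamma0 N) 2) (D : ModularForm (Gamma0 N) ((κ : ℤ) + 1))
    (a d : ℕ → ℤ) (hH : ∀ n, qCoeff H n = (a n : ℂ)) (hD : ∀ n, qCoeff D n = (d n : ℂ))
    (ℓ : ℕ) [Fact ℓ.Prime] (t : ℕ) (ha0 : ¬ (ℓ : ℤ) ∣ a 0)
    (ha : ∀ i, 1 ≤ i → (ℓ : ℤ) ^ t ∣ a i) (j : ℕ) (hj : 1 ≤ j) (hdj : ¬ (ℓ : ℤ) ∣ d j) :
    ∃ B : ℕ, ∀ m : ℕ, m.Prime → B < m → ¬ m ∣ N → m ≠ ℓ → ℓ ^ t ∣ m ^ 2 - 1 := by
  obtain ⟨B, hB⟩ := exists_bound N (2 + ((κ : ℤ) + 1)) ℓ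
  refine ⟨B, fun m hm hBm hmN hmℓ => ?_⟩
  have hℓ : ℓ.Prime := Fact.out
  have hℓ0 : (ℓ : ℤ) ≠ 0 := by exact_mod_cast hℓ.ne_zero
  have hm4 : 4 ≤ m ^ 2 := by nlinarith [hm.two_le]
  have hm2 : m ^ 2 - 1 ≠ 0 := by omega
  obtain ⟨s, w, hw, hsw⟩ := Nat.exists_eq_pow_mul_and_not_dvd hm2 ℓ hℓ.ne_one
  by_cases hst : t ≤ s
  · rw [hsw]
    exact Dvd.dvd.mul_right (pow_dvd_pow ℓ hst) w
  · exfalso
    have hst : s < t := Nat.lt_of_not_le hst
    have hswZ : ((m : ℤ) ^ 2 - 1) = (ℓ : ℤ) ^ s * w := by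
      have h1 : 1 ≤ m ^ 2 := by omega
      have h2 : ((m ^ 2 - 1 : ℕ) : ℤ) = (m : ℤ) ^ 2 - 1 := by
        rw [Nat.cast_sub h1]; push_cast; ring
      rw [← h2, hsw]
      push_cast
      ring
    have hcong := fun n => commSeq_dvd_sub ha κ m d n
    have hdiv : ∀ n, (ℓ : ℤ) ^ s ∣ commSeq κ m a d n := by
      intro n
      have h1 : (ℓ : ℤ) ^ s ∣ commSeq κ m a d n -
          a 0 * (if m ∣ n then (m : ℤ) ^ κ * ((m : ℤ) ^ 2 - 1) * d (n / m) else 0) :=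
        dvd_trans (pow_dvd_pow _ hst.le) (hcong n)
      have h2 : (ℓ : ℤ) ^ s ∣
          a 0 * (if m ∣ n then (m : ℤ) ^ κ * ((m : ℤ) ^ 2 - 1) * d (n / m) else 0) := by
        split_ifs
        · rw [hswZ]
          exact ⟨a 0 * (m : ℤ) ^ κ * w * d (n / m), by ring⟩
        · simp
      have := dvd_add h1 h2
      simpa using this
    choose ψ hψ using hdiv
    have hΨ : ∀ n, qCoeff (⇑((((ℓ : ℂ) ^ s)⁻¹) • comm κ hm hmN H D)) n = (ψ n : ℂ) := by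
      intro n
      rw [qCoeff_smul, qCoeff_comm κ hm hmN H D a d hH hD, hψ n]
      have : ((ℓ : ℂ) ^ s) ≠ 0 := pow_ne_zero s (by exact_mod_cast hℓ.ne_zero)
      push_cast
      field_simp
    obtain ⟨e, he⟩ : ∃ e, t = s + 1 + e := ⟨t - s - 1, by omega⟩
    have hsmall : ∀ n, 1 ≤ n → n ≤ B → (ℓ : ℤ) ∣ ψ n := by
      intro n hn1 hnB
      have hmn : ¬ m ∣ n := fun h => by
        have := Nat.le_of_dvd (by omega) h
        omega
      have h := hcong n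
      rw [if_neg hmn, mul_zero, sub_zero, hψ n, he, pow_add, pow_add, pow_one, mul_assoc] at h
      have h' := (mul_dvd_mul_iff_left (pow_ne_zero s hℓ0)).mp h
      exact dvd_trans (dvd_mul_right _ _) h'
    have hall := hB _ ψ hΨ hsmall
    have hjm : (ℓ : ℤ) ∣ ψ (j * m) := hall (j * m) (Nat.mul_pos hj hm.pos)
    have h := hcong (j * m)
    rw [if_pos (dvd_mul_left m j), Nat.mul_div_cancel _ hm.pos, hψ (j * m), hswZ] at h
    have h2 : (ℓ : ℤ) ^ s * ℓ ∣ (ℓ : ℤ) ^ s * (ψ (j * m) - a 0 * (m : ℤ) ^ κ * w * d j) := by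
      have h3 : (ℓ : ℤ) ^ s * ℓ ∣ (ℓ : ℤ) ^ t := ⟨(ℓ : ℤ) ^ e, by rw [he]; ring⟩
      have h4 := dvd_trans h3 h
      have key : (ℓ : ℤ) ^ s * (ψ (j * m) - a 0 * (m : ℤ) ^ κ * w * d j) =
          (ℓ : ℤ) ^ s * ψ (j * m) - a 0 * ((m : ℤ) ^ κ * ((ℓ : ℤ) ^ s * w) * d j) := by ring
      rw [key]
      exact h4
    have h4 := (mul_dvd_mul_iff_left (pow_ne_zero s hℓ0)).mp h2
    have h5 : (ℓ : ℤ) ∣ a 0 * (m : ℤ) ^ κ * w * d j := by
      have := dvd_sub hjm h4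
      simpa using this
    have hp : Prime (ℓ : ℤ) := Nat.prime_iff_prime_int.mp hℓ
    rcases hp.dvd_or_dvd h5 with h6 | h6
    · rcases hp.dvd_or_dvd h6 with h7 | h7
      · rcases hp.dvd_or_dvd h7 with h8 | h8
        · exact ha0 h8
        · have h9 := hp.dvd_of_dvd_pow h8
          have h10 : ℓ ∣ m := Int.natCast_dvd_natCast.mp h9
          exact hmℓ ((Nat.prime_dvd_prime_iff_eq hℓ hm).mp h10).symm
      · exact hw (Int.natCast_dvd_natCast.mp h7)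
    · exact hdj h6

/-- **Hecke-commutator bound, prime-power form, with an arbitrary seed `D`.** -/
theorem pow_dvd_24 (κ : ℕ)
    (H : ModularForm (Gamma0 N) 2) (D : ModularForm (Gamma0 N) ((κ : ℤ) + 1))
    (a d : ℕ → ℤ) (hH : ∀ n, qCoeff H n = (a n : ℂ)) (hD : ∀ n, qCoeff D n = (d n : ℂ))
    (ℓ : ℕ) [Fact ℓ.Prime] (t : ℕ) (ha0 : ¬ (ℓ : ℤ) ∣ a 0)
    (ha : ∀ i, 1 ≤ i → (ℓ : ℤ) ^ t ∣ a i) (j : ℕ) (hj : 1 ≤ j) (hdj : ¬ (ℓ : ℤ) ∣ d j) :
    ℓ ^ t ∣ 24 := by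
  obtain ⟨B, hB⟩ := exists_bound_pow_dvd_sq_sub_one N κ H D a d hH hD ℓ t ha0 ha j hj hdj
  have hℓ : ℓ.Prime := Fact.out
  have hN : 0 < N := Nat.pos_of_ne_zero (NeZero.ne N)
  -- a residue `r` prime to `ℓ` with `ℓ^t ∣ r² − 1 → ℓ^t ∣ 24`
  have key : ∀ r : ℕ, r.Coprime ℓ → ((ℓ : ℤ) ^ t ∣ (r : ℤ) ^ 2 - 1 → (ℓ : ℤ) ^ t ∣ 24) →
      ℓ ^ t ∣ 24 := by
    intro r hr himp
    obtain ⟨m, hmgt, hm, hmod⟩ := Nat.forall_exists_prime_gt_and_modEq (max B (max N ℓ))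
      (q := ℓ ^ t) (a := r) (pow_ne_zero _ hℓ.ne_zero) (Nat.Coprime.pow_right _ hr)
    have hmB : B < m := lt_of_le_of_lt (le_max_left _ _) hmgt
    have hmN' : N < m := lt_of_le_of_lt (le_trans (le_max_left _ _) (le_max_right _ _)) hmgt
    have hmℓ' : ℓ < m := lt_of_le_of_lt (le_trans (le_max_right _ _) (le_max_right _ _)) hmgt
    have hmN : ¬ m ∣ N := fun h => absurd (Nat.le_of_dvd hN h) (by omega)
    have h1 := hB m hm hmB hmN (by omega)
    have hm1 : 1 ≤ m ^ 2 := Nat.one_le_pow _ _ hm.pos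
    have h2 : ((ℓ : ℤ) ^ t) ∣ (m : ℤ) ^ 2 - 1 := by
      have := Int.natCast_dvd_natCast.mpr h1
      rw [Nat.cast_sub hm1] at this
      simpa using this
    have h3 : ((ℓ : ℤ) ^ t) ∣ (m : ℤ) - r := by
      have := (Nat.modEq_iff_dvd.mp hmod.symm)
      simpa using this
    have h4 : ((ℓ : ℤ) ^ t) ∣ (r : ℤ) ^ 2 - 1 := by
      have h5 : ((ℓ : ℤ) ^ t) ∣ ((m : ℤ) - r) * ((m : ℤ) + r) := Dvd.dvd.mul_right h3 _
      have h6 := dvd_sub h2 h5
      have key : (m : ℤ) ^ 2 - 1 - ((m : ℤ) - r) * ((m : ℤ) + r) = (r : ℤ) ^ 2 - 1 := by ring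
      rw [key] at h6
      exact h6
    have h7 := himp h4
    exact_mod_cast h7
  by_cases h5 : ℓ = 5
  · subst h5
    refine key 7 (by norm_num) fun h => ?_
    -- `5^t ∣ 48` forces `t = 0`
    rcases Nat.eq_zero_or_pos t with rfl | ht
    · simp
    · exfalso
      have : (5 : ℤ) ∣ (7 : ℤ) ^ 2 - 1 := dvd_trans (dvd_pow_self _ ht.ne') (by exact_mod_cast h)
      norm_num at this
  · refine key 5 ((Nat.coprime_primes (by norm_num) hℓ).mpr (Ne.symm h5)) fun h => ?_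
    norm_num at h
    exact h

end Main

section Surface

variable (N : ℕ) [NeZero N]

/-- **Hecke-commutator bound with a seed.** `G ∈ M_2(Γ₀(N))` with `a_0(G) = c ∈ ℤ` and
`a_n(G) ∈ Mℤ` for `n ≥ 1` forces `M ∣ 24c`, provided there is a "seed" `D ∈ M_k(Γ₀(N))`, `k ≥ 1`,
with integer coefficients such that for every prime `ℓ ∣ M` some coefficient `d_j`, `j ≥ 1`, is
prime to `ℓ`. -/
theorem dvd_of_congruent_const_of_seed (G : ModularForm (Gamma0 N) 2) (c : ℤ) (M : ℕ)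
    (h0 : qCoeff G 0 = (c : ℂ)) (hG : ∀ n, 1 ≤ n → ∃ z : ℤ, qCoeff G n = (M : ℂ) * (z : ℂ))
    {k : ℤ} (hk : 1 ≤ k) (D : ModularForm (Gamma0 N) k) (d : ℕ → ℤ)
    (hD : ∀ n, qCoeff D n = (d n : ℂ))
    (hd : ∀ ℓ : ℕ, ℓ.Prime → ℓ ∣ M → ∃ j, 1 ≤ j ∧ ¬ (ℓ : ℤ) ∣ d j) :
    (M : ℤ) ∣ 24 * c := by
  obtain ⟨κ, rfl⟩ : ∃ κ : ℕ, k = (κ : ℤ) + 1 := ⟨(k - 1).toNat, by omega⟩
  rw [Int.natCast_dvd, Nat.dvd_iff_prime_pow_dvd_dvd]
  intro ℓ e hℓ hM
  rcases eq_or_ne c 0 with rfl | hc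
  · simp
  obtain ⟨γ, w, hw, hcw⟩ := Nat.exists_eq_pow_mul_and_not_dvd (n := c.natAbs)
    (by simpa using hc) ℓ hℓ.ne_one
  have h24 : (24 * c).natAbs = 24 * c.natAbs := by rw [Int.natAbs_mul]; rfl
  rw [h24]
  by_cases hle : e ≤ γ
  · exact Dvd.dvd.mul_left (hcw ▸ Dvd.dvd.mul_right (pow_dvd_pow ℓ hle) w) _
  have hlt : γ < e := Nat.lt_of_not_le hle
  have : Fact ℓ.Prime := ⟨hℓ⟩
  have hℓC : ((ℓ : ℂ) ^ γ) ≠ 0 := pow_ne_zero γ (by exact_mod_cast hℓ.ne_zero)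
  -- `c = ℓ^γ * u` with `ℓ ∤ u`
  have hcu : c = (ℓ : ℤ) ^ γ * (c.sign * w) := by
    have h1 := (Int.sign_mul_natAbs c).symm
    rw [hcw] at h1
    push_cast at h1
    linear_combination h1
  have hu : ¬ (ℓ : ℤ) ∣ c.sign * w := by
    rw [Int.natCast_dvd, Int.natAbs_mul, Int.natAbs_sign_of_ne_zero hc, one_mul, Int.natAbs_natCast]
    exact hw
  obtain ⟨M', hM'⟩ := hM
  choose! z hz using hG
  obtain ⟨e', he'⟩ : ∃ e', e = γ + e' := ⟨e - γ, by omega⟩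
  obtain ⟨j, hj, hdj⟩ := hd ℓ hℓ (dvd_trans (dvd_pow_self ℓ (by omega)) ⟨M', hM'⟩)
  have key := pow_dvd_24 N κ (((ℓ : ℂ) ^ γ)⁻¹ • G) D
    (fun n => if n = 0 then c.sign * w else (ℓ : ℤ) ^ e' * (M' * z n)) d
    (fun n => by
      rw [qCoeff_smul]
      by_cases hn : n = 0
      · subst hn
        rw [if_pos rfl, h0]
        conv_lhs => rw [hcu]
        push_cast
        field_simp
      · rw [if_neg hn, hz n (Nat.pos_of_ne_zero hn), hM', he']
        push_cast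
        field_simp
        ring)
    hD ℓ e' (by simpa using hu)
    (fun i hi => by
      rw [if_neg (by omega)]
      exact Dvd.intro _ rfl) j hj hdj
  rw [he', pow_add, hcw, mul_comm 24]
  exact mul_dvd_mul (Dvd.intro _ rfl) key

end Surface

end Fermat.Agent.S16.helper7577
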