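/-
helper7577 — S16 leaf "HC", seedless surface: the Hecke-commutator bound with the seed
`Δ` (restricted to `Γ₀(N)`, integer `q`-expansion from `Lib/helper386_QExpBridge`).
-/
import Fermat.Agent.S16.helper7577_Commutator
import Fermat.Agent.Lib.helper386_QExpBridge

set_option autoImplicit false

namespace Fermat.Agent.S16.helper7577

open ModularFormClass CongruenceSubgroup UpperHalfPlane
open scoped MatrixGroups ModularForm Manifold

/-- Restriction of a level-one modular form to `Γ₀(N)`. -/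
noncomputable def restrictGamma0 (N : ℕ) [NeZero N] {k : ℤ} (f : ModularForm 𝒮ℒ k) :
    ModularForm (Gamma0 N) k where
  toFun := f
  slash_action_eq' A hA := by
    obtain ⟨A', -, rfl⟩ := hA
    exact SlashInvariantFormClass.slash_action_eq f _ ⟨A', rfl⟩
  holo' := ModularFormClass.holo f
  bdd_at_cusps' {c} hc := by
    rw [Subgroup.IsArithmetic.isCusp_iff_isCusp_SL2Z] at hc
    rw [OnePoint.isBoundedAt_iff_forall_SL2Z hc]
    intro γ _
    have h : (⇑f) ∣[k] (γ : GL (Fin 2) ℝ) = ⇑f :=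
      SlashInvariantFormClass.slash_action_eq f _ ⟨γ, rfl⟩
    rw [ModularForm.SL_slash, h]
    exact ModularFormClass.bdd_at_infty f

@[simp] theorem coe_restrictGamma0 (N : ℕ) [NeZero N] {k : ℤ} (f : ModularForm 𝒮ℒ k) :
    (⇑(restrictGamma0 N f) : ℍ → ℂ) = ⇑f := rfl

/-- `Δ` as a modular form on `Γ₀(N)`. -/
noncomputable def deltaGamma0 (N : ℕ) [NeZero N] : ModularForm (Gamma0 N) 12 :=
  restrictGamma0 N (ModularFormClass.modularForm CuspForm.discriminant)

theorem qCoeff_deltaGamma0 (N : ℕ) [NeZero N] (n : ℕ) :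
    qCoeff (deltaGamma0 N) n =
      ((PowerSeries.coeff n Fermat.Agent.Lib.helper386.deltaSeries : ℤ) : ℂ) :=
  Fermat.Agent.Lib.helper386.qExpansion_discriminant_coeff n

/-- **Hecke-commutator bound (seedless form), any level.** If `G ∈ M_2(Γ₀(N))` has
`a_0(G) = c ∈ ℤ` and `a_n(G) ∈ Mℤ` for all `n ≥ 1`, then `M ∣ 24c`. -/
theorem dvd_of_congruent_const_level (N : ℕ) [NeZero N] (G : ModularForm (Gamma0 N) 2) (c : ℤ)
    (M : ℕ) (h0 : qCoeff G 0 = (c : ℂ))
    (hk : ∀ k, 1 ≤ k → ∃ z : ℤ, qCoeff G k = (M : ℂ) * (z : ℂ)) : (M : ℤ) ∣ 24 * c :=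
  dvd_of_congruent_const_of_seed N G c M h0 hk (k := 12) (by norm_num) (deltaGamma0 N) _
    (qCoeff_deltaGamma0 N) fun ℓ hℓ _ => ⟨1, le_refl 1, by
      rw [Fermat.Agent.Lib.helper386.coeff_one_deltaSeries]
      exact fun h => hℓ.ne_one (by exact_mod_cast Int.eq_one_of_dvd_one (by positivity) h)⟩

/-- **Hecke-commutator bound (seedless form), prime level.** -/
theorem dvd_of_congruent_const (p : ℕ) [Fact p.Prime] (G : ModularForm (Gamma0 p) 2) (c : ℤ)
    (M : ℕ) (h0 : qCoeff G 0 = (c : ℂ))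
    (hk : ∀ k, 1 ≤ k → ∃ z : ℤ, qCoeff G k = (M : ℂ) * (z : ℂ)) : (M : ℤ) ∣ 24 * c :=
  haveI : NeZero p := ⟨(Fact.out : p.Prime).ne_zero⟩
  dvd_of_congruent_const_level p G c M h0 hk

end Fermat.Agent.S16.helper7577
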