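/-
S16 (Mazur, index of the Eisenstein ideal) -- leaf S16-RED (board #551), helper7583.

Pure-algebra reduction of the frozen statement
  `Nat.card (heckeLatticeAlgebra p ∅ ⧸ Ideal.map φ (eisensteinIdeal p)) = eisensteinNumerator p`
to two statements about the kernel of `φ : ℤ[X_ℓ] → heckeLatticeAlgebra p ∅`:
  (LB) every `t` acting as zero on the cusp forms has `m ∣ eis t`,
  (UB) some `t` acting as zero on the cusp forms has `eis t = m`.
-/
import Fermat.Prelude.Def_CuspForm_HeckeLocal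
import Fermat.Prelude.Def_CuspForm_HeckeEvalForms
import Fermat.Prelude.Def_HeckeGalois_EichlerShimura
import Fermat.Prelude.Def_ModularCurve_ModularUnit

set_option autoImplicit false

open ModularCurve CuspForm

namespace Fermat.Agent.S16.helper7583

/-- Generic algebra: if `φ : R → A` is a surjective ring hom and `e : R → ℤ` a ring hom such that
`e (ker φ) = m ℤ`, then `A ⧸ φ(ker e)` has `m` elements (`Nat.card`, so `0` when `m = 0`). -/
theorem natCard_quot_map_ker {R A : Type*} [CommRing R] [CommRing A] (φ : R →+* A)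
    (hφ : Function.Surjective φ) (e : R →+* ℤ) (m : ℕ)
    (hLB : ∀ t : R, φ t = 0 → (m : ℤ) ∣ e t)
    (hUB : ∃ t : R, φ t = 0 ∧ e t = (m : ℤ)) :
    Nat.card (A ⧸ Ideal.map φ (RingHom.ker e)) = m := by
  classical
  -- the ring hom `R → ℤ ⧸ (m)`
  let g0 : R →+* ℤ ⧸ Ideal.span {(m : ℤ)} := (Ideal.Quotient.mk _).comp e
  have hker : RingHom.ker φ ≤ RingHom.ker g0 := by
    intro t ht
    rw [RingHom.mem_ker] at ht ⊢
    change (Ideal.Quotient.mk _) (e t) = 0
    rw [Ideal.Quotient.eq_zero_iff_mem, Ideal.mem_span_singleton]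
    exact hLB t ht
  let g : A →+* ℤ ⧸ Ideal.span {(m : ℤ)} := φ.liftOfSurjective hφ ⟨g0, hker⟩
  have hg : ∀ r : R, g (φ r) = (Ideal.Quotient.mk _) (e r) := fun r =>
    RingHom.liftOfSurjective_comp_apply φ hφ ⟨g0, hker⟩ r
  have he : ∀ a : ℤ, e (a : R) = a := fun a => by simp
  have hgsurj : Function.Surjective g := by
    intro y
    obtain ⟨a, rfl⟩ := Ideal.Quotient.mk_surjective y
    exact ⟨φ (a : R), by rw [hg, he]⟩
  have hkerg : RingHom.ker g = Ideal.map φ (RingHom.ker e) := by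
    apply le_antisymm
    · intro a ha
      obtain ⟨r, rfl⟩ := hφ a
      rw [RingHom.mem_ker, hg, Ideal.Quotient.eq_zero_iff_mem, Ideal.mem_span_singleton] at ha
      obtain ⟨c, hc⟩ := ha
      obtain ⟨t0, ht0, het0⟩ := hUB
      have h1 : r - (c : R) * t0 ∈ RingHom.ker e := by
        rw [RingHom.mem_ker, map_sub, map_mul, he, het0, hc]; ring
      have h2 : φ (r - (c : R) * t0) = φ r := by
        rw [map_sub, map_mul, ht0, mul_zero, sub_zero]
      rw [← h2]
      exact Ideal.mem_map_of_mem φ h1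
    · rw [Ideal.map_le_iff_le_comap]
      intro r hr
      rw [RingHom.mem_ker] at hr
      rw [Ideal.mem_comap, RingHom.mem_ker, hg, hr, map_zero]
  have e1 : (A ⧸ Ideal.map φ (RingHom.ker e)) ≃+* (A ⧸ RingHom.ker g) :=
    Ideal.quotEquivOfEq hkerg.symm
  have e2 : (A ⧸ RingHom.ker g) ≃+* (ℤ ⧸ Ideal.span {(m : ℤ)}) :=
    RingHom.quotientKerEquivOfSurjective hgsurj
  have e3 : (ℤ ⧸ Ideal.span {(m : ℤ)}) ≃+* ZMod m := Int.quotientSpanNatEquivZMod m
  rw [Nat.card_congr ((e1.trans e2).trans e3).toEquiv, Nat.card_zmod]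

/-- `heckeEvalForms N k : ℤ[X_ℓ] → heckeAlgebra N k ∅` is surjective. -/
theorem heckeEvalForms_surjective (N : ℕ) [NeZero N] (k : ℤ) :
    Function.Surjective (heckeEvalForms N k) := by
  classical
  let ψ : HeckeAlg →ₐ[ℤ] Module.End ℂ (CuspForm (CongruenceSubgroup.Gamma0 N) k) :=
    (heckeAlgebra N k ∅).val.comp (MvPolynomial.aeval (heckeFormsGen N k))
  have hle : heckeAlgebra N k ∅ ≤ ψ.range := by
    refine Algebra.adjoin_le ?_
    rintro T (⟨ℓ, hℓ, hℓN, -, rfl⟩ | ⟨q, hqN, hq, -, rfl⟩)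
    · refine ⟨heckeGen ⟨ℓ, hℓ⟩, ?_⟩
      change ((MvPolynomial.aeval (heckeFormsGen N k) (heckeGen ⟨ℓ, hℓ⟩) : heckeAlgebra N k ∅) :
        Module.End ℂ (CuspForm (CongruenceSubgroup.Gamma0 N) k)) = _
      rw [aeval_heckeGen, heckeFormsGen_of_not_dvd (ℓ := ⟨ℓ, hℓ⟩) hℓN]
      rfl
    · refine ⟨heckeGen ⟨q, hq⟩, ?_⟩
      change ((MvPolynomial.aeval (heckeFormsGen N k) (heckeGen ⟨q, hq⟩) : heckeAlgebra N k ∅) :
        Module.End ℂ (CuspForm (CongruenceSubgroup.Gamma0 N) k)) = _
      rw [aeval_heckeGen, heckeFormsGen_of_dvd (q := ⟨q, hq⟩) hqN]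
      rfl
  intro t
  obtain ⟨x, hx⟩ := hle t.2
  exact ⟨x, Subtype.ext hx⟩

/-- The composite `φ : ℤ[X_ℓ] → heckeLatticeAlgebra N ∅` of the frozen statement. -/
noncomputable abbrev evalLattice (N : ℕ) [NeZero N] : HeckeAlg →+* ↥(heckeLatticeAlgebra N ∅) :=
  (latticeRestrictHom N ∅).toRingHom.comp (heckeEvalForms N 2)

theorem evalLattice_surjective (N : ℕ) [NeZero N] : Function.Surjective (evalLattice N) :=
  (latticeRestrictHom_surjective N ∅).comp (heckeEvalForms_surjective N 2)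

/-- `φ t = 0` iff `t` (as an operator on cusp forms) kills the integral lattice. -/
theorem evalLattice_eq_zero_iff (N : ℕ) [NeZero N] (t : HeckeAlg) :
    evalLattice N t = 0 ↔
      ∀ f ∈ intLattice N 2,
        ((heckeEvalForms N 2 t : heckeAlgebra N 2 ∅) :
          Module.End ℂ (CuspForm (CongruenceSubgroup.Gamma0 N) 2)) f = 0 := by
  constructor
  · intro h f hf
    have h1 : latticeRestrict N ∅ (heckeEvalForms N 2 t).2 = 0 := congrArg Subtype.val h
    exact congrArg Subtype.val (LinearMap.congr_fun h1 ⟨f, hf⟩)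
  · intro h
    apply Subtype.ext
    refine LinearMap.ext fun f => Subtype.ext ?_
    exact h f.1 f.2

/-- With an integral structure (S23), `φ t = 0` iff `t` kills every cusp form. -/
theorem evalLattice_eq_zero_iff_forall (N : ℕ) [NeZero N] (hint : HasIntegralStructure N 2)
    (t : HeckeAlg) :
    evalLattice N t = 0 ↔
      ∀ f : CuspForm (CongruenceSubgroup.Gamma0 N) 2,
        ((heckeEvalForms N 2 t : heckeAlgebra N 2 ∅) :
          Module.End ℂ (CuspForm (CongruenceSubgroup.Gamma0 N) 2)) f = 0 := by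
  rw [evalLattice_eq_zero_iff]
  constructor
  · intro h f
    have h0 : ((heckeEvalForms N 2 t : heckeAlgebra N 2 ∅) :
        Module.End ℂ (CuspForm (CongruenceSubgroup.Gamma0 N) 2)) = 0 :=
      LinearMap.ext_on hint fun g hg => by simpa using h g hg
    rw [h0]; rfl
  · intro h f _
    exact h f

/-- **S16-RED** (lattice form).  The frozen cardinality is `m` as soon as
(LB) every `t ∈ ℤ[X_ℓ]` killing the integral lattice has `m ∣ eis t`, and
(UB) some `t` killing the integral lattice has `eis t = m`. -/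
theorem natCard_quotient_eq_of_kernel (N : ℕ) [NeZero N] (m : ℕ)
    (hLB : ∀ t : HeckeAlg,
      (∀ f ∈ intLattice N 2,
        ((heckeEvalForms N 2 t : heckeAlgebra N 2 ∅) :
          Module.End ℂ (CuspForm (CongruenceSubgroup.Gamma0 N) 2)) f = 0) →
      (m : ℤ) ∣ MvPolynomial.aeval (eisensteinSystem N) t)
    (hUB : ∃ t : HeckeAlg,
      (∀ f ∈ intLattice N 2,
        ((heckeEvalForms N 2 t : heckeAlgebra N 2 ∅) :
          Module.End ℂ (CuspForm (CongruenceSubgroup.Gamma0 N) 2)) f = 0) ∧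
      MvPolynomial.aeval (eisensteinSystem N) t = (m : ℤ)) :
    Nat.card (↥(heckeLatticeAlgebra N ∅) ⧸
        Ideal.map ((latticeRestrictHom N ∅).toRingHom.comp (heckeEvalForms N 2))
          (eisensteinIdeal N)) = m := by
  have key := natCard_quot_map_ker (evalLattice N) (evalLattice_surjective N)
    (MvPolynomial.aeval (R := ℤ) (eisensteinSystem N)).toRingHom m
    (fun t ht => hLB t ((evalLattice_eq_zero_iff N t).mp ht))
    (by
      obtain ⟨t, ht, het⟩ := hUB
      exact ⟨t, (evalLattice_eq_zero_iff N t).mpr ht, het⟩)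
  exact key

/-- **S16-RED** (all cusp forms, given S23).  The frozen cardinality is `m` as soon as
(LB) every `t ∈ ℤ[X_ℓ]` acting as `0` on `S_2(Γ₀(N))` has `m ∣ eis t`, and
(UB) some `t` acting as `0` on `S_2(Γ₀(N))` has `eis t = m`. -/
theorem natCard_quotient_eq_of_kernel' (N : ℕ) [NeZero N] (hint : HasIntegralStructure N 2)
    (m : ℕ)
    (hLB : ∀ t : HeckeAlg,
      (∀ f : CuspForm (CongruenceSubgroup.Gamma0 N) 2,
        ((heckeEvalForms N 2 t : heckeAlgebra N 2 ∅) :
          Module.End ℂ (CuspForm (CongruenceSubgroup.Gamma0 N) 2)) f = 0) →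
      (m : ℤ) ∣ MvPolynomial.aeval (eisensteinSystem N) t)
    (hUB : ∃ t : HeckeAlg,
      (∀ f : CuspForm (CongruenceSubgroup.Gamma0 N) 2,
        ((heckeEvalForms N 2 t : heckeAlgebra N 2 ∅) :
          Module.End ℂ (CuspForm (CongruenceSubgroup.Gamma0 N) 2)) f = 0) ∧
      MvPolynomial.aeval (eisensteinSystem N) t = (m : ℤ)) :
    Nat.card (↥(heckeLatticeAlgebra N ∅) ⧸
        Ideal.map ((latticeRestrictHom N ∅).toRingHom.comp (heckeEvalForms N 2))
          (eisensteinIdeal N)) = m := by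
  refine natCard_quotient_eq_of_kernel N m (fun t ht => hLB t ?_) ?_
  · exact (evalLattice_eq_zero_iff_forall N hint t).mp ((evalLattice_eq_zero_iff N t).mpr ht)
  · obtain ⟨t, ht, het⟩ := hUB
    exact ⟨t, fun f _ => ht f, het⟩

end Fermat.Agent.S16.helper7583
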