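/-
helper7756 — S16 leaf T8, adapter: proof of `helper3076.Stmt_Norm8`.

For `G ∈ M₂(Γ₀(p))` the form `X = 27 G⁴ - 18 E₄ G² - 8 E₆ G - E₄² ∈ M₈(Γ₀(p))` has a norm
`N = ModularForm.norm 𝒮ℒ X ∈ M_{8(p+1)}(SL₂(ℤ))` whose `q`-expansion, in the variable
`t = q^(1/p)`, is the product of the quartic over the `p + 1` conjugate series
`A(t^p)`, `-(1/p) (U_p A)(ζ^j t)` of `G`.  This is the only analytic input of
`helper3076.no_form_one_mod_eight`, so T8 becomes unconditional.

Built on the two-cusp dictionary of `helper407_Conj` (`HasTExp` calculus, conjugates, coset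
enumeration, `qExpansion_fricke_two`).
-/
import Mathlib
import Fermat.Agent.S16.helper407_Conj
import Fermat.Agent.S16.helper3076_TwoAdicNorm

set_option autoImplicit false

open UpperHalfPlane ModularForm ModularFormClass EisensteinSeries CongruenceSubgroup
open scoped MatrixGroups ModularForm Manifold

namespace Fermat.Agent.S16.helper7756

open Fermat.Agent.S16.helper407

noncomputable section

/-- Restriction of a level-one modular form to `Γ₀(p)`. -/
def restrictG0 (p : ℕ) [NeZero p] {k : ℤ} (f : ModularForm 𝒮ℒ k) : ModularForm (G0 p) k where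
  toFun := f
  slash_action_eq' A hA := by
    obtain ⟨A', -, rfl⟩ := hA
    exact SlashInvariantFormClass.slash_action_eq f _ ⟨A', rfl⟩
  holo' := ModularFormClass.holo f
  bdd_at_cusps' {c} hc := by
    rw [Subgroup.IsArithmetic.isCusp_iff_isCusp_SL2Z] at hc
    rw [OnePoint.isBoundedAt_iff_forall_SL2Z hc]
    intro γ _
    have h : (⇑f) ∣[k] (γ : GL (Fin 2) ℝ) = ⇑f :=
      SlashInvariantFormClass.slash_action_eq f _ ⟨γ, rfl⟩
    rw [ModularForm.SL_slash, h]
    exact ModularFormClass.bdd_at_infty f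

@[simp] theorem coe_restrictG0 (p : ℕ) [NeZero p] {k : ℤ} (f : ModularForm 𝒮ℒ k) :
    (⇑(restrictG0 p f) : ℍ → ℂ) = ⇑f := rfl

/-! ### Conjugates of algebraic combinations -/

theorem conj_mul {p : ℕ} {k₁ k₂ : ℤ} (f : ModularForm (G0 p) k₁) (g : ModularForm (G0 p) k₂)
    (x : Option (Fin p)) : conj (f.mul g) x = conj f x * conj g x := by
  simp only [conj, ModularForm.coe_mul]
  exact ModularForm.mul_slash_SL2 k₁ k₂ (rep p x) f g

theorem conj_smul {p : ℕ} {k : ℤ} (c : ℂ) (f : ModularForm (G0 p) k) (x : Option (Fin p)) :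
    conj (c • f) x = c • conj f x := by
  simp only [conj, FunLike.coe_smul]
  exact ModularForm.SL_smul_slash k (rep p x) f c

theorem conj_sub {p : ℕ} {k : ℤ} (f g : ModularForm (G0 p) k) (x : Option (Fin p)) :
    conj (f - g) x = conj f x - conj g x := by
  simp only [conj, FunLike.coe_sub]
  rw [sub_eq_add_neg, SlashAction.add_slash, SlashAction.neg_slash, ← sub_eq_add_neg]

theorem conj_mcast {p : ℕ} {a b : ℤ} (h : a = b) (f : ModularForm (G0 p) a)
    (x : Option (Fin p)) : conj (ModularForm.mcast h f) x = conj f x := by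
  subst h
  rfl

theorem conj_restrictG0 {p : ℕ} [NeZero p] {k : ℤ} (f : ModularForm 𝒮ℒ k) (x : Option (Fin p)) :
    conj (restrictG0 p f) x = ⇑f := by
  simp only [conj, coe_restrictG0]
  exact SlashInvariantFormClass.slash_action_eq f _ ⟨rep p x, rfl⟩

/-! ### The weight-8 form and its conjugates -/

/-- `27 G⁴ - 18 E₄ G² - 8 E₆ G - E₄²` as a modular form of weight `8` on `Γ₀(p)`. -/
def quarticForm (p : ℕ) [NeZero p] (G : ModularForm (G0 p) 2) : ModularForm (G0 p) 8 :=
  (27 : ℂ) • ModularForm.mcast (by norm_num) ((G.mul G).mul (G.mul G))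
    - (18 : ℂ) • ModularForm.mcast (by norm_num) ((restrictG0 p E₄).mul (G.mul G))
    - (8 : ℂ) • ModularForm.mcast (by norm_num) ((restrictG0 p E₆).mul G)
    - ModularForm.mcast (by norm_num) ((restrictG0 p E₄).mul (restrictG0 p E₄))

theorem conj_quarticForm (p : ℕ) [NeZero p] (G : ModularForm (G0 p) 2) (x : Option (Fin p)) :
    conj (quarticForm p G) x =
      (27 : ℂ) • ((conj G x * conj G x) * (conj G x * conj G x))
        - (18 : ℂ) • (⇑E₄ * (conj G x * conj G x))
        - (8 : ℂ) • (⇑E₆ * conj G x)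
        - ⇑E₄ * ⇑E₄ := by
  simp only [quarticForm, conj_sub, conj_smul, conj_mcast, conj_mul, conj_restrictG0]

theorem hasTExp_conj_quarticForm (p : ℕ) [NeZero p] (G : ModularForm (G0 p) 2)
    (x : Option (Fin p)) :
    HasTExp p (conj (quarticForm p G) x)
      (helper3076.Bpoly (PowerSeries.expand p (NeZero.ne p) (qExpansion 1 E₄))
        (PowerSeries.expand p (NeZero.ne p) (qExpansion 1 E₆))
        (cs p 2 (qExpansion 1 G) (qExpansion 1 (fricke G)) x)) := by
  have hc := hasTExp_conj G x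
  have h4 : HasTExp p ⇑E₄ (PowerSeries.expand p (NeZero.ne p) (qExpansion 1 E₄)) :=
    (hasTExp_one_levelOne E₄).expand
  have h6 : HasTExp p ⇑E₆ (PowerSeries.expand p (NeZero.ne p) (qExpansion 1 E₆)) :=
    (hasTExp_one_levelOne E₆).expand
  rw [conj_quarticForm]
  have key := (((((hc.mul hc).mul (hc.mul hc)).smul 27).sub ((h4.mul (hc.mul hc)).smul 18)).sub
    ((h6.mul hc).smul 8)).sub (h4.mul h4)
  convert key using 1
  simp only [helper3076.Bpoly, PowerSeries.smul_eq_C_mul, map_ofNat]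
  ring

/-! ### The norm -/

theorem card_coset (p : ℕ) [Fact p.Prime] :
    Nat.card (𝒮ℒ ⧸ (G0 p).subgroupOf 𝒮ℒ) = p + 1 := by
  rw [Nat.card_congr (cosetEquiv p).symm, Nat.card_eq_fintype_card, Fintype.card_option,
    Fintype.card_fin]

theorem coe_norm_eq_prod_conj (p : ℕ) [Fact p.Prime] {k : ℤ} (F : ModularForm (G0 p) k) :
    ⇑(ModularForm.norm 𝒮ℒ F) = ∏ x : Option (Fin p), conj F x := by
  rw [ModularForm.coe_norm]
  let := Fintype.ofFinite (𝒮ℒ ⧸ (G0 p).subgroupOf 𝒮ℒ)
  rw [← Equiv.prod_comp (cosetEquiv p)]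
  refine Finset.prod_congr rfl fun x _ => ?_
  exact quotientFunc_cosetEquiv F x

/-- **The norm product formula for the quartic** (`= helper3076.Stmt_Norm8`). -/
theorem stmt_Norm8 (p : ℕ) [Fact p.Prime] (hp : p ≠ 0) : helper3076.Stmt_Norm8 p hp := by
  have : NeZero p := ⟨hp⟩
  intro G
  have hpc : (p : ℂ) ≠ 0 := Nat.cast_ne_zero.mpr hp
  set X : ModularForm (G0 p) 8 := quarticForm p G with hX
  refine ⟨_, ModularForm.norm 𝒮ℒ X, zeta p, ?_, zeta_pow_self p, ?_⟩
  · rw [card_coset p]; push_cast; ring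
  · have h1 : HasTExp p ⇑(ModularForm.norm 𝒮ℒ X)
        (PowerSeries.expand p hp (qExpansion 1 (ModularForm.norm 𝒮ℒ X))) :=
      (hasTExp_one_levelOne (ModularForm.norm 𝒮ℒ X)).expand
    have h2 : HasTExp p ⇑(ModularForm.norm 𝒮ℒ X)
        (∏ x : Option (Fin p),
          helper3076.Bpoly (PowerSeries.expand p hp (qExpansion 1 E₄))
            (PowerSeries.expand p hp (qExpansion 1 E₆))
            (cs p 2 (qExpansion 1 G) (qExpansion 1 (fricke G)) x)) := by
      rw [coe_norm_eq_prod_conj]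
      exact hasTExp_finset_prod _ _ _ fun x _ => hasTExp_conj_quarticForm p G x
    rw [h1.unique h2, Fintype.prod_option]
    congr 1
    rw [← Fin.prod_univ_eq_prod_range (fun j : ℕ =>
      helper3076.Bpoly (PowerSeries.expand p hp (qExpansion 1 E₄))
        (PowerSeries.expand p hp (qExpansion 1 E₆))
        ((-((p : ℂ))⁻¹) • PowerSeries.rescale (zeta p ^ j) (helper3076.Up p (qExpansion 1 G)))) p]
    refine Finset.prod_congr rfl fun j _ => ?_
    congr 1
    simp only [cs]
    rw [qExpansion_fricke_two, map_neg, smul_neg]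
    have hz : (p : ℂ) ^ ((1 : ℤ) - 2) = (p : ℂ)⁻¹ := by
      rw [show ((1 : ℤ) - 2) = -1 by norm_num, zpow_neg_one]
    rw [hz]
    exact (neg_smul ((p : ℂ)⁻¹) _).symm

end

end Fermat.Agent.S16.helper7756
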