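/-
helper7756 — S16: the Spec leaf `helper312.Stmt_T8 p`, unconditional.

`helper3076.stmt_T8_of_norm8` (T8 from the norm interface) + `helper7756.stmt_Norm8`
(the norm interface).
-/
import Fermat.Agent.S16.helper7756_Norm8
import Fermat.Agent.S16.helper3076_T8Spec

set_option autoImplicit false

namespace Fermat.Agent.S16.helper7756

/-- **T8** (2-adic norm leaf of the S16 upper bound): for a prime `p ≡ 7 mod 8` there is no
`G ∈ M₂(Γ₀(p))` with `a₀ = 1` and `a_k ∈ 8 ℤ_(2)` for `k ≥ 1`. -/
theorem stmt_T8 (p : ℕ) [Fact p.Prime] : helper312.Stmt_T8 p :=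
  helper3076.stmt_T8_of_norm8 p (Fact.out : p.Prime).ne_zero
    (stmt_Norm8 p (Fact.out : p.Prime).ne_zero)

end Fermat.Agent.S16.helper7756
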