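/-
helper786 — S16 upper bound, generic part ("weight comparison").

Main results (Prelude + Mathlib only, no hypotheses left open):

* `weight_compare` : `G ∈ M_a(Γ₀(N))`, `g ∈ M_{e+1}(Γ₀(N))` with integer `q`-expansions,
  `G ≡ u (mod D)` coefficientwise, `ℓ ∤ u`, `ℓ ∤ a₁(g)`, `n ∤ N` a prime `≠ ℓ`,
  `ℓ^b ∥ n^a - 1`  ⟹  `ℓ^(b+1) ∤ D`.
  Proof: `T_n^{(a+e+1)}(G g) - G · T_n^{(e+1)} g ≡ u n^e (n^a - 1) g(q^n) (mod D)`; iterating `T_n`
  produces forms of weight `a+e+1` congruent mod `ℓ` to unit multiples of `g(q^(n^r))` for all `r`;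
  a triangular determinant shows they are linearly independent, contradicting the Sturm bound.
* `dvd_pred_of_congruent`, `dvd_pred_of_cuspForm_congruent(')` : for a prime `p`, if `E ∈ M₂(Γ₀(p))`
  has `a₀ = (p-1)/24`, `a_k = s k` (`s 1 = 1`) and a cusp form `f` of weight 2 has
  `a_k(f) ≡ s k (mod M)` for all `k ≥ 1`, then `M ∣ p - 1`.
  (For `s = σ'` this is the part "`#(T/I)` divides `p - 1`" of Mazur's Eisenstein-ideal index,
  covering all primes `ℓ ≥ 5` including `ℓ = p`, and `ℓ = 2, 3` up to the factor `gcd(p-1, 12)`.)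
-/
import Mathlib
import Fermat.Prelude.Def_FLTPrelim_Modularity
import Fermat.Prelude.Def_ModularForm_HeckeOperatorForms
import Fermat.Prelude.Thm_ModularFormClass_qCoeff_heckeT
import Fermat.Prelude.Thm_CongruenceSubgroup_one_mem_strictPeriods_Gamma0
import Fermat.Prelude.Thm_ModularForm_sturm_bound_Gamma0

set_option autoImplicit false

namespace Fermat.Agent.S16.helper786

open UpperHalfPlane ModularFormClass CongruenceSubgroup
open scoped MatrixGroups

noncomputable section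

/-! ## Formal side: integer power series -/

/-- Formal Hecke operator `T_n` of weight `e + 1` on integer power series. -/
def hT (e n : ℕ) (A : PowerSeries ℤ) : PowerSeries ℤ :=
  PowerSeries.mk fun m =>
    PowerSeries.coeff (m * n) A + if n ∣ m then (n : ℤ) ^ e * PowerSeries.coeff (m / n) A else 0

/-- Formal `V_n^r` : `q ↦ q^(n^r)` on integer power series. -/
def hV (n r : ℕ) (A : PowerSeries ℤ) : PowerSeries ℤ :=
  PowerSeries.mk fun m => if n ^ r ∣ m then PowerSeries.coeff (m / n ^ r) A else 0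

@[simp] lemma coeff_hT (e n : ℕ) (A : PowerSeries ℤ) (m : ℕ) :
    PowerSeries.coeff m (hT e n A) =
      PowerSeries.coeff (m * n) A + if n ∣ m then (n : ℤ) ^ e * PowerSeries.coeff (m / n) A else 0 := by
  simp [hT]

@[simp] lemma coeff_hV (n r : ℕ) (A : PowerSeries ℤ) (m : ℕ) :
    PowerSeries.coeff m (hV n r A) = if n ^ r ∣ m then PowerSeries.coeff (m / n ^ r) A else 0 := by
  simp [hV]

lemma hT_add (e n : ℕ) (A B : PowerSeries ℤ) : hT e n (A + B) = hT e n A + hT e n B := by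
  ext m
  simp only [coeff_hT, map_add]
  split_ifs <;> ring

lemma hT_sub (e n : ℕ) (A B : PowerSeries ℤ) : hT e n (A - B) = hT e n A - hT e n B := by
  ext m
  simp only [coeff_hT, map_sub]
  split_ifs <;> ring

lemma hT_C_mul (e n : ℕ) (c : ℤ) (A : PowerSeries ℤ) :
    hT e n (PowerSeries.C c * A) = PowerSeries.C c * hT e n A := by
  ext m
  simp only [coeff_hT, PowerSeries.coeff_C_mul]
  split_ifs <;> ring

lemma hV_zero (n : ℕ) (A : PowerSeries ℤ) : hV n 0 A = A := by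
  ext m
  simp

lemma hT_diff (a e n : ℕ) (B : PowerSeries ℤ) :
    hT (a + e) n B - hT e n B = PowerSeries.C ((n : ℤ) ^ e * ((n : ℤ) ^ a - 1)) * hV n 1 B := by
  ext m
  simp only [coeff_hT, map_sub, PowerSeries.coeff_C_mul, coeff_hV, pow_one]
  split_ifs <;> ring

lemma hT_hV (e n r : ℕ) (hn : 0 < n) (A : PowerSeries ℤ) :
    hT e n (hV n (r + 1) A) = hV n r A + PowerSeries.C ((n : ℤ) ^ e) * hV n (r + 2) A := by
  ext m
  simp only [coeff_hT, coeff_hV, map_add, PowerSeries.coeff_C_mul]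
  have h1 : n ^ (r + 1) ∣ m * n ↔ n ^ r ∣ m := by
    rw [pow_succ]
    exact Nat.mul_dvd_mul_iff_right hn
  have h2 : m * n / n ^ (r + 1) = m / n ^ r := by
    rw [pow_succ]
    exact Nat.mul_div_mul_right m (n ^ r) hn
  have h3 : n ^ (r + 2) = n * n ^ (r + 1) := by ring
  by_cases hnm : n ∣ m
  · have h4 : n ^ (r + 1) ∣ m / n ↔ n ^ (r + 2) ∣ m := by
      rw [h3]
      exact Nat.dvd_div_iff_mul_dvd hnm
    have h5 : m / n / n ^ (r + 1) = m / n ^ (r + 2) := by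
      rw [h3, Nat.div_div_eq_div_mul]
    simp only [h1, h2, hnm, if_true, h4, h5]
  · have h4 : ¬ n ^ (r + 2) ∣ m := by
      intro h
      exact hnm (dvd_trans (dvd_pow_self n (by omega)) h)
    simp only [h1, h2, hnm, if_false, h4]
    split_ifs <;> ring

/-- The key formal congruence: the weight-dependent part of `T_n` survives. -/
lemma key_formal (a e n : ℕ) (u D : ℤ) (γ' β : PowerSeries ℤ) :
    hT (a + e) n ((PowerSeries.C u + PowerSeries.C D * γ') * β)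
        - (PowerSeries.C u + PowerSeries.C D * γ') * hT e n β
      = PowerSeries.C (u * ((n : ℤ) ^ e * ((n : ℤ) ^ a - 1))) * hV n 1 β
        + PowerSeries.C D * (hT (a + e) n (γ' * β) - γ' * hT e n β) := by
  have h1 : (PowerSeries.C u + PowerSeries.C D * γ') * β
      = PowerSeries.C u * β + PowerSeries.C D * (γ' * β) := by ring
  rw [h1, hT_add, hT_C_mul, hT_C_mul]
  have h2 := hT_diff a e n β
  rw [map_mul]
  linear_combination (PowerSeries.C u) * h2

/-! ## Forms with integer `q`-expansions -/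

variable {N : ℕ}

/-- `f` has the integer `q`-expansion `A` (cusp `∞`, period `1`). -/
def IntExp {k : ℤ} (f : ModularForm (Gamma0 N) k) (A : PowerSeries ℤ) : Prop :=
  qExpansion 1 ⇑f = PowerSeries.map (Int.castRingHom ℂ) A

lemma IntExp.coeff {k : ℤ} {f : ModularForm (Gamma0 N) k} {A : PowerSeries ℤ}
    (h : IntExp f A) (m : ℕ) :
    PowerSeries.coeff m (qExpansion 1 ⇑f) = ((PowerSeries.coeff m A : ℤ) : ℂ) := by
  rw [h, PowerSeries.coeff_map]
  simp

lemma IntExp.mul {k₁ k₂ : ℤ} {f : ModularForm (Gamma0 N) k₁} {g : ModularForm (Gamma0 N) k₂}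
    {A B : PowerSeries ℤ} (hf : IntExp f A) (hg : IntExp g B) : IntExp (f.mul g) (A * B) := by
  unfold IntExp at *
  rw [ModularForm.qExpansion_mul one_pos (one_mem_strictPeriods_Gamma0 N), hf, hg, map_mul]

lemma qExpansion_smul' {k : ℤ} (f : ModularForm (Gamma0 N) k) (c : ℂ) :
    qExpansion 1 ⇑(c • f) = c • qExpansion 1 ⇑f :=
  ModularForm.qExpansion_smul one_pos (one_mem_strictPeriods_Gamma0 N) c f

lemma qExpansion_add' {k : ℤ} (f g : ModularForm (Gamma0 N) k) :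
    qExpansion 1 ⇑(f + g) = qExpansion 1 ⇑f + qExpansion 1 ⇑g :=
  ModularForm.qExpansion_add one_pos (one_mem_strictPeriods_Gamma0 N) f g

lemma qExpansion_sub' {k : ℤ} (f g : ModularForm (Gamma0 N) k) :
    qExpansion 1 ⇑(f - g) = qExpansion 1 ⇑f - qExpansion 1 ⇑g :=
  ModularForm.qExpansion_sub one_pos (one_mem_strictPeriods_Gamma0 N) f g

lemma IntExp.zsmul {k : ℤ} {f : ModularForm (Gamma0 N) k} {A : PowerSeries ℤ}
    (hf : IntExp f A) (c : ℤ) : IntExp ((c : ℂ) • f) (PowerSeries.C c * A) := by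
  unfold IntExp at *
  rw [qExpansion_smul', hf]
  ext m
  rw [map_smul, smul_eq_mul, PowerSeries.coeff_map, PowerSeries.coeff_map,
    PowerSeries.coeff_C_mul]
  simp

lemma IntExp.sub {k : ℤ} {f g : ModularForm (Gamma0 N) k} {A B : PowerSeries ℤ}
    (hf : IntExp f A) (hg : IntExp g B) : IntExp (f - g) (A - B) := by
  unfold IntExp at *
  rw [qExpansion_sub', hf, hg, map_sub]

lemma IntExp.div {k : ℤ} {f : ModularForm (Gamma0 N) k} {d : ℤ} {Y : PowerSeries ℤ}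
    (hf : IntExp f (PowerSeries.C d * Y)) (hd : d ≠ 0) : IntExp ((d : ℂ)⁻¹ • f) Y := by
  unfold IntExp at *
  rw [qExpansion_smul', hf]
  ext m
  have hd' : (d : ℂ) ≠ 0 := by exact_mod_cast hd
  rw [map_smul, smul_eq_mul, PowerSeries.coeff_map, PowerSeries.coeff_map,
    PowerSeries.coeff_C_mul]
  simp only [eq_intCast, Int.cast_mul]
  field_simp

lemma IntExp.hecke {k : ℤ} {e : ℕ} (hk : k = (e : ℤ) + 1) {n : ℕ} (hn : n.Prime) (hnN : ¬ n ∣ N)
    {f : ModularForm (Gamma0 N) k} {A : PowerSeries ℤ} (hf : IntExp f A) :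
    IntExp (ModularForm.heckeTLin k hn hnN f) (hT e n A) := by
  unfold IntExp
  ext m
  have h2 : PowerSeries.coeff m (qExpansion 1 ⇑(ModularForm.heckeTLin k hn hnN f))
      = ModularForm.coeffHeckeT k n (ModularFormClass.qCoeff ⇑f) m :=
    ModularFormClass.qCoeff_heckeT f (one_mem_strictPeriods_Gamma0 N) hn.ne_zero m
  have h3 : (n : ℂ) ^ (k - 1) = (n : ℂ) ^ e := by
    rw [hk, add_sub_cancel_right, zpow_natCast]
  rw [h2, ModularForm.coeffHeckeT_apply, PowerSeries.coeff_map, coeff_hT, h3]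
  simp only [ModularFormClass.qCoeff, hf.coeff]
  split_ifs <;> simp

/-- The `q`-expansion as a linear map. -/
def qLin (N : ℕ) (k : ℤ) : ModularForm (Gamma0 N) k →ₗ[ℂ] PowerSeries ℂ where
  toFun f := qExpansion 1 ⇑f
  map_add' f g := qExpansion_add' f g
  map_smul' c f := qExpansion_smul' f c

/-! ## The iteration -/

/-- Stage `r`: a form of weight `k` on `Γ₀(N)` with integer `q`-expansion congruent modulo `ℓ`
to a unit multiple of `β(q^(n^r))`. -/
def Good (N : ℕ) (k : ℤ) (ℓ n : ℕ) (β : PowerSeries ℤ) (r : ℕ) : Prop :=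
  ∃ (H : ModularForm (Gamma0 N) k) (η ζ : PowerSeries ℤ) (c : ℤ),
    IntExp H η ∧ ¬ (ℓ : ℤ) ∣ c ∧ η = PowerSeries.C c * hV n r β + PowerSeries.C (ℓ : ℤ) * ζ

lemma good_step {k : ℤ} {e : ℕ} (hk : k = (e : ℤ) + 1) {ℓ n : ℕ} (hℓ : ℓ.Prime) (hn : n.Prime)
    (hnN : ¬ n ∣ N) (hnℓ : n ≠ ℓ) (β : PowerSeries ℤ) (r : ℕ)
    (h0 : Good N k ℓ n β r) (h1 : Good N k ℓ n β (r + 1)) : Good N k ℓ n β (r + 2) := by
  obtain ⟨H0, η0, ζ0, c0, hH0, hc0, rfl⟩ := h0
  obtain ⟨H1, η1, ζ1, c1, hH1, hc1, rfl⟩ := h1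
  have hℓ' : Prime (ℓ : ℤ) := Nat.prime_iff_prime_int.mp hℓ
  refine ⟨(c0 : ℂ) • ModularForm.heckeTLin k hn hnN H1 - (c1 : ℂ) • H0, _,
    PowerSeries.C c0 * hT e n ζ1 - PowerSeries.C c1 * ζ0, c0 * c1 * (n : ℤ) ^ e,
    ((hH1.hecke hk hn hnN).zsmul c0).sub (hH0.zsmul c1), ?_, ?_⟩
  · intro hdvd
    rcases hℓ'.dvd_or_dvd hdvd with h | h
    · rcases hℓ'.dvd_or_dvd h with h | h
      · exact hc0 h
      · exact hc1 h
    · have h' := hℓ'.dvd_of_dvd_pow h
      have h'' : ℓ ∣ n := by exact_mod_cast h'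
      exact hnℓ ((Nat.prime_dvd_prime_iff_eq hℓ hn).mp h'').symm
  · rw [hT_add, hT_C_mul, hT_C_mul, hT_hV e n r hn.pos]
    simp only [map_mul]
    ring

lemma good_all {k : ℤ} {e : ℕ} (hk : k = (e : ℤ) + 1) {ℓ n : ℕ} (hℓ : ℓ.Prime) (hn : n.Prime)
    (hnN : ¬ n ∣ N) (hnℓ : n ≠ ℓ) (β : PowerSeries ℤ)
    (h0 : Good N k ℓ n β 0) (h1 : Good N k ℓ n β 1) : ∀ r, Good N k ℓ n β r := by
  have key : ∀ r, Good N k ℓ n β r ∧ Good N k ℓ n β (r + 1) := by
    intro r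
    induction r with
    | zero => exact ⟨h0, h1⟩
    | succ r ih => exact ⟨ih.2, good_step hk hℓ hn hnN hnℓ β r ih.1 ih.2⟩
  exact fun r => (key r).1

/-- Infinitely many stages contradict the Sturm bound (finite-dimensionality). -/
lemma not_forall_good [NeZero N] {k : ℤ} {ℓ n : ℕ} (hℓ : ℓ.Prime) (hn : n.Prime)
    (β : PowerSeries ℤ) (hβ : ¬ (ℓ : ℤ) ∣ PowerSeries.coeff 1 β)
    (h : ∀ r, Good N k ℓ n β r) : False := by
  classical
  have : Fact ℓ.Prime := ⟨hℓ⟩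
  set B : ℕ := (k * (Gamma0 N).index).toNat / 12 with hB
  choose H η ζ c hH hc hη using h
  -- the integer matrix of coefficients at the exponents `n ^ j`
  let M : Matrix (Fin (B + 2)) (Fin (B + 2)) ℤ :=
    fun i j => PowerSeries.coeff (n ^ (j : ℕ)) (η i)
  have hentry : ∀ i j : Fin (B + 2), ((M i j : ℤ) : ZMod ℓ) =
      (c i : ZMod ℓ) * (if n ^ (i : ℕ) ∣ n ^ (j : ℕ) then
        ((PowerSeries.coeff (n ^ (j : ℕ) / n ^ (i : ℕ)) β : ℤ) : ZMod ℓ) else 0) := by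
    intro i j
    simp only [M]
    rw [hη i]
    simp only [map_add, PowerSeries.coeff_C_mul, coeff_hV]
    split_ifs <;> simp
  have hdet : M.det ≠ 0 := by
    intro h0
    have h1 : ((Int.castRingHom (ZMod ℓ)).mapMatrix M).det = 0 := by
      rw [← RingHom.map_det, h0, map_zero]
    have htri : ((Int.castRingHom (ZMod ℓ)).mapMatrix M).IsUpperTriangular := by
      intro i j hji
      have hji' : (j : ℕ) < (i : ℕ) := hji
      have hnd : ¬ n ^ (i : ℕ) ∣ n ^ (j : ℕ) := by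
        intro hd
        have := (Nat.pow_dvd_pow_iff_le_right hn.one_lt).mp hd
        omega
      simp only [RingHom.mapMatrix_apply, Matrix.map_apply, eq_intCast]
      rw [hentry i j, if_neg hnd, mul_zero]
    rw [Matrix.det_of_isUpperTriangular htri, Finset.prod_eq_zero_iff] at h1
    obtain ⟨i, -, hi⟩ := h1
    simp only [RingHom.mapMatrix_apply, Matrix.map_apply, eq_intCast] at hi
    rw [hentry i i, if_pos dvd_rfl, Nat.div_self (pow_pos hn.pos _)] at hi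
    rcases mul_eq_zero.mp hi with h | h
    · exact hc i ((ZMod.intCast_zmod_eq_zero_iff_dvd _ _).mp h)
    · exact hβ ((ZMod.intCast_zmod_eq_zero_iff_dvd _ _).mp h)
  -- linear dependence among `B + 2` forms
  let H' : Fin (B + 2) → ModularForm (Gamma0 N) k := fun i => H i
  let Φ : (Fin (B + 2) → ℂ) →ₗ[ℂ] (Fin (B + 1) → ℂ) :=
    (LinearMap.pi fun j : Fin (B + 1) => PowerSeries.coeff (R := ℂ) (j : ℕ)) ∘ₗ
      (qLin N k) ∘ₗ (Fintype.linearCombination ℂ H')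
  have hker : LinearMap.ker Φ ≠ ⊥ := LinearMap.ker_ne_bot_of_finrank_lt (by simp)
  obtain ⟨x, hx, hx0⟩ := (Submodule.ne_bot_iff _).mp hker
  have hF0 : Fintype.linearCombination ℂ H' x = 0 := by
    apply ModularForm.sturm_bound_Gamma0 N
    intro m hm
    have := congrFun (LinearMap.mem_ker.mp hx) ⟨m, by omega⟩
    simpa [Φ, qLin] using this
  have hvec : Matrix.vecMul x ((Int.castRingHom ℂ).mapMatrix M) = 0 := by
    ext j
    have h1 : qLin N k (Fintype.linearCombination ℂ H' x) = 0 := by rw [hF0, map_zero]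
    rw [Fintype.linearCombination_apply, map_sum] at h1
    have h2 := congrArg (PowerSeries.coeff (R := ℂ) (n ^ (j : ℕ))) h1
    rw [map_sum, map_zero] at h2
    simp only [Matrix.vecMul, dotProduct, Pi.zero_apply, M]
    rw [← h2]
    refine Finset.sum_congr rfl fun i _ => ?_
    rw [map_smul, map_smul, smul_eq_mul]
    congr 1
    exact ((hH i).coeff _).symm
  have hdetC : ((Int.castRingHom ℂ).mapMatrix M).det ≠ 0 := by
    rw [← RingHom.map_det]
    simpa using hdet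
  exact hx0 (Matrix.eq_zero_of_vecMul_eq_zero hdetC hvec)

/-- **Weight comparison.**  Let `G` (weight `a`) and `g` (weight `e + 1`) be modular forms on
`Γ₀(N)` with integer `q`-expansions, `G ≡ u (mod D)` coefficientwise, and let `ℓ` be a prime with
`ℓ ∤ u`, `ℓ ∤ a₁(g)`.  If `n ∤ N` is a prime different from `ℓ` and `ℓ^b ∥ n^a - 1`, then
`ℓ^(b+1) ∤ D`. -/
theorem weight_compare [NeZero N] {ka kb : ℤ} {a e : ℕ} (hka : ka = (a : ℤ))
    (hkb : kb = (e : ℤ) + 1)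
    (G : ModularForm (Gamma0 N) ka) (g : ModularForm (Gamma0 N) kb)
    (γ' β : PowerSeries ℤ) (u D : ℤ)
    (hG : IntExp G (PowerSeries.C u + PowerSeries.C D * γ')) (hg : IntExp g β)
    {n ℓ : ℕ} (hn : n.Prime) (hnN : ¬ n ∣ N) (hℓ : ℓ.Prime) (hnℓ : n ≠ ℓ)
    (hu : ¬ (ℓ : ℤ) ∣ u) (hβ : ¬ (ℓ : ℤ) ∣ PowerSeries.coeff 1 β)
    (b : ℕ) (t : ℤ) (ht : (n : ℤ) ^ a - 1 = (ℓ : ℤ) ^ b * t) (htℓ : ¬ (ℓ : ℤ) ∣ t)
    (hD : (ℓ : ℤ) ^ (b + 1) ∣ D) : False := by
  obtain ⟨D', rfl⟩ := hD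
  have hℓ' : Prime (ℓ : ℤ) := Nat.prime_iff_prime_int.mp hℓ
  have hk : ka + kb = ((a + e : ℕ) : ℤ) + 1 := by
    rw [hka, hkb]
    push_cast
    ring
  apply not_forall_good (N := N) (k := ka + kb) hℓ hn β hβ
  apply good_all hk hℓ hn hnN hnℓ β
  · -- stage 0 : `G * g`
    refine ⟨G.mul g, _, PowerSeries.C ((ℓ : ℤ) ^ b * D') * (γ' * β), u, hG.mul hg, hu, ?_⟩
    rw [hV_zero]
    simp only [map_mul, map_pow]
    ring
  · -- stage 1 : `(T_n (G g) - G * T_n g) / ℓ ^ b`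
    have hX := ((hG.mul hg).hecke hk hn hnN).sub (hG.mul (hg.hecke hkb hn hnN))
    rw [key_formal] at hX
    have hY : PowerSeries.C (u * ((n : ℤ) ^ e * ((n : ℤ) ^ a - 1))) * hV n 1 β
        + PowerSeries.C ((ℓ : ℤ) ^ (b + 1) * D') * (hT (a + e) n (γ' * β) - γ' * hT e n β)
        = PowerSeries.C ((ℓ : ℤ) ^ b) * (PowerSeries.C (u * ((n : ℤ) ^ e * t)) * hV n 1 β
          + PowerSeries.C (ℓ : ℤ) * (PowerSeries.C D' * (hT (a + e) n (γ' * β) - γ' * hT e n β))) := by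
      rw [ht]
      simp only [map_mul, map_pow]
      ring
    rw [hY] at hX
    have hℓb : ((ℓ : ℤ) ^ b) ≠ 0 := pow_ne_zero _ (by exact_mod_cast hℓ.ne_zero)
    refine ⟨_, _, _, u * ((n : ℤ) ^ e * t), hX.div hℓb, ?_, rfl⟩
    intro hdvd
    rcases hℓ'.dvd_or_dvd hdvd with h | h
    · exact hu h
    · rcases hℓ'.dvd_or_dvd h with h | h
      · have h' := hℓ'.dvd_of_dvd_pow h
        have h'' : ℓ ∣ n := by exact_mod_cast h'
        exact hnℓ ((Nat.prime_dvd_prime_iff_eq hℓ hn).mp h'').symm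
      · exact htℓ h

/-! ## Application to prime level and weight two -/

/-- For every prime level `p` and every prime `ℓ` there is an auxiliary prime `n ∉ {p, ℓ}` with
`v_ℓ(n² - 1) = v_ℓ(24)`. -/
lemma exists_aux_prime {p ℓ : ℕ} (hp : p.Prime) (hℓ : ℓ.Prime) :
    ∃ (n b : ℕ) (t : ℤ), n.Prime ∧ ¬ n ∣ p ∧ n ≠ ℓ ∧ (n : ℤ) ^ 2 - 1 = (ℓ : ℤ) ^ b * t ∧
      ¬ (ℓ : ℤ) ∣ t ∧ (ℓ : ℤ) ^ b ∣ 24 := by
  by_cases h2 : ℓ = 2
  · subst h2
    by_cases hp3 : p = 3
    · subst hp3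
      exact ⟨5, 3, 3, by norm_num, by norm_num, by norm_num, by norm_num, by norm_num,
        by norm_num⟩
    · refine ⟨3, 3, 1, by norm_num, ?_, by norm_num, by norm_num, by norm_num, by norm_num⟩
      intro h
      exact hp3 ((Nat.prime_dvd_prime_iff_eq Nat.prime_three hp).mp h).symm
  by_cases h3 : ℓ = 3
  · subst h3
    by_cases hp2 : p = 2
    · subst hp2
      exact ⟨5, 1, 8, by norm_num, by norm_num, by norm_num, by norm_num, by norm_num,
        by norm_num⟩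
    · refine ⟨2, 1, 1, by norm_num, ?_, by norm_num, by norm_num, by norm_num, by norm_num⟩
      intro h
      exact hp2 ((Nat.prime_dvd_prime_iff_eq Nat.prime_two hp).mp h).symm
  · by_cases hp2 : p = 2
    · subst hp2
      refine ⟨3, 0, 8, by norm_num, by norm_num, fun h => h3 h.symm, by norm_num, ?_,
        by norm_num⟩
      intro h
      have h' : ℓ ∣ 2 ^ 3 := by exact_mod_cast h
      exact h2 ((Nat.prime_dvd_prime_iff_eq hℓ Nat.prime_two).mp (hℓ.dvd_of_dvd_pow h'))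
    · refine ⟨2, 0, 3, by norm_num, ?_, fun h => h2 h.symm, by norm_num, ?_, by norm_num⟩
      · intro h
        exact hp2 ((Nat.prime_dvd_prime_iff_eq Nat.prime_two hp).mp h).symm
      · intro h
        have h' : ℓ ∣ 3 := by exact_mod_cast h
        exact h3 ((Nat.prime_dvd_prime_iff_eq hℓ Nat.prime_three).mp h')

/-- **Generic upper bound.**  Let `p` be a prime, `E ∈ M₂(Γ₀(p))` with constant term `(p-1)/24`
and higher coefficients `s k` (integers, `s 1 = 1`), and let `f ∈ M₂(Γ₀(p))` have constant term `0`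
and coefficients `≡ s k (mod M)`.  Then `M ∣ p - 1`. -/
theorem dvd_pred_of_congruent {p : ℕ} (hp : p.Prime) (s : ℕ → ℤ) (hs1 : s 1 = 1)
    (E f : ModularForm (Gamma0 p) 2)
    (hE0 : PowerSeries.coeff 0 (qExpansion 1 ⇑E) = ((p : ℂ) - 1) / 24)
    (hE : ∀ k, 1 ≤ k → PowerSeries.coeff k (qExpansion 1 ⇑E) = ((s k : ℤ) : ℂ))
    (M : ℕ)
    (hf0 : PowerSeries.coeff 0 (qExpansion 1 ⇑f) = 0)
    (hf : ∀ k, 1 ≤ k → ∃ c : ℤ,
      PowerSeries.coeff k (qExpansion 1 ⇑f) = ((s k : ℤ) : ℂ) + (M : ℂ) * ((c : ℤ) : ℂ)) :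
    M ∣ p - 1 := by
  have : NeZero p := ⟨hp.ne_zero⟩
  have hf' : ∀ k, ∃ c : ℤ, 1 ≤ k →
      PowerSeries.coeff k (qExpansion 1 ⇑f) = ((s k : ℤ) : ℂ) + (M : ℂ) * ((c : ℤ) : ℂ) := by
    intro k
    by_cases hk : 1 ≤ k
    · obtain ⟨c, hc⟩ := hf k hk
      exact ⟨c, fun _ => hc⟩
    · exact ⟨0, fun h => absurd h hk⟩
  choose c hc using hf'
  set φ : PowerSeries ℤ := PowerSeries.mk fun k => if k = 0 then 0 else s k + (M : ℤ) * c k
    with hφdef
  set γ' : PowerSeries ℤ := PowerSeries.mk fun k => if k = 0 then 0 else - c k with hγdef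
  have hφ : IntExp f φ := by
    unfold IntExp
    ext k
    rw [PowerSeries.coeff_map, hφdef, PowerSeries.coeff_mk]
    by_cases hk : k = 0
    · subst hk
      simp [hf0]
    · rw [hc k (by omega), if_neg hk]
      simp
  have hG' : IntExp ((24 : ℂ) • (E - f))
      (PowerSeries.C ((p : ℤ) - 1) + PowerSeries.C (24 * (M : ℤ)) * γ') := by
    unfold IntExp
    rw [qExpansion_smul', qExpansion_sub']
    ext k
    rw [map_smul, smul_eq_mul, map_sub, PowerSeries.coeff_map, map_add, PowerSeries.coeff_C_mul,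
      hγdef, PowerSeries.coeff_mk, PowerSeries.coeff_C]
    by_cases hk : k = 0
    · subst hk
      rw [hE0, hf0]
      simp
      ring
    · rw [hE k (by omega), hc k (by omega), if_neg hk, if_neg hk]
      simp
      ring
  rw [Nat.dvd_iff_prime_pow_dvd_dvd]
  intro ℓ j hℓ hj
  have hp1 : p - 1 ≠ 0 := by
    have := hp.two_le
    omega
  obtain ⟨s₀, u, hu, hpu⟩ := Nat.exists_eq_pow_mul_and_not_dvd hp1 ℓ hℓ.ne_one
  by_cases hjs : j ≤ s₀
  · rw [hpu]
    exact dvd_mul_of_dvd_left (pow_dvd_pow ℓ hjs) u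
  · exfalso
    have hM' : ℓ ^ (s₀ + 1) ∣ M := dvd_trans (pow_dvd_pow ℓ (by omega)) hj
    obtain ⟨M', hM'⟩ := hM'
    obtain ⟨n, b, t, hn, hnp, hnℓ, ht, htℓ, hb24⟩ := exists_aux_prime hp hℓ
    have hℓ0 : ((ℓ : ℤ) ^ s₀) ≠ 0 := pow_ne_zero _ (by exact_mod_cast hℓ.ne_zero)
    have hpu' : (p : ℤ) - 1 = (ℓ : ℤ) ^ s₀ * (u : ℤ) := by
      have h1 : ((p - 1 : ℕ) : ℤ) = (p : ℤ) - 1 := by
        have := hp.one_le
        push_cast [Nat.cast_sub this]
        ring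
      rw [← h1, hpu]
      push_cast
      ring
    have hG'' : IntExp ((((ℓ : ℤ) ^ s₀ : ℤ) : ℂ)⁻¹ • ((24 : ℂ) • (E - f)))
        (PowerSeries.C (u : ℤ) + PowerSeries.C (24 * (ℓ : ℤ) * (M' : ℤ)) * γ') := by
      apply IntExp.div _ hℓ0
      have h2 : PowerSeries.C ((ℓ : ℤ) ^ s₀) *
          (PowerSeries.C (u : ℤ) + PowerSeries.C (24 * (ℓ : ℤ) * (M' : ℤ)) * γ')
          = PowerSeries.C ((p : ℤ) - 1) + PowerSeries.C (24 * (M : ℤ)) * γ' := by
        rw [hpu', hM']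
        push_cast
        simp only [map_mul, map_pow]
        ring
      rw [h2]
      exact hG'
    refine weight_compare (N := p) (ka := 2) (kb := 2) (a := 2) (e := 1) (by norm_num)
      (by norm_num) _ f γ' φ (u : ℤ) (24 * (ℓ : ℤ) * (M' : ℤ)) hG'' hφ hn hnp hℓ hnℓ ?_ ?_ b t ht
      htℓ ?_
    · exact_mod_cast hu
    · rw [hφdef, PowerSeries.coeff_mk, if_neg one_ne_zero, hs1, hM']
      intro h
      have h3 : (ℓ : ℤ) ∣ ((ℓ ^ (s₀ + 1) * M' : ℕ) : ℤ) * c 1 := by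
        push_cast
        exact Dvd.dvd.mul_right (Dvd.dvd.mul_right (dvd_pow_self _ (by omega)) _) _
      have h4 : (ℓ : ℤ) ∣ 1 := (dvd_add_left h3).mp h
      have h5 : ℓ ∣ 1 := by exact_mod_cast h4
      exact hℓ.one_lt.ne' (Nat.dvd_one.mp h5)
    · obtain ⟨w, hw⟩ := hb24
      refine ⟨w * (M' : ℤ), ?_⟩
      rw [pow_succ]
      linear_combination ((ℓ : ℤ) * (M' : ℤ)) * hw

/-- Cusp-form version of `dvd_pred_of_congruent`, in the Prelude's `qCoeff` notation. -/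
theorem dvd_pred_of_cuspForm_congruent {p : ℕ} (hp : p.Prime) (s : ℕ → ℤ) (hs1 : s 1 = 1)
    (E : ModularForm (Gamma0 p) 2)
    (hE0 : ModularFormClass.qCoeff ⇑E 0 = ((p : ℂ) - 1) / 24)
    (hE : ∀ k, 1 ≤ k → ModularFormClass.qCoeff ⇑E k = ((s k : ℤ) : ℂ))
    (M : ℕ) (f : CuspForm (Gamma0 p) 2)
    (hf : ∀ k, 1 ≤ k → ∃ c : ℤ,
      ModularFormClass.qCoeff ⇑f k = ((s k : ℤ) : ℂ) + (M : ℂ) * ((c : ℤ) : ℂ)) :
    M ∣ p - 1 :=
  dvd_pred_of_congruent hp s hs1 E (CuspForm.toModularFormₗ f) hE0 hE M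
    (CuspFormClass.qExpansion_coeff_zero f one_pos (one_mem_strictPeriods_Gamma0 p)) hf

/-- Variant with the congruence written inside `ℤ`. -/
theorem dvd_pred_of_cuspForm_congruent' {p : ℕ} (hp : p.Prime) (s : ℕ → ℤ) (hs1 : s 1 = 1)
    (E : ModularForm (Gamma0 p) 2)
    (hE0 : ModularFormClass.qCoeff ⇑E 0 = ((p : ℂ) - 1) / 24)
    (hE : ∀ k, 1 ≤ k → ModularFormClass.qCoeff ⇑E k = ((s k : ℤ) : ℂ))
    (M : ℕ) (f : CuspForm (Gamma0 p) 2)
    (hf : ∀ k, 1 ≤ k → ∃ c : ℤ,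
      ModularFormClass.qCoeff ⇑f k = ((s k + (M : ℤ) * c : ℤ) : ℂ)) :
    M ∣ p - 1 := by
  refine dvd_pred_of_cuspForm_congruent hp s hs1 E hE0 hE M f fun k hk => ?_
  obtain ⟨c, hc⟩ := hf k hk
  exact ⟨c, by rw [hc]; push_cast; ring⟩

end

end Fermat.Agent.S16.helper786
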