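/-
helper879 — S16 leaf "A1" (one-trace bound).

For a prime `p ≥ 5` and `G ∈ M₂(Γ₀(p))` whose `q`-coefficients `a_k(G)` are integers for all
`k ≥ 1`, the number `(p + 1) * a_0(G)` is an integer.

Proof: the trace of `G * E_p` to level one is a weight-4 form of level one, hence a multiple of
`E₄`; comparing the `q`-expansions of both sides at `q^1`, `q^2`, `q^p` gives the claim.

The two modular inputs (trace of a product of two weight-2 forms, and `U_p² = 1` on
`M₂(Γ₀(p))`) are consumed as the Prop-valued interfaces `Stmt_TraceMul` and `Stmt_UpSq`.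
-/
import Mathlib
import Fermat.Prelude.Thm_CongruenceSubgroup_one_mem_strictPeriods_Gamma0

set_option autoImplicit false

open UpperHalfPlane ModularForm MatrixGroups CongruenceSubgroup EisensteinSeries

namespace Fermat.Agent.S16.helper879

/-- Sum of the divisors of `k` that are prime to `p`. -/
def sigmaP (p k : ℕ) : ℕ := ∑ d ∈ k.divisors with ¬ p ∣ d, d

/-- The operator `U_p` on formal power series: `a_n ↦ a_{pn}`. -/
noncomputable def Up (p : ℕ) (A : PowerSeries ℂ) : PowerSeries ℂ :=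
  PowerSeries.mk fun n => PowerSeries.coeff (p * n) A

/-- The `q`-series `(p-1)/24 + ∑ σ'(n) qⁿ` of the weight-2 Eisenstein series of level `p`. -/
noncomputable def eisSeries (p : ℕ) : PowerSeries ℂ :=
  PowerSeries.mk fun n => if n = 0 then ((p : ℂ) - 1) / 24 else (sigmaP p n : ℂ)

@[simp] lemma coeff_Up (p : ℕ) (A : PowerSeries ℂ) (n : ℕ) :
    PowerSeries.coeff n (Up p A) = PowerSeries.coeff (p * n) A := by
  simp [Up]

lemma sigmaP_mul_self {p : ℕ} (hp : p.Prime) (k : ℕ) : sigmaP p (p * k) = sigmaP p k := by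
  rcases Nat.eq_zero_or_pos k with rfl | hk
  · simp
  · unfold sigmaP
    congr 1
    ext d
    simp only [Finset.mem_filter, Nat.mem_divisors]
    constructor
    · rintro ⟨⟨hd, -⟩, hpd⟩
      refine ⟨⟨?_, hk.ne'⟩, hpd⟩
      exact Nat.Coprime.dvd_of_dvd_mul_left ((Nat.Prime.coprime_iff_not_dvd hp).mpr hpd).symm hd
    · rintro ⟨⟨hd, -⟩, hpd⟩
      exact ⟨⟨Dvd.dvd.mul_left hd p, Nat.mul_ne_zero hp.ne_zero hk.ne'⟩, hpd⟩

lemma sigmaP_one {p : ℕ} (hp : p.Prime) : sigmaP p 1 = 1 := by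
  rw [sigmaP, Nat.divisors_one, Finset.filter_singleton]
  simp [hp.ne_one]

lemma sigmaP_two {p : ℕ} (hp5 : 5 ≤ p) : sigmaP p 2 = 3 := by
  have h2 : Nat.divisors 2 = {1, 2} := by decide
  have h1 : ¬ p ∣ 1 := by
    intro h; have := Nat.le_of_dvd one_pos h; omega
  have h2' : ¬ p ∣ 2 := by
    intro h; have := Nat.le_of_dvd two_pos h; omega
  rw [sigmaP, h2, Finset.filter_true_of_mem]
  · simp
  · intro d hd
    simp only [Finset.mem_insert, Finset.mem_singleton] at hd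
    rcases hd with rfl | rfl <;> assumption

lemma sigmaP_self {p : ℕ} (hp : p.Prime) : sigmaP p p = 1 := by
  rw [sigmaP, hp.divisors, Finset.filter_insert, Finset.filter_singleton]
  simp [hp.ne_one]

lemma eisSeries_Up {p : ℕ} (hp : p.Prime) : Up p (eisSeries p) = eisSeries p := by
  ext n
  simp only [coeff_Up, eisSeries, PowerSeries.coeff_mk, mul_eq_zero, hp.ne_zero, false_or]
  rw [sigmaP_mul_self hp]

lemma sq_sub_one_eq {p : ℕ} (hp : p.Prime) (hp5 : 5 ≤ p) : ∃ M : ℤ, (p : ℤ) ^ 2 - 1 = 24 * M := by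
  have h2 : p % 2 = 1 := by
    rcases hp.eq_two_or_odd with h | h
    · omega
    · exact h
  have h3 : p % 3 ≠ 0 := by
    intro h
    have : 3 ∣ p := Nat.dvd_of_mod_eq_zero h
    have := (Nat.prime_dvd_prime_iff_eq Nat.prime_three hp).mp this
    omega
  have h24 : p ^ 2 % 24 = 1 := by
    rw [Nat.pow_mod]
    have : p % 24 = 1 ∨ p % 24 = 5 ∨ p % 24 = 7 ∨ p % 24 = 11 ∨ p % 24 = 13 ∨ p % 24 = 17 ∨
        p % 24 = 19 ∨ p % 24 = 23 := by omega
    rcases this with h | h | h | h | h | h | h | h <;> rw [h]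
  refine ⟨((p ^ 2 / 24 : ℕ) : ℤ), ?_⟩
  have := Nat.div_add_mod (p ^ 2) 24
  rw [h24] at this
  have h' : ((p ^ 2 : ℕ) : ℤ) = 24 * ((p ^ 2 / 24 : ℕ) : ℤ) + 1 := by exact_mod_cast this.symm
  push_cast at h' ⊢
  linarith

lemma coeff_mul_split (c r : ℂ) (a e : ℕ → ℤ) (k : ℕ) (hk : 1 ≤ k) :
    PowerSeries.coeff k ((PowerSeries.C c + PowerSeries.map (Int.castRingHom ℂ) (PowerSeries.mk a)) *
      (PowerSeries.C r + PowerSeries.map (Int.castRingHom ℂ) (PowerSeries.mk e))) =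
    c * e k + r * a k + ((PowerSeries.coeff k (PowerSeries.mk a * PowerSeries.mk e) : ℤ) : ℂ) := by
  have h : (PowerSeries.C c + PowerSeries.map (Int.castRingHom ℂ) (PowerSeries.mk a)) *
      (PowerSeries.C r + PowerSeries.map (Int.castRingHom ℂ) (PowerSeries.mk e)) =
      PowerSeries.C (c * r) + PowerSeries.C c * PowerSeries.map (Int.castRingHom ℂ) (PowerSeries.mk e) +
        PowerSeries.C r * PowerSeries.map (Int.castRingHom ℂ) (PowerSeries.mk a) +
        PowerSeries.map (Int.castRingHom ℂ) (PowerSeries.mk a * PowerSeries.mk e) := by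
    rw [map_mul, map_mul]; ring
  have hk0 : k ≠ 0 := by omega
  rw [h]
  simp only [map_add, PowerSeries.coeff_C_mul, PowerSeries.coeff_map, PowerSeries.coeff_mk,
    PowerSeries.coeff_C, if_neg hk0, eq_intCast, zero_add]

lemma coeff_zero_mul_split (c r : ℂ) (a e : ℕ → ℤ) (ha : a 0 = 0) (he : e 0 = 0) :
    PowerSeries.coeff 0 ((PowerSeries.C c + PowerSeries.map (Int.castRingHom ℂ) (PowerSeries.mk a)) *
      (PowerSeries.C r + PowerSeries.map (Int.castRingHom ℂ) (PowerSeries.mk e))) = c * r := by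
  simp [PowerSeries.coeff_mul, ha, he]

lemma sigma_three_one : (ArithmeticFunction.sigma 3 1 : ℂ) = 1 := by
  simp [ArithmeticFunction.sigma_apply]

lemma sigma_three_two : (ArithmeticFunction.sigma 3 2 : ℂ) = 9 := by
  have h2 : Nat.divisors 2 = {1, 2} := by decide
  rw [ArithmeticFunction.sigma_apply, h2]
  norm_num

lemma sigma_three_prime {p : ℕ} (hp : p.Prime) :
    (ArithmeticFunction.sigma 3 p : ℂ) = 1 + (p : ℂ) ^ 3 := by
  rw [ArithmeticFunction.sigma_apply, hp.divisors, Finset.sum_pair hp.ne_one.symm]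
  push_cast
  ring

/-- **Arithmetic core of the one-trace bound.**  `A = c + ∑ a_k q^k` with `a_k ∈ ℤ` and
`a_{p²k} = a_k`; `N = lam * E₄`; and `N = A * E + p⁻¹ U_p (U_p A * E)` for the Eisenstein
series `E = (p-1)/24 + ∑ σ'(k) q^k`.  Then `(p+1) c ∈ ℤ`. -/
theorem core {p : ℕ} (hp : p.Prime) (hp5 : 5 ≤ p) (c lam : ℂ) (a : ℕ → ℤ)
    (ha0 : a 0 = 0) (hsq : ∀ k, a (p * (p * k)) = a k)
    (A N : PowerSeries ℂ)
    (hA : A = PowerSeries.C c + PowerSeries.map (Int.castRingHom ℂ) (PowerSeries.mk a))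
    (hN0 : PowerSeries.coeff 0 N = lam)
    (hN : ∀ k, 1 ≤ k →
      PowerSeries.coeff k N = lam * (240 * (ArithmeticFunction.sigma 3 k : ℂ)))
    (hid : N = A * eisSeries p + (p : ℂ)⁻¹ • Up p (Up p A * eisSeries p)) :
    ∃ y : ℤ, ((p : ℂ) + 1) * c = y := by
  have hp0 : (p : ℂ) ≠ 0 := Nat.cast_ne_zero.mpr hp.ne_zero
  set r : ℂ := ((p : ℂ) - 1) / 24 with hr
  set e : ℕ → ℤ := fun n => if n = 0 then 0 else (sigmaP p n : ℤ) with he
  set a' : ℕ → ℤ := fun n => a (p * n) with ha'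
  have he0 : e 0 = 0 := by simp [he]
  have ha'0 : a' 0 = 0 := by simp [ha', ha0]
  have hE : eisSeries p =
      PowerSeries.C r + PowerSeries.map (Int.castRingHom ℂ) (PowerSeries.mk e) := by
    ext n
    simp only [eisSeries, PowerSeries.coeff_mk, map_add, PowerSeries.coeff_C,
      PowerSeries.coeff_map, eq_intCast, he]
    split_ifs with h <;> simp [hr]
  have hUA : Up p A =
      PowerSeries.C c + PowerSeries.map (Int.castRingHom ℂ) (PowerSeries.mk a') := by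
    ext n
    rw [hA]
    simp only [coeff_Up, map_add, PowerSeries.coeff_C, PowerSeries.coeff_map,
      PowerSeries.coeff_mk, eq_intCast, mul_eq_zero, hp.ne_zero, false_or, ha']
  -- coefficient identities
  have hcoeff : ∀ k, PowerSeries.coeff k N = PowerSeries.coeff k (A * eisSeries p) +
      (p : ℂ)⁻¹ * PowerSeries.coeff (p * k) (Up p A * eisSeries p) := by
    intro k
    rw [hid]
    simp
  have hlam : lam = c * r + (p : ℂ)⁻¹ * (c * r) := by
    have h := hcoeff 0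
    rw [hN0, mul_zero, hUA, hA, hE, coeff_zero_mul_split c r a e ha0 he0,
      coeff_zero_mul_split c r a' e ha'0 he0] at h
    exact h
  obtain ⟨M, hM⟩ := sq_sub_one_eq hp hp5
  have hMc : ((p : ℂ) + 1) * r = (M : ℂ) := by
    have : ((p : ℂ)) ^ 2 - 1 = 24 * (M : ℂ) := by exact_mod_cast hM
    rw [hr]
    linear_combination this / 24
  -- the key integrality relation
  have key : ∀ k, 1 ≤ k → ∃ y : ℤ, ((p : ℂ) + 1) * c *
      ((sigmaP p k : ℂ) - 10 * ((p : ℂ) - 1) * (ArithmeticFunction.sigma 3 k : ℂ)) = y := by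
    intro k hk
    have hk0 : k ≠ 0 := by omega
    have hpk : 1 ≤ p * k := Nat.mul_pos hp.pos hk
    have hpk0 : p * k ≠ 0 := by omega
    have h := hcoeff k
    rw [hN k hk, hUA, hA, hE, coeff_mul_split c r a e k hk,
      coeff_mul_split c r a' e (p * k) hpk] at h
    have hek : (e k : ℂ) = (sigmaP p k : ℂ) := by simp [he, hk0]
    have hepk : (e (p * k) : ℂ) = (sigmaP p k : ℂ) := by
      simp [he, hpk0, sigmaP_mul_self hp]
    have ha'k : a' (p * k) = a k := hsq k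
    rw [hek, hepk, ha'k] at h
    set I1 : ℤ := PowerSeries.coeff k (PowerSeries.mk a * PowerSeries.mk e) with hI1
    set I2 : ℤ := PowerSeries.coeff (p * k) (PowerSeries.mk a' * PowerSeries.mk e) with hI2
    refine ⟨-(M * a k + p * I1 + I2), ?_⟩
    push_cast
    have h10 : r * 240 = 10 * ((p : ℂ) - 1) := by rw [hr]; ring
    -- multiply `h` by `p`
    have h' : (p : ℂ) * (lam * (240 * (ArithmeticFunction.sigma 3 k : ℂ))) =
        (p : ℂ) * (c * (sigmaP p k : ℂ) + r * (a k : ℂ) + (I1 : ℂ)) +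
          (c * (sigmaP p k : ℂ) + r * (a k : ℂ) + (I2 : ℂ)) := by
      rw [h]
      field_simp
    have hplam : (p : ℂ) * lam = ((p : ℂ) + 1) * (c * r) := by
      rw [hlam]
      field_simp
    linear_combination (-1 : ℂ) * h' +
      (240 * (ArithmeticFunction.sigma 3 k : ℂ)) * hplam +
      (-(a k : ℂ)) * hMc + (((p : ℂ) + 1) * c * (ArithmeticFunction.sigma 3 k : ℂ)) * h10
  obtain ⟨y1, hy1⟩ := key 1 le_rfl
  obtain ⟨y2, hy2⟩ := key 2 (by norm_num)
  obtain ⟨y3, hy3⟩ := key p hp.one_lt.le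
  rw [sigmaP_one hp, sigma_three_one] at hy1
  rw [sigmaP_two hp5, sigma_three_two] at hy2
  rw [sigmaP_self hp, sigma_three_prime hp] at hy3
  push_cast at hy1 hy2 hy3
  set X : ℂ := ((p : ℂ) + 1) * c with hX
  -- `6 X` and `3 X` are integers
  have h6 : 6 * X = 9 * (y1 : ℂ) - (y2 : ℂ) := by
    linear_combination 9 * hy1 - hy2
  have h3 : 3 * X = 3 * (y1 : ℂ) + 5 * ((p : ℂ) - 1) * (9 * (y1 : ℂ) - (y2 : ℂ)) := by
    linear_combination 3 * hy1 + 5 * ((p : ℂ) - 1) * h6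
  have hmod : p % 3 = 1 ∨ p % 3 = 2 := by
    have h3' : p % 3 ≠ 0 := by
      intro h
      have : 3 ∣ p := Nat.dvd_of_mod_eq_zero h
      have := (Nat.prime_dvd_prime_iff_eq Nat.prime_three hp).mp this
      omega
    omega
  rcases hmod with h | h
  · obtain ⟨u, hu⟩ : ∃ u : ℕ, p = 3 * u + 1 := ⟨p / 3, by omega⟩
    have hpu : (p : ℂ) = 3 * (u : ℂ) + 1 := by exact_mod_cast hu
    refine ⟨y1 + 10 * (u : ℤ) * (3 * y1 + 5 * ((p : ℤ) - 1) * (9 * y1 - y2)), ?_⟩
    push_cast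
    linear_combination hy1 + 10 * (u : ℂ) * h3 + (10 * X) * hpu
  · obtain ⟨u, hu⟩ : ∃ u : ℕ, p = 3 * u + 2 := ⟨p / 3, by omega⟩
    have hpu : (p : ℂ) = 3 * (u : ℂ) + 2 := by exact_mod_cast hu
    have hcube : 1 + (p : ℂ) ^ 3 = 3 * (9 * (u : ℂ) ^ 3 + 18 * (u : ℂ) ^ 2 + 12 * (u : ℂ) + 3) := by
      rw [hpu]; ring
    refine ⟨y3 + 10 * ((p : ℤ) - 1) * (9 * (u : ℤ) ^ 3 + 18 * (u : ℤ) ^ 2 + 12 * (u : ℤ) + 3) *
      (3 * y1 + 5 * ((p : ℤ) - 1) * (9 * y1 - y2)), ?_⟩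
    push_cast
    linear_combination hy3 +
      10 * ((p : ℂ) - 1) * (9 * (u : ℂ) ^ 3 + 18 * (u : ℂ) ^ 2 + 12 * (u : ℂ) + 3) * h3 +
      (10 * ((p : ℂ) - 1) * X) * hcube

/-! ### The modular statement -/

/-- **Interface** (trace module): for `G, H ∈ M₂(Γ₀(p))` the trace of `G * H` to level one is a
weight-4 form of level one with `q`-expansion `G H + p⁻¹ U_p (U_p G * U_p H)`
(coset representatives `1, S T^j`; `(G H)|W = (G|W)(H|W)`; in weight 2, `G|W = - U_p G`). -/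
def Stmt_TraceMul (p : ℕ) : Prop :=
  ∀ G H : ModularForm (Gamma0 p) 2, ∃ N : ModularForm 𝒮ℒ 4,
    qExpansion 1 N = qExpansion 1 G * qExpansion 1 H +
      (p : ℂ)⁻¹ • Up p (Up p (qExpansion 1 G) * Up p (qExpansion 1 H))

/-- **Interface** (conjugates module): `U_p² = 1` on `M₂(Γ₀(p))`
(from `G|W = - U_p G` applied twice). -/
def Stmt_UpSq (p : ℕ) : Prop :=
  ∀ G : ModularForm (Gamma0 p) 2, Up p (Up p (qExpansion 1 G)) = qExpansion 1 G

/-- A level-one form of weight 4 is its constant term times `E₄`. -/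
lemma levelOne_four_coeff (N : ModularForm 𝒮ℒ 4) (k : ℕ) (hk : 1 ≤ k) :
    PowerSeries.coeff k (qExpansion 1 N) =
      PowerSeries.coeff 0 (qExpansion 1 N) * (240 * (ArithmeticFunction.sigma 3 k : ℂ)) := by
  obtain ⟨c4, hc4⟩ : ∃ c4 : ℂ, c4 • E₄ = N :=
    (finrank_eq_one_iff_of_nonzero' E₄ (E_ne_zero _ ⟨2, rfl⟩)).mp
      (Module.rank_eq_one_iff_finrank_eq_one.mp levelOne_weight_four_rank_one) _
  have hq : qExpansion 1 N = c4 • qExpansion 1 E₄ := by
    rw [← ModularForm.qExpansion_smul one_pos one_mem_strictPeriods_SL c4 E₄, ← hc4]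
    rfl
  have hk0 : k ≠ 0 := by omega
  have hb : bernoulli 4 = -1 / 30 := by decide +kernel
  rw [hq]
  simp only [PowerSeries.coeff_smul, E_qExpansion_coeff _ ⟨2, rfl⟩, if_neg hk0, if_true,
    smul_eq_mul, mul_one, hb]
  push_cast
  ring

/-- **One-trace bound (A1).**  For a prime `p ≥ 5` and `G ∈ M₂(Γ₀(p))` with integral
`q`-coefficients `a_k(G)` for all `k ≥ 1`, the number `(p + 1) a_0(G)` is an integer. -/
theorem succ_mul_coeff_zero_int (p : ℕ) [hpf : Fact p.Prime] (hp5 : 5 ≤ p)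
    (hT : Stmt_TraceMul p) (hU : Stmt_UpSq p)
    (E : ModularForm (Gamma0 p) 2) (hE : qExpansion 1 E = eisSeries p)
    (G : ModularForm (Gamma0 p) 2)
    (hG : ∀ k, 1 ≤ k → ∃ z : ℤ, PowerSeries.coeff k (qExpansion 1 G) = z) :
    ∃ y : ℤ, ((p : ℂ) + 1) * PowerSeries.coeff 0 (qExpansion 1 G) = y := by
  have hp : p.Prime := hpf.out
  obtain ⟨N, hN⟩ := hT G E
  rw [hE, eisSeries_Up hp] at hN
  have hG' : ∀ k, ∃ z : ℤ, 1 ≤ k → PowerSeries.coeff k (qExpansion 1 G) = z := by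
    intro k
    by_cases h : 1 ≤ k
    · obtain ⟨z, hz⟩ := hG k h
      exact ⟨z, fun _ => hz⟩
    · exact ⟨0, fun h' => absurd h' h⟩
  choose z hz using hG'
  set a : ℕ → ℤ := fun k => if k = 0 then 0 else z k with ha
  have ha0 : a 0 = 0 := by simp [ha]
  have hak : ∀ k, 1 ≤ k → (a k : ℂ) = PowerSeries.coeff k (qExpansion 1 G) := by
    intro k hk
    have hk0 : k ≠ 0 := by omega
    simp only [ha, if_neg hk0]
    exact (hz k hk).symm
  refine core hp hp5 (PowerSeries.coeff 0 (qExpansion 1 G)) (PowerSeries.coeff 0 (qExpansion 1 N))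
    a ha0 ?_ (qExpansion 1 G) (qExpansion 1 N) ?_ rfl (levelOne_four_coeff N) hN
  · intro k
    rcases Nat.eq_zero_or_pos k with rfl | hk
    · simp [ha0]
    · have hpk : 1 ≤ p * (p * k) := Nat.mul_pos hp.pos (Nat.mul_pos hp.pos hk)
      have h1 := congrArg (PowerSeries.coeff k) (hU G)
      rw [coeff_Up, coeff_Up, ← hak _ hpk, ← hak k hk] at h1
      exact_mod_cast h1
  · ext n
    rcases Nat.eq_zero_or_pos n with rfl | hn
    · simp only [map_add, PowerSeries.coeff_C, if_true, PowerSeries.coeff_map,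
        PowerSeries.coeff_mk, eq_intCast, ha0, Int.cast_zero, add_zero]
    · have hn0 : n ≠ 0 := by omega
      simp only [map_add, PowerSeries.coeff_C, if_neg hn0, PowerSeries.coeff_map,
        PowerSeries.coeff_mk, eq_intCast, zero_add]
      exact (hak n hn).symm

lemma sq_eq_nat {p : ℕ} (hp : p.Prime) (hp5 : 5 ≤ p) : p ^ 2 = 24 * ((p ^ 2 - 1) / 24) + 1 := by
  have h2 : p % 2 = 1 := by
    rcases hp.eq_two_or_odd with h | h
    · omega
    · exact h
  have h3 : p % 3 ≠ 0 := by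
    intro h
    have : 3 ∣ p := Nat.dvd_of_mod_eq_zero h
    have := (Nat.prime_dvd_prime_iff_eq Nat.prime_three hp).mp this
    omega
  have h24 : p ^ 2 % 24 = 1 := by
    rw [Nat.pow_mod]
    have : p % 24 = 1 ∨ p % 24 = 5 ∨ p % 24 = 7 ∨ p % 24 = 11 ∨ p % 24 = 13 ∨ p % 24 = 17 ∨
        p % 24 = 19 ∨ p % 24 = 23 := by omega
    rcases this with h | h | h | h | h | h | h | h <;> rw [h]
  omega

/-- **A1 in cusp-form shape.**  If a weight-2 cusp form `g` of level `p` has `q`-coefficients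
`a_k(g) ≡ σ'(k) mod m` for all `k ≥ 1` (with integer quotients), then `m ∣ (p² - 1)/24`. -/
theorem dvd_of_cuspForm_congruence (p : ℕ) [hpf : Fact p.Prime] (hp5 : 5 ≤ p)
    (hT : Stmt_TraceMul p) (hU : Stmt_UpSq p)
    (E : ModularForm (Gamma0 p) 2) (hE : qExpansion 1 E = eisSeries p)
    (m : ℕ) (hm : 0 < m) (g : CuspForm (Gamma0 p) 2)
    (hg : ∀ k, 1 ≤ k → ∃ c : ℤ,
      PowerSeries.coeff k (qExpansion 1 g) = (sigmaP p k : ℂ) + (m : ℂ) * c) :
    m ∣ (p ^ 2 - 1) / 24 := by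
  have hp : p.Prime := hpf.out
  have hm0 : (m : ℂ) ≠ 0 := Nat.cast_ne_zero.mpr hm.ne'
  have hΓ := CongruenceSubgroup.one_mem_strictPeriods_Gamma0 p
  set G : ModularForm (Gamma0 p) 2 := (m : ℂ)⁻¹ • (E - CuspForm.toModularFormₗ g) with hGdef
  have hq : qExpansion 1 G = (m : ℂ)⁻¹ • (qExpansion 1 E - qExpansion 1 g) := by
    have h1 : (G : ℍ → ℂ) = (m : ℂ)⁻¹ • ((E - CuspForm.toModularFormₗ g : ModularForm (Gamma0 p) 2) : ℍ → ℂ) := rfl
    have h2 : ((E - CuspForm.toModularFormₗ g : ModularForm (Gamma0 p) 2) : ℍ → ℂ) =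
        (E : ℍ → ℂ) - (g : ℍ → ℂ) := rfl
    rw [h1, ModularForm.qExpansion_smul one_pos hΓ, h2, ModularForm.qExpansion_sub one_pos hΓ]
  have hcoeff : ∀ k, 1 ≤ k → ∃ z : ℤ, PowerSeries.coeff k (qExpansion 1 G) = z := by
    intro k hk
    have hk0 : k ≠ 0 := by omega
    obtain ⟨c, hc⟩ := hg k hk
    refine ⟨-c, ?_⟩
    rw [hq, hE]
    simp only [PowerSeries.coeff_smul, map_sub, eisSeries, PowerSeries.coeff_mk, if_neg hk0, hc,
      smul_eq_mul]
    push_cast
    field_simp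
    ring
  obtain ⟨y, hy⟩ := succ_mul_coeff_zero_int p hp5 hT hU E hE G hcoeff
  have h0 : PowerSeries.coeff 0 (qExpansion 1 G) = (m : ℂ)⁻¹ * (((p : ℂ) - 1) / 24) := by
    rw [hq, hE]
    simp only [PowerSeries.coeff_smul, map_sub, eisSeries, PowerSeries.coeff_mk, if_true,
      smul_eq_mul, CuspFormClass.qExpansion_coeff_zero g one_pos hΓ, sub_zero]
  rw [h0] at hy
  have hsq := sq_eq_nat hp hp5
  set M : ℕ := (p ^ 2 - 1) / 24 with hMdef
  have hsqC : (p : ℂ) ^ 2 = 24 * (M : ℂ) + 1 := by exact_mod_cast hsq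
  have hMy : (M : ℂ) = (m : ℂ) * (y : ℂ) := by
    rw [← hy]
    field_simp
    linear_combination (-1 : ℂ) * hsqC
  have hMy' : (M : ℤ) = (m : ℤ) * y := by exact_mod_cast hMy
  exact Int.natCast_dvd_natCast.mp ⟨y, hMy'⟩

/-! ### Arithmetic glue for the upper bound -/

lemma dvd_of_dvd_mul_of_gcd {m n x y g : ℕ} (h1 : m ∣ n * x) (h2 : m ∣ n * y)
    (hxy : Nat.gcd x y = g) : m ∣ n * g := by
  have h := Nat.dvd_gcd h1 h2
  rwa [Nat.gcd_mul_left, hxy] at h

lemma gcd_of_mod {t r y : ℕ} (h : t % y = r) : Nat.gcd t y = Nat.gcd r y := by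
  rw [Nat.gcd_comm t y, Nat.gcd_rec y t, h, Nat.gcd_comm]

/-- **Arithmetic glue.**  For a prime `p ≥ 5`: if `m ∣ (p² - 1)/24` (one-trace bound A1),
`m ∣ p - 1` (Hecke-commutator bound) and `m` is odd when `p ≡ 7 mod 8` (the 2-adic norm case),
then `m ∣ (p - 1)/gcd(p - 1, 12)`, the Eisenstein numerator. -/
theorem dvd_numerator_of_bounds {p m : ℕ} (hp : p.Prime) (hp5 : 5 ≤ p)
    (hA1 : m ∣ (p ^ 2 - 1) / 24) (hHC : m ∣ p - 1) (h2 : p % 8 = 7 → ¬ 2 ∣ m) :
    m ∣ (p - 1) / Nat.gcd (p - 1) 12 := by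
  have hp2 : p % 2 = 1 := by
    rcases hp.eq_two_or_odd with h | h
    · omega
    · exact h
  have hp3 : p % 3 ≠ 0 := by
    intro h
    have : 3 ∣ p := Nat.dvd_of_mod_eq_zero h
    have := (Nat.prime_dvd_prime_iff_eq Nat.prime_three hp).mp this
    omega
  obtain ⟨q, hq⟩ : ∃ q : ℕ, p = 24 * q + p % 24 := ⟨p / 24, by omega⟩
  have hcases : p % 24 = 1 ∨ p % 24 = 5 ∨ p % 24 = 7 ∨ p % 24 = 11 ∨ p % 24 = 13 ∨ p % 24 = 17 ∨
      p % 24 = 19 ∨ p % 24 = 23 := by omega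
  rcases hcases with h | h | h | h | h | h | h | h <;> rw [h] at hq <;> subst hq
  · -- p = 24 q + 1
    have hg : Nat.gcd (24 * q + 1 - 1) 12 = 12 := by
      rw [gcd_of_mod (r := 0) (by omega)]; rfl
    have hn : (24 * q + 1 - 1) / 12 = 2 * q := by omega
    have e1 : ((24 * q + 1) ^ 2 - 1) / 24 = (2 * q) * (12 * q + 1) := by
      have h' : (24 * q + 1) ^ 2 = 24 * ((2 * q) * (12 * q + 1)) + 1 := by ring
      have h'' : (24 * q + 1) ^ 2 - 1 = 24 * ((2 * q) * (12 * q + 1)) := by omega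
      rw [h'', Nat.mul_div_cancel_left _ (by norm_num)]
    have e2 : 24 * q + 1 - 1 = (2 * q) * 12 := by omega
    have hxy : Nat.gcd (12 * q + 1) 12 = 1 := by
      rw [gcd_of_mod (r := 1) (by omega)]; rfl
    rw [hg, hn]
    rw [e1] at hA1
    rw [e2] at hHC
    have hfin := dvd_of_dvd_mul_of_gcd hA1 hHC hxy
    simpa using hfin
  · -- p = 24 q + 5
    have hg : Nat.gcd (24 * q + 5 - 1) 12 = 4 := by
      rw [gcd_of_mod (r := 4) (by omega)]; rfl
    have hn : (24 * q + 5 - 1) / 4 = 6 * q + 1 := by omega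
    have e1 : ((24 * q + 5) ^ 2 - 1) / 24 = (6 * q + 1) * (4 * q + 1) := by
      have h' : (24 * q + 5) ^ 2 = 24 * ((6 * q + 1) * (4 * q + 1)) + 1 := by ring
      have h'' : (24 * q + 5) ^ 2 - 1 = 24 * ((6 * q + 1) * (4 * q + 1)) := by omega
      rw [h'', Nat.mul_div_cancel_left _ (by norm_num)]
    have e2 : 24 * q + 5 - 1 = (6 * q + 1) * 4 := by omega
    have hxy : Nat.gcd (4 * q + 1) 4 = 1 := by
      rw [gcd_of_mod (r := 1) (by omega)]; rfl
    rw [hg, hn]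
    rw [e1] at hA1
    rw [e2] at hHC
    have hfin := dvd_of_dvd_mul_of_gcd hA1 hHC hxy
    simpa using hfin
  · -- p = 24 q + 7
    have hg : Nat.gcd (24 * q + 7 - 1) 12 = 6 := by
      rw [gcd_of_mod (r := 6) (by omega)]; rfl
    have hn : (24 * q + 7 - 1) / 6 = 4 * q + 1 := by omega
    have e1 : ((24 * q + 7) ^ 2 - 1) / 24 = (4 * q + 1) * (6 * q + 2) := by
      have h' : (24 * q + 7) ^ 2 = 24 * ((4 * q + 1) * (6 * q + 2)) + 1 := by ring
      have h'' : (24 * q + 7) ^ 2 - 1 = 24 * ((4 * q + 1) * (6 * q + 2)) := by omega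
      rw [h'', Nat.mul_div_cancel_left _ (by norm_num)]
    have e2 : 24 * q + 7 - 1 = (4 * q + 1) * 6 := by omega
    have hxy : Nat.gcd (6 * q + 2) 6 = 2 := by
      rw [gcd_of_mod (r := 2) (by omega)]; rfl
    rw [hg, hn]
    rw [e1] at hA1
    rw [e2] at hHC
    have hfin := dvd_of_dvd_mul_of_gcd hA1 hHC hxy
    have hodd : ¬ 2 ∣ m := h2 (by omega)
    exact Nat.Coprime.dvd_of_dvd_mul_right
      ((Nat.Prime.coprime_iff_not_dvd Nat.prime_two).mpr hodd).symm hfin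
  · -- p = 24 q + 11
    have hg : Nat.gcd (24 * q + 11 - 1) 12 = 2 := by
      rw [gcd_of_mod (r := 10) (by omega)]; rfl
    have hn : (24 * q + 11 - 1) / 2 = 12 * q + 5 := by omega
    have e1 : ((24 * q + 11) ^ 2 - 1) / 24 = (12 * q + 5) * (2 * q + 1) := by
      have h' : (24 * q + 11) ^ 2 = 24 * ((12 * q + 5) * (2 * q + 1)) + 1 := by ring
      have h'' : (24 * q + 11) ^ 2 - 1 = 24 * ((12 * q + 5) * (2 * q + 1)) := by omega
      rw [h'', Nat.mul_div_cancel_left _ (by norm_num)]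
    have e2 : 24 * q + 11 - 1 = (12 * q + 5) * 2 := by omega
    have hxy : Nat.gcd (2 * q + 1) 2 = 1 := by
      rw [gcd_of_mod (r := 1) (by omega)]; rfl
    rw [hg, hn]
    rw [e1] at hA1
    rw [e2] at hHC
    have hfin := dvd_of_dvd_mul_of_gcd hA1 hHC hxy
    simpa using hfin
  · -- p = 24 q + 13
    have hg : Nat.gcd (24 * q + 13 - 1) 12 = 12 := by
      rw [gcd_of_mod (r := 0) (by omega)]; rfl
    have hn : (24 * q + 13 - 1) / 12 = 2 * q + 1 := by omega
    have e1 : ((24 * q + 13) ^ 2 - 1) / 24 = (2 * q + 1) * (12 * q + 7) := by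
      have h' : (24 * q + 13) ^ 2 = 24 * ((2 * q + 1) * (12 * q + 7)) + 1 := by ring
      have h'' : (24 * q + 13) ^ 2 - 1 = 24 * ((2 * q + 1) * (12 * q + 7)) := by omega
      rw [h'', Nat.mul_div_cancel_left _ (by norm_num)]
    have e2 : 24 * q + 13 - 1 = (2 * q + 1) * 12 := by omega
    have hxy : Nat.gcd (12 * q + 7) 12 = 1 := by
      rw [gcd_of_mod (r := 7) (by omega)]; rfl
    rw [hg, hn]
    rw [e1] at hA1
    rw [e2] at hHC
    have hfin := dvd_of_dvd_mul_of_gcd hA1 hHC hxy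
    simpa using hfin
  · -- p = 24 q + 17
    have hg : Nat.gcd (24 * q + 17 - 1) 12 = 4 := by
      rw [gcd_of_mod (r := 4) (by omega)]; rfl
    have hn : (24 * q + 17 - 1) / 4 = 6 * q + 4 := by omega
    have e1 : ((24 * q + 17) ^ 2 - 1) / 24 = (6 * q + 4) * (4 * q + 3) := by
      have h' : (24 * q + 17) ^ 2 = 24 * ((6 * q + 4) * (4 * q + 3)) + 1 := by ring
      have h'' : (24 * q + 17) ^ 2 - 1 = 24 * ((6 * q + 4) * (4 * q + 3)) := by omega
      rw [h'', Nat.mul_div_cancel_left _ (by norm_num)]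
    have e2 : 24 * q + 17 - 1 = (6 * q + 4) * 4 := by omega
    have hxy : Nat.gcd (4 * q + 3) 4 = 1 := by
      rw [gcd_of_mod (r := 3) (by omega)]; rfl
    rw [hg, hn]
    rw [e1] at hA1
    rw [e2] at hHC
    have hfin := dvd_of_dvd_mul_of_gcd hA1 hHC hxy
    simpa using hfin
  · -- p = 24 q + 19
    have hg : Nat.gcd (24 * q + 19 - 1) 12 = 6 := by
      rw [gcd_of_mod (r := 6) (by omega)]; rfl
    have hn : (24 * q + 19 - 1) / 6 = 4 * q + 3 := by omega
    have e1 : ((24 * q + 19) ^ 2 - 1) / 24 = (4 * q + 3) * (6 * q + 5) := by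
      have h' : (24 * q + 19) ^ 2 = 24 * ((4 * q + 3) * (6 * q + 5)) + 1 := by ring
      have h'' : (24 * q + 19) ^ 2 - 1 = 24 * ((4 * q + 3) * (6 * q + 5)) := by omega
      rw [h'', Nat.mul_div_cancel_left _ (by norm_num)]
    have e2 : 24 * q + 19 - 1 = (4 * q + 3) * 6 := by omega
    have hxy : Nat.gcd (6 * q + 5) 6 = 1 := by
      rw [gcd_of_mod (r := 5) (by omega)]; rfl
    rw [hg, hn]
    rw [e1] at hA1
    rw [e2] at hHC
    have hfin := dvd_of_dvd_mul_of_gcd hA1 hHC hxy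
    simpa using hfin
  · -- p = 24 q + 23
    have hg : Nat.gcd (24 * q + 23 - 1) 12 = 2 := by
      rw [gcd_of_mod (r := 10) (by omega)]; rfl
    have hn : (24 * q + 23 - 1) / 2 = 12 * q + 11 := by omega
    have e1 : ((24 * q + 23) ^ 2 - 1) / 24 = (12 * q + 11) * (2 * q + 2) := by
      have h' : (24 * q + 23) ^ 2 = 24 * ((12 * q + 11) * (2 * q + 2)) + 1 := by ring
      have h'' : (24 * q + 23) ^ 2 - 1 = 24 * ((12 * q + 11) * (2 * q + 2)) := by omega
      rw [h'', Nat.mul_div_cancel_left _ (by norm_num)]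
    have e2 : 24 * q + 23 - 1 = (12 * q + 11) * 2 := by omega
    have hxy : Nat.gcd (2 * q + 2) 2 = 2 := by
      rw [gcd_of_mod (r := 0) (by omega)]; rfl
    rw [hg, hn]
    rw [e1] at hA1
    rw [e2] at hHC
    have hfin := dvd_of_dvd_mul_of_gcd hA1 hHC hxy
    have hodd : ¬ 2 ∣ m := h2 (by omega)
    exact Nat.Coprime.dvd_of_dvd_mul_right
      ((Nat.Prime.coprime_iff_not_dvd Nat.prime_two).mpr hodd).symm hfin

end Fermat.Agent.S16.helper879
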