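/-
S16 lower bound, assembly core (helper8862).

`n ∣ eis t` for every Hecke polynomial `t` killing `S_2(Γ₀(p))`, from
* (STEP)  for every prime `l` a finite family `g i : Γ₀(p) → Γ₀(p)` with
          `periodHomPair (T_l v) γ = ∑ i, periodHomPair v (g i γ)` and
          `∑ i, ψ₀ (g i γ) = eisensteinSystem p l * ψ₀ γ`   (Shimura class eigen-relation),
* (LIFT)  an integral parabolic lift of `ψ₀ : Γ₀(p) → ZMod n`,
* (S21)   `range periodHomPair = parabolicHoms ℂ`.

No operator on `Hom(Γ₀(p), A)` is formed and no commutativity of transfer operators is used: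
integrality and the congruence are carried along as a predicate `Good` on `S_2 × S_2`.
-/
import Mathlib
import Fermat.Statements.S16
import Fermat.Statements.S21

set_option autoImplicit false

namespace Fermat.Agent.S16.helper8862

open ModularCurve CuspForm CongruenceSubgroup ModularCurve.Period
open scoped MatrixGroups

noncomputable section

variable (p : ℕ) [Fact p.Prime]

/-- The pairs of weight-2 cusp forms. -/
abbrev S2sq : Type := CuspForm (Gamma0 p) 2 × CuspForm (Gamma0 p) 2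

/-- The operator on `S_2(Γ₀(p))` attached to a Hecke polynomial. -/
def opOf (t : HeckeAlg) : Module.End ℂ (CuspForm (Gamma0 p) 2) :=
  ((heckeEvalForms p 2 t : heckeAlgebra p 2 ∅) : Module.End ℂ (CuspForm (Gamma0 p) 2))

/-- Componentwise action of a Hecke polynomial on pairs of cusp forms. -/
def act (t : HeckeAlg) (v : S2sq p) : S2sq p := (opOf p t v.1, opOf p t v.2)

lemma opOf_C (a : ℤ) (f : CuspForm (Gamma0 p) 2) : opOf p (MvPolynomial.C a) f = a • f := by
  unfold opOf
  rw [heckeEvalForms_C]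
  simp

lemma opOf_add (s t : HeckeAlg) (f : CuspForm (Gamma0 p) 2) :
    opOf p (s + t) f = opOf p s f + opOf p t f := by
  unfold opOf
  rw [map_add]
  rfl

lemma opOf_mul (s t : HeckeAlg) (f : CuspForm (Gamma0 p) 2) :
    opOf p (s * t) f = opOf p s (opOf p t f) := by
  unfold opOf
  rw [map_mul]
  rfl

lemma act_C (a : ℤ) (v : S2sq p) : act p (MvPolynomial.C a) v = a • v := by
  unfold act
  rw [opOf_C, opOf_C]
  rfl

lemma act_add (s t : HeckeAlg) (v : S2sq p) : act p (s + t) v = act p s v + act p t v := by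
  unfold act
  rw [opOf_add, opOf_add]
  rfl

lemma act_mul (s t : HeckeAlg) (v : S2sq p) : act p (s * t) v = act p s (act p t v) := by
  unfold act
  rw [opOf_mul, opOf_mul]

lemma act_eq_zero_of_eval_eq_zero {t : HeckeAlg} (ht : heckeEvalForms p 2 t = 0) (v : S2sq p) :
    act p t v = 0 := by
  unfold act opOf
  rw [ht]
  rfl

/-- Unfolding of the generator action, prime not dividing the level. -/
lemma act_heckeGen_of_not_dvd (l : Nat.Primes) (h : ¬ (l : ℕ) ∣ p) (v : S2sq p) :
    act p (heckeGen l) v = (heckeTLin 2 l.2 h v.1, heckeTLin 2 l.2 h v.2) := by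
  unfold act opOf
  rw [heckeEvalForms_heckeGen_of_not_dvd h]
  rfl

/-- Unfolding of the generator action, prime dividing the level. -/
lemma act_heckeGen_of_dvd (l : Nat.Primes) (h : (l : ℕ) ∣ p) (v : S2sq p) :
    act p (heckeGen l) v = (heckeULin 2 h v.1, heckeULin 2 h v.2) := by
  unfold act opOf
  rw [heckeEvalForms_heckeGen_of_dvd h]
  rfl

/-- `v` has integral periods, congruent to `c • ψ₀` modulo `n`. -/
def Good (n : ℕ) (ψ₀ : Additive (Gamma0 p) →+ ZMod n) (v : S2sq p) (c : ZMod n) : Prop :=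
  ∀ γ : Additive (Gamma0 p), ∃ m : ℤ, periodHomPair p v γ = (m : ℂ) ∧ ((m : ℤ) : ZMod n) = c * ψ₀ γ

variable {p}

omit [Fact p.Prime] in
lemma Good.add {n : ℕ} {ψ₀ : Additive (Gamma0 p) →+ ZMod n} {v v' : S2sq p} {c c' : ZMod n}
    (h : Good p n ψ₀ v c) (h' : Good p n ψ₀ v' c') : Good p n ψ₀ (v + v') (c + c') := by
  intro γ
  obtain ⟨m, hm, hmc⟩ := h γ
  obtain ⟨m', hm', hmc'⟩ := h' γ
  refine ⟨m + m', ?_, ?_⟩
  · rw [map_add, AddMonoidHom.add_apply, hm, hm']
    push_cast
    ring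
  · push_cast
    rw [hmc, hmc']
    ring

omit [Fact p.Prime] in
lemma Good.zsmul {n : ℕ} {ψ₀ : Additive (Gamma0 p) →+ ZMod n} {v : S2sq p} {c : ZMod n}
    (h : Good p n ψ₀ v c) (a : ℤ) : Good p n ψ₀ (a • v) ((a : ZMod n) * c) := by
  intro γ
  obtain ⟨m, hm, hmc⟩ := h γ
  refine ⟨a * m, ?_, ?_⟩
  · rw [map_zsmul, AddMonoidHom.zsmul_apply, hm]
    push_cast
    simp
  · push_cast
    rw [hmc]
    ring

/-- The per-prime input: a transfer formula for the period pairing together with the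
eigen-relation of `ψ₀` for the same coset family. -/
def StepHyp (p : ℕ) [Fact p.Prime] (n : ℕ) (ψ₀ : Additive (Gamma0 p) →+ ZMod n) : Prop :=
  ∀ l : Nat.Primes, ∃ (ι : Type) (_ : Fintype ι)
    (g : ι → Additive (Gamma0 p) → Additive (Gamma0 p)),
    (∀ (v : S2sq p) (γ : Additive (Gamma0 p)),
        periodHomPair p (act p (heckeGen l) v) γ = ∑ i, periodHomPair p v (g i γ)) ∧
    (∀ γ : Additive (Gamma0 p),
        ∑ i, ψ₀ (g i γ) = ((eisensteinSystem p l : ℤ) : ZMod n) * ψ₀ γ)

lemma Good.step {n : ℕ} {ψ₀ : Additive (Gamma0 p) →+ ZMod n} (hstep : StepHyp p n ψ₀)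
    (l : Nat.Primes) {v : S2sq p} {c : ZMod n} (h : Good p n ψ₀ v c) :
    Good p n ψ₀ (act p (heckeGen l) v) (((eisensteinSystem p l : ℤ) : ZMod n) * c) := by
  obtain ⟨ι, _, g, hEQ, hEIG⟩ := hstep l
  intro γ
  choose m hm hmc using fun i : ι => h (g i γ)
  refine ⟨∑ i, m i, ?_, ?_⟩
  · rw [hEQ v γ]
    push_cast
    exact Finset.sum_congr rfl fun i _ => hm i
  · push_cast
    rw [Finset.sum_congr rfl fun i _ => hmc i, ← Finset.mul_sum, hEIG γ]
    ring

/-- The integer Eisenstein value of a Hecke polynomial. -/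
abbrev eisVal (p : ℕ) (t : HeckeAlg) : ℤ := MvPolynomial.aeval (eisensteinSystem p) t

lemma Good.act {n : ℕ} {ψ₀ : Additive (Gamma0 p) →+ ZMod n} (hstep : StepHyp p n ψ₀)
    (t : HeckeAlg) : ∀ (v : S2sq p) (c : ZMod n), Good p n ψ₀ v c →
      Good p n ψ₀ (act p t v) (((eisVal p t : ℤ) : ZMod n) * c) := by
  induction t using MvPolynomial.induction_on with
  | C a =>
    intro v c h
    rw [act_C]
    have := h.zsmul a
    simpa [eisVal] using this
  | add s t hs ht =>
    intro v c h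
    rw [act_add]
    have e : ((eisVal p (s + t) : ℤ) : ZMod n) * c
        = ((eisVal p s : ℤ) : ZMod n) * c + ((eisVal p t : ℤ) : ZMod n) * c := by
      simp only [eisVal, map_add]
      push_cast
      ring
    rw [e]
    exact (hs v c h).add (ht v c h)
  | mul_X s l hs =>
    intro v c h
    rw [act_mul]
    have h1 := Good.step hstep l h
    have h2 := hs _ _ h1
    have e : ((eisVal p (s * MvPolynomial.X l) : ℤ) : ZMod n) * c
        = ((eisVal p s : ℤ) : ZMod n) * (((eisensteinSystem p l : ℤ) : ZMod n) * c) := by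
      simp only [eisVal, map_mul, MvPolynomial.aeval_X]
      push_cast
      ring
    rw [e]
    exact h2

/-- **Lower-bound core.**  Shimura class + transfer formula + integral parabolic lift +
Eichler–Shimura (S21) give `n ∣ eis t` for every Hecke polynomial `t` acting as zero on
`S_2(Γ₀(p))`. -/
theorem dvd_eis_of_leaves (n : ℕ) (ψ₀ : Additive (Gamma0 p) →+ ZMod n)
    (hsurj : Function.Surjective ψ₀)
    (hstep : StepHyp p n ψ₀)
    (hlift : ∃ ψ : Additive (Gamma0 p) →+ ℤ, ψ ∈ parabolicHoms ℤ (Gamma0 p) ℤ ∧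
      ∀ γ, ((ψ γ : ℤ) : ZMod n) = ψ₀ γ)
    (hS21 : LinearMap.range (periodHomPair p) = parabolicHoms ℂ (Gamma0 p) ℂ)
    (t : HeckeAlg) (ht : heckeEvalForms p 2 t = 0) :
    (n : ℤ) ∣ MvPolynomial.aeval (eisensteinSystem p) t := by
  obtain ⟨ψ, hψpar, hψ⟩ := hlift
  -- the lift, viewed as a complex-valued parabolic homomorphism
  have hmem : (Int.castAddHom ℂ).comp ψ ∈ parabolicHoms ℂ (Gamma0 p) ℂ := by
    rw [mem_parabolicHoms_iff] at hψpar ⊢
    intro γ hγ
    show ((ψ (Additive.ofMul γ) : ℤ) : ℂ) = 0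
    rw [hψpar γ hγ]
    simp
  rw [← hS21] at hmem
  obtain ⟨v₀, hv₀⟩ := hmem
  have hgood : Good p n ψ₀ v₀ 1 := by
    intro γ
    refine ⟨ψ γ, ?_, ?_⟩
    · rw [hv₀]
      rfl
    · rw [hψ γ, one_mul]
  have h := Good.act hstep t v₀ 1 hgood
  rw [act_eq_zero_of_eval_eq_zero p ht, mul_one] at h
  obtain ⟨γ, hγ⟩ := hsurj 1
  obtain ⟨m, hm, hmc⟩ := h γ
  have hm0 : m = 0 := by
    have : ((m : ℤ) : ℂ) = 0 := by
      rw [← hm]
      simp
    exact_mod_cast this
  rw [hm0, hγ, mul_one, Int.cast_zero] at hmc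
  exact (ZMod.intCast_zmod_eq_zero_iff_dvd _ _).mp hmc.symm

/-- Variant with the hypothesis "`t` kills every cusp form". -/
theorem dvd_eis_of_leaves' (n : ℕ) (ψ₀ : Additive (Gamma0 p) →+ ZMod n)
    (hsurj : Function.Surjective ψ₀)
    (hstep : StepHyp p n ψ₀)
    (hlift : ∃ ψ : Additive (Gamma0 p) →+ ℤ, ψ ∈ parabolicHoms ℤ (Gamma0 p) ℤ ∧
      ∀ γ, ((ψ γ : ℤ) : ZMod n) = ψ₀ γ)
    (hS21 : LinearMap.range (periodHomPair p) = parabolicHoms ℂ (Gamma0 p) ℂ)
    (t : HeckeAlg)
    (ht : ∀ f : CuspForm (Gamma0 p) 2,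
      ((heckeEvalForms p 2 t : heckeAlgebra p 2 ∅) : Module.End ℂ (CuspForm (Gamma0 p) 2)) f = 0) :
    (n : ℤ) ∣ MvPolynomial.aeval (eisensteinSystem p) t := by
  refine dvd_eis_of_leaves n ψ₀ hsurj hstep hlift hS21 t ?_
  apply Subtype.ext
  apply LinearMap.ext
  intro f
  simpa using ht f


/-! ### Adapter: from the `periodMap`-level transfer formula to `StepHyp` -/

/-- Conjugation by `diag(1,-1)` on `Additive (Γ₀(p))`. -/
def jAdd (p : ℕ) (γ : Additive (Gamma0 p)) : Additive (Gamma0 p) :=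
  Additive.ofMul (jConjGamma0 p (Additive.toMul γ))

omit [Fact p.Prime] in
/-- Explicit formula for `periodHomPair` in terms of `periodMap`. -/
lemma periodHomPair_apply (hA : ExistsPeriodMapLinear p) (v : S2sq p)
    (γ : Additive (Gamma0 p)) :
    periodHomPair p v γ =
      periodMap p v.1 γ + periodMap p v.1 (jAdd p γ)
        + (periodMap p v.2 γ - periodMap p v.2 (jAdd p γ)) := by
  obtain ⟨pml, hpml, hdef⟩ := periodHomPair_def p hA
  rw [hdef]
  simp only [LinearMap.coprod_apply, LinearMap.comp_apply, LinearMap.add_apply,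
    LinearMap.sub_apply, LinearMap.id_apply, AddMonoidHom.add_apply, AddMonoidHom.sub_apply,
    charInvolution_apply, hpml]
  rfl

omit [Fact p.Prime] in
/-- If an endomorphism `T` of `S_2` satisfies the transfer formula on `periodMap` for a coset
family `g` which is compatible with `diag(1,-1)`-conjugation up to a permutation of the index
set, then the transfer formula holds for `periodHomPair`. -/
lemma periodHomPair_transfer (hA : ExistsPeriodMapLinear p) {ι : Type} [Fintype ι]
    (g : ι → Additive (Gamma0 p) → Additive (Gamma0 p))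
    (T : CuspForm (Gamma0 p) 2 → CuspForm (Gamma0 p) 2)
    (hEQ : ∀ (f : CuspForm (Gamma0 p) 2) (γ : Additive (Gamma0 p)),
      periodMap p (T f) γ = ∑ i, periodMap p f (g i γ))
    (π : Equiv.Perm ι) (hJ : ∀ i γ, g (π i) (jAdd p γ) = jAdd p (g i γ))
    (v : S2sq p) (γ : Additive (Gamma0 p)) :
    periodHomPair p (T v.1, T v.2) γ = ∑ i, periodHomPair p v (g i γ) := by
  have hsum : ∀ f : CuspForm (Gamma0 p) 2,
      ∑ i, periodMap p f (g i (jAdd p γ)) = ∑ i, periodMap p f (jAdd p (g i γ)) := by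
    intro f
    rw [← Equiv.sum_comp π (fun i => periodMap p f (g i (jAdd p γ)))]
    exact Finset.sum_congr rfl fun i _ => by rw [hJ i γ]
  rw [periodHomPair_apply hA]
  simp only [periodHomPair_apply hA, hEQ, hsum, Finset.sum_add_distrib, Finset.sum_sub_distrib]

/-- `StepHyp` from its two natural halves: for every prime `l` one coset family `g` with
(EQ) the `periodMap` transfer formula for the generator `T_l` resp. `U_p`, compatible with
`diag(1,-1)`-conjugation, and (EIG) the eigen-relation of `ψ₀`. -/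
theorem stepHyp_of_periodMap (hA : ExistsPeriodMapLinear p) (n : ℕ)
    (ψ₀ : Additive (Gamma0 p) →+ ZMod n)
    (h : ∀ l : Nat.Primes, ∃ (ι : Type) (_ : Fintype ι)
      (g : ι → Additive (Gamma0 p) → Additive (Gamma0 p)) (π : Equiv.Perm ι),
      (∀ (f : CuspForm (Gamma0 p) 2) (γ : Additive (Gamma0 p)),
        periodMap p (opOf p (heckeGen l) f) γ = ∑ i, periodMap p f (g i γ)) ∧
      (∀ i γ, g (π i) (jAdd p γ) = jAdd p (g i γ)) ∧
      (∀ γ : Additive (Gamma0 p),
        ∑ i, ψ₀ (g i γ) = ((eisensteinSystem p l : ℤ) : ZMod n) * ψ₀ γ)) :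
    StepHyp p n ψ₀ := by
  intro l
  obtain ⟨ι, inst, g, π, hEQ, hJ, hEIG⟩ := h l
  exact ⟨ι, inst, g, fun v γ => periodHomPair_transfer hA g (opOf p (heckeGen l)) hEQ π hJ v γ,
    hEIG⟩

/-- Unfolding of the generator operator, prime not dividing the level. -/
lemma opOf_heckeGen_of_not_dvd (l : Nat.Primes) (h : ¬ (l : ℕ) ∣ p)
    (f : CuspForm (Gamma0 p) 2) : opOf p (heckeGen l) f = heckeTLin 2 l.2 h f := by
  unfold opOf
  rw [heckeEvalForms_heckeGen_of_not_dvd h]
  rfl

/-- Unfolding of the generator operator, prime dividing the level. -/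
lemma opOf_heckeGen_of_dvd (l : Nat.Primes) (h : (l : ℕ) ∣ p)
    (f : CuspForm (Gamma0 p) 2) : opOf p (heckeGen l) f = heckeULin 2 h f := by
  unfold opOf
  rw [heckeEvalForms_heckeGen_of_dvd h]
  rfl

end

end Fermat.Agent.S16.helper8862
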