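import Mathlib
import Fermat.Agent.S16.helper9058_LBSpec
import Fermat.Agent.S16.helper1205_HeckeHom
import Fermat.Agent.S16.helper8671_Shimura
import Fermat.Agent.S16.helper1461_ParabolicLift

/-!
# S16, lower bound: final glue (helper9058)

The lower bound of `helper2246.result_of_bounds`,

  `∀ t : HeckeAlg, phi p t = 0 → (eisensteinNumerator p : ℤ) ∣ eis p t`,

from the landed leaves

* `helper8671.shimuraHom` (Shimura class, surjective, kills trace `±2` and `d ^ 12 = 1`),
* `helper1461.exists_parabolic_lift` (integral parabolic lift),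
* `helper1205.heckeHomT / heckeHomU` (transfer operators on `Hom(Γ₀(p), A)`, natural in `A`,
  with the eigen-computations `heckeHomT_dChar`, `heckeHomU_dChar`),
* `helper9058.lowerBound_of_TU` (wiring through S21 and S23),

and the two remaining analytic/combinatorial statements about the operators of `helper1205`,
passed as hypotheses: (EQ) equivariance of the Prelude period map, (INV) commutation with the
Prelude `charInvolution`.
-/

set_option autoImplicit false

namespace Fermat.Agent.S16.helper9058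

open ModularCurve ModularCurve.Period CuspForm CongruenceSubgroup
open scoped MatrixGroups

noncomputable section

/-- The additive character of `(ℤ/p)ˣ` underlying the Shimura class. -/
def chiAdd (p : ℕ) [Fact p.Prime] :
    Additive (ZMod p)ˣ →+ ZMod (eisensteinNumerator p) :=
  MonoidHom.toAdditiveLeft (helper8671.chiSh p)

/-- The Shimura class is the `d`-character of `chiAdd`. -/
lemma shimuraHom_eq_dChar (p : ℕ) [Fact p.Prime] :
    helper8671.shimuraHom p = helper1205.dChar (chiAdd p) := by
  refine AddMonoidHom.ext fun γ => ?_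
  rfl

/-- The natural operator `T_l~`. -/
def natOpT (p : ℕ) {l : ℕ} (hl : l.Prime) (hlp : ¬ l ∣ p) : NatOp p where
  op A _ := helper1205.heckeHomT p hl hlp A
  nat _ _ _ _ f φ := helper1205.heckeHomT_comp p hl hlp f φ

/-- The natural operator `U_p~`. -/
def natOpU (p : ℕ) [Fact p.Prime] : NatOp p where
  op A _ := helper1205.heckeHomU p (Fact.out : p.Prime) (dvd_refl p) A
  nat _ _ _ _ f φ := helper1205.heckeHomU_comp p (Fact.out : p.Prime) (dvd_refl p) f φ

/-- (ONE) -/
lemma shimuraHom_one (p : ℕ) [Fact p.Prime] : ∃ γ, helper8671.shimuraHom p γ = 1 :=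
  helper8671.shimuraHom_surjective p 1

/-- (LIFT) for the Shimura class. -/
lemma shimuraHom_lift (p : ℕ) [Fact p.Prime] :
    ∃ ψ : Additive (Gamma0 p) →+ ℤ, ψ ∈ parabolicHoms ℤ (Gamma0 p) ℤ ∧
      ∀ γ, ((ψ γ : ℤ) : ZMod (eisensteinNumerator p)) = helper8671.shimuraHom p γ := by
  refine helper1461.exists_parabolic_lift p (eisensteinNumerator p) (helper8671.shimuraHom p)
    ?_ ?_
  · refine helper8671.shimuraHom_isParabolicHom p _ ?_
    show ((ModularGroup.T : SL(2, ℤ)) : Matrix (Fin 2) (Fin 2) ℤ).trace ^ 2 = 4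
    rw [ModularGroup.coe_T, Matrix.trace_fin_two_of]
    norm_num
  · intro γ hγ
    rw [helper8671.shimuraHom_apply]
    have h : helper8671.dUnit p γ ^ 12 = 1 := by
      rw [← map_pow, hγ, map_one]
    rw [helper8671.chiSh_eq_one_of_pow_twelve p _ h]
    rfl

/-- (EIG) for `T_l~`. -/
lemma natOpT_shimuraHom (p : ℕ) [Fact p.Prime] {l : ℕ} (hl : l.Prime) (hlp : ¬ l ∣ p) :
    (natOpT p hl hlp).op (ZMod (eisensteinNumerator p)) (helper8671.shimuraHom p)
      = ((l : ℤ) + 1) • helper8671.shimuraHom p := by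
  have : Fact l.Prime := ⟨hl⟩
  show helper1205.heckeHomT p hl hlp _ (helper8671.shimuraHom p) = _
  rw [shimuraHom_eq_dChar, helper1205.heckeHomT_dChar hl hlp (chiAdd p)]
  rw [← natCast_zsmul]
  push_cast
  rfl

/-- (EIG) for `U_p~`. -/
lemma natOpU_shimuraHom (p : ℕ) [Fact p.Prime] :
    (natOpU p).op (ZMod (eisensteinNumerator p)) (helper8671.shimuraHom p)
      = helper8671.shimuraHom p := by
  have : NeZero p := ⟨(Fact.out : p.Prime).ne_zero⟩
  show helper1205.heckeHomU p (Fact.out : p.Prime) (dvd_refl p) _ (helper8671.shimuraHom p) = _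
  rw [shimuraHom_eq_dChar, helper1205.heckeHomU_dChar (Fact.out : p.Prime) (dvd_refl p) (chiAdd p)]
  refine AddMonoidHom.ext fun γ => ?_
  rw [AddMonoidHom.nsmul_apply]
  exact helper8671.prime_nsmul_eq p _

/-- **S16, lower bound**, from period-map equivariance (EQ) and commutation with the involution
(INV) for the transfer operators `helper1205.heckeHomT`, `helper1205.heckeHomU`. -/
theorem lowerBound_of_equiv (p : ℕ) [Fact p.Prime]
    (hEQT : ∀ (l : ℕ) (hl : l.Prime) (hlp : ¬ l ∣ p) (f : CuspForm (Gamma0 p) 2),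
      periodMap p (heckeTLin 2 hl hlp f) = helper1205.heckeHomT p hl hlp ℂ (periodMap p f))
    (hINVT : ∀ (l : ℕ) (hl : l.Prime) (hlp : ¬ l ∣ p) (φ : Additive (Gamma0 p) →+ ℂ),
      helper1205.heckeHomT p hl hlp ℂ (charInvolution p ℂ ℂ φ)
        = charInvolution p ℂ ℂ (helper1205.heckeHomT p hl hlp ℂ φ))
    (hEQU : ∀ f : CuspForm (Gamma0 p) 2,
      periodMap p (heckeULin 2 (dvd_refl p) f)
        = helper1205.heckeHomU p (Fact.out : p.Prime) (dvd_refl p) ℂ (periodMap p f))
    (hINVU : ∀ φ : Additive (Gamma0 p) →+ ℂ,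
      helper1205.heckeHomU p (Fact.out : p.Prime) (dvd_refl p) ℂ (charInvolution p ℂ ℂ φ)
        = charInvolution p ℂ ℂ
            (helper1205.heckeHomU p (Fact.out : p.Prime) (dvd_refl p) ℂ φ)) :
    ∀ t : HeckeAlg, helper2246.phi p t = 0 →
      (eisensteinNumerator p : ℤ) ∣ helper2246.eis p t :=
  lowerBound_of_TU p (helper8671.shimuraHom p) (shimuraHom_one p) (shimuraHom_lift p)
    (fun l hl hlp => ⟨natOpT p hl hlp, fun f => (hEQT l hl hlp f).symm, hINVT l hl hlp,
      natOpT_shimuraHom p hl hlp⟩)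
    ⟨natOpU p, fun f => (hEQU f).symm, hINVU, natOpU_shimuraHom p⟩

end

end Fermat.Agent.S16.helper9058
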