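import Mathlib
import Fermat.Agent.S16.helper2246_Reduction
import Fermat.Agent.Lib.helper229_HeckeLattice

/-!
# S16: Hecke duality between the lattice Hecke algebra and the integral lattice

`L = intLattice p 2` (cusp forms of weight 2 on `Γ₀(p)` with integral `q`-expansion),
`T = heckeLatticeAlgebra p ∅`, `phi p : HeckeAlg →+* T` and `eis p : HeckeAlg →+* ℤ` as in
`helper2246_Reduction`.

* `sigmaP p k` : the sum of the divisors of `k` prime to `p`, with its Hecke identities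
  `sigmaP_mul_self`, `sigmaP_mul_prime`.
* `exists_heckePoly` : for every `n ≥ 1` a Hecke polynomial `P` with `a₁(P f) = aₙ(f)` for all cusp
  forms `f` and `eis p P = sigmaP p n`.
* `exists_form_of_linearMap` (perfectness of the pairing `(t, f) ↦ a₁(t f)`): every `ℤ`-linear
  `ψ : T → ℤ` is `t ↦ a₁(t g)` for some `g ∈ L`.
* `duality` : if `M ∣ eis p t` for every Hecke polynomial `t` killing `L`, then there is
  `g ∈ L` with `aₖ(g) ≡ sigmaP p k (mod M)` for all `k ≥ 1`.
* `dvd_eis_of_form` : the converse.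
-/

set_option autoImplicit false

namespace Fermat.Agent.S16.helper9562

open ModularCurve CuspForm ModularFormClass CongruenceSubgroup
open Fermat.Agent.Lib.helper229 Fermat.Agent.S16.helper2246

section Arith

open ArithmeticFunction

/-- The sum of the divisors of `k` that are prime to `p`. -/
def sigmaP (p k : ℕ) : ℕ := ∑ d ∈ k.divisors with ¬ p ∣ d, d

/-- `d ↦ d` if `p ∤ d`, else `0`, as an arithmetic function. -/
def chiP (p : ℕ) : ArithmeticFunction ℕ :=
  ⟨fun d => if d = 0 then 0 else if p ∣ d then 0 else d, by simp⟩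

lemma chiP_apply (p d : ℕ) : chiP p d = if d = 0 then 0 else if p ∣ d then 0 else d := rfl

lemma chiP_apply_of_ne_zero (p : ℕ) {d : ℕ} (hd : d ≠ 0) :
    chiP p d = if p ∣ d then 0 else d := by
  rw [chiP_apply, if_neg hd]

lemma sigmaP_eq (p k : ℕ) : sigmaP p k = (chiP p * ArithmeticFunction.zeta) k := by
  rw [mul_zeta_apply, sigmaP, Finset.sum_filter]
  refine Finset.sum_congr rfl fun d hd => ?_
  rw [chiP_apply_of_ne_zero p (Nat.pos_of_mem_divisors hd).ne']
  by_cases h : p ∣ d <;> simp [h]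

lemma isMultiplicative_chiP {p : ℕ} (hp : p.Prime) : IsMultiplicative (chiP p) := by
  refine ⟨?_, ?_⟩
  · rw [chiP_apply_of_ne_zero p one_ne_zero, if_neg]
    exact fun h => hp.one_lt.ne' (Nat.eq_one_of_dvd_one h)
  · intro m n hmn
    by_cases hm : m = 0
    · subst hm; simp [chiP_apply]
    by_cases hn : n = 0
    · subst hn; simp [chiP_apply]
    rw [chiP_apply_of_ne_zero p hm, chiP_apply_of_ne_zero p hn,
      chiP_apply_of_ne_zero p (mul_ne_zero hm hn)]
    by_cases h1 : p ∣ m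
    · simp [h1, Dvd.dvd.mul_right h1 n]
    by_cases h2 : p ∣ n
    · simp [h2, Dvd.dvd.mul_left h2 m]
    · have : ¬ p ∣ m * n := fun h => (hp.dvd_mul.mp h).elim h1 h2
      simp [h1, h2, this]

lemma sigmaP_mul_of_coprime {p : ℕ} (hp : p.Prime) {m n : ℕ} (h : m.Coprime n) :
    sigmaP p (m * n) = sigmaP p m * sigmaP p n := by
  rw [sigmaP_eq, sigmaP_eq, sigmaP_eq]
  exact ((isMultiplicative_chiP hp).mul isMultiplicative_zeta).map_mul_of_coprime h

lemma sigmaP_one {p : ℕ} (hp : p.Prime) : sigmaP p 1 = 1 := by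
  rw [sigmaP_eq]
  exact ((isMultiplicative_chiP hp).mul isMultiplicative_zeta).map_one

lemma sigmaP_prime_pow {p ℓ : ℕ} (hℓ : ℓ.Prime) (hne : ℓ ≠ p) (hp : p.Prime) (a : ℕ) :
    sigmaP p (ℓ ^ a) = ∑ i ∈ Finset.range (a + 1), ℓ ^ i := by
  rw [sigmaP_eq, mul_zeta_apply, Nat.sum_divisors_prime_pow hℓ]
  refine Finset.sum_congr rfl fun i _ => ?_
  rw [chiP_apply_of_ne_zero p (pow_ne_zero _ hℓ.ne_zero), if_neg]
  intro h
  exact hne ((Nat.prime_dvd_prime_iff_eq hp hℓ).mp (hp.dvd_of_dvd_pow h)).symm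

/-- `U_p`-eigen identity for the coefficients `sigmaP p`. -/
lemma sigmaP_mul_self {p : ℕ} (hp : p.Prime) (n : ℕ) : sigmaP p (n * p) = sigmaP p n := by
  rcases Nat.eq_zero_or_pos n with rfl | hn
  · simp
  unfold sigmaP
  congr 1
  ext d
  simp only [Finset.mem_filter, Nat.mem_divisors]
  constructor
  · rintro ⟨⟨h1, -⟩, h2⟩
    refine ⟨⟨?_, hn.ne'⟩, h2⟩
    exact (Nat.Coprime.dvd_of_dvd_mul_right ((Nat.Prime.coprime_iff_not_dvd hp).mpr h2).symm h1)
  · rintro ⟨⟨h1, -⟩, h2⟩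
    exact ⟨⟨Dvd.dvd.mul_right h1 p, mul_ne_zero hn.ne' hp.ne_zero⟩, h2⟩

/-- `T_ℓ`-eigen identity for the coefficients `sigmaP p` (`ℓ ≠ p` prime). -/
lemma sigmaP_mul_prime {p ℓ : ℕ} (hp : p.Prime) (hℓ : ℓ.Prime) (hne : ℓ ≠ p) {n : ℕ}
    (hn : 0 < n) :
    sigmaP p (n * ℓ) + (if ℓ ∣ n then ℓ * sigmaP p (n / ℓ) else 0) = (1 + ℓ) * sigmaP p n := by
  obtain ⟨a, m, hm, rfl⟩ := Nat.exists_eq_pow_mul_and_not_dvd hn.ne' ℓ hℓ.ne_one
  have hcop : ∀ b : ℕ, (ℓ ^ b).Coprime m := fun b =>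
    Nat.Coprime.pow_left b ((Nat.Prime.coprime_iff_not_dvd hℓ).mpr hm)
  have e1 : ℓ ^ a * m * ℓ = ℓ ^ (a + 1) * m := by ring
  rw [e1, sigmaP_mul_of_coprime hp (hcop _), sigmaP_mul_of_coprime hp (hcop _),
    sigmaP_prime_pow hℓ hne hp, sigmaP_prime_pow hℓ hne hp]
  rcases Nat.eq_zero_or_pos a with rfl | ha
  · have : ¬ ℓ ∣ ℓ ^ 0 * m := by simpa using hm
    rw [if_neg this]
    simp [Finset.sum_range_succ]
  · have hdvd : ℓ ∣ ℓ ^ a * m := Dvd.dvd.mul_right (dvd_pow_self ℓ ha.ne') m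
    rw [if_pos hdvd]
    obtain ⟨b, rfl⟩ : ∃ b, a = b + 1 := ⟨a - 1, by omega⟩
    have e2 : ℓ ^ (b + 1) * m / ℓ = ℓ ^ b * m := by
      rw [pow_succ, mul_assoc, mul_comm ℓ m, ← mul_assoc]
      exact Nat.mul_div_cancel _ hℓ.pos
    rw [e2, sigmaP_mul_of_coprime hp (hcop _), sigmaP_prime_pow hℓ hne hp]
    rw [Finset.sum_range_succ _ (b + 1 + 1), Finset.sum_range_succ _ (b + 1)]
    ring

end Arith

noncomputable section

variable (p : ℕ) [Fact p.Prime]

/-- The Hecke operator on `S_2(Γ₀(p))` attached to a Hecke polynomial. -/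
def op (t : HeckeAlg) : Module.End ℂ (CuspForm (Gamma0 p) 2) :=
  ((heckeEvalForms p 2 t : heckeAlgebra p 2 ∅) : Module.End ℂ (CuspForm (Gamma0 p) 2))

lemma op_one : op p 1 = 1 := by
  unfold op; rw [map_one]; rfl

lemma op_mul (s t : HeckeAlg) : op p (s * t) = op p s * op p t := by
  unfold op; rw [map_mul]; rfl

lemma op_add (s t : HeckeAlg) : op p (s + t) = op p s + op p t := by
  unfold op; rw [map_add]; rfl

lemma op_sub (s t : HeckeAlg) : op p (s - t) = op p s - op p t := by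
  unfold op; rw [map_sub]; rfl

lemma op_C (a : ℤ) :
    op p (MvPolynomial.C a) = a • (1 : Module.End ℂ (CuspForm (Gamma0 p) 2)) := by
  unfold op; rw [heckeEvalForms_C, Algebra.algebraMap_eq_smul_one]; rfl

lemma op_mem (t : HeckeAlg) : op p t ∈ heckeAlgebra p 2 ∅ := (heckeEvalForms p 2 t).2

lemma op_mem_intLattice (t : HeckeAlg) {f : CuspForm (Gamma0 p) 2} (hf : f ∈ intLattice p 2) :
    op p t f ∈ intLattice p 2 :=
  mem_intLattice_of_mem_heckeAlgebra one_le_two (op_mem p t) hf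

lemma op_comm (s t : HeckeAlg) (f : CuspForm (Gamma0 p) 2) :
    op p s (op p t f) = op p t (op p s f) := by
  rw [← Module.End.mul_apply, ← op_mul, mul_comm, op_mul, Module.End.mul_apply]

lemma op_heckeGen_of_not_dvd (ℓ : Nat.Primes) (h : ¬ (ℓ : ℕ) ∣ p) :
    op p (heckeGen ℓ) = heckeTLin 2 ℓ.2 h := by
  unfold op; rw [heckeEvalForms_heckeGen_of_not_dvd h]; rfl

lemma op_heckeGen_of_dvd (ℓ : Nat.Primes) (h : (ℓ : ℕ) ∣ p) :
    op p (heckeGen ℓ) = heckeULin 2 h := by
  unfold op; rw [heckeEvalForms_heckeGen_of_dvd h]; rfl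

omit [Fact p.Prime] in
lemma eis_heckeGen (ℓ : Nat.Primes) : eis p (heckeGen ℓ) = eisensteinSystem p ℓ := by
  unfold eis; exact aeval_heckeGen _ _

omit [Fact p.Prime] in
lemma eis_C (a : ℤ) : eis p (MvPolynomial.C a) = a := by
  simp [eis]

omit [Fact p.Prime] in
lemma qCoeff_add' (f g : CuspForm (Gamma0 p) 2) (n : ℕ) :
    qCoeff (⇑(f + g)) n = qCoeff f n + qCoeff g n := by
  rw [← qCoeffLin_apply, map_add, qCoeffLin_apply, qCoeffLin_apply]

omit [Fact p.Prime] in
lemma qCoeff_sub' (f g : CuspForm (Gamma0 p) 2) (n : ℕ) :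
    qCoeff (⇑(f - g)) n = qCoeff f n - qCoeff g n := by
  rw [← qCoeffLin_apply, map_sub, qCoeffLin_apply, qCoeffLin_apply]

omit [Fact p.Prime] in
lemma qCoeff_zsmul' (a : ℤ) (f : CuspForm (Gamma0 p) 2) (n : ℕ) :
    qCoeff (⇑(a • f)) n = a * qCoeff f n := by
  rw [← qCoeffLin_apply, map_zsmul, zsmul_eq_mul, qCoeffLin_apply]

omit [Fact p.Prime] in
lemma qCoeff_smul' (a : ℂ) (f : CuspForm (Gamma0 p) 2) (n : ℕ) :
    qCoeff (⇑(a • f)) n = a * qCoeff f n := by
  rw [← qCoeffLin_apply, map_smul, smul_eq_mul, qCoeffLin_apply]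

/-- **The Hecke polynomials `T_n`.** For every `n ≥ 1` there is a Hecke polynomial `P` with
`a₁(P f) = aₙ(f)` for every cusp form `f`, whose Eisenstein value is `sigmaP p n`. -/
theorem exists_heckePoly (n : ℕ) (hn : 1 ≤ n) :
    ∃ P : HeckeAlg, (∀ f : CuspForm (Gamma0 p) 2, qCoeff (op p P f) 1 = qCoeff f n) ∧
      eis p P = (sigmaP p n : ℤ) := by
  have hp : p.Prime := Fact.out
  induction n using Nat.strong_induction_on with
  | _ n ih =>
    rcases Nat.lt_or_ge 1 n with h1 | h1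
    · have hℓ' : n.minFac.Prime := Nat.minFac_prime (by omega)
      obtain ⟨q, hq⟩ : ∃ q : Nat.Primes, (q : ℕ) = n.minFac := ⟨⟨_, hℓ'⟩, rfl⟩
      obtain ⟨ℓ, hℓdef⟩ : ∃ ℓ : ℕ, ℓ = (q : ℕ) := ⟨_, rfl⟩
      have hℓ : ℓ.Prime := hℓdef ▸ q.2
      obtain ⟨m, hm⟩ : ∃ m, n = m * ℓ :=
        ⟨n / ℓ, by rw [hℓdef, hq]; exact (Nat.div_mul_cancel (Nat.minFac_dvd n)).symm⟩
      have hm_pos : 1 ≤ m := by
        rcases Nat.eq_zero_or_pos m with rfl | h
        · simp at hm; omega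
        · exact h
      have hm_lt : m < n := by
        rw [hm]; exact lt_mul_of_one_lt_right hm_pos hℓ.one_lt
      obtain ⟨Pm, hPm1, hPm2⟩ := ih m hm_lt hm_pos
      by_cases hℓp : ℓ ∣ p
      · have hℓeq : ℓ = p := (Nat.prime_dvd_prime_iff_eq hℓ hp).mp hℓp
        have hqp : (q : ℕ) ∣ p := hℓdef ▸ hℓp
        refine ⟨Pm * heckeGen q, fun f => ?_, ?_⟩
        · rw [op_mul, Module.End.mul_apply, hPm1, op_heckeGen_of_dvd p q hqp,
            qCoeff_heckeULin q.2.ne_zero hqp, hm, hℓdef]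
        · rw [map_mul, hPm2, eis_heckeGen, eisensteinSystem_of_dvd hqp, mul_one,
            hm, hℓeq, sigmaP_mul_self hp]
      · have hne : ℓ ≠ p := fun h => hℓp (h ▸ dvd_rfl)
        have hqp : ¬ (q : ℕ) ∣ p := hℓdef ▸ hℓp
        have hsig := sigmaP_mul_prime hp hℓ hne (n := m) hm_pos
        have hT : ∀ f : CuspForm (Gamma0 p) 2,
            qCoeff (op p (Pm * heckeGen q) f) 1 =
              qCoeff f (m * ℓ) + if ℓ ∣ m then (ℓ : ℂ) * qCoeff f (m / ℓ) else 0 := by
          intro f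
          rw [op_mul, Module.End.mul_apply, hPm1, op_heckeGen_of_not_dvd p q hqp,
            qCoeff_heckeTLin q.2 hqp, hℓdef]
          norm_num
        have hE : eis p (Pm * heckeGen q) = (sigmaP p m : ℤ) * (1 + (ℓ : ℤ)) := by
          rw [map_mul, hPm2, eis_heckeGen, eisensteinSystem_of_not_dvd hqp, hℓdef]
        by_cases hdiv : ℓ ∣ m
        · have hm' : 1 ≤ m / ℓ := Nat.div_pos (Nat.le_of_dvd hm_pos hdiv) hℓ.pos
          have hm'lt : m / ℓ < n := lt_of_le_of_lt (Nat.div_le_self m ℓ) hm_lt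
          obtain ⟨Pm', hPm'1, hPm'2⟩ := ih (m / ℓ) hm'lt hm'
          refine ⟨Pm * heckeGen q - MvPolynomial.C (ℓ : ℤ) * Pm', fun f => ?_, ?_⟩
          · rw [op_sub, LinearMap.sub_apply, qCoeff_sub', hT f, if_pos hdiv, op_mul,
              Module.End.mul_apply, op_C, LinearMap.smul_apply, Module.End.one_apply,
              qCoeff_zsmul', hPm'1, hm]
            push_cast
            ring
          · rw [map_sub, hE, map_mul, eis_C, hPm'2, hm]
            rw [if_pos hdiv] at hsig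
            have hsig' : ((sigmaP p (m * ℓ) : ℕ) : ℤ) + (ℓ : ℤ) * (sigmaP p (m / ℓ) : ℤ) =
                (1 + (ℓ : ℤ)) * (sigmaP p m : ℤ) := by exact_mod_cast hsig
            linarith
        · refine ⟨Pm * heckeGen q, fun f => ?_, ?_⟩
          · rw [hT f, if_neg hdiv, add_zero, hm]
          · rw [hE, hm]
            rw [if_neg hdiv, add_zero] at hsig
            have hsig' : ((sigmaP p (m * ℓ) : ℕ) : ℤ) = (1 + (ℓ : ℤ)) * (sigmaP p m : ℤ) := by
              exact_mod_cast hsig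
            linarith
    · obtain rfl : n = 1 := by omega
      exact ⟨1, fun f => by rw [op_one]; rfl, by rw [map_one, sigmaP_one hp]; rfl⟩

/-! ### The lattice and the pairing -/

/-- The integer-valued `n`-th coefficient functional on the lattice. -/
def cI (n : ℕ) : ↥(intLattice p 2) →ₗ[ℤ] ℤ where
  toFun f := Classical.choose (intQ_of_mem_intLattice f.2 n)
  map_add' f g := by
    apply Int.cast_injective (α := ℂ)
    rw [Int.cast_add, ← Classical.choose_spec (intQ_of_mem_intLattice f.2 n),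
      ← Classical.choose_spec (intQ_of_mem_intLattice g.2 n),
      ← Classical.choose_spec (intQ_of_mem_intLattice (f + g).2 n)]
    exact qCoeff_add' p _ _ n
  map_smul' c f := by
    apply Int.cast_injective (α := ℂ)
    rw [RingHom.id_apply, smul_eq_mul, Int.cast_mul,
      ← Classical.choose_spec (intQ_of_mem_intLattice f.2 n),
      ← Classical.choose_spec (intQ_of_mem_intLattice (c • f).2 n)]
    exact qCoeff_zsmul' p _ _ n

omit [Fact p.Prime] in
lemma cI_spec (n : ℕ) (f : ↥(intLattice p 2)) :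
    ((cI p n f : ℤ) : ℂ) = qCoeff (f : CuspForm (Gamma0 p) 2) n :=
  (Classical.choose_spec (intQ_of_mem_intLattice f.2 n)).symm

lemma phi_apply_coe (P : HeckeAlg) (f : ↥(intLattice p 2)) :
    ((((phi p P : ↥(heckeLatticeAlgebra p ∅)) : Module.End ℤ ↥(intLattice p 2)) f :
      ↥(intLattice p 2)) : CuspForm (Gamma0 p) 2) = op p P f := rfl

/-- The pairing `(t, f) ↦ a₁(t f)`, as a map `T → Hom(L, ℤ)`. -/
def gam : ↥(heckeLatticeAlgebra p ∅) →ₗ[ℤ] (↥(intLattice p 2) →ₗ[ℤ] ℤ) where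
  toFun t := (cI p 1).comp (t : Module.End ℤ ↥(intLattice p 2))
  map_add' s t := by
    ext f
    simp
  map_smul' c t := by
    ext f
    simp

/-- The pairing `(t, f) ↦ a₁(t f)`, as a map `L → Hom(T, ℤ)`. -/
def bet : ↥(intLattice p 2) →ₗ[ℤ] (↥(heckeLatticeAlgebra p ∅) →ₗ[ℤ] ℤ) := (gam p).flip

lemma bet_apply (f : ↥(intLattice p 2)) (t : ↥(heckeLatticeAlgebra p ∅)) :
    bet p f t = cI p 1 ((t : Module.End ℤ ↥(intLattice p 2)) f) := rfl

lemma gam_apply (f : ↥(intLattice p 2)) (t : ↥(heckeLatticeAlgebra p ∅)) :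
    gam p t f = cI p 1 ((t : Module.End ℤ ↥(intLattice p 2)) f) := rfl

lemma cI_phi (n : ℕ) (P : HeckeAlg)
    (hP : ∀ f : CuspForm (Gamma0 p) 2, qCoeff (op p P f) 1 = qCoeff f n)
    (f : ↥(intLattice p 2)) :
    cI p 1 (((phi p P : ↥(heckeLatticeAlgebra p ∅)) : Module.End ℤ ↥(intLattice p 2)) f) =
      cI p n f := by
  apply Int.cast_injective (α := ℂ)
  rw [cI_spec, cI_spec, phi_apply_coe, hP]

omit [Fact p.Prime] in
lemma eq_zero_of_cI_eq_zero (f : ↥(intLattice p 2)) (h : ∀ n, 1 ≤ n → cI p n f = 0) : f = 0 := by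
  apply Subtype.ext
  rw [ZeroMemClass.coe_zero]
  apply eq_zero_of_forall_qCoeff_eq_zero
  intro n
  rcases Nat.eq_zero_or_pos n with rfl | hn
  · exact qCoeff_zero_eq_zero _
  · rw [← cI_spec, h n hn, Int.cast_zero]

lemma bet_injective : Function.Injective (bet p) := by
  rw [injective_iff_map_eq_zero]
  intro f hf
  apply eq_zero_of_cI_eq_zero
  intro n hn
  obtain ⟨P, hP, -⟩ := exists_heckePoly p n hn
  rw [← cI_phi p n P hP f, ← bet_apply, hf]
  rfl

lemma gam_injective : Function.Injective (gam p) := by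
  rw [injective_iff_map_eq_zero]
  intro t ht
  apply Subtype.ext
  refine LinearMap.ext fun f => ?_
  rw [ZeroMemClass.coe_zero, LinearMap.zero_apply]
  apply eq_zero_of_cI_eq_zero
  intro n hn
  obtain ⟨P, hP, -⟩ := exists_heckePoly p n hn
  rw [← cI_phi p n P hP]
  have hcomm : ((phi p P : ↥(heckeLatticeAlgebra p ∅)) : Module.End ℤ ↥(intLattice p 2)) *
      (t : Module.End ℤ ↥(intLattice p 2)) =
      (t : Module.End ℤ ↥(intLattice p 2)) *
        ((phi p P : ↥(heckeLatticeAlgebra p ∅)) : Module.End ℤ ↥(intLattice p 2)) :=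
    congrArg Subtype.val (mul_comm (phi p P) t)
  rw [← Module.End.mul_apply, hcomm, Module.End.mul_apply, ← gam_apply, ht]
  rfl

omit [Fact p.Prime] in
/-- An injective linear map between modules over a domain, whose target is finitely generated of
rank at most the rank of the source, has torsion cokernel. -/
lemma exists_smul_mem_range {R V W : Type*} [CommRing R] [IsDomain R] [AddCommGroup V]
    [Module R V] [AddCommGroup W] [Module R W] [Module.Finite R W] (β : V →ₗ[R] W)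
    (hβ : Function.Injective β) (hrank : Module.finrank R W ≤ Module.finrank R V) (w : W) :
    ∃ D : R, D ≠ 0 ∧ D • w ∈ LinearMap.range β := by
  have h1 := (LinearMap.range β).finrank_quotient_add_finrank
  have h2 := LinearMap.finrank_range_of_inj hβ
  have h3 : Module.finrank R (W ⧸ LinearMap.range β) = 0 := by omega
  have h4 : Module.IsTorsion R (W ⧸ LinearMap.range β) :=
    Module.finrank_eq_zero_iff_isTorsion.mp h3
  obtain ⟨a, ha⟩ := @h4 (Submodule.Quotient.mk w)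
  refine ⟨a, nonZeroDivisors.coe_ne_zero a, ?_⟩
  rw [← Submodule.Quotient.mk_eq_zero, Submodule.Quotient.mk_smul]
  exact ha

set_option maxHeartbeats 1000000 in
/-- **Perfectness of the pairing.** Every `ℤ`-linear form on the lattice Hecke algebra is
`t ↦ a₁(t g)` for a (unique) `g` in the integral lattice. -/
theorem exists_form_of_linearMap (ψ : ↥(heckeLatticeAlgebra p ∅) →ₗ[ℤ] ℤ) :
    ∃ g : ↥(intLattice p 2), bet p g = ψ := by
  haveI := intLattice.moduleFinite p
  haveI := intLattice.moduleFree p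
  have hrank : Module.finrank ℤ (↥(heckeLatticeAlgebra p ∅) →ₗ[ℤ] ℤ) ≤
      Module.finrank ℤ ↥(intLattice p 2) := by
    rw [Module.finrank_linearMap_self]
    calc Module.finrank ℤ ↥(heckeLatticeAlgebra p ∅)
        ≤ Module.finrank ℤ (↥(intLattice p 2) →ₗ[ℤ] ℤ) :=
          LinearMap.finrank_le_finrank_of_injective (gam_injective p)
      _ = Module.finrank ℤ ↥(intLattice p 2) := Module.finrank_linearMap_self _ _ _
  obtain ⟨D, hD, g₀, hg₀⟩ := exists_smul_mem_range (bet p) (bet_injective p) hrank ψ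
  have hcoef : ∀ n, ∃ c : ℤ, cI p n g₀ = D * c := by
    intro n
    rcases Nat.eq_zero_or_pos n with rfl | hn
    · refine ⟨0, ?_⟩
      apply Int.cast_injective (α := ℂ)
      rw [cI_spec, qCoeff_zero_eq_zero]
      simp
    · obtain ⟨P, hP, -⟩ := exists_heckePoly p n hn
      refine ⟨ψ (phi p P), ?_⟩
      rw [← cI_phi p n P hP g₀, ← bet_apply, hg₀]
      rfl
  have hDC : (D : ℂ) ≠ 0 := Int.cast_ne_zero.mpr hD
  have hg : IntQ ((D : ℂ)⁻¹ • (g₀ : CuspForm (Gamma0 p) 2)) := by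
    intro n
    obtain ⟨c, hc⟩ := hcoef n
    refine ⟨c, ?_⟩
    rw [qCoeff_smul', ← cI_spec, hc]
    push_cast
    field_simp
  obtain ⟨g, hgdef⟩ : ∃ g : ↥(intLattice p 2),
      (g : CuspForm (Gamma0 p) 2) = (D : ℂ)⁻¹ • (g₀ : CuspForm (Gamma0 p) 2) :=
    ⟨⟨_, mem_intLattice_of_intQ hg⟩, rfl⟩
  refine ⟨g, ?_⟩
  have hDg : D • g = g₀ := by
    apply Subtype.ext
    rw [Submodule.coe_smul, hgdef, ← Int.cast_smul_eq_zsmul ℂ, smul_smul, mul_inv_cancel₀ hDC,
      one_smul]
  have h5 : D • bet p g = D • ψ := by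
    rw [← hg₀, ← hDg]
    exact ((bet p).map_smul D g).symm
  ext t
  have h6 := LinearMap.congr_fun h5 t
  rw [LinearMap.smul_apply, LinearMap.smul_apply, smul_eq_mul, smul_eq_mul] at h6
  exact mul_left_cancel₀ hD h6

set_option maxHeartbeats 1000000 in
/-- **Duality.** If `M` divides the Eisenstein value of every Hecke polynomial killing the
integral lattice, then some lattice form is congruent to `∑ sigmaP p k q^k` modulo `M`. -/
theorem duality (M : ℕ) (h : ∀ t : HeckeAlg, phi p t = 0 → (M : ℤ) ∣ eis p t) :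
    ∃ g ∈ intLattice p 2, ∀ k : ℕ, 1 ≤ k →
      ∃ c : ℤ, qCoeff g k = (((sigmaP p k : ℤ) + M * c : ℤ) : ℂ) := by
  classical
  let b := Module.Free.chooseBasis ℤ ↥(heckeLatticeAlgebra p ∅)
  choose Q hQ using fun i => phi_surjective p (b i)
  let ψ : ↥(heckeLatticeAlgebra p ∅) →ₗ[ℤ] ℤ := b.constr ℤ (fun i => eis p (Q i))
  have hψ : ∀ P : HeckeAlg, ∃ c : ℤ, ψ (phi p P) = eis p P + M * c := by
    intro P
    have h1 : phi p (P - ∑ i, b.repr (phi p P) i • Q i) = 0 := by
      rw [map_sub, map_sum, sub_eq_zero]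
      simp only [map_zsmul, hQ]
      exact (b.sum_repr (phi p P)).symm
    obtain ⟨c, hc⟩ := h _ h1
    have h3 : ψ (phi p P) = ∑ i, b.repr (phi p P) i * eis p (Q i) := by
      conv_lhs => rw [← b.sum_repr (phi p P)]
      rw [map_sum]
      refine Finset.sum_congr rfl fun i _ => ?_
      rw [map_zsmul, Module.Basis.constr_basis, smul_eq_mul]
    rw [map_sub, map_sum] at hc
    simp only [map_zsmul, smul_eq_mul] at hc
    refine ⟨-c, ?_⟩
    rw [h3]
    linarith
  obtain ⟨g, hg⟩ := exists_form_of_linearMap p ψ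
  refine ⟨g.1, g.2, fun k hk => ?_⟩
  obtain ⟨P, hP1, hP2⟩ := exists_heckePoly p k hk
  obtain ⟨c, hc⟩ := hψ P
  refine ⟨c, ?_⟩
  rw [← cI_spec, ← cI_phi p k P hP1 g, ← bet_apply, hg, hc, hP2]

end

end Fermat.Agent.S16.helper9562
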