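import Mathlib
import Fermat.Prelude.Def_CuspForm_HeckeEvalForms
import Fermat.Prelude.Def_ModularCurve_PeriodHomPair

/-!
# S16 lower bound: abstract wiring (helper9659)

`lowerBound_of_step` / `lowerBound_of_data`: the Shimura-class lower bound
`∀ t, heckeEvalForms p 2 t = 0 → n ∣ eis t` from

* transfer operators on `Hom(Γ₀(p), A)` natural along `ℤ → ℂ` and `ℤ → C0`,
* equivariance of `periodHomPair`,
* an Eisenstein eigenclass `ψ0 : Γ₀(p) → C0` of exact order `n`,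
* an integral parabolic lift of `ψ0`,
* the range statement of S21.

No commutativity of the transfer operators, no preservation of parabolic classes and no
module structure on cohomology is needed: the proof is an induction on the Hecke polynomial.
-/

set_option autoImplicit false

open CongruenceSubgroup ModularCurve CuspForm
open scoped MatrixGroups

namespace Fermat.Agent.S16.helper9659

noncomputable section

/-- The operator on `S₂(Γ₀(p))` attached to a Hecke polynomial. -/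
def evOp (p : ℕ) [NeZero p] (t : HeckeAlg) : Module.End ℂ (CuspForm (Gamma0 p) 2) :=
  ((heckeEvalForms p 2 t : heckeAlgebra p 2 ∅) : Module.End ℂ (CuspForm (Gamma0 p) 2))

/-- The generator operator (`T_ℓ` for `ℓ ∤ p`, `U_p` for `ℓ = p`). -/
def genOp (p : ℕ) [NeZero p] (ℓ : Nat.Primes) : Module.End ℂ (CuspForm (Gamma0 p) 2) :=
  ((heckeFormsGen p 2 ℓ : heckeAlgebra p 2 ∅) : Module.End ℂ (CuspForm (Gamma0 p) 2))

theorem evOp_C (p : ℕ) [NeZero p] (a : ℤ) (f : CuspForm (Gamma0 p) 2) :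
    evOp p (MvPolynomial.C a) f = a • f := by
  unfold evOp
  rw [heckeEvalForms_C]
  simp

theorem evOp_add (p : ℕ) [NeZero p] (s t : HeckeAlg) (f : CuspForm (Gamma0 p) 2) :
    evOp p (s + t) f = evOp p s f + evOp p t f := by
  unfold evOp
  rw [map_add]
  rfl

theorem evOp_mul_X (p : ℕ) [NeZero p] (t : HeckeAlg) (ℓ : Nat.Primes)
    (f : CuspForm (Gamma0 p) 2) :
    evOp p (t * MvPolynomial.X ℓ) f = evOp p t (genOp p ℓ f) := by
  unfold evOp genOp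
  rw [map_mul]
  have : heckeEvalForms p 2 (MvPolynomial.X ℓ) = heckeFormsGen p 2 ℓ :=
    heckeEvalForms_heckeGen p 2 ℓ
  rw [this]
  rfl

theorem evOp_eq_zero (p : ℕ) [NeZero p] (t : HeckeAlg) (h : heckeEvalForms p 2 t = 0)
    (f : CuspForm (Gamma0 p) 2) : evOp p t f = 0 := by
  unfold evOp
  rw [h]
  rfl

/-- Coefficient change of a homomorphism `Γ₀(p) → ℤ` to `ℂ`. -/
def toC (p : ℕ) (ψ : Additive (Gamma0 p) →+ ℤ) : Additive (Gamma0 p) →+ ℂ :=
  (Int.castAddHom ℂ).comp ψ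

theorem toC_injective (p : ℕ) : Function.Injective (toC p) := by
  intro ψ ψ' h
  refine AddMonoidHom.ext fun γ => ?_
  have h1 : toC p ψ γ = toC p ψ' γ := DFunLike.congr_fun h γ
  have h2 : ((ψ γ : ℤ) : ℂ) = ((ψ' γ : ℤ) : ℂ) := h1
  exact_mod_cast h2

theorem toC_zsmul (p : ℕ) (a : ℤ) (ψ : Additive (Gamma0 p) →+ ℤ) :
    toC p (a • ψ) = a • toC p ψ := by
  ext γ
  simp [toC]

theorem toC_add (p : ℕ) (ψ ψ' : Additive (Gamma0 p) →+ ℤ) :
    toC p (ψ + ψ') = toC p ψ + toC p ψ' := by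
  ext γ
  simp [toC]

theorem toC_mem_parabolicHoms (p : ℕ) {ψ : Additive (Gamma0 p) →+ ℤ}
    (h : ψ ∈ Period.parabolicHoms ℤ (Gamma0 p) ℤ) :
    toC p ψ ∈ Period.parabolicHoms ℂ (Gamma0 p) ℂ := by
  rw [Period.mem_parabolicHoms_iff] at h ⊢
  intro γ hγ
  have := h γ hγ
  simp [toC, this]

/-- **Abstract lower bound, core form.**  `hstep` says: a class whose complexification is
`periodHomPair (f, g)` and whose reduction is `c • ψ0` can be replaced by one for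
`(T f, T g)` and `(a_ℓ * c) • ψ0`. -/
theorem lowerBound_of_step (p : ℕ) [Fact p.Prime] (n : ℕ)
    {C0 : Type*} [AddCommGroup C0] (ρ : ℤ →+ C0)
    (ψ0 : Additive (Gamma0 p) →+ C0)
    (hstep : ∀ (ℓ : Nat.Primes) (ψ : Additive (Gamma0 p) →+ ℤ) (f g : CuspForm (Gamma0 p) 2)
      (c : ℤ), toC p ψ = periodHomPair p (f, g) → ρ.comp ψ = c • ψ0 →
      ∃ ψ' : Additive (Gamma0 p) →+ ℤ,
        toC p ψ' = periodHomPair p (genOp p ℓ f, genOp p ℓ g) ∧
        ρ.comp ψ' = (eisensteinSystem p ℓ * c) • ψ0)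
    (hord : ∀ m : ℤ, m • ψ0 = 0 → (n : ℤ) ∣ m)
    (hLIFT : ∃ ψ : Additive (Gamma0 p) →+ ℤ,
      ψ ∈ Period.parabolicHoms ℤ (Gamma0 p) ℤ ∧ ρ.comp ψ = ψ0)
    (hS21 : LinearMap.range (periodHomPair p) = Period.parabolicHoms ℂ (Gamma0 p) ℂ) :
    ∀ t : HeckeAlg, heckeEvalForms p 2 t = 0 →
      (n : ℤ) ∣ MvPolynomial.aeval (eisensteinSystem p) t := by
  have : NeZero p := ⟨(Fact.out : p.Prime).ne_zero⟩
  -- the inductive predicate
  have key : ∀ t : HeckeAlg, ∀ (ψ : Additive (Gamma0 p) →+ ℤ) (f g : CuspForm (Gamma0 p) 2)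
      (c : ℤ), toC p ψ = periodHomPair p (f, g) → ρ.comp ψ = c • ψ0 →
      ∃ ψ' : Additive (Gamma0 p) →+ ℤ,
        toC p ψ' = periodHomPair p (evOp p t f, evOp p t g) ∧
        ρ.comp ψ' = (MvPolynomial.aeval (eisensteinSystem p) t * c) • ψ0 := by
    intro t
    induction t using MvPolynomial.induction_on with
    | C a =>
      intro ψ f g c h1 h2
      refine ⟨a • ψ, ?_, ?_⟩
      · rw [toC_zsmul, h1, evOp_C, evOp_C, ← Prod.smul_mk, map_zsmul]
      · rw [MvPolynomial.aeval_C]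
        have : ρ.comp (a • ψ) = a • ρ.comp ψ := by
          refine AddMonoidHom.ext fun γ => ?_
          show ρ (a • ψ γ) = a • ρ (ψ γ)
          rw [map_zsmul]
        rw [this, h2, smul_smul]
        rfl
    | add s t ihs iht =>
      intro ψ f g c h1 h2
      obtain ⟨ψ1, h11, h12⟩ := ihs ψ f g c h1 h2
      obtain ⟨ψ2, h21, h22⟩ := iht ψ f g c h1 h2
      refine ⟨ψ1 + ψ2, ?_, ?_⟩
      · rw [toC_add, h11, h21, evOp_add, evOp_add, ← map_add, Prod.mk_add_mk]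
      · have : ρ.comp (ψ1 + ψ2) = ρ.comp ψ1 + ρ.comp ψ2 := by
          ext γ
          simp
        rw [this, h12, h22, map_add, add_mul, add_smul]
    | mul_X t ℓ ih =>
      intro ψ f g c h1 h2
      obtain ⟨ψ1, h11, h12⟩ := hstep ℓ ψ f g c h1 h2
      obtain ⟨ψ', h1', h2'⟩ := ih ψ1 (genOp p ℓ f) (genOp p ℓ g) _ h11 h12
      refine ⟨ψ', ?_, ?_⟩
      · rw [h1', evOp_mul_X, evOp_mul_X]
      · rw [h2', map_mul, MvPolynomial.aeval_X, mul_assoc]
  intro t ht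
  obtain ⟨ψ, hψpar, hψ⟩ := hLIFT
  have hmem : toC p ψ ∈ LinearMap.range (periodHomPair p) := by
    rw [hS21]
    exact toC_mem_parabolicHoms p hψpar
  obtain ⟨⟨f, g⟩, hfg⟩ := hmem
  obtain ⟨ψ', h1, h2⟩ := key t ψ f g 1 hfg.symm (by rw [hψ, one_smul])
  rw [evOp_eq_zero p t ht, evOp_eq_zero p t ht] at h1
  have hz : ψ' = 0 := by
    apply toC_injective p
    rw [h1]
    have h0 : ((0 : CuspForm (Gamma0 p) 2), (0 : CuspForm (Gamma0 p) 2)) = 0 := rfl
    rw [h0, map_zero]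
    ext γ
    simp [toC]
  rw [hz, mul_one] at h2
  apply hord
  rw [← h2]
  ext γ
  simp

/-- **Abstract lower bound, operator form.**  Transfer operators `τZ`, `τC`, `τ0` on
`Hom(Γ₀(p), A)` for `A = ℤ, ℂ, C0` (only naturality along `ℤ → ℂ` and `ρ : ℤ → C0`, and
compatibility of `τ0` with integer multiples, are used). -/
theorem lowerBound_of_data (p : ℕ) [Fact p.Prime] (n : ℕ)
    {C0 : Type*} [AddCommGroup C0] (ρ : ℤ →+ C0)
    (τZ : Nat.Primes → (Additive (Gamma0 p) →+ ℤ) → (Additive (Gamma0 p) →+ ℤ))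
    (τC : Nat.Primes → (Additive (Gamma0 p) →+ ℂ) → (Additive (Gamma0 p) →+ ℂ))
    (τ0 : Nat.Primes → (Additive (Gamma0 p) →+ C0) → (Additive (Gamma0 p) →+ C0))
    (natC : ∀ ℓ ψ, τC ℓ ((Int.castAddHom ℂ).comp ψ) = (Int.castAddHom ℂ).comp (τZ ℓ ψ))
    (nat0 : ∀ ℓ ψ, τ0 ℓ (ρ.comp ψ) = ρ.comp (τZ ℓ ψ))
    (τ0_zsmul : ∀ ℓ (c : ℤ) ψ, τ0 ℓ (c • ψ) = c • τ0 ℓ ψ)
    (hEQ : haveI : NeZero p := ⟨(Fact.out : p.Prime).ne_zero⟩
      ∀ ℓ (f g : CuspForm (Gamma0 p) 2), τC ℓ (periodHomPair p (f, g)) =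
        periodHomPair p (genOp p ℓ f, genOp p ℓ g))
    (ψ0 : Additive (Gamma0 p) →+ C0)
    (hEIG : ∀ ℓ, τ0 ℓ ψ0 = eisensteinSystem p ℓ • ψ0)
    (hord : ∀ m : ℤ, m • ψ0 = 0 → (n : ℤ) ∣ m)
    (hLIFT : ∃ ψ : Additive (Gamma0 p) →+ ℤ,
      ψ ∈ Period.parabolicHoms ℤ (Gamma0 p) ℤ ∧ ρ.comp ψ = ψ0)
    (hS21 : LinearMap.range (periodHomPair p) = Period.parabolicHoms ℂ (Gamma0 p) ℂ) :
    ∀ t : HeckeAlg, heckeEvalForms p 2 t = 0 →
      (n : ℤ) ∣ MvPolynomial.aeval (eisensteinSystem p) t := by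
  have : NeZero p := ⟨(Fact.out : p.Prime).ne_zero⟩
  refine lowerBound_of_step p n ρ ψ0 ?_ hord hLIFT hS21
  intro ℓ ψ f g c h1 h2
  refine ⟨τZ ℓ ψ, ?_, ?_⟩
  · have := natC ℓ ψ
    unfold toC at h1 ⊢
    rw [← this, h1, hEQ]
  · rw [← nat0, h2, τ0_zsmul, hEIG, smul_smul, mul_comm]

end

end Fermat.Agent.S16.helper9659
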