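/-
helper9724 — S16, upper bound, the 2-adic case by ONE TRACE (no norm, no `ζ_p`, no `q^(1/p)`).

Idea (team_s16_chat #63 helper6101, #127 helper8906): let `H ≡ u (mod 8)` (`u ∈ {1, 5}`) be a
weight-2 form on `Γ₀(p)`, `p ≡ 3 (mod 4)`, and `Z = Bpoly E₄ E₆ H / 256` (weight 8).  With
`F♯(z) := (F ∣ S)(p z)` one has `Z ≡ Δ`, `Z♯ ≡ V_p Δ (mod 2)`.  For a test form
`F = Z^a * Y` with `Y ≡ V_p(Δ^p)`, `Y♯ ≡ c' Δ^p (mod 2)` (`Y = (Z♯)^p` or `Y = (V_p Δ)^p`) the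
trace `Tr F = F + p U_p(F♯)` is a level-one form of weight `8 a + wt(Y)` with

  `Tr F ≡ Δ^a * (V_p(Δ^p) + c U_p(Δ^p)) = c q^(a+1) + ... (mod 2)`,

which contradicts the level-one Sturm bound as soon as `(8 a + wt Y)/12 ≤ a`.

This file: the pure power-series core (`trace_core`) and its two specialisations
(`trace_core_sharp`: `Y = (Z♯)^p`, `a = 2p`, weight `24 p`; `trace_core_delta`:
`Y = (V_p Δ)^p`, `a = 3p`, weight `36 p`).  Imports the ring identities of helper3076 and the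
level-one Sturm bound of helper5604 (both on main).
-/
import Mathlib
import Fermat.Agent.S16.helper3076_TwoAdic
import Fermat.Agent.S16.helper5604_LevelOneSturm

set_option autoImplicit false

namespace Fermat.Agent.S16.helper9724

open UpperHalfPlane ModularForm ModularFormClass EisensteinSeries
open scoped MatrixGroups
open Fermat.Agent.S16.helper3076

noncomputable section

/-! ## `U_p` on power series -/

/-- `U_p` on power series: `a_n ↦ a_{p n}`. -/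
def Up (p : ℕ) (A : PowerSeries ℂ) : PowerSeries ℂ :=
  PowerSeries.mk fun n => PowerSeries.coeff (p * n) A

@[simp] lemma coeff_Up (p : ℕ) (A : PowerSeries ℂ) (n : ℕ) :
    PowerSeries.coeff n (Up p A) = PowerSeries.coeff (p * n) A := by
  rw [Up, PowerSeries.coeff_mk]

lemma Up_add (p : ℕ) (A B : PowerSeries ℂ) : Up p (A + B) = Up p A + Up p B := by
  ext n; simp

lemma Up_smul (p : ℕ) (c : ℂ) (A : PowerSeries ℂ) : Up p (c • A) = c • Up p A := by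
  ext n; simp

lemma Up_neg (p : ℕ) (A : PowerSeries ℂ) : Up p (-A) = -Up p A := by
  ext n; simp

lemma Up_C (p : ℕ) (hp : p ≠ 0) (c : ℂ) : Up p (PowerSeries.C c) = PowerSeries.C c := by
  ext n
  rw [coeff_Up, PowerSeries.coeff_C, PowerSeries.coeff_C]
  simp [hp]

/-- `U_p (V_p X * Y) = X * U_p Y`. -/
lemma Up_expand_mul (p : ℕ) (hp : p ≠ 0) (X Y : PowerSeries ℂ) :
    Up p (PowerSeries.expand p hp X * Y) = X * Up p Y := by
  ext n
  rw [coeff_Up, PowerSeries.coeff_mul, PowerSeries.coeff_mul]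
  symm
  have hp' : 0 < p := Nat.pos_of_ne_zero hp
  refine Finset.sum_of_injOn (fun x : ℕ × ℕ => (p * x.1, p * x.2)) ?_ ?_ ?_ ?_
  · intro x _ y _ h
    simp only [Prod.mk.injEq] at h
    exact Prod.ext (Nat.eq_of_mul_eq_mul_left hp' h.1) (Nat.eq_of_mul_eq_mul_left hp' h.2)
  · intro x hx
    have hx' : x.1 + x.2 = n := Finset.HasAntidiagonal.mem_antidiagonal.mp (Finset.mem_coe.mp hx)
    refine Finset.mem_coe.mpr (Finset.HasAntidiagonal.mem_antidiagonal.mpr ?_)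
    show p * x.1 + p * x.2 = p * n
    rw [← hx', mul_add]
  · rintro ⟨i, j⟩ hij hnot
    have hij' : i + j = p * n := Finset.HasAntidiagonal.mem_antidiagonal.mp hij
    have hi : ¬ p ∣ i := by
      rintro ⟨a, rfl⟩
      apply hnot
      have hj : j = p * (n - a) := by
        rw [Nat.mul_sub]; omega
      have ha : a ≤ n := by
        by_contra hlt
        have : p * n < p * a := Nat.mul_lt_mul_of_pos_left (Nat.lt_of_not_le hlt) hp'
        omega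
      refine ⟨(a, n - a), Finset.mem_coe.mpr (Finset.HasAntidiagonal.mem_antidiagonal.mpr (by omega)), ?_⟩
      simp only [hj]
    simp only
    rw [PowerSeries.coeff_expand_of_not_dvd p hp X hi, zero_mul]
  · rintro ⟨a, b⟩ _
    simp only [coeff_Up, PowerSeries.coeff_expand_mul]

/-! ## Numerals as scalars -/

lemma ofNat_mul_eq_smul (a : ℕ) [a.AtLeastTwo] (f : PowerSeries ℂ) :
    (OfNat.ofNat a : PowerSeries ℂ) * f = (OfNat.ofNat a : ℂ) • f := by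
  rw [← map_ofNat (PowerSeries.C (R := ℂ)) a, PowerSeries.smul_eq_C_mul]

/-! ## Congruences modulo `2 O⟦q⟧` -/

/-- Congruence of power series modulo `2 * O⟦q⟧`. -/
def Cong2 (O : Subring ℂ) (X Y : PowerSeries ℂ) : Prop :=
  ∃ Q ∈ coeffRing O, X = Y + 2 * Q

lemma cong2_refl (O : Subring ℂ) (X : PowerSeries ℂ) : Cong2 O X X :=
  ⟨0, zero_mem _, by simp⟩

lemma Cong2.mul {O : Subring ℂ} {X X' Y Y' : PowerSeries ℂ} (hX : Cong2 O X X')
    (hY : Cong2 O Y Y') (hX' : X' ∈ coeffRing O) (hY' : Y' ∈ coeffRing O) :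
    Cong2 O (X * Y) (X' * Y') := by
  obtain ⟨Q, hQ, rfl⟩ := hX
  obtain ⟨R, hR, rfl⟩ := hY
  refine ⟨X' * R + Q * Y' + (Q * R + Q * R), ?_, by ring⟩
  exact add_mem (add_mem (mul_mem hX' hR) (mul_mem hQ hY'))
    (add_mem (mul_mem hQ hR) (mul_mem hQ hR))

lemma Cong2.pow {O : Subring ℂ} {X X' : PowerSeries ℂ} (hX : Cong2 O X X')
    (hX' : X' ∈ coeffRing O) (n : ℕ) : Cong2 O (X ^ n) (X' ^ n) := by
  induction n with
  | zero => simpa using cong2_refl O 1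
  | succ n ih =>
    rw [pow_succ, pow_succ]
    exact ih.mul hX (pow_mem hX' n) hX'

lemma Cong2.add {O : Subring ℂ} {X X' Y Y' : PowerSeries ℂ} (hX : Cong2 O X X')
    (hY : Cong2 O Y Y') : Cong2 O (X + Y) (X' + Y') := by
  obtain ⟨Q, hQ, rfl⟩ := hX
  obtain ⟨R, hR, rfl⟩ := hY
  exact ⟨Q + R, add_mem hQ hR, by ring⟩

lemma Cong2.trans {O : Subring ℂ} {X Y Z : PowerSeries ℂ} (hXY : Cong2 O X Y)
    (hYZ : Cong2 O Y Z) : Cong2 O X Z := by
  obtain ⟨Q, hQ, rfl⟩ := hXY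
  obtain ⟨R, hR, rfl⟩ := hYZ
  exact ⟨R + Q, add_mem hR hQ, by ring⟩

lemma smul_mem_coeffRing {O : Subring ℂ} {c : ℂ} (hc : c ∈ O) {X : PowerSeries ℂ}
    (hX : X ∈ coeffRing O) : c • X ∈ coeffRing O := by
  rw [mem_coeffRing_iff] at hX ⊢
  intro n
  rw [PowerSeries.coeff_smul]
  exact mul_mem hc (hX n)

lemma Up_mem_coeffRing {O : Subring ℂ} (p : ℕ) {X : PowerSeries ℂ} (hX : X ∈ coeffRing O) :
    Up p X ∈ coeffRing O := by
  rw [mem_coeffRing_iff] at hX ⊢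
  intro n
  rw [coeff_Up]
  exact hX _

lemma C_mem_coeffRing {O : Subring ℂ} {c : ℂ} (hc : c ∈ O) :
    PowerSeries.C c ∈ coeffRing O := by
  rw [mem_coeffRing_iff]
  intro n
  rw [PowerSeries.coeff_C]
  split_ifs
  · exact hc
  · exact zero_mem _

lemma Cong2.smul {O : Subring ℂ} {c : ℂ} (hc : c ∈ O) {X X' : PowerSeries ℂ}
    (hX : Cong2 O X X') : Cong2 O (c • X) (c • X') := by
  obtain ⟨Q, hQ, rfl⟩ := hX
  refine ⟨c • Q, smul_mem_coeffRing hc hQ, ?_⟩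
  rw [smul_add, mul_smul_comm]

lemma Cong2.up {O : Subring ℂ} (p : ℕ) {X X' : PowerSeries ℂ} (hX : Cong2 O X X') :
    Cong2 O (Up p X) (Up p X') := by
  obtain ⟨Q, hQ, rfl⟩ := hX
  refine ⟨Up p Q, Up_mem_coeffRing p hQ, ?_⟩
  rw [two_mul, Up_add, Up_add, two_mul]

lemma Cong2.coeff {O : Subring ℂ} {X X' : PowerSeries ℂ} (hX : Cong2 O X X') (n : ℕ) :
    ∃ c ∈ O, PowerSeries.coeff n X = PowerSeries.coeff n X' + 2 * c := by
  obtain ⟨Q, hQ, rfl⟩ := hX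
  refine ⟨PowerSeries.coeff n Q, (mem_coeffRing_iff O Q).mp hQ n, ?_⟩
  rw [map_add, two_mul, map_add, two_mul]

/-! ## The discriminant series -/

/-- The `q`-expansion of `Δ`. -/
abbrev Dq : PowerSeries ℂ := qExpansion 1 discriminant

lemma Dq_mem (O : Subring ℂ) : Dq ∈ coeffRing O := by
  rw [Dq, qExpansion_discriminant_eq]
  have hs : sC ∈ coeffRing O := map_int_mem_coeffRing O sS
  have hr : rC ∈ coeffRing O := map_int_mem_coeffRing O rS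
  have h := map_Dpoly (coeffRing O).subtype ⟨sC, hs⟩ ⟨rC, hr⟩
  simp only [Subring.subtype_apply] at h
  rw [← h]
  exact SetLike.coe_mem _

lemma Dq_coeff_zero : PowerSeries.coeff 0 Dq = 0 := by
  refine PowerSeries.coeff_of_lt_order 0 ?_
  rw [Dq, discriminant_qExpansion_order]
  norm_num

lemma Dq_eq_X_mul : ∃ D1 : PowerSeries ℂ, Dq = PowerSeries.X * D1 ∧ PowerSeries.coeff 0 D1 = 1 := by
  obtain ⟨D1, hD1⟩ : (PowerSeries.X : PowerSeries ℂ) ∣ Dq := by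
    rw [PowerSeries.X_dvd_iff, ← PowerSeries.coeff_zero_eq_constantCoeff_apply]
    exact Dq_coeff_zero
  refine ⟨D1, hD1, ?_⟩
  have h1 : PowerSeries.coeff 1 Dq = 1 := discriminant_qExpansion_coeff_one
  rw [hD1, show (1 : ℕ) = 0 + 1 from rfl, PowerSeries.coeff_succ_X_mul] at h1
  exact h1

/-! ## The additive subgroup `2 O` -/

/-- The additive subgroup `2 O` of `ℂ`. -/
def twoO (O : Subring ℂ) : AddSubgroup ℂ where
  carrier := {x | ∃ c ∈ O, x = 2 * c}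
  zero_mem' := ⟨0, zero_mem _, by simp⟩
  add_mem' := by
    rintro _ _ ⟨a, ha, rfl⟩ ⟨b, hb, rfl⟩
    exact ⟨a + b, add_mem ha hb, by ring⟩
  neg_mem' := by
    rintro _ ⟨a, ha, rfl⟩
    exact ⟨-a, neg_mem ha, by ring⟩

lemma mem_twoO {O : Subring ℂ} {x : ℂ} : x ∈ twoO O ↔ ∃ c ∈ O, x = 2 * c := Iff.rfl

/-! ## The core -/

/-- **Trace core.**  If `Zs ≡ Δ`, `Zw ≡ V_p Δ`, `W₁ ≡ V_p(Δ^p)`, `W₂ ≡ Δ^p` modulo `2 O⟦q⟧` and
`c` is a unit of `O` (`2` not a unit of `O`), then the series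
`Zs^a * W₁ + c • U_p (Zw^a * W₂)  (≡ Δ^a (V_p Δ^p + c U_p Δ^p) = c q^(a+1) + ⋯)`
is not the `q`-expansion of a level-one modular form of weight `k` with `k / 12 ≤ a`. -/
theorem trace_core (p : ℕ) (hp : 2 ≤ p) (hp0 : p ≠ 0) (O : Subring ℂ) (h2O : (2 : ℂ)⁻¹ ∉ O)
    (Zs Zw W₁ W₂ : PowerSeries ℂ) (c d : ℂ) (hc : c ∈ O) (hd : d ∈ O) (hcd : c * d = 1)
    (hZs : Cong2 O Zs Dq) (hZw : Cong2 O Zw (PowerSeries.expand p hp0 Dq))
    (hW₁ : Cong2 O W₁ (PowerSeries.expand p hp0 Dq ^ p)) (hW₂ : Cong2 O W₂ (Dq ^ p))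
    (a : ℕ) {k : ℤ} (hk : k.toNat / 12 ≤ a) (N : ModularForm 𝒮ℒ k)
    (hN : qExpansion 1 N = Zs ^ a * W₁ + c • Up p (Zw ^ a * W₂)) : False := by
  have hD := Dq_mem O
  have hED : PowerSeries.expand p hp0 Dq ∈ coeffRing O := expand_mem_coeffRing O p hp0 hD
  -- the main term
  set G : PowerSeries ℂ := PowerSeries.expand p hp0 (Dq ^ p) + c • Up p (Dq ^ p) with hG
  have hcong : Cong2 O (qExpansion 1 N) (Dq ^ a * G) := by
    rw [hN]
    have h1 : Cong2 O (Zs ^ a * W₁) (Dq ^ a * PowerSeries.expand p hp0 Dq ^ p) :=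
      (hZs.pow hD a).mul hW₁ (pow_mem hD a) (pow_mem hED p)
    have h2 : Cong2 O (Zw ^ a * W₂) (PowerSeries.expand p hp0 Dq ^ a * Dq ^ p) :=
      (hZw.pow hED a).mul hW₂ (pow_mem hED a) (pow_mem hD p)
    have h3 := (h2.up p).smul hc
    have h4 := h1.add h3
    have hrew : Dq ^ a * PowerSeries.expand p hp0 Dq ^ p
        + c • Up p (PowerSeries.expand p hp0 Dq ^ a * Dq ^ p) = Dq ^ a * G := by
      rw [hG, ← map_pow, ← map_pow, Up_expand_mul, mul_add, mul_smul_comm]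
    rwa [hrew] at h4
  obtain ⟨D1, hD1, hD10⟩ := Dq_eq_X_mul
  have hD1pow : ∀ m : ℕ, PowerSeries.coeff 0 (D1 ^ m) = 1 := by
    intro m
    rw [PowerSeries.coeff_zero_eq_constantCoeff_apply, map_pow,
      ← PowerSeries.coeff_zero_eq_constantCoeff_apply, hD10, one_pow]
  have hDpow0 : PowerSeries.coeff 0 (Dq ^ p) = 0 := by
    rw [PowerSeries.coeff_zero_eq_constantCoeff_apply, map_pow,
      ← PowerSeries.coeff_zero_eq_constantCoeff_apply, Dq_coeff_zero, zero_pow hp0]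
  have hDpowp : PowerSeries.coeff p (Dq ^ p) = 1 := by
    rw [hD1, mul_pow, PowerSeries.coeff_X_pow_mul', if_pos le_rfl, Nat.sub_self, hD1pow]
  have hG0 : PowerSeries.coeff 0 G = 0 := by
    rw [hG, map_add, PowerSeries.coeff_smul, coeff_Up, mul_zero, hDpow0,
      PowerSeries.coeff_zero_eq_constantCoeff_apply, PowerSeries.constantCoeff_expand,
      ← PowerSeries.coeff_zero_eq_constantCoeff_apply, hDpow0]
    simp
  have hG1 : PowerSeries.coeff 1 G = c := by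
    rw [hG, map_add, PowerSeries.coeff_smul, coeff_Up, mul_one, hDpowp,
      PowerSeries.coeff_expand_of_not_dvd p hp0 _ (by
        intro h
        have := Nat.le_of_dvd one_pos h
        omega)]
    simp
  have hmain : Dq ^ a * G = PowerSeries.X ^ a * (D1 ^ a * G) := by
    rw [hD1, mul_pow, mul_assoc]
  have hlow : ∀ n : ℕ, n < a + 1 → PowerSeries.coeff n (Dq ^ a * G) = 0 := by
    intro n hn
    rw [hmain, PowerSeries.coeff_X_pow_mul']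
    split_ifs with h
    · have hna : n = a := by omega
      subst hna
      rw [Nat.sub_self, PowerSeries.coeff_zero_eq_constantCoeff_apply, map_mul,
        ← PowerSeries.coeff_zero_eq_constantCoeff_apply,
        ← PowerSeries.coeff_zero_eq_constantCoeff_apply, hG0, mul_zero]
    · rfl
  have htop : PowerSeries.coeff (a + 1) (Dq ^ a * G) = c := by
    rw [hmain, PowerSeries.coeff_X_pow_mul', if_pos (Nat.le_succ a), Nat.add_sub_cancel_left,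
      PowerSeries.coeff_mul, show (1 : ℕ) = 0 + 1 from rfl, Finset.Nat.sum_antidiagonal_succ,
      Finset.Nat.antidiagonal_zero, Finset.sum_singleton]
    simp only [zero_add]
    rw [hD1pow, hG0, hG1, mul_zero, add_zero, one_mul]
  -- Sturm
  have hI : ∀ n : ℕ, n < a + 1 → PowerSeries.coeff n (qExpansion 1 N) ∈ twoO O := by
    intro n hn
    obtain ⟨x, hx, hxe⟩ := hcong.coeff n
    rw [hxe, hlow n hn, zero_add]
    exact ⟨x, hx, rfl⟩
  have hS := helper5604.levelOne_not_congr_pow (twoO O) N (a + 1) (by omega) hI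
  obtain ⟨x, hx, hxe⟩ := hcong.coeff (a + 1)
  rw [hxe, htop] at hS
  obtain ⟨y, hy, hye⟩ := hS
  apply h2O
  have h2 : (2 : ℂ)⁻¹ = (y - x) * d := by
    have hc2 : c = 2 * (y - x) := by linear_combination hye
    have h1 : 2 * ((y - x) * d) = 1 := by rw [← mul_assoc, ← hc2, hcd]
    exact (eq_inv_of_mul_eq_one_right h1).symm
  rw [h2]
  exact mul_mem (sub_mem hy hx) hd

/-! ## The two conjugates of `Z = Bpoly E₄ E₆ H / 256` -/

/-- The expansion at `∞` of `Z = Bpoly E₄ E₆ H / 256`, `A` the expansion of `H`. -/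
def Zs (A : PowerSeries ℂ) : PowerSeries ℂ :=
  (256 : ℂ)⁻¹ • Bpoly (qExpansion 1 E₄) (qExpansion 1 E₆) A

/-- The expansion of `Z♯ (z) = (Z ∣ S)(p z)`: level-one forms become `V_p`, `H` becomes
`-(1/p) U_p H`. -/
def Zw (p : ℕ) (hp0 : p ≠ 0) (A : PowerSeries ℂ) : PowerSeries ℂ :=
  (256 : ℂ)⁻¹ • Bpoly (PowerSeries.expand p hp0 (qExpansion 1 E₄))
    (PowerSeries.expand p hp0 (qExpansion 1 E₆)) (-(p : ℂ)⁻¹ • Up p A)

lemma inv_smul_mul (Y : PowerSeries ℂ) : (256 : ℂ)⁻¹ • ((256 : PowerSeries ℂ) * Y) = Y := by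
  rw [ofNat_mul_eq_smul, smul_smul, inv_mul_cancel₀ (by norm_num), one_smul]

lemma cong_Zs (O : Subring ℂ) {A : PowerSeries ℂ}
    (hA : ∃ h ∈ coeffRing O, A = 1 + 8 * h ∨ A = 5 + 8 * h) : Cong2 O (Zs A) Dq := by
  obtain ⟨Q, hQ, hB⟩ := Bpoly_qExpansion_infty O hA
  exact ⟨Q, hQ, by rw [Zs, hB, inv_smul_mul]⟩

lemma cong_Zw (O : Subring ℂ) (p : ℕ) (hp0 : p ≠ 0) {A : PowerSeries ℂ}
    (hX : ∃ h ∈ coeffRing O, -(p : ℂ)⁻¹ • Up p A = 1 + 8 * h ∨ -(p : ℂ)⁻¹ • Up p A = 5 + 8 * h) :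
    Cong2 O (Zw p hp0 A) (PowerSeries.expand p hp0 Dq) := by
  obtain ⟨Q, hQ, hB⟩ := Bpoly_qExpansion_expand O p hp0 hX
  exact ⟨Q, hQ, by rw [Zw, hB, inv_smul_mul]⟩

/-- If `A = u + 8 h` and `8 ∣ u + u' p` then `-(1/p) U_p A = u' + 8 h'`. -/
lemma conj_aux (p : ℕ) (hp0 : p ≠ 0) (O : Subring ℂ) (hpO : (p : ℂ)⁻¹ ∈ O) (u u' m : ℕ)
    (hm : u + u' * p = 8 * m) {A h : PowerSeries ℂ} (hh : h ∈ coeffRing O)
    (hA : A = PowerSeries.C (u : ℂ) + (8 : ℂ) • h) :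
    ∃ h' ∈ coeffRing O, -(p : ℂ)⁻¹ • Up p A = PowerSeries.C (u' : ℂ) + (8 : ℂ) • h' := by
  have hp' : (p : ℂ) ≠ 0 := by exact_mod_cast hp0
  have hmC : (u : ℂ) + u' * p = 8 * m := by exact_mod_cast congrArg (Nat.cast : ℕ → ℂ) hm
  refine ⟨PowerSeries.C (-(m : ℂ) * (p : ℂ)⁻¹) + (-(p : ℂ)⁻¹) • Up p h, ?_, ?_⟩
  · exact add_mem (C_mem_coeffRing (mul_mem (neg_mem (natCast_mem O m)) hpO))
      (smul_mem_coeffRing (neg_mem hpO) (Up_mem_coeffRing p hh))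
  · rw [hA, Up_add, Up_C p hp0, Up_smul]
    ext n
    simp only [map_add, PowerSeries.coeff_smul, PowerSeries.coeff_C, coeff_Up, smul_eq_mul]
    split_ifs with hn
    · field_simp
      linear_combination (-1 : ℂ) * hmC
    · ring

/-- For `p ≡ 3 (mod 4)`: if `A ≡ 1` or `5 (mod 8)` then so is `-(1/p) U_p A`. -/
lemma conj_form (p : ℕ) (hp0 : p ≠ 0) (hp4 : p % 4 = 3) (O : Subring ℂ) (hpO : (p : ℂ)⁻¹ ∈ O)
    {A : PowerSeries ℂ} (hA : ∃ h ∈ coeffRing O, A = 1 + 8 * h ∨ A = 5 + 8 * h) :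
    ∃ h ∈ coeffRing O, -(p : ℂ)⁻¹ • Up p A = 1 + 8 * h ∨ -(p : ℂ)⁻¹ • Up p A = 5 + 8 * h := by
  have e1 : (1 : PowerSeries ℂ) = PowerSeries.C ((1 : ℕ) : ℂ) := by simp
  have e5 : (5 : PowerSeries ℂ) = PowerSeries.C ((5 : ℕ) : ℂ) := by
    rw [Nat.cast_ofNat, map_ofNat]
  obtain ⟨h, hh, hA | hA⟩ := hA
  · rw [e1, ofNat_mul_eq_smul] at hA
    rcases (by omega : p % 8 = 7 ∨ p % 8 = 3) with h8 | h8
    · obtain ⟨h', hh', e⟩ := conj_aux p hp0 O hpO 1 1 ((1 + 1 * p) / 8) (by omega) hh hA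
      exact ⟨h', hh', Or.inl (by rw [e, e1, ofNat_mul_eq_smul])⟩
    · obtain ⟨h', hh', e⟩ := conj_aux p hp0 O hpO 1 5 ((1 + 5 * p) / 8) (by omega) hh hA
      exact ⟨h', hh', Or.inr (by rw [e, e5, ofNat_mul_eq_smul])⟩
  · rw [e5, ofNat_mul_eq_smul] at hA
    rcases (by omega : p % 8 = 7 ∨ p % 8 = 3) with h8 | h8
    · obtain ⟨h', hh', e⟩ := conj_aux p hp0 O hpO 5 5 ((5 + 5 * p) / 8) (by omega) hh hA
      exact ⟨h', hh', Or.inr (by rw [e, e5, ofNat_mul_eq_smul])⟩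
    · obtain ⟨h', hh', e⟩ := conj_aux p hp0 O hpO 5 1 ((5 + 1 * p) / 8) (by omega) hh hA
      exact ⟨h', hh', Or.inl (by rw [e, e1, ofNat_mul_eq_smul])⟩

/-- **Trace core, test form `Z^(3p) (V_p Δ)^p`** (weight `36 p`). -/
theorem trace_core_delta (p : ℕ) (hp : p.Prime) (hp4 : p % 4 = 3) (O : Subring ℂ)
    (hpO : (p : ℂ)⁻¹ ∈ O) (h2O : (2 : ℂ)⁻¹ ∉ O) (A : PowerSeries ℂ)
    (hA : ∃ h ∈ coeffRing O, A = 1 + 8 * h ∨ A = 5 + 8 * h)
    (c d : ℂ) (hc : c ∈ O) (hd : d ∈ O) (hcd : c * d = 1)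
    {k : ℤ} (hk : k.toNat / 12 ≤ 3 * p) (N : ModularForm 𝒮ℒ k)
    (hN : qExpansion 1 N = Zs A ^ (3 * p) * PowerSeries.expand p hp.ne_zero Dq ^ p
      + c • Up p (Zw p hp.ne_zero A ^ (3 * p) * Dq ^ p)) : False :=
  trace_core p hp.two_le hp.ne_zero O h2O (Zs A) (Zw p hp.ne_zero A) _ _ c d hc hd hcd
    (cong_Zs O hA) (cong_Zw O p hp.ne_zero (conj_form p hp.ne_zero hp4 O hpO hA))
    (cong2_refl O _) (cong2_refl O _) (3 * p) hk N hN

/-- **Trace core, test form `Z^(2p) (Z♯)^p`** (weight `24 p`). -/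
theorem trace_core_sharp (p : ℕ) (hp : p.Prime) (hp4 : p % 4 = 3) (O : Subring ℂ)
    (hpO : (p : ℂ)⁻¹ ∈ O) (h2O : (2 : ℂ)⁻¹ ∉ O) (A : PowerSeries ℂ)
    (hA : ∃ h ∈ coeffRing O, A = 1 + 8 * h ∨ A = 5 + 8 * h)
    (c d : ℂ) (hc : c ∈ O) (hd : d ∈ O) (hcd : c * d = 1)
    {k : ℤ} (hk : k.toNat / 12 ≤ 2 * p) (N : ModularForm 𝒮ℒ k)
    (hN : qExpansion 1 N = Zs A ^ (2 * p) * Zw p hp.ne_zero A ^ p
      + c • Up p (Zw p hp.ne_zero A ^ (2 * p) * Zs A ^ p)) : False := by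
  have hZs := cong_Zs O hA
  have hZw := cong_Zw O p hp.ne_zero (conj_form p hp.ne_zero hp4 O hpO hA)
  exact trace_core p hp.two_le hp.ne_zero O h2O (Zs A) (Zw p hp.ne_zero A) _ _ c d hc hd hcd
    hZs hZw (hZw.pow (expand_mem_coeffRing O p hp.ne_zero (Dq_mem O)) p)
    (hZs.pow (Dq_mem O) p) (2 * p) hk N hN

/-! ## The ring `ℤ₍₂₎ ⊆ ℂ` -/

/-- Rational numbers with odd denominator, inside `ℂ`. -/
def oddInt : Subring ℂ where
  carrier := {x | ∃ (a : ℤ) (b : ℕ), Odd b ∧ x * b = a}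
  mul_mem' := by
    rintro x y ⟨a, b, hb, h⟩ ⟨a', b', hb', h'⟩
    exact ⟨a * a', b * b', hb.mul hb', by push_cast; linear_combination (y * b') * h + a * h'⟩
  one_mem' := ⟨1, 1, odd_one, by simp⟩
  add_mem' := by
    rintro x y ⟨a, b, hb, h⟩ ⟨a', b', hb', h'⟩
    exact ⟨a * b' + a' * b, b * b', hb.mul hb', by
      push_cast; linear_combination (b' : ℂ) * h + (b : ℂ) * h'⟩
  zero_mem' := ⟨0, 1, odd_one, by simp⟩
  neg_mem' := by
    rintro x ⟨a, b, hb, h⟩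
    exact ⟨-a, b, hb, by push_cast; linear_combination -h⟩

lemma inv_mem_oddInt (p : ℕ) (hp : Odd p) : (p : ℂ)⁻¹ ∈ oddInt := by
  have hp' : (p : ℂ) ≠ 0 := by exact_mod_cast hp.pos.ne'
  exact ⟨1, p, hp, by rw [inv_mul_cancel₀ hp']; simp⟩

lemma two_inv_not_mem_oddInt : (2 : ℂ)⁻¹ ∉ oddInt := by
  rintro ⟨a, b, hb, h⟩
  have h1 : (b : ℂ) = 2 * a := by
    have : (2 : ℂ)⁻¹ * b * 2 = a * 2 := by rw [h]
    rw [mul_comm, ← mul_assoc, mul_inv_cancel₀ (by norm_num : (2 : ℂ) ≠ 0), one_mul] at this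
    linear_combination this
  have h2 : (b : ℤ) = 2 * a := by exact_mod_cast h1
  obtain ⟨t, rfl⟩ := hb
  push_cast at h2
  omega

/-- A series with integral coefficients `≡ u (mod 8)`, `u ≡ 1, 5 (mod 8)`, is `1 + 8h` or
`5 + 8h` with `h` integral. -/
lemma normal_form (A : PowerSeries ℂ) (u : ℤ) (hu : u % 8 = 1 ∨ u % 8 = 5)
    (h0 : PowerSeries.coeff 0 A = u)
    (h8 : ∀ n, 1 ≤ n → ∃ z : ℤ, PowerSeries.coeff n A = 8 * (z : ℂ)) :
    ∃ h ∈ coeffRing oddInt, A = 1 + 8 * h ∨ A = 5 + 8 * h := by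
  obtain ⟨u0, hu0, t, ht⟩ : ∃ u0 : ℕ, (u0 = 1 ∨ u0 = 5) ∧ ∃ t : ℤ, u = u0 + 8 * t := by
    rcases hu with h | h
    · exact ⟨1, Or.inl rfl, u / 8, by omega⟩
    · exact ⟨5, Or.inr rfl, u / 8, by omega⟩
  choose z hz using h8
  let h : PowerSeries ℂ := PowerSeries.mk fun n =>
    if hn : 1 ≤ n then ((z n hn : ℤ) : ℂ) else (t : ℂ)
  have hh : h ∈ coeffRing oddInt := by
    rw [mem_coeffRing_iff]
    intro n
    simp only [h, PowerSeries.coeff_mk]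
    split_ifs
    · exact intCast_mem _ _
    · exact intCast_mem _ _
  have key : A = PowerSeries.C (u0 : ℂ) + (8 : ℂ) • h := by
    ext n
    simp only [map_add, PowerSeries.coeff_smul, PowerSeries.coeff_C, smul_eq_mul, h,
      PowerSeries.coeff_mk]
    by_cases hn : 1 ≤ n
    · rw [dif_pos hn, if_neg (by omega), zero_add, hz n hn]
    · have hn0 : n = 0 := by omega
      subst hn0
      rw [dif_neg hn, if_pos rfl, h0, ht]
      push_cast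
      ring
  refine ⟨h, hh, ?_⟩
  rcases hu0 with rfl | rfl
  · left
    rw [key, ofNat_mul_eq_smul]
    simp
  · right
    rw [key, ofNat_mul_eq_smul, Nat.cast_ofNat, map_ofNat]

/-- The scalar `p * (1/p)^e` is a unit of `ℤ₍₂₎` for odd `p`. -/
lemma unit_scalar (p : ℕ) (hp : Odd p) (e : ℕ) :
    (p : ℂ) * ((p : ℂ)⁻¹) ^ e ∈ oddInt ∧ (p : ℂ)⁻¹ * (p : ℂ) ^ e ∈ oddInt ∧
      ((p : ℂ) * ((p : ℂ)⁻¹) ^ e) * ((p : ℂ)⁻¹ * (p : ℂ) ^ e) = 1 := by
  have hp' : (p : ℂ) ≠ 0 := by exact_mod_cast hp.pos.ne'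
  refine ⟨mul_mem (natCast_mem _ p) (pow_mem (inv_mem_oddInt p hp) e),
    mul_mem (inv_mem_oddInt p hp) (pow_mem (natCast_mem _ p) e), ?_⟩
  rw [mul_mul_mul_comm, mul_inv_cancel₀ hp', one_mul, ← mul_pow, inv_mul_cancel₀ hp', one_pow]

/-- **2-adic trace test, `ℤ₍₂₎` form, test form `Z^(3p) (V_p Δ)^p`.**  Let `p ≡ 3 (mod 4)` be
prime and `A` a series with `a₀ = u ≡ 1, 5 (mod 8)` and `a_n ∈ 8ℤ` (`n ≥ 1`).  Then the series
`Zs A^(3p) * V_p(Δ)^p + p^(1-12p) • U_p (Zw A^(3p) * Δ^p)` is not the `q`-expansion of a level-one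
modular form of weight `36 p`. -/
theorem no_series_delta (p : ℕ) (hp : p.Prime) (hp4 : p % 4 = 3) (A : PowerSeries ℂ) (u : ℤ)
    (hu : u % 8 = 1 ∨ u % 8 = 5) (h0 : PowerSeries.coeff 0 A = u)
    (h8 : ∀ n, 1 ≤ n → ∃ z : ℤ, PowerSeries.coeff n A = 8 * (z : ℂ))
    {k : ℤ} (hk : k.toNat / 12 ≤ 3 * p) (N : ModularForm 𝒮ℒ k)
    (hN : qExpansion 1 N = Zs A ^ (3 * p) * PowerSeries.expand p hp.ne_zero Dq ^ p
      + ((p : ℂ) * ((p : ℂ)⁻¹) ^ (12 * p)) • Up p (Zw p hp.ne_zero A ^ (3 * p) * Dq ^ p)) :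
    False := by
  have hodd : Odd p := Nat.odd_iff.mpr (by omega)
  obtain ⟨hc, hd, hcd⟩ := unit_scalar p hodd (12 * p)
  exact trace_core_delta p hp hp4 oddInt (inv_mem_oddInt p hodd) two_inv_not_mem_oddInt A
    (normal_form A u hu h0 h8) _ _ hc hd hcd hk N hN

/-- **2-adic trace test, `ℤ₍₂₎` form, test form `Z^(2p) (Z♯)^p`** (weight `24 p`). -/
theorem no_series_sharp (p : ℕ) (hp : p.Prime) (hp4 : p % 4 = 3) (A : PowerSeries ℂ) (u : ℤ)
    (hu : u % 8 = 1 ∨ u % 8 = 5) (h0 : PowerSeries.coeff 0 A = u)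
    (h8 : ∀ n, 1 ≤ n → ∃ z : ℤ, PowerSeries.coeff n A = 8 * (z : ℂ))
    {k : ℤ} (hk : k.toNat / 12 ≤ 2 * p) (N : ModularForm 𝒮ℒ k)
    (hN : qExpansion 1 N = Zs A ^ (2 * p) * Zw p hp.ne_zero A ^ p
      + ((p : ℂ) * ((p : ℂ)⁻¹) ^ (8 * p)) • Up p (Zw p hp.ne_zero A ^ (2 * p) * Zs A ^ p)) :
    False := by
  have hodd : Odd p := Nat.odd_iff.mpr (by omega)
  obtain ⟨hc, hd, hcd⟩ := unit_scalar p hodd (8 * p)
  exact trace_core_sharp p hp hp4 oddInt (inv_mem_oddInt p hodd) two_inv_not_mem_oddInt A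
    (normal_form A u hu h0 h8) _ _ hc hd hcd hk N hN

end

end Fermat.Agent.S16.helper9724
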